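import Fermat.Agent.BakerExplicit.Numeric

/-!
# The parameters over a number field

The parameters are those over `ℚ` with the base multiplied by the degree: the norm costs the
degree times the size of the integers.
-/

set_option autoImplicit false

namespace FA.BakerExplicit

/-- The base of the parameters over a field of degree at most `d`. -/
def baseAlg (n d h m : ℕ) : ℕ := 2 ^ (4 * n ^ 2 + 18) * d * (h + m)

/-- The logarithm of the terms over a field. -/
def termLogAlg (n h m P : ℕ) : ℕ :=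
  12 * n ^ 2 * P + 2 + 2 * (n * orders n P 0) * (m + 1 + 6 * n * P) +
    2 * n * h * degree n P * intRange P 0

variable {n d h m P : ℕ}

theorem baseAlg_facts (hh : 1 ≤ h) (hd : 1 ≤ d) :
    2 ^ 17 * n ^ 2 * 2 ^ (3 * n ^ 2) * d ≤ baseAlg n d h m ∧ m ≤ baseAlg n d h m ∧
      2 ^ 17 * n * h * d ≤ baseAlg n d h m := by
  have h2 : n ^ 2 ≤ 2 ^ (n ^ 2) := Nat.lt_two_pow_self.le
  have hnn : n ≤ n ^ 2 := Nat.le_self_pow two_ne_zero n
  have hhm : 1 ≤ h + m := by omega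
  refine ⟨?_, ?_, ?_⟩
  · calc 2 ^ 17 * n ^ 2 * 2 ^ (3 * n ^ 2) * d
        ≤ 2 ^ 18 * 2 ^ (n ^ 2) * 2 ^ (3 * n ^ 2) * d := by gcongr <;> norm_num
      _ = 2 ^ (4 * n ^ 2 + 18) * d * 1 := by
          rw [← pow_add, ← pow_add, mul_one]
          ring_nf
      _ ≤ _ := Nat.mul_le_mul_left _ hhm
  · exact (Nat.le_add_left m h).trans
      (Nat.le_mul_of_pos_left _ (Nat.mul_pos (Nat.two_pow_pos _) hd))
  · calc 2 ^ 17 * n * h * d ≤ 2 ^ 18 * 2 ^ (4 * n ^ 2) * (h + m) * d := by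
          gcongr
          · norm_num
          · norm_num
          · exact (hnn.trans h2).trans (Nat.pow_le_pow_right two_pos (by omega))
          · omega
      _ = _ := by rw [baseAlg, pow_add]; ring

theorem unknowns_alg (hn : 1 ≤ n) (hd : 1 ≤ d)
    (hP : 2 ^ 17 * n ^ 2 * 2 ^ (3 * n ^ 2) * d ≤ P) :
    4 * (2 * d * (orders n P 0 ^ (n - 1) * intRange P 0)) ≤ degree n P ^ n := by
  obtain ⟨r, rfl⟩ : ∃ r, n = r + 1 := ⟨n - 1, by omega⟩
  have hP0 : 2 ^ (3 * (r + 1) ^ 2) ≤ P := by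
    refine le_trans (Nat.le_mul_of_pos_left _ (show 0 < 2 ^ 17 * (r + 1) ^ 2 by positivity)) ?_
    exact le_trans (Nat.le_mul_of_pos_right _ hd) hP
  have hP8 : 8 * d ≤ P := by
    refine le_trans (Nat.mul_le_mul_right d ?_) hP
    calc 8 = 8 * 1 * 1 := rfl
      _ ≤ _ := Nat.mul_le_mul (Nat.mul_le_mul (by norm_num) (Nat.one_le_pow _ _ hn))
        Nat.one_le_two_pow
  rw [orders, intRange, degree, Nat.sub_zero, Nat.add_sub_cancel, mul_pow, mul_zero, add_zero,
    ← pow_mul P, ← pow_mul P, ← mul_assoc 4, ← mul_assoc 4]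
  calc 4 * 2 * d * ((2 ^ (3 * (r + 1) ^ 2)) ^ r * P ^ (6 * (r + 1) * r) * P ^ 2)
      ≤ P * (P ^ r * P ^ (6 * (r + 1) * r) * P ^ 2) :=
        Nat.mul_le_mul hP8 (Nat.mul_le_mul_right _ (Nat.mul_le_mul_right _
          (Nat.pow_le_pow_left hP0 r)))
    _ = P ^ (6 * (r + 1) * r + r + 3) := by ring
    _ ≤ P ^ ((6 * (r + 1) - 3) * (r + 1)) := by
      refine Nat.pow_le_pow_right (by omega) ?_
      rw [show 6 * (r + 1) - 3 = 6 * r + 3 by omega]
      nlinarith

theorem one_le_of_facts (hn : 1 ≤ n) (hd : 1 ≤ d)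
    (hP : 2 ^ 17 * n ^ 2 * 2 ^ (3 * n ^ 2) * d ≤ P) : 1 ≤ P :=
  (Nat.one_le_iff_ne_zero.2 (by positivity)).trans hP

theorem termLogAlg_le (hn : 1 ≤ n) (hd : 1 ≤ d) (hm : m ≤ P)
    (hP : 2 ^ 17 * n ^ 2 * 2 ^ (3 * n ^ 2) * d ≤ P) (hPh : 2 ^ 17 * n * h * d ≤ P) :
    2 * d * (termLogAlg n h m P + 4) ≤ P ^ (6 * n) * P ^ 2 := by
  set a := 2 ^ (3 * n ^ 2)
  set Q := P ^ (6 * n)
  have ha : 1 ≤ a := Nat.one_le_two_pow
  have hn2 : 1 ≤ n ^ 2 := Nat.one_le_pow _ _ hn
  have hP1 := one_le_of_facts hn hd hP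
  have hQ : 1 ≤ Q := Nat.one_le_pow _ _ hP1
  have hL : degree n P * P ^ 2 ≤ Q :=
    (Nat.mul_le_mul_left _ (Nat.pow_le_pow_right hP1 (by norm_num))).trans_eq (degree_mul_pow hn)
  have he : m + 1 + 6 * n * P ≤ 8 * n * P := by
    have h1 : P ≤ n * P := Nat.le_mul_of_pos_left _ hn
    rw [mul_assoc, mul_assoc]
    omega
  have ho : orders n P 0 = a * Q := by simp only [orders, Nat.sub_zero, a, Q]
  have hr : intRange P 0 = P ^ 2 := by simp [intRange]
  calc 2 * d * (termLogAlg n h m P + 4)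
      ≤ 2 * d * (12 * n ^ 2 * P + 2 * (n * (a * Q)) * (8 * n * P) + 2 * n * h * Q +
          6 * (n ^ 2 * P)) := by
        refine Nat.mul_le_mul_left _ ?_
        rw [termLogAlg, ho, hr, mul_assoc (2 * n * h) (degree n P)]
        have c1 : 2 * (n * (a * Q)) * (m + 1 + 6 * n * P) ≤
            2 * (n * (a * Q)) * (8 * n * P) := Nat.mul_le_mul_left _ he
        have c2 : 2 * n * h * (degree n P * P ^ 2) ≤ 2 * n * h * Q := Nat.mul_le_mul_left _ hL
        have c3 : 1 ≤ n ^ 2 * P := Nat.mul_pos hn2 hP1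
        omega
    _ = 2 * d * (18 * n ^ 2 * P * 1 + (16 * n ^ 2 * a) * P * Q + 2 * n * h * 1 * Q) := by ring
    _ ≤ 2 * d * (18 * n ^ 2 * a * P * Q + (16 * n ^ 2 * a) * P * Q + 2 * n * h * P * Q) := by
        refine Nat.mul_le_mul_left _ ?_
        have c1 : 18 * n ^ 2 * P * 1 ≤ 18 * n ^ 2 * a * P * Q :=
          Nat.mul_le_mul (Nat.mul_le_mul_right _ (Nat.le_mul_of_pos_right _ ha)) hQ
        have c2 : 2 * n * h * 1 * Q ≤ 2 * n * h * P * Q :=
          Nat.mul_le_mul_right _ (Nat.mul_le_mul_left _ hP1)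
        omega
    _ = (68 * (n ^ 2 * a * d) + 4 * (n * h * d)) * P * Q := by ring
    _ ≤ P * P * Q := by
        refine Nat.mul_le_mul_right _ (Nat.mul_le_mul_right _ ?_)
        have c1 : 2 ^ 17 * (n ^ 2 * a * d) ≤ P := by simpa only [mul_assoc] using hP
        have c2 : 2 ^ 17 * (n * h * d) ≤ P := by simpa only [mul_assoc] using hPh
        omega
    _ = _ := by ring

/-- **The gain of a step over a field.** -/
theorem step_gain_alg (hn : 1 ≤ n) (hd : 1 ≤ d) (hm : m ≤ P)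
    (hP : 2 ^ 17 * n ^ 2 * 2 ^ (3 * n ^ 2) * d ≤ P) (hPh : 2 ^ 17 * n * h * d ≤ P) (j : ℕ) :
    termLogAlg n h m P + 4 * n * h * degree n P * (16 * intRange P (j + 1)) +
      n * h * degree n P * intRange P (j + 1) +
      d * (termLogAlg n h m P + 2 * n * h * degree n P * intRange P (j + 1)) + 4 ≤
        2 * (intRange P j * orders n P (j + 1)) := by
  have hP1 := one_le_of_facts hn hd hP
  have hS : P ^ 2 ≤ intRange P j := Nat.pow_le_pow_right hP1 (by omega)
  have hT : P ^ (6 * n) ≤ orders n P (j + 1) := Nat.le_mul_of_pos_left _ (Nat.two_pow_pos _)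
  set G := intRange P j * orders n P (j + 1)
  set U := termLogAlg n h m P
  set V := n * h * degree n P * intRange P (j + 1) with hV
  have h1 : 2 * d * (U + 4) ≤ G :=
    (termLogAlg_le hn hd hm hP hPh).trans (by rw [mul_comm]; exact Nat.mul_le_mul hS hT)
  have h2 : 67 * d * V ≤ G := by
    calc 67 * d * V = 67 * (n * h * d) * (degree n P * P ^ 2) * intRange P j := by
          simp only [hV, intRange]; ring
      _ ≤ P * (degree n P * P ^ 2) * intRange P j := by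
          gcongr
          have c2 : 2 ^ 17 * (n * h * d) ≤ P := by simpa only [mul_assoc] using hPh
          omega
      _ = intRange P j * (degree n P * P ^ 3) := by ring
      _ ≤ _ := by rw [degree_mul_pow hn]; exact Nat.mul_le_mul_left _ hT
  have h3 : U + 4 ≤ d * (U + 4) := Nat.le_mul_of_pos_left _ hd
  have h4 : V ≤ d * V := Nat.le_mul_of_pos_left _ hd
  have e1 : 2 * d * (U + 4) = d * U + d * (U + 4) + 4 * d := by ring
  have e2 : 67 * d * V = 67 * (d * V) := by ring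
  calc _ = U + 65 * V + (d * U + 2 * (d * V)) + 4 := by rw [hV]; ring
    _ ≤ _ := by omega

/-- The logarithm of all that multiplies `‖Λ‖`. -/
def lossLogAlg (n d h m P : ℕ) : ℕ :=
  n * h * orders n P 0 + (termLogAlg n h m P + 2 * n * h * degree n P * intRange P (3 * n ^ 2) + 1 +
    degree n P * intRange P (3 * n ^ 2)) + (intRange P (3 * n ^ 2) +
    (4 + intRange P (3 * n ^ 2)) * orders n P 0 +
      (5 + (2 + 6 * n ^ 2) * P) * ((intRange P (3 * n ^ 2) + 1) * orders n P 0)) +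
    n * h * degree n P * intRange P (3 * n ^ 2) +
    d * (termLogAlg n h m P + 2 * n * h * degree n P * intRange P (3 * n ^ 2)) + 4

theorem lossLogAlg_le (hn : 1 ≤ n) (hh : 1 ≤ h) (hd : 1 ≤ d) (hm : m ≤ P)
    (hP : 2 ^ 17 * n ^ 2 * 2 ^ (3 * n ^ 2) * d ≤ P) (hPh : 2 ^ 17 * n * h * d ≤ P) :
    lossLogAlg n d h m P ≤ P ^ kappa n := by
  set a := 2 ^ (3 * n ^ 2)
  set Q := P ^ (6 * n)
  set σ := intRange P (3 * n ^ 2) with hσdef
  have hσe : σ = P ^ (2 + 6 * n ^ 2) := by rw [hσdef, intRange]; congr 1; ring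
  have ha : 1 ≤ a := Nat.one_le_two_pow
  have hn2 : 1 ≤ n ^ 2 := Nat.one_le_pow _ _ hn
  have hP1 := one_le_of_facts hn hd hP
  have haP : a ≤ P := le_trans (Nat.le_mul_of_pos_left _ (show 0 < 2 ^ 17 * n ^ 2 by positivity))
    (le_trans (Nat.le_mul_of_pos_right _ hd) hP)
  have hσ : P ^ 2 ≤ σ := Nat.pow_le_pow_right hP1 (by omega)
  have hσ1 : 1 ≤ σ := le_trans (Nat.one_le_pow _ _ hP1) hσ
  have hQ : 1 ≤ Q := Nat.one_le_pow _ _ hP1
  have hL : degree n P ≤ Q := Nat.pow_le_pow_right hP1 (Nat.sub_le _ _)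
  have hnh : n * h ≤ P := le_trans (Nat.le_mul_of_pos_left _ (show 0 < 2 ^ 17 by norm_num))
    (le_trans (by rw [← mul_assoc]; exact Nat.le_mul_of_pos_right _ hd) hPh)
  set X := n ^ 2 * d * P ^ 2 * Q * σ with hX
  have hX1 : ∀ {y : ℕ}, y ≤ d * (P ^ 2 * Q * σ) → y ≤ X := fun {y} hy => by
    refine hy.trans ((Nat.le_mul_of_pos_left _ hn2).trans_eq ?_)
    rw [hX]; ring
  have hd1 : ∀ y : ℕ, y ≤ d * y := fun y => Nat.le_mul_of_pos_left _ hd
  have ho : orders n P 0 = a * Q := by simp only [orders, Nat.sub_zero, a, Q]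
  have hT : orders n P 0 ≤ P * Q := ho ▸ Nat.mul_le_mul_right _ haP
  have hPQσ : P * Q * σ ≤ P ^ 2 * Q * σ :=
    Nat.mul_le_mul_right _ (Nat.mul_le_mul_right _ (Nat.le_self_pow two_ne_zero P))
  have t1 : n * h * orders n P 0 ≤ X := hX1 <| ((Nat.mul_le_mul hnh hT).trans (by
    rw [← mul_assoc, ← pow_two]; exact Nat.le_mul_of_pos_right _ hσ1)).trans (hd1 _)
  have t2 : 2 * d * (termLogAlg n h m P + 4) ≤ X := hX1 <| ((termLogAlg_le hn hd hm hP hPh).trans
    (by rw [mul_comm]; exact Nat.le_mul_of_pos_right _ hσ1)).trans (hd1 _)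
  have t2' : termLogAlg n h m P + 4 ≤ d * (termLogAlg n h m P + 4) := hd1 _
  have t3 : d * (n * h * degree n P * σ) ≤ X := hX1 <| Nat.mul_le_mul_left _
    ((Nat.mul_le_mul_right _ (Nat.mul_le_mul hnh hL)).trans hPQσ)
  have t3' : n * h * degree n P * σ ≤ d * (n * h * degree n P * σ) := hd1 _
  have t4 : degree n P * σ ≤ X := le_trans (Nat.mul_le_mul_right _
    (Nat.le_mul_of_pos_left _ (Nat.mul_pos hn hh))) (t3'.trans t3)
  have t5 : σ ≤ X := le_trans (Nat.le_mul_of_pos_left _ (Nat.mul_pos (Nat.mul_pos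
    (Nat.mul_pos hn2 hd) (Nat.one_le_pow _ _ hP1)) hQ)) (le_of_eq hX.symm)
  have t6 : σ * orders n P 0 ≤ X := hX1 <| ((Nat.mul_le_mul_left σ hT).trans (by
    rw [mul_comm]; exact hPQσ)).trans (hd1 _)
  have t7 : orders n P 0 ≤ X := le_trans (Nat.le_mul_of_pos_left _ hσ1) t6
  have t8 : (5 + (2 + 6 * n ^ 2) * P) * ((σ + 1) * orders n P 0) ≤ 26 * X := by
    calc (5 + (2 + 6 * n ^ 2) * P) * ((σ + 1) * orders n P 0)
        ≤ (13 * n ^ 2 * P) * ((2 * σ) * (P * Q)) * d := by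
          refine (Nat.mul_le_mul ?_ (Nat.mul_le_mul (by omega) hT)).trans
            (Nat.le_mul_of_pos_right _ hd)
          calc 5 + (2 + 6 * n ^ 2) * P ≤ 5 * (n ^ 2 * P) + 8 * n ^ 2 * P := Nat.add_le_add
                (Nat.le_mul_of_pos_right _ (Nat.mul_pos hn2 hP1))
                (Nat.mul_le_mul_right _ (by omega))
            _ = 13 * n ^ 2 * P := by ring
      _ = 26 * X := by rw [hX]; ring
  have hfin : 64 * X ≤ P ^ kappa n := by
    calc 64 * X = 64 * n ^ 2 * d * (P ^ 2 * Q * σ) := by rw [hX]; ring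
      _ ≤ P * (P ^ 2 * Q * σ) := Nat.mul_le_mul_right _ (le_trans (Nat.mul_le_mul_right _
            (le_trans (Nat.mul_le_mul_right _ (show 64 ≤ 2 ^ 17 by norm_num))
              (Nat.le_mul_of_pos_right _ ha))) hP)
      _ = P ^ (6 * n ^ 2 + 6 * n + 5) := by simp only [Q, hσe]; ring
      _ ≤ _ := Nat.pow_le_pow_right hP1 (by simp only [kappa]; omega)
  have e1 : lossLogAlg n d h m P = n * h * orders n P 0 + termLogAlg n h m P +
      3 * (n * h * degree n P * σ) + degree n P * σ + σ + 4 * orders n P 0 + σ * orders n P 0 +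
      (5 + (2 + 6 * n ^ 2) * P) * ((σ + 1) * orders n P 0) + d * termLogAlg n h m P +
      2 * (d * (n * h * degree n P * σ)) + 5 := by
    rw [lossLogAlg, ← hσdef]; ring
  have e2 : 2 * d * (termLogAlg n h m P + 4) =
      d * termLogAlg n h m P + d * (termLogAlg n h m P + 4) + 4 * d := by ring
  omega

end FA.BakerExplicit
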