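import Fermat.Agent.BakerExplicit.Setup

/-!
# The functions of Baker's method for complex logarithms

The functions of the method with rational logarithms, for complex `l`: their derivatives, their
sizes, and their distance at the integers from the exponential sums in the `exp (∑ λ i l i)`.
-/

set_option autoImplicit false

noncomputable section

namespace FA.BakerExplicit.Algebraic

open Finset

variable {n L : ℕ}

/-- The frequency. -/
def omega (l : Fin n → ℂ) (b : Fin n → ℤ) (i₀ : Fin n) (lam : Fin n → Fin L) : ℂ :=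
  ∑ i : Other i₀, (coord b i₀ lam i.1 : ℂ) * (l i.1 / b i₀)

/-- The logarithm of `∏ α i ^ λ i`. -/
def mu (l : Fin n → ℂ) (lam : Fin n → Fin L) : ℂ := ∑ i, ((lam i).val : ℂ) * l i

/-- The auxiliary functions. -/
def auxFun (l : Fin n → ℂ) (b : Fin n → ℤ) (i₀ : Fin n) (p : (Fin n → Fin L) → ℤ)
    (t : Other i₀ → ℕ) (x : ℂ) : ℂ :=
  ∑ lam, ((p lam * monom b i₀ t lam : ℤ) : ℂ) * Complex.exp (omega l b i₀ lam * x)

/-- The algebraic values next to them. -/
def auxVal (l : Fin n → ℂ) (b : Fin n → ℤ) (i₀ : Fin n) (p : (Fin n → Fin L) → ℤ)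
    (t : Other i₀ → ℕ) (k : ℕ) : ℂ :=
  ∑ lam, ((p lam * monom b i₀ t lam : ℤ) : ℂ) * Complex.exp ((k : ℂ) * mu l lam)

theorem differentiable_auxFun (l : Fin n → ℂ) (b : Fin n → ℤ) (i₀ : Fin n)
    (p : (Fin n → Fin L) → ℤ) (t : Other i₀ → ℕ) : Differentiable ℂ (auxFun l b i₀ p t) := by
  unfold auxFun
  fun_prop

theorem omega_eq (l : Fin n → ℂ) {b : Fin n → ℤ} {i₀ : Fin n} (hb : b i₀ ≠ 0)
    (lam : Fin n → Fin L) :
    omega l b i₀ lam = mu l lam - (lam i₀).val * (∑ i, (b i : ℂ) * l i) / b i₀ := by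
  have hbC : (b i₀ : ℂ) ≠ 0 := Int.cast_ne_zero.2 hb
  have h1 : ∑ i : Other i₀, (coord b i₀ lam i.1 : ℂ) * (l i.1 / b i₀) =
      ∑ i, (coord b i₀ lam i : ℂ) * (l i / b i₀) := by
    rw [← sum_subtype (univ.filter fun i => i ≠ i₀) (p := fun i => i ≠ i₀) (fun i => by simp)
      fun i => (coord b i₀ lam i : ℂ) * (l i / b i₀)]
    refine sum_filter_of_ne fun i _ h e => h ?_
    subst e
    simp [coord]
  rw [omega, h1, mu, mul_sum, sum_div, ← sum_sub_distrib]
  refine sum_congr rfl fun i _ => ?_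
  simp only [coord]
  push_cast
  field_simp

/-- The derivatives are combinations of the functions. -/
theorem iteratedDeriv_auxFun (l : Fin n → ℂ) (b : Fin n → ℤ) (i₀ : Fin n)
    (p : (Fin n → Fin L) → ℤ) (t : Other i₀ → ℕ) (k : ℕ) (x : ℂ) :
    iteratedDeriv k (auxFun l b i₀ p t) x = ∑ g : Fin k → Other i₀,
      (∏ j, (l (g j).1 / b i₀)) *
        auxFun l b i₀ p (fun i => t i + (univ.filter fun j => g j = i).card) x := by
  unfold auxFun
  rw [iteratedDeriv_fun_sum fun lam _ => by fun_prop]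
  simp only [iteratedDeriv_const_mul_field, iteratedDeriv_cexp_const_mul, mul_sum, monom_add]
  rw [sum_comm]
  refine sum_congr rfl fun lam _ => ?_
  simp only [omega]
  push_cast
  rw [Fintype.sum_pow fun i : Other i₀ => (coord b i₀ lam i.1 : ℂ) * (l i.1 / (b i₀ : ℂ)),
    sum_mul, mul_sum]
  refine sum_congr rfl fun g _ => ?_
  rw [prod_mul_distrib]
  ring

theorem norm_omega_le {l : Fin n → ℂ} {h : ℕ} (hl : ∀ i, ‖l i‖ ≤ h) {b : Fin n → ℤ} {i₀ : Fin n}
    (hb : b i₀ ≠ 0) (hmax : ∀ i, (b i).natAbs ≤ (b i₀).natAbs) (lam : Fin n → Fin L) :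
    ‖omega l b i₀ lam‖ ≤ ((2 * n * h * L : ℕ) : ℝ) := by
  have hbR : 0 < |(b i₀ : ℝ)| := abs_pos.2 (Int.cast_ne_zero.2 hb)
  refine (norm_sum_le _ _).trans ((sum_le_card_nsmul _ _ ((2 * L * h : ℕ) : ℝ)
    fun i _ => ?_).trans ?_)
  · rw [norm_mul, norm_div, Complex.norm_intCast, Complex.norm_intCast, ← mul_div_assoc,
      div_le_iff₀ hbR]
    calc |(coord b i₀ lam i.1 : ℝ)| * ‖l i.1‖ ≤ 2 * L * |(b i₀ : ℝ)| * h :=
          mul_le_mul (abs_coord_le hmax lam i.1) (hl _) (norm_nonneg _) (by positivity)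
      _ = _ := by push_cast; ring
  · rw [nsmul_eq_mul, card_univ]
    push_cast
    have hc : (Fintype.card (Other i₀) : ℝ) ≤ n := by
      exact_mod_cast (Fintype.card_subtype_le _).trans_eq (Fintype.card_fin n)
    calc (Fintype.card (Other i₀) : ℝ) * (2 * L * h) ≤ n * (2 * L * h) := by gcongr
      _ = 2 * n * h * L := by ring

theorem norm_exp_le_two_pow {z : ℂ} {k : ℕ} (hz : ‖z‖ ≤ k) :
    ‖Complex.exp z‖ ≤ (2 : ℝ) ^ (2 * k) := by
  rw [Complex.norm_exp]
  exact (Real.exp_le_exp.2 ((Complex.re_le_norm z).trans hz)).trans (exp_natCast_le_two_pow k)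

theorem norm_mu_le {l : Fin n → ℂ} {h : ℕ} (hl : ∀ i, ‖l i‖ ≤ h) (lam : Fin n → Fin L) :
    ‖mu l lam‖ ≤ ((n * h * L : ℕ) : ℝ) := by
  refine (norm_sum_le _ _).trans ((sum_le_card_nsmul _ _ ((L : ℝ) * h) fun i _ => ?_).trans_eq ?_)
  · rw [norm_mul, Complex.norm_natCast]
    exact mul_le_mul (by exact_mod_cast (lam i).isLt.le) (hl i) (norm_nonneg _) (Nat.cast_nonneg _)
  · rw [card_univ, Fintype.card_fin, nsmul_eq_mul]
    push_cast
    ring

/-- The size of the functions. -/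
theorem norm_auxFun_le {l : Fin n → ℂ} {h : ℕ} (hl : ∀ i, ‖l i‖ ≤ h) {b : Fin n → ℤ}
    {i₀ : Fin n} (hb : b i₀ ≠ 0) (hmax : ∀ i, (b i).natAbs ≤ (b i₀).natAbs)
    {p : (Fin n → Fin L) → ℤ} {t : Other i₀ → ℕ} {U : ℕ}
    (hU : ∀ lam, L ^ n * (p lam * monom b i₀ t lam).natAbs ≤ 2 ^ U) {R : ℕ} {x : ℂ}
    (hx : ‖x‖ ≤ R) : ‖auxFun l b i₀ p t x‖ ≤ (2 : ℝ) ^ (U + 4 * n * h * L * R) := by
  rcases Nat.eq_zero_or_pos (L ^ n) with h0 | h0
  · have : IsEmpty (Fin n → Fin L) := Fintype.card_eq_zero_iff.1 (by simpa using h0)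
    simp [auxFun]
  refine (norm_sum_le _ _).trans ((sum_le_card_nsmul _ _
    ((2 : ℝ) ^ (U + 4 * n * h * L * R) / (L ^ n : ℕ)) fun lam _ => ?_).trans_eq ?_)
  · rw [le_div_iff₀ (by exact_mod_cast h0), mul_comm, norm_mul, Complex.norm_intCast, pow_add,
      ← mul_assoc]
    refine mul_le_mul ?_ ?_ (norm_nonneg _) (by positivity)
    · rw [← Int.cast_abs, ← Int.natCast_natAbs, Int.cast_natCast]
      exact_mod_cast hU lam
    · refine (norm_exp_le_two_pow (k := 2 * n * h * L * R) ?_).trans_eq (by ring_nf)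
      rw [norm_mul, Nat.cast_mul _ R]
      exact mul_le_mul (norm_omega_le hl hb hmax lam) hx (norm_nonneg _) (Nat.cast_nonneg _)
  · rw [card_univ, Fintype.card_fun, Fintype.card_fin, Fintype.card_fin, nsmul_eq_mul,
      mul_div_cancel₀ _ (by exact_mod_cast h0.ne')]

/-- The functions at the integers. -/
theorem norm_auxFun_sub_le {l : Fin n → ℂ} {h : ℕ} (hl : ∀ i, ‖l i‖ ≤ h) {b : Fin n → ℤ}
    {i₀ : Fin n} (hb : b i₀ ≠ 0) {p : (Fin n → Fin L) → ℤ} {t : Other i₀ → ℕ} {U k : ℕ}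
    (hU : ∀ lam, L ^ n * (p lam * monom b i₀ t lam).natAbs ≤ 2 ^ U)
    (hsmall : (L : ℝ) * k * ‖∑ i, (b i : ℂ) * l i‖ ≤ 1) :
    ‖auxFun l b i₀ p t (k : ℂ) - auxVal l b i₀ p t k‖ ≤
      (2 : ℝ) ^ (U + 2 * n * h * L * k + 1) * ((L : ℝ) * k * ‖∑ i, (b i : ℂ) * l i‖) := by
  set Λ := ∑ i, (b i : ℂ) * l i with hΛ
  rcases Nat.eq_zero_or_pos (L ^ n) with h0 | h0
  · have : IsEmpty (Fin n → Fin L) := Fintype.card_eq_zero_iff.1 (by simpa using h0)
    simp [auxFun, auxVal]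
    positivity
  rw [auxFun, auxVal, ← sum_sub_distrib]
  refine (norm_sum_le _ _).trans ((sum_le_card_nsmul _ _
    ((2 : ℝ) ^ (U + 2 * n * h * L * k + 1) * ((L : ℝ) * k * ‖Λ‖) / (L ^ n : ℕ))
      fun lam _ => ?_).trans_eq ?_)
  · set d : ℂ := -((k : ℂ) * ((lam i₀).val * Λ / b i₀)) with hd
    have he : Complex.exp (omega l b i₀ lam * (k : ℂ)) =
        Complex.exp ((k : ℂ) * mu l lam) * Complex.exp d := by
      rw [← Complex.exp_add, omega_eq l hb, ← hΛ, hd]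
      congr 1
      ring
    rw [he, ← mul_sub, norm_mul, Complex.norm_intCast,
      show Complex.exp ((k : ℂ) * mu l lam) * Complex.exp d - Complex.exp ((k : ℂ) * mu l lam) =
        Complex.exp ((k : ℂ) * mu l lam) * (Complex.exp d - 1) by ring,
      norm_mul, le_div_iff₀ (by exact_mod_cast h0), mul_comm, ← mul_assoc, pow_succ]
    have hdle : ‖d‖ ≤ (L : ℝ) * k * ‖Λ‖ := by
      rw [hd, norm_neg, norm_mul, norm_div, norm_mul, Complex.norm_natCast, Complex.norm_natCast,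
        Complex.norm_intCast]
      calc (k : ℝ) * ((lam i₀).val * ‖Λ‖ / |(b i₀ : ℝ)|) ≤ k * (L * ‖Λ‖) := by
            refine mul_le_mul_of_nonneg_left ((div_le_self (by positivity) ?_).trans ?_)
              (Nat.cast_nonneg _)
            · exact_mod_cast Int.one_le_abs hb
            · exact mul_le_mul_of_nonneg_right (by exact_mod_cast (lam i₀).isLt.le) (norm_nonneg _)
        _ = _ := by ring
    have hmu : ‖Complex.exp ((k : ℂ) * mu l lam)‖ ≤ (2 : ℝ) ^ (2 * n * h * L * k) := by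
      refine (norm_exp_le_two_pow (k := n * h * L * k) ?_).trans_eq (by ring_nf)
      rw [norm_mul, Complex.norm_natCast, Nat.cast_mul _ k, mul_comm]
      exact mul_le_mul_of_nonneg_right (norm_mu_le hl lam) (Nat.cast_nonneg _)
    have hcoef : ((L ^ n : ℕ) : ℝ) * |((p lam * monom b i₀ t lam : ℤ) : ℝ)| ≤ (2 : ℝ) ^ U := by
      rw [← Int.cast_abs, ← Int.natCast_natAbs, Int.cast_natCast]
      exact_mod_cast hU lam
    calc ((L ^ n : ℕ) : ℝ) * |((p lam * monom b i₀ t lam : ℤ) : ℝ)| *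
          (‖Complex.exp ((k : ℂ) * mu l lam)‖ * ‖Complex.exp d - 1‖)
        ≤ (2 : ℝ) ^ U * ((2 : ℝ) ^ (2 * n * h * L * k) * (2 * ((L : ℝ) * k * ‖Λ‖))) :=
          mul_le_mul hcoef (mul_le_mul hmu
            ((Complex.norm_exp_sub_one_le (hdle.trans hsmall)).trans (by linarith))
            (norm_nonneg _) (by positivity)) (by positivity) (by positivity)
      _ = _ := by rw [pow_add]; ring
  · rw [card_univ, Fintype.card_fun, Fintype.card_fin, Fintype.card_fin, nsmul_eq_mul,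
      mul_div_cancel₀ _ (by exact_mod_cast h0.ne')]

end FA.BakerExplicit.Algebraic

end
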