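import Mathlib.NumberTheory.SiegelsLemma
import Mathlib.NumberTheory.NumberField.House
import Mathlib.Analysis.SpecialFunctions.Pow.Real

/-!
# Siegel's lemma over a number field with rational integer solutions

Integers `p j` make all the real and imaginary parts of the conjugates of `∑ p j x i j` small,
hence these algebraic integers vanish. No constant of the field occurs but its degree.
-/

set_option autoImplicit false

noncomputable section

namespace FA.BakerExplicit.Algebraic

open Finset NumberField Module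

variable {K : Type*} [Field K] [NumberField K]

theorem eq_zero_of_forall_norm_lt_one {x : 𝓞 K} (h : ∀ σ : K →+* ℂ, ‖σ (x : K)‖ < 1) : x = 0 := by
  by_contra hx
  obtain ⟨σ, hσ⟩ := exists_conjugate_one_le_norm hx
  exact (h σ).not_ge hσ

/-- The real or the imaginary part. -/
def part (s : Bool) (z : ℂ) : ℝ := if s then z.re else z.im

theorem abs_part_le (s : Bool) (z : ℂ) : |part s z| ≤ ‖z‖ := by
  cases s <;> simp [part, Complex.abs_re_le_norm, Complex.abs_im_le_norm]

theorem part_sum {β : Type*} [Fintype β] (s : Bool) (c : β → ℤ) (z : β → ℂ) :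
    part s (∑ j, (c j : ℂ) * z j) = ∑ j, (c j : ℝ) * part s (z j) := by
  cases s <;> simp [part, Complex.re_sum, Complex.im_sum]

attribute [local instance] Matrix.seminormedAddCommGroup in
/-- **Siegel's lemma with rational integer unknowns.** -/
theorem exists_int_solution {α β : Type*} [Fintype α] [Fintype β] (x : α → β → 𝓞 K)
    (hα : 0 < Fintype.card α)
    (hcard : 4 * (2 * finrank ℚ K * Fintype.card α) ≤ Fintype.card β) {a ν : ℕ}
    (hν : Fintype.card β ≤ 2 ^ ν) (hx : ∀ i j (σ : K →+* ℂ), ‖σ (x i j : K)‖ ≤ (2 : ℝ) ^ a) :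
    ∃ p : β → ℤ, p ≠ 0 ∧ (∀ i, ∑ j, (p j : 𝓞 K) * x i j = 0) ∧
      ∀ j, (p j).natAbs ≤ 2 ^ (ν + a + 2) := by
  classical
  set r := ν + a + 2 with hr
  set q := 2 * ν + a + 4 with hq
  set A : Matrix (((K →+* ℂ) × Bool) × α) β ℤ := Matrix.of fun e j =>
    ⌊(2 : ℝ) ^ q * part e.1.2 (e.1.1 (x e.2 j : K))⌋ with hAdef
  have hrow : Fintype.card (((K →+* ℂ) × Bool) × α) = 2 * finrank ℚ K * Fintype.card α := by
    rw [Fintype.card_prod, Fintype.card_prod, Embeddings.card, Fintype.card_bool]
    ring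
  have hrow0 : 0 < Fintype.card (((K →+* ℂ) × Bool) × α) := by
    rw [hrow]
    exact Nat.mul_pos (Nat.mul_pos two_pos finrank_pos) hα
  rw [← hrow] at hcard
  obtain ⟨p, hp0, hpA, hpn⟩ := Int.Matrix.exists_ne_zero_int_vec_norm_le A (by omega) hrow0
  have hA : max 1 ‖A‖ ≤ (2 : ℝ) ^ (q + a + 1) := by
    refine max_le (one_le_pow₀ one_le_two) ((Matrix.norm_le_iff (by positivity)).2 fun e j => ?_)
    rw [Int.norm_eq_abs]
    simp only [hAdef, Matrix.of_apply]
    set v := (2 : ℝ) ^ q * part e.1.2 (e.1.1 (x e.2 j : K))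
    have hv : |v| ≤ (2 : ℝ) ^ (q + a) := by
      rw [pow_add, abs_mul, abs_pow, abs_two]
      exact mul_le_mul_of_nonneg_left ((abs_part_le _ _).trans (hx _ _ _)) (by positivity)
    have h1 : (1 : ℝ) ≤ (2 : ℝ) ^ (q + a) := one_le_pow₀ one_le_two
    rw [abs_le] at hv ⊢
    rw [pow_succ]
    constructor <;> linarith [Int.floor_le v, Int.lt_floor_add_one v, hv.1, hv.2]
  have hbase : (Fintype.card β : ℝ) * max 1 ‖A‖ ≤ ((2 : ℝ) ^ r) ^ 3 := by
    refine (mul_le_mul (show (Fintype.card β : ℝ) ≤ (2 : ℝ) ^ ν by exact_mod_cast hν) hA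
      (le_trans zero_le_one (le_max_left _ _)) (by positivity)).trans ?_
    rw [← pow_add, ← pow_mul]
    exact pow_le_pow_right₀ one_le_two (by omega)
  have hβ1 : (1 : ℝ) ≤ Fintype.card β := by exact_mod_cast (by omega : 1 ≤ Fintype.card β)
  have hexp : (Fintype.card (((K →+* ℂ) × Bool) × α) : ℝ) /
      (Fintype.card β - Fintype.card (((K →+* ℂ) × Bool) × α)) ≤ (((3 : ℕ) : ℝ))⁻¹ := by
    set m := Fintype.card (((K →+* ℂ) × Bool) × α)
    have hc : (4 * m : ℝ) ≤ Fintype.card β := by exact_mod_cast hcard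
    have hm : (0 : ℝ) < m := Nat.cast_pos.2 hrow0
    rw [div_le_iff₀ (by linarith)]
    push_cast
    linarith
  have hpb : ∀ j, |(p j : ℝ)| ≤ (2 : ℝ) ^ r := fun j => by
    rw [← Int.norm_eq_abs]
    refine (norm_le_pi_norm p j).trans (hpn.trans ?_)
    refine (Real.rpow_le_rpow_of_exponent_le
      (one_le_mul_of_one_le_of_one_le hβ1 (le_max_left _ _)) hexp).trans ?_
    refine (Real.rpow_le_rpow (by positivity) hbase (by positivity)).trans_eq ?_
    exact Real.pow_rpow_inv_natCast (by positivity) three_ne_zero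
  refine ⟨p, hp0, fun i => eq_zero_of_forall_norm_lt_one fun σ => ?_, fun j => ?_⟩
  · have hE : σ ((∑ j, (p j : 𝓞 K) * x i j : 𝓞 K) : K) = ∑ j, (p j : ℂ) * σ (x i j : K) := by
      simp only [map_sum, map_mul, map_intCast]
    rw [hE]
    set z := ∑ j, (p j : ℂ) * σ (x i j : K) with hz
    have hpart : ∀ s, (2 : ℝ) ^ q * |part s z| ≤ (2 : ℝ) ^ (ν + r) := fun s => by
      have h0 : ∑ j, (p j : ℝ) * (⌊(2 : ℝ) ^ q * part s (σ (x i j : K))⌋ : ℝ) = 0 := by
        have h1 := congrFun hpA ((σ, s), i)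
        simp only [hAdef, Matrix.mulVec, dotProduct, Matrix.of_apply, Pi.zero_apply] at h1
        rw [← Int.cast_inj (α := ℝ)] at h1
        push_cast at h1
        exact Eq.trans (sum_congr rfl fun j _ => mul_comm _ _) h1
      have h2 : (2 : ℝ) ^ q * part s z =
          ∑ j, (p j : ℝ) * Int.fract ((2 : ℝ) ^ q * part s (σ (x i j : K))) := by
        simp only [Int.fract, mul_sub, sum_sub_distrib, h0, sub_zero]
        rw [hz, part_sum, mul_sum]
        exact sum_congr rfl fun j _ => mul_left_comm _ _ _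
      rw [show (2 : ℝ) ^ q * |part s z| = |(2 : ℝ) ^ q * part s z| by
        rw [abs_mul, abs_pow, abs_two], h2]
      refine (abs_sum_le_sum_abs _ _).trans ((sum_le_card_nsmul _ _ ((2 : ℝ) ^ r)
        fun j _ => ?_).trans ?_)
      · rw [abs_mul]
        exact (mul_le_of_le_one_right (abs_nonneg _) (by
          rw [abs_of_nonneg (Int.fract_nonneg _)]; exact (Int.fract_lt_one _).le)).trans (hpb j)
      · rw [card_univ, nsmul_eq_mul, pow_add (2 : ℝ) ν r]
        exact mul_le_mul_of_nonneg_right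
          (show (Fintype.card β : ℝ) ≤ (2 : ℝ) ^ ν by exact_mod_cast hν) (by positivity)
    have h3 := mul_le_mul_of_nonneg_left (Complex.norm_le_abs_re_add_abs_im z)
      (show (0 : ℝ) ≤ (2 : ℝ) ^ q by positivity)
    have hre := hpart true
    have him := hpart false
    simp only [part, if_true, Bool.false_eq_true, if_false] at hre him
    have h4 : (2 : ℝ) ^ (ν + r) * 4 = (2 : ℝ) ^ q := by
      rw [show q = ν + r + 2 by omega, pow_add (2 : ℝ) (ν + r)]
      norm_num
    have h5 : (0 : ℝ) < (2 : ℝ) ^ q := by positivity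
    nlinarith
  · have h1 := hpb j
    rw [← Int.cast_abs, ← Int.natCast_natAbs, Int.cast_natCast] at h1
    exact_mod_cast h1

end FA.BakerExplicit.Algebraic

end
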