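import Fermat.Agent.BakerExplicit.Setup
import Mathlib.Analysis.Complex.Exponential
import Mathlib.LinearAlgebra.Dimension.Finite
import Mathlib.LinearAlgebra.Basis.VectorSpace
import Mathlib.LinearAlgebra.Matrix.AbsoluteValue
import Mathlib.LinearAlgebra.Matrix.ToLinearEquiv
import Mathlib.LinearAlgebra.Vandermonde

/-!
# Colliding nodes in Baker's method

Several `λ` may give the same `∏ α i ^ λ i`. The coordinates separate such a class unless `b` is
in the span of its differences, and then a bounded multiple `N b` is an integral combination of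
them, so `exp (N Λ) = 1` and a small `Λ` is zero. This removes every hypothesis of independence.
-/

set_option autoImplicit false

noncomputable section

namespace FA.BakerExplicit.Classes

open Finset

variable {n L : ℕ}

/-- Power sums with colliding nodes vanish on each class. -/
theorem sum_filter_eq_zero {ι : Type*} [Fintype ι] {F : Type*} [Field F] [DecidableEq F]
    (v w : ι → F) {N : ℕ} (hN : Fintype.card ι ≤ N) (h : ∀ k < N, ∑ x, v x * w x ^ k = 0)
    (x₀ : ι) :
    ∑ x ∈ univ.filter (fun x => w x = w x₀), v x = 0 := by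
  classical
  set s := univ.image w with hs
  let e := s.equivFin.symm
  have hv : (fun i => ∑ x ∈ univ.filter (fun x => w x = (e i : F)), v x) = 0 := by
    refine Matrix.eq_zero_of_forall_pow_sum_mul_pow_eq_zero (f := fun i => (e i : F))
      (Subtype.val_injective.comp e.injective) fun k => ?_
    have hk : k.val < N := k.isLt.trans_le ((card_image_le).trans (card_univ.trans_le hN))
    rw [e.sum_comp fun z : s => (∑ x ∈ univ.filter (fun x => w x = (z : F)), v x) * (z : F) ^ k.val,
      sum_coe_sort s fun z => (∑ x ∈ univ.filter (fun x => w x = z), v x) * z ^ k.val, ← h k hk,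
      ← sum_fiberwise_of_maps_to (t := s) fun x _ => mem_image_of_mem w (mem_univ x)]
    refine sum_congr rfl fun z _ => ?_
    rw [sum_mul]
    exact sum_congr rfl fun x hx => by rw [(mem_filter.1 hx).2]
  have h1 := congrFun hv (e.symm ⟨w x₀, mem_image_of_mem w (mem_univ x₀)⟩)
  simpa using h1

/-- Vanishing of the monomials is vanishing of products of affine forms in the coordinates. -/
theorem sum_prod_eq_zero {b : Fin n → ℤ} {i₀ : Fin n} {p : (Fin n → Fin L) → ℤ}
    {s : Finset (Fin n → Fin L)} {T : ℕ}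
    (hmon : ∀ t : Other i₀ → ℕ, ∑ i, t i < T → ∑ lam ∈ s, p lam * monom b i₀ t lam = 0)
    {β : Type*} (c : β → Other i₀ → ℚ) (e : β → ℚ) (F : Finset β) :
    ∀ t : Other i₀ → ℕ, ∑ i, t i + F.card < T →
      ∑ lam ∈ s, (p lam : ℚ) * monom b i₀ t lam *
        ∏ f ∈ F, (∑ i, c f i * (coord b i₀ lam i.1 : ℚ) + e f) = 0 := by
  classical
  induction F using Finset.induction_on with
  | empty =>
    intro t ht
    simp only [prod_empty, mul_one]
    exact_mod_cast hmon t (by simpa using ht)
  | insert f F hf ih =>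
    intro t ht
    rw [card_insert_of_notMem hf] at ht
    simp only [prod_insert hf]
    have h1 : ∀ i : Other i₀, ∑ lam ∈ s, (p lam : ℚ) * monom b i₀ t lam * (coord b i₀ lam i.1) *
        ∏ g ∈ F, (∑ j, c g j * (coord b i₀ lam j.1 : ℚ) + e g) = 0 := fun i => by
      have h2 := ih (fun j => t j + (univ.filter fun _ : Fin 1 => i = j).card) (by
        rw [sum_add_distrib, ← card_eq_sum_card_fiberwise (fun y _ => mem_univ i)]
        simp
        omega)
      refine Eq.trans (sum_congr rfl fun lam _ => ?_) h2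
      rw [monom_add b i₀ t (fun _ : Fin 1 => i) lam]
      simp [mul_assoc]
    simp only [add_mul, mul_add, sum_add_distrib, sum_mul, mul_sum]
    rw [sum_comm, sum_eq_zero fun i _ => ?_, zero_add]
    · refine Eq.trans ?_ ((congrArg (e f * ·) (ih t (by omega))).trans (mul_zero _))
      rw [mul_sum]
      exact sum_congr rfl fun lam _ => by ring
    · refine Eq.trans ?_ ((congrArg (c f i * ·) (h1 i)).trans (mul_zero _))
      rw [mul_sum]
      exact sum_congr rfl fun lam _ => by ring

/-- **A bounded multiple of a vector in a span lies in the lattice.** -/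
theorem exists_multiple {n : ℕ} {b : Fin n → ℤ} {W : Finset (Fin n → ℤ)} {B : ℕ} (hn : 1 ≤ n)
    (hB : 1 ≤ B) (hW : ∀ w ∈ W, ∀ i, (w i).natAbs ≤ B)
    (hb : (fun i => (b i : ℚ)) ∈
      Submodule.span ℚ ((fun w i => (w i : ℚ)) '' (W : Set (Fin n → ℤ)))) :
    ∃ N : ℤ, N ≠ 0 ∧ N.natAbs ≤ (n ^ 2 * B ^ 2) ^ n ∧
      ∀ l : Fin n → ℂ, (∀ w ∈ W, Complex.exp (∑ i, (w i : ℂ) * l i) = 1) →
        Complex.exp ((N : ℂ) * ∑ i, (b i : ℂ) * l i) = 1 := by
  classical
  set cast : (Fin n → ℤ) → Fin n → ℚ := fun w i => (w i : ℚ) with hcast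
  obtain ⟨s, hs, hspan, hli⟩ := exists_linearIndependent ℚ (cast '' (W : Set (Fin n → ℤ)))
  have : Finite s := ((W.finite_toSet.image cast).subset hs).to_subtype
  have := Fintype.ofFinite s
  choose w hwW hws using fun x : s => hs x.2
  have hr : Fintype.card s ≤ n := by
    simpa using hli.fintype_card_le_finrank
  have hbs : cast b ∈ Submodule.span ℚ (Set.range ((↑) : s → Fin n → ℚ)) := by
    rw [Subtype.range_coe, hspan]; exact hb
  obtain ⟨c, hc⟩ := Submodule.mem_span_range_iff_exists_fun ℚ |>.1 hbs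
  have hbi : ∀ i, ∑ x, c x * (w x i : ℚ) = b i := fun i => by
    have h1 := congrFun hc i
    rw [Finset.sum_apply] at h1
    refine Eq.trans (sum_congr rfl fun x _ => ?_) h1
    rw [Pi.smul_apply, smul_eq_mul, ← hws x]
  set G : Matrix s s ℤ := Matrix.of fun x y => ∑ i, w x i * w y i with hG
  set v : s → ℤ := fun x => ∑ i, w x i * b i with hv
  have hGc : ∀ x, ∑ y, (G x y : ℚ) * c y = (v x : ℚ) := fun x => by
    simp only [hG, hv, Matrix.of_apply]
    push_cast
    simp only [sum_mul]
    rw [sum_comm]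
    refine sum_congr rfl fun i _ => ?_
    rw [← hbi i, mul_sum]
    exact sum_congr rfl fun y _ => by ring
  have hdet : G.det ≠ 0 := fun h0 => by
    obtain ⟨z, hz0, hz⟩ := Matrix.exists_mulVec_eq_zero_iff.2 h0
    have h1 : ∀ i, ∑ x, z x * w x i = 0 := by
      have h2 : ∑ i, (∑ x, z x * w x i) ^ 2 = 0 := by
        calc ∑ i, (∑ x, z x * w x i) ^ 2 = ∑ x, z x * (Matrix.mulVec G z) x := by
              simp only [sq, Matrix.mulVec, dotProduct, hG, Matrix.of_apply, mul_sum, sum_mul]
              rw [sum_comm]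
              refine sum_congr rfl fun x _ => ?_
              rw [sum_comm]
              exact sum_congr rfl fun y _ => sum_congr rfl fun i _ => by ring
          _ = 0 := by simp [hz]
      exact fun i => sq_eq_zero_iff.1
        ((sum_eq_zero_iff_of_nonneg fun i _ => sq_nonneg _).1 h2 i (mem_univ i))
    refine hz0 (funext fun x => ?_)
    have h3 := Fintype.linearIndependent_iff.1 hli (fun y => (z y : ℚ)) (funext fun i => by
      rw [Finset.sum_apply, Pi.zero_apply, ← Int.cast_zero, ← h1 i]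
      push_cast
      refine sum_congr rfl fun y _ => ?_
      rw [Pi.smul_apply, smul_eq_mul, ← hws y]) x
    exact_mod_cast h3
  set c' : s → ℤ := Matrix.mulVec G.adjugate v with hc'
  have hkey : ∀ x, (c' x : ℚ) = G.det * c x := fun x => by
    have h1 : Matrix.mulVec (G.map ((↑) : ℤ → ℚ)) c = fun y => (v y : ℚ) := funext hGc
    have h2 : (fun y => (c' y : ℚ)) =
        Matrix.mulVec ((G.map ((↑) : ℤ → ℚ)).adjugate) (fun y => (v y : ℚ)) := by
      funext y
      rw [hc', show (G.map ((↑) : ℤ → ℚ)).adjugate = G.adjugate.map ((↑) : ℤ → ℚ) from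
        ((Int.castRingHom ℚ).map_adjugate G).symm]
      simp [Matrix.mulVec, dotProduct]
    rw [← h1, Matrix.mulVec_mulVec, Matrix.adjugate_mul, Matrix.smul_mulVec,
      Matrix.one_mulVec] at h2
    have h3 := congrFun h2 x
    rw [Pi.smul_apply, smul_eq_mul] at h3
    rw [h3, show (G.map ((↑) : ℤ → ℚ)).det = (G.det : ℚ) from
      ((Int.castRingHom ℚ).map_det G).symm]
  refine ⟨G.det, hdet, ?_, fun l hl => ?_⟩
  · have hent : ∀ x y, AbsoluteValue.abs (G x y) ≤ ((n * B ^ 2 : ℕ) : ℤ) := fun x y => by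
      rw [AbsoluteValue.abs_apply, hG, Matrix.of_apply]
      refine (abs_sum_le_sum_abs _ _).trans ((sum_le_card_nsmul _ _ ((B : ℤ) ^ 2)
        fun i _ => ?_).trans_eq (by simp))
      rw [abs_mul, sq]
      exact mul_le_mul (by rw [Int.abs_eq_natAbs]; exact_mod_cast hW _ (hwW x) i)
        (by rw [Int.abs_eq_natAbs]; exact_mod_cast hW _ (hwW y) i) (abs_nonneg _) (by positivity)
    have h1 := Matrix.det_le hent
    rw [AbsoluteValue.abs_apply, nsmul_eq_mul, Int.abs_eq_natAbs] at h1
    set r := Fintype.card s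
    have h2 : G.det.natAbs ≤ r.factorial * (n * B ^ 2) ^ r := by exact_mod_cast h1
    refine h2.trans ?_
    calc r.factorial * (n * B ^ 2) ^ r ≤ n ^ n * (n * B ^ 2) ^ n := by
          refine Nat.mul_le_mul ((Nat.factorial_le hr).trans n.factorial_le_pow) ?_
          exact Nat.pow_le_pow_right (Nat.mul_pos hn (pow_pos hB 2)) hr
      _ = (n ^ 2 * B ^ 2) ^ n := by rw [← mul_pow]; ring
  · have h1 : (G.det : ℂ) * ∑ i, (b i : ℂ) * l i =
        ∑ x, (c' x : ℂ) * ∑ i, (w x i : ℂ) * l i := by
      simp only [mul_sum]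
      rw [sum_comm]
      refine sum_congr rfl fun i _ => ?_
      simp only [← mul_assoc, ← sum_mul]
      congr 1
      have h2 : (G.det : ℚ) * b i = ∑ x, (c' x : ℚ) * w x i := by
        rw [← hbi i, mul_sum]
        exact sum_congr rfl fun x _ => by rw [hkey, mul_assoc]
      have h3 : G.det * b i = ∑ x, c' x * w x i := by exact_mod_cast h2
      exact_mod_cast h3
    rw [h1, Complex.exp_sum]
    exact prod_eq_one fun x _ => by rw [Complex.exp_int_mul, hl _ (hwW x), one_zpow]

/-- A small number of exponential one is zero. -/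
theorem eq_zero_of_exp_eq_one {z : ℂ} (h : Complex.exp z = 1) (hz : ‖z‖ ≤ 1 / 2) : z = 0 := by
  have h1 := Complex.norm_exp_sub_one_sub_id_le (x := z) (by linarith)
  rw [h, sub_self, zero_sub, norm_neg] at h1
  exact norm_eq_zero.1 (by nlinarith [norm_nonneg z])

/-- **Separation on a class** whose differences do not span `b`. -/
theorem eq_zero_of_notMem_span {b : Fin n → ℤ} {i₀ : Fin n} (hb : b i₀ ≠ 0)
    {p : (Fin n → Fin L) → ℤ} {T : ℕ} (hT : n * L < T) {C : Finset (Fin n → Fin L)}
    {lam₀ : Fin n → Fin L} (hmem : lam₀ ∈ C)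
    (hmon : ∀ t : Other i₀ → ℕ, ∑ i, t i < T → ∑ lam ∈ C, p lam * monom b i₀ t lam = 0)
    (hbS : (fun i => (b i : ℚ)) ∉ Submodule.span ℚ ((fun w i => (w i : ℚ)) ''
      ((C.image fun lam i => ((lam i).val : ℤ) - (lam₀ i).val : Finset (Fin n → ℤ)) :
        Set (Fin n → ℤ)))) :
    p lam₀ = 0 := by
  classical
  obtain ⟨f, hf, hker⟩ := Submodule.exists_le_ker_of_notMem hbS
  -- the forms
  let ψ : Fin n → (Fin n → ℚ) → ℚ := fun j x => x j - (b j : ℚ) * f x / f (fun i => (b i : ℚ))
  set cof : Fin n → Fin n → ℚ := fun j i =>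
    (if i = j then 1 else 0) - (b j : ℚ) * f (fun m => if i = m then 1 else 0) /
      f (fun m => (b m : ℚ)) with hcof
  have hlin : ∀ j x, ψ j x = ∑ i, x i * cof j i := fun j x => by
    simp only [ψ, hcof, mul_sub, sum_sub_distrib, mul_ite, mul_one, mul_zero, sum_ite_eq',
      mem_univ, if_true, sub_right_inj]
    rw [LinearMap.pi_apply_eq_sum_univ f x, mul_sum, sum_div]
    exact sum_congr rfl fun i _ => by rw [smul_eq_mul]; ring
  have hψb : ∀ j, ψ j (fun i => (b i : ℚ)) = 0 := fun j => by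
    simp only [ψ]
    rw [mul_div_assoc, div_self hf, mul_one, sub_self]
  let vec : (Fin n → Fin L) → Fin n → ℚ := fun lam i => ((lam i).val : ℚ)
  let e : Fin n × Fin L → ℚ := fun jv =>
    -ψ jv.1 (vec lam₀) + ((lam₀ jv.1).val : ℚ) - (jv.2.val : ℚ)
  let c : Fin n × Fin L → Other i₀ → ℚ := fun jv i => cof jv.1 i.1 / b i₀
  have hform : ∀ jv lam, ∑ i, c jv i * (coord b i₀ lam i.1 : ℚ) = ψ jv.1 (vec lam) :=
      fun jv lam => by
    have hsum : ∑ i, c jv i * (coord b i₀ lam i.1 : ℚ) =
        ∑ i, cof jv.1 i / b i₀ * (coord b i₀ lam i : ℚ) := by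
      rw [← sum_subtype (univ.filter fun i => i ≠ i₀) (p := fun i => i ≠ i₀) (fun i => by simp)
        fun i => cof jv.1 i / b i₀ * (coord b i₀ lam i : ℚ)]
      refine sum_filter_of_ne fun i _ h e => h ?_
      subst e
      simp [coord]
    rw [hsum]
    have h0 : ∑ i, (b i : ℚ) * cof jv.1 i = 0 := (hlin jv.1 _).symm.trans (hψb jv.1)
    have hbQ : (b i₀ : ℚ) ≠ 0 := Int.cast_ne_zero.2 hb
    refine Eq.trans ?_ (hlin jv.1 (vec lam)).symm
    refine Eq.trans ?_ (sub_zero (∑ i, vec lam i * cof jv.1 i))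
    rw [← mul_zero (((lam i₀).val : ℚ) / b i₀), ← h0, mul_sum, ← sum_sub_distrib]
    refine sum_congr rfl fun i _ => ?_
    simp only [coord, vec]
    push_cast
    field_simp
  have hval : ∀ jv, ∀ lam ∈ C, ∑ i, c jv i * (coord b i₀ lam i.1 : ℚ) + e jv =
      ((lam jv.1).val : ℚ) - (jv.2.val : ℚ) := fun jv lam hlam => by
    have h1 : f (vec lam) = f (vec lam₀) := by
      rw [← sub_eq_zero, ← map_sub]
      refine hker (Submodule.subset_span ⟨fun i => ((lam i).val : ℤ) - (lam₀ i).val,
        mem_coe.2 (mem_image_of_mem _ hlam), ?_⟩)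
      funext i
      simp [vec]
    rw [hform]
    simp only [e, ψ, h1]
    simp only [vec]
    ring
  set F := univ.filter (fun jv : Fin n × Fin L => jv.2 ≠ lam₀ jv.1) with hF
  have h0 := sum_prod_eq_zero hmon c e F (fun _ => 0) (by
    rw [sum_const_zero, zero_add]
    refine lt_of_le_of_lt ((card_filter_le _ _).trans_eq ?_) hT
    rw [card_univ, Fintype.card_prod, Fintype.card_fin, Fintype.card_fin])
  rw [sum_eq_single_of_mem lam₀ hmem fun lam hlam hne => ?_] at h0
  · simp only [monom, pow_zero, prod_const_one, Int.cast_one, mul_one, mul_eq_zero,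
      Int.cast_eq_zero, prod_eq_zero_iff] at h0
    refine h0.resolve_right fun ⟨jv, hjv, hz⟩ => (mem_filter.1 hjv).2 ?_
    rw [hval jv lam₀ hmem, sub_eq_zero, Nat.cast_inj] at hz
    exact Fin.ext hz.symm
  · obtain ⟨j, hj⟩ := Function.ne_iff.1 hne
    refine mul_eq_zero_of_right _ (prod_eq_zero (i := (j, lam j))
      (mem_filter.2 ⟨mem_univ _, hj⟩) ?_)
    rw [hval _ lam hlam, sub_self]

/-- **Separation.** The weights vanish if the monomials do on the classes of a small nonzero
form. -/
theorem eq_zero_of_classes {l : Fin n → ℂ} {b : Fin n → ℤ} {i₀ : Fin n} (hb : b i₀ ≠ 0)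
    {p : (Fin n → Fin L) → ℤ} {T : ℕ} (hT : n * L < T)
    (hΛ : ∑ i, (b i : ℂ) * l i ≠ 0)
    (hsmall : (((n ^ 2 * L ^ 2) ^ n : ℕ) : ℝ) * ‖∑ i, (b i : ℂ) * l i‖ ≤ 1 / 2)
    (hvan : ∀ t : Other i₀ → ℕ, ∑ i, t i < T → ∀ k < L ^ n,
      ∑ lam, ((p lam * monom b i₀ t lam : ℤ) : ℂ) *
        Complex.exp (∑ i, ((lam i).val : ℂ) * l i) ^ k = 0)
    (lam₀ : Fin n → Fin L) : p lam₀ = 0 := by
  classical
  set node := fun lam : Fin n → Fin L => Complex.exp (∑ i, ((lam i).val : ℂ) * l i)
  set C := univ.filter (fun lam => node lam = node lam₀) with hC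
  have hmon : ∀ t : Other i₀ → ℕ, ∑ i, t i < T → ∑ lam ∈ C, p lam * monom b i₀ t lam = 0 :=
    fun t ht => by
      have h1 := sum_filter_eq_zero (fun lam => ((p lam * monom b i₀ t lam : ℤ) : ℂ)) node
        (N := L ^ n) (by simp) (hvan t ht) lam₀
      rw [← Int.cast_sum] at h1
      exact_mod_cast h1
  set W := C.image (fun lam i => ((lam i).val : ℤ) - (lam₀ i).val) with hW
  set S := Submodule.span ℚ ((fun w i => (w i : ℚ)) '' (W : Set (Fin n → ℤ))) with hS
  have hbS : (fun i => (b i : ℚ)) ∉ S := fun hmem => by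
    have hL : 1 ≤ L := (lam₀ i₀).pos
    obtain ⟨N, hN0, hNle, hN⟩ := exists_multiple (B := L) i₀.pos hL (fun w hw i => by
      obtain ⟨lam, -, rfl⟩ := mem_image.1 hw
      have := (lam i).isLt; have := (lam₀ i).isLt
      show (((lam i).val : ℤ) - (lam₀ i).val).natAbs ≤ L
      omega) hmem
    have h1 := hN l fun w hw => by
      obtain ⟨lam, hlam, rfl⟩ := mem_image.1 hw
      push_cast
      simp only [sub_mul, sum_sub_distrib]
      rw [Complex.exp_sub, div_eq_one_iff_eq (Complex.exp_ne_zero _)]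
      exact (mem_filter.1 hlam).2
    refine hΛ ((mul_eq_zero.1 (eq_zero_of_exp_eq_one h1 ?_)).resolve_left
      (Int.cast_ne_zero.2 hN0))
    rw [norm_mul, Complex.norm_intCast, ← Int.cast_abs, ← Int.natCast_natAbs, Int.cast_natCast]
    exact le_trans (mul_le_mul_of_nonneg_right (Nat.cast_le.2 hNle) (norm_nonneg _)) hsmall
  exact eq_zero_of_notMem_span (C := C) hb hT (mem_filter.2 ⟨mem_univ _, rfl⟩) hmon hbS

end FA.BakerExplicit.Classes

end
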