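import Mathlib.Tactic.Ring
import Mathlib.Tactic.Positivity
import Mathlib.Tactic.Linarith
import Mathlib.Data.Nat.Log
import Mathlib.Algebra.Order.Ring.Nat

/-!
# The parameters

`T j = 2 ^ (J - j) P ^ (6 n)`, `S j = P ^ (2 + 2 j)`, `L = P ^ (6 n - 3)`, `J = 3 n ^ 2`: the
inequalities between them that the proof uses.
-/

set_option autoImplicit false

namespace FA.BakerExplicit

/-- The base of the parameters. -/
def base (n h m : ℕ) : ℕ := 2 ^ (4 * n ^ 2 + 12) * (h + m)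

/-- The exponent of the theorem. -/
def kappa (n : ℕ) : ℕ := 6 * n ^ 2 + 6 * n + 6

/-- The orders of derivation. -/
def orders (n P j : ℕ) : ℕ := 2 ^ (3 * n ^ 2 - j) * P ^ (6 * n)

/-- The ranges of the integers. -/
def intRange (P j : ℕ) : ℕ := P ^ (2 + 2 * j)

/-- The range of the exponents. -/
def degree (n P : ℕ) : ℕ := P ^ (6 * n - 3)

/-- The logarithm of the terms. -/
def termLog (n h m P : ℕ) : ℕ :=
  12 * n ^ 2 * P + 2 * (n * orders n P 0) * (m + 1 + 6 * n * P) +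
    n * h * degree n P * intRange P 0

variable {n h m P : ℕ}

theorem base_facts (hh : 1 ≤ h) :
    2 ^ 11 * n ^ 2 * 2 ^ (3 * n ^ 2) ≤ base n h m ∧ m ≤ base n h m ∧
      2 ^ 11 * n * h ≤ base n h m := by
  have h2 : n ^ 2 ≤ 2 ^ (n ^ 2) := Nat.lt_two_pow_self.le
  have hnn : n ≤ n ^ 2 := Nat.le_self_pow two_ne_zero n
  have hhm : 1 ≤ h + m := by omega
  refine ⟨?_, ?_, ?_⟩
  · calc 2 ^ 11 * n ^ 2 * 2 ^ (3 * n ^ 2) ≤ 2 ^ 12 * 2 ^ (n ^ 2) * 2 ^ (3 * n ^ 2) := by
          gcongr <;> norm_num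
      _ = 2 ^ (4 * n ^ 2 + 12) * 1 := by rw [← pow_add, ← pow_add, mul_one]; congr 1; ring
      _ ≤ _ := Nat.mul_le_mul_left _ hhm
  · exact (Nat.le_add_left m h).trans (Nat.le_mul_of_pos_left _ (Nat.two_pow_pos _))
  · calc 2 ^ 11 * n * h ≤ 2 ^ 12 * 2 ^ (4 * n ^ 2) * (h + m) := by
          gcongr
          · norm_num
          · norm_num
          · exact (hnn.trans h2).trans (Nat.pow_le_pow_right two_pos (by omega))
          · omega
      _ = _ := by rw [base, pow_add]; ring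

theorem degree_mul_pow (hn : 1 ≤ n) : degree n P * P ^ 3 = P ^ (6 * n) := by
  rw [degree, ← pow_add, show 6 * n - 3 + 3 = 6 * n by omega]

theorem degree_le_two_pow : degree n P ≤ 2 ^ (6 * n * P) := by
  refine (Nat.pow_le_pow_left (Nat.lt_two_pow_self (n := P)).le _).trans ?_
  rw [← pow_mul]
  refine Nat.pow_le_pow_right two_pos ?_
  rw [mul_comm P]
  exact Nat.mul_le_mul_right _ (Nat.sub_le _ _)

theorem degree_pow_le_two_pow : degree n P ^ n ≤ 2 ^ (6 * n ^ 2 * P) := by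
  refine (Nat.pow_le_pow_left degree_le_two_pow n).trans_eq ?_
  rw [← pow_mul]
  congr 1
  ring

theorem range_last (hP : 1 ≤ P) :
    degree n P ^ n ≤ intRange P (3 * n ^ 2) := by
  rw [degree, intRange, ← pow_mul]
  refine Nat.pow_le_pow_right hP ?_
  calc (6 * n - 3) * n ≤ 6 * n * n := Nat.mul_le_mul_right _ (Nat.sub_le _ _)
    _ ≤ 2 + 2 * (3 * n ^ 2) := by
      rw [show 2 * (3 * n ^ 2) = 6 * n * n by ring]; exact Nat.le_add_left _ _

/-- Enough unknowns. -/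
theorem unknowns (hn : 1 ≤ n) (hP : 2 ^ 11 * n ^ 2 * 2 ^ (3 * n ^ 2) ≤ P) :
    2 * (orders n P 0 ^ (n - 1) * intRange P 0) ≤ degree n P ^ n := by
  obtain ⟨r, rfl⟩ : ∃ r, n = r + 1 := ⟨n - 1, by omega⟩
  have hP0 : 2 ^ (3 * (r + 1) ^ 2) ≤ P := (Nat.le_mul_of_pos_left _ (by positivity)).trans hP
  have hP2 : 2 ≤ P := le_trans (Nat.le_self_pow (by positivity) 2) hP0
  rw [orders, intRange, degree, Nat.sub_zero, Nat.add_sub_cancel, mul_pow, mul_zero, add_zero,
    ← pow_mul P, ← pow_mul P]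
  calc 2 * ((2 ^ (3 * (r + 1) ^ 2)) ^ r * P ^ (6 * (r + 1) * r) * P ^ 2)
      ≤ P * (P ^ r * P ^ (6 * (r + 1) * r) * P ^ 2) :=
        Nat.mul_le_mul hP2 (Nat.mul_le_mul_right _ (Nat.mul_le_mul_right _
          (Nat.pow_le_pow_left hP0 r)))
    _ = P ^ (6 * (r + 1) * r + r + 3) := by ring
    _ ≤ P ^ ((6 * (r + 1) - 3) * (r + 1)) := by
      refine Nat.pow_le_pow_right (by omega) ?_
      rw [show 6 * (r + 1) - 3 = 6 * r + 3 by omega]
      nlinarith

theorem termLog_le (hn : 1 ≤ n) (hm : m ≤ P)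
    (hP : 2 ^ 11 * n ^ 2 * 2 ^ (3 * n ^ 2) ≤ P) (hPh : 2 ^ 11 * n * h ≤ P) :
    termLog n h m P + 4 ≤ P ^ (6 * n) * P ^ 2 := by
  set a := 2 ^ (3 * n ^ 2)
  set Q := P ^ (6 * n)
  have ha : 1 ≤ a := Nat.one_le_two_pow
  have hn2 : 1 ≤ n ^ 2 := Nat.one_le_pow _ _ hn
  have hP1 : 1 ≤ P := (Nat.one_le_iff_ne_zero.2 (by positivity)).trans hP
  have hQ : 1 ≤ Q := Nat.one_le_pow _ _ hP1
  have hL : degree n P * P ^ 2 ≤ Q := by
    exact (Nat.mul_le_mul_left _ (Nat.pow_le_pow_right hP1 (by norm_num))).trans_eq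
      (degree_mul_pow hn)
  have he : m + 1 + 6 * n * P ≤ 8 * n * P := by
    have h1 : P ≤ n * P := Nat.le_mul_of_pos_left _ hn
    rw [mul_assoc, mul_assoc]
    omega
  have ho : orders n P 0 = a * Q := by simp only [orders, Nat.sub_zero, a, Q]
  have hr : intRange P 0 = P ^ 2 := by simp [intRange]
  calc termLog n h m P + 4
      ≤ 12 * n ^ 2 * P + 2 * (n * (a * Q)) * (8 * n * P) + n * h * Q + 4 * (n ^ 2 * P) := by
        rw [termLog, ho, hr, mul_assoc (n * h) (degree n P)]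
        gcongr
        exact Nat.le_mul_of_pos_right _ (Nat.mul_pos hn2 hP1)
    _ = 16 * n ^ 2 * P * 1 + (16 * n ^ 2 * a) * P * Q + n * h * 1 * Q := by ring
    _ ≤ 16 * n ^ 2 * a * P * Q + (16 * n ^ 2 * a) * P * Q + n * h * P * Q := by
        have c1 : 16 * n ^ 2 * P * 1 ≤ 16 * n ^ 2 * a * P * Q :=
          Nat.mul_le_mul (Nat.mul_le_mul_right _ (Nat.le_mul_of_pos_right _ ha)) hQ
        have c2 : n * h * 1 * Q ≤ n * h * P * Q :=
          Nat.mul_le_mul_right _ (Nat.mul_le_mul_left _ hP1)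
        omega
    _ = (32 * n ^ 2 * a + n * h) * P * Q := by ring
    _ ≤ P * P * Q := by
        refine Nat.mul_le_mul_right _ (Nat.mul_le_mul_right _ ?_)
        rw [mul_assoc 32]
        rw [mul_assoc (2 ^ 11) n h] at hPh
        rw [mul_assoc (2 ^ 11) (n ^ 2) a] at hP
        omega
    _ = _ := by ring

/-- **The gain of a step.** -/
theorem step_gain (hn : 1 ≤ n) (hm : m ≤ P)
    (hP : 2 ^ 11 * n ^ 2 * 2 ^ (3 * n ^ 2) ≤ P) (hPh : 2 ^ 11 * n * h ≤ P) (j : ℕ) :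
    termLog n h m P + 4 * n * h * degree n P * (16 * intRange P (j + 1)) +
      n * h * degree n P * intRange P (j + 1) + 4 ≤ 2 * (intRange P j * orders n P (j + 1)) := by
  have hP1 : 1 ≤ P := (Nat.one_le_iff_ne_zero.2 (by positivity)).trans hP
  have hS : P ^ 2 ≤ intRange P j := Nat.pow_le_pow_right hP1 (by omega)
  have hT : P ^ (6 * n) ≤ orders n P (j + 1) := Nat.le_mul_of_pos_left _ (Nat.two_pow_pos _)
  have h1 : termLog n h m P + 4 ≤ intRange P j * orders n P (j + 1) :=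
    (termLog_le hn hm hP hPh).trans (by rw [mul_comm]; exact Nat.mul_le_mul hS hT)
  have h2 : 65 * n * h * degree n P * intRange P (j + 1) ≤ intRange P j * orders n P (j + 1) := by
    calc 65 * n * h * degree n P * intRange P (j + 1)
        = 65 * n * h * (degree n P * P ^ 2) * intRange P j := by simp only [intRange]; ring
      _ ≤ P * (degree n P * P ^ 2) * intRange P j := by
          gcongr
          exact le_trans (Nat.mul_le_mul_right _ (Nat.mul_le_mul_right _ (by norm_num))) hPh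
      _ = intRange P j * (degree n P * P ^ 3) := by ring
      _ ≤ _ := by rw [degree_mul_pow hn]; exact Nat.mul_le_mul_left _ hT
  calc _ = termLog n h m P + 4 + 65 * n * h * degree n P * intRange P (j + 1) := by ring
    _ ≤ _ := by omega

/-- The logarithm of all that multiplies `|Λ|`. -/
def lossLog (n h m P : ℕ) : ℕ :=
  n * h * orders n P 0 + (termLog n h m P + 2 * n * h * degree n P * intRange P (3 * n ^ 2) + 1 +
    degree n P * intRange P (3 * n ^ 2)) + (intRange P (3 * n ^ 2) +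
    (4 + intRange P (3 * n ^ 2)) * orders n P 0 +
      (5 + (2 + 6 * n ^ 2) * P) * ((intRange P (3 * n ^ 2) + 1) * orders n P 0)) +
    n * h * degree n P * intRange P (3 * n ^ 2) + 4

theorem lossLog_le (hn : 1 ≤ n) (hh : 1 ≤ h) (hm : m ≤ P)
    (hP : 2 ^ 11 * n ^ 2 * 2 ^ (3 * n ^ 2) ≤ P) (hPh : 2 ^ 11 * n * h ≤ P) :
    lossLog n h m P ≤ P ^ kappa n := by
  set a := 2 ^ (3 * n ^ 2)
  set Q := P ^ (6 * n)
  set σ := intRange P (3 * n ^ 2) with hσdef
  have hσe : σ = P ^ (2 + 6 * n ^ 2) := by rw [hσdef, intRange]; congr 1; ring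
  have ha : 1 ≤ a := Nat.one_le_two_pow
  have hn2 : 1 ≤ n ^ 2 := Nat.one_le_pow _ _ hn
  have hP1 : 1 ≤ P := (Nat.one_le_iff_ne_zero.2 (by positivity)).trans hP
  have haP : a ≤ P := (Nat.le_mul_of_pos_left _ (by positivity)).trans hP
  have hQ : 1 ≤ Q := Nat.one_le_pow _ _ hP1
  have hσ : P ^ 2 ≤ σ := Nat.pow_le_pow_right hP1 (by omega)
  have hσ1 : 1 ≤ σ := le_trans (Nat.one_le_pow _ _ hP1) hσ
  have hL : degree n P ≤ Q := Nat.pow_le_pow_right hP1 (Nat.sub_le _ _)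
  have hnh : n * h ≤ P :=
    le_trans (Nat.mul_le_mul_right _ (Nat.le_mul_of_pos_left _ (by norm_num))) hPh
  set X := n ^ 2 * P ^ 2 * Q * σ with hX
  have hX1 : ∀ {y : ℕ}, y ≤ P ^ 2 * Q * σ → y ≤ X := fun {y} hy => by
    rw [hX, mul_assoc (n ^ 2), mul_assoc (n ^ 2)]
    exact hy.trans (Nat.le_mul_of_pos_left _ hn2)
  have ho : orders n P 0 = a * Q := by simp only [orders, Nat.sub_zero, a, Q]
  have hPP : P ≤ P ^ 2 := Nat.le_self_pow two_ne_zero P
  have hT : orders n P 0 ≤ P * Q := ho ▸ Nat.mul_le_mul_right _ haP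
  have hPQσ : P * Q * σ ≤ P ^ 2 * Q * σ := Nat.mul_le_mul_right _ (Nat.mul_le_mul_right _ hPP)
  have t1 : n * h * orders n P 0 ≤ X := hX1 <| (Nat.mul_le_mul hnh hT).trans <| by
    rw [← mul_assoc, ← pow_two]; exact Nat.le_mul_of_pos_right _ hσ1
  have t2 : termLog n h m P + 4 ≤ X := hX1 <| (termLog_le hn hm hP hPh).trans <| by
    rw [mul_comm]; exact Nat.le_mul_of_pos_right _ hσ1
  have t3 : n * h * degree n P * σ ≤ X := hX1 <|
    (Nat.mul_le_mul_right _ (Nat.mul_le_mul hnh hL)).trans hPQσ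
  have t4 : degree n P * σ ≤ X := le_trans (Nat.mul_le_mul_right _
    (Nat.le_mul_of_pos_left _ (Nat.mul_pos hn hh))) t3
  have t5 : σ ≤ X := le_trans (Nat.le_mul_of_pos_left _ (Nat.mul_pos
    (Nat.mul_pos hn2 (Nat.one_le_pow _ _ hP1)) hQ)) (le_of_eq hX.symm)
  have t6 : σ * orders n P 0 ≤ X := hX1 <| (Nat.mul_le_mul_left σ hT).trans <| by
    rw [mul_comm]; exact hPQσ
  have t7 : orders n P 0 ≤ X := le_trans (Nat.le_mul_of_pos_left _ hσ1) t6
  have t8 : (5 + (2 + 6 * n ^ 2) * P) * ((σ + 1) * orders n P 0) ≤ 26 * X := by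
    calc (5 + (2 + 6 * n ^ 2) * P) * ((σ + 1) * orders n P 0)
        ≤ (13 * n ^ 2 * P) * ((2 * σ) * (P * Q)) := by
          refine Nat.mul_le_mul ?_ (Nat.mul_le_mul (by omega) hT)
          calc 5 + (2 + 6 * n ^ 2) * P ≤ 5 * (n ^ 2 * P) + 8 * n ^ 2 * P := Nat.add_le_add
                (Nat.le_mul_of_pos_right _ (Nat.mul_pos hn2 hP1))
                (Nat.mul_le_mul_right _ (by omega))
            _ = 13 * n ^ 2 * P := by ring
      _ = 26 * X := by rw [hX]; ring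
  have hfin : 40 * X ≤ P ^ kappa n := by
    calc 40 * X = 40 * n ^ 2 * (P ^ 2 * Q * σ) := by rw [hX]; ring
      _ ≤ P * (P ^ 2 * Q * σ) := Nat.mul_le_mul_right _ (le_trans (Nat.mul_le_mul_right _
            (show 40 ≤ 2 ^ 11 by norm_num)) ((Nat.le_mul_of_pos_right _ ha).trans hP))
      _ = P ^ (6 * n ^ 2 + 6 * n + 5) := by simp only [Q, hσe]; ring
      _ ≤ _ := Nat.pow_le_pow_right hP1 (by simp only [kappa]; omega)
  have e1 : lossLog n h m P = n * h * orders n P 0 + (termLog n h m P + 4) +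
      2 * (n * h * degree n P * σ) + degree n P * σ + σ + 4 * orders n P 0 + σ * orders n P 0 +
      (5 + (2 + 6 * n ^ 2) * P) * ((σ + 1) * orders n P 0) + n * h * degree n P * σ + 1 := by
    rw [lossLog, ← hσdef]; ring
  have t9 : 1 ≤ X := hσ1.trans t5
  omega

end FA.BakerExplicit
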