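import Mathlib.Analysis.SpecialFunctions.Complex.Log
import Mathlib.Analysis.SpecialFunctions.ExpDeriv
import Mathlib.Analysis.Calculus.IteratedDeriv.Lemmas
import Mathlib.Analysis.Complex.Exponential
import Mathlib.Analysis.Complex.ExponentialBounds
import Mathlib.NumberTheory.SiegelsLemma
import Mathlib.Data.Int.NatAbs

/-!
# The functions of Baker's method with rational coefficients

For `Λ = ∑ b i l i`, `u = b i₀ λ - b λ i₀` and `F t x = ∑ p λ u ^ t exp (x ω λ)`,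
`b i₀ ω λ = ∑ u i l i`, the derivatives of the `F t` are combinations of the `F t'`, and at the
integers `F t` is within `O (|Λ|)` of the exponential sum with the `exp (∑ λ i l i)`.
-/

set_option autoImplicit false

noncomputable section

namespace FA.BakerExplicit

open Finset

variable {n L : ℕ}

/-- The indices other than `i₀`. -/
abbrev Other (i₀ : Fin n) : Type := {i : Fin n // i ≠ i₀}

/-- `b i₀ λ i - b i λ i₀`. -/
def coord (b : Fin n → ℤ) (i₀ : Fin n) (lam : Fin n → Fin L) (i : Fin n) : ℤ :=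
  b i₀ * (lam i).val - b i * (lam i₀).val

/-- The monomial in these. -/
def monom (b : Fin n → ℤ) (i₀ : Fin n) (t : Other i₀ → ℕ) (lam : Fin n → Fin L) : ℤ :=
  ∏ i, coord b i₀ lam i.1 ^ t i

/-- The frequency. -/
def omega (l : Fin n → ℝ) (b : Fin n → ℤ) (i₀ : Fin n) (lam : Fin n → Fin L) : ℝ :=
  ∑ i : Other i₀, (coord b i₀ lam i.1 : ℝ) * (l i.1 / b i₀)

/-- The logarithm of `∏ α i ^ λ i`. -/
def mu (l : Fin n → ℝ) (lam : Fin n → Fin L) : ℝ := ∑ i, ((lam i).val : ℝ) * l i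

/-- The auxiliary functions. -/
def auxFun (l : Fin n → ℝ) (b : Fin n → ℤ) (i₀ : Fin n) (p : (Fin n → Fin L) → ℤ)
    (t : Other i₀ → ℕ) (x : ℂ) : ℂ :=
  ∑ lam, ((p lam * monom b i₀ t lam : ℤ) : ℂ) * Complex.exp ((omega l b i₀ lam : ℂ) * x)

/-- The rational values next to them. -/
def auxVal (l : Fin n → ℝ) (b : Fin n → ℤ) (i₀ : Fin n) (p : (Fin n → Fin L) → ℤ)
    (t : Other i₀ → ℕ) (k : ℕ) : ℝ :=
  ∑ lam, ((p lam * monom b i₀ t lam : ℤ) : ℝ) * Real.exp ((k : ℝ) * mu l lam)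

theorem differentiable_auxFun (l : Fin n → ℝ) (b : Fin n → ℤ) (i₀ : Fin n)
    (p : (Fin n → Fin L) → ℤ) (t : Other i₀ → ℕ) : Differentiable ℂ (auxFun l b i₀ p t) := by
  unfold auxFun
  fun_prop

theorem omega_eq (l : Fin n → ℝ) {b : Fin n → ℤ} {i₀ : Fin n} (hb : b i₀ ≠ 0)
    (lam : Fin n → Fin L) :
    omega l b i₀ lam = mu l lam - (lam i₀).val * (∑ i, (b i : ℝ) * l i) / b i₀ := by
  have hbR : (b i₀ : ℝ) ≠ 0 := Int.cast_ne_zero.2 hb
  have h1 : ∑ i : Other i₀, (coord b i₀ lam i.1 : ℝ) * (l i.1 / b i₀) =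
      ∑ i, (coord b i₀ lam i : ℝ) * (l i / b i₀) := by
    rw [← sum_subtype (univ.filter fun i => i ≠ i₀) (p := fun i => i ≠ i₀) (fun i => by simp)
      fun i => (coord b i₀ lam i : ℝ) * (l i / b i₀)]
    refine sum_filter_of_ne fun i _ h e => h ?_
    subst e
    simp [coord]
  rw [omega, h1, mu, mul_sum, sum_div, ← sum_sub_distrib]
  refine sum_congr rfl fun i _ => ?_
  simp only [coord]
  push_cast
  field_simp

theorem monom_add (b : Fin n → ℤ) (i₀ : Fin n) (t : Other i₀ → ℕ) {k : ℕ}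
    (g : Fin k → Other i₀) (lam : Fin n → Fin L) :
    monom b i₀ (fun i => t i + (univ.filter fun j => g j = i).card) lam =
      monom b i₀ t lam * ∏ j, coord b i₀ lam (g j).1 := by
  simp only [monom, pow_add, prod_mul_distrib]
  refine congrArg _ ?_
  rw [← prod_fiberwise' univ g fun i => coord b i₀ lam i.1]
  exact prod_congr rfl fun i _ => (prod_const _).symm

/-- The derivatives are combinations of the functions. -/
theorem iteratedDeriv_auxFun (l : Fin n → ℝ) (b : Fin n → ℤ) (i₀ : Fin n)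
    (p : (Fin n → Fin L) → ℤ) (t : Other i₀ → ℕ) (k : ℕ) (x : ℂ) :
    iteratedDeriv k (auxFun l b i₀ p t) x = ∑ g : Fin k → Other i₀,
      (∏ j, ((l (g j).1 / b i₀ : ℝ) : ℂ)) *
        auxFun l b i₀ p (fun i => t i + (univ.filter fun j => g j = i).card) x := by
  unfold auxFun
  rw [iteratedDeriv_fun_sum fun lam _ => by fun_prop]
  simp only [iteratedDeriv_const_mul_field, iteratedDeriv_cexp_const_mul, mul_sum, monom_add]
  rw [sum_comm]
  refine sum_congr rfl fun lam _ => ?_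
  simp only [omega]
  push_cast
  rw [Fintype.sum_pow fun i : Other i₀ => (coord b i₀ lam i.1 : ℂ) * ((l i.1 : ℂ) / (b i₀ : ℂ)),
    sum_mul, mul_sum]
  refine sum_congr rfl fun g _ => ?_
  rw [prod_mul_distrib]
  ring

theorem abs_coord_le {b : Fin n → ℤ} {i₀ : Fin n} (hmax : ∀ i, (b i).natAbs ≤ (b i₀).natAbs)
    (lam : Fin n → Fin L) (i : Fin n) :
    |(coord b i₀ lam i : ℝ)| ≤ 2 * L * |(b i₀ : ℝ)| := by
  have h1 : |(b i : ℝ)| ≤ |(b i₀ : ℝ)| := by
    rw [← Int.cast_abs, ← Int.cast_abs, Int.cast_le, Int.abs_eq_natAbs, Int.abs_eq_natAbs]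
    exact_mod_cast hmax i
  have hl : ∀ j, ((lam j).val : ℝ) ≤ L := fun j => by exact_mod_cast (lam j).isLt.le
  simp only [coord]
  push_cast
  refine (abs_sub _ _).trans ?_
  rw [abs_mul, abs_mul, Nat.abs_cast, Nat.abs_cast]
  calc |(b i₀ : ℝ)| * (lam i).val + |(b i : ℝ)| * (lam i₀).val
      ≤ |(b i₀ : ℝ)| * L + |(b i₀ : ℝ)| * L :=
        add_le_add (mul_le_mul_of_nonneg_left (hl i) (abs_nonneg _))
          (mul_le_mul h1 (hl i₀) (Nat.cast_nonneg _) (abs_nonneg _))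
    _ = 2 * L * |(b i₀ : ℝ)| := by ring

theorem natAbs_monom_le {b : Fin n → ℤ} {i₀ : Fin n} (hmax : ∀ i, (b i).natAbs ≤ (b i₀).natAbs)
    {e T : ℕ} (he : 2 * L * (b i₀).natAbs ≤ 2 ^ e) {t : Other i₀ → ℕ} (ht : ∑ i, t i ≤ T)
    (lam : Fin n → Fin L) : (monom b i₀ t lam).natAbs ≤ 2 ^ (e * T) := by
  rw [monom, show (∏ i : Other i₀, coord b i₀ lam i.1 ^ t i).natAbs =
      ∏ i : Other i₀, (coord b i₀ lam i.1 ^ t i).natAbs from map_prod Int.natAbsHom _ _, pow_mul]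
  refine le_trans ?_ (Nat.pow_le_pow_right (Nat.two_pow_pos e) ht)
  rw [← prod_pow_eq_pow_sum]
  refine prod_le_prod' fun i _ => ?_
  rw [Int.natAbs_pow]
  refine Nat.pow_le_pow_left (le_trans ?_ he) _
  simp only [coord]
  refine (Int.natAbs_sub_le _ _).trans ?_
  rw [Int.natAbs_mul, Int.natAbs_mul, Int.natAbs_natCast, Int.natAbs_natCast]
  calc (b i₀).natAbs * (lam i.1).val + (b i.1).natAbs * (lam i₀).val
      ≤ (b i₀).natAbs * L + (b i₀).natAbs * L := Nat.add_le_add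
        (Nat.mul_le_mul_left _ (lam i.1).isLt.le) (Nat.mul_le_mul (hmax i.1) (lam i₀).isLt.le)
    _ = 2 * L * (b i₀).natAbs := by ring

theorem abs_omega_le {l : Fin n → ℝ} {h : ℕ} (hl : ∀ i, |l i| ≤ h) {b : Fin n → ℤ} {i₀ : Fin n}
    (hb : b i₀ ≠ 0) (hmax : ∀ i, (b i).natAbs ≤ (b i₀).natAbs) (lam : Fin n → Fin L) :
    |omega l b i₀ lam| ≤ ((2 * n * h * L : ℕ) : ℝ) := by
  have hbR : 0 < |(b i₀ : ℝ)| := abs_pos.2 (Int.cast_ne_zero.2 hb)
  refine (abs_sum_le_sum_abs _ _).trans ((sum_le_card_nsmul _ _ ((2 * L * h : ℕ) : ℝ)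
    fun i _ => ?_).trans ?_)
  · rw [abs_mul, abs_div, ← mul_div_assoc, div_le_iff₀ hbR]
    calc |(coord b i₀ lam i.1 : ℝ)| * |l i.1| ≤ 2 * L * |(b i₀ : ℝ)| * h :=
          mul_le_mul (abs_coord_le hmax lam i.1) (hl _) (abs_nonneg _) (by positivity)
      _ = _ := by push_cast; ring
  · rw [nsmul_eq_mul, card_univ]
    push_cast
    have hc : (Fintype.card (Other i₀) : ℝ) ≤ n := by
      exact_mod_cast (Fintype.card_subtype_le _).trans_eq (Fintype.card_fin n)
    calc (Fintype.card (Other i₀) : ℝ) * (2 * L * h) ≤ n * (2 * L * h) := by gcongr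
      _ = 2 * n * h * L := by ring

theorem exp_natCast_le_two_pow (k : ℕ) : Real.exp (k : ℝ) ≤ (2 : ℝ) ^ (2 * k) := by
  rw [← mul_one (k : ℝ), Real.exp_nat_mul, pow_mul (2 : ℝ) 2]
  exact pow_le_pow_left₀ (Real.exp_pos _).le (by linarith [Real.exp_one_lt_d9]) k

/-- The size of the functions. -/
theorem norm_auxFun_le {l : Fin n → ℝ} {h : ℕ} (hl : ∀ i, |l i| ≤ h) {b : Fin n → ℤ}
    {i₀ : Fin n} (hb : b i₀ ≠ 0) (hmax : ∀ i, (b i).natAbs ≤ (b i₀).natAbs)
    {p : (Fin n → Fin L) → ℤ} {t : Other i₀ → ℕ} {U : ℕ}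
    (hU : ∀ lam, L ^ n * (p lam * monom b i₀ t lam).natAbs ≤ 2 ^ U) {R : ℕ} {x : ℂ}
    (hx : ‖x‖ ≤ R) : ‖auxFun l b i₀ p t x‖ ≤ (2 : ℝ) ^ (U + 4 * n * h * L * R) := by
  rcases Nat.eq_zero_or_pos (L ^ n) with h0 | h0
  · have : IsEmpty (Fin n → Fin L) := Fintype.card_eq_zero_iff.1 (by simpa using h0)
    simp [auxFun]
  refine (norm_sum_le _ _).trans ((sum_le_card_nsmul _ _
    ((2 : ℝ) ^ (U + 4 * n * h * L * R) / (L ^ n : ℕ)) fun lam _ => ?_).trans_eq ?_)
  · rw [le_div_iff₀ (by exact_mod_cast h0), mul_comm, norm_mul, Complex.norm_intCast, pow_add,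
      ← mul_assoc]
    refine mul_le_mul ?_ ?_ (norm_nonneg _) (by positivity)
    · rw [← Int.cast_abs, ← Int.natCast_natAbs, Int.cast_natCast]
      exact_mod_cast hU lam
    · rw [Complex.norm_exp]
      refine (Real.exp_le_exp.2 ((Complex.re_le_norm _).trans ?_)).trans
        ((exp_natCast_le_two_pow (2 * n * h * L * R)).trans_eq (by ring_nf))
      rw [norm_mul, Complex.norm_real, Real.norm_eq_abs, Nat.cast_mul _ R]
      exact mul_le_mul (abs_omega_le hl hb hmax lam) hx (norm_nonneg _) (Nat.cast_nonneg _)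
  · rw [card_univ, Fintype.card_fun, Fintype.card_fin, Fintype.card_fin, nsmul_eq_mul,
      mul_div_cancel₀ _ (by exact_mod_cast h0.ne')]

/-- The functions at the integers. -/
theorem norm_auxFun_sub_le {l : Fin n → ℝ} {h : ℕ} (hl : ∀ i, |l i| ≤ h) {b : Fin n → ℤ}
    {i₀ : Fin n} (hb : b i₀ ≠ 0) {p : (Fin n → Fin L) → ℤ} {t : Other i₀ → ℕ} {U k : ℕ}
    (hU : ∀ lam, L ^ n * (p lam * monom b i₀ t lam).natAbs ≤ 2 ^ U)
    (hsmall : (L : ℝ) * k * |∑ i, (b i : ℝ) * l i| ≤ 1) :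
    ‖auxFun l b i₀ p t (k : ℂ) - (auxVal l b i₀ p t k : ℂ)‖ ≤
      (2 : ℝ) ^ (U + 2 * n * h * L * k + 1) * ((L : ℝ) * k * |∑ i, (b i : ℝ) * l i|) := by
  set Λ := ∑ i, (b i : ℝ) * l i with hΛ
  rcases Nat.eq_zero_or_pos (L ^ n) with h0 | h0
  · have : IsEmpty (Fin n → Fin L) := Fintype.card_eq_zero_iff.1 (by simpa using h0)
    simp [auxFun, auxVal]
    positivity
  rw [auxFun, auxVal, Complex.ofReal_sum, ← sum_sub_distrib]
  refine (norm_sum_le _ _).trans ((sum_le_card_nsmul _ _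
    ((2 : ℝ) ^ (U + 2 * n * h * L * k + 1) * ((L : ℝ) * k * |Λ|) / (L ^ n : ℕ))
      fun lam _ => ?_).trans_eq ?_)
  · set d := -((k : ℝ) * ((lam i₀).val * Λ / b i₀)) with hd
    have he : Complex.exp ((omega l b i₀ lam : ℂ) * (k : ℂ)) =
        (Real.exp ((k : ℝ) * mu l lam) : ℂ) * (Real.exp d : ℂ) := by
      rw [← Complex.ofReal_mul, ← Real.exp_add, ← Complex.ofReal_natCast, ← Complex.ofReal_mul,
        ← Complex.ofReal_exp, omega_eq l hb, ← hΛ, hd]
      congr 2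
      ring
    rw [Complex.ofReal_mul, he, Complex.ofReal_intCast, ← mul_sub, norm_mul, Complex.norm_intCast,
      show (Real.exp ((k : ℝ) * mu l lam) : ℂ) * (Real.exp d : ℂ) -
        (Real.exp ((k : ℝ) * mu l lam) : ℂ) =
          ((Real.exp ((k : ℝ) * mu l lam) * (Real.exp d - 1) : ℝ) : ℂ) by push_cast; ring,
      Complex.norm_real, Real.norm_eq_abs, abs_mul, Real.abs_exp,
      le_div_iff₀ (by exact_mod_cast h0), mul_comm, ← mul_assoc, pow_succ]
    have hdle : |d| ≤ (L : ℝ) * k * |Λ| := by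
      rw [hd, abs_neg, abs_mul, abs_div, abs_mul, Nat.abs_cast, Nat.abs_cast]
      calc (k : ℝ) * ((lam i₀).val * |Λ| / |(b i₀ : ℝ)|) ≤ k * (L * |Λ|) := by
            refine mul_le_mul_of_nonneg_left ((div_le_self (by positivity) ?_).trans ?_)
              (Nat.cast_nonneg _)
            · exact_mod_cast Int.one_le_abs hb
            · exact mul_le_mul_of_nonneg_right (by exact_mod_cast (lam i₀).isLt.le) (abs_nonneg _)
        _ = _ := by ring
    have hmu : Real.exp ((k : ℝ) * mu l lam) ≤ (2 : ℝ) ^ (2 * n * h * L * k) := by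
      refine (Real.exp_le_exp.2 ?_).trans ((exp_natCast_le_two_pow (n * h * L * k)).trans_eq
        (by ring_nf))
      refine (le_abs_self _).trans ?_
      rw [abs_mul, Nat.abs_cast, mu]
      refine (mul_le_mul_of_nonneg_left ((abs_sum_le_sum_abs _ _).trans
        (sum_le_card_nsmul _ _ ((L : ℝ) * h) fun i _ => ?_)) (Nat.cast_nonneg _)).trans_eq ?_
      · rw [abs_mul, Nat.abs_cast]
        exact mul_le_mul (by exact_mod_cast (lam i).isLt.le) (hl i) (abs_nonneg _)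
          (Nat.cast_nonneg _)
      · rw [card_univ, Fintype.card_fin, nsmul_eq_mul]
        push_cast
        ring
    have hcoef : ((L ^ n : ℕ) : ℝ) * |((p lam * monom b i₀ t lam : ℤ) : ℝ)| ≤ (2 : ℝ) ^ U := by
      rw [← Int.cast_abs, ← Int.natCast_natAbs, Int.cast_natCast]
      exact_mod_cast hU lam
    calc ((L ^ n : ℕ) : ℝ) * |((p lam * monom b i₀ t lam : ℤ) : ℝ)| *
          (Real.exp ((k : ℝ) * mu l lam) * |Real.exp d - 1|)
        ≤ (2 : ℝ) ^ U * ((2 : ℝ) ^ (2 * n * h * L * k) * (2 * ((L : ℝ) * k * |Λ|))) :=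
          mul_le_mul hcoef (mul_le_mul hmu
            ((Real.abs_exp_sub_one_le (hdle.trans hsmall)).trans (by linarith))
            (abs_nonneg _) (by positivity)) (by positivity) (by positivity)
      _ = _ := by rw [pow_add]; ring
  · rw [card_univ, Fintype.card_fun, Fintype.card_fin, Fintype.card_fin, nsmul_eq_mul,
      mul_div_cancel₀ _ (by exact_mod_cast h0.ne')]

end FA.BakerExplicit

end
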