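import Fermat.Agent.BakerExplicit.Schwarz
import Fermat.Agent.BakerExplicit.Setup
import Fermat.Agent.BakerExplicit.Numeric
import Mathlib.LinearAlgebra.Vandermonde

/-!
# An explicit theorem of Baker for logarithms of rationals

Siegel's lemma gives integers `p λ` for which the rational values next to the functions vanish for
the orders below `T 0` at the integers below `S 0`. If `|Λ|` is tiny the Schwarz lemma pushes this
to the orders below `T j` and the integers below `S j`, as a rational with a small denominator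
that is small vanishes. When `S j` exceeds the number of unknowns Vandermonde's determinant
contradicts the independence of the logarithms.
-/

set_option autoImplicit false

noncomputable section

namespace FA.BakerExplicit

open Finset

variable {n L : ℕ}

/-- The cleared weight. -/
def weight (num den : Fin n → ℕ) (k : ℕ) (lam : Fin n → Fin L) : ℕ :=
  ∏ i, num i ^ ((lam i).val * k) * den i ^ ((L - (lam i).val) * k)

theorem weight_le {num den : Fin n → ℕ} {h : ℕ} (hN : ∀ i, num i ≤ 2 ^ h) (hD : ∀ i, den i ≤ 2 ^ h)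
    (k : ℕ) (lam : Fin n → Fin L) : weight num den k lam ≤ 2 ^ (n * h * L * k) := by
  refine (prod_le_prod' (g := fun _ => 2 ^ (h * L * k)) fun i _ => ?_).trans_eq ?_
  · refine (Nat.mul_le_mul (Nat.pow_le_pow_left (hN i) _)
      (Nat.pow_le_pow_left (hD i) _)).trans_eq ?_
    rw [← pow_mul, ← pow_mul, ← pow_add]
    congr 1
    rw [← mul_add, ← add_mul, Nat.add_sub_cancel' (lam i).isLt.le, mul_assoc]
  · rw [prod_const, card_univ, Fintype.card_fin, ← pow_mul]
    congr 1
    ring

theorem weight_eq {num den : Fin n → ℕ} (hN : ∀ i, 0 < num i) (hD : ∀ i, 0 < den i) (k : ℕ)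
    (lam : Fin n → Fin L) :
    (weight num den k lam : ℝ) = (∏ i, (den i : ℝ) ^ (L * k)) *
      Real.exp ((k : ℝ) * mu (fun i => Real.log ((num i : ℝ) / den i)) lam) := by
  rw [weight, mu, mul_sum, Real.exp_sum, ← prod_mul_distrib, Nat.cast_prod]
  refine prod_congr rfl fun i _ => ?_
  have hd : (den i : ℝ) ≠ 0 := Nat.cast_ne_zero.2 (hD i).ne'
  have hq : (0 : ℝ) < (num i : ℝ) / den i := div_pos (Nat.cast_pos.2 (hN i)) (Nat.cast_pos.2 (hD i))
  rw [← mul_assoc, ← Nat.cast_mul k, Real.exp_nat_mul, Real.exp_log hq, div_pow,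
    ← mul_div_assoc, eq_div_iff (pow_ne_zero _ hd)]
  push_cast
  rw [mul_assoc, ← pow_add, show (L - (lam i).val) * k + k * (lam i).val = L * k by
    rw [mul_comm k, ← add_mul, Nat.sub_add_cancel (lam i).isLt.le]]
  ring

theorem abs_log_le {num den h : ℕ} (hn : 0 < num) (hd : 0 < den) (hnh : num ≤ 2 ^ h)
    (hdh : den ≤ 2 ^ h) : |Real.log ((num : ℝ) / den)| ≤ h := by
  have key : ∀ {x : ℕ}, 0 < x → x ≤ 2 ^ h → 0 ≤ Real.log x ∧ Real.log x ≤ h := fun {x} hx hxh => by
    refine ⟨Real.log_natCast_nonneg x, (Real.log_le_log (Nat.cast_pos.2 hx)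
      (show (x : ℝ) ≤ (2 : ℝ) ^ h by exact_mod_cast hxh)).trans ?_⟩
    rw [Real.log_pow]
    exact mul_le_of_le_one_right (Nat.cast_nonneg _) (Real.log_two_lt_d9.le.trans (by norm_num))
  obtain ⟨h1, h2⟩ := key hn hnh
  obtain ⟨h3, h4⟩ := key hd hdh
  rw [Real.log_div (Nat.cast_ne_zero.2 hn.ne') (Nat.cast_ne_zero.2 hd.ne'), abs_sub_le_iff]
  constructor <;> linarith

attribute [local instance] Matrix.seminormedAddCommGroup in
/-- Siegel's lemma with natural bounds. -/
theorem exists_small_solution {α β : Type*} [Fintype α] [Fintype β] (A : Matrix α β ℤ)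
    (hα : 0 < Fintype.card α) (hcard : 2 * Fintype.card α ≤ Fintype.card β) {a : ℕ}
    (hA : ∀ i j, (A i j).natAbs ≤ 2 ^ a) :
    ∃ p : β → ℤ, p ≠ 0 ∧ A.mulVec p = 0 ∧ ∀ j, (p j).natAbs ≤ Fintype.card β * 2 ^ a := by
  obtain ⟨p, hp0, hp, hpn⟩ := Int.Matrix.exists_ne_zero_int_vec_norm_le A (by omega) hα
  refine ⟨p, hp0, hp, fun j => ?_⟩
  have hA' : max 1 ‖A‖ ≤ (2 : ℝ) ^ a := max_le (one_le_pow₀ one_le_two)
    ((Matrix.norm_le_iff (by positivity)).2 fun i j => by
      rw [Int.norm_eq_abs, ← Int.cast_abs, ← Int.natCast_natAbs, Int.cast_natCast]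
      exact_mod_cast hA i j)
  have hb : (1 : ℝ) ≤ Fintype.card β * max 1 ‖A‖ :=
    one_le_mul_of_one_le_of_one_le (by exact_mod_cast (by omega : 1 ≤ Fintype.card β))
      (le_max_left _ _)
  have hc : (2 * Fintype.card α : ℝ) ≤ Fintype.card β := by exact_mod_cast hcard
  have hexp : (Fintype.card α : ℝ) / (Fintype.card β - Fintype.card α) ≤ 1 := by
    refine div_le_one_of_le₀ ?_ ?_ <;> linarith [Nat.cast_nonneg (α := ℝ) (Fintype.card α)]
  have h1 := (norm_le_pi_norm p j).trans (hpn.trans ((Real.rpow_le_rpow_of_exponent_le hb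
    hexp).trans_eq (Real.rpow_one _)))
  rw [Int.norm_eq_abs, ← Int.cast_abs, ← Int.natCast_natAbs, Int.cast_natCast] at h1
  exact_mod_cast h1.trans (mul_le_mul_of_nonneg_left hA' (Nat.cast_nonneg _))

theorem pow_le_two_pow_mul {x e k E : ℕ} (hx : x ≤ 2 ^ e) (hk : k ≤ E) :
    x ^ k ≤ 2 ^ (e * E) := by
  rw [pow_mul]
  exact (Nat.pow_le_pow_left hx k).trans (Nat.pow_le_pow_right (Nat.two_pow_pos e) hk)

set_option maxHeartbeats 1000000 in
/-- **Baker's theorem, explicit, for the logarithms of rationals.** -/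
theorem baker_bound {n : ℕ} {num den : Fin n → ℕ} (hN : ∀ i, 0 < num i) (hD : ∀ i, 0 < den i)
    {h m : ℕ} (hNh : ∀ i, num i ≤ 2 ^ h) (hDh : ∀ i, den i ≤ 2 ^ h)
    (hind : ∀ c : Fin n → ℤ,
      ∑ i, (c i : ℝ) * Real.log ((num i : ℝ) / den i) = 0 → c = 0)
    {b : Fin n → ℤ} (hb0 : b ≠ 0) (hbm : ∀ i, (b i).natAbs ≤ 2 ^ m) :
    1 / (2 : ℝ) ^ (base n h m ^ kappa n) ≤
      |∑ i, (b i : ℝ) * Real.log ((num i : ℝ) / den i)| := by
  classical
  set l : Fin n → ℝ := fun i => Real.log ((num i : ℝ) / den i)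
  by_contra hlt
  push Not at hlt
  obtain ⟨i₁, hi₁⟩ := Function.ne_iff.1 hb0
  have hn : 1 ≤ n := i₁.pos
  have hh : 1 ≤ h := by
    by_contra h0
    have h00 : h = 0 := by omega
    have h1 : ∀ i, num i = 1 ∧ den i = 1 := fun i => by
      have a1 := hNh i; have a2 := hDh i; have a3 := hN i; have a4 := hD i
      simp [h00] at a1 a2
      omega
    exact hb0 (hind b (sum_eq_zero fun i _ => by simp [(h1 i).1, (h1 i).2]))
  have : Nonempty (Fin n) := ⟨i₁⟩
  obtain ⟨i₀, -, hmax'⟩ := exists_max_image univ (fun i => (b i).natAbs) univ_nonempty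
  have hmax : ∀ i, (b i).natAbs ≤ (b i₀).natAbs := fun i => hmax' i (mem_univ i)
  have hbi : b i₀ ≠ 0 := fun e => hi₁ (by simpa [e] using hmax i₁)
  have hl : ∀ i, |l i| ≤ h := fun i => abs_log_le (hN i) (hD i) (hNh i) (hDh i)
  set Λ := ∑ i, (b i : ℝ) * l i with hΛ
  -- the parameters
  obtain ⟨hP, hPm, hPh⟩ := base_facts (m := m) (n := n) hh
  set P := base n h m
  set J := 3 * n ^ 2 with hJ
  set T := orders n P with hTdef
  set S := intRange P with hSdef
  set L := degree n P with hLdef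
  set N := L ^ n with hNdef
  have hP1 : 1 ≤ P := (Nat.one_le_iff_ne_zero.2 (by positivity)).trans hP
  have hTmono : ∀ j, T j ≤ T 0 := fun j =>
    Nat.mul_le_mul_right _ (Nat.pow_le_pow_right two_pos (by omega))
  have hT0 : ∀ j, 1 ≤ T j := fun j => Nat.mul_pos (Nat.two_pow_pos _) (pow_pos hP1 _)
  have hTstep : ∀ j, j < J → 2 * T (j + 1) = T j := fun j hj => by
    simp only [hTdef, orders]
    rw [← mul_assoc, ← pow_succ', show 3 * n ^ 2 - (j + 1) + 1 = 3 * n ^ 2 - j by omega]
  have hSmono : ∀ {i j : ℕ}, i ≤ j → S i ≤ S j := fun hij =>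
    Nat.pow_le_pow_right hP1 (by omega)
  set e := m + 1 + 6 * n * P with he
  have hcoord : 2 * L * (b i₀).natAbs ≤ 2 ^ e := by
    calc 2 * L * (b i₀).natAbs ≤ 2 * 2 ^ (6 * n * P) * 2 ^ m :=
          Nat.mul_le_mul (Nat.mul_le_mul_left _ degree_le_two_pow) (hbm i₀)
      _ = 2 ^ e := by rw [he, pow_add, pow_add]; ring
  have hN2 : N ≤ 2 ^ (6 * n ^ 2 * P) := degree_pow_le_two_pow
  have hcardι : Fintype.card (Other i₀) = n - 1 := by simp [Fintype.card_subtype_compl]
  have hcardL : Fintype.card (Fin n → Fin L) = N := by simp [hNdef]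
  -- Siegel's lemma
  let A : Matrix ((Other i₀ → Fin (T 0)) × Fin (S 0)) (Fin n → Fin L) ℤ :=
    Matrix.of fun tk lam => monom b i₀ (fun i => (tk.1 i).val) lam *
      (weight num den tk.2.val lam : ℤ)
  obtain ⟨p, hp0, hpA, hpb⟩ := exists_small_solution A (by
      simp only [Fintype.card_prod, Fintype.card_fun, Fintype.card_fin]
      exact Nat.mul_pos (pow_pos (hT0 0) _) (pow_pos hP1 _)) (by
      simp only [Fintype.card_prod, Fintype.card_fun, Fintype.card_fin, hcardι]
      exact unknowns hn hP) (a := e * (n * T 0) + n * h * L * S 0) fun tk lam => by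
    simp only [A, Matrix.of_apply, Int.natAbs_mul, Int.natAbs_natCast, pow_add]
    refine Nat.mul_le_mul (natAbs_monom_le hmax hcoord ?_ lam) ((weight_le hNh hDh _ lam).trans
      (Nat.pow_le_pow_right two_pos (Nat.mul_le_mul_left _ tk.2.isLt.le)))
    refine (sum_le_card_nsmul _ _ (T 0) fun i _ => (tk.1 i).isLt.le).trans ?_
    rw [card_univ, hcardι, smul_eq_mul]
    exact Nat.mul_le_mul_right _ (Nat.sub_le _ _)
  rw [hcardL] at hpb
  set U := termLog n h m P with hU
  have hterm : ∀ t : Other i₀ → ℕ, ∑ i, t i ≤ T 0 → ∀ lam,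
      L ^ n * (p lam * monom b i₀ t lam).natAbs ≤ 2 ^ U := fun t ht lam => by
    have hUe : U = 6 * n ^ 2 * P + (6 * n ^ 2 * P + (e * (n * T 0) + n * h * L * S 0) +
        e * (n * T 0)) := by
      simp only [hU, termLog, he, hTdef, hSdef, hLdef]; ring
    rw [Int.natAbs_mul, hUe, pow_add 2 (6 * n ^ 2 * P),
      pow_add 2 (6 * n ^ 2 * P + (e * (n * T 0) + n * h * L * S 0)), pow_add 2 (6 * n ^ 2 * P)]
    exact Nat.mul_le_mul hN2 (Nat.mul_le_mul ((hpb lam).trans (Nat.mul_le_mul_right _ hN2))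
      (natAbs_monom_le hmax hcoord (ht.trans (Nat.le_mul_of_pos_left _ hn)) lam))
  -- the vanishing
  let Vanish : ℕ → Prop := fun j => ∀ t : Other i₀ → ℕ, ∑ i, t i < T j → ∀ k < S j,
    auxVal l b i₀ p t k = 0
  have hclear : ∀ (t : Other i₀ → ℕ) (k : ℕ),
      ((∑ lam, p lam * monom b i₀ t lam * (weight num den k lam : ℤ) : ℤ) : ℝ) =
        (∏ i, (den i : ℝ) ^ (L * k)) * auxVal l b i₀ p t k := fun t k => by
    rw [auxVal, mul_sum, Int.cast_sum]
    refine sum_congr rfl fun lam _ => ?_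
    rw [Int.cast_mul, Int.cast_natCast, weight_eq hN hD]
    ring
  have hden : ∀ k, (∏ i, (den i : ℝ) ^ (L * k)) ≠ 0 := fun k =>
    prod_ne_zero_iff.2 fun i _ => pow_ne_zero _ (Nat.cast_ne_zero.2 (hD i).ne')
  have hstart : Vanish 0 := fun t ht k hk => by
    have h1 := congrFun hpA
      (fun i => ⟨t i, lt_of_le_of_lt (single_le_sum (fun _ _ => Nat.zero_le _) (mem_univ i)) ht⟩,
        ⟨k, hk⟩)
    have h2 : (∑ lam, p lam * monom b i₀ t lam * (weight num den k lam : ℤ)) = 0 := by
      refine Eq.trans (sum_congr rfl fun lam _ => ?_) h1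
      simp only [A, Matrix.of_apply]
      ring
    have h3 := hclear t k
    rw [h2, Int.cast_zero, eq_comm, mul_eq_zero] at h3
    exact h3.resolve_left (hden k)
  -- the loss
  set σ := S J with hσdef
  set Y := P ^ kappa n with hY
  set V := U + 2 * n * h * L * σ + 1 + L * σ with hV
  have hZ := lossLog_le hn hh hPm hP hPh
  simp only [lossLog, ← hU, ← hY, ← hTdef, ← hSdef, ← hLdef, ← hJ, ← hσdef] at hZ
  rw [← hV] at hZ
  set δ := (2 : ℝ) ^ V / 2 ^ Y with hδ
  have hΛY : |Λ| ≤ 1 / (2 : ℝ) ^ Y := hlt.le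
  have hclose : ∀ t : Other i₀ → ℕ, ∑ i, t i ≤ T 0 → ∀ k ≤ σ,
      ‖auxFun l b i₀ p t (k : ℂ) - (auxVal l b i₀ p t k : ℂ)‖ ≤ δ := fun t ht k hk => by
    have h1 : (L : ℝ) * k ≤ (2 : ℝ) ^ (L * σ) := by
      exact_mod_cast (Nat.mul_le_mul_left L hk).trans Nat.lt_two_pow_self.le
    have h2 : (L : ℝ) * k * |Λ| ≤ (2 : ℝ) ^ (L * σ) / 2 ^ Y := by
      rw [div_eq_mul_one_div]
      exact mul_le_mul h1 hΛY (abs_nonneg _) (by positivity)
    refine (norm_auxFun_sub_le hl hbi (hterm t ht) (h2.trans ((div_le_one (by positivity)).2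
      (pow_le_pow_right₀ one_le_two (by omega))))).trans ?_
    refine (mul_le_mul (pow_le_pow_right₀ one_le_two (show _ ≤ U + 2 * n * h * L * σ + 1 by gcongr))
      h2 (by positivity) (by positivity)).trans_eq ?_
    rw [hδ, ← mul_div_assoc, ← pow_add]
  have hstep : ∀ j, j < J → Vanish j → Vanish (j + 1) := fun j hj hvan t ht k hk => by
    have hTj := hTstep j hj
    set T' := T (j + 1)
    set ρ := S (j + 1)
    have hρσ : ρ ≤ σ := hSmono hj
    have hjρ : S j ≤ ρ := hSmono (Nat.le_succ j)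
    have ht0 : ∑ i, t i ≤ T 0 := ht.le.trans (hTmono _)
    set f := auxFun l b i₀ p t
    set ε := (2 : ℝ) ^ (n * h * T 0) * δ with hε
    have hsmall : ∀ x < S j, ∀ d < T',
        ‖iteratedDeriv d f (x : ℂ)‖ ≤ d.factorial * ε := fun x hx d hd => by
      refine le_trans ?_ (le_mul_of_one_le_left (by positivity)
        (by exact_mod_cast d.factorial_pos))
      rw [iteratedDeriv_auxFun]
      refine (norm_sum_le _ _).trans ((sum_le_card_nsmul _ _ ((h : ℝ) ^ d * δ)
        fun g _ => ?_).trans ?_)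
      · have hsum : ∑ i, (t i + (univ.filter fun y => g y = i).card) = ∑ i, t i + d := by
          rw [sum_add_distrib, ← card_eq_sum_card_fiberwise (fun y _ => mem_univ (g y)), card_univ,
            Fintype.card_fin]
        rw [norm_mul, norm_prod]
        refine mul_le_mul ?_ ?_ (norm_nonneg _) (by positivity)
        · refine (prod_le_prod (fun i _ => norm_nonneg _) (g := fun _ => (h : ℝ)) fun i _ => ?_
            ).trans_eq (by simp)
          rw [Complex.norm_real, Real.norm_eq_abs, abs_div]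
          exact (div_le_self (abs_nonneg _) (by exact_mod_cast Int.one_le_abs hbi)).trans (hl _)
        · have h0 : auxVal l b i₀ p (fun i => t i + (univ.filter fun y => g y = i).card) x = 0 :=
            hvan _ (by rw [hsum]; omega) x hx
          have h1 := hclose _ (by rw [hsum]; have := hTmono j; omega) x
            (hx.le.trans (hjρ.trans hρσ))
          rwa [h0, Complex.ofReal_zero, sub_zero] at h1
      · rw [card_univ, Fintype.card_fun, Fintype.card_fin, hcardι, nsmul_eq_mul, ← mul_assoc]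
        refine mul_le_mul_of_nonneg_right ?_ (by positivity)
        have h3 : (n - 1) ^ d * h ^ d ≤ 2 ^ (n * h * T 0) := by
          rw [← mul_pow]
          exact pow_le_two_pow_mul ((Nat.mul_le_mul_right h (Nat.sub_le n 1)).trans
            Nat.lt_two_pow_self.le) (hd.le.trans (hTmono _))
        exact_mod_cast h3
    have hbound : ∀ z : ℂ, ‖z‖ ≤ 16 * (ρ : ℝ) → ‖f z‖ ≤ (2 : ℝ) ^ (U + 4 * n * h * L * (16 * ρ)) :=
      fun z hz => norm_auxFun_le hl hbi hmax (hterm t ht0) (by exact_mod_cast hz)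
    have hs := norm_le_schwarz (differentiable_auxFun l b i₀ p t) (by exact_mod_cast hjρ)
      (by exact_mod_cast Nat.one_le_pow _ _ hP1) (by positivity) hsmall hbound
      (x := (k : ℂ)) (by rw [Complex.norm_natCast]; exact_mod_cast hk.le)
    -- the factor of `ε`
    have hW : S j * (16 * 2 ^ S j) ^ T' * (17 * ρ) ^ ((S j + 1) * T') ≤ 2 ^ (σ +
        (4 + σ) * T 0 + (5 + (2 + 6 * n ^ 2) * P) * ((σ + 1) * T 0)) := by
      have hjσ : S j ≤ σ := hjρ.trans hρσ
      rw [pow_add, pow_add 2 σ]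
      refine Nat.mul_le_mul (Nat.mul_le_mul (hjσ.trans Nat.lt_two_pow_self.le)
        (pow_le_two_pow_mul ?_ (hTmono _))) (pow_le_two_pow_mul ?_
          (Nat.mul_le_mul (Nat.add_le_add_right hjσ 1) (hTmono _)))
      · rw [pow_add]
        exact Nat.mul_le_mul (by norm_num) (Nat.pow_le_pow_right two_pos hjσ)
      · rw [pow_add]
        refine Nat.mul_le_mul (by norm_num) (hρσ.trans ?_)
        rw [hσdef, hSdef, intRange, mul_comm (2 + 6 * n ^ 2), pow_mul]
        exact (Nat.pow_le_pow_left Nat.lt_two_pow_self.le _).trans_eq (by rw [hJ]; ring_nf)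
    set W := S j * (16 * 2 ^ S j) ^ T' * (17 * ρ) ^ ((S j + 1) * T')
    set D := n * h * L * ρ with hD'
    have hD2 : (∏ i, (den i : ℝ) ^ (L * k)) ≤ (2 : ℝ) ^ D := by
      refine (prod_le_prod (fun i _ => by positivity) (g := fun _ => ((2 : ℝ) ^ h) ^ (L * ρ))
        fun i _ => ?_).trans_eq ?_
      · exact (pow_le_pow_left₀ (Nat.cast_nonneg _) (by exact_mod_cast hDh i) _).trans
          (pow_le_pow_right₀ (one_le_pow₀ one_le_two) (Nat.mul_le_mul_left _ hk.le))
      · rw [prod_const, card_univ, Fintype.card_fin, ← pow_mul, ← pow_mul, hD']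
        congr 1
        ring
    -- small
    have hval : |auxVal l b i₀ p t k| ≤ ε * W * 2 + δ +
        (2 : ℝ) ^ (U + 4 * n * h * L * (16 * ρ)) / 4 ^ (S j * T') := by
      have h1 := hclose t ht0 k (hk.le.trans hρσ)
      rw [norm_sub_rev] at h1
      have h2 := norm_le_norm_add_norm_sub' ((auxVal l b i₀ p t k : ℝ) : ℂ) (f (k : ℂ))
      rw [Complex.norm_real, Real.norm_eq_abs] at h2
      have hWR : ε * ((S j : ℝ) * (16 * 2 ^ S j) ^ T') * (17 * (ρ : ℝ)) ^ ((S j + 1) * T') =
          ε * W := by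
        simp only [W]; push_cast; ring
      rw [hWR] at hs
      linarith
    have hq : ∀ {x Z : ℕ}, x + 3 ≤ Z → (2 : ℝ) ^ x / 2 ^ Z ≤ 1 / 8 := fun {x Z} hxZ => by
      rw [div_le_div_iff₀ (by positivity) (by norm_num), one_mul]
      calc (2 : ℝ) ^ x * 8 = 2 ^ (x + 3) := by rw [pow_add]; norm_num
        _ ≤ _ := pow_le_pow_right₀ one_le_two hxZ
    have hint : |((∑ lam, p lam * monom b i₀ t lam * (weight num den k lam : ℤ) : ℤ) : ℝ)| < 1 := by
      rw [hclear, abs_mul, abs_of_nonneg (prod_nonneg fun i _ => by positivity)]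
      refine lt_of_le_of_lt (mul_le_mul hD2 hval (abs_nonneg _) (by positivity)) ?_
      have hgain := step_gain hn hPm hP hPh j
      simp only [← hU, ← hTdef, ← hSdef, ← hLdef] at hgain
      change U + 4 * n * h * L * (16 * ρ) + D + 4 ≤ 2 * (S j * T') at hgain
      have hDle : D ≤ n * h * L * σ := Nat.mul_le_mul_left _ hρσ
      set w := σ + (4 + σ) * T 0 + (5 + (2 + 6 * n ^ 2) * P) * ((σ + 1) * T 0)
      have a1 : (2 : ℝ) ^ D * (ε * W * 2) ≤ 1 / 8 := by
        refine le_trans ?_ (hq (x := D + (n * h * T 0 + V + w + 1)) (Z := Y) (by omega))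
        have hWR : (W : ℝ) ≤ (2 : ℝ) ^ w := by exact_mod_cast hW
        calc (2 : ℝ) ^ D * (ε * W * 2) ≤ (2 : ℝ) ^ D * (ε * 2 ^ w * 2) := by gcongr
          _ = _ := by rw [hε, hδ]; simp only [pow_add]; ring
      have a2 : (2 : ℝ) ^ D * δ ≤ 1 / 8 := by
        refine le_trans (le_of_eq ?_) (hq (x := D + V) (Z := Y) (by omega))
        rw [hδ, pow_add]; ring
      have a3 : (2 : ℝ) ^ D * ((2 : ℝ) ^ (U + 4 * n * h * L * (16 * ρ)) / 4 ^ (S j * T')) ≤
          1 / 8 := by
        refine le_trans (le_of_eq ?_) (hq (x := D + (U + 4 * n * h * L * (16 * ρ)))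
          (Z := 2 * (S j * T')) (by omega))
        rw [pow_add 2 D, pow_mul (2 : ℝ) 2]
        norm_num
        ring
      rw [mul_add, mul_add]
      linarith
    have h0 : (∑ lam, p lam * monom b i₀ t lam * (weight num den k lam : ℤ)) = 0 := by
      rw [← Int.abs_lt_one_iff]
      exact_mod_cast hint
    have h4 := hclear t k
    rw [h0, Int.cast_zero, eq_comm, mul_eq_zero] at h4
    exact h4.resolve_left (hden k)
  have hall : ∀ j, j ≤ J → Vanish j := by
    intro j
    induction j with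
    | zero => exact fun _ => hstart
    | succ j ih => exact fun hj => hstep j hj (ih (Nat.le_of_succ_le hj))
  -- Vandermonde
  refine hp0 ?_
  have hlam : Function.Injective fun lam : Fin n → Fin L => Real.exp (mu l lam) := fun x y hxy => by
    have h1 := hind (fun i => ((x i).val : ℤ) - (y i).val) (by
      have h2 : mu l x - mu l y = 0 := sub_eq_zero.2 (Real.exp_injective hxy)
      rw [mu, mu, ← sum_sub_distrib] at h2
      refine Eq.trans (sum_congr rfl fun i _ => ?_) h2
      push_cast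
      ring)
    funext i
    have := congrFun h1 i
    simp only [Pi.zero_apply] at this
    exact Fin.ext (by omega)
  let E : Fin N ≃ (Fin n → Fin L) := (Fintype.equivFinOfCardEq hcardL).symm
  have hv : (fun x => (p (E x) : ℝ)) = 0 := by
    refine Matrix.eq_zero_of_forall_pow_sum_mul_pow_eq_zero
      (f := fun x => Real.exp (mu l (E x))) (hlam.comp E.injective) fun k => ?_
    have h1 := hall J le_rfl (fun _ => 0) (by rw [sum_const_zero]; exact hT0 J) k.val
      (k.isLt.trans_le (range_last hP1))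
    rw [auxVal, ← E.sum_comp] at h1
    refine Eq.trans (sum_congr rfl fun x _ => ?_) h1
    simp [monom, Real.exp_nat_mul]
  funext lam
  have h1 := congrFun hv (E.symm lam)
  simpa using h1

end FA.BakerExplicit

end
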