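import Fermat.Agent.BakerExplicit.Schwarz
import Fermat.Agent.BakerExplicit.Main
import Fermat.Agent.BakerExplicit.AlgebraicNumeric
import Fermat.Agent.BakerExplicit.AlgebraicSetup
import Fermat.Agent.BakerExplicit.AlgebraicSiegel
import Fermat.Agent.Transcendence.GelfondSchneider
import Fermat.Agent.BakerExplicit.Classes

/-!
# An explicit theorem of Baker for logarithms of algebraic numbers

The argument for rationals carried to a number field: rational integers `p λ` make the algebraic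
values vanish, and in each step a value, cleared of its denominator, is an algebraic integer with
bounded conjugates that is too small at the given place, hence is zero. At the end the classes of
equal `∏ α i ^ λ i` are separated, so no independence of the numbers or logarithms is assumed.
-/

set_option autoImplicit false

noncomputable section

namespace FA.BakerExplicit.Algebraic

open Finset NumberField Module

variable {n L : ℕ} {K : Type*} [Field K] [NumberField K]

/-- The cleared weight. -/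
def weight (A : Fin n → 𝓞 K) (D k : ℕ) (lam : Fin n → Fin L) : 𝓞 K :=
  ∏ i, A i ^ ((lam i).val * k) * (D : 𝓞 K) ^ ((L - (lam i).val) * k)

omit [NumberField K] in
theorem norm_weight_le {A : Fin n → 𝓞 K} {D h : ℕ}
    (hA : ∀ i (σ : K →+* ℂ), ‖σ (A i : K)‖ ≤ (2 : ℝ) ^ (2 * h)) (hD : D ≤ 2 ^ h) (k : ℕ)
    (lam : Fin n → Fin L) (σ : K →+* ℂ) :
    ‖σ (weight A D k lam : K)‖ ≤ (2 : ℝ) ^ (2 * n * h * L * k) := by
  simp only [weight, map_prod, map_mul, map_pow, map_natCast]
  rw [norm_prod]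
  refine (prod_le_prod (fun i _ => norm_nonneg _) (g := fun _ => (2 : ℝ) ^ (2 * h * L * k))
    fun i _ => ?_).trans_eq ?_
  · rw [norm_mul, norm_pow, norm_pow, Complex.norm_natCast]
    refine (mul_le_mul (pow_le_pow_left₀ (norm_nonneg _) (hA i σ) _)
      (pow_le_pow_left₀ (Nat.cast_nonneg _) (show (D : ℝ) ≤ (2 : ℝ) ^ (2 * h) from
        le_trans (by exact_mod_cast hD) (pow_le_pow_right₀ one_le_two (by omega))) _)
      (by positivity) (by positivity)).trans_eq ?_
    rw [← pow_mul, ← pow_mul, ← pow_add]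
    congr 1
    rw [← mul_add, ← add_mul, Nat.add_sub_cancel' (lam i).isLt.le, mul_assoc (2 * h)]
  · rw [prod_const, card_univ, Fintype.card_fin, ← pow_mul]
    congr 1
    ring

omit [NumberField K] in
theorem map_weight {A : Fin n → 𝓞 K} {α : Fin n → K} {D : ℕ}
    (hA : ∀ i, (A i : K) = (D : K) * α i) (ψ : K →+* ℂ) {l : Fin n → ℂ}
    (hexp : ∀ i, Complex.exp (l i) = ψ (α i)) (k : ℕ) (lam : Fin n → Fin L) :
    ψ (weight A D k lam : K) =
      (D : ℂ) ^ (n * (L * k)) * Complex.exp ((k : ℂ) * mu l lam) := by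
  have h1 : (D : ℂ) ^ (n * (L * k)) = ∏ _i : Fin n, (D : ℂ) ^ (L * k) := by
    rw [prod_const, card_univ, Fintype.card_fin, ← pow_mul, mul_comm n]
  rw [mu, mul_sum, Complex.exp_sum, h1, ← prod_mul_distrib]
  simp only [weight, map_prod, map_mul, map_pow, map_natCast, hA]
  refine prod_congr rfl fun i _ => ?_
  rw [← mul_assoc (k : ℂ), ← Nat.cast_mul, Complex.exp_nat_mul, ← hexp, mul_pow, mul_right_comm,
    ← pow_add, mul_comm k (lam i).val, ← add_mul, Nat.add_sub_cancel' (lam i).isLt.le]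

theorem house_le_of_forall {x : K} {B : ℝ} (hB : 0 ≤ B) (h : ∀ σ : K →+* ℂ, ‖σ x‖ ≤ B) :
    house x ≤ B :=
  (pi_norm_le_iff_of_nonneg hB).2 h

set_option maxHeartbeats 1000000 in
/-- **Baker's theorem, explicit, for the logarithms of algebraic numbers.** The field enters only
through its degree, the logarithms may be on any branches that `h` bounds, and the form need only
be non-zero. -/
theorem baker_algebraic_general_bound {d : ℕ} (hd : finrank ℚ K ≤ d) (ψ : K →+* ℂ) {n : ℕ}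
    {α : Fin n → K} {D : ℕ} (hD0 : 0 < D) (hint : ∀ i, IsIntegral ℤ ((D : K) * α i)) {h m : ℕ}
    (hDh : D ≤ 2 ^ h) (hαh : ∀ i, house (α i) ≤ (2 : ℝ) ^ h) {l : Fin n → ℂ}
    (hexp : ∀ i, Complex.exp (l i) = ψ (α i)) (hl : ∀ i, ‖l i‖ ≤ h)
    {b : Fin n → ℤ} (hbm : ∀ i, (b i).natAbs ≤ 2 ^ m) (hΛ0 : ∑ i, (b i : ℂ) * l i ≠ 0) :
    1 / (2 : ℝ) ^ (baseAlg n d h m ^ kappa n) ≤ ‖∑ i, (b i : ℂ) * l i‖ := by
  classical
  by_contra hlt
  push Not at hlt
  have hb0 : b ≠ 0 := fun e => hΛ0 (by simp [e])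
  obtain ⟨i₁, hi₁⟩ := Function.ne_iff.1 hb0
  have hn : 1 ≤ n := i₁.pos
  have hd1 : 1 ≤ d := le_trans finrank_pos hd
  have hh : 1 ≤ h := by
    by_contra h0
    have h00 : h = 0 := by omega
    refine hΛ0 (sum_eq_zero fun i _ => ?_)
    rw [norm_le_zero_iff.1 ((hl i).trans_eq (by simp [h00])), mul_zero]
  have : Nonempty (Fin n) := ⟨i₁⟩
  obtain ⟨i₀, -, hmax'⟩ := exists_max_image univ (fun i => (b i).natAbs) univ_nonempty
  have hmax : ∀ i, (b i).natAbs ≤ (b i₀).natAbs := fun i => hmax' i (mem_univ i)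
  have hbi : b i₀ ≠ 0 := fun e => hi₁ (by simpa [e] using hmax i₁)
  set Λ := ∑ i, (b i : ℂ) * l i with hΛ
  let Aint : Fin n → 𝓞 K := fun i => ⟨(D : K) * α i, hint i⟩
  have hAint : ∀ i, (Aint i : K) = (D : K) * α i := fun i => rfl
  have hAh : ∀ i (σ : K →+* ℂ), ‖σ (Aint i : K)‖ ≤ (2 : ℝ) ^ (2 * h) := fun i σ => by
    rw [hAint, map_mul, map_natCast, norm_mul, Complex.norm_natCast, two_mul, pow_add]
    exact mul_le_mul (by exact_mod_cast hDh) ((norm_embedding_le_house _ σ).trans (hαh i))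
      (norm_nonneg _) (by positivity)
  -- the parameters
  obtain ⟨hP, hPm, hPh⟩ := baseAlg_facts (m := m) (n := n) hh hd1
  set P := baseAlg n d h m
  set J := 3 * n ^ 2 with hJ
  set T := orders n P with hTdef
  set S := intRange P with hSdef
  set L := degree n P with hLdef
  set N := L ^ n with hNdef
  have hP1 : 1 ≤ P := one_le_of_facts hn hd1 hP
  have hTmono : ∀ j, T j ≤ T 0 := fun j =>
    Nat.mul_le_mul_right _ (Nat.pow_le_pow_right two_pos (by omega))
  have hT0 : ∀ j, 1 ≤ T j := fun j => Nat.mul_pos (Nat.two_pow_pos _) (pow_pos hP1 _)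
  have hTstep : ∀ j, j < J → 2 * T (j + 1) = T j := fun j hj => by
    simp only [hTdef, orders]
    rw [← mul_assoc, ← pow_succ', show 3 * n ^ 2 - (j + 1) + 1 = 3 * n ^ 2 - j by omega]
  have hSmono : ∀ {i j : ℕ}, i ≤ j → S i ≤ S j := fun hij =>
    Nat.pow_le_pow_right hP1 (by omega)
  set e := m + 1 + 6 * n * P with he
  have hcoord : 2 * L * (b i₀).natAbs ≤ 2 ^ e := by
    calc 2 * L * (b i₀).natAbs ≤ 2 * 2 ^ (6 * n * P) * 2 ^ m :=
          Nat.mul_le_mul (Nat.mul_le_mul_left _ degree_le_two_pow) (hbm i₀)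
      _ = 2 ^ e := by rw [he, pow_add, pow_add]; ring
  have hN2 : N ≤ 2 ^ (6 * n ^ 2 * P) := degree_pow_le_two_pow
  have hcardι : Fintype.card (Other i₀) = n - 1 := by simp [Fintype.card_subtype_compl]
  have hcardL : Fintype.card (Fin n → Fin L) = N := by simp [hNdef]
  have hcast : ∀ (c : ℤ) (σ : K →+* ℂ) (w : 𝓞 K),
      ‖σ (((c : 𝓞 K) * w : 𝓞 K) : K)‖ = (c.natAbs : ℝ) * ‖σ (w : K)‖ := fun c σ w => by
    simp only [map_mul, map_intCast, norm_mul, Complex.norm_intCast, Nat.cast_natAbs, Int.cast_abs]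
  -- Siegel's lemma
  let x : (Other i₀ → Fin (T 0)) × Fin (S 0) → (Fin n → Fin L) → 𝓞 K := fun tk lam =>
    (monom b i₀ (fun i => (tk.1 i).val) lam : 𝓞 K) * weight Aint D tk.2.val lam
  obtain ⟨p, hp0, hpA, hpb⟩ := exists_int_solution x (by
      simp only [Fintype.card_prod, Fintype.card_fun, Fintype.card_fin]
      exact Nat.mul_pos (pow_pos (hT0 0) _) (pow_pos hP1 _)) (by
      simp only [Fintype.card_prod, Fintype.card_fun, Fintype.card_fin, hcardι]
      exact le_trans (by gcongr) (unknowns_alg hn hd1 hP))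
    (a := e * (n * T 0) + 2 * n * h * L * S 0) (hcardL.trans_le hN2) fun tk lam σ => by
    simp only [x]
    rw [hcast, pow_add]
    refine mul_le_mul ?_ ((norm_weight_le hAh hDh _ lam σ).trans
      (pow_le_pow_right₀ one_le_two (Nat.mul_le_mul_left _ tk.2.isLt.le))) (norm_nonneg _)
      (by positivity)
    exact_mod_cast natAbs_monom_le hmax hcoord ((sum_le_card_nsmul _ _ (T 0)
      fun i _ => (tk.1 i).isLt.le).trans (by
        rw [card_univ, hcardι, smul_eq_mul]
        exact Nat.mul_le_mul_right _ (Nat.sub_le _ _))) lam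
  set U := termLogAlg n h m P with hU
  have hterm : ∀ t : Other i₀ → ℕ, ∑ i, t i ≤ T 0 → ∀ lam,
      L ^ n * (p lam * monom b i₀ t lam).natAbs ≤ 2 ^ U := fun t ht lam => by
    have hUe : U = 6 * n ^ 2 * P + (6 * n ^ 2 * P + (e * (n * T 0) + 2 * n * h * L * S 0) + 2 +
        e * (n * T 0)) := by
      simp only [hU, termLogAlg, he, hTdef, hSdef, hLdef]; ring
    rw [Int.natAbs_mul, hUe, pow_add 2 (6 * n ^ 2 * P),
      pow_add 2 (6 * n ^ 2 * P + (e * (n * T 0) + 2 * n * h * L * S 0) + 2)]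
    exact Nat.mul_le_mul hN2 (Nat.mul_le_mul (hpb lam)
      (natAbs_monom_le hmax hcoord (ht.trans (Nat.le_mul_of_pos_left _ hn)) lam))
  -- the vanishing
  let Vanish : ℕ → Prop := fun j => ∀ t : Other i₀ → ℕ, ∑ i, t i < T j → ∀ k < S j,
    auxVal l b i₀ p t k = 0
  let X : (Other i₀ → ℕ) → ℕ → 𝓞 K := fun t k =>
    ∑ lam, ((p lam * monom b i₀ t lam : ℤ) : 𝓞 K) * weight Aint D k lam
  have hclear : ∀ (t : Other i₀ → ℕ) (k : ℕ),
      ψ (X t k : K) = (D : ℂ) ^ (n * (L * k)) * auxVal l b i₀ p t k := fun t k => by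
    simp only [X, auxVal, map_sum, map_mul, map_intCast, map_weight hAint ψ hexp, mul_sum]
    exact sum_congr rfl fun lam _ => mul_left_comm _ _ _
  have hden : ∀ k, (D : ℂ) ^ (n * (L * k)) ≠ 0 := fun k =>
    pow_ne_zero _ (Nat.cast_ne_zero.2 hD0.ne')
  have hzero : ∀ t k, X t k = 0 → auxVal l b i₀ p t k = 0 := fun t k h0 => by
    have h3 := hclear t k
    simp only [h0, map_zero] at h3
    rw [eq_comm, mul_eq_zero] at h3
    exact h3.resolve_left (hden k)
  have hstart : Vanish 0 := fun t ht k hk => hzero t k <| by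
    refine Eq.trans (sum_congr rfl fun lam _ => ?_) (hpA
      (fun i => ⟨t i, lt_of_le_of_lt (single_le_sum (fun _ _ => Nat.zero_le _) (mem_univ i)) ht⟩,
        ⟨k, hk⟩))
    simp only [x]
    push_cast
    ring
  -- the loss
  set σ := S J with hσdef
  set Y := P ^ kappa n with hY
  set V := U + 2 * n * h * L * σ + 1 + L * σ with hV
  have hZ := lossLogAlg_le hn hh hd1 hPm hP hPh
  simp only [lossLogAlg, ← hU, ← hY, ← hTdef, ← hSdef, ← hLdef, ← hJ, ← hσdef] at hZ
  rw [← hV] at hZ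
  set δ := (2 : ℝ) ^ V / 2 ^ Y with hδ
  have hΛY : ‖Λ‖ ≤ 1 / (2 : ℝ) ^ Y := hlt.le
  have hclose : ∀ t : Other i₀ → ℕ, ∑ i, t i ≤ T 0 → ∀ k ≤ σ,
      ‖auxFun l b i₀ p t (k : ℂ) - auxVal l b i₀ p t k‖ ≤ δ := fun t ht k hk => by
    have h1 : (L : ℝ) * k ≤ (2 : ℝ) ^ (L * σ) := by
      exact_mod_cast (Nat.mul_le_mul_left L hk).trans Nat.lt_two_pow_self.le
    have h2 : (L : ℝ) * k * ‖Λ‖ ≤ (2 : ℝ) ^ (L * σ) / 2 ^ Y := by
      rw [div_eq_mul_one_div]
      exact mul_le_mul h1 hΛY (norm_nonneg _) (by positivity)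
    refine (norm_auxFun_sub_le hl hbi (hterm t ht) (h2.trans ((div_le_one (by positivity)).2
      (pow_le_pow_right₀ one_le_two (by omega))))).trans ?_
    refine (mul_le_mul (pow_le_pow_right₀ one_le_two (show _ ≤ U + 2 * n * h * L * σ + 1 by gcongr))
      h2 (by positivity) (by positivity)).trans_eq ?_
    rw [hδ, ← mul_div_assoc, ← pow_add]
  have hstep : ∀ j, j < J → Vanish j → Vanish (j + 1) := fun j hj hvan t ht k hk => by
    have hTj := hTstep j hj
    set T' := T (j + 1)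
    set ρ := S (j + 1)
    have hρσ : ρ ≤ σ := hSmono hj
    have hjρ : S j ≤ ρ := hSmono (Nat.le_succ j)
    have ht0 : ∑ i, t i ≤ T 0 := ht.le.trans (hTmono _)
    set f := auxFun l b i₀ p t
    set ε := (2 : ℝ) ^ (n * h * T 0) * δ with hε
    have hsmall : ∀ z < S j, ∀ r < T',
        ‖iteratedDeriv r f (z : ℂ)‖ ≤ r.factorial * ε := fun z hz r hr => by
      refine le_trans ?_ (le_mul_of_one_le_left (by positivity)
        (by exact_mod_cast r.factorial_pos))
      rw [iteratedDeriv_auxFun]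
      refine (norm_sum_le _ _).trans ((sum_le_card_nsmul _ _ ((h : ℝ) ^ r * δ)
        fun g _ => ?_).trans ?_)
      · have hsum : ∑ i, (t i + (univ.filter fun y => g y = i).card) = ∑ i, t i + r := by
          rw [sum_add_distrib, ← card_eq_sum_card_fiberwise (fun y _ => mem_univ (g y)), card_univ,
            Fintype.card_fin]
        rw [norm_mul, norm_prod]
        refine mul_le_mul ?_ ?_ (norm_nonneg _) (by positivity)
        · refine (prod_le_prod (fun i _ => norm_nonneg _) (g := fun _ => (h : ℝ)) fun i _ => ?_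
            ).trans_eq (by simp)
          rw [norm_div, Complex.norm_intCast]
          exact (div_le_self (norm_nonneg _) (by exact_mod_cast Int.one_le_abs hbi)).trans (hl _)
        · have h0 : auxVal l b i₀ p (fun i => t i + (univ.filter fun y => g y = i).card) z = 0 :=
            hvan _ (by rw [hsum]; omega) z hz
          have h1 := hclose _ (by rw [hsum]; have := hTmono j; omega) z
            (hz.le.trans (hjρ.trans hρσ))
          rwa [h0, sub_zero] at h1
      · rw [card_univ, Fintype.card_fun, Fintype.card_fin, hcardι, nsmul_eq_mul, ← mul_assoc]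
        refine mul_le_mul_of_nonneg_right ?_ (by positivity)
        have h3 : (n - 1) ^ r * h ^ r ≤ 2 ^ (n * h * T 0) := by
          rw [← mul_pow]
          exact pow_le_two_pow_mul ((Nat.mul_le_mul_right h (Nat.sub_le n 1)).trans
            Nat.lt_two_pow_self.le) (hr.le.trans (hTmono _))
        exact_mod_cast h3
    have hbound : ∀ z : ℂ, ‖z‖ ≤ 16 * (ρ : ℝ) → ‖f z‖ ≤ (2 : ℝ) ^ (U + 4 * n * h * L * (16 * ρ)) :=
      fun z hz => norm_auxFun_le hl hbi hmax (hterm t ht0) (by exact_mod_cast hz)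
    have hs := norm_le_schwarz (differentiable_auxFun l b i₀ p t) (by exact_mod_cast hjρ)
      (by exact_mod_cast Nat.one_le_pow _ _ hP1) (by positivity) hsmall hbound
      (x := (k : ℂ)) (by rw [Complex.norm_natCast]; exact_mod_cast hk.le)
    -- the factor of `ε`
    have hW : S j * (16 * 2 ^ S j) ^ T' * (17 * ρ) ^ ((S j + 1) * T') ≤ 2 ^ (σ +
        (4 + σ) * T 0 + (5 + (2 + 6 * n ^ 2) * P) * ((σ + 1) * T 0)) := by
      have hjσ : S j ≤ σ := hjρ.trans hρσ
      rw [pow_add, pow_add 2 σ]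
      refine Nat.mul_le_mul (Nat.mul_le_mul (hjσ.trans Nat.lt_two_pow_self.le)
        (pow_le_two_pow_mul ?_ (hTmono _))) (pow_le_two_pow_mul ?_
          (Nat.mul_le_mul (Nat.add_le_add_right hjσ 1) (hTmono _)))
      · rw [pow_add]
        exact Nat.mul_le_mul (by norm_num) (Nat.pow_le_pow_right two_pos hjσ)
      · rw [pow_add]
        refine Nat.mul_le_mul (by norm_num) (hρσ.trans ?_)
        rw [hσdef, hSdef, intRange, mul_comm (2 + 6 * n ^ 2), pow_mul]
        exact (Nat.pow_le_pow_left Nat.lt_two_pow_self.le _).trans_eq (by rw [hJ]; ring_nf)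
    set W := S j * (16 * 2 ^ S j) ^ T' * (17 * ρ) ^ ((S j + 1) * T')
    set E := n * h * L * ρ + d * (U + 2 * n * h * L * ρ) with hE
    -- small
    have hval : ‖auxVal l b i₀ p t k‖ ≤ ε * W * 2 + δ +
        (2 : ℝ) ^ (U + 4 * n * h * L * (16 * ρ)) / 4 ^ (S j * T') := by
      have h1 := hclose t ht0 k (hk.le.trans hρσ)
      rw [norm_sub_rev] at h1
      have h2 := norm_le_norm_add_norm_sub' (auxVal l b i₀ p t k) (f (k : ℂ))
      have hWR : ε * ((S j : ℝ) * (16 * 2 ^ S j) ^ T') * (17 * (ρ : ℝ)) ^ ((S j + 1) * T') =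
          ε * W := by
        simp only [W]; push_cast; ring
      rw [hWR] at hs
      linarith
    have hq : ∀ {y Z : ℕ}, y + 3 ≤ Z → (2 : ℝ) ^ y / 2 ^ Z ≤ 1 / 8 := fun {y Z} hyZ => by
      rw [div_le_div_iff₀ (by positivity) (by norm_num), one_mul]
      calc (2 : ℝ) ^ y * 8 = 2 ^ (y + 3) := by rw [pow_add]; norm_num
        _ ≤ _ := pow_le_pow_right₀ one_le_two hyZ
    refine hzero t k (by_contra fun hX0 => ?_)
    have hhouse : house (X t k : K) ^ (finrank ℚ K - 1) ≤
        (2 : ℝ) ^ (d * (U + 2 * n * h * L * ρ)) := by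
      have hone : (1 : ℝ) ≤ (2 : ℝ) ^ (U + 2 * n * h * L * ρ) := one_le_pow₀ one_le_two
      refine (pow_le_pow_left₀ (house_nonneg _) (house_le_of_forall (by positivity) fun τ => ?_)
        _).trans ((pow_le_pow_right₀ hone (show finrank ℚ K - 1 ≤ d by omega)).trans_eq
          (by rw [← pow_mul, mul_comm d]))
      simp only [X, map_sum]
      refine (norm_sum_le _ _).trans ((sum_le_card_nsmul _ _
        ((2 : ℝ) ^ (U + 2 * n * h * L * ρ) / (N : ℕ)) fun lam _ => ?_).trans_eq ?_)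
      · rw [hcast, le_div_iff₀ (Nat.cast_pos.2 (pow_pos (lam i₀).pos n)), mul_comm, pow_add,
          ← mul_assoc]
        exact mul_le_mul (by exact_mod_cast hterm t ht0 lam)
          ((norm_weight_le hAh hDh _ lam τ).trans
            (pow_le_pow_right₀ one_le_two (Nat.mul_le_mul_left _ hk.le)))
          (norm_nonneg _) (by positivity)
      · rw [card_univ, hcardL, nsmul_eq_mul, mul_div_cancel₀ _ ?_]
        exact Nat.cast_ne_zero.2 (pow_pos (pow_pos hP1 _) n).ne'
    have hDk : ‖(D : ℂ) ^ (n * (L * k))‖ ≤ (2 : ℝ) ^ (n * h * L * ρ) := by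
      rw [norm_pow, Complex.norm_natCast]
      refine (pow_le_pow_left₀ (Nat.cast_nonneg _)
        (show (D : ℝ) ≤ (2 : ℝ) ^ h by exact_mod_cast hDh) _).trans ?_
      rw [← pow_mul]
      refine pow_le_pow_right₀ one_le_two ?_
      calc h * (n * (L * k)) ≤ h * (n * (L * ρ)) := by gcongr
        _ = _ := by ring
    have hone := GelfondSchneider.one_le_norm_mul_house_pow hX0 ψ
    refine absurd hone (not_le.2 ?_)
    rw [hclear, norm_mul]
    refine lt_of_le_of_lt (mul_le_mul (mul_le_mul hDk hval (norm_nonneg _) (by positivity)) hhouse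
      (pow_nonneg (house_nonneg _) _) (mul_nonneg (by positivity) ((norm_nonneg _).trans hval))) ?_
    rw [mul_right_comm, ← pow_add, ← hE]
    have hgain := step_gain_alg hn hd1 hPm hP hPh j
    simp only [← hU, ← hTdef, ← hSdef, ← hLdef] at hgain
    change U + 4 * n * h * L * (16 * ρ) + n * h * L * ρ + d * (U + 2 * n * h * L * ρ) + 4 ≤
      2 * (S j * T') at hgain
    have hEle : E ≤ n * h * L * σ + d * (U + 2 * n * h * L * σ) := by rw [hE]; gcongr
    set w := σ + (4 + σ) * T 0 + (5 + (2 + 6 * n ^ 2) * P) * ((σ + 1) * T 0)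
    have a1 : (2 : ℝ) ^ E * (ε * W * 2) ≤ 1 / 8 := by
      refine le_trans ?_ (hq (y := E + (n * h * T 0 + V + w + 1)) (Z := Y) (by omega))
      have hWR : (W : ℝ) ≤ (2 : ℝ) ^ w := by exact_mod_cast hW
      calc (2 : ℝ) ^ E * (ε * W * 2) ≤ (2 : ℝ) ^ E * (ε * 2 ^ w * 2) := by gcongr
        _ = _ := by rw [hε, hδ]; simp only [pow_add]; ring
    have a2 : (2 : ℝ) ^ E * δ ≤ 1 / 8 := by
      refine le_trans (le_of_eq ?_) (hq (y := E + V) (Z := Y) (by omega))
      rw [hδ, pow_add]; ring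
    have a3 : (2 : ℝ) ^ E * ((2 : ℝ) ^ (U + 4 * n * h * L * (16 * ρ)) / 4 ^ (S j * T')) ≤
        1 / 8 := by
      refine le_trans (le_of_eq ?_) (hq (y := E + (U + 4 * n * h * L * (16 * ρ)))
        (Z := 2 * (S j * T')) (by omega))
      rw [pow_add 2 E, pow_mul (2 : ℝ) 2]
      norm_num
      ring
    rw [mul_add, mul_add]
    linarith
  have hall : ∀ j, j ≤ J → Vanish j := by
    intro j
    induction j with
    | zero => exact fun _ => hstart
    | succ j ih => exact fun hj => hstep j hj (ih (Nat.le_of_succ_le hj))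
  -- the classes
  refine hp0 (funext fun lam₀ => Classes.eq_zero_of_classes hbi (T := T J) ?_ hΛ0 ?_ ?_ lam₀)
  · have hP3 : n < P ^ 3 := by
      have h1 : 1 * n ^ 2 * 1 * 1 ≤ P := le_trans (Nat.mul_le_mul (Nat.mul_le_mul
        (Nat.mul_le_mul_right _ (by norm_num)) Nat.one_le_two_pow) hd1) hP
      have h2 : 2 ≤ P := le_trans (le_trans (show 2 ≤ 2 ^ 17 by norm_num)
        (Nat.le_mul_of_pos_right _ (Nat.mul_pos (Nat.mul_pos hn hh) hd1)))
        (by simpa only [mul_assoc] using hPh)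
      nlinarith [Nat.mul_le_mul h2 h2, Nat.le_self_pow two_ne_zero n]
    calc n * L < P ^ 3 * L := Nat.mul_lt_mul_of_pos_right hP3 (pow_pos hP1 _)
      _ = P ^ (6 * n) := by rw [mul_comm, hLdef, degree_mul_pow hn]
      _ ≤ T J := Nat.le_mul_of_pos_left _ (Nat.two_pow_pos _)
  · have h1 : (n ^ 2 * L ^ 2) ^ n ≤ 2 ^ (2 * n ^ 2 + 12 * n ^ 2 * P) := by
      rw [mul_pow, ← pow_mul, ← pow_mul, pow_add]
      refine Nat.mul_le_mul ((Nat.pow_le_pow_left Nat.lt_two_pow_self.le _).trans_eq (by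
        rw [← pow_mul]; ring_nf)) ?_
      rw [mul_comm 2 n, pow_mul, show 12 * n ^ 2 * P = 6 * n ^ 2 * P * 2 by ring, pow_mul 2]
      exact Nat.pow_le_pow_left hN2 2
    have h2 : U ≤ d * (U + 2 * n * h * L * σ) :=
      le_trans (Nat.le_add_right _ _) (Nat.le_mul_of_pos_left _ hd1)
    have h3 : 12 * n ^ 2 * P + 2 ≤ U := by rw [hU, termLogAlg]; omega
    have h4 : n ^ 2 ≤ n ^ 2 * P := Nat.le_mul_of_pos_right _ hP1
    calc (((n ^ 2 * L ^ 2) ^ n : ℕ) : ℝ) * ‖Λ‖
        ≤ (2 : ℝ) ^ (2 * n ^ 2 + 12 * n ^ 2 * P) * (1 / 2 ^ Y) :=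
          mul_le_mul (by exact_mod_cast h1) hΛY (norm_nonneg _) (by positivity)
      _ ≤ 1 / 2 := by
          rw [mul_one_div, div_le_div_iff₀ (by positivity) two_pos, one_mul, ← pow_succ]
          refine pow_le_pow_right₀ one_le_two ?_
          rw [mul_assoc 12] at h3 ⊢
          omega
  · intro t ht k hk
    have h1 := hall J le_rfl t ht k (hk.trans_le (range_last hP1))
    refine Eq.trans (sum_congr rfl fun lam _ => ?_) h1
    rw [← Complex.exp_nat_mul, mu]

/-- The same for multiplicatively independent numbers. -/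
theorem baker_algebraic_bound {d : ℕ} (hd : finrank ℚ K ≤ d) (ψ : K →+* ℂ) {n : ℕ}
    {α : Fin n → K} {D : ℕ} (hD0 : 0 < D) (hint : ∀ i, IsIntegral ℤ ((D : K) * α i)) {h m : ℕ}
    (hDh : D ≤ 2 ^ h) (hαh : ∀ i, house (α i) ≤ (2 : ℝ) ^ h) {l : Fin n → ℂ}
    (hexp : ∀ i, Complex.exp (l i) = ψ (α i)) (hl : ∀ i, ‖l i‖ ≤ h)
    (hind : Function.Injective fun u : Fin n → ℕ => ∏ i, α i ^ u i)
    {b : Fin n → ℤ} (hb0 : b ≠ 0) (hbm : ∀ i, (b i).natAbs ≤ 2 ^ m) :
    1 / (2 : ℝ) ^ (baseAlg n d h m ^ kappa n) ≤ ‖∑ i, (b i : ℂ) * l i‖ := by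
  refine baker_algebraic_general_bound hd ψ hD0 hint hDh hαh hexp hl hbm fun h0 => hb0 ?_
  set u := fun i => (b i).toNat
  set v := fun i => (-b i).toNat
  have huv : ∀ i, (b i : ℂ) = (u i : ℂ) - (v i : ℂ) := fun i => by
    exact_mod_cast (Int.toNat_sub_toNat_neg (b i)).symm
  have h1 : u = v := by
    refine hind (ψ.injective ?_)
    simp only [map_prod, map_pow, ← hexp, ← Complex.exp_nat_mul, ← Complex.exp_sum]
    congr 1
    rw [← sub_eq_zero, ← sum_sub_distrib]
    refine Eq.trans (sum_congr rfl fun i _ => ?_) h0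
    rw [huv i]
    ring
  funext i
  have h2 := congrFun h1 i
  simp only [u, v] at h2
  show b i = 0
  omega

end FA.BakerExplicit.Algebraic

end
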