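import Fermat.Agent.BakerExplicit.Main
import Fermat.Agent.TwoLogarithms.Applications
import Mathlib.Data.Nat.Factorization.Basic

/-!
# Gaps between numbers composed of given primes, effectively

The logarithms of different primes are independent over `ℚ`, so two different numbers composed of
given primes are at least `max / 2 ^ ((C log log max) ^ κ)` apart, and the solutions of
`x - y = c` are bounded explicitly.
-/

set_option autoImplicit false

noncomputable section

namespace FA.BakerExplicit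

open Finset

theorem primes_independent {n : ℕ} {p : Fin n → ℕ} (hp : ∀ i, (p i).Prime)
    (hinj : Function.Injective p) (c : Fin n → ℤ)
    (h : ∑ i, (c i : ℝ) * Real.log ((p i : ℝ) / ((1 : ℕ) : ℝ)) = 0) : c = 0 := by
  set u := fun i => (c i).toNat
  set v := fun i => (-c i).toNat
  have hpos : ∀ e : Fin n → ℕ, (0 : ℝ) < ((∏ i, p i ^ e i : ℕ) : ℝ) := fun e =>
    Nat.cast_pos.2 (prod_pos fun i _ => pow_pos (hp i).pos _)
  have hlog : ∀ e : Fin n → ℕ, Real.log ((∏ i, p i ^ e i : ℕ) : ℝ) =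
      ∑ i, (e i : ℝ) * Real.log (p i) := fun e => by
    rw [Nat.cast_prod, Real.log_prod fun i _ => by
      push_cast; exact pow_ne_zero _ (Nat.cast_ne_zero.2 (hp i).ne_zero)]
    exact sum_congr rfl fun i _ => by rw [Nat.cast_pow, Real.log_pow]
  have huv : ∏ i, p i ^ u i = ∏ i, p i ^ v i := by
    have h1 : Real.log ((∏ i, p i ^ u i : ℕ) : ℝ) = Real.log ((∏ i, p i ^ v i : ℕ) : ℝ) := by
      rw [hlog, hlog, ← sub_eq_zero, ← sum_sub_distrib]
      refine Eq.trans (sum_congr rfl fun i _ => ?_) h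
      rw [Nat.cast_one, div_one, ← sub_mul]
      congr 1
      exact_mod_cast Int.toNat_sub_toNat_neg (c i)
    exact_mod_cast Real.log_injOn_pos (hpos u) (hpos v) h1
  funext i
  have hfac : ∀ e : Fin n → ℕ, (∏ j, p j ^ e j).factorization (p i) = e i := fun e => by
    rw [Nat.factorization_prod fun j _ => pow_ne_zero _ (hp j).ne_zero, Finsupp.finsetSum_apply,
      sum_eq_single i]
    · simp [(hp i).factorization_pow]
    · intro j _ hji
      simp [(hp j).factorization_pow, hinj.ne hji]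
    · simp
  have h2 := congrArg (fun x : ℕ => x.factorization (p i)) huv
  simp only [hfac, u, v] at h2
  show c i = 0
  omega

/-- **The bound for the logarithms of different primes.** -/
theorem primes_bound {n : ℕ} {p : Fin n → ℕ} (hp : ∀ i, (p i).Prime) (hinj : Function.Injective p)
    {h m : ℕ} (hh : ∀ i, p i ≤ 2 ^ h) {b : Fin n → ℤ} (hb0 : b ≠ 0)
    (hbm : ∀ i, (b i).natAbs ≤ 2 ^ m) :
    1 / (2 : ℝ) ^ (base n h m ^ kappa n) ≤ |∑ i, (b i : ℝ) * Real.log (p i)| := by
  have h1 := baker_bound (num := p) (den := fun _ => 1) (fun i => (hp i).pos) (fun _ => one_pos)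
    hh (fun _ => Nat.one_le_two_pow) (primes_independent hp hinj) hb0 hbm
  simpa using h1

theorem log_eq_sum_factorization {s : Finset ℕ} {x : ℕ} (hxs : x.primeFactors ⊆ s) :
    Real.log x = ∑ q : s, (x.factorization q : ℝ) * Real.log (q : ℕ) := by
  rw [Real.log_nat_eq_sum_factorization, Finsupp.sum_of_support_subset _
    ((Nat.support_factorization x).le.trans hxs) _ (fun q _ => by simp), ← sum_coe_sort]

/-- **Numbers composed of given primes are far apart, effectively.** -/
theorem gap_bound {s : Finset ℕ} (hs : ∀ q ∈ s, q.Prime) {h : ℕ} (hh : ∀ q ∈ s, q ≤ 2 ^ h)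
    {x y : ℕ} (hx : x ≠ 0) (hy : y ≠ 0) (hxy : x ≠ y) (hxs : x.primeFactors ⊆ s)
    (hys : y.primeFactors ⊆ s) :
    (max x y : ℕ) / (2 : ℝ) ^
        (base s.card h (Nat.log 2 (Nat.log 2 (max x y)) + 1) ^ kappa s.card + 1) ≤
      |(x : ℝ) - y| := by
  set X := Nat.log 2 (max x y)
  set m := Nat.log 2 X + 1
  let e := s.equivFin.symm
  let b : Fin s.card → ℤ := fun i => (x.factorization (e i) : ℤ) - y.factorization (e i)
  have hexp : ∀ z : ℕ, z ≠ 0 → z ≤ max x y → ∀ q ∈ s, z.factorization q ≤ 2 ^ m := by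
    intro z hz hzle q hq
    refine le_trans ?_ (Nat.lt_pow_succ_log_self one_lt_two X).le
    refine Nat.le_log_of_pow_le one_lt_two (le_trans ?_ hzle)
    exact (Nat.pow_le_pow_left (hs q hq).two_le _).trans
      (Nat.le_of_dvd (Nat.pos_of_ne_zero hz) (Nat.ordProj_dvd z q))
  have hb0 : b ≠ 0 := fun h0 => hxy (Nat.eq_of_factorization_eq hx hy fun q => by
    by_cases hq : q ∈ s
    · have h1 := congrFun h0 (e.symm ⟨q, hq⟩)
      simp only [b, Pi.zero_apply, Equiv.apply_symm_apply] at h1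
      omega
    · rw [Finsupp.notMem_support_iff.1 (fun hc => hq (hxs (Nat.support_factorization x ▸ hc))),
        Finsupp.notMem_support_iff.1 (fun hc => hq (hys (Nat.support_factorization y ▸ hc)))])
  have hbm : ∀ i, (b i).natAbs ≤ 2 ^ m := fun i => by
    have h1 := hexp x hx (le_max_left _ _) _ (e i).2
    have h2 := hexp y hy (le_max_right _ _) _ (e i).2
    simp only [b]
    omega
  have hsum : ∑ i, (b i : ℝ) * Real.log ((e i : ℕ)) = Real.log x - Real.log y := by
    rw [log_eq_sum_factorization hxs, log_eq_sum_factorization hys, ← sum_sub_distrib,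
      ← e.sum_comp]
    refine sum_congr rfl fun i _ => ?_
    simp only [b]
    push_cast
    ring
  have h3 := primes_bound (p := fun i => (e i : ℕ)) (fun i => hs _ (e i).2)
    (Subtype.val_injective.comp e.injective) (fun i => hh _ (e i).2) hb0 hbm
  rw [hsum] at h3
  have h4 := TwoLogarithms.max_mul_le_abs_sub (Nat.cast_pos.2 (Nat.pos_of_ne_zero hx))
    (Nat.cast_pos.2 (Nat.pos_of_ne_zero hy)) (by positivity)
    ((div_le_one (by positivity)).2 (one_le_pow₀ one_le_two)) h3
  rw [div_div, mul_one_div, ← pow_succ, ← Nat.cast_max] at h4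
  exact h4

/-- A number below a power of its logarithm is bounded. -/
theorem le_of_le_add_mul_log_pow {X u D κ : ℕ} (hκ : 1 ≤ κ)
    (h : X ≤ u + D * (Nat.log 2 X + 1) ^ κ) : X ≤ 2 * u + 2 * (2 * κ) ^ (2 * κ) * D ^ 2 := by
  rcases Nat.eq_zero_or_pos X with hX | hX
  · omega
  set k := Nat.log 2 X + 1 with hk
  set E := 2 * (2 * κ) ^ (2 * κ) with hE
  have hk2 : (k ^ κ) ^ 2 ≤ E * X := by
    set q := k / (2 * κ)
    have hkq : k ≤ 2 * κ * (q + 1) := (Nat.lt_mul_div_succ k (by omega)).le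
    calc (k ^ κ) ^ 2 = k ^ (2 * κ) := by ring
      _ ≤ (2 * κ) ^ (2 * κ) * (q + 1) ^ (2 * κ) := by
          rw [← mul_pow]; exact Nat.pow_le_pow_left hkq _
      _ ≤ (2 * κ) ^ (2 * κ) * 2 ^ k := by
          refine Nat.mul_le_mul_left _ ((Nat.pow_le_pow_left Nat.lt_two_pow_self _).trans ?_)
          rw [← pow_mul]
          exact Nat.pow_le_pow_right two_pos (Nat.div_mul_le_self _ _)
      _ ≤ (2 * κ) ^ (2 * κ) * (2 * X) := by
          refine Nat.mul_le_mul_left _ ?_
          rw [hk, pow_succ, mul_comm]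
          exact Nat.mul_le_mul_left _ (Nat.pow_log_le_self 2 hX.ne')
      _ = E * X := by rw [hE]; ring
  rcases le_or_gt X u with hXu | hXu
  · omega
  by_contra hgt
  push Not at hgt
  obtain ⟨w, rfl⟩ : ∃ w, X = u + w := ⟨X - u, by omega⟩
  have h1 : w ^ 2 ≤ E * D ^ 2 * (u + w) := by
    calc w ^ 2 ≤ (D * k ^ κ) ^ 2 := Nat.pow_le_pow_left (by omega) 2
      _ = D ^ 2 * (k ^ κ) ^ 2 := by ring
      _ ≤ D ^ 2 * (E * (u + w)) := Nat.mul_le_mul_left _ hk2
      _ = E * D ^ 2 * (u + w) := by ring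
  nlinarith [Nat.mul_le_mul_right w (show u + E * D ^ 2 + 1 ≤ w by omega),
    Nat.mul_le_mul_left (E * D ^ 2) (show u ≤ w by omega)]

/-- The bound for the logarithm, to base `2`, of a solution of `x - y = c`. -/
def differenceBound (k h c : ℕ) : ℕ :=
  2 * (Nat.log 2 c + 2) +
    2 * (2 * kappa k) ^ (2 * kappa k) * (((2 ^ (4 * k ^ 2 + 12) * (h + 1)) ^ kappa k) ^ 2)

/-- **Solutions of `x - y = c` in numbers composed of given primes.** -/
theorem difference_bound {s : Finset ℕ} (hs : ∀ q ∈ s, q.Prime) {h : ℕ}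
    (hh : ∀ q ∈ s, q ≤ 2 ^ h) {x y : ℕ} (hx : x ≠ 0) (hy : y ≠ 0) (hxs : x.primeFactors ⊆ s)
    (hys : y.primeFactors ⊆ s) {c : ℕ} (hc : c ≠ 0) (hxy : y + c = x) :
    x < 2 ^ (differenceBound s.card h c + 1) := by
  set X := Nat.log 2 x
  set m := Nat.log 2 X + 1
  set k := s.card
  refine lt_of_lt_of_le (Nat.lt_pow_succ_log_self one_lt_two x)
    (Nat.pow_le_pow_right two_pos (Nat.succ_le_succ ?_))
  have hgap := gap_bound hs hh hx hy (by omega) hxs hys
  rw [max_eq_left (show y ≤ x by omega), show |(x : ℝ) - y| = (c : ℕ) by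
    rw [← hxy, Nat.cast_add, add_sub_cancel_left, Nat.abs_cast],
    div_le_iff₀ (by positivity)] at hgap
  have hnat : x ≤ c * 2 ^ (base k h m ^ kappa k + 1) := by exact_mod_cast hgap
  have hlin : X ≤ (Nat.log 2 c + 2) + (2 ^ (4 * k ^ 2 + 12) * (h + 1)) ^ kappa k * m ^ kappa k := by
    refine le_trans ((Nat.pow_le_pow_iff_right one_lt_two).1 (?_ : 2 ^ X ≤
      2 ^ (Nat.log 2 c + 1 + (base k h m ^ kappa k + 1)))) ?_
    · rw [pow_add]
      exact (Nat.pow_log_le_self 2 hx).trans (hnat.trans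
        (Nat.mul_le_mul_right _ (Nat.lt_pow_succ_log_self one_lt_two c).le))
    · have hb : base k h m ≤ 2 ^ (4 * k ^ 2 + 12) * (h + 1) * m := by
        rw [base, mul_assoc]
        refine Nat.mul_le_mul_left _ ?_
        rw [add_mul, one_mul]
        exact Nat.add_le_add_right (Nat.le_mul_of_pos_right _ (Nat.succ_pos _)) _
      have h1 := Nat.pow_le_pow_left hb (kappa k)
      rw [mul_pow] at h1
      omega
  exact le_of_le_add_mul_log_pow (by simp only [kappa]; omega) hlin

/-- **Finiteness with a computable box.** -/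
theorem difference_finite {s : Finset ℕ} (hs : ∀ q ∈ s, q.Prime) {c : ℕ} (hc : c ≠ 0) :
    {t : ℕ × ℕ | t.1 ≠ 0 ∧ t.2 ≠ 0 ∧ t.1.primeFactors ⊆ s ∧ t.2.primeFactors ⊆ s ∧
      t.2 + c = t.1}.Finite := by
  set h := s.sup id
  set B := 2 ^ (differenceBound s.card h c + 1)
  refine ((Set.finite_Iic B).prod (Set.finite_Iic B)).subset fun t ht => ?_
  obtain ⟨h1, h2, h3, h4, h5⟩ := ht
  have := difference_bound hs (h := h)
    (fun q hq => (le_sup (f := id) hq).trans Nat.lt_two_pow_self.le) h1 h2 h3 h4 hc h5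
  exact ⟨Set.mem_Iic.2 this.le, Set.mem_Iic.2 (by omega)⟩

end FA.BakerExplicit

end
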