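import Fermat.Agent.BakerExplicit.CoefficientBounds
import Mathlib.FieldTheory.IntermediateField.Adjoin.Basic
import Mathlib.Algebra.Polynomial.Expand

/-!
# The field generated by bounded algebraic integers

`q` algebraic integers of degree at most `d` with conjugates at most `2 ^ s` generate a field of
degree at most `d ^ q`; some combination `∑ t ^ i g i`, `t ≤ d ^ (2 q) q`, separates its embeddings,
so the discriminant is bounded.
-/

set_option autoImplicit false

noncomputable section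

namespace FA.BakerExplicit.GeneratedField

open Finset Polynomial NumberField Module

/-- An algebraic integer of degree at most `d` with all conjugates at most `2 ^ s`. -/
def BoundedRoot (d s : ℕ) (z : ℂ) : Prop :=
  ∃ P : ℤ[X], P.Monic ∧ P.natDegree ≤ d ∧ aeval z P = 0 ∧
    ∀ w : ℂ, aeval w P = 0 → ‖w‖ ≤ (2 : ℝ) ^ s

theorem BoundedRoot.mono {d d' s s' : ℕ} {z : ℂ} (h : BoundedRoot d s z) (hd : d ≤ d')
    (hs : s ≤ s') : BoundedRoot d' s' z := by
  obtain ⟨P, hP, hdeg, hz, hw⟩ := h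
  exact ⟨P, hP, hdeg.trans hd, hz, fun w h =>
    (hw w h).trans (pow_le_pow_right₀ one_le_two hs)⟩

theorem BoundedRoot.isIntegral {d s : ℕ} {z : ℂ} (h : BoundedRoot d s z) : IsIntegral ℤ z := by
  obtain ⟨P, hP, -, hz, -⟩ := h
  exact ⟨P, hP, by rw [← aeval_def]; exact hz⟩

theorem BoundedRoot.of_polynomial {f : ℤ[X]} (hf : f.Monic) {d k : ℕ} (hd : f.natDegree ≤ d)
    (hk : ∀ i, (f.coeff i).natAbs ≤ 2 ^ k) {z : ℂ} (hz : aeval z f = 0) :
    BoundedRoot d (k + d) z := by
  refine ⟨f, hf, hd, hz, fun w hw => (CoefficientBounds.root_norm_le hf hk hw).trans ?_⟩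
  have h1 : f.natDegree * 2 ^ k + 1 ≤ 2 ^ (k + d) := by
    calc f.natDegree * 2 ^ k + 1 ≤ d * 2 ^ k + 2 ^ k :=
          Nat.add_le_add (Nat.mul_le_mul_right _ hd) Nat.one_le_two_pow
      _ = (d + 1) * 2 ^ k := by ring
      _ ≤ 2 ^ d * 2 ^ k := Nat.mul_le_mul_right _ Nat.lt_two_pow_self
      _ = _ := by rw [← pow_add, add_comm]
  exact_mod_cast h1

theorem BoundedRoot.of_conjugates {K : Type*} [Field K] [NumberField K] {d s : ℕ}
    (hd : finrank ℚ K ≤ d) {δ : K} (hδ : IsIntegral ℤ δ)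
    (h : ∀ σ : K →+* ℂ, ‖σ δ‖ ≤ (2 : ℝ) ^ s) (σ : K →+* ℂ) : BoundedRoot d s (σ δ) := by
  have hQ : minpoly ℚ δ = (minpoly ℤ δ).map (algebraMap ℤ ℚ) :=
    minpoly.isIntegrallyClosed_eq_field_fractions' ℚ hδ
  refine ⟨minpoly ℤ δ, minpoly.monic hδ, ?_, ?_, fun w hw => ?_⟩
  · rw [← (minpoly.monic hδ).natDegree_map (algebraMap ℤ ℚ), ← hQ]
    exact (minpoly.natDegree_le δ).trans hd
  · rw [show σ δ = σ.toIntAlgHom δ from rfl, aeval_algHom_apply, minpoly.aeval, map_zero]
  · have hmem : w ∈ (minpoly ℚ δ).rootSet ℂ := by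
      rw [mem_rootSet, hQ, aeval_map_algebraMap]
      exact ⟨((minpoly.monic hδ).map _).ne_zero, hw⟩
    rw [← Embeddings.range_eval_eq_rootSet_minpoly K ℂ δ] at hmem
    obtain ⟨τ, rfl⟩ := hmem
    exact h τ

theorem BoundedRoot.radical {d s m : ℕ} (hm : 1 ≤ m) {δ η : ℂ} (h : BoundedRoot d s δ)
    (hη : η ^ m = δ) : BoundedRoot (d * m) s η := by
  obtain ⟨P, hP, hdeg, hz, hw⟩ := h
  refine ⟨expand ℤ m P, (monic_expand_iff hm).2 hP, ?_, ?_, fun w hw0 => ?_⟩
  · rw [natDegree_expand]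
    exact Nat.mul_le_mul_right _ hdeg
  · rw [expand_aeval, hη, hz]
  · rw [expand_aeval] at hw0
    have h1 := hw _ hw0
    rcases le_or_gt ‖w‖ 1 with h2 | h2
    · exact h2.trans (one_le_pow₀ one_le_two)
    · rw [norm_pow] at h1
      exact (le_self_pow₀ h2.le (by omega)).trans h1

theorem BoundedRoot.root_of_unity {m : ℕ} (hm : 1 ≤ m) {ζ : ℂ} (hζ : ζ ^ m = 1) :
    BoundedRoot m 0 ζ := by
  refine ⟨X ^ m - 1, monic_X_pow_sub_C (1 : ℤ) (by omega), ?_, by simp [hζ], fun w hw => ?_⟩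
  · exact (natDegree_X_pow_sub_C (R := ℤ) (r := 1)).le
  · rw [map_sub, map_pow, aeval_X, map_one, sub_eq_zero] at hw
    rw [pow_zero, Complex.norm_eq_one_of_pow_eq_one hw (by omega)]

theorem finrank_adjoin_le {d : ℕ} (s : Finset ℂ)
    (h : ∀ z ∈ s, ∃ P : ℤ[X], P.Monic ∧ P.natDegree ≤ d ∧ aeval z P = 0) :
    FiniteDimensional ℚ (IntermediateField.adjoin ℚ (s : Set ℂ)) ∧
      finrank ℚ (IntermediateField.adjoin ℚ (s : Set ℂ)) ≤ d ^ s.card := by
  classical
  induction s using Finset.induction_on with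
  | empty =>
    rw [coe_empty, IntermediateField.adjoin_empty, card_empty, pow_zero]
    exact ⟨inferInstance, IntermediateField.finrank_bot.le⟩
  | insert a s ha ih =>
    obtain ⟨hfin, hle⟩ := ih fun z hz => h z (mem_insert_of_mem hz)
    obtain ⟨P, hP, hdeg, hz⟩ := h a (mem_insert_self a s)
    have hint : IsIntegral ℚ a :=
      (show IsIntegral ℤ a from ⟨P, hP, by rw [← aeval_def]; exact hz⟩).tower_top
    have := IntermediateField.adjoin.finiteDimensional hint
    have hone : finrank ℚ (IntermediateField.adjoin ℚ ({a} : Set ℂ)) ≤ d := by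
      rw [IntermediateField.adjoin.finrank hint]
      refine le_trans (natDegree_le_of_dvd (minpoly.dvd ℚ a (p := P.map (algebraMap ℤ ℚ))
        (by rw [aeval_map_algebraMap]; exact hz)) (hP.map _).ne_zero) ?_
      rwa [hP.natDegree_map]
    rw [coe_insert, Set.insert_eq, IntermediateField.adjoin_union, card_insert_of_notMem ha]
    refine ⟨IntermediateField.finiteDimensional_sup _ _,
      (IntermediateField.finrank_sup_le _ _).trans ?_⟩
    rw [pow_succ']
    exact Nat.mul_le_mul hone hle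

/-- The bound for the discriminant. -/
def discExp (d q s : ℕ) : ℕ :=
  2 * (d ^ q * d ^ q + (q + d ^ q * d ^ q * q * q + s) * (d ^ q * d ^ q))

/-- **The field generated by bounded algebraic integers.** -/
theorem exists_field {d q s : ℕ} (hd : 1 ≤ d) (g : Fin q → ℂ) (hg : ∀ i, BoundedRoot d s (g i)) :
    ∃ (L : IntermediateField ℚ ℂ) (_ : NumberField L) (z : Fin q → 𝓞 L),
      (∀ i, ((z i : L) : ℂ) = g i) ∧ (∀ T : IntermediateField ℚ ℂ, (∀ i, g i ∈ T) → L ≤ T) ∧
        finrank ℚ L ≤ d ^ q ∧ (discr L).natAbs ≤ 2 ^ discExp d q s := by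
  classical
  set S : Finset ℂ := univ.image g
  obtain ⟨hfin, hle⟩ := finrank_adjoin_le (d := d) S fun z hz => by
    obtain ⟨i, -, rfl⟩ := mem_image.1 hz
    obtain ⟨P, h1, h2, h3, -⟩ := hg i
    exact ⟨P, h1, h2, h3⟩
  set L := IntermediateField.adjoin ℚ (S : Set ℂ) with hL
  have hNF : NumberField L := @NumberField.mk _ _ inferInstance hfin
  have hmem : ∀ i, g i ∈ L := fun i => IntermediateField.subset_adjoin _ _
    (Finset.mem_coe.2 (mem_image_of_mem g (mem_univ i)))
  set z : Fin q → 𝓞 L := fun i => ⟨⟨g i, hmem i⟩,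
    (isIntegral_algebraMap_iff (R := ℤ) (x := (⟨g i, hmem i⟩ : L)) (algebraMap L ℂ).injective).1
      (hg i).isIntegral⟩ with hz
  set N := d ^ q with hN
  have hfinN : finrank ℚ L ≤ N := hle.trans (Nat.pow_le_pow_right hd
    (card_image_le.trans (by simp)))
  refine ⟨L, hNF, z, fun i => rfl, fun T hT => IntermediateField.adjoin_le_iff.2 fun w hw => ?_,
    hfinN, ?_⟩
  · obtain ⟨i, -, rfl⟩ := mem_image.1 (Finset.mem_coe.1 hw)
    exact hT i
  have hsep : ∀ σ τ : L →+* ℂ, σ ≠ τ → ∃ i, σ (z i : L) ≠ τ (z i : L) := fun σ τ hne => by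
    by_contra hno
    push Not at hno
    refine hne (RingHom.ext fun x => DFunLike.congr_fun
      (IntermediateField.adjoin_algHom_ext ℚ (φ₁ := σ.toRatAlgHom) (φ₂ := τ.toRatAlgHom)
        fun w hw => ?_) x)
    obtain ⟨i, -, rfl⟩ := mem_image.1 (Finset.mem_coe.1 hw)
    exact hno i
  have hbd : ∀ (σ : L →+* ℂ) i, ‖σ (z i : L)‖ ≤ (2 : ℝ) ^ s := fun σ i => by
    obtain ⟨P, -, -, h3, h4⟩ := hg i
    refine h4 _ ?_
    have h5 : aeval (z i : L) P = 0 := by
      refine (algebraMap L ℂ).injective ?_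
      rw [map_zero, ← aeval_algebraMap_apply]
      exact h3
    rw [show σ (z i : L) = σ.toIntAlgHom (z i : L) from rfl, aeval_algHom_apply, h5, map_zero]
  -- a number `t` separating the embeddings
  let P : (L →+* ℂ) × (L →+* ℂ) → ℂ[X] := fun p =>
    ∑ i : Fin q, C (p.1 (z i : L) - p.2 (z i : L)) * X ^ (i : ℕ)
  set pairs := (univ : Finset ((L →+* ℂ) × (L →+* ℂ))).filter fun p => p.1 ≠ p.2
  set bad := pairs.biUnion fun p => (P p).roots.toFinset
  have hPne : ∀ p ∈ pairs, P p ≠ 0 := fun p hp h0 => by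
    obtain ⟨i, hi⟩ := hsep p.1 p.2 (mem_filter.1 hp).2
    refine hi (sub_eq_zero.1 ?_)
    have h1 := congrArg (fun Q => coeff Q (i : ℕ)) h0
    simp only [P, finsetSum_coeff, coeff_C_mul, coeff_X_pow, coeff_zero] at h1
    simpa [Fin.val_inj] using h1
  have hbad : bad.card ≤ N * N * q := by
    refine (card_biUnion_le).trans ((Finset.sum_le_card_nsmul _ _ q fun p hp => ?_).trans ?_)
    · refine (Multiset.toFinset_card_le _).trans ((card_roots' _).trans ?_)
      refine natDegree_sum_le_of_forall_le _ _ fun i _ => (natDegree_C_mul_X_pow_le _ _).trans ?_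
      exact i.isLt.le
    · rw [smul_eq_mul]
      refine Nat.mul_le_mul_right q ((card_le_univ _).trans ?_)
      rw [Fintype.card_prod, Embeddings.card]
      exact Nat.mul_le_mul hfinN hfinN
  obtain ⟨t, ht, htb⟩ : ∃ t ∈ range (N * N * q + 1), (t : ℂ) ∉ bad := by
    by_contra hno
    push Not at hno
    have := Finset.card_le_card_of_injOn (s := range (N * N * q + 1)) (t := bad)
      (fun t : ℕ => (t : ℂ)) (fun t ht => hno t ht) (fun a _ b _ h => Nat.cast_injective h)
    rw [card_range] at this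
    omega
  set θ : 𝓞 L := ∑ i, z i * (t : 𝓞 L) ^ (i : ℕ) with hθ
  have hθσ : ∀ σ : L →+* ℂ, σ (θ : L) = ∑ i, σ (z i : L) * (t : ℂ) ^ (i : ℕ) := fun σ => by
    simp [hθ, map_sum]
  have hinj : Function.Injective fun σ : L →+* ℂ => σ (θ : L) := fun σ τ he => by
    by_contra hne
    refine htb (mem_biUnion.2 ⟨(σ, τ), mem_filter.2 ⟨mem_univ _, hne⟩, ?_⟩)
    rw [Multiset.mem_toFinset, mem_roots (hPne _ (mem_filter.2 ⟨mem_univ _, hne⟩))]
    simp only [hθσ] at he
    simp [P, eval_finsetSum, sub_mul, sum_sub_distrib, he]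
  have hli : LinearIndependent ℚ fun i : Fin (finrank ℚ L) => (θ : L) ^ (i : ℕ) := by
    rw [Fintype.linearIndependent_iff]
    intro c hc i
    by_contra hi
    set Q : ℂ[X] := ∑ j : Fin (finrank ℚ L), C ((c j : ℚ) : ℂ) * X ^ (j : ℕ) with hQ
    have hQ0 : Q ≠ 0 := fun h0 => hi (by
      have h1 := congrArg (fun R => coeff R (i : ℕ)) h0
      simpa [hQ, finsetSum_coeff, coeff_C_mul, coeff_X_pow, Fin.val_inj] using h1)
    have hdegQ : Q.natDegree < finrank ℚ L := by
      refine lt_of_le_of_lt (natDegree_sum_le_of_forall_le _ _ (n := finrank ℚ L - 1)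
        fun j _ => (natDegree_C_mul_X_pow_le _ _).trans ?_) ?_
      · have := j.isLt; omega
      · have := i.isLt; omega
    have hsub : univ.image (fun σ : L →+* ℂ => σ (θ : L)) ⊆ Q.roots.toFinset := by
      intro w hw
      obtain ⟨σ, -, rfl⟩ := mem_image.1 hw
      rw [Multiset.mem_toFinset, mem_roots hQ0]
      have h1 := congrArg σ hc
      simp only [map_sum, Algebra.smul_def, map_mul, map_pow, map_zero] at h1
      simpa [hQ, eval_finsetSum] using h1
    have h2 := (card_le_card hsub).trans ((Multiset.toFinset_card_le _).trans (card_roots' _))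
    rw [card_image_of_injective _ hinj, card_univ, Embeddings.card] at h2
    omega
  set E := q + N * N * q * q + s with hE
  have hR : ∀ σ : L →+* ℂ, ‖σ (θ : L)‖ ≤ ((2 ^ E : ℕ) : ℝ) := fun σ => by
    rw [hθσ]
    refine (norm_sum_le _ _).trans ((sum_le_card_nsmul _ _ ((2 : ℝ) ^ s * (2 : ℝ) ^ (N * N * q * q))
      fun i _ => ?_).trans ?_)
    · rw [norm_mul, norm_pow, Complex.norm_natCast]
      refine mul_le_mul (hbd σ i) ?_ (by positivity) (by positivity)
      have h1 : t ^ (i : ℕ) ≤ 2 ^ (N * N * q * q) := by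
        rw [pow_mul]
        exact (Nat.pow_le_pow_left (Nat.le_succ t) _).trans
          ((Nat.pow_le_pow_right (Nat.succ_pos t) i.isLt.le).trans
            (Nat.pow_le_pow_left ((mem_range.1 ht).trans_le
              (Nat.succ_le_of_lt Nat.lt_two_pow_self)) q))
      exact_mod_cast h1
    · rw [card_univ, Fintype.card_fin, nsmul_eq_mul, Nat.cast_pow, Nat.cast_ofNat, hE,
        pow_add, pow_add, mul_comm ((2 : ℝ) ^ s), mul_assoc ((2 : ℝ) ^ q)]
      refine mul_le_mul_of_nonneg_right ?_ (by positivity)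
      exact_mod_cast Nat.lt_two_pow_self.le
  refine (CoefficientBounds.natAbs_discr_le rfl hli Nat.one_le_two_pow hR).trans ?_
  rw [← pow_mul, ← pow_mul, discExp, ← hN, ← hE, mul_comm 2, pow_mul 2 _ 2]
  refine Nat.pow_le_pow_left ?_ 2
  rw [pow_add]
  refine Nat.mul_le_mul ((Nat.pow_le_pow_left Nat.lt_two_pow_self.le _).trans ?_) ?_
  · rw [← pow_mul]
    exact Nat.pow_le_pow_right two_pos (Nat.mul_le_mul hfinN hfinN)
  · refine Nat.pow_le_pow_right two_pos ?_
    exact Nat.mul_le_mul_left _ (Nat.mul_le_mul hfinN hfinN)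

end FA.BakerExplicit.GeneratedField

end
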