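import Fermat.Agent.BakerExplicit.PowerRatio
import Fermat.Agent.BakerExplicit.GeneratedDiscriminant

/-!
# Binary recurrences, effectively

When `a α ^ n + b β ^ n` is zero or has a smooth norm, the `S`-unit equation bounds the ratio of
the two terms, so `(α / β) ^ n` has bounded numerator and denominator, so `n` is bounded.
-/

set_option autoImplicit false

noncomputable section

namespace FA.BakerExplicit.BinaryRecurrence

open Finset Polynomial NumberField Module EffectiveSUnits GeneratedField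

/-- **The bound for the index** with smooth value. -/
def binaryIndexBound (d e h g : ℕ) : ℕ :=
  2 ^ ((sUnitBound d e (g + h * d) + h + 2) * d)

/-- **The bound for an integer recurrence.** -/
def recurrenceIndexBound (k g : ℕ) : ℕ :=
  binaryIndexBound 4 (discExp 2 2 (k + 2)) (2 * k + 3) (g + (k + 3) * 4)

/-- **The bound for the equation `a + b = c` in smooth integers.** -/
def smoothSumBound (g : ℕ) : ℕ := sUnitBound 1 0 g

section Field

variable {K : Type*} [Field K] [NumberField K]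

theorem smooth_norm_of_house {d h : ℕ} (hd : finrank ℚ K ≤ d) {z : 𝓞 K} (hz : z ≠ 0)
    (hh : ∀ σ : K →+* ℂ, ‖σ (z : K)‖ ≤ (2 : ℝ) ^ h) :
    Smooth (h * d) (Algebra.norm ℤ z).natAbs := by
  refine Smooth.of_le (Int.natAbs_ne_zero.2 (Algebra.norm_ne_zero_iff.2 hz)) ?_
  rw [pow_mul]
  exact EffectiveThue.norm_le_of_bounded hd Nat.one_le_two_pow fun σ => by
    rw [Nat.cast_pow, Nat.cast_ofNat]; exact hh σ

theorem binary_index_bound {d e h g n : ℕ} (hd : finrank ℚ K ≤ d)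
    (he : (discr K).natAbs ≤ 2 ^ e) {a b α β : 𝓞 K} (ha : a ≠ 0) (hb : b ≠ 0) (hα : α ≠ 0)
    (hβ : β ≠ 0) (hah : ∀ σ : K →+* ℂ, ‖σ (a : K)‖ ≤ (2 : ℝ) ^ h)
    (hbh : ∀ σ : K →+* ℂ, ‖σ (b : K)‖ ≤ (2 : ℝ) ^ h)
    (hαh : ∀ σ : K →+* ℂ, ‖σ (α : K)‖ ≤ (2 : ℝ) ^ h)
    (hβh : ∀ σ : K →+* ℂ, ‖σ (β : K)‖ ≤ (2 : ℝ) ^ h)
    (hnd : ∀ i : ℕ, 0 < i → α ^ i ≠ β ^ i) (hn : binaryIndexBound d e h g ≤ n) :
    a * α ^ n + b * β ^ n ≠ 0 ∧
      ¬ Smooth g (Algebra.norm ℤ (a * α ^ n + b * β ^ n)).natAbs := by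
  have hαK : (α : K) ≠ 0 := RingOfIntegers.coe_ne_zero_iff.2 hα
  have hβK : (β : K) ≠ 0 := RingOfIntegers.coe_ne_zero_iff.2 hβ
  set γ : K := (α : K) / (β : K) with hγ
  have hγ1 : ∀ i : ℕ, 0 < i → γ ^ i ≠ 1 := fun i hi h1 => by
    rw [hγ, div_pow, div_eq_one_iff_eq (pow_ne_zero i hβK)] at h1
    exact hnd i hi (RingOfIntegers.coe_injective (by rw [map_pow, map_pow]; exact h1))
  have hlast : ∀ {T : ℕ}, T ≤ sUnitBound d e (g + h * d) + h → ∀ A B : 𝓞 K, B ≠ 0 →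
      (∀ σ : K →+* ℂ, ‖σ (A : K)‖ ≤ (2 : ℝ) ^ T) →
      (∀ σ : K →+* ℂ, ‖σ (B : K)‖ ≤ (2 : ℝ) ^ T) →
      (B : K) * (α : K) ^ n = (A : K) * (β : K) ^ n → False := fun {T} hT A B hB hA hB' h1 => by
    have h2 := PowerRatio.power_ratio_bound hd (div_ne_zero hαK hβK) hγ1 hB hA hB' (n := n) (by
      rw [div_pow, mul_div_assoc', div_eq_iff (pow_ne_zero n hβK)]; exact h1)
    refine absurd hn (not_le.2 (h2.trans_le ?_))
    exact Nat.pow_le_pow_right two_pos (Nat.mul_le_mul_right _ (Nat.add_le_add_right hT 2))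
  have hne : a * α ^ n + b * β ^ n ≠ 0 := fun h0 => by
    refine hlast (T := h) (Nat.le_add_left _ _) (-b) a ha ?_ hah ?_
    · intro σ
      simp only [map_neg, norm_neg]
      exact hbh σ
    · have h1 := congrArg (fun z : 𝓞 K => (z : K)) h0
      simp only [map_add, map_mul, map_pow, map_zero] at h1
      simp only [map_neg]
      linear_combination h1
  refine ⟨hne, fun hs => ?_⟩
  have hsm : ∀ {c z : 𝓞 K}, c ≠ 0 → z ≠ 0 → (∀ σ : K →+* ℂ, ‖σ (c : K)‖ ≤ (2 : ℝ) ^ h) →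
      (∀ σ : K →+* ℂ, ‖σ (z : K)‖ ≤ (2 : ℝ) ^ h) →
      Smooth (g + h * d) (Algebra.norm ℤ (c * z ^ n)).natAbs := fun hc hz hch hzh => by
    rw [map_mul, map_pow, Int.natAbs_mul, Int.natAbs_pow]
    exact (((smooth_norm_of_house hd hc hch).mul ((smooth_norm_of_house hd hz hzh).pow n))).mono
      (Nat.le_add_left _ _)
  obtain ⟨μ, a', b', c', hμ, ea, eb, -, hbd⟩ := sUnit_equation_bound (g := g + h * d) hd he
    (mul_ne_zero ha (pow_ne_zero n hα)) (mul_ne_zero hb (pow_ne_zero n hβ)) (neg_ne_zero.2 hne)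
    (add_neg_cancel _) (hsm ha hα hah hαh) (hsm hb hβ hbh hβh) (by
      rw [show -(a * α ^ n + b * β ^ n) = -1 * (a * α ^ n + b * β ^ n) from (neg_one_mul _).symm,
        map_mul, Int.natAbs_mul,
        Int.isUnit_iff_natAbs_eq.1 ((isUnit_one.neg).map (Algebra.norm ℤ)), one_mul]
      exact hs.mono (Nat.le_add_right _ _))
  have hb' : b' ≠ 0 := fun h0 => by
    refine mul_ne_zero hb (pow_ne_zero n hβ) (RingOfIntegers.coe_eq_zero_iff.1 (eb.trans ?_))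
    rw [h0]
    simp
  simp only [map_mul, map_pow] at ea eb
  have hp : ∀ {p q : 𝓞 K}, (∀ σ : K →+* ℂ, ‖σ (p : K)‖ ≤ (2 : ℝ) ^ h) →
      (∀ σ : K →+* ℂ, ‖σ (q : K)‖ ≤ (2 : ℝ) ^ sUnitBound d e (g + h * d)) → ∀ σ : K →+* ℂ,
      ‖σ ((p * q : 𝓞 K) : K)‖ ≤ (2 : ℝ) ^ (sUnitBound d e (g + h * d) + h) := fun hp hq σ => by
    simp only [map_mul, norm_mul]
    rw [add_comm, pow_add]
    exact mul_le_mul (hp σ) (hq σ) (norm_nonneg _) (by positivity)
  refine hlast le_rfl (b * a') (a * b') (mul_ne_zero ha hb') (hp hbh fun σ => (hbd σ).1)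
    (hp hah fun σ => (hbd σ).2.1) ?_
  simp only [map_mul]
  linear_combination (b' : K) * ea - (a' : K) * eb

end Field

/-- The roots of `X² - P X - Q` have no two equal powers. -/
def NondegenerateRecurrence (P Q : ℤ) : Prop :=
  ∀ α β : ℂ, α + β = P → α * β = -Q → ∀ i : ℕ, 0 < i → α ^ i ≠ β ^ i

/-- A simple criterion: `P ≠ 0` and real different roots. -/
theorem nondegenerate_of_pos {P Q : ℤ} (hP : P ≠ 0) (hD : 0 < P ^ 2 + 4 * Q) :
    NondegenerateRecurrence P Q := fun α β hs hp i hi he => by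
  have hsum := congrArg Complex.im hs
  simp at hsum
  have hre := congrArg Complex.re hs
  simp at hre
  have hsq : (α - β) ^ 2 = ((P ^ 2 + 4 * Q : ℤ) : ℂ) := by
    push_cast
    linear_combination (α + β + (P : ℂ)) * hs - 4 * hp
  have him := congrArg Complex.im hsq
  have hre2 := congrArg Complex.re hsq
  rw [sq] at him hre2
  simp only [Complex.mul_im, Complex.mul_re, Complex.sub_re, Complex.sub_im, Complex.intCast_re,
    Complex.intCast_im] at him hre2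
  have hDR : (0 : ℝ) < ((P ^ 2 + 4 * Q : ℤ) : ℝ) := by exact_mod_cast hD
  have hα0 : α.im = 0 := by
    by_contra h
    have hr : α.re - β.re = 0 := by
      by_contra h2
      have : α.im - β.im = 0 :=
        (mul_eq_zero.1 (show (α.re - β.re) * (α.im - β.im) = 0 by linarith)).resolve_left h2
      exact h (by linarith)
    rw [hr] at hre2
    nlinarith [mul_self_nonneg (α.im - β.im)]
  have hβ0 : β.im = 0 := by linarith
  rw [show α = (α.re : ℂ) from Complex.ext rfl (by simp [hα0]),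
    show β = (β.re : ℂ) from Complex.ext rfl (by simp [hβ0])] at he
  have hpow : α.re ^ i = β.re ^ i := by exact_mod_cast he
  have habs : |α.re| = |β.re| := by
    refine (pow_left_inj₀ (abs_nonneg _) (abs_nonneg _) hi.ne').1 ?_
    rw [← abs_pow, hpow, abs_pow]
  rcases abs_eq_abs.1 habs with h | h
  · rw [h, hα0, hβ0] at hre2
    linarith
  · rw [h, neg_add_cancel] at hre
    exact hP (Int.cast_eq_zero.1 hre.symm)

theorem norm_sub_mul_le {x z y : ℂ} {k : ℕ} (hx : ‖x‖ ≤ (2 : ℝ) ^ k)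
    (hz : ‖z‖ ≤ (2 : ℝ) ^ (k + 2)) (hy : ‖y‖ ≤ (2 : ℝ) ^ k) :
    ‖x - z * y‖ ≤ (2 : ℝ) ^ (2 * k + 3) := by
  have h1 : ‖z * y‖ ≤ (2 : ℝ) ^ (2 * k + 2) := by
    rw [norm_mul, show 2 * k + 2 = k + 2 + k by ring, pow_add _ (k + 2) k]
    exact mul_le_mul hz hy (norm_nonneg _) (by positivity)
  rw [pow_succ _ (2 * k + 2), mul_two]
  exact (norm_sub_le _ _).trans (add_le_add
    (hx.trans (pow_le_pow_right₀ one_le_two (by omega))) h1)

/-- **Integer binary recurrences.** -/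
theorem recurrence_index_bound {k g : ℕ} {P Q : ℤ} (hP : P.natAbs ≤ 2 ^ k) (hQ : Q.natAbs ≤ 2 ^ k)
    (hQ0 : Q ≠ 0) (hnd : NondegenerateRecurrence P Q) {u : ℕ → ℤ}
    (hu : ∀ n, u (n + 2) = P * u (n + 1) + Q * u n) (h0 : (u 0).natAbs ≤ 2 ^ k)
    (h1 : (u 1).natAbs ≤ 2 ^ k) (hgeo : u 1 ^ 2 - P * u 1 * u 0 - Q * u 0 ^ 2 ≠ 0) {n : ℕ}
    (hn : recurrenceIndexBound k g ≤ n) : u n ≠ 0 ∧ ¬ Smooth g (u n).natAbs := by
  obtain ⟨s, hs⟩ := IsAlgClosed.exists_pow_nat_eq ((P : ℂ) ^ 2 + 4 * Q) two_pos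
  set r : Fin 2 → ℂ := ![((P : ℂ) + s) / 2, ((P : ℂ) - s) / 2] with hr
  have hr01 : r 0 + r 1 = P ∧ r 0 * r 1 = -Q := by
    constructor
    · simp [hr]; ring
    · simp only [hr, Matrix.cons_val_zero, Matrix.cons_val_one]
      linear_combination -(1 / 4 : ℂ) * hs
  have hroot : ∀ i, aeval (r i) (X ^ 2 - C P * X - C Q) = 0 := fun i => by
    obtain ⟨e1, e2⟩ := hr01
    simp only [map_sub, map_pow, map_mul, aeval_X, eq_intCast, map_intCast]
    fin_cases i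
    · simp only [Fin.zero_eta]; linear_combination -e2 + r 0 * e1
    · simp only [Fin.mk_one]; linear_combination -e2 + r 1 * e1
  have hfdeg : (X ^ 2 - C P * X - C Q : ℤ[X]).natDegree ≤ 2 := by compute_degree
  have hfm : (X ^ 2 - C P * X - C Q : ℤ[X]).Monic := by monicity!
  have hfk : ∀ i, ((X ^ 2 - C P * X - C Q : ℤ[X]).coeff i).natAbs ≤ 2 ^ k := fun i => by
    rcases le_or_gt i 2 with hi | hi
    · rw [coeff_sub, coeff_sub, coeff_X_pow, coeff_C_mul, coeff_X, coeff_C]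
      interval_cases i
      · simpa using hQ
      · simpa using hP
      · simp [Nat.one_le_two_pow]
    · rw [coeff_eq_zero_of_natDegree_lt (hfdeg.trans_lt hi)]
      simp
  obtain ⟨L, hNF, z, hz, -, hdeg, hdisc⟩ := exists_field (d := 2) (q := 2) (s := k + 2) one_le_two r
    fun i => BoundedRoot.of_polynomial hfm hfdeg hfk (hroot i)
  set φ : 𝓞 L →+* ℂ := (algebraMap L ℂ).comp (algebraMap (𝓞 L) L) with hφ
  have hφinj : Function.Injective φ :=
    (algebraMap L ℂ).injective.comp RingOfIntegers.coe_injective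
  have hφz : ∀ i, φ (z i) = r i := hz
  have hz01 : z 0 + z 1 = (P : 𝓞 L) ∧ z 0 * z 1 = ((-Q : ℤ) : 𝓞 L) := by
    constructor <;> refine hφinj ?_
    · rw [map_add, map_intCast, hφz, hφz, hr01.1]
    · rw [map_mul, map_intCast, hφz, hφz, hr01.2, Int.cast_neg]
  obtain ⟨e1, e2⟩ := hz01
  rw [Int.cast_neg] at e2
  have hzk : ∀ i (σ : L →+* ℂ), ‖σ (z i : L)‖ ≤ (2 : ℝ) ^ (k + 2) := fun i σ => by
    refine (CoefficientBounds.root_norm_le hfm hfk (z := σ (z i : L)) ?_).trans ?_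
    · have h : aeval (z i : L) (X ^ 2 - C P * X - C Q) = 0 := by
        refine (algebraMap L ℂ).injective ?_
        rw [map_zero, ← aeval_algebraMap_apply, show algebraMap L ℂ (z i : L) = r i from hz i]
        exact hroot i
      rw [show σ (z i : L) = σ.toIntAlgHom (z i : L) from rfl, aeval_algHom_apply, h, map_zero]
    · have h : (X ^ 2 - C P * X - C Q : ℤ[X]).natDegree * 2 ^ k + 1 ≤ 2 ^ (k + 2) := by
        have := Nat.mul_le_mul_right (2 ^ k) hfdeg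
        have := Nat.one_le_two_pow (n := k)
        rw [pow_add]
        omega
      exact_mod_cast h
  have hint : ∀ {w : ℤ} (σ : L →+* ℂ), w.natAbs ≤ 2 ^ k →
      ‖σ ((w : 𝓞 L) : L)‖ ≤ (2 : ℝ) ^ k := fun σ hw => by
    simp only [map_intCast, Complex.norm_intCast]
    rw [← Int.cast_abs, ← Int.natCast_natAbs, Int.cast_natCast]
    exact_mod_cast hw
  have hform : ∀ j, (z 0 - z 1) * (u j : 𝓞 L) =
      ((u 1 : 𝓞 L) - z 1 * u 0) * z 0 ^ j + -((u 1 : 𝓞 L) - z 0 * u 0) * z 1 ^ j := by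
    intro j
    induction j using Nat.twoStepInduction with
    | zero => ring
    | one => ring
    | more j ih1 ih2 =>
      rw [show j + 1 + 1 = j + 2 by ring, hu j, Int.cast_add, Int.cast_mul, Int.cast_mul,
        mul_add (z 0 - z 1), mul_left_comm _ (P : 𝓞 L), mul_left_comm _ (Q : 𝓞 L), ih1, ih2]
      linear_combination -((((u 1 : 𝓞 L) - z 1 * u 0) * z 0 ^ (j + 1)) +
        -((u 1 : 𝓞 L) - z 0 * u 0) * z 1 ^ (j + 1)) * e1 +
        ((((u 1 : 𝓞 L) - z 1 * u 0) * z 0 ^ j) +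
        -((u 1 : 𝓞 L) - z 0 * u 0) * z 1 ^ j) * e2
  have hprod : ((u 1 : 𝓞 L) - z 1 * u 0) * ((u 1 : 𝓞 L) - z 0 * u 0) =
      ((u 1 ^ 2 - P * u 1 * u 0 - Q * u 0 ^ 2 : ℤ) : 𝓞 L) := by
    push_cast
    linear_combination -(u 1 : 𝓞 L) * (u 0 : 𝓞 L) * e1 + (u 0 : 𝓞 L) ^ 2 * e2
  have hab := mul_ne_zero_iff.1 (hprod.trans_ne (Int.cast_ne_zero.2 hgeo))
  have hQ' : z 0 * z 1 ≠ 0 := e2 ▸ neg_ne_zero.2 (Int.cast_ne_zero.2 hQ0)
  have hne : ∀ i : ℕ, 0 < i → z 0 ^ i ≠ z 1 ^ i := fun i hi h => by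
    refine hnd (r 0) (r 1) hr01.1 hr01.2 i hi ?_
    rw [← hφz 0, ← hφz 1, ← map_pow, ← map_pow, h]
  have hdiff : z 0 - z 1 ≠ 0 := fun h => hne 1 one_pos (by rw [sub_eq_zero.1 h])
  obtain ⟨hnz, hns⟩ := binary_index_bound (K := L) (d := 4) (e := discExp 2 2 (k + 2))
    (h := 2 * k + 3) (g := g + (k + 3) * 4) (n := n) hdeg hdisc hab.1 (neg_ne_zero.2 hab.2)
    (mul_ne_zero_iff.1 hQ').1 (mul_ne_zero_iff.1 hQ').2
    (fun σ => by
      simp only [map_sub, map_mul]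
      exact norm_sub_mul_le (hint σ h1) (hzk 1 σ) (hint σ h0))
    (fun σ => by
      simp only [map_neg, map_sub, map_mul, norm_neg]
      exact norm_sub_mul_le (hint σ h1) (hzk 0 σ) (hint σ h0))
    (fun σ => (hzk 0 σ).trans (pow_le_pow_right₀ one_le_two (by omega)))
    (fun σ => (hzk 1 σ).trans (pow_le_pow_right₀ one_le_two (by omega)))
    hne hn
  rw [← hform n] at hnz hns
  have hun : u n ≠ 0 := fun h => hnz (by rw [h, Int.cast_zero, mul_zero])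
  refine ⟨hun, fun hsu => hns ?_⟩
  rw [map_mul, ← eq_intCast (algebraMap ℤ (𝓞 L)), Algebra.norm_algebraMap, Int.natAbs_mul,
    Int.natAbs_pow]
  refine Smooth.mul ?_ ((hsu.pow _).mono (Nat.le_add_right _ _))
  refine (smooth_norm_of_house (h := k + 3) hdeg hdiff fun σ => ?_).mono (Nat.le_add_left _ _)
  simp only [map_sub]
  rw [pow_succ _ (k + 2), mul_two]
  exact (norm_sub_le _ _).trans (add_le_add (hzk 0 σ) (hzk 1 σ))

theorem exists_large_prime {g : ℕ} {z : ℤ} (h : ¬ Smooth g z.natAbs) :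
    ∃ p : ℕ, p.Prime ∧ 2 ^ g < p ∧ (p : ℤ) ∣ z := by
  simp only [Smooth, not_forall, exists_prop, not_le] at h
  obtain ⟨p, hp, hd, hlt⟩ := h
  exact ⟨p, hp, hlt, Int.natCast_dvd.2 hd⟩

/-- **`a x ^ n + b y ^ n`**. -/
theorem exponential_sum_bound {h g n : ℕ} {a b x y : ℤ} (ha : a ≠ 0) (hb : b ≠ 0) (hx : x ≠ 0)
    (hy : y ≠ 0) (hxy : x.natAbs ≠ y.natAbs) (hah : a.natAbs ≤ 2 ^ h) (hbh : b.natAbs ≤ 2 ^ h)
    (hxh : x.natAbs ≤ 2 ^ h) (hyh : y.natAbs ≤ 2 ^ h) (hn : binaryIndexBound 1 0 h g ≤ n) :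
    a * x ^ n + b * y ^ n ≠ 0 ∧ ¬ Smooth g (a * x ^ n + b * y ^ n).natAbs := by
  have hc : ∀ {w : ℤ}, w.natAbs ≤ 2 ^ h → ∀ σ : ℚ →+* ℂ,
      ‖σ ((w : 𝓞 ℚ) : ℚ)‖ ≤ (2 : ℝ) ^ h := fun hw σ => by
    simp only [map_intCast, Complex.norm_intCast]
    rw [← Int.cast_abs, ← Int.natCast_natAbs, Int.cast_natCast]
    exact_mod_cast hw
  obtain ⟨h1, h2⟩ := binary_index_bound (K := ℚ) (d := 1) (e := 0) (g := g) (n := n)
    (finrank_self ℚ).le (by rw [Rat.numberField_discr]; rfl) (Int.cast_ne_zero.2 ha)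
    (Int.cast_ne_zero.2 hb) (Int.cast_ne_zero.2 hx) (Int.cast_ne_zero.2 hy) (hc hah) (hc hbh)
    (hc hxh) (hc hyh) (fun i hi he => hxy (Nat.pow_left_injective hi.ne' (by
      rw [← Int.cast_pow, ← Int.cast_pow] at he
      simp only [← Int.natAbs_pow, Int.cast_injective he]))) hn
  have e : (a : 𝓞 ℚ) * (x : 𝓞 ℚ) ^ n + (b : 𝓞 ℚ) * (y : 𝓞 ℚ) ^ n =
      ((a * x ^ n + b * y ^ n : ℤ) : 𝓞 ℚ) := by push_cast; ring
  rw [e] at h1 h2
  refine ⟨fun h0 => h1 (by rw [h0, Int.cast_zero]), fun hs => h2 ?_⟩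
  rw [← eq_intCast (algebraMap ℤ (𝓞 ℚ)), Algebra.norm_algebraMap, Int.natAbs_pow]
  exact hs.pow _

/-- **`a + b = c` in coprime smooth integers.** -/
theorem smooth_sum_bound {g : ℕ} {a b c : ℤ} (ha : a ≠ 0) (hb : b ≠ 0) (hc : c ≠ 0)
    (hab : IsCoprime a b) (habc : a + b = c) (hsa : Smooth g a.natAbs) (hsb : Smooth g b.natAbs)
    (hsc : Smooth g c.natAbs) :
    a.natAbs ≤ 2 ^ smoothSumBound g ∧ b.natAbs ≤ 2 ^ smoothSumBound g ∧
      c.natAbs ≤ 2 ^ smoothSumBound g := by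
  have hn : ∀ {w : ℤ}, Smooth g w.natAbs → Smooth g (Algebra.norm ℤ (w : 𝓞 ℚ)).natAbs :=
    fun hw => by
    rw [← eq_intCast (algebraMap ℤ (𝓞 ℚ)), Algebra.norm_algebraMap, Int.natAbs_pow]
    exact hw.pow _
  obtain ⟨μ, a', b', c', hμ, ea, eb, ec, hbd⟩ := sUnit_equation_bound (K := ℚ) (d := 1) (e := 0)
    (finrank_self ℚ).le (by rw [Rat.numberField_discr]; rfl) (a := (a : 𝓞 ℚ)) (b := (b : 𝓞 ℚ))
    (c := ((-c : ℤ) : 𝓞 ℚ)) (Int.cast_ne_zero.2 ha) (Int.cast_ne_zero.2 hb)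
    (Int.cast_ne_zero.2 (neg_ne_zero.2 hc)) (by rw [← habc]; push_cast; ring) (hn hsa) (hn hsb)
    (hn (by rwa [Int.natAbs_neg]))
  have hint : ∀ z : 𝓞 ℚ, ∃ w : ℤ, (z : ℚ) = w := fun z =>
    ⟨Rat.ringOfIntegersEquiv z, (Rat.ringOfIntegersEquiv_apply_coe z).symm⟩
  obtain ⟨p, hp⟩ := hint a'
  obtain ⟨q, hq⟩ := hint b'
  obtain ⟨r, hr⟩ := hint c'
  simp only [map_intCast, Int.cast_neg, map_neg, hp, hq, hr] at ea eb ec
  have hpb : ∀ {w : ℤ} {z : 𝓞 ℚ}, (z : ℚ) = w →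
      (∀ σ : ℚ →+* ℂ, ‖σ (z : ℚ)‖ ≤ (2 : ℝ) ^ sUnitBound 1 0 g) →
      w.natAbs ≤ 2 ^ smoothSumBound g := fun {w z} hw hz => by
    have h := hz (algebraMap ℚ ℂ)
    rw [hw, map_intCast, Complex.norm_intCast, ← Int.cast_abs, ← Int.natCast_natAbs,
      Int.cast_natCast] at h
    rw [smoothSumBound]
    exact_mod_cast h
  have hdvd : ∀ {u v s t : ℤ}, u ≠ 0 → IsCoprime u v → (u : ℚ) = μ * s → (v : ℚ) = μ * t →
      u.natAbs ≤ s.natAbs := fun {u v s t} hu huv eu ev => by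
    have e : u * t = v * s := by
      have : (u : ℚ) * t = (v : ℚ) * s := by rw [eu, ev]; ring
      exact_mod_cast this
    refine Nat.le_of_dvd (Int.natAbs_pos.2 fun hs0 => hu ?_)
      (Int.natAbs_dvd_natAbs.2 (huv.dvd_of_dvd_mul_left (e ▸ dvd_mul_right u t)))
    rw [hs0, Int.cast_zero, mul_zero] at eu
    exact_mod_cast eu
  have hca : IsCoprime c a := by
    rw [← habc]
    simpa [add_comm] using hab.symm.add_mul_left_left 1
  refine ⟨(hdvd ha hab ea eb).trans (hpb hp fun σ => (hbd σ).1),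
    (hdvd hb hab.symm eb ea).trans (hpb hq fun σ => (hbd σ).2.1), ?_⟩
  refine le_trans ?_ (hpb hr fun σ => (hbd σ).2.2)
  have := hdvd (u := -c) (neg_ne_zero.2 hc) hca.neg_left (by push_cast; exact ec) ea
  rwa [Int.natAbs_neg] at this

end FA.BakerExplicit.BinaryRecurrence

end
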