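import Fermat.Agent.BakerExplicit.TernaryTerms
import Fermat.Agent.BakerExplicit.AlgebraicMain

/-!
# Binomials at an archimedean place

Baker's theorem: `A x ^ n + B y ^ n`, if not zero, is not small against `|x| ^ n` when
`|x| = |y|`, up to a power of `log n`. Two different absolute values differ by a bounded ratio.
-/

set_option autoImplicit false

noncomputable section

namespace FA.BakerExplicit.FourTerms

open NumberField Module GeneratedField TernaryRecurrence

/-- The size of the numbers in the linear form. -/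
def archSize (d h : ℕ) : ℕ := 2 * h * d + 2 * h + 4

/-- The loss of an archimedean binomial. -/
def archLoss (d h l : ℕ) : ℕ :=
  h * d + 1 + baseAlg 3 d (archSize d h) (l + 3) ^ kappa 3

/-- The gap between two absolute values. -/
def archGap (d h : ℕ) : ℕ := (2 * h + 1) * d ^ 4 + 2 * h + 1

/-- A power above a bound from a small gap. -/
theorem two_pow_le_of_gap {G k n : ℕ} (h : k * 2 ^ G ≤ n) :
    (2 : ℝ) ^ k ≤ (1 + 1 / (2 : ℝ) ^ G) ^ n := by
  have h1 : (1 : ℝ) ≤ 1 + 1 / (2 : ℝ) ^ G := le_add_of_nonneg_right (by positivity)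
  refine le_trans ?_ (pow_le_pow_right₀ h1 h)
  rw [mul_comm k, pow_mul]
  refine pow_le_pow_left₀ two_pos.le ?_ k
  refine le_trans ?_ (one_add_mul_le_pow (le_trans (by norm_num)
    (show (0 : ℝ) ≤ 1 / (2 : ℝ) ^ G by positivity)) (2 ^ G))
  push_cast
  rw [mul_one_div, div_self (by positivity)]
  norm_num

variable {K : Type*} [Field K] [NumberField K]

theorem inv_two_pow_le {d T : ℕ} (hd : finrank ℚ K ≤ d) {z : 𝓞 K} (hz : z ≠ 0)
    (h : HouseLe T z) (σ : K →+* ℂ) : ((2 : ℝ) ^ (T * d))⁻¹ ≤ ‖σ (z : K)‖ := by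
  rw [inv_le_iff_one_le_mul₀ (by positivity), mul_comm, pow_mul]
  exact EffectiveThue.one_le_pow_mul_norm hz hd (one_le_pow₀ one_le_two) h σ

/-- **Baker's bound for a binomial.** -/
theorem arch_binomial {d h n : ℕ} (hd : finrank ℚ K ≤ d) (σ : K →+* ℂ) {A B x y : 𝓞 K}
    (hA : A ≠ 0) (hB : B ≠ 0) (hx : x ≠ 0) (hy : y ≠ 0) (hAh : HouseLe h A) (hBh : HouseLe h B)
    (hxh : HouseLe h x) (hyh : HouseLe h y) (hσ : ‖σ (x : K)‖ = ‖σ (y : K)‖)
    (hne : A * x ^ n + B * y ^ n ≠ 0) :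
    ‖σ (x : K)‖ ^ n * ((2 : ℝ) ^ archLoss d h (Nat.log 2 (n + 1) + 1))⁻¹ ≤
      ‖σ ((A * x ^ n + B * y ^ n : 𝓞 K) : K)‖ := by
  have hd1 : 1 ≤ d := le_trans finrank_pos hd
  set l := Nat.log 2 (n + 1) + 1 with hl
  set H := archSize d h with hH
  set M := baseAlg 3 d H (l + 3) ^ kappa 3 with hM
  have hK : ∀ {z : 𝓞 K}, z ≠ 0 → (z : K) ≠ 0 := fun hz => RingOfIntegers.coe_ne_zero_iff.2 hz
  set γ : K := (x : K) / y with hγ
  set c : K := -((A : K) / B) with hc
  set w : ℂ := σ γ ^ n * σ c with hw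
  have hγ0 : σ γ ≠ 0 := (map_ne_zero σ).2 (div_ne_zero (hK hx) (hK hy))
  have hc0 : σ c ≠ 0 := (map_ne_zero σ).2 (neg_ne_zero.2 (div_ne_zero (hK hA) (hK hB)))
  have hw0 : w ≠ 0 := mul_ne_zero (pow_ne_zero n hγ0) hc0
  have hyσ : σ (y : K) ≠ 0 := (map_ne_zero σ).2 (hK hy)
  have hBσ : σ (B : K) ≠ 0 := (map_ne_zero σ).2 (hK hB)
  have hsum : σ ((A * x ^ n + B * y ^ n : 𝓞 K) : K) = σ (B : K) * σ (y : K) ^ n * (1 - w) := by
    simp only [hw, hγ, hc, map_add, map_mul, map_pow, map_neg, map_div₀, div_pow]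
    field_simp
    ring
  have hw1 : w ≠ 1 := fun h1 => hne (RingOfIntegers.coe_eq_zero_iff.1 (σ.injective (by
    rw [hsum, h1, sub_self, mul_zero, map_zero])))
  have key : ((2 : ℝ) ^ (M + 1))⁻¹ ≤ ‖w - 1‖ := by
    rcases le_or_gt (1 / 2 : ℝ) ‖w - 1‖ with hbig | hsmall
    · refine le_trans ?_ hbig
      rw [one_div]
      exact inv_anti₀ two_pos (le_self_pow₀ one_le_two (Nat.succ_ne_zero M))
    set Λ := Complex.log w with hΛ
    have hΛ0 : Λ ≠ 0 := fun h0 => hw1 (by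
      rw [← Complex.exp_log hw0, ← hΛ, h0, Complex.exp_zero])
    obtain ⟨k, hk⟩ := Complex.exp_eq_exp_iff_exists_int.1 (show Complex.exp Λ =
        Complex.exp ((n : ℂ) * Complex.log (σ γ) + Complex.log (σ c)) by
      rw [hΛ, Complex.exp_log hw0, Complex.exp_add, Complex.exp_nat_mul, Complex.exp_log hγ0,
        Complex.exp_log hc0])
    have hk2 : (2 * k).natAbs ≤ 2 * (n + 2) := by
      have him := congrArg Complex.im hk
      simp only [Complex.add_im, Complex.mul_im, Complex.natCast_re, Complex.natCast_im,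
        Complex.intCast_re, Complex.intCast_im, Complex.log_im, hΛ, Complex.mul_re,
        Complex.ofReal_re, Complex.ofReal_im, Complex.I_re, Complex.I_im, Complex.re_ofNat,
        Complex.im_ofNat] at him
      have a1 := abs_le.1 (Complex.abs_arg_le_pi w)
      have a2 := abs_le.1 (Complex.abs_arg_le_pi (σ γ))
      have a3 := abs_le.1 (Complex.abs_arg_le_pi (σ c))
      have hπ := Real.pi_pos
      have hn0 : (0 : ℝ) ≤ n := Nat.cast_nonneg n
      have h1 : (2 * k : ℝ) ≤ 2 * (n + 2) := by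
        refine le_of_mul_le_mul_right ?_ hπ
        nlinarith
      have h2 : -(2 * ((n : ℝ) + 2)) ≤ 2 * k := by
        refine le_of_mul_le_mul_right ?_ hπ
        nlinarith
      have h1' : 2 * k ≤ 2 * ((n : ℤ) + 2) := by exact_mod_cast h1
      have h2' : -(2 * ((n : ℤ) + 2)) ≤ 2 * k := by exact_mod_cast h2
      omega
    have hnm : 2 * (n + 2) ≤ 2 ^ (l + 3) := by
      have h1 := Nat.lt_pow_succ_log_self one_lt_two (n + 1)
      rw [hl, pow_add]
      omega
    set D := (Algebra.norm ℤ y).natAbs * (Algebra.norm ℤ B).natAbs with hD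
    have hny := EffectiveThue.norm_le_of_bounded hd Nat.one_le_two_pow
      (fun τ => (hyh τ).trans_eq (by push_cast; rfl))
    have hnB := EffectiveThue.norm_le_of_bounded hd Nat.one_le_two_pow
      (fun τ => (hBh τ).trans_eq (by push_cast; rfl))
    have hD0 : 0 < D := Nat.mul_pos (Int.natAbs_pos.2 (Algebra.norm_ne_zero_iff.2 hy))
      (Int.natAbs_pos.2 (Algebra.norm_ne_zero_iff.2 hB))
    have hDH : D ≤ 2 ^ H := by
      refine (Nat.mul_le_mul hny hnB).trans ?_
      rw [← pow_mul, ← pow_add]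
      exact Nat.pow_le_pow_right two_pos (by rw [hH, archSize, mul_assoc 2 h d]; omega)
    obtain ⟨ty, hty⟩ := EffectiveThue.dvd_natAbs_norm y
    obtain ⟨tB, htB⟩ := EffectiveThue.dvd_natAbs_norm B
    have hint : ∀ i, IsIntegral ℤ ((D : K) * (![γ, c, -1] : Fin 3 → K) i) := by
      have ey := congrArg (fun z : 𝓞 K => (z : K)) hty
      have eB := congrArg (fun z : 𝓞 K => (z : K)) htB
      simp only [map_natCast, map_mul] at ey eB
      intro i
      fin_cases i
      · have e : (D : K) * γ = ((ty * ((Algebra.norm ℤ B).natAbs : 𝓞 K) * x : 𝓞 K) : K) := by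
          simp only [hD, hγ, Nat.cast_mul, map_mul, map_natCast, ey]
          field_simp [hK hy]
        simpa [e] using RingOfIntegers.isIntegral_coe (ty * ((Algebra.norm ℤ B).natAbs : 𝓞 K) * x)
      · have e : (D : K) * c = ((-(((Algebra.norm ℤ y).natAbs : 𝓞 K) * tB * A) : 𝓞 K) : K) := by
          simp only [hD, hc, Nat.cast_mul, map_mul, map_natCast, map_neg, eB]
          field_simp [hK hB]
        simpa [e] using
          RingOfIntegers.isIntegral_coe (-(((Algebra.norm ℤ y).natAbs : 𝓞 K) * tB * A))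
      · simpa using (isIntegral_algebraMap (x := (D : ℤ)) (A := K)).neg
    have hquot : ∀ {u v : 𝓞 K}, v ≠ 0 → HouseLe h u → HouseLe h v → ∀ τ : K →+* ℂ,
        ‖τ ((u : K) / v)‖ ≤ (2 : ℝ) ^ (h + h * d) := fun {u v} hv hu hvh τ => by
      have h1 := inv_two_pow_le hd hv hvh τ
      rw [map_div₀, norm_div, pow_add, div_eq_mul_inv]
      exact mul_le_mul (hu τ) (inv_le_of_inv_le₀ (by positivity) h1) (by positivity)
        (by positivity)
    have hhouse : ∀ i, house ((![γ, c, -1] : Fin 3 → K) i) ≤ (2 : ℝ) ^ H := by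
      intro i
      refine Algebraic.house_le_of_forall (by positivity) fun τ => ?_
      have hle : (2 : ℝ) ^ (h + h * d) ≤ (2 : ℝ) ^ H :=
        pow_le_pow_right₀ one_le_two (by rw [hH, archSize, mul_assoc 2 h d]; omega)
      fin_cases i
      · exact (hquot hy hxh hyh τ).trans hle
      · simpa [hc] using (hquot hB hAh hBh τ).trans hle
      · simpa using one_le_pow₀ (n := H) (one_le_two : (1 : ℝ) ≤ 2)
    have hlog : ∀ {u v : 𝓞 K}, u ≠ 0 → v ≠ 0 → HouseLe h u → HouseLe h v →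
        |Real.log ‖σ ((u : K) / v)‖| ≤ ((h + h * d : ℕ) : ℝ) := fun {u v} hu hv huh hvh => by
      refine EffectiveThue.abs_log_le_of_two_pow ?_ (hquot hv huh hvh σ)
      have h1 := hquot hu hvh huh σ
      have h2 : σ ((u : K) / v) * σ ((v : K) / u) = 1 := by
        rw [← map_mul, div_mul_div_comm, mul_comm (v : K), div_self (mul_ne_zero (hK hu) (hK hv)),
          map_one]
      have h3 : ‖σ ((u : K) / v)‖ * ‖σ ((v : K) / u)‖ = 1 := by rw [← norm_mul, h2, norm_one]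
      rw [← h3, mul_comm ((2 : ℝ) ^ _)]
      exact mul_le_mul_of_nonneg_left h1 (norm_nonneg _)
    have hlb : ∀ i, ‖(![Complex.log (σ γ), Complex.log (σ c), Real.pi * Complex.I] :
        Fin 3 → ℂ) i‖ ≤ (H : ℕ) := by
      intro i
      have hle : ((h + h * d + 4 : ℕ) : ℝ) ≤ (H : ℕ) :=
        Nat.cast_le.2 (by rw [hH, archSize, mul_assoc 2 h d]; omega)
      fin_cases i
      · exact (EffectiveThue.norm_log_le (hlog hx hy hxh hyh)).trans hle
      · refine (EffectiveThue.norm_log_le (a := h + h * d) ?_).trans hle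
        simpa [hc] using hlog hA hB hAh hBh
      · refine le_trans ?_ hle
        simp only [Fin.reduceFinMk, Matrix.cons_val, norm_mul, Complex.norm_I, mul_one,
          Complex.norm_real, Real.norm_eq_abs, abs_of_pos Real.pi_pos]
        push_cast
        linarith [Real.pi_le_four, (Nat.cast_nonneg h : (0 : ℝ) ≤ h),
          mul_nonneg (Nat.cast_nonneg h : (0 : ℝ) ≤ h) (Nat.cast_nonneg d : (0 : ℝ) ≤ d)]
    have hΛsum : ∑ i, (((![(n : ℤ), 1, 2 * k] : Fin 3 → ℤ) i : ℤ) : ℂ) *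
        (![Complex.log (σ γ), Complex.log (σ c), Real.pi * Complex.I] : Fin 3 → ℂ) i = Λ := by
      rw [hk, Fin.sum_univ_three]
      simp
      ring
    have hbm : ∀ i, ((![(n : ℤ), 1, 2 * k] : Fin 3 → ℤ) i).natAbs ≤ 2 ^ (l + 3) := by
      intro i
      have := Nat.one_le_two_pow (n := l + 3)
      fin_cases i <;> simp <;> omega
    have hbaker := Algebraic.baker_algebraic_general_bound hd σ hD0 hint hDH hhouse
      (l := ![Complex.log (σ γ), Complex.log (σ c), Real.pi * Complex.I]) (fun i => by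
        fin_cases i
        · simp [Complex.exp_log hγ0]
        · simp [Complex.exp_log hc0]
        · simp [Complex.exp_pi_mul_I]) hlb hbm (by rw [hΛsum]; exact hΛ0)
    rw [hΛsum, ← hM, one_div] at hbaker
    have h32 : ‖Λ‖ ≤ 3 / 2 * ‖w - 1‖ := by
      have := Complex.norm_log_one_add_half_le_self (z := w - 1) hsmall.le
      rwa [add_sub_cancel, ← hΛ] at this
    have h2 : ((2 : ℝ) ^ (M + 1))⁻¹ = ((2 : ℝ) ^ M)⁻¹ / 2 := by rw [pow_succ, mul_inv]; ring
    rw [h2]
    linarith [norm_nonneg (w - 1)]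
  have hBl := inv_two_pow_le hd hB hBh σ
  rw [hsum, norm_mul, norm_mul, norm_pow, ← hσ, norm_sub_rev, archLoss, ← hH, ← hM, add_assoc,
    pow_add, mul_inv]
  calc ‖σ (x : K)‖ ^ n * (((2 : ℝ) ^ (h * d))⁻¹ * ((2 : ℝ) ^ (1 + M))⁻¹)
      = ((2 : ℝ) ^ (h * d))⁻¹ * ‖σ (x : K)‖ ^ n * ((2 : ℝ) ^ (M + 1))⁻¹ := by
        rw [add_comm 1 M]; ring
    _ ≤ _ := mul_le_mul (mul_le_mul_of_nonneg_right hBl (by positivity)) key (by positivity)
        (by positivity)

/-- Bounded algebraic integers in one field. -/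
theorem exists_lift {d q h : ℕ} (hd : 1 ≤ d) (r : Fin q → ℂ) (hr : ∀ i, BoundedRoot d h (r i)) :
    ∃ (L : IntermediateField ℚ ℂ) (_ : NumberField L) (z : Fin q → 𝓞 L),
      (∀ i, ((z i : L) : ℂ) = r i) ∧ (∀ i, HouseLe h (z i)) ∧
        finrank ℚ L ≤ d ^ q ∧ (discr L).natAbs ≤ 2 ^ discExp d q h := by
  obtain ⟨L, hNF, z, hz, -, hdeg, hdisc⟩ := exists_field hd r hr
  refine ⟨L, hNF, z, hz, fun i σ => ?_, hdeg, hdisc⟩
  obtain ⟨P, -, -, hP0, hPb⟩ := hr i
  refine hPb _ ?_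
  have h0 : Polynomial.aeval (z i : L) P = 0 := by
    refine (algebraMap L ℂ).injective ?_
    rw [map_zero, ← Polynomial.aeval_algebraMap_apply,
      show algebraMap L ℂ (z i : L) = r i from hz i]
    exact hP0
  rw [show σ (z i : L) = σ.toIntAlgHom (z i : L) from rfl, Polynomial.aeval_algHom_apply, h0,
    map_zero]

theorem BoundedRoot_conj {d h : ℕ} {z : ℂ} (hz : BoundedRoot d h z) :
    BoundedRoot d h (starRingEnd ℂ z) := by
  obtain ⟨P, hP, hdeg, h0, hb⟩ := hz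
  refine ⟨P, hP, hdeg, ?_, hb⟩
  rw [show starRingEnd ℂ z = (starRingEnd ℂ).toIntAlgHom z from rfl, Polynomial.aeval_algHom_apply,
    h0, map_zero]

/-- **Different absolute values are apart.** -/
theorem arch_gap {d h n k : ℕ} (hd : finrank ℚ K ≤ d) (σ : K →+* ℂ) {x y : 𝓞 K}
    (hxh : HouseLe h x) (hyh : HouseLe h y) (hlt : ‖σ (x : K)‖ < ‖σ (y : K)‖)
    (hn : k * 2 ^ archGap d h ≤ n) : ‖σ (x : K)‖ ^ n * 2 ^ k ≤ ‖σ (y : K)‖ ^ n := by
  set a := σ (x : K)
  set b := σ (y : K)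
  have hbr : ∀ z : 𝓞 K, HouseLe h z → BoundedRoot d h (σ (z : K)) := fun z hz =>
    BoundedRoot.of_conjugates hd z.isIntegral_coe hz σ
  obtain ⟨L, hNF, z, hz, hzh, hdeg, -⟩ := exists_lift (q := 4) (le_trans finrank_pos hd)
    ![a, starRingEnd ℂ a, b, starRingEnd ℂ b] (by
      intro i
      fin_cases i
      · exact hbr x hxh
      · exact BoundedRoot_conj (hbr x hxh)
      · exact hbr y hyh
      · exact BoundedRoot_conj (hbr y hyh))
  set u : 𝓞 L := z 2 * z 3 - z 0 * z 1 with hu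
  have hval : algebraMap L ℂ (u : L) = ((‖b‖ ^ 2 - ‖a‖ ^ 2 : ℝ) : ℂ) := by
    simp only [hu, map_sub, map_mul]
    rw [show algebraMap L ℂ (z 0 : L) = a from hz 0,
      show algebraMap L ℂ (z 1 : L) = starRingEnd ℂ a from hz 1,
      show algebraMap L ℂ (z 2 : L) = b from hz 2,
      show algebraMap L ℂ (z 3 : L) = starRingEnd ℂ b from hz 3, Complex.mul_conj,
      Complex.mul_conj, Complex.normSq_eq_norm_sq, Complex.normSq_eq_norm_sq]
    push_cast
    ring
  have hpos : 0 < ‖b‖ ^ 2 - ‖a‖ ^ 2 := by nlinarith [norm_nonneg a]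
  have hu0 : u ≠ 0 := fun h0 => by
    rw [h0] at hval
    simp only [map_zero] at hval
    exact hpos.ne' (by exact_mod_cast hval.symm)
  have huh : HouseLe (2 * h + 1) u := fun τ => by
    simp only [hu, map_sub, map_mul]
    refine (norm_sub_le _ _).trans ?_
    rw [norm_mul, norm_mul, pow_succ, two_mul, pow_add, mul_two]
    exact add_le_add (mul_le_mul (hzh 2 τ) (hzh 3 τ) (norm_nonneg _) (by positivity))
      (mul_le_mul (hzh 0 τ) (hzh 1 τ) (norm_nonneg _) (by positivity))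
  have hδ := inv_two_pow_le hdeg hu0 huh (algebraMap L ℂ)
  rw [hval, Complex.norm_real, Real.norm_eq_abs, abs_of_pos hpos] at hδ
  have hba : ‖b‖ ≤ (2 : ℝ) ^ h := hyh σ
  have hratio : ‖a‖ * (1 + 1 / (2 : ℝ) ^ archGap d h) ≤ ‖b‖ := by
    set δ := ((2 : ℝ) ^ ((2 * h + 1) * d ^ 4))⁻¹
    have h1 : 1 / (2 : ℝ) ^ archGap d h = δ * ((2 : ℝ) ^ (2 * h + 1))⁻¹ := by
      rw [archGap, add_assoc, pow_add, one_div, mul_inv]
    rw [h1]
    have hδ0 : 0 < δ := by positivity
    have h2 : ‖a‖ * ((2 : ℝ) ^ (2 * h + 1))⁻¹ * (‖a‖ + ‖b‖) ≤ 1 := by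
      rw [mul_comm ‖a‖, mul_assoc, inv_mul_le_iff₀ (by positivity), mul_one, pow_succ, two_mul h,
        pow_add]
      nlinarith [norm_nonneg a]
    have h3 : ‖a‖ * ((2 : ℝ) ^ (2 * h + 1))⁻¹ * δ * (‖a‖ + ‖b‖) ≤
        (‖b‖ - ‖a‖) * (‖a‖ + ‖b‖) := by nlinarith
    have h4 := le_of_mul_le_mul_right h3
      (by linarith [norm_nonneg a] : (0 : ℝ) < ‖a‖ + ‖b‖)
    linarith
  calc ‖a‖ ^ n * 2 ^ k ≤ ‖a‖ ^ n * (1 + 1 / (2 : ℝ) ^ archGap d h) ^ n :=
        mul_le_mul_of_nonneg_left (two_pow_le_of_gap hn) (by positivity)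
    _ = (‖a‖ * (1 + 1 / (2 : ℝ) ^ archGap d h)) ^ n := (mul_pow _ _ _).symm
    _ ≤ ‖b‖ ^ n := pow_le_pow_left₀ (by positivity) hratio n

end FA.BakerExplicit.FourTerms

end
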