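import Fermat.Agent.BakerExplicit.PowerDecomposition
import Mathlib.LinearAlgebra.FreeModule.IdealQuotient
import Mathlib.RingTheory.ClassGroup.Basic

/-!
# Generators for the `S`-units

An ideal of norm `N` is determined by `d` residues modulo `N`, so boundedly many have bounded
norm, and the class number is bounded by the discriminant. Powers of the small primes to the class
number have generators of bounded conjugates, and every number whose norm is smooth is, to that
power, a unit times a product of them.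
-/

set_option autoImplicit false

noncomputable section

namespace FA.BakerExplicit.EffectiveSUnits

open Finset NumberField NumberField.Units Module UniqueFactorizationMonoid
open scoped nonZeroDivisors

variable {K : Type*} [Field K] [NumberField K]

/-- All prime factors of `n` are at most `2 ^ g`. -/
def Smooth (g n : ℕ) : Prop := ∀ r : ℕ, r.Prime → r ∣ n → r ≤ 2 ^ g

theorem Smooth.mono {g g' n : ℕ} (h : Smooth g n) (hg : g ≤ g') : Smooth g' n := fun r hr hd =>
  (h r hr hd).trans (Nat.pow_le_pow_right two_pos hg)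

theorem Smooth.of_dvd {g m n : ℕ} (h : Smooth g n) (hd : m ∣ n) : Smooth g m := fun r hr hr' =>
  h r hr (hr'.trans hd)

theorem Smooth.mul {g m n : ℕ} (hm : Smooth g m) (hn : Smooth g n) : Smooth g (m * n) :=
  fun r hr h => ((Nat.Prime.dvd_mul hr).1 h).elim (hm r hr) (hn r hr)

theorem Smooth.of_le {g n : ℕ} (hn : n ≠ 0) (h : n ≤ 2 ^ g) : Smooth g n := fun _ _ hd =>
  (Nat.le_of_dvd (Nat.pos_of_ne_zero hn) hd).trans h

theorem Smooth.pow {g n : ℕ} (h : Smooth g n) (k : ℕ) : Smooth g (n ^ k) := fun r hr hd =>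
  h r hr (hr.dvd_of_dvd_pow hd)

/-- A bound for the exponent of the number of ideals of norm at most `2 ^ q`. -/
def countExp (d q : ℕ) : ℕ := (q + 1) * (d * d + 1)

/-- A bound for the exponent of the class number. -/
def classExp (d e : ℕ) : ℕ := countExp d (d + e)

/-- **Boundedly many ideals have bounded norm.** -/
theorem card_ideals_le {d q : ℕ} (hd : finrank ℚ K ≤ d) {s : Finset (Ideal (𝓞 K))}
    (hs : ∀ I ∈ s, I ≠ ⊥ ∧ Ideal.absNorm I ≤ 2 ^ q) : s.card ≤ 2 ^ countExp d q := by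
  classical
  set B := RingOfIntegers.basis K
  have hι : Fintype.card (Free.ChooseBasisIndex ℤ (𝓞 K)) = finrank ℚ K := by
    rw [← finrank_eq_card_chooseBasisIndex, RingOfIntegers.rank]
  have hfib : ∀ N ∈ s.image Ideal.absNorm, (s.filter fun I => Ideal.absNorm I = N).card ≤
      2 ^ (q * (d * d)) := fun N hN => by
    obtain ⟨I₁, hI₁, rfl⟩ := mem_image.1 hN
    obtain ⟨hI₁0, hI₁q⟩ := hs I₁ hI₁
    set N := Ideal.absNorm I₁ with hNdef
    have hN0 : N ≠ 0 := mt Ideal.absNorm_eq_zero_iff.1 hI₁0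
    set J : Ideal (𝓞 K) := Ideal.span {(N : 𝓞 K)} with hJ
    have hJ0 : J ≠ ⊥ := by simpa [hJ, Ideal.span_singleton_eq_bot] using hN0
    have : Finite (𝓞 K ⧸ J) := J.finiteQuotientOfFreeOfNeBot hJ0
    let f : (I : Ideal (𝓞 K)) → Free.ChooseBasisIndex ℤ (𝓞 K) → 𝓞 K ⧸ J := fun I i =>
      if hI : I = ⊥ then 0 else Ideal.Quotient.mk J ((Ideal.selfBasis B I hI i : I) : 𝓞 K)
    have hle : ∀ I ∈ s.filter (fun I => Ideal.absNorm I = N), ∀ I' ∈ s.filter
        (fun I => Ideal.absNorm I = N), f I = f I' → I ≤ I' := fun I hI I' hI' he x hx => by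
      obtain ⟨hIs, hIN⟩ := mem_filter.1 hI
      obtain ⟨hI's, hI'N⟩ := mem_filter.1 hI'
      have hgen : ∀ i, ((Ideal.selfBasis B I (hs I hIs).1 i : I) : 𝓞 K) ∈ I' := fun i => by
        have h1 := congrFun he i
        simp only [f, dif_neg (hs I hIs).1, dif_neg (hs I' hI's).1, Ideal.Quotient.eq] at h1
        obtain ⟨c, hc⟩ := Ideal.mem_span_singleton.1 h1
        rw [sub_eq_iff_eq_add.1 hc]
        refine I'.add_mem (I'.mul_mem_right _ ?_) (SetLike.coe_mem _)
        rw [← hI'N]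
        exact Ideal.absNorm_mem I'
      have h2 := (Ideal.selfBasis B I (hs I hIs).1).sum_repr ⟨x, hx⟩
      have h3 := congrArg (fun z : I => (z : 𝓞 K)) h2
      simp only [Submodule.coe_sum] at h3
      rw [← h3]
      exact I'.sum_mem fun i _ => zsmul_mem (hgen i) _
    have : Fintype (𝓞 K ⧸ J) := Fintype.ofFinite _
    refine (card_le_card_of_injOn f (t := univ) (fun _ _ => mem_univ _) fun I hI I' hI' he =>
      le_antisymm (hle I hI I' hI' he) (hle I' hI' I hI he.symm)).trans ?_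
    rw [card_univ, Fintype.card_fun, hι, ← Nat.card_eq_fintype_card,
      show Nat.card (𝓞 K ⧸ J) = Ideal.absNorm J from rfl]
    simp only [hJ, Ideal.absNorm_span_singleton, ← map_natCast (algebraMap ℤ (𝓞 K)),
      Algebra.norm_algebraMap, RingOfIntegers.rank, Int.natAbs_pow, Int.natAbs_natCast]
    rw [← pow_mul, pow_mul 2 q]
    exact (Nat.pow_le_pow_left hI₁q _).trans
      (Nat.pow_le_pow_right Nat.one_le_two_pow (Nat.mul_le_mul hd hd))
  refine (card_le_mul_card_image s _ hfib).trans ?_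
  have himg : (s.image Ideal.absNorm).card ≤ 2 ^ (q + 1) := by
    refine (card_le_card (t := range (2 ^ (q + 1))) fun N hN => ?_).trans_eq (card_range _)
    obtain ⟨I, hI, rfl⟩ := mem_image.1 hN
    exact mem_range.2 ((hs I hI).2.trans_lt (Nat.pow_lt_pow_right one_lt_two (Nat.lt_succ_self q)))
  refine (Nat.mul_le_mul_left _ himg).trans ?_
  rw [← pow_add, countExp]
  refine Nat.pow_le_pow_right two_pos ?_
  nlinarith

/-- A representative of bounded norm in every class. -/
theorem exists_rep {d e : ℕ} (hd : finrank ℚ K ≤ d) (he : (discr K).natAbs ≤ 2 ^ e)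
    (c : ClassGroup (𝓞 K)) :
    ∃ I : (Ideal (𝓞 K))⁰, ClassGroup.mk0 I = c ∧ Ideal.absNorm (I : Ideal (𝓞 K)) ≤ 2 ^ (d + e) := by
  obtain ⟨I, hI, hN⟩ := exists_ideal_in_class_of_norm_le c
  exact ⟨I, hI, by exact_mod_cast hN.trans (PowerDecomposition.minkowski_le hd he)⟩

/-- **The class number is bounded by the discriminant.** -/
theorem classNumber_le {d e : ℕ} (hd : finrank ℚ K ≤ d) (he : (discr K).natAbs ≤ 2 ^ e) :
    classNumber K ≤ 2 ^ classExp d e := by
  classical
  choose I hI hN using exists_rep hd he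
  rw [classNumber, ← card_univ, ← card_image_of_injective univ
    (fun c c' (h : (I c : Ideal (𝓞 K)) = I c') => by rw [← hI c, ← hI c', Subtype.ext h])]
  refine card_ideals_le hd fun J hJ => ?_
  obtain ⟨c, -, rfl⟩ := mem_image.1 hJ
  exact ⟨nonZeroDivisors.coe_ne_zero _, hN c⟩

/-- The size of the generators. -/
def genSize (d e g : ℕ) : ℕ :=
  EffectiveUnits.reducedSize d (UnitSystem.unitBound d e) (g * d * 2 ^ classExp d e)

/-- **Generators of the smooth numbers**, up to units and powers. -/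
theorem exists_generators {d e g : ℕ} (hd : finrank ℚ K ≤ d) (he : (discr K).natAbs ≤ 2 ^ e) :
    ∃ (P : Finset (Ideal (𝓞 K))) (π : P → 𝓞 K), P.card ≤ 2 ^ countExp d (g * d) ∧
      (∀ q q', q ≠ q' → IsCoprime (π q) (π q')) ∧ (∀ q, π q ≠ 0) ∧
      (∀ q (σ : K →+* ℂ), |Real.log ‖σ (π q : K)‖| ≤ (genSize d e g : ℕ)) ∧
      ∀ a : 𝓞 K, a ≠ 0 → Smooth g (Algebra.norm ℤ a).natAbs →
        ∃ (ε : (𝓞 K)ˣ) (k : P → ℕ), a ^ classNumber K = (ε : 𝓞 K) * ∏ q, π q ^ k q ∧
          ∀ q, 2 ^ k q ≤ (Algebra.norm ℤ a).natAbs := by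
  classical
  obtain ⟨u, hu, huh⟩ := UnitSystem.exists_unit_system (K := K) rfl he
  have hH : classNumber K ≠ 0 := Fintype.card_ne_zero
  have hfin : {I : Ideal (𝓞 K) | Ideal.absNorm I ≤ 2 ^ (g * d)}.Finite :=
    Ideal.finite_setOfPred_absNorm_le _
  set P := hfin.toFinset.filter (fun I => I ≠ ⊥ ∧ I.IsPrime) with hP
  have hPmem : ∀ q ∈ P, Ideal.absNorm q ≤ 2 ^ (g * d) ∧ q ≠ ⊥ ∧ q.IsPrime := fun q hq =>
    ⟨by simpa using hfin.mem_toFinset.1 (mem_filter.1 hq).1, (mem_filter.1 hq).2⟩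
  have hgen : ∀ q : P, ∃ z : 𝓞 K, Ideal.span {z} = (q : Ideal (𝓞 K)) ^ classNumber K ∧
      ∀ σ : K →+* ℂ, |Real.log ‖σ (z : K)‖| ≤ (genSize d e g : ℕ) := fun q => by
    obtain ⟨hqN, hq0, -⟩ := hPmem q q.2
    set Q : (Ideal (𝓞 K))⁰ := ⟨q, mem_nonZeroDivisors_iff_ne_zero.2 hq0⟩
    have h1 : ClassGroup.mk0 (Q ^ classNumber K) = 1 := by
      rw [map_pow, classNumber, pow_card_eq_one]
    obtain ⟨z₀, hz₀⟩ := (ClassGroup.mk0_eq_one_iff (Q ^ classNumber K).2).1 h1
    rw [SubmonoidClass.coe_pow] at hz₀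
    have hz0 : z₀ ≠ 0 := fun h => pow_ne_zero (classNumber K) hq0 (by
      rw [hz₀, h, Ideal.zero_eq_bot]; simp)
    have hzN : (Algebra.norm ℤ z₀).natAbs ≤ 2 ^ (g * d * 2 ^ classExp d e) := by
      rw [← Ideal.absNorm_span_singleton, show Ideal.span {z₀} = (q : Ideal (𝓞 K)) ^ classNumber K
        from hz₀.symm, map_pow, pow_mul]
      exact (Nat.pow_le_pow_left hqN _).trans
        (Nat.pow_le_pow_right Nat.one_le_two_pow (classNumber_le hd he))
    have hmono : UnitSystem.unitBound (finrank ℚ K) e ≤ UnitSystem.unitBound d e := by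
      simp only [UnitSystem.unitBound]
      gcongr
      · norm_num
    obtain ⟨k, γ, w, hγ, -, -, hlog⟩ := EffectiveUnits.exists_reduced hd hu
      (fun i σ => (huh i σ).trans (Nat.cast_le.2 hmono)) hz0 hzN
    refine ⟨γ, ?_, hlog⟩
    have h2 : γ * ((UnitExponents.unitPow u k : (𝓞 K)ˣ) : 𝓞 K) = z₀ :=
      FaithfulSMul.algebraMap_injective (𝓞 K) K (by rw [map_mul]; exact hγ)
    refine Eq.trans ?_ hz₀.symm
    rw [← h2]
    exact (Ideal.span_singleton_mul_right_unit (Units.isUnit _) γ).symm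
  choose π hπ hπlog using hgen
  have hπ0 : ∀ q, π q ≠ 0 := fun q h => pow_ne_zero (classNumber K) (hPmem q q.2).2.1
    (by rw [← hπ q, h]; simp)
  refine ⟨P, π, card_ideals_le hd fun q hq => ⟨(hPmem q hq).2.1, (hPmem q hq).1⟩,
    fun q q' hne => ?_, hπ0, hπlog, fun a ha hsm => ?_⟩
  · obtain ⟨-, hq0, hqp⟩ := hPmem q q.2
    obtain ⟨-, hq'0, hq'p⟩ := hPmem q' q'.2
    rw [← Ideal.isCoprime_span_singleton_iff, hπ, hπ]
    exact (Ideal.isCoprime_iff_sup_eq.2 ((hqp.isMaximal hq0).coprime_of_ne (hq'p.isMaximal hq'0)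
      fun h => hne (Subtype.ext h))).pow
  set I := Ideal.span {a} with hI
  have hI0 : I ≠ 0 := by simpa [hI, Ideal.zero_eq_bot] using ha
  set s := normalizedFactors I with hs
  have hsP : ∀ q ∈ s, q ∈ P := fun q hq => by
    have hqprime := prime_of_normalized_factor q hq
    have hqp := Ideal.isPrime_of_prime hqprime
    have hqdvd : Ideal.absNorm q ∣ (Algebra.norm ℤ a).natAbs := by
      rw [← Ideal.absNorm_span_singleton]
      exact map_dvd Ideal.absNorm (dvd_of_mem_normalizedFactors hq)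
    have hN1 : Ideal.absNorm q ≠ 1 := mt Ideal.absNorm_eq_one_iff.1 hqp.ne_top
    obtain ⟨r, hr, hrq⟩ : ∃ r : ℕ, r.Prime ∧ (r : 𝓞 K) ∈ q := by
      by_contra hno
      push Not at hno
      have h0 : Ideal.absNorm q ≠ 0 := mt Ideal.absNorm_eq_zero_iff.1 hqprime.ne_zero
      have hall : ∀ n : ℕ, n ≠ 0 → (n : 𝓞 K) ∉ q := fun n => by
        induction n using induction_on_primes with
        | zero => simp
        | one => simp [← Ideal.eq_top_iff_one, hqp.ne_top]
        | prime_mul p n hp ih =>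
          intro hn hmem
          rw [Nat.cast_mul] at hmem
          rcases hqp.mem_or_mem hmem with h | h
          · exact hno p hp h
          · exact ih (fun h0 => hn (by simp [h0])) h
      exact hall _ h0 (Ideal.absNorm_mem q)
    have hdvd : Ideal.absNorm q ∣ r ^ finrank ℚ K := by
      have h1 := Ideal.absNorm_dvd_norm_of_mem hrq
      rw [← map_natCast (algebraMap ℤ (𝓞 K)), Algebra.norm_algebraMap,
        RingOfIntegers.rank] at h1
      exact_mod_cast h1
    obtain ⟨f, hf, hfN⟩ := (Nat.dvd_prime_pow hr).1 hdvd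
    have hf0 : f ≠ 0 := fun h => hN1 (by rw [hfN, h, pow_zero])
    have hrg : r ≤ 2 ^ g := hsm r hr ((dvd_pow_self r hf0).trans (hfN ▸ hqdvd))
    refine mem_filter.2 ⟨hfin.mem_toFinset.2 ?_, hqprime.ne_zero, hqp⟩
    show Ideal.absNorm q ≤ _
    rw [hfN, pow_mul]
    exact (Nat.pow_le_pow_left hrg f).trans (Nat.pow_le_pow_right Nat.one_le_two_pow (hf.trans hd))
  have hprod : I = ∏ q : P, (q : Ideal (𝓞 K)) ^ s.count (q : Ideal (𝓞 K)) := by
    conv_lhs => rw [← Ideal.prod_normalizedFactors_eq_self hI0, ← hs, prod_multiset_count]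
    rw [prod_coe_sort P fun q => q ^ s.count q]
    exact prod_subset (fun q hq => hsP q (Multiset.mem_toFinset.1 hq)) fun q _ hq => by
      rw [Multiset.count_eq_zero.2 fun h => hq (Multiset.mem_toFinset.2 h), pow_zero]
  have hspan : Ideal.span {a ^ classNumber K} =
      Ideal.span {∏ q : P, π q ^ s.count (q : Ideal (𝓞 K))} := by
    rw [← Ideal.span_singleton_pow, ← hI, hprod, ← Ideal.prod_span_singleton, ← prod_pow]
    refine prod_congr rfl fun q _ => ?_
    rw [← Ideal.span_singleton_pow, hπ, ← pow_mul, ← pow_mul, mul_comm]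
  obtain ⟨ε, hε⟩ := Ideal.span_singleton_eq_span_singleton.1 hspan.symm
  refine ⟨ε, fun q => s.count (q : Ideal (𝓞 K)), by rw [← hε, mul_comm], fun q => ?_⟩
  obtain ⟨-, hq0, hqp⟩ := hPmem q q.2
  have h2 : 2 ≤ Ideal.absNorm (q : Ideal (𝓞 K)) := by
    have := mt Ideal.absNorm_eq_zero_iff.1 hq0
    have := mt Ideal.absNorm_eq_one_iff.1 hqp.ne_top
    omega
  refine (Nat.pow_le_pow_left h2 _).trans ?_
  rw [← Ideal.absNorm_span_singleton, ← hI, ← map_pow]
  refine Nat.le_of_dvd (Nat.pos_of_ne_zero (mt Ideal.absNorm_eq_zero_iff.1 hI0))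
    (map_dvd Ideal.absNorm ?_)
  rw [hprod]
  exact dvd_prod_of_mem (fun q : P => (q : Ideal (𝓞 K)) ^ s.count (q : Ideal (𝓞 K))) (mem_univ q)

end FA.BakerExplicit.EffectiveSUnits

end
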