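import Fermat.Agent.BakerExplicit.PadicAlgebraicMain
import Mathlib.NumberTheory.Padics.Complex
import Mathlib.RingTheory.Norm.Basic
import Mathlib.RingTheory.Ideal.Norm.AbsNorm

/-!
# The `p`-adic absolute values of a number field through its embeddings

An algebraic integer has absolute value at most `1` at every embedding into an ultrametric field;
those of absolute value `1` have a power of bounded exponent near `1`; the exponent of `p` in the
norm is bounded through the embeddings in `ℂ_[p]`.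
-/

set_option autoImplicit false
set_option linter.unusedSectionVars false

noncomputable section

namespace FA.BakerExplicit.EffectiveSUnits

open Finset FA.Brumer NumberField Module

variable {K : Type*} [Field K] [NumberField K]

section Ultrametric

variable {C : Type*} [NormedField C] [IsUltrametricDist C]

omit [NumberField K] in
theorem norm_map_le_one (ψ : K →+* C) (x : 𝓞 K) : ‖ψ (x : K)‖ ≤ 1 :=
  norm_le_one_of_integral (x.isIntegral_coe.map ψ.toIntAlgHom)

omit [NumberField K] in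
/-- A divisor is at least as large. -/
theorem norm_map_le_of_dvd (ψ : K →+* C) {x y : 𝓞 K} (h : x ∣ y) :
    ‖ψ (y : K)‖ ≤ ‖ψ (x : K)‖ := by
  obtain ⟨z, rfl⟩ := h
  simp only [map_mul, norm_mul]
  exact mul_le_of_le_one_right (norm_nonneg _) (norm_map_le_one ψ z)

omit [NumberField K] in
theorem norm_map_unit (ψ : K →+* C) (u : (𝓞 K)ˣ) : ‖ψ (u : K)‖ = 1 :=
  le_antisymm (norm_map_le_one ψ (u : 𝓞 K)) (by
    simpa using norm_map_le_of_dvd ψ (u.isUnit.dvd : (u : 𝓞 K) ∣ 1))

omit [NumberField K] in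
/-- Of coprime numbers only one is small. -/
theorem not_isCoprime_of_norm_lt_one (ψ : K →+* C) {x y : 𝓞 K} (hx : ‖ψ (x : K)‖ < 1)
    (hy : ‖ψ (y : K)‖ < 1) : ¬IsCoprime x y := fun ⟨r, s, h⟩ => by
  have h1 := congrArg (fun z : 𝓞 K => ψ (z : K)) h
  simp only [map_add, map_mul, map_one] at h1
  have h2 := IsUltrametricDist.norm_add_le_max (ψ (r : K) * ψ (x : K)) (ψ (s : K) * ψ (y : K))
  rw [h1, norm_one, norm_mul, norm_mul] at h2
  rcases le_max_iff.1 h2 with h3 | h3
  · exact (h3.trans (mul_le_of_le_one_left (norm_nonneg _) (norm_map_le_one ψ r))).not_gt hx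
  · exact (h3.trans (mul_le_of_le_one_left (norm_nonneg _) (norm_map_le_one ψ s))).not_gt hy

end Ultrametric

section Padic

variable {p : ℕ} [hp : Fact p.Prime] {C : Type*} [NontriviallyNormedField C] [CompleteSpace C]
  [IsUltrametricDist C] [hC : NormedAlgebra ℚ_[p] C]

include hp hC in
/-- **A bounded power of every number of absolute value `1` is near `1`.** -/
theorem exists_exponent {d : ℕ} (hd : finrank ℚ K ≤ d) (ψ : K →+* C) :
    ∃ N : ℕ, 1 ≤ N ∧ N ≤ p ^ (3 * d) ∧
      ∀ x : 𝓞 K, ‖ψ (x : K)‖ = 1 → ‖ψ (x : K) ^ N - 1‖ ≤ rad p := by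
  classical
  let J : Ideal (𝓞 K) :=
    { carrier := {x | ‖ψ (x : K)‖ ≤ rad p}
      add_mem' := fun {x y} hx hy => by
        simp only [Set.mem_ofPred_eq, map_add] at hx hy ⊢
        exact (IsUltrametricDist.norm_add_le_max _ _).trans (max_le hx hy)
      zero_mem' := by
        simp only [Set.mem_ofPred_eq, map_zero, norm_zero]
        exact (rad_pos (p := p)).le
      smul_mem' := fun r x hx => by
        simp only [Set.mem_ofPred_eq, smul_eq_mul, map_mul, norm_mul] at hx ⊢
        exact (mul_le_of_le_one_left (norm_nonneg _) (norm_map_le_one ψ r)).trans hx }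
  have hJ : ∀ z : 𝓞 K, z ∈ J ↔ ‖ψ (z : K)‖ ≤ rad p := fun z => Iff.rfl
  set I : Ideal (𝓞 K) := Ideal.span {((p : 𝓞 K)) ^ 3}
  have hIJ : I ≤ J := by
    rw [Ideal.span_le, Set.singleton_subset_iff, SetLike.mem_coe, hJ]
    simp only [map_pow, map_natCast, norm_pow, norm_prime p, inv_pow, rad, le_refl]
  have hI : I ≠ ⊥ := by
    simp only [I, ne_eq, Ideal.span_singleton_eq_bot]
    exact pow_ne_zero 3 (Nat.cast_ne_zero.mpr hp.out.ne_zero)
  have : Finite (𝓞 K ⧸ I) := I.finiteQuotientOfFreeOfNeBot hI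
  have : Finite (𝓞 K ⧸ J) := Finite.of_surjective _ (Ideal.Quotient.factor_surjective hIJ)
  refine ⟨Nat.card (𝓞 K ⧸ J)ˣ, Nat.card_pos, ?_, fun x hx => ?_⟩
  · refine (Nat.card_le_card_of_injective _ Units.val_injective).trans
      ((Nat.card_le_card_of_surjective _ (Ideal.Quotient.factor_surjective hIJ)).trans ?_)
    rw [show Nat.card (𝓞 K ⧸ I) = Ideal.absNorm I from rfl]
    simp only [I, Ideal.absNorm_span_singleton, map_pow, ← map_natCast (algebraMap ℤ (𝓞 K)),
      Algebra.norm_algebraMap, RingOfIntegers.rank, Int.natAbs_pow, Int.natAbs_natCast]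
    rw [← pow_mul, mul_comm 3 d]
    exact Nat.pow_le_pow_right hp.out.pos (Nat.mul_le_mul_right 3 hd)
  · have hu : IsUnit (Ideal.Quotient.mk J x) := by
      refine isUnit_iff_mem_nonZeroDivisors_of_finite.2
        (mem_nonZeroDivisors_iff_right.2 fun z hz => ?_)
      obtain ⟨z, rfl⟩ := Ideal.Quotient.mk_surjective z
      rw [← map_mul, Ideal.Quotient.eq_zero_iff_mem, hJ] at hz
      simp only [map_mul, norm_mul, hx, mul_one] at hz
      rwa [Ideal.Quotient.eq_zero_iff_mem, hJ]
    have h1 := congrArg Units.val (pow_card_eq_one' (x := hu.unit))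
    rw [Units.val_pow_eq_pow_val, Units.val_one, IsUnit.unit_spec, ← map_pow,
      ← map_one (Ideal.Quotient.mk J), Ideal.Quotient.eq, hJ] at h1
    simpa only [map_sub, map_pow, map_one] using h1

include hp hC in
/-- An algebraic integer is not small at any embedding. -/
theorem inv_pow_le_norm_map {d s : ℕ} (hd : finrank ℚ K ≤ d) (ψ : K →+* C) {x : 𝓞 K}
    (hx : x ≠ 0) (hxs : ∀ σ : K →+* ℂ, ‖σ (x : K)‖ ≤ (2 : ℝ) ^ s) :
    ((p : ℝ) ^ (s * d))⁻¹ ≤ ‖ψ (x : K)‖ := by
  have h1 := one_le_norm_mul_house_pow p hx ψ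
  have h2 : house (x : K) ^ finrank ℚ K ≤ (p : ℝ) ^ (s * d) := by
    refine (pow_le_pow_left₀ (house_nonneg _)
      (Algebraic.house_le_of_forall (by positivity) hxs) _).trans ?_
    rw [← pow_mul]
    exact (pow_le_pow_right₀ one_le_two (Nat.mul_le_mul_left s hd)).trans
      (pow_le_pow_left₀ two_pos.le (by exact_mod_cast hp.out.two_le) _)
  rw [inv_le_iff_one_le_mul₀ (pow_pos (prime_pos p) _)]
  exact h1.trans (mul_le_mul_of_nonneg_left h2 (norm_nonneg _))

end Padic

/-- **The exponent of `p` in the norm**, through the embeddings in `ℂ_[p]`. -/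
theorem padicValNat_norm_le {d p M : ℕ} [hp : Fact p.Prime] (hd : finrank ℚ K ≤ d) {x : 𝓞 K}
    (h : ∀ ψ : K →+* ℂ_[p], ((p : ℝ) ^ M)⁻¹ ≤ ‖ψ (x : K)‖) :
    padicValNat p (Algebra.norm ℤ x).natAbs ≤ d * M := by
  classical
  set v := padicValNat p (Algebra.norm ℤ x).natAbs
  have h1 := Algebra.norm_eq_prod_embeddings ℚ ℂ_[p] (x : K)
  rw [← Algebra.coe_norm_int, eq_ratCast, Rat.cast_intCast] at h1
  have h2 := congrArg (‖·‖) h1
  simp only [norm_prod] at h2
  have h3 : ((p : ℝ) ^ M)⁻¹ ^ finrank ℚ K ≤ ‖((Algebra.norm ℤ x : ℤ) : ℂ_[p])‖ := by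
    rw [h2, ← AlgHom.card ℚ K ℂ_[p], ← card_univ, ← prod_const]
    exact prod_le_prod (fun _ _ => by positivity) fun σ _ => h σ.toRingHom
  have hp0 : (0 : ℝ) < p := prime_pos p
  have h4 : ‖((Algebra.norm ℤ x : ℤ) : ℂ_[p])‖ ≤ ((p : ℝ) ^ v)⁻¹ := by
    rw [norm_intCast p, ← zpow_natCast, ← zpow_neg]
    exact (Padic.norm_int_le_pow_iff_dvd _ v).2
      (Int.natCast_dvd.2 (pow_padicValNat_dvd))
  have h5 := h3.trans h4
  rw [inv_pow, ← pow_mul, inv_le_inv₀ (by positivity) (by positivity)] at h5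
  refine le_trans ((pow_le_pow_iff_right₀ (one_lt_prime p)).1 h5) ?_
  rw [mul_comm d]
  exact Nat.mul_le_mul_left M hd

end FA.BakerExplicit.EffectiveSUnits

end
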