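import Fermat.Agent.BakerExplicit.BinomialArch
import Fermat.Agent.BakerExplicit.SUnitGenerators
import Fermat.Agent.BakerExplicit.SUnitPlaces

/-!
# Binomials at a `p`-adic place

The common ideal of two numbers, raised to the class number, has a reduced generator. This turns a
binomial into one in numbers of absolute value `1`, to which the `p`-adic theorem of Baker applies.
Two numbers with no ratio a root of unity differ at an archimedean or a small `p`-adic place.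
-/

set_option autoImplicit false

noncomputable section

namespace FA.BakerExplicit.FourTerms

open Finset NumberField NumberField.Units Module EffectiveSUnits TernaryRecurrence FA.Brumer
open scoped nonZeroDivisors

/-- The size of the coprime parts. -/
def partHeight (d e h : ℕ) : ℕ :=
  h * 2 ^ classExp d e +
    2 * EffectiveUnits.reducedSize d (UnitSystem.unitBound d e) (h * d * 2 ^ classExp d e)

/-- The loss of a `p`-adic binomial, for `p ≤ 2 ^ g`. -/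
def padicLoss (d e h g l : ℕ) : ℕ :=
  h * d + d + 1 + 2 * baseAlg 4 d (2 ^ (3 * (g * d)) * partHeight d e h + 1) l ^ kappa 4

/-- The `p`-adic gap. -/
def padicGap (d e g : ℕ) : ℕ := 2 ^ classExp d e * 2 ^ (g * d)

/-- The size of the primes which separate two numbers. -/
def placePrime (d e h : ℕ) : ℕ := partHeight d e h * d

variable {K : Type*} [Field K] [NumberField K]

/-- **The common part.** -/
theorem exists_coprime_parts {d e h : ℕ} (hd : finrank ℚ K ≤ d) (he : (discr K).natAbs ≤ 2 ^ e)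
    {x y : 𝓞 K} (hx : x ≠ 0) (hy : y ≠ 0) (hxh : HouseLe h x) (hyh : HouseLe h y) :
    ∃ z u w : 𝓞 K, x ^ classNumber K = z * u ∧ y ^ classNumber K = z * w ∧ z ≠ 0 ∧ u ≠ 0 ∧
      w ≠ 0 ∧ IsCoprime u w ∧ HouseLe (partHeight d e h) u ∧ HouseLe (partHeight d e h) w := by
  classical
  set H := classNumber K
  set I : Ideal (𝓞 K) := Ideal.span {x, y} with hI
  have hxI : x ∈ I := Ideal.subset_span (Set.mem_insert _ _)
  have hyI : y ∈ I := Ideal.subset_span (Set.mem_insert_of_mem _ rfl)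
  have hI0 : I ≠ ⊥ := fun h0 => hx (by rwa [h0, Ideal.mem_bot] at hxI)
  obtain ⟨X, hX⟩ := Ideal.dvd_iff_le.2 ((Ideal.span_singleton_le_iff_mem I).2 hxI)
  obtain ⟨Y, hY⟩ := Ideal.dvd_iff_le.2 ((Ideal.span_singleton_le_iff_mem I).2 hyI)
  have hXY : IsCoprime X Y := by
    rw [Ideal.isCoprime_iff_sup_eq]
    refine mul_left_cancel₀ hI0 ?_
    rw [Ideal.mul_sup, ← hX, ← hY, ← Ideal.span_insert, ← Ideal.one_eq_top, mul_one, hI]
  set Q : (Ideal (𝓞 K))⁰ := ⟨I, mem_nonZeroDivisors_iff_ne_zero.2 hI0⟩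
  have h1 : ClassGroup.mk0 (Q ^ H) = 1 := by
    rw [map_pow]
    exact pow_card_eq_one
  obtain ⟨z₀, hz₀⟩ := (ClassGroup.mk0_eq_one_iff (Q ^ H).2).1 h1
  rw [SubmonoidClass.coe_pow] at hz₀
  change I ^ H = Ideal.span {z₀} at hz₀
  have hz0 : z₀ ≠ 0 := fun h => pow_ne_zero H hI0 (by
    rw [hz₀, h, Ideal.zero_eq_bot]; simp)
  have hH : H ≤ 2 ^ classExp d e := classNumber_le hd he
  have hzN : (Algebra.norm ℤ z₀).natAbs ≤ 2 ^ (h * d * 2 ^ classExp d e) := by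
    have hdvd : z₀ ∣ x ^ H := by
      rw [← Ideal.mem_span_singleton, ← hz₀]
      exact Ideal.pow_mem_pow hxI H
    refine (Nat.le_of_dvd (Int.natAbs_pos.2 (Algebra.norm_ne_zero_iff.2 (pow_ne_zero H hx)))
      (Int.natAbs_dvd_natAbs.2 (map_dvd (Algebra.norm ℤ) hdvd))).trans ?_
    rw [map_pow, Int.natAbs_pow, pow_mul _ (h * d), pow_mul 2 h]
    exact (Nat.pow_le_pow_left (EffectiveThue.norm_le_of_bounded hd Nat.one_le_two_pow
      fun σ => (hxh σ).trans_eq (by push_cast; rfl)) H).trans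
        (Nat.pow_le_pow_right (Nat.one_le_pow _ _ (Nat.two_pow_pos h)) hH)
  obtain ⟨v, hv, hvh⟩ := UnitSystem.exists_unit_system (K := K) rfl he
  have hmono : UnitSystem.unitBound (finrank ℚ K) e ≤ UnitSystem.unitBound d e := by
    simp only [UnitSystem.unitBound]
    gcongr
    · norm_num
  obtain ⟨k, z, -, hzU, -, hzne, hlog⟩ := EffectiveUnits.exists_reduced hd hv
    (fun i σ => (hvh i σ).trans (Nat.cast_le.2 hmono)) hz0 hzN
  have hspan : Ideal.span {z} = I ^ H := by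
    refine Eq.trans ?_ hz₀.symm
    have h2 : z * ((UnitExponents.unitPow v k : (𝓞 K)ˣ) : 𝓞 K) = z₀ :=
      FaithfulSMul.algebraMap_injective (𝓞 K) K (by rw [map_mul]; exact hzU)
    rw [← h2]
    exact (Ideal.span_singleton_mul_right_unit (Units.isUnit _) z).symm
  have hpart : ∀ {t : 𝓞 K} {T : Ideal (𝓞 K)}, t ≠ 0 → HouseLe h t → Ideal.span {t} = I * T →
      ∃ u, t ^ H = z * u ∧ u ≠ 0 ∧ Ideal.span {u} = T ^ H ∧
        HouseLe (partHeight d e h) u := fun {t T} ht0 hth hT => by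
    have hmem : z ∣ t ^ H := by
      rw [← Ideal.mem_span_singleton, hspan]
      refine Ideal.pow_mem_pow ?_ H
      exact (Ideal.le_of_dvd (Dvd.intro _ hT.symm)) (Ideal.mem_span_singleton_self t)
    obtain ⟨u, hu⟩ := hmem
    refine ⟨u, hu, fun h0 => pow_ne_zero H ht0 (by rw [hu, h0, mul_zero]), ?_, fun σ => ?_⟩
    · refine mul_left_cancel₀ (pow_ne_zero H hI0) ?_
      rw [← mul_pow, ← hT, Ideal.span_singleton_pow, hu, ← hspan,
        Ideal.span_singleton_mul_span_singleton]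
    · have e1 := congrArg (fun a : 𝓞 K => ‖σ (a : K)‖) hu
      simp only [map_pow, map_mul, norm_pow, norm_mul] at e1
      have hσz : 0 < ‖σ (z : K)‖ :=
        norm_pos_iff.2 ((map_ne_zero σ).2 (RingOfIntegers.coe_ne_zero_iff.2 hzne))
      have h3 := EffectiveThue.le_two_pow_of_abs_log_le (inv_pos.2 hσz)
        (by rw [Real.log_inv, abs_neg]; exact hlog σ)
      rw [partHeight, pow_add, show ‖σ (u : K)‖ = ‖σ (t : K)‖ ^ H * ‖σ (z : K)‖⁻¹ by
        rw [e1]; field_simp, pow_mul]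
      exact mul_le_mul ((pow_le_pow_left₀ (norm_nonneg _) (hth σ) H).trans
        (pow_le_pow_right₀ (one_le_pow₀ one_le_two) hH)) h3 (inv_nonneg.2 hσz.le) (by positivity)
  obtain ⟨u, hu, hu0, huX, huh⟩ := hpart hx hxh hX
  obtain ⟨w, hw, hw0, hwY, hwh⟩ := hpart hy hyh hY
  refine ⟨z, u, w, hu, hw, hzne, hu0, hw0, ?_, huh, hwh⟩
  rw [← Ideal.isCoprime_span_singleton_iff, huX, hwY]
  exact hXY.pow

variable {p : ℕ} [hp : Fact p.Prime] (ψ : K →+* ℂ_[p])

omit [NumberField K] in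
/-- Coprime numbers of equal absolute value are units there. -/
theorem norm_eq_one_of_coprime {u w : 𝓞 K} (hc : IsCoprime u w)
    (h : ‖ψ (u : K)‖ = ‖ψ (w : K)‖) : ‖ψ (u : K)‖ = 1 :=
  le_antisymm (norm_map_le_one ψ u) (not_lt.1 fun hlt =>
    not_isCoprime_of_norm_lt_one ψ hlt (h ▸ hlt) hc)

omit [NumberField K] in
/-- A difference of equal powers. -/
theorem norm_pow_sub_pow_le {X Y : 𝓞 K} {ρ : ℝ} (hX : ‖ψ (X : K)‖ = ρ) (hY : ‖ψ (Y : K)‖ = ρ)
    (E : ℕ) :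
    ‖ψ ((X ^ E - Y ^ E : 𝓞 K) : K)‖ ≤ ‖ψ ((X - Y : 𝓞 K) : K)‖ * ρ ^ (E - 1) := by
  rw [← geom_sum₂_mul X Y E, mul_comm (∑ _ ∈ _, _)]
  simp only [map_mul, norm_mul]
  refine mul_le_mul_of_nonneg_left ?_ (norm_nonneg _)
  rw [map_sum, map_sum]
  refine IsUltrametricDist.norm_sum_le_of_forall_le_of_nonneg
    (pow_nonneg (hX ▸ norm_nonneg _) _) fun i hi => ?_
  simp only [map_mul, map_pow, norm_mul, norm_pow, hX, hY]
  rw [← pow_add]
  have := mem_range.1 hi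
  rw [show i + (E - 1 - i) = E - 1 by omega]

set_option maxHeartbeats 1000000 in
/-- **The `p`-adic bound for a binomial.** -/
theorem padic_binomial {d e h g n : ℕ} (hd : finrank ℚ K ≤ d) (he : (discr K).natAbs ≤ 2 ^ e)
    (hpg : p ≤ 2 ^ g) {A B x y : 𝓞 K} (hA : A ≠ 0) (hB : B ≠ 0) (hx : x ≠ 0) (hy : y ≠ 0)
    (hAh : HouseLe h A) (hBh : HouseLe h B) (hxh : HouseLe h x) (hyh : HouseLe h y)
    (hψ : ‖ψ (x : K)‖ = ‖ψ (y : K)‖) (hne : A * x ^ n + B * y ^ n ≠ 0) :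
    ‖ψ (x : K)‖ ^ n * ((p : ℝ) ^ padicLoss d e h g (Nat.log 2 (n + 1) + 1))⁻¹ ≤
      ‖ψ ((A * x ^ n + B * y ^ n : 𝓞 K) : K)‖ := by
  classical
  set l := Nat.log 2 (n + 1) + 1 with hl
  set h' := 2 ^ (3 * (g * d)) * partHeight d e h + 1 with hh'
  set M := 2 * baseAlg 4 d h' l ^ kappa 4 with hM
  have hp0 : (0 : ℝ) < p := prime_pos p
  have hψ0 : ∀ {a : 𝓞 K}, a ≠ 0 → 0 < ‖ψ (a : K)‖ := fun ha =>
    norm_pos_iff.2 ((map_ne_zero ψ).2 (RingOfIntegers.coe_ne_zero_iff.2 ha))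
  set X := A * x ^ n with hX
  set Y := -B * y ^ n with hY
  set ρ := ‖ψ (X : K)‖ with hρ
  have hX0 : X ≠ 0 := mul_ne_zero hA (pow_ne_zero n hx)
  have hY0 : Y ≠ 0 := mul_ne_zero (neg_ne_zero.2 hB) (pow_ne_zero n hy)
  have hsum : A * x ^ n + B * y ^ n = X - Y := by rw [hX, hY]; ring
  have hρle : ‖ψ (x : K)‖ ^ n * ((p : ℝ) ^ (h * d))⁻¹ ≤ ρ := by
    rw [hρ, hX]
    simp only [map_mul, map_pow, norm_mul, norm_pow]
    rw [mul_comm]
    exact mul_le_mul_of_nonneg_right (inv_pow_le_norm_map hd ψ hA hAh) (by positivity)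
  suffices hgoal : ρ * ((p : ℝ) ^ (d + 1 + M))⁻¹ ≤ ‖ψ ((X - Y : 𝓞 K) : K)‖ by
    rw [hsum, padicLoss, ← hh', ← hM, show h * d + d + 1 + M = h * d + (d + 1 + M) by ring,
      pow_add, mul_inv, ← mul_assoc]
    exact (mul_le_mul_of_nonneg_right hρle (by positivity)).trans hgoal
  have hone : ρ * ((p : ℝ) ^ (d + 1 + M))⁻¹ ≤ ρ := mul_le_of_le_one_right (norm_nonneg _)
    (inv_le_one_of_one_le₀ (one_le_pow₀ (one_lt_prime p).le))
  by_cases hAB : ‖ψ (A : K)‖ = ‖ψ (B : K)‖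
  swap
  · have hne' : ‖ψ (X : K)‖ ≠ ‖-ψ (Y : K)‖ := by
      simp only [hX, hY, map_mul, map_pow, map_neg, norm_neg, norm_mul, norm_pow, hψ]
      exact fun he' => hAB (mul_right_cancel₀ (pow_ne_zero n (hψ0 hy).ne') he')
    refine hone.trans ?_
    simp only [map_sub]
    rw [sub_eq_add_neg,
      IsUltrametricDist.norm_add_eq_max_of_norm_ne_norm hne']
    exact le_max_left _ _
  have hρY : ‖ψ (Y : K)‖ = ρ := by
    simp only [hρ, hX, hY, map_mul, map_pow, map_neg, norm_neg, norm_mul, norm_pow, hψ, hAB]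
  obtain ⟨zA, a, b, ea, eb, hzA, ha, hb, hab, hah, hbh⟩ :=
    exists_coprime_parts hd he hA (neg_ne_zero.2 hB) hAh hBh.neg
  obtain ⟨z, u, w, eu, ew, hz, hu, hw, huw, huh, hwh⟩ := exists_coprime_parts hd he hx hy hxh hyh
  have hHpos : 0 < classNumber K := Fintype.card_pos
  set H := classNumber K
  have hunit : ∀ {t s c q r : 𝓞 K}, c ≠ 0 → t ^ H = c * q → s ^ H = c * r → IsCoprime q r →
      ‖ψ (t : K)‖ = ‖ψ (s : K)‖ → ‖ψ (q : K)‖ = 1 ∧ ‖ψ (r : K)‖ = 1 :=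
      fun {t s c q r} hc et es hqr hts => by
    have e1 := congrArg (fun a : 𝓞 K => ‖ψ (a : K)‖) et
    have e2 := congrArg (fun a : 𝓞 K => ‖ψ (a : K)‖) es
    simp only [map_pow, map_mul, norm_pow, norm_mul, hts] at e1 e2
    have heq := mul_left_cancel₀ (hψ0 hc).ne' (e1.symm.trans e2)
    exact ⟨norm_eq_one_of_coprime ψ hqr heq, norm_eq_one_of_coprime ψ hqr.symm heq.symm⟩
  obtain ⟨ha1, hb1⟩ := hunit hzA ea eb hab (by
    simp only [map_neg, norm_neg]; exact hAB)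
  obtain ⟨hu1, hw1⟩ := hunit hz eu ew huw hψ
  obtain ⟨N, hN1, hNle, hNp⟩ := exists_exponent (p := p) hd ψ
  set T : Fin 4 → 𝓞 K := ![a ^ N, u ^ N, b ^ N, w ^ N] with hT
  have hTh : ∀ i (σ : K →+* ℂ), ‖σ (T i : K)‖ ≤ (2 : ℝ) ^ h' := by
    have hN2 : N ≤ 2 ^ (3 * (g * d)) := hNle.trans (by
      rw [show 3 * (g * d) = g * (3 * d) by ring, pow_mul 2 g]
      exact Nat.pow_le_pow_left hpg _)
    have hq : ∀ {q : 𝓞 K}, HouseLe (partHeight d e h) q → ∀ σ : K →+* ℂ,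
        ‖σ ((q ^ N : 𝓞 K) : K)‖ ≤ (2 : ℝ) ^ h' := fun {q} hq σ => by
      simp only [map_pow, norm_pow]
      refine (pow_le_pow_left₀ (norm_nonneg _) (hq σ) N).trans ?_
      rw [← pow_mul]
      exact pow_le_pow_right₀ one_le_two (by
        rw [hh', mul_comm]
        exact (Nat.mul_le_mul_right _ hN2).trans (Nat.le_succ _))
    intro i
    fin_cases i
    · exact hq hah
    · exact hq huh
    · exact hq hbh
    · exact hq hwh
  have hT1 : ∀ i, ‖ψ (T i : K) - 1‖ ≤ rad p := by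
    intro i
    fin_cases i <;>
      simp only [hT, Fin.zero_eta, Fin.mk_one, Fin.reduceFinMk, Matrix.cons_val_zero,
        Matrix.cons_val_one, Matrix.cons_val, map_pow]
    exacts [hNp a ha1, hNp u hu1, hNp b hb1, hNp w hw1]
  set Z := (zA * z ^ n) ^ N with hZ
  have eX : X ^ (H * N) = Z * ∏ i, T i ^ (![1, n, 0, 0] : Fin 4 → ℕ) i := by
    rw [hX, mul_pow, ← pow_mul x, pow_mul A, ea, show n * (H * N) = H * (n * N) by ring,
      pow_mul x, eu, Fin.prod_univ_four]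
    simp [hT, hZ]
    ring
  have eY : Y ^ (H * N) = Z * ∏ i, T i ^ (![0, 0, 1, n] : Fin 4 → ℕ) i := by
    rw [hY, mul_pow, ← pow_mul y, pow_mul (-B), eb, show n * (H * N) = H * (n * N) by ring,
      pow_mul y, ew, Fin.prod_univ_four]
    simp [hT, hZ]
    ring
  by_cases hprod : ∏ i, T i ^ (![1, n, 0, 0] : Fin 4 → ℕ) i =
      ∏ i, T i ^ (![0, 0, 1, n] : Fin 4 → ℕ) i
  · have hYK : (Y : K) ≠ 0 := RingOfIntegers.coe_ne_zero_iff.2 hY0
    have h1 : ((X : K) / Y) ^ (H * N) = 1 := by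
      rw [div_pow, div_eq_one_iff_eq (pow_ne_zero _ hYK), ← map_pow, ← map_pow, eX, eY, hprod]
    have hEpos : 0 < H * N := Nat.mul_pos hHpos hN1
    obtain ⟨ζ, hζ⟩ : ∃ ζ : 𝓞 K, (ζ : K) = (X : K) / Y :=
      ⟨⟨(X : K) / Y, IsIntegral.of_pow (x := (X : K) / Y) hEpos (h1 ▸ isIntegral_one)⟩, rfl⟩
    simp only [RingOfIntegers.coe_eq_algebraMap] at hζ h1
    have hXζ : X = ζ * Y := RingOfIntegers.coe_injective (by
      simp only [map_mul, hζ, div_mul_cancel₀ _ hYK])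
    have hne1 : ζ - 1 ≠ 0 := fun h0 => hne (by rw [hsum, hXζ, sub_eq_zero.1 h0, one_mul, sub_self])
    have hζh : HouseLe 1 (ζ - 1) := fun σ => by
      simp only [map_sub, map_one]
      refine (norm_sub_le _ _).trans_eq ?_
      rw [norm_one, Complex.norm_eq_one_of_pow_eq_one (by rw [← map_pow, hζ, h1, map_one])
        hEpos.ne', pow_one]
      norm_num
    have h2 := inv_pow_le_norm_map (p := p) hd ψ hne1 hζh
    have e3 : ψ ((X - Y : 𝓞 K) : K) = ψ ((ζ - 1 : 𝓞 K) : K) * ψ (Y : K) := by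
      rw [hXζ]
      simp only [map_sub, map_mul, map_one]
      ring
    rw [e3, norm_mul, hρY, mul_comm]
    refine mul_le_mul_of_nonneg_right (le_trans ?_ h2) (norm_nonneg _)
    exact inv_anti₀ (by positivity) (pow_le_pow_right₀ (one_lt_prime p).le (by omega))
  have hnl : n ≤ 2 ^ l := by
    have := Nat.lt_pow_succ_log_self one_lt_two (n + 1)
    rw [hl]
    omega
  have hbig : ((p : ℝ) ^ (M + 1))⁻¹ ≤
      ‖ψ ((∏ i, T i ^ (![1, n, 0, 0] : Fin 4 → ℕ) i : 𝓞 K) : K) -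
        ψ ((∏ i, T i ^ (![0, 0, 1, n] : Fin 4 → ℕ) i : 𝓞 K) : K)‖ := le_of_not_gt fun hlt =>
    Nat.not_succ_le_self M (PadicAlgebraic.padic_baker_algebraic_bound hd ψ
      (Nat.le_add_left 1 _) hTh hT1 hprod
      (fun i => by have := Nat.one_le_two_pow (n := l); fin_cases i <;> simp <;> omega)
      (fun i => by have := Nat.one_le_two_pow (n := l); fin_cases i <;> simp <;> omega) hlt.le)
  have hgeom := norm_pow_sub_pow_le ψ rfl hρY (H * N)
  have hZρ : ‖ψ (Z : K)‖ = ρ ^ (H * N) := by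
    have e1 := congrArg (fun a : 𝓞 K => ‖ψ (a : K)‖) eX
    simp only [map_pow, map_mul, norm_pow, norm_mul, Fin.prod_univ_four] at e1
    simpa [hT, map_pow, norm_pow, ha1, hu1] using e1.symm
  have hEpos : 0 < H * N := Nat.mul_pos hHpos hN1
  obtain ⟨E, hE⟩ : ∃ E, H * N = E + 1 := ⟨H * N - 1, by omega⟩
  rw [eX, eY, ← mul_sub, hE, Nat.add_sub_cancel] at hgeom
  simp only [map_mul, map_sub, norm_mul] at hgeom
  rw [hZρ, hE, pow_succ, mul_assoc, mul_comm _ (ρ ^ E)] at hgeom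
  have hρpos : 0 < ρ := hψ0 hX0
  have h3 := le_of_mul_le_mul_left hgeom (pow_pos hρpos E)
  simp only [map_sub]
  refine le_trans (mul_le_mul_of_nonneg_left (le_trans ?_ hbig) hρpos.le) h3
  exact inv_anti₀ (by positivity) (pow_le_pow_right₀ (one_lt_prime p).le (by omega))

/-- A bounded power of a number below `1` is at most `1 / p`. -/
theorem norm_pow_le_inv {d : ℕ} (hd : finrank ℚ K ≤ d) {u : 𝓞 K} (hu : ‖ψ (u : K)‖ < 1) :
    ‖ψ (u : K)‖ ^ (p ^ d) ≤ (p : ℝ)⁻¹ := by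
  classical
  set J : Ideal (𝓞 K) := Ideal.span {(p : 𝓞 K)} with hJ
  have hJ0 : J ≠ ⊥ := by simpa [hJ, Ideal.span_singleton_eq_bot] using hp.out.ne_zero
  have : Finite (𝓞 K ⧸ J) := J.finiteQuotientOfFreeOfNeBot hJ0
  have : Fintype (𝓞 K ⧸ J) := Fintype.ofFinite _
  have hcard : Fintype.card (𝓞 K ⧸ J) ≤ p ^ d := by
    rw [← Nat.card_eq_fintype_card, show Nat.card (𝓞 K ⧸ J) = Ideal.absNorm J from rfl]
    simp only [hJ, Ideal.absNorm_span_singleton, ← map_natCast (algebraMap ℤ (𝓞 K)),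
      Algebra.norm_algebraMap, RingOfIntegers.rank, Int.natAbs_pow, Int.natAbs_natCast]
    exact Nat.pow_le_pow_right hp.out.pos hd
  obtain ⟨i, j, hne, hij⟩ := Fintype.exists_ne_map_eq_of_card_lt
    (fun i : Fin (p ^ d + 1) => Ideal.Quotient.mk J (u ^ (i : ℕ)))
    (by rw [Fintype.card_fin]; omega)
  wlog hlt : i < j generalizing i j
  · exact this j i hne.symm hij.symm (lt_of_le_of_ne (not_lt.1 hlt) hne.symm)
  rw [Ideal.Quotient.eq, hJ, Ideal.mem_span_singleton] at hij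
  have h1 := norm_map_le_of_dvd ψ hij
  simp only [map_natCast, norm_prime p] at h1
  refine le_trans ?_ h1
  have hij' : (i : ℕ) < j := hlt
  have h2 : ‖ψ (u : K)‖ ^ (j : ℕ) < ‖ψ (u : K)‖ ^ (i : ℕ) ∨ ‖ψ (u : K)‖ = 0 := by
    rcases eq_or_lt_of_le (norm_nonneg (ψ (u : K))) with h0 | h0
    · exact Or.inr h0.symm
    · exact Or.inl (pow_lt_pow_right_of_lt_one₀ h0 hu hij')
  simp only [map_sub, map_pow]
  rcases h2 with h2 | h2
  · rw [sub_eq_add_neg, IsUltrametricDist.norm_add_eq_max_of_norm_ne_norm (by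
      simp only [norm_neg, norm_pow]; exact h2.ne'), norm_neg, norm_pow, norm_pow]
    exact (pow_le_pow_of_le_one (norm_nonneg _) hu.le (by omega)).trans (le_max_left _ _)
  · rw [h2, zero_pow (pow_ne_zero d hp.out.ne_zero)]
    exact norm_nonneg _

/-- **Different `p`-adic absolute values are apart.** -/
theorem padic_gap {d e h g n k : ℕ} (hd : finrank ℚ K ≤ d) (he : (discr K).natAbs ≤ 2 ^ e)
    (hpg : p ≤ 2 ^ g) {x y : 𝓞 K} (hx : x ≠ 0) (hy : y ≠ 0) (hxh : HouseLe h x)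
    (hyh : HouseLe h y) (hlt : ‖ψ (x : K)‖ < ‖ψ (y : K)‖) (hn : k * padicGap d e g ≤ n) :
    ‖ψ (x : K)‖ ^ n * 2 ^ k ≤ ‖ψ (y : K)‖ ^ n := by
  obtain ⟨z, u, w, eu, ew, hz, -, -, huw, -, -⟩ := exists_coprime_parts hd he hx hy hxh hyh
  set H := classNumber K
  have hH : H ≤ 2 ^ classExp d e := classNumber_le hd he
  have e1 := congrArg (fun a : 𝓞 K => ‖ψ (a : K)‖) eu
  have e2 := congrArg (fun a : 𝓞 K => ‖ψ (a : K)‖) ew
  simp only [map_pow, map_mul, norm_pow, norm_mul] at e1 e2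
  have hzpos : 0 < ‖ψ (z : K)‖ :=
    norm_pos_iff.2 ((map_ne_zero ψ).2 (RingOfIntegers.coe_ne_zero_iff.2 hz))
  have hHpos : H ≠ 0 := Fintype.card_ne_zero
  have h1 : ‖ψ (u : K)‖ < ‖ψ (w : K)‖ := by
    have h := pow_lt_pow_left₀ hlt (norm_nonneg _) hHpos
    rw [e1, e2] at h
    exact lt_of_mul_lt_mul_left h hzpos.le
  have hu1 : ‖ψ (u : K)‖ < 1 := h1.trans_le (norm_map_le_one ψ w)
  have hw1 : ‖ψ (w : K)‖ = 1 := le_antisymm (norm_map_le_one ψ w)
    (not_lt.1 fun h => not_isCoprime_of_norm_lt_one ψ hu1 h huw)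
  set P := H * p ^ d with hP
  have hstep : ‖ψ (x : K)‖ ^ P * 2 ≤ ‖ψ (y : K)‖ ^ P := by
    rw [hP, pow_mul, pow_mul, e1, e2, hw1, mul_one, mul_pow, mul_assoc]
    refine mul_le_of_le_one_right (by positivity) ?_
    calc ‖ψ (u : K)‖ ^ p ^ d * 2 ≤ (p : ℝ)⁻¹ * p :=
          mul_le_mul (norm_pow_le_inv ψ hd hu1) (by exact_mod_cast hp.out.two_le) (by norm_num)
            (by positivity)
      _ = 1 := inv_mul_cancel₀ (prime_pos p).ne'
  have hPk : P * k ≤ n := by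
    refine le_trans ?_ hn
    rw [padicGap, mul_comm P k, hP, pow_mul 2 g]
    exact Nat.mul_le_mul_left k (Nat.mul_le_mul hH (Nat.pow_le_pow_left hpg d))
  obtain ⟨r, rfl⟩ := Nat.exists_eq_add_of_le hPk
  rw [pow_add, pow_add, mul_right_comm]
  refine mul_le_mul ?_ (pow_le_pow_left₀ (norm_nonneg _) hlt.le r) (by positivity) (by positivity)
  rw [pow_mul ‖ψ (x : K)‖ P, pow_mul ‖ψ (y : K)‖ P, ← mul_pow]
  exact pow_le_pow_left₀ (by positivity) hstep k

omit hp in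
/-- **A place where two numbers differ.** -/
theorem exists_place {d e h : ℕ} (hd : finrank ℚ K ≤ d) (he : (discr K).natAbs ≤ 2 ^ e)
    {x y : 𝓞 K} (hx : x ≠ 0) (hy : y ≠ 0) (hxh : HouseLe h x) (hyh : HouseLe h y)
    (hxy : x ^ rootPeriod d ≠ y ^ rootPeriod d) :
    (∃ σ : K →+* ℂ, ‖σ (x : K)‖ ≠ ‖σ (y : K)‖) ∨ ∃ (q : ℕ) (_ : Fact q.Prime)
      (φ : K →+* ℂ_[q]), q ≤ 2 ^ placePrime d e h ∧ ‖φ (x : K)‖ ≠ ‖φ (y : K)‖ := by
  classical
  obtain ⟨z, u, w, eu, ew, hz, hu, hw, huw, huh, hwh⟩ := exists_coprime_parts hd he hx hy hxh hyh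
  have hHpos : 0 < classNumber K := Fintype.card_pos
  by_contra hno
  simp only [not_or, not_exists, not_and, ne_eq, not_not] at hno
  obtain ⟨harch, hpad⟩ := hno
  have hkey : ∀ {a b : 𝓞 K}, a ≠ 0 → HouseLe (partHeight d e h) a → IsCoprime a b →
      (∀ (q : ℕ) (_ : Fact q.Prime) (φ : K →+* ℂ_[q]), q ≤ 2 ^ placePrime d e h →
        ‖φ (a : K)‖ = ‖φ (b : K)‖) → IsUnit a := fun {a b} ha hah hab hall => by
    by_contra hnu
    have hN1 : (Algebra.norm ℤ a).natAbs ≠ 1 := fun h1 => hnu (by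
      have := EffectiveThue.dvd_natAbs_norm a
      rw [h1, Nat.cast_one] at this
      exact isUnit_of_dvd_one this)
    obtain ⟨q, hq, hqd⟩ := Nat.exists_prime_and_dvd hN1
    have hqf : Fact q.Prime := ⟨hq⟩
    have hN0 : (Algebra.norm ℤ a).natAbs ≠ 0 :=
      Int.natAbs_ne_zero.2 (Algebra.norm_ne_zero_iff.2 ha)
    have hqb : q ≤ 2 ^ placePrime d e h := by
      refine (Nat.le_of_dvd (Nat.pos_of_ne_zero hN0) hqd).trans ?_
      rw [placePrime, pow_mul]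
      exact EffectiveThue.norm_le_of_bounded hd Nat.one_le_two_pow
        fun σ => (hah σ).trans_eq (by push_cast; rfl)
    have h1 := padicValNat_norm_le (M := 0) hd (x := a) fun φ => by
      rw [pow_zero, inv_one]
      exact (norm_eq_one_of_coprime φ hab (hall q hqf φ hqb)).ge
    have := one_le_padicValNat_of_dvd hN0 hqd
    omega
  have heq : ∀ (q : ℕ) (_ : Fact q.Prime) (φ : K →+* ℂ_[q]), q ≤ 2 ^ placePrime d e h →
      ‖φ (u : K)‖ = ‖φ (w : K)‖ := fun q hq φ hqb => by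
    have e1 := congrArg (fun a : 𝓞 K => ‖φ (a : K)‖) eu
    have e2 := congrArg (fun a : 𝓞 K => ‖φ (a : K)‖) ew
    simp only [map_pow, map_mul, norm_pow, norm_mul, hpad q hq φ hqb] at e1 e2
    exact mul_left_cancel₀ (norm_ne_zero_iff.2 ((map_ne_zero φ).2
      (RingOfIntegers.coe_ne_zero_iff.2 hz))) (e1.symm.trans e2)
  have huu := hkey hu huh huw heq
  have hwu := hkey hw hwh huw.symm fun q hq φ hqb => (heq q hq φ hqb).symm
  obtain ⟨U, hU⟩ := huu
  obtain ⟨W, hW⟩ := hwu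
  set ζ : 𝓞 K := ((U / W : (𝓞 K)ˣ) : 𝓞 K) with hζ
  have hζw : ζ * w = u := by rw [hζ, ← hW, ← hU, ← Units.val_mul, div_mul_cancel]
  obtain ⟨i, hi, hi1⟩ := Embeddings.pow_eq_one_of_norm_eq_one K ℂ ζ.isIntegral_coe fun σ => by
    have e1 := congrArg (fun a : 𝓞 K => ‖σ (a : K)‖) eu
    have e2 := congrArg (fun a : 𝓞 K => ‖σ (a : K)‖) ew
    have e3 := congrArg (fun a : 𝓞 K => ‖σ (a : K)‖) hζw
    simp only [map_pow, map_mul, norm_pow, norm_mul, harch σ] at e1 e2 e3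
    have h := mul_left_cancel₀ (norm_ne_zero_iff.2 ((map_ne_zero σ).2
      (RingOfIntegers.coe_ne_zero_iff.2 hz))) (e1.symm.trans e2)
    rw [h] at e3
    exact (mul_eq_right₀ (norm_ne_zero_iff.2 ((map_ne_zero σ).2
      (RingOfIntegers.coe_ne_zero_iff.2 hw)))).1 e3
  have hyK : (y : K) ≠ 0 := RingOfIntegers.coe_ne_zero_iff.2 hy
  have hγ : ((x : K) / y) ^ (classNumber K * i) = 1 := by
    have e1 := congrArg (fun a : 𝓞 K => (a : K)) eu
    have e2 := congrArg (fun a : 𝓞 K => (a : K)) ew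
    have e3 : algebraMap (𝓞 K) K ζ * algebraMap (𝓞 K) K w = algebraMap (𝓞 K) K u := by
      rw [← map_mul, hζw]
    simp only [map_pow, map_mul] at e1 e2
    rw [pow_mul, div_pow, e1, e2, ← e3,
      mul_div_mul_left _ _ (RingOfIntegers.coe_ne_zero_iff.2 hz),
      mul_div_cancel_right₀ _ (RingOfIntegers.coe_ne_zero_iff.2 hw), hi1]
  have h1 := pow_period_eq_one hd (Nat.mul_pos hHpos hi) hγ
  rw [div_pow, div_eq_one_iff_eq (pow_ne_zero _ hyK), ← map_pow, ← map_pow] at h1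
  exact hxy (RingOfIntegers.coe_injective h1)

end FA.BakerExplicit.FourTerms

end
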