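import Mathlib.Analysis.SpecialFunctions.Complex.Circle
import Mathlib.Analysis.SpecialFunctions.Trigonometric.Bounds
import Mathlib.Algebra.Field.GeomSum

/-!
# Sums of powers of numbers on the unit circle

A real sum of a few powers without a constant term is negative, by a definite amount, in every long
window: its mean is small and its mean square is not. The powers of one number come close to every
point of the circle in every window of explicit length.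
-/

set_option autoImplicit false

noncomputable section

namespace FA.BakerExplicit.Positivity

open Finset Complex ComplexConjugate

variable {ι : Type*} {T : Finset ι} {A z : ι → ℂ} {B η : ℝ}

/-- The sum of the powers with coefficients. -/
def circleSum (T : Finset ι) (A z : ι → ℂ) (k : ℕ) : ℂ := ∑ i ∈ T, A i * z i ^ k

theorem norm_geom_le {w : ℂ} (hw : ‖w‖ = 1) (hη : 0 < η) (h : η ≤ ‖w - 1‖) (k0 L : ℕ) :
    ‖∑ k ∈ range L, w ^ (k0 + k)‖ ≤ 2 / η := by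
  have hne : w ≠ 1 := fun h1 => by rw [h1, sub_self, norm_zero] at h; linarith
  simp only [pow_add]
  rw [← mul_sum, norm_mul, norm_pow, hw, one_pow, one_mul, geom_sum_eq hne, norm_div]
  refine div_le_div₀ two_pos.le ((norm_sub_le _ _).trans_eq ?_) hη h
  rw [norm_pow, hw, one_pow, norm_one]
  norm_num

theorem norm_circleSum_le (hB : 0 ≤ B) (hT : #T ≤ 4) (hA : ∀ i ∈ T, ‖A i‖ ≤ B)
    (hz : ∀ i ∈ T, ‖z i‖ = 1) (k : ℕ) : ‖circleSum T A z k‖ ≤ 4 * B := by
  refine (norm_sum_le _ _).trans ((sum_le_card_nsmul T _ B fun i hi => ?_).trans ?_)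
  · rw [norm_mul, norm_pow, hz i hi, one_pow, mul_one]
    exact hA i hi
  · rw [nsmul_eq_mul]
    exact mul_le_mul_of_nonneg_right (by exact_mod_cast hT) hB

theorem norm_window_le (hB : 0 ≤ B) (hη : 0 < η) (hT : #T ≤ 4) (hA : ∀ i ∈ T, ‖A i‖ ≤ B)
    (hz : ∀ i ∈ T, ‖z i‖ = 1) (h1 : ∀ i ∈ T, η ≤ ‖z i - 1‖) (k0 L : ℕ) :
    ‖∑ k ∈ range L, circleSum T A z (k0 + k)‖ ≤ 8 * B / η := by
  simp only [circleSum]
  rw [sum_comm]
  refine (norm_sum_le _ _).trans ((sum_le_card_nsmul T _ (B * (2 / η)) fun i hi => ?_).trans ?_)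
  · rw [← mul_sum, norm_mul]
    exact mul_le_mul (hA i hi) (norm_geom_le (hz i hi) hη (h1 i hi) k0 L) (norm_nonneg _) hB
  · rw [nsmul_eq_mul]
    refine (mul_le_mul_of_nonneg_right (show (#T : ℝ) ≤ 4 by exact_mod_cast hT)
      (by positivity)).trans_eq ?_
    ring

/-- **A negative constant prevails on average.** -/
theorem exists_le_half (hB : 0 ≤ B) (hη : 0 < η) (hT : #T ≤ 4) (hA : ∀ i ∈ T, ‖A i‖ ≤ B)
    (hz : ∀ i ∈ T, ‖z i‖ = 1) (h1 : ∀ i ∈ T, η ≤ ‖z i - 1‖) {c : ℝ} {L : ℕ}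
    (hL : 16 * B < L * (-c * η)) (k0 : ℕ) :
    ∃ k < L, c + (circleSum T A z (k0 + k)).re ≤ c / 2 := by
  by_contra hno
  push Not at hno
  have hsum := (Complex.re_le_norm _).trans (norm_window_le hB hη hT hA hz h1 k0 L)
  rw [Complex.re_sum, le_div_iff₀ hη] at hsum
  have h2 : (L : ℝ) * (-(c / 2)) ≤ ∑ k ∈ range L, (circleSum T A z (k0 + k)).re := by
    refine le_trans (le_of_eq ?_) (sum_le_sum fun k hk => (show -(c / 2) ≤ _ by
      linarith [hno k (mem_range.1 hk)]))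
    rw [sum_const, card_range, nsmul_eq_mul]
  nlinarith [mul_le_mul_of_nonneg_right h2 hη.le]

/-- The mean square. -/
theorem le_window_sq [DecidableEq ι] (hB : 0 ≤ B) (hη : 0 < η) (hT : #T ≤ 4)
    (hA : ∀ i ∈ T, ‖A i‖ ≤ B) (hz : ∀ i ∈ T, ‖z i‖ = 1)
    (hsep : ∀ i ∈ T, ∀ j ∈ T, i ≠ j → η ≤ ‖z i * conj (z j) - 1‖) {i0 : ι} (hi0 : i0 ∈ T)
    (k0 L : ℕ) :
    (L : ℝ) * ‖A i0‖ ^ 2 - 32 * B ^ 2 / η ≤
      ∑ k ∈ range L, ‖circleSum T A z (k0 + k)‖ ^ 2 := by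
  set W : ι → ι → ℂ := fun i j => A i * conj (A j) * ∑ k ∈ range L, (z i * conj (z j)) ^ (k0 + k)
    with hW
  have hexp : (((∑ k ∈ range L, ‖circleSum T A z (k0 + k)‖ ^ 2 : ℝ)) : ℂ) =
      ∑ i ∈ T, ∑ j ∈ T, W i j := by
    simp only [Complex.ofReal_sum, Complex.ofReal_pow, ← Complex.mul_conj', circleSum, map_sum,
      sum_mul_sum]
    rw [sum_comm]
    refine sum_congr rfl fun i _ => ?_
    rw [sum_comm]
    refine sum_congr rfl fun j _ => ?_
    simp only [hW, mul_sum, map_mul, map_pow, mul_pow]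
    exact sum_congr rfl fun k _ => by ring
  have hdiag : ∀ i ∈ T, W i i = (((L : ℝ) * ‖A i‖ ^ 2 : ℝ) : ℂ) := fun i hi => by
    simp only [hW, Complex.mul_conj', hz i hi, Complex.ofReal_one, one_pow, sum_const, card_range,
      nsmul_eq_mul, mul_one]
    push_cast
    ring
  have hoff : ∀ i ∈ T, -(4 * (B ^ 2 * (2 / η))) ≤ ∑ j ∈ T.erase i, (W i j).re := fun i hi => by
    refine le_trans (neg_le_neg ?_) (neg_le_of_abs_le (abs_sum_le_sum_abs _ _))
    refine (sum_le_card_nsmul _ _ (B ^ 2 * (2 / η)) fun j hj => ?_).trans ?_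
    · obtain ⟨hne, hj⟩ := mem_erase.1 hj
      refine (Complex.abs_re_le_norm _).trans ?_
      rw [hW, norm_mul, norm_mul, Complex.norm_conj, sq]
      exact mul_le_mul (mul_le_mul (hA i hi) (hA j hj) (norm_nonneg _) hB)
        (norm_geom_le (by rw [norm_mul, Complex.norm_conj, hz i hi, hz j hj, one_mul]) hη
          (hsep i hi j hj hne.symm) k0 L) (norm_nonneg _) (mul_self_nonneg B)
    · rw [nsmul_eq_mul]
      exact mul_le_mul_of_nonneg_right (by exact_mod_cast card_erase_le.trans hT) (by positivity)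
  have hre := congrArg Complex.re hexp
  rw [Complex.ofReal_re, Complex.re_sum] at hre
  rw [hre]
  have hrow : ∀ i ∈ T, (L : ℝ) * ‖A i‖ ^ 2 - 4 * (B ^ 2 * (2 / η)) ≤ (∑ j ∈ T, W i j).re :=
    fun i hi => by
    rw [← add_sum_erase T _ hi, Complex.add_re, hdiag i hi, Complex.ofReal_re, Complex.re_sum]
    linarith [hoff i hi]
  refine le_trans ?_ (sum_le_sum hrow)
  rw [sum_sub_distrib, sum_const, nsmul_eq_mul]
  have h1 := single_le_sum (f := fun i => (L : ℝ) * ‖A i‖ ^ 2) (fun i _ => by positivity) hi0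
  have h2 : (#T : ℝ) * (4 * (B ^ 2 * (2 / η))) ≤ 4 * (4 * (B ^ 2 * (2 / η))) :=
    mul_le_mul_of_nonneg_right (by exact_mod_cast hT) (by positivity)
  rw [show 32 * B ^ 2 / η = 4 * (4 * (B ^ 2 * (2 / η))) by ring]
  linarith

/-- **Oscillation.** -/
theorem exists_neg_of_no_constant (hB : 0 < B) (hη : 0 < η) (hT : #T ≤ 4)
    (hA : ∀ i ∈ T, ‖A i‖ ≤ B) (hz : ∀ i ∈ T, ‖z i‖ = 1) (h1 : ∀ i ∈ T, η ≤ ‖z i - 1‖)
    (hsep : ∀ i ∈ T, ∀ j ∈ T, i ≠ j → η ≤ ‖z i * conj (z j) - 1‖) {i0 : ι} (hi0 : i0 ∈ T) {α : ℝ}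
    (hα : 0 ≤ α) (hαA : α ≤ ‖A i0‖) (hreal : ∀ k, (circleSum T A z k).im = 0) {L : ℕ}
    (hL : 128 * B ^ 2 < L * (α ^ 2 * η)) (k0 : ℕ) :
    ∃ k < L, (circleSum T A z (k0 + k)).re ≤ -(α ^ 2 / (16 * B)) := by
  classical
  by_contra hno
  push Not at hno
  set δ := α ^ 2 / (16 * B) with hδ
  have hδ0 : 0 ≤ δ := by positivity
  have hpt : ∀ k ∈ range L, ‖circleSum T A z (k0 + k)‖ ^ 2 ≤
      4 * B * ((circleSum T A z (k0 + k)).re + 2 * δ) := fun k hk => by
    have hle := norm_circleSum_le hB.le hT hA hz (k0 + k)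
    have habs : ‖circleSum T A z (k0 + k)‖ = |(circleSum T A z (k0 + k)).re| :=
      (Complex.abs_re_eq_norm.2 (hreal _)).symm
    rw [habs] at hle ⊢
    have h2 : |(circleSum T A z (k0 + k)).re| ≤ (circleSum T A z (k0 + k)).re + 2 * δ :=
      abs_le.2 ⟨by linarith [hno k (mem_range.1 hk)], by linarith⟩
    rw [sq]
    exact mul_le_mul hle h2 (abs_nonneg _) (by positivity)
  have h2 := (le_window_sq hB.le hη hT hA hz hsep hi0 k0 L).trans (sum_le_sum hpt)
  have h3 := (Complex.re_le_norm _).trans (norm_window_le hB.le hη hT hA hz h1 k0 L)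
  rw [Complex.re_sum] at h3
  rw [← mul_sum, sum_add_distrib, sum_const, card_range, nsmul_eq_mul] at h2
  have h4 : (L : ℝ) * α ^ 2 ≤ (L : ℝ) * ‖A i0‖ ^ 2 :=
    mul_le_mul_of_nonneg_left (pow_le_pow_left₀ hα hαA 2) (Nat.cast_nonneg L)
  have h5 : 4 * B * ((L : ℝ) * (2 * δ)) = L * α ^ 2 / 2 := by rw [hδ]; field_simp; ring
  have h6 := mul_le_mul_of_nonneg_left h3 (show 0 ≤ 4 * B by positivity)
  have h7 : 32 * B ^ 2 / η + 4 * B * (8 * B / η) = 64 * B ^ 2 / η := by ring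
  have h8 : (L : ℝ) * α ^ 2 ≤ 128 * B ^ 2 / η := by
    rw [show 128 * B ^ 2 / η = 2 * (64 * B ^ 2 / η) by ring]
    linarith
  rw [le_div_iff₀ hη] at h8
  linarith

/-- A step close to `1`. -/
theorem exists_small_step {w : ℂ} (hw : ‖w‖ = 1) {P : ℕ} (hP : 1 ≤ P) :
    ∃ q, 1 ≤ q ∧ q ≤ (2 * P + 1) ^ 2 ∧ ‖w ^ q - 1‖ ≤ 2 / P := by
  have hP0 : (0 : ℝ) < P := by exact_mod_cast hP
  have hbox : ∀ x : ℝ, |x| ≤ 1 → ⌊x * P⌋ ∈ Finset.Icc (-(P : ℤ)) P := fun x hx => by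
    obtain ⟨hl, hu⟩ := abs_le.1 hx
    refine Finset.mem_Icc.2 ⟨Int.le_floor.2 ?_, ?_⟩
    · push_cast
      nlinarith
    · have h2 := (Int.floor_le (x * P)).trans
        (show x * P ≤ ((P : ℤ) : ℝ) by push_cast; exact mul_le_of_le_one_left hP0.le hu)
      exact_mod_cast h2
  obtain ⟨i, hi, j, hj, hne, heq⟩ := exists_ne_map_eq_of_card_lt_of_maps_to
    (s := range ((2 * P + 1) ^ 2 + 1)) (t := Finset.Icc (-(P : ℤ)) P ×ˢ Finset.Icc (-(P : ℤ)) P)
    (f := fun i => (⌊(w ^ i).re * P⌋, ⌊(w ^ i).im * P⌋))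
    (by
      rw [card_product, Int.card_Icc, card_range,
        show ((P : ℤ) + 1 - -(P : ℤ)).toNat = 2 * P + 1 by omega, sq]
      omega)
    (fun i _ => Finset.mem_product.2
      ⟨hbox _ ((Complex.abs_re_le_norm _).trans_eq (by rw [norm_pow, hw, one_pow])),
        hbox _ ((Complex.abs_im_le_norm _).trans_eq (by rw [norm_pow, hw, one_pow]))⟩)
  wlog hlt : i < j generalizing i j
  · exact this j hj i hi hne.symm heq.symm (by omega)
  rw [Prod.mk.injEq] at heq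
  rw [mem_range] at hj
  refine ⟨j - i, by omega, by omega, ?_⟩
  have hd : ∀ {a b : ℝ}, ⌊a * P⌋ = ⌊b * P⌋ → |b - a| ≤ 1 / P := fun {a b} h => by
    have := Int.abs_sub_lt_one_of_floor_eq_floor h.symm
    rw [← sub_mul, abs_mul, abs_of_pos hP0] at this
    exact (le_div_iff₀ hP0).2 this.le
  have he : w ^ j - w ^ i = w ^ i * (w ^ (j - i) - 1) := by
    rw [mul_sub, mul_one, ← pow_add, Nat.add_sub_cancel' hlt.le]
  have hn := congrArg (‖·‖) he
  simp only [norm_mul, norm_pow, hw, one_pow, one_mul] at hn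
  rw [← hn]
  refine (Complex.norm_le_abs_re_add_abs_im _).trans ?_
  rw [Complex.sub_re, Complex.sub_im]
  exact (add_le_add (hd heq.1) (hd heq.2)).trans_eq (by ring)

theorem norm_exp_sub_le (x y : ℝ) : ‖exp (x * I) - exp (y * I)‖ ≤ |x - y| := by
  have h : exp (x * I) - exp (y * I) = exp (y * I) * (exp (I * (x - y : ℝ)) - 1) := by
    rw [mul_sub, mul_one, ← Complex.exp_add]
    push_cast
    ring_nf
  rw [h, norm_mul, Complex.norm_exp_ofReal_mul_I, one_mul, ← Real.norm_eq_abs]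
  exact Real.norm_exp_I_mul_ofReal_sub_one_le

/-- **Every arc is met in every long window.** -/
theorem exists_near {w t : ℂ} (hw : ‖w‖ = 1) (ht : ‖t‖ = 1) {P : ℕ} (hP : 1 ≤ P) (hη : 0 < η)
    (hlow : ∀ q, 1 ≤ q → q ≤ (2 * P + 1) ^ 2 → η ≤ ‖w ^ q - 1‖) (k0 : ℕ) :
    ∃ k, k0 ≤ k ∧ k ≤ k0 + (2 * P + 1) ^ 2 * ⌊8 / η⌋₊ ∧ ‖w ^ k - t‖ ≤ 4 / P := by
  obtain ⟨q, hq1, hqQ, hqs⟩ := exists_small_step hw hP
  set φ := Complex.arg (w ^ q) with hφ
  have hwq : exp (φ * I) = w ^ q := by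
    have := Complex.norm_mul_exp_arg_mul_I (w ^ q)
    rwa [norm_pow, hw, one_pow, Complex.ofReal_one, one_mul] at this
  have hφle : |φ| ≤ 2 * ‖w ^ q - 1‖ := by
    rw [← hwq, show (φ : ℂ) * I = I * (φ : ℂ) from mul_comm _ _,
      Complex.norm_exp_I_mul_ofReal_sub_one, norm_mul, Real.norm_two, Real.norm_eq_abs]
    have h := Real.mul_abs_le_abs_sin (x := φ / 2) (by
      rw [abs_div, abs_two]; linarith [Complex.abs_arg_le_pi (w ^ q)])
    rw [abs_div, abs_two] at h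
    have h4 : 1 / 2 ≤ 2 / Real.pi := by
      rw [div_le_div_iff₀ two_pos Real.pi_pos]; linarith [Real.pi_le_four]
    nlinarith [abs_nonneg φ]
  have hφge : η ≤ |φ| := by
    refine (hlow q hq1 hqQ).trans ?_
    rw [← hwq]
    simpa using norm_exp_sub_le φ 0
  set s := Complex.arg (t / w ^ k0) with hs
  have hts : exp (s * I) = t / w ^ k0 := by
    have := Complex.norm_mul_exp_arg_mul_I (t / w ^ k0)
    rwa [norm_div, norm_pow, hw, one_pow, div_one, ht, Complex.ofReal_one, one_mul] at this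
  have hsπ := abs_le.1 (Complex.abs_arg_le_pi (t / w ^ k0))
  rw [← hs] at hsπ
  obtain ⟨θ, hθ, hθs, hθφ⟩ : ∃ θ : ℝ, exp (θ * I) = exp (s * I) ∧ |θ| ≤ 2 * Real.pi ∧
      0 ≤ θ * φ := by
    have hπ := Real.pi_pos
    rcases le_or_gt 0 φ with hf | hf
    · rcases le_or_gt 0 s with h0 | h0
      · exact ⟨s, rfl, abs_le.2 ⟨by linarith, by linarith⟩, mul_nonneg h0 hf⟩
      · refine ⟨s + 2 * Real.pi, ?_, abs_le.2 ⟨by linarith, by linarith⟩,
          mul_nonneg (by linarith) hf⟩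
        push_cast
        rw [add_mul, Complex.exp_add, Complex.exp_two_pi_mul_I, mul_one]
    · rcases le_or_gt s 0 with h0 | h0
      · exact ⟨s, rfl, abs_le.2 ⟨by linarith, by linarith⟩, mul_nonneg_of_nonpos_of_nonpos h0 hf.le⟩
      · refine ⟨s - 2 * Real.pi, ?_, abs_le.2 ⟨by linarith, by linarith⟩,
          mul_nonneg_of_nonpos_of_nonpos (by linarith) hf.le⟩
        push_cast
        rw [sub_mul, Complex.exp_sub, Complex.exp_two_pi_mul_I, div_one]
  have hφ0 : 0 < |φ| := hη.trans_le hφge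
  set m := ⌊|θ| / |φ|⌋₊ with hm
  have hm1 : (m : ℝ) * |φ| ≤ |θ| := (le_div_iff₀ hφ0).1 (Nat.floor_le (by positivity))
  have hm2 : |θ| < ((m : ℝ) + 1) * |φ| := (div_lt_iff₀ hφ0).1 (Nat.lt_floor_add_one _)
  have hclose : |θ - m * φ| ≤ |φ| := by
    rcases (abs_pos.1 hφ0).lt_or_gt with hneg | hpos
    · rw [abs_of_neg hneg, abs_of_nonpos (nonpos_of_mul_nonneg_left hθφ hneg)] at hm1 hm2
      rw [abs_of_neg hneg, abs_le]
      constructor <;> linarith
    · rw [abs_of_pos hpos, abs_of_nonneg (nonneg_of_mul_nonneg_left hθφ hpos)] at hm1 hm2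
      rw [abs_of_pos hpos, abs_le]
      constructor <;> linarith
  refine ⟨k0 + q * m, Nat.le_add_right _ _, Nat.add_le_add_left (Nat.mul_le_mul hqQ
    (Nat.floor_le_floor ?_)) _, ?_⟩
  · exact div_le_div₀ (by norm_num) (hθs.trans (by linarith [Real.pi_le_four])) hη hφge
  · have h2 : w ^ (k0 + q * m) - t =
        w ^ k0 * (exp (((m * φ : ℝ) : ℂ) * I) - exp (θ * I)) := by
      rw [hθ, hts, mul_sub, mul_div_cancel₀ _ (pow_ne_zero _ (norm_pos_iff.1 (by rw [hw]; simp))),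
        pow_add, pow_mul, ← hwq, ← Complex.exp_nat_mul]
      push_cast
      ring_nf
    rw [h2, norm_mul, norm_pow, hw, one_pow, one_mul]
    refine ((norm_exp_sub_le _ _).trans_eq (abs_sub_comm _ _)).trans (hclose.trans ?_)
    calc |φ| ≤ 2 * (2 / P) := hφle.trans (mul_le_mul_of_nonneg_left hqs two_pos.le)
      _ = 4 / P := by ring

end FA.BakerExplicit.Positivity

end
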