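import Mathlib.NumberTheory.NumberField.Discriminant.Basic
import Mathlib.LinearAlgebra.Matrix.AbsoluteValue
import Mathlib.Analysis.Complex.Polynomial.Basic

/-!
# The field of a polynomial bounded by its coefficients

The roots of a monic polynomial with coefficients at most `H` are at most `n H + 1`, and the
discriminant of a field is at most that of the powers of a generating integer.
-/

set_option autoImplicit false

noncomputable section

namespace FA.BakerExplicit.CoefficientBounds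

open Finset NumberField Module Polynomial

theorem root_norm_le {f : ℤ[X]} (hf : f.Monic) {H : ℕ} (hH : ∀ i, (f.coeff i).natAbs ≤ H) {z : ℂ}
    (hz : aeval z f = 0) : ‖z‖ ≤ f.natDegree * H + 1 := by
  rcases le_total ‖z‖ 1 with h1 | h1
  · exact h1.trans (le_add_of_nonneg_left (by positivity))
  set n := f.natDegree with hn
  have hn0 : n ≠ 0 := fun h0 => by
    rw [hf.natDegree_eq_zero.1 (hn ▸ h0), map_one] at hz
    exact one_ne_zero hz
  rw [aeval_eq_sum_range, ← hn, sum_range_succ, hf.coeff_natDegree, one_smul] at hz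
  have h2 : ‖z‖ ^ n ≤ n * H * ‖z‖ ^ (n - 1) := by
    rw [← norm_pow, eq_neg_of_add_eq_zero_right hz, norm_neg]
    refine (norm_sum_le _ _).trans ((sum_le_card_nsmul _ _ ((H : ℝ) * ‖z‖ ^ (n - 1))
      fun i hi => ?_).trans_eq (by simp [mul_assoc]))
    rw [zsmul_eq_mul, norm_mul, norm_pow, Complex.norm_intCast, ← Int.cast_abs,
      ← Int.natCast_natAbs, Int.cast_natCast]
    exact mul_le_mul (Nat.cast_le.2 (hH i))
      (pow_le_pow_right₀ h1 (by have := mem_range.1 hi; omega)) (by positivity) (by positivity)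
  rw [← Nat.sub_add_cancel (Nat.one_le_iff_ne_zero.2 hn0), pow_succ',
    Nat.sub_add_cancel (Nat.one_le_iff_ne_zero.2 hn0)] at h2
  linarith [le_of_mul_le_mul_right h2 (pow_pos (lt_of_lt_of_le one_pos h1) _)]

variable {K : Type*} [Field K] [NumberField K]

/-- **The discriminant of a field through an integer generating it.** -/
theorem natAbs_discr_le {n : ℕ} (hn : finrank ℚ K = n) {θ : 𝓞 K}
    (hθ : LinearIndependent ℚ fun i : Fin n => (θ : K) ^ (i : ℕ)) {R : ℕ} (hR1 : 1 ≤ R)
    (hR : ∀ σ : K →+* ℂ, ‖σ (θ : K)‖ ≤ R) :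
    (discr K).natAbs ≤ ((n ^ n) * (R ^ n) ^ n) ^ 2 := by
  classical
  have hcard : Fintype.card (Fin n) = Fintype.card (Free.ChooseBasisIndex ℤ (𝓞 K)) := by
    rw [← finrank_eq_card_chooseBasisIndex, RingOfIntegers.rank, hn, Fintype.card_fin]
  set e := Fintype.equivOfCardEq hcard
  set b : Basis (Fin n) ℚ K := (integralBasis K).reindex e.symm with hb
  have hdisc : Algebra.discr ℚ b = (discr K : ℚ) := by
    rw [hb, Basis.coe_reindex, Equiv.symm_symm, coe_discr]
    exact Algebra.discr_reindex ℚ (integralBasis K) e.symm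
  set v : Fin n → K := fun i => (θ : K) ^ (i : ℕ) with hv
  set P : Matrix (Fin n) (Fin n) ℤ := Matrix.of fun i j =>
    (RingOfIntegers.basis K).repr (θ ^ (j : ℕ)) (e i) with hP
  have hvP : Matrix.vecMul (b : Fin n → K)
      ((P.map ((↑) : ℤ → ℚ)).map (algebraMap ℚ K)) = v := by
    funext j
    simp only [Matrix.vecMul, dotProduct, Matrix.map_apply, hP, Matrix.of_apply, hb,
      Basis.coe_reindex, Equiv.symm_symm, Function.comp_apply, hv]
    refine (e.sum_comp fun i => integralBasis K i *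
      algebraMap ℚ K (((RingOfIntegers.basis K).repr (θ ^ (j : ℕ)) i : ℤ) : ℚ)).trans ?_
    conv_rhs => rw [← map_pow, ← (integralBasis K).sum_repr (algebraMap (𝓞 K) K (θ ^ (j : ℕ)))]
    refine sum_congr rfl fun i _ => ?_
    rw [integralBasis_repr_apply, Algebra.smul_def, mul_comm]
    rfl
  have h1 := Algebra.discr_of_matrix_vecMul (A := ℚ) (b : Fin n → K) (P.map ((↑) : ℤ → ℚ))
  rw [hvP, hdisc, show (P.map ((↑) : ℤ → ℚ)).det = (P.det : ℚ) from
    ((Int.castRingHom ℚ).map_det P).symm] at h1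
  have hne : Algebra.discr ℚ v ≠ 0 := by
    rw [show v = ⇑(basisOfLinearIndependentOfCardEqFinrank' _ hθ
      (by rw [Fintype.card_fin, hn])) by simp [hv]]
    exact Algebra.discr_not_zero_of_basis ℚ _
  have hPne : P.det ≠ 0 := fun h0 => hne (by rw [h1, h0]; simp)
  let eK : Fin n ≃ (K →ₐ[ℚ] ℂ) := (Fintype.equivFinOfCardEq (by rw [AlgHom.card, hn])).symm
  have h2 := Algebra.discr_eq_det_embeddingsMatrixReindex_pow_two ℚ ℂ v eK
  rw [h1] at h2
  have h3 : ‖(Algebra.embeddingsMatrixReindex ℚ ℂ v eK).det‖ ≤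
      ((n ^ n * (R ^ n) ^ n : ℕ) : ℝ) := by
    have hent : ∀ i j, (IsAbsoluteValue.toAbsoluteValue (norm : ℂ → ℝ))
        (Algebra.embeddingsMatrixReindex ℚ ℂ v eK i j) ≤ ((R ^ n : ℕ) : ℝ) := fun i j => by
      show ‖eK j (v i)‖ ≤ _
      rw [hv, map_pow, norm_pow, Nat.cast_pow]
      exact (pow_le_pow_left₀ (norm_nonneg _) (hR (eK j).toRingHom) _).trans
        (pow_le_pow_right₀ (by exact_mod_cast hR1) i.isLt.le)
    refine (Matrix.det_le hent).trans ?_
    rw [nsmul_eq_mul, Fintype.card_fin, Nat.cast_mul]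
    push_cast
    refine mul_le_mul_of_nonneg_right ?_ (by positivity)
    exact_mod_cast n.factorial_le_pow
  have h4 : ((P.det.natAbs : ℝ) ^ 2 * (discr K).natAbs : ℝ) ≤
      (((n ^ n * (R ^ n) ^ n) ^ 2 : ℕ) : ℝ) := by
    have h5 := congrArg (‖·‖) h2
    simp only [map_mul, map_pow, map_intCast, norm_mul, norm_pow, Complex.norm_intCast] at h5
    rw [Nat.cast_natAbs, Nat.cast_natAbs, Int.cast_abs, Int.cast_abs, h5, Nat.cast_pow]
    exact pow_le_pow_left₀ (norm_nonneg _) h3 2
  have h6 : P.det.natAbs ^ 2 * (discr K).natAbs ≤ (n ^ n * (R ^ n) ^ n) ^ 2 := by exact_mod_cast h4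
  exact (Nat.le_mul_of_pos_left _ (pow_pos (Int.natAbs_pos.2 hPne) 2)).trans h6

end FA.BakerExplicit.CoefficientBounds

end
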