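import Fermat.Agent.Gyory.Discriminant
import Mathlib.FieldTheory.Finite.Basic
import Mathlib.FieldTheory.IsAlgClosed.AlgebraicClosure
import Mathlib.NumberTheory.Bertrand

/-!
# The discriminant bounds the degree, explicitly

Every root generates a field of discriminant at most `|D|`, so has degree at most `k + 1` for
`|D| ≤ 2 ^ k` (Minkowski). For a prime `p ≤ 2 |D|` above `|D|` the roots modulo `p` are distinct
and lie in the field of `p ^ (k + 1)!` elements.
-/

set_option autoImplicit false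
set_option linter.style.haveILetI false

noncomputable section

namespace FA.BakerExplicit.DegreeBound

open Finset Polynomial NumberField IntermediateField FA.Gyory

/-- The bound for the degree. -/
def degreeBound (k : ℕ) : ℕ := 2 ^ ((k + 1) * (k + 1).factorial)

/-- A root has small degree. -/
theorem natDegree_minpoly_le {f : ℤ[X]} (hm : f.Monic) (h0 : rootProd f ≠ 0) {k : ℕ}
    (hk : (rootProd f).natAbs ≤ 2 ^ k) {θ : ℂ}
    (hθ : θ ∈ (f.map (Int.castRingHom ℂ)).roots) : (minpoly ℤ θ).natDegree ≤ k + 1 := by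
  obtain ⟨hfd, hle⟩ := abs_discr_adjoin_le hm h0 hθ
  haveI : NumberField ℚ⟮θ⟯ := @NumberField.mk _ _ inferInstance hfd
  have hint : IsIntegral ℤ θ := isIntegral_of_mem_roots hm hθ
  have hdeg : Module.finrank ℚ ℚ⟮θ⟯ = (minpoly ℤ θ).natDegree := by
    rw [IntermediateField.adjoin.finrank hint.tower_top,
      minpoly.isIntegrallyClosed_eq_field_fractions' ℚ hint, (minpoly.monic hint).natDegree_map]
  rw [← hdeg]
  rcases le_or_gt (Module.finrank ℚ ℚ⟮θ⟯) 1 with h | h
  · omega
  have h1 := abs_discr_ge (K := ℚ⟮θ⟯) h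
  have h2 : (|discr ℚ⟮θ⟯| : ℝ) ≤ (2 : ℝ) ^ k := by
    have h3 : |discr ℚ⟮θ⟯| ≤ ((2 ^ k : ℕ) : ℤ) :=
      hle.trans (by rw [Int.abs_eq_natAbs]; exact_mod_cast hk)
    exact_mod_cast h3
  have h3 : (2 : ℝ) ^ Module.finrank ℚ ℚ⟮θ⟯ ≤ (3 * Real.pi / 4) ^ Module.finrank ℚ ℚ⟮θ⟯ :=
    pow_le_pow_left₀ two_pos.le (by linarith [Real.pi_gt_three]) _
  have h4 : (2 : ℝ) ^ Module.finrank ℚ ℚ⟮θ⟯ < (2 : ℝ) ^ (k + 2) := by
    rw [pow_add]
    push_cast at h1
    linarith [pow_pos (two_pos : (0 : ℝ) < 2) k]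
  have := (pow_lt_pow_iff_right₀ (one_lt_two (α := ℝ))).1 h4
  omega

/-- Modulo any prime a root is a root of a factor of small degree. -/
theorem exists_small_factor {f : ℤ[X]} (hm : f.Monic) (h0 : rootProd f ≠ 0) {k : ℕ}
    (hk : (rootProd f).natAbs ≤ 2 ^ k) {F : Type*} [Field F] {x : F} (hx : aeval x f = 0) :
    ∃ g : ℤ[X], g.Monic ∧ g.natDegree ≤ k + 1 ∧ aeval x g = 0 := by
  classical
  set R := (f.map (Int.castRingHom ℂ)).roots with hR
  have hint : ∀ θ ∈ R.toFinset, IsIntegral ℤ θ := fun θ hθ =>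
    isIntegral_of_mem_roots hm (Multiset.mem_toFinset.1 hθ)
  set P : ℤ[X] := ∏ θ ∈ R.toFinset, minpoly ℤ θ with hP
  have hPm : P.Monic := monic_prod_of_monic _ _ fun θ hθ => minpoly.monic (hint θ hθ)
  have hdvd : f ∣ P := by
    refine (Polynomial.map_dvd_map (Int.castRingHom ℂ) Int.cast_injective hm).1 ?_
    rw [(IsAlgClosed.splits _).eq_prod_roots_of_monic (hm.map _), ← hR,
      prod_map_roots (nodup_roots_of_rootProd hm h0), hP, Polynomial.map_prod]
    refine prod_dvd_prod_of_dvd _ _ fun θ hθ => dvd_iff_isRoot.2 ?_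
    rw [IsRoot.def, eval_map, ← algebraMap_int_eq, ← aeval_def, minpoly.aeval]
  have h1 := map_dvd (aeval x) hdvd
  rw [hx, zero_dvd_iff, hP, map_prod, prod_eq_zero_iff] at h1
  obtain ⟨θ, hθ, hzero⟩ := h1
  exact ⟨_, minpoly.monic (hint θ hθ),
    natDegree_minpoly_le hm h0 hk (Multiset.mem_toFinset.1 hθ), hzero⟩

/-- An element of small degree over `ℤ / p` is fixed by a power of Frobenius. -/
theorem pow_eq_self {p L : ℕ} [Fact p.Prime] {F : Type*} [Field F] [Algebra (ZMod p) F] {x : F}
    {g : (ZMod p)[X]} (hg : g.Monic) (hdeg : g.natDegree ≤ L) (hx : aeval x g = 0) :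
    x ^ p ^ L.factorial = x := by
  have hint : IsIntegral (ZMod p) x := ⟨g, hg, by rw [← aeval_def]; exact hx⟩
  set K := IntermediateField.adjoin (ZMod p) ({x} : Set F) with hK
  haveI : FiniteDimensional (ZMod p) K := IntermediateField.adjoin.finiteDimensional hint
  haveI : Finite K := Module.finite_of_finite (ZMod p)
  letI := Fintype.ofFinite K
  have hj : Module.finrank (ZMod p) K ≤ L := by
    rw [hK, IntermediateField.adjoin.finrank hint]
    exact (natDegree_le_of_dvd (minpoly.dvd _ _ hx) hg.ne_zero).trans hdeg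
  obtain ⟨t, ht⟩ := Nat.dvd_factorial (Module.finrank_pos (R := ZMod p) (M := K)) hj
  have hcard : Fintype.card K = p ^ Module.finrank (ZMod p) K := by
    rw [Module.card_eq_pow_finrank (K := ZMod p), ZMod.card]
  have h1 := FiniteField.pow_card_pow t
    (⟨x, IntermediateField.mem_adjoin_simple_self _ x⟩ : K)
  rw [hcard, ← pow_mul, ← ht] at h1
  exact congrArg (fun z : K => (z : F)) h1

/-- **The discriminant bounds the degree.** -/
theorem natDegree_le {f : ℤ[X]} (hm : f.Monic) (h0 : rootProd f ≠ 0) {k : ℕ}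
    (hk : (rootProd f).natAbs ≤ 2 ^ k) : f.natDegree ≤ degreeBound k := by
  classical
  obtain ⟨p, hp, hDp, hp2⟩ := Nat.exists_prime_lt_and_le_two_mul (rootProd f).natAbs
    (Int.natAbs_ne_zero.2 h0)
  haveI : Fact p.Prime := ⟨hp⟩
  let F := AlgebraicClosure (ZMod p)
  set G := f.map (Int.castRingHom F) with hG
  have hD : (rootProd f : F) ≠ 0 := by
    rw [← map_intCast (algebraMap (ZMod p) F), ne_eq, map_eq_zero,
      ZMod.intCast_zmod_eq_zero_iff_dvd,
      Int.natCast_dvd]
    exact Nat.not_dvd_of_pos_of_lt (Int.natAbs_pos.2 h0) hDp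
  have hsep : G.Separable := by
    rcases Nat.eq_zero_or_pos f.natDegree with hn | hn
    · rw [hG, hm.natDegree_eq_zero.1 hn, Polynomial.map_one]
      exact separable_one
    obtain ⟨a, b, -, -, hab⟩ := exists_mul_add_mul_eq_C_resultant f f.derivative
      (m := f.natDegree) (n := f.natDegree - 1) le_rfl (natDegree_derivative_le _) (Or.inl hn.ne')
    have h1 := congrArg (Polynomial.map (Int.castRingHom F)) hab
    rw [Polynomial.map_add, Polynomial.map_mul, Polynomial.map_mul, map_C, ← derivative_map,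
      ← hG, ← rootProd, eq_intCast] at h1
    refine (separable_def' _).2 ⟨C (rootProd f : F)⁻¹ * a.map (Int.castRingHom F),
      C (rootProd f : F)⁻¹ * b.map (Int.castRingHom F), ?_⟩
    have h2 : C (rootProd f : F)⁻¹ * C (rootProd f : F) = 1 := by
      rw [← C_mul, inv_mul_cancel₀ hD, C_1]
    linear_combination C (rootProd f : F)⁻¹ * h1 + h2
  set Q : F[X] := X ^ p ^ (k + 1).factorial - X with hQ
  have hq : 1 < p ^ (k + 1).factorial := Nat.one_lt_pow (Nat.factorial_ne_zero _) hp.one_lt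
  have hsub : G.roots.toFinset ⊆ Q.roots.toFinset := fun x hx => by
    rw [Multiset.mem_toFinset, mem_roots', IsRoot.def, hG, eval_map, ← algebraMap_int_eq,
      ← aeval_def] at hx
    obtain ⟨g, hgm, hgd, hgx⟩ := exists_small_factor hm h0 hk hx.2
    have h1 : aeval x (g.map (algebraMap ℤ (ZMod p))) = 0 := by
      rw [aeval_map_algebraMap]; exact hgx
    rw [hQ, Multiset.mem_toFinset, mem_roots (FiniteField.X_pow_card_sub_X_ne_zero F hq),
      IsRoot.def, eval_sub, eval_pow, eval_X, sub_eq_zero]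
    exact pow_eq_self (hgm.map _) (by rwa [hgm.natDegree_map]) h1
  have hcard : f.natDegree ≤ p ^ (k + 1).factorial := by
    rw [← hm.natDegree_map (Int.castRingHom F), ← hG,
      (IsAlgClosed.splits G).natDegree_eq_card_roots,
      ← Multiset.toFinset_card_of_nodup (nodup_roots hsep)]
    refine (Finset.card_le_card hsub).trans ((Multiset.toFinset_card_le _).trans ?_)
    exact (card_roots' _).trans (FiniteField.X_pow_card_sub_X_natDegree_eq F hq).le
  refine hcard.trans ?_
  rw [degreeBound, pow_mul]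
  refine Nat.pow_le_pow_left (hp2.trans ?_) _
  rw [pow_succ']
  exact Nat.mul_le_mul_left 2 hk

end FA.BakerExplicit.DegreeBound

end
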