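import Fermat.Agent.BakerExplicit.ThueCoefficients
import Fermat.Agent.Thue.Mordell

/-!
# Mordell's equation, effectively (Baker, 1968)

The form `X ^ 3 - 3 x X Y ^ 2 + 2 y Y ^ 3` has discriminant `-108 k`. If it has no zero a reduced
equivalent form has bounded coefficients, the preimage of `(1, 0)` is then a bounded solution of a
Thue equation, and its Hessian is `9 x`. If it has a zero, a factorisation of `4 k` bounds `x`.
-/

set_option autoImplicit false

noncomputable section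

namespace FA.BakerExplicit.MordellEffective

open FA.Thue

/-- The size of the coefficients of a reduced form. -/
def formSize (K : ℕ) : ℕ := 3 * K + 26

/-- **The bound for the logarithm, to base `2`, of a solution of `y ^ 2 = x ^ 3 + k`.** -/
def mordellBound (K : ℕ) : ℕ :=
  3 * (2 * formSize K + 2 * EffectiveThue.thueCoeffBound 3 (formSize K) + K + 6) + 2

theorem two_pow_cast (T : ℕ) : ((2 ^ T : ℕ) : ℤ) = (2 : ℤ) ^ T := by push_cast; rfl

theorem exists_reduced {F : CubicForm} (hF : F.Anisotropic) (hD0 : F.disc ≠ 0) {K : ℕ}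
    (hD : F.disc.natAbs ≤ 2 ^ (K + 7)) :
    ∃ p q r s : ℤ, p * s - q * r = 1 ∧ F.act p q r s ∈ CubicForm.box (2 ^ formSize K) := by
  have hbox : ∀ {N : ℤ}, N ≤ 2 ^ formSize K → ∀ G, G ∈ CubicForm.box N →
      G ∈ CubicForm.box (2 ^ formSize K) := fun {N} hN G hG =>
    ⟨hG.1.trans hN, hG.2.1.trans hN, hG.2.2.1.trans hN, hG.2.2.2.trans hN⟩
  have hA : |F.disc| ≤ (2 : ℤ) ^ (K + 7) := by
    rw [← two_pow_cast, Int.abs_eq_natAbs]
    exact_mod_cast hD
  have h3 := pow_le_pow_left₀ (abs_nonneg _) hA 3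
  have h1 : (1 : ℤ) ≤ |F.disc| := Int.one_le_abs hD0
  have hsz : (2 : ℤ) ^ formSize K = 32 * ((2 : ℤ) ^ (K + 7)) ^ 3 := by
    rw [formSize, show 3 * K + 26 = 5 + (K + 7) * 3 by ring, pow_add, pow_mul]; norm_num
  have hle : |F.disc| ≤ |F.disc| ^ 3 := le_self_pow₀ h1 (by norm_num)
  rcases lt_or_gt_of_ne hD0 with h | h
  · obtain ⟨p, q, r, s, hdet, hm⟩ := CubicForm.exists_small_of_disc_neg hF h
    refine ⟨p, q, r, s, hdet, hbox ?_ _ hm⟩
    rw [hsz, show 1 - F.disc = 1 + |F.disc| by rw [abs_of_neg h]; ring]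
    have : (1 + |F.disc|) ^ 3 ≤ (2 * |F.disc|) ^ 3 :=
      pow_le_pow_left₀ (by positivity) (by linarith) 3
    linarith [mul_pow (2 : ℤ) |F.disc| 3]
  · obtain ⟨p, q, r, s, hdet, hm⟩ := CubicForm.exists_small_of_disc_pos hF h
    refine ⟨p, q, r, s, hdet, hbox ?_ _ hm⟩
    rw [hsz, ← abs_of_pos h]
    linarith

/-- The solutions of the Thue equation of a form with bounded coefficients. -/
theorem eval_eq_one_bound {G : CubicForm} (hG : G.Anisotropic) {N : ℕ}
    (hN : G ∈ CubicForm.box (2 ^ N)) {p q : ℤ} (h1 : G.eval p q = 1) :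
    |p| ≤ 2 ^ EffectiveThue.thueCoeffBound 3 N ∧ |q| ≤ 2 ^ EffectiveThue.thueCoeffBound 3 N := by
  obtain ⟨ha, hb, hc, hd⟩ := hN
  have hnat : ∀ {z : ℤ} {T : ℕ}, |z| ≤ 2 ^ T → z.natAbs ≤ 2 ^ T := fun {z T} hz => by
    rw [← two_pow_cast, Int.abs_eq_natAbs] at hz
    exact_mod_cast hz
  have hdeg := CubicForm.natDegree_poly hG.a_ne_zero
  have hH : ∀ i, (G.poly.coeff i).natAbs ≤ 2 ^ N := fun i => by
    rcases le_or_gt i 3 with hi | hi
    · interval_cases i
      · simpa [CubicForm.poly] using hnat hd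
      · simpa [CubicForm.poly] using hnat hc
      · simpa [CubicForm.poly] using hnat hb
      · simpa [CubicForm.poly] using hnat ha
    · rw [Polynomial.coeff_eq_zero_of_natDegree_lt (by omega)]
      simp
  obtain ⟨h2, h3⟩ := EffectiveThue.coefficient_bound (k := N) (x := p) (y := q) (m := 1)
    (CubicForm.irreducible_poly hG h1) hdeg.ge hH Nat.one_le_two_pow
    (by rw [CubicForm.form_poly hG.a_ne_zero]; exact h1)
  rw [hdeg] at h2 h3
  rw [← two_pow_cast, Int.abs_eq_natAbs, Int.abs_eq_natAbs]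
  exact ⟨by exact_mod_cast h2.le, by exact_mod_cast h3.le⟩

theorem abs_hess_le {G : CubicForm} {N T : ℤ} (hN : G ∈ CubicForm.box N) {p q : ℤ}
    (hp : |p| ≤ T) (hq : |q| ≤ T) : |G.hess p q| ≤ 18 * N ^ 2 * T ^ 2 := by
  obtain ⟨ha, hb, hc, hd⟩ := hN
  have hN0 : 0 ≤ N := le_trans (abs_nonneg _) ha
  have hT0 : 0 ≤ T := le_trans (abs_nonneg _) hp
  have mul2 : ∀ {u v A B : ℤ}, |u| ≤ A → |v| ≤ B → |u * v| ≤ A * B := fun {u v A B} hu hv => by
    rw [abs_mul]; exact mul_le_mul hu hv (abs_nonneg _) (le_trans (abs_nonneg _) hu)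
  have hA : |G.b ^ 2 - 3 * G.a * G.c| ≤ 4 * N ^ 2 := by
    have := mul2 hb hb
    have := mul2 ha hc
    rw [sq, mul_assoc]
    refine (abs_sub _ _).trans ?_
    rw [abs_mul 3, abs_of_pos (show (0 : ℤ) < 3 by norm_num)]
    linarith [sq N]
  have hB : |G.b * G.c - 9 * G.a * G.d| ≤ 10 * N ^ 2 := by
    have := mul2 hb hc
    have := mul2 ha hd
    rw [mul_assoc]
    refine (abs_sub _ _).trans ?_
    rw [abs_mul 9, abs_of_pos (show (0 : ℤ) < 9 by norm_num)]
    linarith [sq N]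
  have hC : |G.c ^ 2 - 3 * G.b * G.d| ≤ 4 * N ^ 2 := by
    have := mul2 hc hc
    have := mul2 hb hd
    rw [sq, mul_assoc]
    refine (abs_sub _ _).trans ?_
    rw [abs_mul 3, abs_of_pos (show (0 : ℤ) < 3 by norm_num)]
    linarith [sq N]
  have e1 := mul2 hA (mul2 hp hp)
  have e2 := mul2 hB (mul2 hp hq)
  have e3 := mul2 hC (mul2 hq hq)
  simp only [CubicForm.hess, Int.cast_id]
  rw [show (G.b ^ 2 - 3 * G.a * G.c) * p ^ 2 + (G.b * G.c - 9 * G.a * G.d) * p * q +
    (G.c ^ 2 - 3 * G.b * G.d) * q ^ 2 = (G.b ^ 2 - 3 * G.a * G.c) * (p * p) +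
      (G.b * G.c - 9 * G.a * G.d) * (p * q) + (G.c ^ 2 - 3 * G.b * G.d) * (q * q) by ring]
  refine (abs_add_three _ _ _).trans ?_
  linarith [sq T]

/-- A form with a zero. -/
theorem reducible_bound {x y k : ℤ} (hk : k ≠ 0) (hxy : y ^ 2 = x ^ 3 + k)
    (hF : ¬(⟨1, 0, -3 * x, 2 * y⟩ : CubicForm).Anisotropic) : |x| ≤ 4 * |k| + 4 * |k| := by
  simp only [CubicForm.Anisotropic, not_forall] at hF
  obtain ⟨X, Y, h0, hne⟩ := hF
  simp only [CubicForm.eval, Int.cast_id] at h0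
  have hY : Y ≠ 0 := fun hY => hne ⟨by simpa [hY] using h0, hY⟩
  -- the rational root `X / Y` is an integer
  obtain ⟨r, hr0⟩ : ∃ r : ℤ, r ^ 3 - 3 * x * r + 2 * y = 0 := by
    obtain ⟨X', Y', hcop, hX, hY'⟩ := Int.exists_gcd_one (Int.gcd_pos_of_ne_zero_right X hY)
    set g : ℤ := (Int.gcd X Y : ℤ)
    have hg : g ≠ 0 := fun e => hY (by rw [hY', e, mul_zero])
    have hY0 : Y' ≠ 0 := fun e => hY (by rw [hY', e, zero_mul])
    have he : X' ^ 3 - 3 * x * X' * Y' ^ 2 + 2 * y * Y' ^ 3 = 0 := by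
      refine (mul_eq_zero.1 (?_ : g ^ 3 * _ = 0)).resolve_left (pow_ne_zero 3 hg)
      rw [hX, hY'] at h0
      linear_combination h0
    have hdvd : Y' ∣ X' ^ 3 :=
      ⟨3 * x * X' * Y' - 2 * y * Y' ^ 2, by linear_combination he⟩
    have hunit : IsUnit Y' := by
      have hc : IsCoprime Y' (X' ^ 3) :=
        ((Int.isCoprime_iff_gcd_eq_one.2 hcop).pow_left).symm
      exact hc.isUnit_of_dvd' dvd_rfl hdvd
    rcases Int.isUnit_iff.1 hunit with e | e <;> rw [e] at he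
    · exact ⟨X', by linear_combination he⟩
    · exact ⟨-X', by linear_combination -he⟩
  have hmul : (r ^ 2 - 4 * x) * (r ^ 2 - x) ^ 2 = 4 * k := by
    linear_combination 4 * hxy + (r ^ 3 - 3 * x * r - 2 * y) * hr0
  have h4k : 4 * k ≠ 0 := by omega
  have hle : ∀ {d : ℤ}, d ∣ 4 * k → |d| ≤ 4 * |k| := fun {d} hd => by
    have := Int.le_of_dvd (abs_pos.2 h4k) ((abs_dvd_abs _ _).2 hd)
    rwa [abs_mul, abs_of_pos (by norm_num : (0 : ℤ) < 4)] at this
  have hu : |r ^ 2 - x| ≤ 4 * |k| :=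
    hle (hmul ▸ Dvd.dvd.mul_left (dvd_pow_self _ two_ne_zero) _)
  have hw : |r ^ 2 - 4 * x| ≤ 4 * |k| := hle (hmul ▸ dvd_mul_right _ _)
  have h3 : |3 * x| ≤ 4 * |k| + 4 * |k| := by
    rw [show 3 * x = (r ^ 2 - x) - (r ^ 2 - 4 * x) by ring]
    exact (abs_sub _ _).trans (by linarith)
  rw [abs_mul, abs_of_pos (by norm_num : (0 : ℤ) < 3)] at h3
  linarith [abs_nonneg x]

/-- **Baker's theorem on Mordell's equation.** -/
theorem solutions_bound {x y k : ℤ} {K : ℕ} (hk : k ≠ 0) (hkK : k.natAbs ≤ 2 ^ K)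
    (hxy : y ^ 2 = x ^ 3 + k) :
    x.natAbs < 2 ^ mordellBound K ∧ y.natAbs < 2 ^ mordellBound K := by
  set N := formSize K with hN
  set T := EffectiveThue.thueCoeffBound 3 N with hT
  set E := 2 * N + 2 * T + K + 6 with hE
  have hkK' : |k| ≤ (2 : ℤ) ^ K := by
    rw [← two_pow_cast, Int.abs_eq_natAbs]
    exact_mod_cast hkK
  have hmono : ∀ {a b : ℕ}, a ≤ b → (2 : ℤ) ^ a ≤ 2 ^ b := fun h =>
    pow_le_pow_right₀ (by norm_num) h
  have hx : |x| ≤ (2 : ℤ) ^ E := by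
    set F : CubicForm := ⟨1, 0, -3 * x, 2 * y⟩ with hF
    by_cases hani : F.Anisotropic
    · have hdisc : F.disc = -108 * k := by
        simp only [hF, CubicForm.disc]; linear_combination -108 * hxy
      obtain ⟨p, q, r, s, hdet, hm⟩ := exists_reduced hani
        (by rw [hdisc]; exact mul_ne_zero (by norm_num) hk) (K := K) (by
          rw [hdisc, Int.natAbs_mul, pow_add, mul_comm]
          exact Nat.mul_le_mul hkK (by norm_num))
      set G := F.act p q r s with hG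
      have hG1 : G.eval s (-r) = 1 := by
        rw [hG, CubicForm.eval_act]
        simp only [Int.cast_id]
        rw [show p * s + q * -r = 1 by linear_combination hdet,
          show r * s + s * -r = 0 by ring]
        simp [hF, CubicForm.eval]
      have hGh : G.hess s (-r) = 9 * x := by
        rw [hG, CubicForm.hess_act]
        simp only [Int.cast_id]
        rw [show p * s - q * r = 1 from hdet, show p * s + q * -r = 1 by linear_combination hdet,
          show r * s + s * -r = 0 by ring]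
        simp only [hF, CubicForm.hess, Int.cast_id]
        ring
      obtain ⟨h1, h2⟩ := eval_eq_one_bound (hani.act hdet) hm hG1
      have h3 := abs_hess_le hm h1 h2
      rw [hGh, abs_mul, abs_of_pos (by norm_num : (0 : ℤ) < 9), ← hN, ← hT] at h3
      have h4 : 18 * ((2 : ℤ) ^ N) ^ 2 * ((2 : ℤ) ^ T) ^ 2 ≤ (2 : ℤ) ^ E := by
        calc 18 * ((2 : ℤ) ^ N) ^ 2 * ((2 : ℤ) ^ T) ^ 2
            ≤ 2 ^ 6 * ((2 : ℤ) ^ N) ^ 2 * ((2 : ℤ) ^ T) ^ 2 := by gcongr; norm_num
          _ = (2 : ℤ) ^ (6 + N * 2 + T * 2) := by rw [pow_add, pow_add, pow_mul, pow_mul]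
          _ ≤ _ := hmono (by omega)
      linarith [abs_nonneg x]
    · refine (reducible_bound hk hxy hani).trans ?_
      refine le_trans ?_ (hmono (show K + 3 ≤ E by omega))
      rw [pow_add]
      linarith
  have hy : |y| ≤ (2 : ℤ) ^ (3 * E + 1) := by
    have h1 : y ^ 2 ≤ ((2 : ℤ) ^ E) ^ 3 + 2 ^ K := by
      rw [hxy]
      have := pow_le_pow_left₀ (abs_nonneg _) hx 3
      have := le_abs_self (x ^ 3)
      rw [abs_pow] at this
      linarith [le_abs_self k]
    have h2 : |y| ≤ y ^ 2 := by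
      rcases eq_or_ne y 0 with rfl | hy
      · simp
      · rw [← sq_abs]; exact le_self_pow₀ (abs_pos.2 hy) two_ne_zero
    have h4 := hmono (show K ≤ E * 3 by omega)
    have h5 : (2 : ℤ) ^ (3 * E + 1) = ((2 : ℤ) ^ E) ^ 3 + (2 : ℤ) ^ (E * 3) := by
      rw [← pow_mul, pow_succ, mul_comm 3 E]; ring
    linarith
  have hB : mordellBound K = 3 * E + 2 := rfl
  have hfin : ∀ {z : ℤ} {a : ℕ}, |z| ≤ (2 : ℤ) ^ a → a < mordellBound K →
      z.natAbs < 2 ^ mordellBound K := fun {z a} hz ha => by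
    rw [← two_pow_cast, Int.abs_eq_natAbs] at hz
    exact lt_of_le_of_lt (by exact_mod_cast hz) (Nat.pow_lt_pow_right one_lt_two ha)
  exact ⟨hfin hx (by omega), hfin hy (by omega)⟩

end FA.BakerExplicit.MordellEffective

end
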