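import Fermat.Agent.BakerExplicit.EllipticPoints
import Fermat.Agent.BakerExplicit.MordellEffective
import Mathlib.AlgebraicGeometry.EllipticCurve.VariableChange

/-!
# Weierstrass equations of given discriminant, effectively

`c₆ ^ 2 = c₄ ^ 3 - 1728 Δ`, so the bound on Mordell's equation bounds `c₄` and `c₆`, and hence the
coefficients once `a₁`, `a₂`, `a₃` are reduced by a change of variables.
-/

set_option autoImplicit false

noncomputable section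

namespace FA.BakerExplicit.EllipticEffective

open QuarticValues

/-- **The bound for the logarithm, to base `2`, of the coefficients of a reduced equation.** -/
def weierstrassBound (K : ℕ) : ℕ := MordellEffective.mordellBound (K + 11) + 14

/-- The coefficients of a reduced equation from its invariants. -/
theorem coeff_le_of_invariants {W : WeierstrassCurve ℤ} {M : ℕ} (h₁ : W.a₁ = 0 ∨ W.a₁ = 1)
    (h₂ : W.a₂ = -1 ∨ W.a₂ = 0 ∨ W.a₂ = 1) (h₃ : W.a₃ = 0 ∨ W.a₃ = 1) (h4 : |W.c₄| ≤ 2 ^ M)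
    (h6 : |W.c₆| ≤ 2 ^ M) : |W.a₁| ≤ 2 ^ (M + 14) ∧ |W.a₂| ≤ 2 ^ (M + 14) ∧
      |W.a₃| ≤ 2 ^ (M + 14) ∧ |W.a₄| ≤ 2 ^ (M + 14) ∧ |W.a₆| ≤ 2 ^ (M + 14) := by
  have hb2 : -5 ≤ W.b₂ ∧ W.b₂ ≤ 5 := by
    rw [WeierstrassCurve.b₂]
    rcases h₁ with h | h <;> rcases h₂ with g | g | g <;> rw [h, g] <;> norm_num
  have h13 : 0 ≤ W.a₁ * W.a₃ ∧ W.a₁ * W.a₃ ≤ 1 := by
    rcases h₁ with h | h <;> rcases h₃ with g | g <;> rw [h, g] <;> norm_num
  have h33 : 0 ≤ W.a₃ ^ 2 ∧ W.a₃ ^ 2 ≤ 1 := by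
    rcases h₃ with g | g <;> rw [g] <;> norm_num
  rw [pow_add _ M 14]
  rw [abs_le] at h4 h6
  have h0 := one_le_pow₀ (n := M) (show (1 : ℤ) ≤ 2 by norm_num)
  generalize (2 : ℤ) ^ M = P at h0 h4 h6
  simp only [WeierstrassCurve.c₄, WeierstrassCurve.c₆] at h4 h6
  obtain ⟨l4, u4⟩ := h4
  obtain ⟨l6, u6⟩ := h6
  obtain ⟨b, hb⟩ : ∃ b, W.b₂ = b := ⟨_, rfl⟩
  rw [hb] at hb2 l4 u4 l6 u6
  have s2 : 0 ≤ b ^ 2 ∧ b ^ 2 ≤ 25 := ⟨sq_nonneg b, by nlinarith⟩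
  have s3 : -125 ≤ b ^ 3 ∧ b ^ 3 ≤ 125 := by
    constructor <;> nlinarith
  have hb4 : -(P + 25) ≤ W.b₄ ∧ W.b₄ ≤ P + 25 := by constructor <;> linarith
  have hbb : -(5 * (P + 25)) ≤ b * W.b₄ ∧ b * W.b₄ ≤ 5 * (P + 25) := by
    constructor <;> nlinarith
  have hb6 : -(23 * (P + 25)) ≤ W.b₆ ∧ W.b₆ ≤ 23 * (P + 25) := by constructor <;> linarith
  simp only [WeierstrassCurve.b₄, WeierstrassCurve.b₆] at hb4 hb6
  refine ⟨?_, ?_, ?_, abs_le.2 ⟨by linarith, by linarith⟩, abs_le.2 ⟨by linarith, by linarith⟩⟩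
  · rcases h₁ with h | h <;> rw [h, abs_le] <;> constructor <;> linarith
  · rcases h₂ with h | h | h <;> rw [h, abs_le] <;> constructor <;> linarith
  · rcases h₃ with h | h <;> rw [h, abs_le] <;> constructor <;> linarith

/-- Every equation is reduced by a change of variables with `u = 1`. -/
theorem exists_reduced_equation (W : WeierstrassCurve ℤ) :
    ∃ C : WeierstrassCurve.VariableChange ℤ, C.u = 1 ∧ ((C • W).a₁ = 0 ∨ (C • W).a₁ = 1) ∧
      ((C • W).a₂ = -1 ∨ (C • W).a₂ = 0 ∨ (C • W).a₂ = 1) ∧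
      ((C • W).a₃ = 0 ∨ (C • W).a₃ = 1) := by
  set s : ℤ := -(W.a₁ / 2) with hs
  set r : ℤ := -((W.a₂ - s * W.a₁ - s ^ 2 + 1) / 3) with hr
  set t : ℤ := -((W.a₃ + r * W.a₁) / 2) with ht
  refine ⟨⟨1, r, s, t⟩, rfl, ?_, ?_, ?_⟩
  · simp only [WeierstrassCurve.variableChange_a₁, inv_one, Units.val_one, one_mul]
    omega
  · simp only [WeierstrassCurve.variableChange_a₂, inv_one, Units.val_one, one_pow, one_mul]
    generalize hq : W.a₂ - s * W.a₁ - s ^ 2 = q at hr ⊢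
    omega
  · simp only [WeierstrassCurve.variableChange_a₃, inv_one, Units.val_one, one_pow, one_mul]
    generalize hq : W.a₃ + r * W.a₁ = q at ht ⊢
    omega

/-- **The equations of given discriminant, effectively.** -/
theorem discriminant_bound {W : WeierstrassCurve ℤ} (hW : W.Δ ≠ 0) {K : ℕ}
    (hK : W.Δ.natAbs ≤ 2 ^ K) :
    ∃ C : WeierstrassCurve.VariableChange ℤ, C.u = 1 ∧ (C • W).Δ = W.Δ ∧
      |(C • W).a₁| ≤ 2 ^ weierstrassBound K ∧ |(C • W).a₂| ≤ 2 ^ weierstrassBound K ∧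
      |(C • W).a₃| ≤ 2 ^ weierstrassBound K ∧ |(C • W).a₄| ≤ 2 ^ weierstrassBound K ∧
      |(C • W).a₆| ≤ 2 ^ weierstrassBound K := by
  obtain ⟨C, hu, h₁, h₂, h₃⟩ := exists_reduced_equation W
  have hΔ : (C • W).Δ = W.Δ := by simp [WeierstrassCurve.variableChange_Δ, hu]
  have hk : (-1728 * W.Δ).natAbs ≤ 2 ^ (K + 11) := by
    rw [Int.natAbs_mul, pow_add, mul_comm (2 ^ K)]
    exact Nat.mul_le_mul (by norm_num) hK
  obtain ⟨h4, h6⟩ := MordellEffective.solutions_bound (x := (C • W).c₄) (y := (C • W).c₆)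
    (mul_ne_zero (by norm_num : (-1728 : ℤ) ≠ 0) hW) hk
    (by linear_combination (C • W).c_relation - 1728 * hΔ)
  exact ⟨C, hu, hΔ, coeff_le_of_invariants h₁ h₂ h₃ (abs_le_two_pow h4) (abs_le_two_pow h6)⟩

end FA.BakerExplicit.EllipticEffective

end
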