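import Fermat.Agent.Gyory.Discriminant
import Fermat.Agent.BrauerSiegelDegree.NormalClosure

/-!
# The field of all roots of a polynomial of given discriminant

Two different roots differ by a divisor of the discriminant, so an inertia element outside it fixes
every root: the splitting field has degree at most `n!` and discriminant at most
`(n! |D|) ^ n!`.
-/

set_option autoImplicit false
set_option linter.style.haveILetI false

noncomputable section

namespace FA.BakerExplicit.DiscriminantField

open Finset NumberField Module Polynomial FA.Gyory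

/-- The difference of two roots divides the discriminant. -/
theorem sub_dvd_rootProd {R : Type*} [CommRing R] [IsDomain R] {f : ℤ[X]} (hf : f.Monic) {x y : R}
    (hx : aeval x f = 0) (hy : aeval y f = 0) (hne : x ≠ y) : x - y ∣ (rootProd f : R) := by
  have hn : f.natDegree ≠ 0 := fun h => by
    rw [hf.natDegree_eq_zero.1 h, map_one] at hx
    exact one_ne_zero hx
  obtain ⟨p, q, -, -, hpq⟩ := exists_mul_add_mul_eq_C_resultant f f.derivative
    (m := f.natDegree) (n := f.natDegree - 1) le_rfl (natDegree_derivative_le _) (Or.inl hn)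
  set F := f.map (algebraMap ℤ R) with hF
  have hFx : F.eval x = 0 := by rw [hF, eval_map, ← aeval_def, hx]
  have hFy : F.eval y = 0 := by rw [hF, eval_map, ← aeval_def, hy]
  obtain ⟨g, hg⟩ := dvd_iff_isRoot.2 (show F.IsRoot x from hFx)
  have hgy : g.eval y = 0 := by
    rw [hg, eval_mul, eval_sub, eval_X, eval_C] at hFy
    exact (mul_eq_zero.1 hFy).resolve_left (sub_ne_zero.2 hne.symm)
  have hd : aeval x f.derivative = g.eval x := by
    rw [aeval_def, ← eval_map, ← derivative_map, ← hF, hg, derivative_mul, eval_add, eval_mul,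
      eval_mul, derivative_sub, derivative_X, derivative_C, eval_sub, eval_sub, eval_X, eval_C]
    simp
  have h1 := congrArg (aeval x) hpq
  rw [map_add, map_mul, map_mul, hx, zero_mul, zero_add, hd, aeval_C, algebraMap_int_eq,
    eq_intCast] at h1
  rw [rootProd, ← h1]
  refine dvd_mul_of_dvd_left ?_ _
  have h2 := sub_dvd_eval_sub x y g
  rwa [hgy, sub_zero] at h2

/-- The roots in the field of all roots. -/
theorem exists_root_field {f : ℤ[X]} (hf : f.Monic) (h0 : rootProd f ≠ 0) {d : ℕ}
    (hd : f.natDegree ≤ d) :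
    ∃ (M : Type) (_ : Field M) (_ : NumberField M) (θ : Fin f.natDegree → 𝓞 M),
      finrank ℚ M ≤ d.factorial ∧
        (discr M).natAbs ≤ (d.factorial * (rootProd f).natAbs) ^ d.factorial ∧
        Function.Injective θ ∧ (∀ i, aeval (θ i) f = 0) ∧
        ∀ ρ : M →+* ℂ, f.map (Int.castRingHom ℂ) = ∏ i, (X - C (ρ (θ i : M))) := by
  classical
  set p : ℚ[X] := f.map (Int.castRingHom ℚ) with hp
  have hpm : p.Monic := hf.map _
  have hsep : p.Separable := by
    rw [← separable_map (algebraMap ℚ ℂ), hp, Polynomial.map_map,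
      Subsingleton.elim ((algebraMap ℚ ℂ).comp (Int.castRingHom ℚ)) (Int.castRingHom ℂ)]
    exact (nodup_roots_iff_of_splits (hf.map _).ne_zero (IsAlgClosed.splits _)).1
      (nodup_roots_of_rootProd hf h0)
  let M := p.SplittingField
  haveI : NumberField M := NumberField.mk
  haveI : IsSplittingField ℚ M p := by
    convert IsSplittingField.splittingField p using 1
    exact Subsingleton.elim _ _
  haveI : IsGalois ℚ M := IsGalois.of_separable_splitting_field hsep
  haveI : Fact ((p.map (algebraMap ℚ M)).Splits) := ⟨IsSplittingField.splits M p⟩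
  have hn : Fintype.card (p.rootSet M) = f.natDegree := by
    rw [card_rootSet_eq_natDegree hsep (IsSplittingField.splits M p), hp, hf.natDegree_map]
  have hdeg : finrank ℚ M ≤ d.factorial := by
    rw [← Polynomial.Gal.card_of_separable hsep]
    refine (Nat.card_le_card_of_injective _ (Polynomial.Gal.galActionHom_injective p M)).trans ?_
    rw [Nat.card_eq_fintype_card, Fintype.card_perm, hn]
    exact Nat.factorial_le hd
  let e : Fin f.natDegree ≃ p.rootSet M := (Fintype.equivFinOfCardEq hn).symm
  have hpf : ∀ x : M, aeval x p = aeval x f := fun x => by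
    rw [← aeval_map_algebraMap ℚ x f, algebraMap_int_eq]
  have hroot : ∀ i, aeval (e i : M) f = 0 := fun i => by
    rw [← hpf]; exact (mem_rootSet.1 (e i).2).2
  let θ : Fin f.natDegree → 𝓞 M := fun i => ⟨e i, f, hf, by rw [← aeval_def]; exact hroot i⟩
  have hθinj : Function.Injective θ := fun i j h =>
    e.injective (Subtype.ext (congrArg (fun z : 𝓞 M => (z : M)) h))
  have hθ0 : ∀ i, aeval (θ i) f = 0 := fun i => by
    refine RingOfIntegers.coe_injective ?_
    rw [map_zero, ← aeval_algebraMap_apply]
    exact hroot i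
  refine ⟨M, inferInstance, inferInstance, θ, hdeg, ?_, hθinj, hθ0, fun ρ => ?_⟩
  · have hD : 0 < (rootProd f).natAbs := Int.natAbs_pos.2 h0
    have hun : ∀ (q : ℕ) (P : Ideal (𝓞 M)) [P.IsMaximal], q.Prime →
        q ∉ (rootProd f).natAbs.primeFactors → (q : 𝓞 M) ∈ P → Algebra.IsUnramifiedAt ℤ P :=
        fun q P _ hq hqd hqP => by
      refine FA.BSDegree.isUnramifiedAt_of_inertia hq P hqP fun τ hτ => ?_
      have hdP : ((rootProd f : ℤ) : 𝓞 M) ∉ P := fun hmem => by
        have hcop : IsCoprime (q : ℤ) (rootProd f) := Int.isCoprime_iff_gcd_eq_one.2 (by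
          rw [Int.gcd_eq_natAbs, Int.natAbs_natCast]
          exact (Nat.Prime.coprime_iff_not_dvd hq).2 fun hdvd =>
            hqd (Nat.mem_primeFactors.2 ⟨hq, hdvd, hD.ne'⟩))
        obtain ⟨a, b, hab⟩ := hcop
        refine Ideal.IsMaximal.ne_top (inferInstance : P.IsMaximal) ((Ideal.eq_top_iff_one P).2 ?_)
        have h1 : ((a * q + b * rootProd f : ℤ) : 𝓞 M) ∈ P := by
          push_cast
          exact P.add_mem (P.mul_mem_left _ hqP) (P.mul_mem_left _ hmem)
        simpa [hab] using h1
      have hfix : ∀ r ∈ p.rootSet M, τ.toAlgHom r = (AlgHom.id ℚ M) r := fun r hr => by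
        set i := e.symm ⟨r, hr⟩
        have hi : (θ i : M) = r := by simp [θ, i]
        by_contra hne
        refine hdP (P.mem_of_dvd (sub_dvd_rootProd hf (x := τ • θ i) (y := θ i) ?_ (hθ0 i) ?_)
          (hτ (θ i)))
        · refine RingOfIntegers.coe_injective ?_
          rw [map_zero, ← aeval_algebraMap_apply,
            show algebraMap (𝓞 M) M (τ • θ i) = τ (θ i : M) from algebraMap.coe_smul' τ (θ i) M]
          show aeval (τ.toAlgHom (θ i : M)) f = 0
          rw [← AlgHom.restrictScalars_apply ℤ τ.toAlgHom, aeval_algHom_apply]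
          simp [θ, hroot]
        · intro heq
          apply hne
          rw [← hi]
          show τ (θ i : M) = (θ i : M)
          conv_rhs => rw [← heq]
          exact (algebraMap.coe_smul' τ (θ i) M).symm
      exact AlgEquiv.ext fun x =>
        DFunLike.congr_fun
          (AlgHom.ext_of_adjoin_eq_top (IsSplittingField.adjoin_rootSet M p) hfix) x
    refine (FA.Faltings.natAbs_discr_le (K := M) (fun q hq => Nat.prime_of_mem_primeFactors hq)
      hun).trans ?_
    exact (Nat.pow_le_pow_left (Nat.mul_le_mul hdeg (Nat.le_of_dvd hD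
      (Nat.prod_primeFactors_dvd _))) _).trans
        (Nat.pow_le_pow_right (Nat.mul_pos (Nat.factorial_pos d) hD) hdeg)
  · set G := p.map (algebraMap ℚ M)
    have hnd : G.roots.Nodup := nodup_roots hsep.map
    have h1 : G = ∏ i, (X - C (θ i : M)) := by
      refine ((IsSplittingField.splits M p).eq_prod_roots_of_monic (hpm.map _)).trans ?_
      have hmem : ∀ x : M, x ∈ G.roots.toFinset ↔ x ∈ p.rootSet M := fun x => by
        rw [Multiset.mem_toFinset, mem_roots', mem_rootSet, IsRoot.def, eval_map, ← aeval_def]
        simp [hpm.ne_zero, (hpm.map (algebraMap ℚ M)).ne_zero, G]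
      rw [prod_map_roots hnd]
      exact prod_bij' (fun x hx => e.symm ⟨x, (hmem x).1 hx⟩) (fun i _ => (θ i : M))
        (fun _ _ => mem_univ _) (fun i _ => (hmem _).2 (e i).2)
        (fun x _ => by simp [θ]) (fun i _ => by simp [θ]) (fun x _ => by simp [θ])
    have h2 := congrArg (Polynomial.map ρ) h1
    simp only [G, hp, Polynomial.map_map, Polynomial.map_prod, Polynomial.map_sub, map_X,
      map_C] at h2
    rw [← h2]
    congr 1
    exact Subsingleton.elim _ _

/-- The product of the differences. -/
theorem prod_sub_eq {f : ℤ[X]} (hf : f.Monic) {θ : Fin f.natDegree → ℂ}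
    (hθ : f.map (Int.castRingHom ℂ) = ∏ i, (X - C (θ i))) :
    ∏ i, ∏ j ∈ univ.erase i, ‖θ i - θ j‖ = |(rootProd f : ℝ)| := by
  classical
  set F := f.map (Int.castRingHom ℂ) with hF
  have hroots : F.roots = univ.val.map θ := by
    rw [hθ, prod_eq_multiset_prod,
      show (univ.val.map fun i => X - C (θ i)) = (univ.val.map θ).map fun z => X - C z by
        rw [Multiset.map_map]; rfl, roots_multiset_prod_X_sub_C]
  have hder : ∀ i, F.derivative.eval (θ i) = ∏ j ∈ univ.erase i, (θ i - θ j) := fun i => by
    rw [hθ, derivative_prod_finset, eval_finsetSum, sum_eq_single i]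
    · simp [eval_prod, ← sdiff_singleton_eq_erase]
    · intro j _ hji
      rw [eval_mul, eval_prod, prod_eq_zero (mem_erase.2 ⟨hji.symm, mem_univ i⟩) (by simp),
        zero_mul]
    · simp
  have h1 := cast_rootProd (E := ℂ) hf
  rw [← hF, hroots, Multiset.map_map, ← prod_eq_multiset_prod] at h1
  rw [← Complex.norm_intCast, h1, norm_prod]
  exact prod_congr rfl fun i _ => by rw [Function.comp_apply, hder, norm_prod]

end FA.BakerExplicit.DiscriminantField

end
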