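import Fermat.Agent.BakerExplicit.EllipticSIntegral
import Fermat.Agent.ThueMahler.Shafarevich

/-!
# Shafarevich's theorem over `ℚ`, effectively (Coates)

A curve with good reduction at the primes above `2 ^ g` gives an `S`-integral point on a Mordell
curve with bounded coefficient, so it has a short integral model with bounded coefficients.
-/

set_option autoImplicit false

noncomputable section

namespace FA.BakerExplicit.SIntegralPoints

open WeierstrassCurve QuarticValues EllipticEffective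

/-- The bound for `log₂` of the coefficient of the Mordell curve. -/
def mordellExp (g : ℕ) : ℕ := 11 + 11 * g * (2 ^ g + 1)

/-- **The bound for the logarithm, to base `2`, of the coefficients of a model.** -/
def shafarevichBound (g : ℕ) : ℕ := 12 * shortSBound (mordellExp g) g + 6

/-- A product of eleventh powers of at most `N` numbers, none above `2 ^ g`. -/
theorem prod_eleventh_le {S : Finset ℕ} {g N : ℕ} (hS : ∀ p ∈ S, p ≤ 2 ^ g) (hN : S.card ≤ N) :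
    ∏ p ∈ S, max 1 p ^ 11 ≤ 2 ^ (11 * g * N) := by
  refine (Finset.prod_le_prod' fun p hp => Nat.pow_le_pow_left
    (max_le Nat.one_le_two_pow (hS p hp)) 11).trans ?_
  rw [Finset.prod_const, ← pow_mul, ← pow_mul]
  refine Nat.pow_le_pow_right two_pos ?_
  rw [mul_comm 11 g, mul_assoc]
  exact Nat.mul_le_mul_left _ (Nat.mul_le_mul_left _ hN)

/-- The scaling `6 den x den y` clears the denominators. -/
theorem exists_integral_model {E : WeierstrassCurve ℚ} {x y : ℚ} {C : VariableChange ℚ}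
    (hC : C • E = ⟨0, 0, 0, -x / 48, -y / 864⟩) {S : ℕ} (hxn : |x.num| ≤ 2 ^ S)
    (hxd : (x.den : ℤ) ≤ 2 ^ S) (hyn : |y.num| ≤ 2 ^ S) (hyd : (y.den : ℤ) ≤ 2 ^ S) :
    ∃ (C' : VariableChange ℚ) (A B : ℤ), C' • E = ⟨0, 0, 0, (A : ℚ), (B : ℚ)⟩ ∧
      |A| ≤ 2 ^ (12 * S + 6) ∧ |B| ≤ 2 ^ (12 * S + 6) := by
  set p : ℤ := (x.den : ℤ) with hp
  set q : ℤ := (y.den : ℤ) with hq
  have hp' : |p| ≤ 2 ^ S := by rwa [hp, abs_of_nonneg (Int.natCast_nonneg _)]
  have hq' : |q| ≤ 2 ^ S := by rwa [hq, abs_of_nonneg (Int.natCast_nonneg _)]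
  have hpq : (p : ℚ) ≠ 0 := Int.cast_ne_zero.2 (Int.natCast_ne_zero.2 x.den_nz)
  have hqq : (q : ℚ) ≠ 0 := Int.cast_ne_zero.2 (Int.natCast_ne_zero.2 y.den_nz)
  have hu : (6 * (p : ℚ) * q)⁻¹ ≠ 0 :=
    inv_ne_zero (mul_ne_zero (mul_ne_zero (by norm_num) hpq) hqq)
  have hx : x * p = (x.num : ℚ) := by rw [hp]; push_cast; exact Rat.mul_den_eq_num x
  have hy : y * q = (y.num : ℚ) := by rw [hq]; push_cast; exact Rat.mul_den_eq_num y
  refine ⟨⟨Units.mk0 _ hu, 0, 0, 0⟩ * C, -27 * (x.num * (p * p * p * (q * q * q * q))),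
    -54 * (y.num * (p * p * p * p * p * p * (q * q * q * q * q))), ?_, ?_, ?_⟩
  · rw [mul_smul, hC]
    ext
    all_goals simp only [variableChange_a₁, variableChange_a₂, variableChange_a₃,
      variableChange_a₄, variableChange_a₆, Units.val_inv_eq_inv_val, Units.val_mk0, inv_inv]
    · simp
    · simp
    · simp
    · push_cast
      linear_combination -27 * (p : ℚ) ^ 3 * (q : ℚ) ^ 4 * hx
    · push_cast
      linear_combination -54 * (p : ℚ) ^ 6 * (q : ℚ) ^ 5 * hy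
  · have h3 := abs_mul_le_two_pow (abs_mul_le_two_pow hp' hp') hp'
    have h4 := abs_mul_le_two_pow (abs_mul_le_two_pow (abs_mul_le_two_pow hq' hq') hq') hq'
    exact (abs_smul_le_two_pow (-27) (show |(-27 : ℤ)| ≤ 2 ^ 5 by norm_num)
      (abs_mul_le_two_pow hxn (abs_mul_le_two_pow h3 h4))).trans (two_pow_le (by omega))
  · have h6 := abs_mul_le_two_pow (abs_mul_le_two_pow (abs_mul_le_two_pow
      (abs_mul_le_two_pow (abs_mul_le_two_pow hp' hp') hp') hp') hp') hp'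
    have h5 := abs_mul_le_two_pow (abs_mul_le_two_pow (abs_mul_le_two_pow
      (abs_mul_le_two_pow hq' hq') hq') hq') hq'
    exact (abs_smul_le_two_pow (-54) (show |(-54 : ℤ)| ≤ 2 ^ 6 by norm_num)
      (abs_mul_le_two_pow hyn (abs_mul_le_two_pow h6 h5))).trans (two_pow_le (by omega))

/-- **Effective Shafarevich over `ℚ`.** -/
theorem effective_shafarevich {g : ℕ} (E : WeierstrassCurve ℚ) [E.IsElliptic]
    (hE : ∀ p : ℕ, ∀ [Fact p.Prime], 2 ^ g < p → ∃ C : VariableChange ℚ_[p],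
      HasGoodReduction ℤ_[p] (C • E.map (algebraMap ℚ ℚ_[p]))) :
    ∃ (C : VariableChange ℚ) (A B : ℤ), C • E = ⟨0, 0, 0, (A : ℚ), (B : ℚ)⟩ ∧
      |A| ≤ 2 ^ shafarevichBound g ∧ |B| ≤ 2 ^ shafarevichBound g := by
  classical
  obtain ⟨δ, x, y, C, hδ0, hδ, hxy, hden, hC⟩ :=
    FA.ThueMahler.exists_mordell_point (Finset.range (2 ^ g + 1)) E
      (fun p _ hp => hE p (by simpa using hp))
  have hδ' : δ.natAbs ≤ 2 ^ (11 * g * (2 ^ g + 1)) := hδ.trans (prod_eleventh_le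
    (fun p hp => Nat.lt_succ_iff.1 (Finset.mem_range.1 hp)) (Finset.card_range _).le)
  have hk : |-1728 * δ| ≤ 2 ^ mordellExp g := by
    rw [mordellExp]
    generalize 11 * g * (2 ^ g + 1) = e at hδ' ⊢
    refine abs_smul_le_two_pow _ (by norm_num) ?_
    rw [Int.abs_eq_natAbs, ← two_pow_cast]
    exact_mod_cast hδ'
  obtain ⟨hxn, hxd, hyn, hyd⟩ := short_bound_smooth (A := 0) (B := -1728 * δ) (g := g)
    (by simpa using hδ0) (by rw [abs_zero]; positivity) hk (x := x) (y := y)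
    (by rw [hxy]; push_cast; ring) (fun q hq hd => by simpa using hden q hq hd)
  exact exists_integral_model hC hxn hxd hyn hyd

theorem j_eq_of_shortNF {A B : ℚ} (W : WeierstrassCurve ℚ) [W.IsElliptic]
    (h : W = ⟨0, 0, 0, A, B⟩) : W.j = 6912 * A ^ 3 / (4 * A ^ 3 + 27 * B ^ 2) := by
  have : W.IsShortNF := ⟨by rw [h], by rw [h], by rw [h]⟩
  rw [j_of_isShortNF, h]

theorem discriminant_ne_zero {A B : ℤ} (W : WeierstrassCurve ℚ) [W.IsElliptic]
    (h : W = ⟨0, 0, 0, (A : ℚ), (B : ℚ)⟩) : 4 * A ^ 3 + 27 * B ^ 2 ≠ 0 := fun h0 => by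
  have : W.IsShortNF := ⟨by rw [h], by rw [h], by rw [h]⟩
  refine W.isUnit_Δ.ne_zero ?_
  rw [Δ_of_isShortNF, h]
  have : (4 : ℚ) * (A : ℚ) ^ 3 + 27 * (B : ℚ) ^ 2 = 0 := by exact_mod_cast h0
  linear_combination -16 * this

/-- Numerator and denominator of `j` for a bounded model. -/
theorem j_height_le {A B : ℤ} {T : ℕ} (h0 : 4 * A ^ 3 + 27 * B ^ 2 ≠ 0) (hA : |A| ≤ 2 ^ T)
    (hB : |B| ≤ 2 ^ T) {r : ℚ}
    (hr : r = 6912 * (A : ℚ) ^ 3 / (4 * (A : ℚ) ^ 3 + 27 * (B : ℚ) ^ 2)) :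
    r.num.natAbs ≤ 2 ^ (3 * T + 13) ∧ r.den ≤ 2 ^ (3 * T + 13) := by
  refine num_den_le (a := 6912 * (A * A * A)) (b := 4 * A ^ 3 + 27 * B ^ 2) h0
    (by rw [hr]; push_cast; ring_nf) ?_ ?_
  · exact (abs_smul_le_two_pow _ (show |(6912 : ℤ)| ≤ 2 ^ 13 by norm_num)
      (abs_mul_le_two_pow (abs_mul_le_two_pow hA hA) hA)).trans (two_pow_le (by omega))
  · rw [show 4 * A ^ 3 + 27 * B ^ 2 = 4 * (A * A * A) + 27 * (B * B) by ring]
    exact (abs_add_le_two_pow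
      (abs_smul_le_two_pow _ (show |(4 : ℤ)| ≤ 2 ^ 2 by norm_num)
        (abs_mul_le_two_pow (abs_mul_le_two_pow hA hA) hA))
      (abs_smul_le_two_pow _ (show |(27 : ℤ)| ≤ 2 ^ 5 by norm_num)
        (abs_mul_le_two_pow hB hB))).trans (two_pow_le (by omega))

/-- **The `j`-invariants have bounded height.** -/
theorem effective_shafarevich_j {g : ℕ} (E : WeierstrassCurve ℚ) [E.IsElliptic]
    (hE : ∀ p : ℕ, ∀ [Fact p.Prime], 2 ^ g < p → ∃ C : VariableChange ℚ_[p],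
      HasGoodReduction ℤ_[p] (C • E.map (algebraMap ℚ ℚ_[p]))) :
    E.j.num.natAbs ≤ 2 ^ (3 * shafarevichBound g + 13) ∧
      E.j.den ≤ 2 ^ (3 * shafarevichBound g + 13) := by
  obtain ⟨C, A, B, hC, hA, hB⟩ := effective_shafarevich E hE
  refine j_height_le (discriminant_ne_zero _ hC) hA hB ?_
  rw [← variableChange_j E C]
  exact j_eq_of_shortNF _ hC

/-- The short equations with coefficients in a box. -/
theorem exists_box_equations (T : ℕ) : ∃ M : Finset (WeierstrassCurve ℚ),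
    M.card ≤ 2 ^ (2 * T + 4) ∧ ∀ A B : ℤ, |A| ≤ 2 ^ T → |B| ≤ 2 ^ T →
      (⟨0, 0, 0, (A : ℚ), (B : ℚ)⟩ : WeierstrassCurve ℚ) ∈ M := by
  classical
  refine ⟨(Finset.Icc (-(2 : ℤ) ^ T) (2 ^ T) ×ˢ Finset.Icc (-(2 : ℤ) ^ T) (2 ^ T)).image
    fun p => ⟨0, 0, 0, (p.1 : ℚ), (p.2 : ℚ)⟩, ?_, fun A B hA hB =>
    Finset.mem_image.2 ⟨(A, B), Finset.mem_product.2 ⟨Finset.mem_Icc.2 (abs_le.1 hA),
      Finset.mem_Icc.2 (abs_le.1 hB)⟩, rfl⟩⟩
  refine Finset.card_image_le.trans ?_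
  rw [Finset.card_product, Int.card_Icc, show 2 * T + 4 = (T + 2) + (T + 2) by ring,
    pow_add _ (T + 2) (T + 2)]
  have h : ((2 : ℤ) ^ T + 1 - -2 ^ T).toNat ≤ 2 ^ (T + 2) := by
    rw [Int.toNat_le, pow_add]
    push_cast
    linarith [one_le_pow₀ (n := T) (show (1 : ℤ) ≤ 2 by norm_num)]
  exact Nat.mul_le_mul h h

/-- **Boundedly many isomorphism classes.** -/
theorem effective_shafarevich_count (g : ℕ) : ∃ M : Finset (WeierstrassCurve ℚ),
    M.card ≤ 2 ^ (2 * shafarevichBound g + 4) ∧ ∀ (E : WeierstrassCurve ℚ) [E.IsElliptic],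
      (∀ p : ℕ, ∀ [Fact p.Prime], 2 ^ g < p → ∃ C : VariableChange ℚ_[p],
        HasGoodReduction ℤ_[p] (C • E.map (algebraMap ℚ ℚ_[p]))) →
      ∃ C : VariableChange ℚ, C • E ∈ M := by
  obtain ⟨M, hcard, hM⟩ := exists_box_equations (shafarevichBound g)
  refine ⟨M, hcard, fun E _ hE => ?_⟩
  obtain ⟨C, A, B, hC, hA, hB⟩ := effective_shafarevich E hE
  exact ⟨C, hC ▸ hM A B hA hB⟩

end FA.BakerExplicit.SIntegralPoints

end
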