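import Fermat.Agent.BakerExplicit.QuarticValues
import Mathlib.AlgebraicGeometry.EllipticCurve.Weierstrass

/-!
# Integral points on elliptic equations, effectively (Baker, 1968)

For an integer point `(X, Y)` on `y ^ 2 = x ^ 3 + A x + B` the form `(1, 0, -6X, 8Y, -4A - 3X²)`
has invariants `-48 A`, `-1728 B` and Hessian `48 X` at `(1, 0)`. The preimage of `(1, 0)` in a
reduced equivalent form solves an equation `G (s, r) = 1`, and so is bounded.
-/

set_option autoImplicit false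

noncomputable section

namespace FA.BakerExplicit.EllipticEffective

open FA.SiegelPoints QuarticValues

/-- The size of the coefficients of a reduced quartic form. -/
def formSize (L : ℕ) : ℕ := 12 * L + 27

/-- The bound for `log₂ |x|` on a short equation. -/
def shortExp (L : ℕ) : ℕ := 2 * formSize (L + 11) + 4 * valueBound (formSize (L + 11)) + 8 + L

/-- The bound for `log₂` of the coordinates on a short equation. -/
def shortBound (L : ℕ) : ℕ := 3 * shortExp L + 2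

/-- **The bound for the logarithm, to base `2`, of an integer point.** -/
def integralPointBound (H : ℕ) : ℕ := shortBound (6 * H + 19) + 2 * H + 6

theorem abs_mul_le_two_pow {u v : ℤ} {i j : ℕ} (hu : |u| ≤ 2 ^ i) (hv : |v| ≤ 2 ^ j) :
    |u * v| ≤ 2 ^ (i + j) := by
  rw [abs_mul, pow_add]
  exact mul_le_mul hu hv (abs_nonneg _) (by positivity)

theorem abs_smul_le_two_pow {u : ℤ} {i j : ℕ} (n : ℤ) (hn : |n| ≤ 2 ^ j) (hu : |u| ≤ 2 ^ i) :
    |n * u| ≤ 2 ^ (j + i) :=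
  abs_mul_le_two_pow hn hu

theorem abs_add_le_two_pow {u v : ℤ} {i j : ℕ} (hu : |u| ≤ 2 ^ i) (hv : |v| ≤ 2 ^ j) :
    |u + v| ≤ 2 ^ (max i j + 1) := by
  rw [pow_succ]
  have := two_pow_le (le_max_left i j)
  have := two_pow_le (le_max_right i j)
  linarith [abs_add_le u v]

/-- The isotropic normal forms are bounded. -/
theorem isotropic_box {I J : ℤ} {G : QuarticForm} (hG : G ∈ QuarticForm.isotropicBox I J) {L : ℕ}
    (hI : |I| ≤ 2 ^ L) (hJ : |J| ≤ 2 ^ L) : G ∈ QuarticForm.box (2 ^ formSize L) := by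
  obtain ⟨ha, hGI, hGJ, hb, hc, hb0⟩ := hG
  simp only [QuarticForm.invI, QuarticForm.invJ, ha] at hGI hGJ
  have hD : |4 * I ^ 3 - J ^ 2| ≤ 2 ^ (3 * L + 3) := by
    have h4 : |(4 : ℤ) * I ^ 3| ≤ 2 ^ (2 + 3 * L) := by
      rw [show 3 * L = L + L + L by ring, show I ^ 3 = I * I * I by ring]
      exact abs_mul_le_two_pow (by norm_num) (abs_mul_le_two_pow (abs_mul_le_two_pow hI hI) hI)
    have h2 : |-(J ^ 2)| ≤ 2 ^ (L + L) := by
      rw [abs_neg, sq]
      exact abs_mul_le_two_pow hJ hJ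
    rw [sub_eq_add_neg]
    exact (abs_add_le_two_pow h4 h2).trans (two_pow_le (by omega))
  have kb : |G.b| ≤ 2 ^ (3 * L + 3) := hb.trans hD
  have kc : |G.c| ≤ 2 ^ (3 * L + 5) := by
    rw [show 3 * L + 5 = 3 * L + 3 + 2 by ring, pow_add]
    linarith [abs_nonneg G.b]
  have k3 : |G.d| ≤ |3 * G.b * G.d| := by
    rw [abs_mul]
    refine le_mul_of_one_le_left (abs_nonneg _) (Int.one_le_abs ?_)
    exact mul_ne_zero three_ne_zero hb0
  have kd : |G.d| ≤ 2 ^ (6 * L + 11) := by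
    refine k3.trans ?_
    rw [show 3 * G.b * G.d = G.c * G.c + -I by linear_combination -hGI]
    exact (abs_add_le_two_pow (abs_mul_le_two_pow kc kc) (by rwa [abs_neg])).trans
      (two_pow_le (by omega))
  have k27 : |G.e| ≤ |27 * G.b ^ 2 * G.e| := by
    rw [abs_mul]
    refine le_mul_of_one_le_left (abs_nonneg _) (Int.one_le_abs ?_)
    exact mul_ne_zero (by norm_num) (pow_ne_zero 2 hb0)
  have ke : |G.e| ≤ 2 ^ (12 * L + 27) := by
    refine k27.trans ?_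
    rw [show 27 * G.b ^ 2 * G.e = 9 * (G.b * G.c * G.d) + -2 * (G.c * G.c * G.c) + -J by
      linear_combination -hGJ]
    have e1 := abs_smul_le_two_pow 9 (show |(9 : ℤ)| ≤ 2 ^ 4 by norm_num)
      (abs_mul_le_two_pow (abs_mul_le_two_pow kb kc) kd)
    have e2 := abs_smul_le_two_pow (-2) (show |(-2 : ℤ)| ≤ 2 ^ 1 by norm_num)
      (abs_mul_le_two_pow (abs_mul_le_two_pow kc kc) kc)
    exact (abs_add_le_two_pow (abs_add_le_two_pow e1 e2) (by rwa [abs_neg])).trans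
      (two_pow_le (by omega))
  refine ⟨?_, kb.trans (two_pow_le ?_), kc.trans (two_pow_le ?_), kd.trans (two_pow_le ?_), ke⟩
  · rw [ha, abs_zero]
    positivity
  all_goals rw [formSize]; omega

/-- A reduced form has bounded coefficients, and so bounded solutions. -/
theorem reduced_bound {F : QuarticForm} (hF : F.Nondegenerate) {L : ℕ} (hI : |F.invI| ≤ 2 ^ L)
    (hJ : |F.invJ| ≤ 2 ^ L) : ∃ p q r s : ℤ, p * s - q * r = 1 ∧
      F.act p q r s ∈ QuarticForm.box (2 ^ formSize L) ∧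
      ∀ u v : ℤ, (F.act p q r s).eval u v = 1 →
        |u| ≤ 2 ^ valueBound (formSize L) ∧ |v| ≤ 2 ^ valueBound (formSize L) := by
  by_cases han : F.Anisotropic
  · obtain ⟨p, q, r, s, hdet, hm⟩ := QuarticForm.exists_small hF han
    have hN : 5 * (14400 * (1 + 3 * |F.invI| + |F.invJ|) ^ 2) ≤ (2 : ℤ) ^ formSize L := by
      have h1 : 1 + 3 * |F.invI| + |F.invJ| ≤ (2 : ℤ) ^ (L + 3) := by
        rw [pow_add]
        linarith [one_le_pow₀ (n := L) (show (1 : ℤ) ≤ 2 by norm_num)]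
      have h2 := pow_le_pow_left₀ (by positivity) h1 2
      refine le_trans ?_ (two_pow_le (show 17 + (L + 3) * 2 ≤ formSize L by rw [formSize]; omega))
      rw [pow_add _ 17, pow_mul]
      linarith [sq_nonneg ((2 : ℤ) ^ (L + 3))]
    obtain ⟨ka, kb, kc, kd, ke⟩ := hm
    have hbox : F.act p q r s ∈ QuarticForm.box (2 ^ formSize L) :=
      ⟨ka.trans hN, kb.trans hN, kc.trans hN, kd.trans hN, ke.trans hN⟩
    have hG : (F.act p q r s).Nondegenerate := by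
      rw [QuarticForm.Nondegenerate, QuarticForm.invI_act, QuarticForm.invJ_act, hdet]
      simpa [QuarticForm.Nondegenerate] using hF
    refine ⟨p, q, r, s, hdet, hbox, fun u v h => anisotropic_bound hG ?_ hbox h⟩
    intro X Y h0
    rw [QuarticForm.eval_act] at h0
    simp only [Int.cast_id] at h0
    obtain ⟨e1, e2⟩ := han _ _ h0
    exact ⟨by linear_combination s * e1 - q * e2 - X * hdet,
      by linear_combination p * e2 - r * e1 - Y * hdet⟩
  · obtain ⟨p, q, r, s, hdet, hm⟩ := QuarticForm.exists_isotropic hF han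
    exact ⟨p, q, r, s, hdet, isotropic_box hm hI hJ,
      fun u v h => isotropic_bound hm.1 hm.2.2.2.2.2 (isotropic_box hm hI hJ) h⟩

theorem abs_hess_le {G : QuarticForm} {N T : ℕ} (hN : G ∈ QuarticForm.box (2 ^ N)) {u v : ℤ}
    (hu : |u| ≤ 2 ^ T) (hv : |v| ≤ 2 ^ T) : |G.hess u v| ≤ 2 ^ (2 * N + 4 * T + 8) := by
  obtain ⟨ha, hb, hc, hd, he⟩ := hN
  have hterm : ∀ {c z w x₁ x₂ x₃ x₄ : ℤ}, |z| ≤ 2 ^ N → |w| ≤ 2 ^ N → |x₁| ≤ 2 ^ T →
      |x₂| ≤ 2 ^ T → |x₃| ≤ 2 ^ T → |x₄| ≤ 2 ^ T →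
      |c * (z * w * (x₁ * x₂ * x₃ * x₄))| ≤ |c| * 2 ^ (2 * N + 4 * T) :=
    fun {c z w x₁ x₂ x₃ x₄} hz hw h₁ h₂ h₃ h₄ => by
    rw [abs_mul]
    refine mul_le_mul_of_nonneg_left ?_ (abs_nonneg _)
    rw [show 2 * N + 4 * T = N + N + (T + T + T + T) by ring]
    exact abs_mul_le_two_pow (abs_mul_le_two_pow hz hw)
      (abs_mul_le_two_pow (abs_mul_le_two_pow (abs_mul_le_two_pow h₁ h₂) h₃) h₄)
  have a1 := abs_le.1 (hterm (c := 3) hb hb hu hu hu hu)
  have a2 := abs_le.1 (hterm (c := 8) ha hc hu hu hu hu)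
  have a3 := abs_le.1 (hterm (c := 4) hb hc hu hu hu hv)
  have a4 := abs_le.1 (hterm (c := 24) ha hd hu hu hu hv)
  have a5 := abs_le.1 (hterm (c := 4) hc hc hu hu hv hv)
  have a6 := abs_le.1 (hterm (c := 48) ha he hu hu hv hv)
  have a7 := abs_le.1 (hterm (c := 6) hb hd hu hu hv hv)
  have a8 := abs_le.1 (hterm (c := 4) hc hd hu hv hv hv)
  have a9 := abs_le.1 (hterm (c := 24) hb he hu hv hv hv)
  have a10 := abs_le.1 (hterm (c := 3) hd hd hv hv hv hv)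
  have a11 := abs_le.1 (hterm (c := 8) hc he hv hv hv hv)
  have h0 : (0 : ℤ) ≤ 2 ^ (2 * N + 4 * T) := by positivity
  simp only [Nat.abs_ofNat] at a1 a2 a3 a4 a5 a6 a7 a8 a9 a10 a11
  rw [pow_add _ (2 * N + 4 * T) 8, abs_le]
  simp only [QuarticForm.hess, Int.cast_id]
  ring_nf at a1 a2 a3 a4 a5 a6 a7 a8 a9 a10 a11 h0 ⊢
  constructor <;> linarith

/-- The ordinate of a point with bounded abscissa. -/
theorem ordinate_le {A B X Y : ℤ} {L E : ℕ} (hLE : L ≤ E) (hA : |A| ≤ 2 ^ L) (hB : |B| ≤ 2 ^ L)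
    (hX : |X| ≤ 2 ^ E) (hXY : Y ^ 2 = X ^ 3 + A * X + B) : |Y| ≤ 2 ^ (3 * E + 2) := by
  have hY : |Y| ≤ |Y ^ 2| := by
    rcases eq_or_ne Y 0 with hY | hY
    · simp [hY]
    · rw [abs_pow]; exact le_self_pow₀ (Int.one_le_abs hY) two_ne_zero
  rw [hXY, show X ^ 3 = X * X * X by ring] at hY
  exact hY.trans ((abs_add_le_two_pow (abs_add_le_two_pow
    (abs_mul_le_two_pow (abs_mul_le_two_pow hX hX) hX) (abs_mul_le_two_pow hA hX)) hB).trans
    (two_pow_le (by omega)))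

/-- **Integer points on a short equation.** -/
theorem short_bound {A B : ℤ} (h : 4 * A ^ 3 + 27 * B ^ 2 ≠ 0) {L : ℕ} (hA : |A| ≤ 2 ^ L)
    (hB : |B| ≤ 2 ^ L) {X Y : ℤ} (hXY : Y ^ 2 = X ^ 3 + A * X + B) :
    |X| ≤ 2 ^ shortBound L ∧ |Y| ≤ 2 ^ shortBound L := by
  set F : QuarticForm := ⟨1, 0, -6 * X, 8 * Y, -4 * A - 3 * X ^ 2⟩ with hF
  have hI : F.invI = -48 * A := by
    simp only [hF, QuarticForm.invI]
    ring
  have hJ : F.invJ = -1728 * B := by
    simp only [hF, QuarticForm.invJ]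
    linear_combination -1728 * hXY
  have hn : F.Nondegenerate := by
    rw [QuarticForm.Nondegenerate, hI, hJ]
    intro h0
    exact h (mul_left_cancel₀ (show (-110592 : ℤ) ≠ 0 by norm_num) (by linear_combination h0))
  have hI' : |F.invI| ≤ 2 ^ (L + 11) := by
    rw [hI, add_comm L 11]
    exact abs_smul_le_two_pow _ (by norm_num) hA
  have hJ' : |F.invJ| ≤ 2 ^ (L + 11) := by
    rw [hJ, add_comm L 11]
    exact abs_smul_le_two_pow _ (by norm_num) hB
  obtain ⟨p, q, r, s, hdet, hbox, hsol⟩ := reduced_bound hn hI' hJ'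
  have h10 : p * s + q * -r = 1 := by linear_combination hdet
  have h01 : r * s + s * -r = 0 := by ring
  have h1 : (F.act p q r s).eval s (-r) = 1 := by
    rw [QuarticForm.eval_act]
    simp only [Int.cast_id]
    rw [h10, h01]
    simp [hF, QuarticForm.eval]
  have h48 : (F.act p q r s).hess s (-r) = 48 * X := by
    rw [QuarticForm.hess_act]
    simp only [Int.cast_id]
    rw [hdet, h10, h01]
    simp [hF, QuarticForm.hess]
    ring
  obtain ⟨hs, hr⟩ := hsol _ _ h1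
  have hX : |X| ≤ 2 ^ shortExp L := by
    have h2 := abs_hess_le hbox hs hr
    rw [h48, abs_mul, Nat.abs_ofNat] at h2
    refine le_trans ?_ (h2.trans (two_pow_le (by rw [shortExp]; omega)))
    linarith [abs_nonneg X]
  have hLE : L ≤ shortExp L := Nat.le_add_left L _
  exact ⟨hX.trans (two_pow_le (by rw [shortBound]; omega)), ordinate_le hLE hA hB hX hXY⟩

/-- The invariants of a bounded equation. -/
theorem invariants_le {W : WeierstrassCurve ℤ} {H : ℕ} (h₁ : |W.a₁| ≤ 2 ^ H)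
    (h₂ : |W.a₂| ≤ 2 ^ H) (h₃ : |W.a₃| ≤ 2 ^ H) (h₄ : |W.a₄| ≤ 2 ^ H) (h₆ : |W.a₆| ≤ 2 ^ H) :
    |W.b₂| ≤ 2 ^ (2 * H + 3) ∧ |-27 * W.c₄| ≤ 2 ^ (6 * H + 19) ∧
      |-54 * W.c₆| ≤ 2 ^ (6 * H + 19) := by
  have n4 : |(4 : ℤ)| ≤ 2 ^ 2 := by norm_num
  have b2 : |W.b₂| ≤ 2 ^ (2 * H + 3) := by
    rw [WeierstrassCurve.b₂, sq]
    exact (abs_add_le_two_pow (abs_mul_le_two_pow h₁ h₁) (abs_smul_le_two_pow 4 n4 h₂)).trans
      (two_pow_le (by omega))
  have b4 : |W.b₄| ≤ 2 ^ (2 * H + 2) := by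
    rw [WeierstrassCurve.b₄]
    exact (abs_add_le_two_pow (abs_smul_le_two_pow 2 (show |(2 : ℤ)| ≤ 2 ^ 1 by norm_num) h₄)
      (abs_mul_le_two_pow h₁ h₃)).trans (two_pow_le (by omega))
  have b6 : |W.b₆| ≤ 2 ^ (2 * H + 3) := by
    rw [WeierstrassCurve.b₆, sq]
    exact (abs_add_le_two_pow (abs_mul_le_two_pow h₃ h₃) (abs_smul_le_two_pow 4 n4 h₆)).trans
      (two_pow_le (by omega))
  refine ⟨b2, ?_, ?_⟩
  · rw [WeierstrassCurve.c₄,
      show -27 * (W.b₂ ^ 2 - 24 * W.b₄) = -27 * (W.b₂ * W.b₂ + -24 * W.b₄) by ring]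
    exact (abs_smul_le_two_pow (-27) (show |(-27 : ℤ)| ≤ 2 ^ 5 by norm_num)
      (abs_add_le_two_pow (abs_mul_le_two_pow b2 b2)
        (abs_smul_le_two_pow (-24) (show |(-24 : ℤ)| ≤ 2 ^ 5 by norm_num) b4))).trans
      (two_pow_le (by omega))
  · rw [WeierstrassCurve.c₆, show -54 * (-W.b₂ ^ 3 + 36 * W.b₂ * W.b₄ - 216 * W.b₆) =
      -54 * (-1 * (W.b₂ * W.b₂ * W.b₂) + 36 * (W.b₂ * W.b₄) + -216 * W.b₆) by ring]
    exact (abs_smul_le_two_pow (-54) (show |(-54 : ℤ)| ≤ 2 ^ 6 by norm_num)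
      (abs_add_le_two_pow (abs_add_le_two_pow
        (abs_smul_le_two_pow (-1) (show |(-1 : ℤ)| ≤ 2 ^ 0 by norm_num)
          (abs_mul_le_two_pow (abs_mul_le_two_pow b2 b2) b2))
        (abs_smul_le_two_pow 36 (show |(36 : ℤ)| ≤ 2 ^ 6 by norm_num)
          (abs_mul_le_two_pow b2 b4)))
        (abs_smul_le_two_pow (-216) (show |(-216 : ℤ)| ≤ 2 ^ 8 by norm_num) b6))).trans
      (two_pow_le (by omega))

/-- Back from the short equation. -/
theorem descend {a₁ a₃ b₂ x y : ℤ} {H S : ℕ} (hS : 2 * H + 6 ≤ S) (hb2 : |b₂| ≤ 2 ^ (2 * H + 3))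
    (h₁ : |a₁| ≤ 2 ^ H) (h₃ : |a₃| ≤ 2 ^ H) (hX : |36 * x + 3 * b₂| ≤ 2 ^ S)
    (hY : |108 * (2 * y + a₁ * x + a₃)| ≤ 2 ^ S) :
    |x| ≤ 2 ^ (S + 1) ∧ |y| ≤ 2 ^ (S + H + 3) := by
  have hx : |x| ≤ 2 ^ (S + 1) := by
    have h36 : |36 * x| ≤ 2 ^ (max S (2 + (2 * H + 3)) + 1) := by
      rw [show 36 * x = 36 * x + 3 * b₂ + -3 * b₂ by ring]
      exact abs_add_le_two_pow hX
        (abs_smul_le_two_pow (-3) (show |(-3 : ℤ)| ≤ 2 ^ 2 by norm_num) hb2)
    rw [abs_mul, Nat.abs_ofNat] at h36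
    refine le_trans ?_ (h36.trans (two_pow_le ?_))
    · linarith [abs_nonneg x]
    · omega
  refine ⟨hx, ?_⟩
  have h216 : |216 * y| ≤ 2 ^ (S + H + 10) := by
    rw [show 216 * y = 108 * (2 * y + a₁ * x + a₃) + -108 * (a₁ * x) + -108 * a₃ by ring]
    have n108 : |(-108 : ℤ)| ≤ 2 ^ 7 := by norm_num
    exact (abs_add_le_two_pow (abs_add_le_two_pow hY
      (abs_smul_le_two_pow (-108) n108 (abs_mul_le_two_pow h₁ hx)))
      (abs_smul_le_two_pow (-108) n108 h₃)).trans (two_pow_le (by omega))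
  rw [abs_mul, Nat.abs_ofNat, show S + H + 10 = S + H + 3 + 7 by ring, pow_add] at h216
  by_contra hlt
  rw [not_le] at hlt
  generalize (2 : ℤ) ^ (S + H + 3) = P at h216 hlt
  norm_num at h216
  linarith [abs_nonneg y]

/-- **Baker's theorem on the integer points of an elliptic equation.** -/
theorem weierstrass_bound {W : WeierstrassCurve ℤ} (hW : W.Δ ≠ 0) {H : ℕ}
    (h₁ : |W.a₁| ≤ 2 ^ H) (h₂ : |W.a₂| ≤ 2 ^ H) (h₃ : |W.a₃| ≤ 2 ^ H) (h₄ : |W.a₄| ≤ 2 ^ H)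
    (h₆ : |W.a₆| ≤ 2 ^ H) {x y : ℤ}
    (hxy : y ^ 2 + W.a₁ * x * y + W.a₃ * y = x ^ 3 + W.a₂ * x ^ 2 + W.a₄ * x + W.a₆) :
    x.natAbs < 2 ^ integralPointBound H ∧ y.natAbs < 2 ^ integralPointBound H := by
  obtain ⟨hb2, hA, hB⟩ := invariants_le h₁ h₂ h₃ h₄ h₆
  have hne : 4 * (-27 * W.c₄) ^ 3 + 27 * (-54 * W.c₆) ^ 2 ≠ 0 := fun h => by
    have h' : (78732 * 1728 : ℤ) * W.Δ = 0 := by linear_combination -h + 78732 * W.c_relation
    exact hW ((mul_eq_zero.1 h').resolve_left (by norm_num))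
  obtain ⟨hX, hY⟩ := short_bound hne hA hB (X := 36 * x + 3 * W.b₂)
    (Y := 108 * (2 * y + W.a₁ * x + W.a₃)) (by
      simp only [WeierstrassCurve.c₄, WeierstrassCurve.c₆, WeierstrassCurve.b₂,
        WeierstrassCurve.b₄, WeierstrassCurve.b₆]
      linear_combination 46656 * hxy)
  have hS : 2 * H + 6 ≤ shortBound (6 * H + 19) := by
    have : 6 * H + 19 ≤ shortExp (6 * H + 19) := Nat.le_add_left _ _
    rw [shortBound]
    omega
  obtain ⟨hx, hy⟩ := descend hS hb2 h₁ h₃ hX hY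
  exact ⟨lt_of_le_of_lt (natAbs_le_two_pow hx) (Nat.pow_lt_pow_right one_lt_two
      (by rw [integralPointBound]; omega)),
    lt_of_le_of_lt (natAbs_le_two_pow hy) (Nat.pow_lt_pow_right one_lt_two
      (by rw [integralPointBound]; omega))⟩

end FA.BakerExplicit.EllipticEffective

end
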