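import Fermat.Agent.BakerExplicit.QuarticSmooth
import Fermat.Agent.SiegelPoints.Classes

/-!
# `S`-integral points on elliptic equations, effectively

For a point `(X / d², Y / d³)` on `y ^ 2 = x ^ 3 + A x + B` an integral quartic form of invariants
`-48 A`, `-1728 B` takes the value `d²` at `(1, 0)`, with Hessian `48 X` there. A reduced equivalent
form takes it at a coprime pair; when `d` has small primes, Thue–Mahler bounds that pair.
-/

set_option autoImplicit false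

noncomputable section

namespace FA.BakerExplicit.SIntegralPoints

open FA.SiegelPoints QuarticValues EllipticEffective EffectiveSUnits EffectiveThueMahler

/-- The bound for `log₂` of a pair where the reduced form has a smooth value. -/
def pairExp (L g : ℕ) : ℕ := thueMahlerBound 4 (formSize (L + 11)) g

/-- The bound for `log₂` of `X` and `d²`. -/
def abscissaExp (L g : ℕ) : ℕ := 2 * formSize (L + 11) + 4 * pairExp L g + 8

/-- The bound for `log₂` of numerators and denominators on a short equation. -/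
def shortSBound (L g : ℕ) : ℕ := 3 * abscissaExp L g + L + 2

/-- **The bound for the logarithm, to base `2`, of an `S`-integral point.** -/
def sIntegralBound (H g : ℕ) : ℕ := 2 * shortSBound (6 * H + 19) g + 3 * H + 24

/-- The denominators of a point on a short equation. -/
theorem exists_coordinates {A B : ℤ} {x y : ℚ} (hxy : y ^ 2 = x ^ 3 + A * x + B) :
    ∃ d : ℕ, d ≠ 0 ∧ x.den = d ^ 2 ∧ y.den = d ^ 3 ∧ IsCoprime x.num ((d : ℤ) ^ 6) ∧
      y.num ^ 2 = x.num ^ 3 + A * x.num * (d : ℤ) ^ 4 + B * (d : ℤ) ^ 6 := by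
  have e : y.num ^ 2 * (x.den : ℤ) ^ 3 =
      (x.num ^ 3 + (A * x.num + B * (x.den : ℤ)) * (x.den : ℤ) ^ 2) * (y.den : ℤ) ^ 2 := by
    have hxd : (x.den : ℚ) ≠ 0 := by exact_mod_cast x.den_nz
    have hyd : (y.den : ℚ) ≠ 0 := by exact_mod_cast y.den_nz
    rw [← x.num_div_den, ← y.num_div_den] at hxy
    field_simp at hxy
    exact_mod_cast (by linear_combination hxy : (y.num : ℚ) ^ 2 * (x.den : ℚ) ^ 3 =
      ((x.num : ℚ) ^ 3 + (A * x.num + B * (x.den : ℚ)) * (x.den : ℚ) ^ 2) * (y.den : ℚ) ^ 2)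
  have hpow : x.den ^ 3 = y.den ^ 2 := by
    have h1 : IsCoprime ((x.den : ℤ) ^ 3)
        (x.num ^ 3 + (A * x.num + B * (x.den : ℤ)) * (x.den : ℤ) ^ 2) := by
      refine IsCoprime.pow_left ?_
      rw [show x.num ^ 3 + (A * x.num + B * (x.den : ℤ)) * (x.den : ℤ) ^ 2 =
        x.num ^ 3 + (x.den : ℤ) * ((A * x.num + B * (x.den : ℤ)) * x.den) by ring]
      exact ((Rat.isCoprime_num_den x).symm.pow_right).add_mul_left_right _
    have h2 : IsCoprime ((y.den : ℤ) ^ 2) (y.num ^ 2) := (Rat.isCoprime_num_den y).symm.pow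
    refine Nat.dvd_antisymm (Int.natCast_dvd_natCast.1 ?_) (Int.natCast_dvd_natCast.1 ?_) <;>
      push_cast
    · exact h1.dvd_of_dvd_mul_left ⟨y.num ^ 2, by linarith⟩
    · exact h2.dvd_of_dvd_mul_left
        ⟨x.num ^ 3 + (A * x.num + B * (x.den : ℤ)) * (x.den : ℤ) ^ 2, by linarith⟩
  obtain ⟨d, hxd, hyd⟩ := Nat.exists_eq_pow_of_exponent_coprime_of_pow_eq_pow
    (by decide : Nat.Coprime 3 2) hpow
  have hd0 : d ≠ 0 := fun h => x.den_nz (by rw [hxd, h]; rfl)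
  refine ⟨d, hd0, hxd, hyd, ?_, ?_⟩
  · have h := Rat.isCoprime_num_den x
    rw [hxd, Nat.cast_pow] at h
    simpa [← pow_mul] using h.pow_right (n := 3)
  · rw [hxd, hyd] at e
    push_cast at e
    exact mul_right_cancel₀ (pow_ne_zero 6 (Int.natCast_ne_zero.2 hd0))
      (by linear_combination e)

/-- The quartic form of a point. -/
theorem exists_point_form {A B X Y D : ℤ} (hD : D ≠ 0) (hX : IsCoprime X (D ^ 6))
    (hYX : Y ^ 2 = X ^ 3 + A * X * D ^ 4 + B * D ^ 6) : ∃ F : QuarticForm,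
      F.invI = -48 * A ∧ F.invJ = -1728 * B ∧ F.eval 1 0 = D ^ 2 ∧ F.hess 1 0 = 48 * X := by
  obtain ⟨u, v, huv⟩ := hX
  set β := Y * u with hβ
  set k₁ := -(X ^ 2 * v) - A * D ^ 4 * v + B * u with hk₁
  set g := u * A + u * D ^ 2 * k₁ - X * v * D ^ 2 with hg
  set k₂ := X * u * k₁ - X ^ 2 * v - A * D ^ 4 * v with hk₂
  have hYu : Y ^ 2 * u = X ^ 2 + A * D ^ 4 + D ^ 6 * k₁ := by
    rw [hk₁]; linear_combination u * hYX + (X ^ 2 + A * D ^ 4) * huv
  have hε : β ^ 2 - X = D ^ 4 * g := by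
    rw [hβ, hg]; linear_combination u * hYu + X * huv
  set F : QuarticForm := ⟨D ^ 2, 4 * β, 6 * (D ^ 2 * g), 4 * (β * g + 2 * Y * v * D ^ 2),
    D ^ 2 * g ^ 2 + 8 * k₁ - 4 * k₂⟩ with hF
  have hI : F.invI = -48 * A := by
    simp only [hF, QuarticForm.invI]
    linear_combination -48 * g * hε - 96 * v * D ^ 2 * Y * hβ - 96 * v * D ^ 2 * hYu -
      (96 * D ^ 2 * k₁ + 48 * A) * huv - 48 * X * hg - 48 * D ^ 2 * hk₂
  have hA : 3 * F.b ^ 2 - 8 * F.a * F.c = 48 * X := by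
    simp only [hF]; linear_combination 48 * hε
  have hJ : F.invJ = -1728 * B := by
    have hr : F.b ^ 3 + 8 * F.a ^ 2 * F.d - 4 * F.a * F.b * F.c = 64 * Y := by
      simp only [hF]; linear_combination 64 * β * hε + 64 * X * hβ + 64 * Y * huv
    have hs := F.syzygy
    rw [hA, hr, hI, show F.a = D ^ 2 from rfl] at hs
    refine mul_left_cancel₀ (pow_ne_zero 6 hD) ?_
    linarith [show (D ^ 2) ^ 3 * F.invJ = D ^ 6 * F.invJ by ring,
      show (D : ℤ) ^ 6 * (-1728 * B) = -1728 * (Y ^ 2 - X ^ 3 - A * X * D ^ 4) by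
        rw [hYX]; ring]
  exact ⟨F, hI, hJ, by simp [QuarticForm.eval, hF], by simp [QuarticForm.hess, ← hA]⟩

theorem smooth_of_den {g d : ℕ} (hg : ∀ q : ℕ, q.Prime → q ∣ d ^ 2 → q ≤ 2 ^ g) :
    Smooth g (((d : ℤ) ^ 2).natAbs) := fun q hq hd => hg q hq (by simpa [Int.natAbs_pow] using hd)

/-- What the value and the Hessian at a bounded pair give. -/
theorem form_values_le {G : QuarticForm} {N T : ℕ} (hN : G ∈ QuarticForm.box (2 ^ N)) {u v : ℤ}
    (hu : |u| ≤ 2 ^ T) (hv : |v| ≤ 2 ^ T) {X D : ℤ} (h1 : G.eval u v = D ^ 2)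
    (h48 : G.hess u v = 48 * X) :
    |X| ≤ 2 ^ (2 * N + 4 * T + 8) ∧ D ^ 2 ≤ 2 ^ (2 * N + 4 * T + 8) := by
  constructor
  · have h2 := abs_hess_le hN hu hv
    rw [h48, abs_mul, Nat.abs_ofNat] at h2
    linarith [abs_nonneg X]
  · have h2 := abs_eval_le hN hu hv
    rw [h1, abs_of_nonneg (sq_nonneg D)] at h2
    exact h2.trans (two_pow_le (by omega))

/-- The ordinate and the denominators. -/
theorem coordinates_le {A B X Y D : ℤ} {L E : ℕ} (hA : |A| ≤ 2 ^ L) (hB : |B| ≤ 2 ^ L)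
    (hD : 1 ≤ D) (hX : |X| ≤ 2 ^ E) (hD2 : D ^ 2 ≤ 2 ^ E)
    (hYX : Y ^ 2 = X ^ 3 + A * X * D ^ 4 + B * D ^ 6) :
    |Y| ≤ 2 ^ (3 * E + L + 2) ∧ D ^ 3 ≤ 2 ^ (3 * E + L + 2) := by
  have hd : |D| ≤ 2 ^ E := by
    rw [abs_of_nonneg (zero_le_one.trans hD)]
    exact le_trans (le_self_pow₀ hD two_ne_zero) hD2
  have hd2 : |D ^ 2| ≤ 2 ^ E := (abs_of_nonneg (sq_nonneg D)).trans_le hD2
  have hY : |Y| ≤ |Y ^ 2| := by
    rcases eq_or_ne Y 0 with hY | hY
    · simp [hY]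
    · rw [abs_pow]; exact le_self_pow₀ (Int.one_le_abs hY) two_ne_zero
  rw [hYX, show X ^ 3 + A * X * D ^ 4 + B * D ^ 6 =
    X * X * X + A * (X * (D ^ 2 * D ^ 2)) + B * (D ^ 2 * D ^ 2 * D ^ 2) by ring] at hY
  constructor
  · exact hY.trans ((abs_add_le_two_pow (abs_add_le_two_pow
      (abs_mul_le_two_pow (abs_mul_le_two_pow hX hX) hX)
      (abs_mul_le_two_pow hA (abs_mul_le_two_pow hX (abs_mul_le_two_pow hd2 hd2))))
      (abs_mul_le_two_pow hB (abs_mul_le_two_pow (abs_mul_le_two_pow hd2 hd2) hd2))).trans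
      (two_pow_le (by omega)))
  · rw [show D ^ 3 = D ^ 2 * D by ring]
    exact (le_abs_self _).trans ((abs_mul_le_two_pow hd2 hd).trans (two_pow_le (by omega)))

/-- **`S`-integral points on a short equation.** -/
theorem short_bound_smooth {A B : ℤ} (h : 4 * A ^ 3 + 27 * B ^ 2 ≠ 0) {L g : ℕ}
    (hA : |A| ≤ 2 ^ L) (hB : |B| ≤ 2 ^ L) {x y : ℚ} (hxy : y ^ 2 = x ^ 3 + A * x + B)
    (hden : ∀ q : ℕ, q.Prime → q ∣ x.den → q ≤ 2 ^ g) :
    |x.num| ≤ 2 ^ shortSBound L g ∧ (x.den : ℤ) ≤ 2 ^ shortSBound L g ∧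
      |y.num| ≤ 2 ^ shortSBound L g ∧ (y.den : ℤ) ≤ 2 ^ shortSBound L g := by
  obtain ⟨d, hd0, hxd, hyd, hcop, hYX⟩ := exists_coordinates hxy
  have hD : (d : ℤ) ≠ 0 := Int.natCast_ne_zero.2 hd0
  obtain ⟨F, hI, hJ, hF1, hF48⟩ := exists_point_form hD hcop hYX
  have hn : F.Nondegenerate := by
    rw [QuarticForm.Nondegenerate, hI, hJ]
    intro h0
    exact h (mul_left_cancel₀ (show (-110592 : ℤ) ≠ 0 by norm_num) (by linear_combination h0))
  have hI' : |F.invI| ≤ 2 ^ (L + 11) := by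
    rw [hI, add_comm L 11]
    exact abs_smul_le_two_pow _ (by norm_num) hA
  have hJ' : |F.invJ| ≤ 2 ^ (L + 11) := by
    rw [hJ, add_comm L 11]
    exact abs_smul_le_two_pow _ (by norm_num) hB
  obtain ⟨p, q, r, s, hdet, hbox, -⟩ := reduced_bound hn hI' hJ'
  have h10 : p * s + q * -r = 1 := by linear_combination hdet
  have h01 : r * s + s * -r = 0 := by ring
  have hGn : (F.act p q r s).Nondegenerate := by
    rw [QuarticForm.Nondegenerate, QuarticForm.invI_act, QuarticForm.invJ_act, hdet]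
    simpa [QuarticForm.Nondegenerate] using hn
  have h1 : (F.act p q r s).eval s (-r) = (d : ℤ) ^ 2 := by
    rw [QuarticForm.eval_act]
    simp only [Int.cast_id]
    rw [h10, h01, hF1]
  have h48 : (F.act p q r s).hess s (-r) = 48 * x.num := by
    rw [QuarticForm.hess_act]
    simp only [Int.cast_id]
    rw [hdet, h10, h01, hF48, one_pow, one_mul]
  obtain ⟨hs, hr⟩ := smooth_values_bound hGn hbox (s := s) (r := -r) ⟨p, q, h10⟩
    (by rw [h1]; exact pow_ne_zero _ hD)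
    (by rw [h1]; exact smooth_of_den (g := g) (by rwa [← hxd]))
  have hd1 : (1 : ℤ) ≤ (d : ℤ) := by omega
  obtain ⟨hX, hd2⟩ := form_values_le hbox hs hr h1 h48
  obtain ⟨hY, hd3⟩ := coordinates_le hA hB hd1 hX hd2 hYX
  have hSX : abscissaExp L g ≤ shortSBound L g :=
    le_add_right (le_add_right (Nat.le_mul_of_pos_left _ (by norm_num)))
  refine ⟨hX.trans (two_pow_le hSX), ?_, hY, ?_⟩
  · rw [hxd, Nat.cast_pow]
    exact hd2.trans (two_pow_le hSX)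
  · rw [hyd, Nat.cast_pow]
    exact hd3

/-- The numerator and denominator of a quotient. -/
theorem num_den_le {r : ℚ} {a b : ℤ} (hb : b ≠ 0) (h : r = (a : ℚ) / b) {S : ℕ}
    (ha : |a| ≤ 2 ^ S) (hbS : |b| ≤ 2 ^ S) : r.num.natAbs ≤ 2 ^ S ∧ r.den ≤ 2 ^ S := by
  rw [← Rat.divInt_eq_div] at h
  subst h
  constructor
  · rcases eq_or_ne a 0 with rfl | ha0
    · simp
    · exact (Nat.le_of_dvd (Int.natAbs_pos.2 ha0)
        (Int.natAbs_dvd_natAbs.2 (Rat.num_dvd _ hb))).trans (natAbs_le_two_pow ha)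
  · exact (Nat.le_of_dvd (Int.natAbs_pos.2 hb) (Int.natCast_dvd.1 (Rat.den_dvd _ _))).trans
      (natAbs_le_two_pow hbS)

/-- Back to the long equation, with denominators. -/
theorem descend_rat {a₁ a₃ b₂ : ℤ} {x y X Y : ℚ} {H S : ℕ} (hb2 : |b₂| ≤ 2 ^ (2 * H + 3))
    (h₁ : |a₁| ≤ 2 ^ H) (h₃ : |a₃| ≤ 2 ^ H) (hX : 36 * x + 3 * b₂ = X)
    (hY : 108 * (2 * y + a₁ * x + a₃) = Y) (hXn : |X.num| ≤ 2 ^ S) (hXd : (X.den : ℤ) ≤ 2 ^ S)
    (hYn : |Y.num| ≤ 2 ^ S) (hYd : (Y.den : ℤ) ≤ 2 ^ S) :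
    (x.num.natAbs ≤ 2 ^ (2 * S + 3 * H + 24) ∧ x.den ≤ 2 ^ (2 * S + 3 * H + 24)) ∧
      y.num.natAbs ≤ 2 ^ (2 * S + 3 * H + 24) ∧ y.den ≤ 2 ^ (2 * S + 3 * H + 24) := by
  set e : ℤ := (X.den : ℤ) with he
  set f : ℤ := (Y.den : ℤ) with hf
  have he' : |e| ≤ 2 ^ S := by rwa [he, abs_of_nonneg (Int.natCast_nonneg _)]
  have hf' : |f| ≤ 2 ^ S := by rwa [hf, abs_of_nonneg (Int.natCast_nonneg _)]
  have he0 : e ≠ 0 := Int.natCast_ne_zero.2 X.den_nz
  have hf0 : f ≠ 0 := Int.natCast_ne_zero.2 Y.den_nz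
  have heq : (e : ℚ) ≠ 0 := Int.cast_ne_zero.2 he0
  have hfq : (f : ℚ) ≠ 0 := Int.cast_ne_zero.2 hf0
  have hXe : X = (X.num : ℚ) / (e : ℚ) := by rw [he]; push_cast; exact X.num_div_den.symm
  have hYf : Y = (Y.num : ℚ) / (f : ℚ) := by rw [hf]; push_cast; exact Y.num_div_den.symm
  have hm : |X.num + -3 * (b₂ * e)| ≤ 2 ^ (S + 2 * H + 6) :=
    (abs_add_le_two_pow hXn (abs_smul_le_two_pow (-3) (show |(-3 : ℤ)| ≤ 2 ^ 2 by norm_num)
      (abs_mul_le_two_pow hb2 he'))).trans (two_pow_le (by omega))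
  have n3 : |(-3 : ℤ)| ≤ 2 ^ 2 := by norm_num
  have n108 : |(-108 : ℤ)| ≤ 2 ^ 7 := by norm_num
  have n216 : |(216 : ℤ)| ≤ 2 ^ 8 := by norm_num
  have n36 : |(36 : ℤ)| ≤ 2 ^ 6 := by norm_num
  refine ⟨num_den_le (a := X.num + -3 * (b₂ * e)) (b := 36 * e) (mul_ne_zero (by norm_num) he0)
    ?_ (hm.trans (two_pow_le (by omega)))
    ((abs_smul_le_two_pow 36 n36 he').trans (two_pow_le (by omega))),
    num_den_le (a := Y.num * e + -3 * (a₁ * ((X.num + -3 * (b₂ * e)) * f)) + -108 * (a₃ * (e * f)))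
    (b := 216 * (e * f)) (mul_ne_zero (by norm_num) (mul_ne_zero he0 hf0)) ?_
    ((abs_add_le_two_pow (abs_add_le_two_pow (abs_mul_le_two_pow hYn he')
      (abs_smul_le_two_pow (-3) n3 (abs_mul_le_two_pow h₁ (abs_mul_le_two_pow hm hf'))))
      (abs_smul_le_two_pow (-108) n108 (abs_mul_le_two_pow h₃ (abs_mul_le_two_pow he' hf')))).trans
      (two_pow_le (by omega)))
    ((abs_smul_le_two_pow 216 n216 (abs_mul_le_two_pow he' hf')).trans (two_pow_le (by omega)))⟩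
  · push_cast
    rw [eq_div_iff (mul_ne_zero (by norm_num) heq)]
    rw [eq_div_iff heq] at hXe
    linear_combination hXe + (e : ℚ) * hX
  · push_cast
    rw [eq_div_iff (mul_ne_zero (by norm_num) (mul_ne_zero heq hfq))]
    rw [eq_div_iff heq] at hXe
    rw [eq_div_iff hfq] at hYf
    linear_combination (e : ℚ) * hYf + (e : ℚ) * f * hY - 3 * (a₁ : ℚ) * f * hXe -
      3 * (a₁ : ℚ) * f * e * hX

/-- **Effective `S`-integral points on an elliptic equation.** -/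
theorem sIntegral_bound {W : WeierstrassCurve ℤ} (hW : W.Δ ≠ 0) {H g : ℕ}
    (h₁ : |W.a₁| ≤ 2 ^ H) (h₂ : |W.a₂| ≤ 2 ^ H) (h₃ : |W.a₃| ≤ 2 ^ H) (h₄ : |W.a₄| ≤ 2 ^ H)
    (h₆ : |W.a₆| ≤ 2 ^ H) {x y : ℚ}
    (hxy : y ^ 2 + W.a₁ * x * y + W.a₃ * y = x ^ 3 + W.a₂ * x ^ 2 + W.a₄ * x + W.a₆)
    (hden : ∀ q : ℕ, q.Prime → q ∣ x.den → q ≤ 2 ^ g) :
    (x.num.natAbs ≤ 2 ^ sIntegralBound H g ∧ x.den ≤ 2 ^ sIntegralBound H g) ∧
      y.num.natAbs ≤ 2 ^ sIntegralBound H g ∧ y.den ≤ 2 ^ sIntegralBound H g := by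
  obtain ⟨hb2, hA, hB⟩ := invariants_le h₁ h₂ h₃ h₄ h₆
  have hne : 4 * (-27 * W.c₄) ^ 3 + 27 * (-54 * W.c₆) ^ 2 ≠ 0 := fun h => by
    have h' : (78732 * 1728 : ℤ) * W.Δ = 0 := by linear_combination -h + 78732 * W.c_relation
    exact hW ((mul_eq_zero.1 h').resolve_left (by norm_num))
  have hdd : (36 * x + 3 * (W.b₂ : ℚ)).den ∣ x.den := by
    rw [← Int.natCast_dvd_natCast]
    have e : 36 * x + 3 * (W.b₂ : ℚ) =
        ((36 * x.num + 3 * W.b₂ * x.den : ℤ) : ℚ) / ((x.den : ℤ) : ℚ) := by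
      conv_lhs => rw [← x.num_div_den]
      have : (x.den : ℚ) ≠ 0 := by exact_mod_cast x.den_nz
      push_cast
      field_simp
    rw [e, ← Rat.divInt_eq_div]
    exact Rat.den_dvd _ _
  obtain ⟨hXn, hXd, hYn, hYd⟩ := short_bound_smooth hne hA hB (x := 36 * x + 3 * W.b₂)
    (y := 108 * (2 * y + W.a₁ * x + W.a₃)) (g := g) (by
      simp only [WeierstrassCurve.c₄, WeierstrassCurve.c₆, WeierstrassCurve.b₂,
        WeierstrassCurve.b₄, WeierstrassCurve.b₆]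
      push_cast
      linear_combination 46656 * hxy) (fun q hq hd => hden q hq (hd.trans hdd))
  exact descend_rat hb2 h₁ h₃ rfl rfl hXn hXd hYn hYd

end FA.BakerExplicit.SIntegralPoints

end
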