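import Fermat.Agent.BakerExplicit.BinomialPadic
import Fermat.Agent.BakerExplicit.Applications

/-!
# At most four exponential terms

Baker's theorem at a place where at most two terms are largest gives a lower bound for the sum. For
four terms closed under complex conjugation there is such a place or the sum of the three largest
terms is a product of two binomials. So the sum is not zero from an explicit index on.
-/

set_option autoImplicit false

noncomputable section

namespace FA.BakerExplicit.FourTerms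

open Finset NumberField Module GeneratedField TernaryRecurrence EffectiveSUnits FA.Brumer

/-- The logarithmic size of an index. -/
def logSize (n : ℕ) : ℕ := Nat.log 2 (n + 1) + 1

theorem one_le_logSize (n : ℕ) : 1 ≤ logSize n := Nat.le_add_left _ _

theorem le_pow_kappa (l : ℕ) : l ≤ l ^ kappa 4 := Nat.le_self_pow (by simp [kappa]) l

/-- An index above `D` times a power of its logarithmic size. -/
def indexBound (D : ℕ) : ℕ := 2 * (2 * kappa 4) ^ (2 * kappa 4) * D ^ 2

theorem mul_pow_le_of_index {D n : ℕ} (hn : indexBound D ≤ n) : D * logSize n ^ kappa 4 ≤ n := by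
  by_contra h
  push Not at h
  rw [logSize] at h
  have := le_of_le_add_mul_log_pow (X := n + 1) (u := 0) (D := D) (κ := kappa 4)
    (by simp [kappa]) (by omega)
  rw [indexBound] at hn
  omega

theorem room_of_index {a h G n : ℕ} (hn : indexBound ((a + h + 3) * G) ≤ n) :
    (a * logSize n ^ kappa 4 + h * logSize n + 3) * G ≤ n := by
  refine le_trans ?_ (mul_pow_le_of_index hn)
  rw [mul_right_comm _ G, add_mul (a + h) 3, add_mul a h]
  refine Nat.mul_le_mul_right G (Nat.add_le_add (Nat.add_le_add le_rfl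
    (Nat.mul_le_mul_left h (le_pow_kappa _))) (Nat.le_mul_of_pos_right 3 ?_))
  exact Nat.pow_pos (one_le_logSize n)

/-- The loss at an archimedean place, per power of the logarithmic size. -/
def archWeight (d h : ℕ) : ℕ := h * d + 1 + baseAlg 3 d (archSize d h) 4 ^ kappa 3

/-- The loss at a `p`-adic place, per power of the logarithmic size. -/
def padicWeight (d e h g : ℕ) : ℕ :=
  h * d + d + 1 + 2 * baseAlg 4 d (2 ^ (3 * (g * d)) * partHeight d e h + 1) 1 ^ kappa 4

/-- The loss of one number. -/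
def placeWeight (d e h : ℕ) : ℕ := d * (placePrime d e h + 1)

/-- The loss at every place. -/
def placeLoss (d e h : ℕ) : ℕ :=
  h * placeWeight d e h + archWeight d h +
    placePrime d e h * padicWeight d e h (placePrime d e h)

/-- The gap at every place. -/
def placeGap (d e h : ℕ) : ℕ := 2 ^ archGap d h + padicGap d e (placePrime d e h)

theorem baseAlg_scale {n d H H' m m' l : ℕ} (hH : H ≤ l * H') (hm : m ≤ l * m') :
    baseAlg n d H m ≤ l * baseAlg n d H' m' := by
  rw [baseAlg, baseAlg, mul_left_comm l]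
  exact Nat.mul_le_mul_left _ ((Nat.add_le_add hH hm).trans_eq (mul_add l H' m').symm)

theorem pow_scale {X Y l k K : ℕ} (hl : 1 ≤ l) (hk : k ≤ K) (hX : X ≤ l * Y) :
    X ^ k ≤ Y ^ k * l ^ K := by
  refine (Nat.pow_le_pow_left hX k).trans ?_
  rw [mul_pow, mul_comm]
  exact Nat.mul_le_mul_left _ (Nat.pow_le_pow_right hl hk)

theorem archLoss_le {d h l : ℕ} (hl : 1 ≤ l) :
    archLoss d (h * l) l ≤ archWeight d h * l ^ kappa 4 := by
  rw [archLoss, archWeight, add_mul, add_mul]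
  refine Nat.add_le_add (Nat.add_le_add ?_ ?_) (pow_scale hl ?_ (baseAlg_scale ?_ ?_))
  · rw [mul_right_comm]
    exact Nat.mul_le_mul_left _ (le_pow_kappa l)
  · rw [one_mul]
    exact Nat.one_le_pow _ _ hl
  · simp [kappa]
  · rw [archSize, archSize,
      show l * (2 * h * d + 2 * h + 4) = 2 * (h * l) * d + 2 * (h * l) + 4 * l by ring]
    omega
  · omega

theorem partHeight_scale {d e h l : ℕ} (hl : 1 ≤ l) :
    partHeight d e (h * l) ≤ l * partHeight d e h := by
  simp only [partHeight, EffectiveUnits.reducedSize]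
  generalize 2 ^ classExp d e = c
  generalize (d + 1) * UnitSystem.unitBound d e = U
  rw [show l * (h * c + 2 * (U + h * d * c)) = h * l * c + 2 * (l * U + h * l * d * c) by ring]
  have := Nat.le_mul_of_pos_left U hl
  omega

theorem padicLoss_le {d e h g l : ℕ} (hl : 1 ≤ l) :
    padicLoss d e (h * l) g l ≤ padicWeight d e h g * l ^ kappa 4 := by
  have h1 : 1 ≤ l ^ kappa 4 := Nat.one_le_pow _ _ hl
  rw [padicLoss, padicWeight, add_mul, add_mul, add_mul, one_mul]
  refine Nat.add_le_add (Nat.add_le_add (Nat.add_le_add ?_ (Nat.le_mul_of_pos_right d h1)) h1) ?_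
  · rw [mul_right_comm]
    exact Nat.mul_le_mul_left _ (le_pow_kappa l)
  rw [mul_assoc]
  refine Nat.mul_le_mul_left 2 (pow_scale hl le_rfl (baseAlg_scale ?_ (by rw [mul_one])))
  rw [mul_add, mul_left_comm l, mul_one]
  exact Nat.add_le_add (Nat.mul_le_mul_left _ (partHeight_scale hl)) hl

variable {K : Type*} [Field K] [NumberField K] {d e h n : ℕ}

/-- No ratio a root of unity. -/
def Independent (x y : 𝓞 K) : Prop := ∀ i, 0 < i → x ^ i ≠ y ^ i

omit [NumberField K] in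
theorem Independent.symm {x y : 𝓞 K} (h : Independent x y) : Independent y x :=
  fun i hi => (h i hi).symm

omit [NumberField K] in
theorem Independent.ne {x y : 𝓞 K} (h : Independent x y) : x ≠ y := by
  simpa using h 1 one_pos

theorem independent_of_period (hd : finrank ℚ K ≤ d) {x y : 𝓞 K} (hy : y ≠ 0)
    (hxy : x ^ rootPeriod d ≠ y ^ rootPeriod d) : Independent x y := fun i hi h => by
  refine ratio_pow_ne hd hy hxy i hi ?_
  rw [div_pow, div_eq_one_iff_eq (pow_ne_zero _ (RingOfIntegers.coe_ne_zero_iff.2 hy)), ← map_pow,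
    ← map_pow, h]

/-- The absolute value of an embedding. -/
def placeValue {C : Type*} [NormedField C] (σ : K →+* C) : AbsoluteValue (𝓞 K) ℝ :=
  (NormedField.toAbsoluteValue C).comp (f := σ.comp (algebraMap (𝓞 K) K))
    (σ.injective.comp RingOfIntegers.coe_injective)

omit [NumberField K] in
theorem placeValue_apply {C : Type*} [NormedField C] (σ : K →+* C) (a : 𝓞 K) :
    placeValue σ a = ‖σ (a : K)‖ :=
  rfl

/-- An absolute value with explicit bounds for numbers of bounded house. -/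
structure EffectivePlace (d e h : ℕ) (v : AbsoluteValue (𝓞 K) ℝ) : Prop where
  lower : ∀ {T : ℕ} {c : 𝓞 K}, c ≠ 0 → HouseLe T c →
    ((2 : ℝ) ^ (T * placeWeight d e h))⁻¹ ≤ v c
  upper : ∀ {T : ℕ} {c : 𝓞 K}, HouseLe T c → v c ≤ (2 : ℝ) ^ T
  binomial : ∀ {n : ℕ} {A B x y : 𝓞 K}, A ≠ 0 → B ≠ 0 → x ≠ 0 → y ≠ 0 →
    HouseLe (h * logSize n) A → HouseLe (h * logSize n) B → HouseLe h x → HouseLe h y →
    v x = v y → A * x ^ n + B * y ^ n ≠ 0 →
    v x ^ n * ((2 : ℝ) ^ (placeLoss d e h * logSize n ^ kappa 4))⁻¹ ≤ v (A * x ^ n + B * y ^ n)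
  gap : ∀ {n k : ℕ} {x y : 𝓞 K}, x ≠ 0 → y ≠ 0 → HouseLe h x → HouseLe h y → v x < v y →
    k * placeGap d e h ≤ n → v x ^ n * 2 ^ k ≤ v y ^ n

omit [NumberField K] in
theorem house_mono_log {x : 𝓞 K} (hx : HouseLe h x) (n : ℕ) : HouseLe (h * logSize n) x :=
  hx.mono (Nat.le_mul_of_pos_right h (one_le_logSize n))

/-- **An archimedean place.** -/
theorem arch_place (hd : finrank ℚ K ≤ d) (σ : K →+* ℂ) :
    EffectivePlace d e h (placeValue σ) where
  lower := fun {T c} hc hT => by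
    refine le_trans (inv_anti₀ (by positivity) (pow_le_pow_right₀ one_le_two
      (Nat.mul_le_mul_left T ?_))) (inv_two_pow_le hd hc hT σ)
    exact Nat.le_mul_of_pos_right d (Nat.succ_pos _)
  upper := fun {T c} hT => hT σ
  binomial := fun {n A B x y} hA hB hx hy hAh hBh hxh hyh hv hne => by
    simp only [placeValue_apply] at hv ⊢
    refine le_trans (mul_le_mul_of_nonneg_left (inv_anti₀ (by positivity)
      (pow_le_pow_right₀ one_le_two ?_)) (by positivity))
      (arch_binomial hd σ hA hB hx hy hAh hBh (house_mono_log hxh n) (house_mono_log hyh n)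
        hv hne)
    exact (archLoss_le (one_le_logSize n)).trans
      (Nat.mul_le_mul_right _ ((Nat.le_add_left _ _).trans (Nat.le_add_right _ _)))
  gap := fun {n k x y} _ _ hxh hyh hlt hn =>
    arch_gap hd σ hxh hyh hlt ((Nat.mul_le_mul_left k (Nat.le_add_right _ _)).trans hn)

/-- **A `p`-adic place with `p` small.** -/
theorem padic_place (hd : finrank ℚ K ≤ d) (he : (discr K).natAbs ≤ 2 ^ e) {p : ℕ}
    [hp : Fact p.Prime] (ψ : K →+* ℂ_[p]) (hpg : p ≤ 2 ^ placePrime d e h) :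
    EffectivePlace d e h (placeValue ψ) where
  lower := fun {T c} hc hT => by
    refine le_trans (inv_anti₀ (pow_pos (prime_pos p) _) ?_)
      (inv_pow_le_norm_map (p := p) hd ψ hc hT)
    refine (pow_le_pow_left₀ (Nat.cast_nonneg p) (show (p : ℝ) ≤ 2 ^ placePrime d e h by
      exact_mod_cast hpg) _).trans ?_
    rw [← pow_mul, placeWeight, mul_comm (placePrime d e h), mul_assoc T]
    exact pow_le_pow_right₀ one_le_two
      (Nat.mul_le_mul_left T (Nat.mul_le_mul_left d (Nat.le_succ _)))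
  upper := fun {T c} _ =>
    (norm_map_le_one ψ c).trans (one_le_pow₀ one_le_two)
  binomial := fun {n A B x y} hA hB hx hy hAh hBh hxh hyh hv hne => by
    simp only [placeValue_apply] at hv ⊢
    refine le_trans (mul_le_mul_of_nonneg_left (inv_anti₀ (pow_pos (prime_pos p) _)
      ?_) (by positivity)) (padic_binomial ψ hd he hpg hA hB hx hy hAh hBh (house_mono_log hxh n)
        (house_mono_log hyh n) hv hne)
    refine (pow_le_pow_left₀ (Nat.cast_nonneg p) (show (p : ℝ) ≤ 2 ^ placePrime d e h by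
      exact_mod_cast hpg) _).trans ?_
    rw [← pow_mul]
    refine pow_le_pow_right₀ one_le_two
      ((Nat.mul_le_mul_left _ (padicLoss_le (one_le_logSize n))).trans ?_)
    rw [← mul_assoc]
    exact Nat.mul_le_mul_right _ (Nat.le_add_left _ _)
  gap := fun {n k x y} hx hy hxh hyh hlt hn =>
    padic_gap ψ hd he hpg hx hy hxh hyh hlt
      ((Nat.mul_le_mul_left k (Nat.le_add_left _ _)).trans hn)

/-- **A place where two numbers differ.** -/
theorem exists_effective_place (hd : finrank ℚ K ≤ d) (he : (discr K).natAbs ≤ 2 ^ e)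
    {x y : 𝓞 K} (hx : x ≠ 0) (hy : y ≠ 0) (hxh : HouseLe h x) (hyh : HouseLe h y)
    (hxy : Independent x y) : ∃ v, EffectivePlace d e h v ∧ v x ≠ v y := by
  rcases exists_place hd he hx hy hxh hyh (hxy _ (rootPeriod_pos d)) with
    ⟨σ, hσ⟩ | ⟨q, hq, φ, hqb, hφ⟩
  · exact ⟨placeValue σ, arch_place hd σ, hσ⟩
  · exact ⟨placeValue φ, padic_place hd he φ hqb, hφ⟩

variable {ι : Type*} {v : AbsoluteValue (𝓞 K) ℝ}

omit [NumberField K] in
/-- **A dominant part excludes a zero.** -/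
theorem ne_zero_of_dominant (hv : EffectivePlace d e h v) {L : ℕ} {P y : 𝓞 K} {s : Finset ι}
    {c x : ι → 𝓞 K} (hy : y ≠ 0) (hyh : HouseLe h y)
    (hP : v y ^ n * ((2 : ℝ) ^ L)⁻¹ ≤ v P) (hs : #s ≤ 4)
    (hc : ∀ i ∈ s, HouseLe (h * logSize n) (c i)) (hx : ∀ i ∈ s, x i ≠ 0)
    (hxh : ∀ i ∈ s, HouseLe h (x i)) (hlt : ∀ i ∈ s, v (x i) < v y)
    (hn : (L + h * logSize n + 3) * placeGap d e h ≤ n) :
    P + ∑ i ∈ s, c i * x i ^ n ≠ 0 := fun h0 => by
  rw [eq_neg_of_add_eq_zero_left h0, v.map_neg] at hP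
  set T := h * logSize n
  set Y := v y ^ n with hY
  have hY0 : 0 < Y := pow_pos (v.pos hy) n
  have hterm : ∀ i ∈ s, v (c i * x i ^ n) ≤ (2 : ℝ) ^ T * (Y * ((2 : ℝ) ^ (L + T + 3))⁻¹) := by
    intro i hi
    rw [map_mul, map_pow]
    refine mul_le_mul (hv.upper (hc i hi)) ?_ (pow_nonneg (v.nonneg _) n) (by positivity)
    rw [← div_eq_mul_inv, le_div_iff₀ (by positivity)]
    exact hv.gap (hx i hi) hy (hxh i hi) hyh (hlt i hi) hn
  have h1 := (hP.trans (v.sum_le s _)).trans (Finset.sum_le_card_nsmul s _ _ hterm)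
  rw [nsmul_eq_mul] at h1
  have h2 : Y * ((2 : ℝ) ^ L)⁻¹ ≤ 4 * ((2 : ℝ) ^ T * (Y * ((2 : ℝ) ^ (L + T + 3))⁻¹)) :=
    h1.trans (mul_le_mul_of_nonneg_right (by exact_mod_cast hs) (by positivity))
  have h3 : 4 * ((2 : ℝ) ^ T * (Y * ((2 : ℝ) ^ (L + T + 3))⁻¹)) = Y * ((2 : ℝ) ^ L)⁻¹ / 2 := by
    rw [pow_add, pow_add]
    field_simp
    ring
  rw [h3] at h2
  have : 0 < Y * ((2 : ℝ) ^ L)⁻¹ := mul_pos hY0 (by positivity)
  linarith

omit [NumberField K] in
/-- One term is not small. -/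
theorem single_lower (hv : EffectivePlace d e h v) {B y : 𝓞 K} (hB : B ≠ 0)
    (hBh : HouseLe (h * logSize n) B) :
    v y ^ n * ((2 : ℝ) ^ (placeLoss d e h * logSize n ^ kappa 4))⁻¹ ≤ v (B * y ^ n) := by
  rw [map_mul, map_pow, mul_comm]
  refine mul_le_mul_of_nonneg_right (le_trans (inv_anti₀ (by positivity)
    (pow_le_pow_right₀ one_le_two ?_)) (hv.lower hB hBh)) (pow_nonneg (v.nonneg _) n)
  rw [mul_right_comm]
  exact Nat.mul_le_mul ((Nat.le_add_right _ _).trans (Nat.le_add_right _ _)) (le_pow_kappa _)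

/-- The index from which two terms, or terms with a good place, do not vanish. -/
def largeIndex (d e h : ℕ) : ℕ := indexBound ((placeLoss d e h + h + 3) * placeGap d e h)

/-- **Two independent terms.** -/
theorem two_terms_ne_zero (hd : finrank ℚ K ≤ d) (he : (discr K).natAbs ≤ 2 ^ e)
    {A B x y : 𝓞 K} (hA : A ≠ 0) (hB : B ≠ 0) (hx : x ≠ 0) (hy : y ≠ 0)
    (hAh : HouseLe (h * logSize n) A) (hBh : HouseLe (h * logSize n) B) (hxh : HouseLe h x)
    (hyh : HouseLe h y) (hxy : Independent x y) (hn : largeIndex d e h ≤ n) :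
    A * x ^ n + B * y ^ n ≠ 0 := by
  obtain ⟨v, hv, hne⟩ := exists_effective_place hd he hx hy hxh hyh hxy
  wlog hlt : v x < v y generalizing A B x y
  · rw [add_comm]
    exact this hB hA hy hx hBh hAh hyh hxh hxy.symm hne.symm
      (lt_of_le_of_ne (not_lt.1 hlt) hne.symm)
  rw [add_comm]
  simpa using ne_zero_of_dominant hv (s := {()}) (c := fun _ => A) (x := fun _ => x) hy hyh
    (single_lower hv hB hBh) (by simp) (fun _ _ => hAh) (fun _ _ => hx) (fun _ _ => hxh)
    (fun _ _ => hlt) (room_of_index hn)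

/-- **A place where no three terms are largest.** -/
theorem sum_ne_zero_of_place (hd : finrank ℚ K ≤ d) (he : (discr K).natAbs ≤ 2 ^ e)
    (hv : EffectivePlace d e h v) {s : Finset ι} {c x : ι → 𝓞 K} (hs : s.Nonempty) (hcard : #s ≤ 4)
    (hc0 : ∀ i ∈ s, c i ≠ 0) (hc : ∀ i ∈ s, HouseLe (h * logSize n) (c i))
    (hx : ∀ i ∈ s, x i ≠ 0) (hxh : ∀ i ∈ s, HouseLe h (x i))
    (hind : ∀ i ∈ s, ∀ j ∈ s, i ≠ j → Independent (x i) (x j))
    (htop : ∀ i ∈ s, ∀ j ∈ s, ∀ k ∈ s, i ≠ j → i ≠ k → j ≠ k → v (x i) = v (x j) →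
      v (x i) = v (x k) → ∃ l ∈ s, v (x i) < v (x l))
    (hn : largeIndex d e h ≤ n) : ∑ i ∈ s, c i * x i ^ n ≠ 0 := by
  classical
  obtain ⟨m, hm, hmax⟩ := s.exists_max_image (fun i => v (x i)) hs
  set t := s.filter (fun i => v (x i) = v (x m)) with ht
  have hmt : m ∈ t := mem_filter.2 ⟨hm, rfl⟩
  have htc : #t ≤ 2 := by
    by_contra h
    obtain ⟨i, hi, j, hj, k, hk, hij, hik, hjk⟩ := two_lt_card.1 (not_le.1 h)
    rw [ht, mem_filter] at hi hj hk
    obtain ⟨l, hl, hlt⟩ := htop i hi.1 j hj.1 k hk.1 hij hik hjk (hi.2.trans hj.2.symm)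
      (hi.2.trans hk.2.symm)
    exact (hmax l hl).not_gt (hi.2 ▸ hlt)
  rw [← sum_sdiff (filter_subset (fun i => v (x i) = v (x m)) s), add_comm, ← ht]
  refine ne_zero_of_dominant hv (hx m hm) (hxh m hm) ?_
    ((card_le_card sdiff_subset).trans hcard) (fun i hi => hc i (mem_sdiff.1 hi).1)
    (fun i hi => hx i (mem_sdiff.1 hi).1) (fun i hi => hxh i (mem_sdiff.1 hi).1)
    (fun i hi => lt_of_le_of_ne (hmax i (mem_sdiff.1 hi).1) fun he' =>
      (mem_sdiff.1 hi).2 (mem_filter.2 ⟨(mem_sdiff.1 hi).1, he'⟩)) (room_of_index hn)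
  rcases Nat.lt_or_ge (#t) 2 with h1 | h1
  · obtain ⟨a, ha⟩ := card_eq_one.1 (le_antisymm (Nat.le_of_lt_succ h1)
      (card_pos.2 ⟨m, hmt⟩))
    rw [ha, mem_singleton] at hmt
    rw [ha, sum_singleton, ← hmt]
    exact single_lower hv (hc0 m hm) (hc m hm)
  · obtain ⟨a, b, hab, ha⟩ := card_eq_two.1 (le_antisymm htc h1)
    have hat : a ∈ t := by rw [ha]; exact mem_insert_self a {b}
    have hbt : b ∈ t := by rw [ha]; exact mem_insert_of_mem (mem_singleton_self b)
    rw [ht, mem_filter] at hat hbt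
    rw [ha, sum_pair hab, ← hat.2]
    exact hv.binomial (hc0 a hat.1) (hc0 b hbt.1) (hx a hat.1) (hx b hbt.1) (hc a hat.1)
      (hc b hbt.1) (hxh a hat.1) (hxh b hbt.1) (hat.2.trans hbt.2.symm)
      (two_terms_ne_zero hd he (hc0 a hat.1) (hc0 b hbt.1) (hx a hat.1) (hx b hbt.1) (hc a hat.1)
        (hc b hbt.1) (hxh a hat.1) (hxh b hbt.1) (hind a hat.1 b hbt.1 hab) hn)

/-- **At most three independent terms.** -/
theorem three_terms_ne_zero (hd : finrank ℚ K ≤ d) (he : (discr K).natAbs ≤ 2 ^ e)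
    {s : Finset ι} {c x : ι → 𝓞 K} (hs : s.Nonempty) (hcard : #s ≤ 3)
    (hc0 : ∀ i ∈ s, c i ≠ 0) (hc : ∀ i ∈ s, HouseLe (h * logSize n) (c i))
    (hx : ∀ i ∈ s, x i ≠ 0) (hxh : ∀ i ∈ s, HouseLe h (x i))
    (hind : ∀ i ∈ s, ∀ j ∈ s, i ≠ j → Independent (x i) (x j))
    (hn : largeIndex d e h ≤ n) : ∑ i ∈ s, c i * x i ^ n ≠ 0 := by
  classical
  obtain ⟨v, hv, hdiff⟩ : ∃ v, EffectivePlace d e h v ∧
      (2 < #s → ∃ i ∈ s, ∃ j ∈ s, v (x i) ≠ v (x j)) := by
    by_cases h3 : 2 < #s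
    · obtain ⟨i, hi, j, hj, k, hk, hij, -, -⟩ := two_lt_card.1 h3
      obtain ⟨v, hv, hne⟩ := exists_effective_place hd he (hx i hi) (hx j hj) (hxh i hi) (hxh j hj)
        (hind i hi j hj hij)
      exact ⟨v, hv, fun _ => ⟨i, hi, j, hj, hne⟩⟩
    · obtain ⟨σ⟩ : Nonempty (K →+* ℂ) := inferInstance
      exact ⟨placeValue σ, arch_place hd σ, fun h => absurd h h3⟩
  refine sum_ne_zero_of_place hd he hv hs (hcard.trans (Nat.le_succ 3)) hc0 hc hx hxh hind ?_ hn
  intro i hi j hj k hk hij hik hjk e1 e2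
  obtain ⟨p, hp, q, hq, hpq⟩ := hdiff (two_lt_card.2 ⟨i, hi, j, hj, k, hk, hij, hik, hjk⟩)
  have hs3 : s = {i, j, k} := (Finset.eq_of_subset_of_card_le
    (by simp [insert_subset_iff, hi, hj, hk]) (by
      rw [card_eq_three.2 ⟨i, j, k, hij, hik, hjk, rfl⟩]; exact hcard)).symm
  have hall : ∀ l ∈ s, v (x l) = v (x i) := fun l hl => by
    rw [hs3] at hl
    simp only [mem_insert, mem_singleton] at hl
    rcases hl with rfl | rfl | rfl
    exacts [rfl, e1.symm, e2.symm]
  exact absurd ((hall p hp).trans (hall q hq).symm) hpq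

/-- The degree of the field of the quadratic form. -/
def quadDegree (d : ℕ) : ℕ := (2 * d) ^ 5

/-- The discriminant of that field. -/
def quadDisc (d h : ℕ) : ℕ := discExp (2 * d) 5 (2 * h + 4)

/-- The loss of three terms in a conjugate progression. -/
def quadLoss (d h : ℕ) : ℕ :=
  2 * placeLoss (quadDegree d) (quadDisc d h) (2 * h + 5) + h + 2

/-- **Three terms with `b c = a ^ 2`.** -/
theorem quad_lower (hd : finrank ℚ K ≤ d) {A B C a b c : 𝓞 K} (hA : HouseLe h A) (hB : HouseLe h B)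
    (hC : HouseLe h C) (hah : HouseLe h a) (hbh : HouseLe h b) (hB0 : B ≠ 0) (hC0 : C ≠ 0)
    (ha : a ≠ 0) (hb : b ≠ 0) (habc : b * c = a ^ 2) (σ : K →+* ℂ)
    (hnorm : ‖σ (b : K)‖ = ‖σ (a : K)‖) (hab : Independent a b)
    (hn : largeIndex (quadDegree d) (quadDisc d h) (2 * h + 5) ≤ n) :
    ‖σ (a : K)‖ ^ n * ((2 : ℝ) ^ (quadLoss d h * logSize n ^ kappa 4))⁻¹ ≤
      ‖σ ((A * a ^ n + B * b ^ n + C * c ^ n : 𝓞 K) : K)‖ := by
  have hd1 : 1 ≤ d := le_trans finrank_pos hd
  set δ : 𝓞 K := A * A - 4 * (B * C) with hδ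
  obtain ⟨s, hs⟩ := IsAlgClosed.exists_pow_nat_eq (σ (δ : K)) two_pos
  have hδh : HouseLe (2 * h + 4) δ := fun τ => by
    simp only [hδ, map_sub, map_mul, map_ofNat]
    refine (norm_sub_le _ _).trans ?_
    rw [norm_mul, norm_mul, norm_mul, Complex.norm_ofNat, pow_add, two_mul, pow_add]
    have h1 := mul_le_mul (hA τ) (hA τ) (norm_nonneg _) (by positivity)
    have h2 := mul_le_mul (hB τ) (hC τ) (norm_nonneg _) (by positivity)
    have : (0 : ℝ) ≤ 2 ^ h * 2 ^ h := by positivity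
    linarith
  have hbr : ∀ {z : 𝓞 K}, HouseLe h z → BoundedRoot (2 * d) (2 * h + 4) (σ (z : K)) := fun hz =>
    (BoundedRoot.of_conjugates hd (RingOfIntegers.isIntegral_coe _) hz σ).mono (by omega) (by omega)
  obtain ⟨L, hNF, z, hz, hzh, hdeg, hdisc⟩ := exists_lift (d := 2 * d) (q := 5) (h := 2 * h + 4)
    (by omega) ![σ (A : K), σ (B : K), σ (a : K), σ (b : K), s] (by
      intro i
      fin_cases i
      · exact hbr hA
      · exact hbr hB
      · exact hbr hah
      · exact hbr hbh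
      · have := BoundedRoot.radical one_le_two
          (BoundedRoot.of_conjugates hd (RingOfIntegers.isIntegral_coe δ) hδh σ) hs
        rwa [mul_comm d 2] at this)
  set φ : 𝓞 L →+* ℂ := (algebraMap L ℂ).comp (algebraMap (𝓞 L) L) with hφ
  have e0 : φ (z 0) = σ (A : K) := hz 0
  have e1 : φ (z 1) = σ (B : K) := hz 1
  have e2 : φ (z 2) = σ (a : K) := hz 2
  have e3 : φ (z 3) = σ (b : K) := hz 3
  have e4 : φ (z 4) = s := hz 4
  have hK : ∀ {t : 𝓞 K}, t ≠ 0 → σ (t : K) ≠ 0 := fun ht =>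
    (map_ne_zero σ).2 (RingOfIntegers.coe_ne_zero_iff.2 ht)
  simp only [hδ, map_sub, map_mul, map_ofNat] at hs
  have hfac : (σ (A : K) - s) * (σ (A : K) + s) ≠ 0 := by
    rw [show (σ (A : K) - s) * (σ (A : K) + s) = 4 * (σ (B : K) * σ (C : K)) by
      linear_combination -hs]
    exact mul_ne_zero (by norm_num) (mul_ne_zero (hK hB0) (hK hC0))
  have n2 : z 2 ≠ 0 := fun h0 => hK ha (by rw [← e2, h0, map_zero])
  have n3 : z 3 ≠ 0 := fun h0 => hK hb (by rw [← e3, h0, map_zero])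
  have hind : Independent (z 2) (z 3) := fun i hi h0 => hab i hi (RingOfIntegers.coe_injective
    (σ.injective (by
      have := congrArg φ h0
      rw [map_pow, map_pow, e2, e3] at this
      simpa using this)))
  have h2B : 2 * z 1 ≠ 0 := fun h0 => hK hB0 (by
    have := congrArg φ h0
    rw [map_mul, map_ofNat, e1, map_zero] at this
    simpa using this)
  set h' := 2 * h + 5
  have hup : ∀ {t : 𝓞 L}, HouseLe (2 * h + 4) t → HouseLe (h' * logSize n) t := fun ht =>
    house_mono_log (ht.mono (Nat.le_succ _)) n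
  have hadd : ∀ {t u w : 𝓞 L}, (∀ τ : L →+* ℂ, ‖τ (w : L)‖ ≤ ‖τ (t : L)‖ + ‖τ (u : L)‖) →
      HouseLe (2 * h + 4) t → HouseLe (2 * h + 4) u → HouseLe (h' * logSize n) w :=
    fun {t u w} hw ht hu => house_mono_log (fun τ => (hw τ).trans (by
      rw [show h' = 2 * h + 4 + 1 from rfl, pow_succ, mul_two]
      exact add_le_add (ht τ) (hu τ))) n
  have hv := arch_place (e := quadDisc d h) (h := h') hdeg (algebraMap L ℂ)
  have hT : ∀ w : 𝓞 L, placeValue (algebraMap L ℂ) w = ‖φ w‖ := fun _ => rfl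
  have hbin : ∀ {w : 𝓞 L}, φ w ≠ 0 → HouseLe (h' * logSize n) w →
      ‖σ (a : K)‖ ^ n * ((2 : ℝ) ^ (placeLoss (quadDegree d) (quadDisc d h) h' *
        logSize n ^ kappa 4))⁻¹ ≤ ‖φ (w * z 2 ^ n + 2 * z 1 * z 3 ^ n)‖ := fun {w} hw hwh => by
    have h2h : HouseLe (h' * logSize n) (2 * z 1) :=
      hadd (fun τ => by rw [two_mul]; simp only [map_add]; exact norm_add_le _ _) (hzh 1) (hzh 1)
    have hw0 : w ≠ 0 := fun h0 => hw (by rw [h0, map_zero])
    have h := hv.binomial hw0 h2B n2 n3 hwh h2h ((hzh 2).mono (Nat.le_succ _))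
      ((hzh 3).mono (Nat.le_succ _)) (by rw [hT, hT, e2, e3, hnorm])
      (two_terms_ne_zero hdeg hdisc hw0 h2B n2 n3 hwh h2h ((hzh 2).mono (Nat.le_succ _))
        ((hzh 3).mono (Nat.le_succ _)) hind hn)
    rw [hT, hT, e2] at h
    exact h
  have k1 := hbin (w := z 0 - z 4) (by
    rw [map_sub, e0, e4]; exact left_ne_zero_of_mul hfac)
    (hadd (fun τ => by simp only [map_sub]; exact norm_sub_le _ _) (hzh 0) (hzh 4))
  have k2 := hbin (w := z 0 + z 4) (by
    rw [map_add, e0, e4]; exact right_ne_zero_of_mul hfac)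
    (hadd (fun τ => by simp only [map_add]; exact norm_add_le _ _) (hzh 0) (hzh 4))
  simp only [map_add, map_sub, map_mul, map_pow, map_ofNat, e0, e1, e2, e3, e4] at k1 k2
  set M := placeLoss (quadDegree d) (quadDisc d h) h' * logSize n ^ kappa 4
  set P := σ ((A * a ^ n + B * b ^ n + C * c ^ n : 𝓞 K) : K) with hP
  have hprod : ((σ (A : K) - s) * σ (a : K) ^ n + 2 * σ (B : K) * σ (b : K) ^ n) *
      ((σ (A : K) + s) * σ (a : K) ^ n + 2 * σ (B : K) * σ (b : K) ^ n) =
      4 * σ (B : K) * σ (b : K) ^ n * P := by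
    have h1 : σ (b : K) ^ n * σ (c : K) ^ n = (σ (a : K) ^ n) ^ 2 := by
      rw [← mul_pow, ← map_mul, ← map_mul, habc]
      simp only [map_pow]
      rw [← pow_mul, ← pow_mul, mul_comm]
    simp only [hP, map_add, map_mul, map_pow]
    linear_combination -(σ (a : K) ^ n) ^ 2 * hs - 4 * σ (B : K) * σ (C : K) * h1
  set R := ‖σ (a : K)‖ ^ n with hR
  have hR0 : 0 < R := pow_pos (norm_pos_iff.2 (hK ha)) n
  have h4 := mul_le_mul k1 k2 (by positivity) (norm_nonneg _)
  rw [← norm_mul, hprod, norm_mul, norm_mul, norm_mul, norm_pow, hnorm, ← hR,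
    Complex.norm_ofNat] at h4
  have h5 : R * ((2 : ℝ) ^ (M + M))⁻¹ ≤ 2 ^ (h + 2) * ‖P‖ := by
    refine le_of_mul_le_mul_left ?_ hR0
    calc R * (R * ((2 : ℝ) ^ (M + M))⁻¹) = R * ((2 : ℝ) ^ M)⁻¹ * (R * ((2 : ℝ) ^ M)⁻¹) := by
          rw [pow_add, mul_inv]; ring
      _ ≤ 4 * ‖σ (B : K)‖ * R * ‖P‖ := h4
      _ ≤ 4 * 2 ^ h * R * ‖P‖ := by
          gcongr
          exact hB σ
      _ = R * (2 ^ (h + 2) * ‖P‖) := by ring
  rw [← inv_mul_le_iff₀ (by positivity), mul_left_comm, ← mul_inv, ← pow_add] at h5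
  refine le_trans (mul_le_mul_of_nonneg_left (inv_anti₀ (by positivity)
    (pow_le_pow_right₀ one_le_two ?_)) hR0.le) h5
  have h1 : 1 ≤ logSize n ^ kappa 4 := Nat.one_le_pow _ _ (one_le_logSize n)
  calc h + 2 + (M + M) ≤ (h + 2) * logSize n ^ kappa 4 + (M + M) :=
        Nat.add_le_add_right (Nat.le_mul_of_pos_right _ h1) _
    _ = quadLoss d h * logSize n ^ kappa 4 := by simp only [M, quadLoss, h']; ring

/-- The index from which four independent terms do not vanish. -/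
def fourBound (d e h : ℕ) : ℕ :=
  largeIndex d e h + largeIndex (quadDegree d) (quadDisc d h) (2 * h + 5) +
    indexBound ((quadLoss d h + h + 3) * placeGap d e h)

theorem fin4_fourth : ∀ i j k : Fin 4, i ≠ j → i ≠ k → j ≠ k →
    ∃ l, l ≠ i ∧ l ≠ j ∧ l ≠ k ∧ ∀ m, m = i ∨ m = j ∨ m = k ∨ m = l := by
  decide

theorem fin4_avoid_two : ∀ w t : Fin 4, ∃ u, u ≠ w ∧ u ≠ t := by
  decide

theorem fin4_no_fixed : ∀ f : Fin 4 → Fin 4, (∀ i, f (f i) = i) →
    ∀ a, f a = a → ∃ b, b ≠ a ∧ f b = b := by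
  decide +kernel

theorem fin4_one_fixed : ∀ f : Fin 4 → Fin 4, (∀ i, f (f i) = i) → ∀ l, f l = l →
    (∀ i j, i ≠ l → j ≠ l → f i = i → f j = j → i = j) →
    ∃ a b, a ≠ l ∧ b ≠ l ∧ b ≠ a ∧ f b ≠ a ∧ f b ≠ b ∧ f b ≠ l ∧ f a = a := by
  decide +kernel

/-- **Four independent terms, closed under complex conjugation.** -/
theorem four_terms_ne_zero (hd : finrank ℚ K ≤ d) (he : (discr K).natAbs ≤ 2 ^ e)
    {c x : Fin 4 → 𝓞 K} (hc0 : ∀ i, c i ≠ 0) (hc : ∀ i, HouseLe h (c i)) (hx : ∀ i, x i ≠ 0)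
    (hxh : ∀ i, HouseLe h (x i)) (hind : ∀ i j, i ≠ j → Independent (x i) (x j)) (σ : K →+* ℂ)
    (hconj : ∀ i, ∃ j, σ (x j : K) = starRingEnd ℂ (σ (x i : K)))
    (hn : fourBound d e h ≤ n) : ∑ i, c i * x i ^ n ≠ 0 := by
  rw [fourBound] at hn
  have hn1 : largeIndex d e h ≤ n := by omega
  have hcl : ∀ i, HouseLe (h * logSize n) (c i) := fun i => house_mono_log (hc i) n
  have hplace : ∀ {v : AbsoluteValue (𝓞 K) ℝ}, EffectivePlace d e h v →
      (∀ i j k, i ≠ j → i ≠ k → j ≠ k → v (x i) = v (x j) → v (x i) = v (x k) →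
        ∃ l, v (x i) < v (x l)) → ∑ i, c i * x i ^ n ≠ 0 := fun {v} hv htop =>
    sum_ne_zero_of_place hd he hv univ_nonempty (by simp) (fun i _ => hc0 i) (fun i _ => hcl i)
      (fun i _ => hx i) (fun i _ => hxh i) (fun i _ j _ => hind i j)
      (fun i _ j _ k _ a b c e1 e2 =>
        (htop i j k a b c e1 e2).imp fun l hl => ⟨mem_univ l, hl⟩) hn1
  by_cases htri : ∃ i j k, i ≠ j ∧ i ≠ k ∧ j ≠ k ∧ ‖σ (x i : K)‖ = ‖σ (x j : K)‖ ∧
      ‖σ (x i : K)‖ = ‖σ (x k : K)‖ ∧ ∀ l, ‖σ (x l : K)‖ ≤ ‖σ (x i : K)‖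
  swap
  · refine hplace (arch_place hd σ) fun i j k a b c e1 e2 => ?_
    by_contra hl
    push Not at hl
    exact htri ⟨i, j, k, a, b, c, e1, e2, hl⟩
  obtain ⟨i, j, k, hij, hik, hjk, eij, eik, hmax⟩ := htri
  obtain ⟨l, hli, hlj, hlk, hcov⟩ := fin4_fourth i j k hij hik hjk
  have hinj : ∀ {p q}, σ (x p : K) = σ (x q : K) → p = q := fun {p q} h =>
    by_contra fun hne => (hind p q hne).ne (RingOfIntegers.coe_injective (σ.injective h))
  choose f hf using hconj
  have hff : ∀ p, f (f p) = p := fun p => hinj (by rw [hf, hf, Complex.conj_conj])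
  have hfn : ∀ p, ‖σ (x (f p) : K)‖ = ‖σ (x p : K)‖ := fun p => by rw [hf, Complex.norm_conj]
  set R := ‖σ (x i : K)‖
  have hmem : ∀ {p}, p ≠ l → ‖σ (x p : K)‖ = R := fun {p} hp => by
    rcases hcov p with rfl | rfl | rfl | rfl
    exacts [rfl, eij.symm, eik.symm, absurd rfl hp]
  have hmulc : ∀ p, σ (x p : K) * σ (x (f p) : K) = ((‖σ (x p : K)‖ ^ 2 : ℝ) : ℂ) := fun p => by
    rw [hf, Complex.mul_conj, Complex.normSq_eq_norm_sq]
  have hrel : ∀ {p q}, ‖σ (x p : K)‖ = ‖σ (x q : K)‖ → x p * x (f p) = x q * x (f q) :=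
    fun {p q} h => RingOfIntegers.coe_injective (σ.injective (by
      simp only [map_mul]; rw [hmulc, hmulc, h]))
  have hfix : ∀ {p q}, ‖σ (x p : K)‖ = ‖σ (x q : K)‖ → f p = p → f q = q → p = q :=
    fun {p q} h hp hq => by_contra fun hne => hind p q hne 2 two_pos (by
      have h' := hrel h
      rwa [hp, hq, ← sq, ← sq] at h')
  rcases eq_or_lt_of_le (hmax l) with hlR | hlR
  · have hall : ∀ p, ‖σ (x p : K)‖ = R := fun p => by
      rcases eq_or_ne p l with rfl | hp
      exacts [hlR, hmem hp]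
    have hnofix : ∀ p, f p ≠ p := fun p hp => by
      obtain ⟨q, hqp, hq⟩ := fin4_no_fixed f hff p hp
      exact hqp (hfix ((hall q).trans (hall p).symm) hq hp)
    obtain ⟨v, hv, hne⟩ := exists_effective_place hd he (hx i) (hx j) (hxh i) (hxh j) (hind i j hij)
    refine hplace hv fun p q r hpq hpr hqr e1 e2 => absurd ?_ hne
    obtain ⟨w, -, -, -, hw⟩ := fin4_fourth p q r hpq hpr hqr
    have hin : ∀ u, u ≠ w → v (x u) = v (x p) := fun u hu => by
      rcases hw u with rfl | rfl | rfl | rfl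
      exacts [rfl, e1.symm, e2.symm, absurd rfl hu]
    obtain ⟨u, hu1, hu2⟩ := fin4_avoid_two w (f w)
    have hfu : f u ≠ w := fun h => hu2 (by rw [← h, hff])
    have h := congrArg v (hrel ((hall w).trans (hall u).symm))
    rw [map_mul, map_mul, hin u hu1, hin _ hfu, hin _ (hnofix w)] at h
    have hw' : v (x w) = v (x p) := mul_right_cancel₀ (v.ne_zero (hx p)) h
    have hev : ∀ u, v (x u) = v (x p) := fun u => by
      rcases eq_or_ne u w with rfl | hu
      exacts [hw', hin u hu]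
    exact (hev i).trans (hev j).symm
  have hlfix : f l = l := by
    by_contra hne
    exact (hmem hne ▸ hfn l ▸ hlR).false
  obtain ⟨a, b, hal, hbl, hba, hfba, hfbb, hfbl, hfa⟩ := fin4_one_fixed f hff l hlfix
    fun p q hp hq => hfix ((hmem hp).trans (hmem hq).symm)
  have huniv : (univ : Finset (Fin 4)) = {a, b, f b, l} :=
    (eq_of_subset_of_card_le (subset_univ _) (by
      rw [card_insert_of_notMem (by simp [hba.symm, hfba.symm, hal]),
        card_insert_of_notMem (by simp [hfbb.symm, hbl]), card_pair hfbl]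
      simp)).symm
  rw [huniv, sum_insert (by simp [hba.symm, hfba.symm, hal]),
    sum_insert (by simp [hfbb.symm, hbl]), sum_pair hfbl, ← add_assoc, ← add_assoc]
  have hrel' : x b * x (f b) = x a ^ 2 := by
    rw [hrel ((hmem hbl).trans (hmem hal).symm), hfa, sq]
  have hq := quad_lower (n := n) hd (hc a) (hc b) (hc (f b)) (hxh a) (hxh b) (hc0 b) (hc0 (f b))
    (hx a) (hx b) hrel' σ ((hmem hbl).trans (hmem hal).symm) (hind a b hba.symm) (by omega)
  simpa using ne_zero_of_dominant (arch_place (e := e) hd σ) (s := {l}) (hx a) (hxh a) hq (by simp)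
    (fun p _ => hcl p) (fun p _ => hx p) (fun p _ => hxh p)
    (fun p hp => by
      rw [mem_singleton] at hp
      rw [hp, placeValue_apply, placeValue_apply, hmem hal]
      exact hlR)
    (room_of_index (show indexBound ((quadLoss d h + h + 3) * placeGap d e h) ≤ n by omega))

end FA.BakerExplicit.FourTerms

end
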