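import Fermat.Agent.BakerExplicit.PointSearch

/-!
# Thue, Thue–Mahler and superelliptic equations, solved by search

A form or a polynomial is a list of integer coefficients; the boxes have primitive recursive size.
-/

set_option autoImplicit false

noncomputable section

namespace FA.BakerExplicit.Algorithms

open Polynomial PrimrecBounds EffectiveSUnits EffectiveThueMahler

variable {α : Type*} [Primcodable α]

theorem IntRec.to_primrec {u : α → ℤ} (hu : IntRec u) : Primrec u := by
  obtain ⟨A, B, hA, hB, hu⟩ := hu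
  refine Primrec.encode_iff.1 ((Primrec.ite (Primrec.nat_le.comp hB hA)
    (PrimrecBounds.mul (num 2) (Primrec.nat_sub.comp hA hB))
    (Primrec.nat_sub.comp (PrimrecBounds.mul (num 2) (Primrec.nat_sub.comp hB hA)) (num 1))).of_eq
      fun a => ?_)
  rw [hu, int_encode]
  split_ifs <;> omega

theorem IntRec.powVar {u : α → ℤ} {f : α → ℕ} (hu : IntRec u) (hf : Primrec f) :
    IntRec fun a => u a ^ f a := by
  have hu' : IntRec fun p : α × ℕ × ℤ => u p.1 :=
    IntRec.of_primrec (hu.to_primrec.comp Primrec.fst)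
  have hs : Primrec fun p : α × ℕ × ℤ => p.2.2 * u p.1 :=
    ((IntRec.of_primrec (Primrec.snd.comp Primrec.snd)).mul hu').to_primrec
  refine IntRec.of_primrec ((Primrec.nat_rec' hf (Primrec.const 1)
    (h := fun a p => p.2 * u a) hs.to₂).of_eq fun a => ?_)
  induction f a with
  | zero => simp
  | succ n ih => simp [pow_succ, ih]

/-- The polynomial with a list of coefficients, from the constant term. -/
def formPoly (L : List ℤ) : ℤ[X] := L.foldr (fun c f => C c + X * f) 0

theorem coeff_formPoly (L : List ℤ) (i : ℕ) : (formPoly L).coeff i = L.getD i 0 := by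
  induction L generalizing i with
  | nil => simp [formPoly]
  | cons c L ih =>
    have e : formPoly (c :: L) = C c + X * formPoly L := rfl
    rcases i with _ | i
    · rw [e]; simp
    · rw [e, coeff_add, coeff_C_succ, zero_add, coeff_X_mul, ih]; rfl

theorem natDegree_formPoly (L : List ℤ) : (formPoly L).natDegree ≤ L.length - 1 :=
  natDegree_le_iff_coeff_eq_zero.2 fun i hi => by
    rw [coeff_formPoly, List.getD_eq_default]
    omega

/-- The form of degree `L.length - 1` at a pair, and the last power of `y`. -/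
def formPair (L : List ℤ) (p : ℤ × ℤ) : ℤ × ℤ :=
  L.foldr (fun c s => (c * s.2 + p.1 * s.1, s.2 * p.2)) (0, 1)

/-- The form of degree `L.length - 1` at a pair. -/
def formValue (L : List ℤ) (p : ℤ × ℤ) : ℤ := (formPair L p).1

theorem formPair_eq (L : List ℤ) (p : ℤ × ℤ) : formPair L p =
    (∑ i ∈ Finset.range L.length, L.getD i 0 * p.1 ^ i * p.2 ^ (L.length - 1 - i),
      p.2 ^ L.length) := by
  induction L with
  | nil => simp [formPair]
  | cons c L ih =>
    have e : formPair (c :: L) p = (c * (formPair L p).2 + p.1 * (formPair L p).1,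
        (formPair L p).2 * p.2) := rfl
    rw [e, ih, List.length_cons, Finset.sum_range_succ', Finset.mul_sum, add_comm (c * _),
      pow_succ]
    refine Prod.ext ?_ rfl
    simp only [List.getD_cons_succ, List.getD_cons_zero, pow_zero, mul_one, Nat.sub_zero,
      add_tsub_cancel_right]
    congr 1
    refine Finset.sum_congr rfl fun i hi => ?_
    rw [show L.length - (i + 1) = L.length - 1 - i by omega, pow_succ]
    ring

theorem formValue_eq {L : List ℤ} (hL : L ≠ []) (x y : ℤ) :
    formValue L (x, y) = binaryValue (formPoly L) (L.length - 1) x y := by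
  rw [formValue, formPair_eq, binaryValue,
    show L.length - 1 + 1 = L.length from Nat.succ_pred_eq_of_pos (List.length_pos_iff.2 hL)]
  simp only [coeff_formPoly]

theorem formValue_smul (L : List ℤ) (d x y : ℤ) :
    formValue L (d * x, d * y) = d ^ (L.length - 1) * formValue L (x, y) := by
  simp only [formValue, formPair_eq, Finset.mul_sum]
  refine Finset.sum_congr rfl fun i hi => ?_
  rw [Finset.mem_range] at hi
  conv_rhs => rw [show L.length - 1 = i + (L.length - 1 - i) by omega, pow_add]
  rw [show i + (L.length - 1 - i) - i = L.length - 1 - i by omega]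
  ring

/-- The sum of the absolute values of the coefficients. -/
def formHeight (L : List ℤ) : ℕ := L.foldr (fun c s => c.natAbs + s) 0

theorem coeff_natAbs_le (L : List ℤ) (i : ℕ) :
    ((formPoly L).coeff i).natAbs ≤ formHeight L := by
  rw [coeff_formPoly]
  induction L generalizing i with
  | nil => simp
  | cons c L ih =>
    have e : formHeight (c :: L) = c.natAbs + formHeight L := rfl
    rcases i with _ | i
    · simp [e]
    · rw [e, List.getD_cons_succ]
      exact (ih i).trans (Nat.le_add_left _ _)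

theorem primrec_formHeight : Primrec formHeight :=
  Primrec.list_foldr (h := fun _ (t : ℤ × ℕ) => t.1.natAbs + t.2) Primrec.id (num 0)
    (PrimrecBounds.add (primrec_natAbs.comp (Primrec.fst.comp Primrec.snd))
      (Primrec.snd.comp Primrec.snd)).to₂

theorem primrec_formValue : Primrec₂ formValue := by
  have c : Primrec fun a : (List ℤ × ℤ × ℤ) × ℤ × ℤ × ℤ => a.2.1 :=
    Primrec.fst.comp Primrec.snd
  have s : Primrec fun a : (List ℤ × ℤ × ℤ) × ℤ × ℤ × ℤ => a.2.2 := Primrec.snd.comp Primrec.snd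
  have p : Primrec fun a : (List ℤ × ℤ × ℤ) × ℤ × ℤ × ℤ => a.1.2 :=
    Primrec.snd.comp Primrec.fst
  have h1 := (((IntRec.of_primrec c).mul (IntRec.of_primrec (Primrec.snd.comp s))).add
    ((IntRec.of_primrec (Primrec.fst.comp p)).mul
      (IntRec.of_primrec (Primrec.fst.comp s)))).to_primrec
  have h2 := ((IntRec.of_primrec (Primrec.snd.comp s)).mul
    (IntRec.of_primrec (Primrec.snd.comp p))).to_primrec
  exact Primrec.fst.comp (Primrec.list_foldr (f := fun a : List ℤ × ℤ × ℤ => a.1)
    (h := fun a t => (t.1 * t.2.2 + a.2.1 * t.2.1, t.2.2 * a.2.2)) Primrec.fst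
    (Primrec.const ((0 : ℤ), (1 : ℤ))) (Primrec.pair h1 h2).to₂)

/-- No common factor; the list of candidates is finite. -/
def Coprimes (a b : ℕ) : Prop := ∀ r < a + b + 1, ¬r ∣ a ∨ ¬r ∣ b ∨ r = 1

instance : DecidableRel Coprimes := fun a b => by unfold Coprimes; infer_instance

theorem coprimes_iff (a b : ℕ) : Coprimes a b ↔ Nat.Coprime a b := by
  constructor
  · intro h
    by_cases hab : a = 0 ∧ b = 0
    · rcases h 0 (by omega) with h1 | h1 | h1
      · exact absurd (hab.1 ▸ dvd_rfl) h1
      · exact absurd (hab.2 ▸ dvd_rfl) h1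
      · omega
    · have hle : Nat.gcd a b ≤ a + b := by
        rcases not_and_or.1 hab with h1 | h1
        · exact (Nat.gcd_le_left _ (Nat.pos_of_ne_zero h1)).trans (Nat.le_add_right _ _)
        · exact (Nat.gcd_le_right _ (Nat.pos_of_ne_zero h1)).trans (Nat.le_add_left _ _)
      rcases h (Nat.gcd a b) (Nat.lt_succ_of_le hle) with h1 | h1 | h1
      · exact absurd (Nat.gcd_dvd_left _ _) h1
      · exact absurd (Nat.gcd_dvd_right _ _) h1
      · exact h1
  · intro h r _
    by_cases h1 : r ∣ a
    · by_cases h2 : r ∣ b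
      · exact Or.inr (Or.inr (Nat.eq_one_of_dvd_coprimes h h1 h2))
      · exact Or.inr (Or.inl h2)
    · exact Or.inl h1

theorem coprimes_rel : PrimrecRel Coprimes := by
  have hR : PrimrecRel fun (r : ℕ) (b : ℕ × ℕ) => ¬r ∣ b.1 ∨ ¬r ∣ b.2 ∨ r = 1 :=
    (dvd_pred (α := ℕ × ℕ × ℕ) Primrec.fst (Primrec.fst.comp Primrec.snd)).not.or
      ((dvd_pred (α := ℕ × ℕ × ℕ) Primrec.fst (Primrec.snd.comp Primrec.snd)).not.or
        (Primrec.eq.comp Primrec.fst (num 1)))
  have hR' : PrimrecRel fun (n : ℕ) (b : ℕ × ℕ) => ∀ r < n, ¬r ∣ b.1 ∨ ¬r ∣ b.2 ∨ r = 1 :=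
    forall_lt_rel hR
  exact hR'.comp (PrimrecBounds.add (PrimrecBounds.add Primrec.fst Primrec.snd) (num 1))
    Primrec.id

/-- Three different linear factors, the point at infinity included. -/
def ThreeFactors (L : List ℤ) : Prop :=
  3 ≤ ((formPoly L).map (Int.castRingHom ℂ)).roots.toFinset.card +
    if (formPoly L).natDegree < L.length - 1 then 1 else 0

theorem ThreeFactors.three_le {L : List ℤ} (h : ThreeFactors L) : 3 ≤ L.length - 1 := by
  have h1 := (Multiset.toFinset_card_le _).trans
    (Polynomial.card_roots' ((formPoly L).map (Int.castRingHom ℂ)))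
  have h2 := (Polynomial.natDegree_map_le (f := Int.castRingHom ℂ) (p := formPoly L))
  have h3 := natDegree_formPoly L
  unfold ThreeFactors at h
  split_ifs at h <;> omega

/-- Separable polynomials of degree at least three, and one degree above two. -/
theorem threeFactors_of_separable {L : List ℤ}
    (hsep : ((formPoly L).map (Int.castRingHom ℂ)).Separable)
    (h : 3 ≤ (formPoly L).natDegree +
      if (formPoly L).natDegree < L.length - 1 then 1 else 0) : ThreeFactors L := by
  classical
  rw [ThreeFactors, Multiset.toFinset_card_of_nodup (nodup_roots hsep),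
    IsAlgClosed.card_roots_eq_natDegree,
    natDegree_map_eq_of_injective (RingHom.injective_int _)]
  exact h

theorem threeFactors_bound {L : List ℤ} (hL : ThreeFactors L) {g : ℕ} {x y : ℤ}
    (hxy : Nat.Coprime x.natAbs y.natAbs) (hF : formValue L (x, y) ≠ 0)
    (hs : ∀ q : ℕ, q.Prime → q ∣ (formValue L (x, y)).natAbs → q ≤ 2 ^ g) :
    x.natAbs ≤ 2 ^ thueMahlerBound (L.length - 1) (formHeight L) g ∧
      y.natAbs ≤ 2 ^ thueMahlerBound (L.length - 1) (formHeight L) g := by
  have hne : L ≠ [] := fun h => by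
    have := hL.three_le
    simp [h] at this
  rw [formValue_eq hne] at hF hs
  exact thueMahler_bound (natDegree_formPoly L) (natDegree_formPoly L)
    (fun i => (coeff_natAbs_le L i).trans Nat.lt_two_pow_self.le) hL
    (Int.isCoprime_iff_nat_coprime.2 hxy) hF hs

/-- A coprime pair at which the form has no prime factor above `2 ^ g`. -/
def SmoothValue (p : ℤ × ℤ) (t : List ℤ × ℕ) : Prop :=
  Coprimes p.1.natAbs p.2.natAbs ∧ ¬(formValue t.1 p = 0) ∧
    SmallPrimes (formValue t.1 p).natAbs t.2

instance : DecidableRel SmoothValue := fun p t => by unfold SmoothValue; infer_instance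

theorem smoothValue_rel : PrimrecRel SmoothValue := by
  have p : Primrec fun a : (ℤ × ℤ) × List ℤ × ℕ => a.1 := Primrec.fst
  have v := IntRec.of_primrec (primrec_formValue.comp
    (Primrec.fst.comp (Primrec.snd (α := ℤ × ℤ) (β := List ℤ × ℕ))) p)
  exact (coprimes_rel.comp (primrec_natAbs.comp (Primrec.fst.comp p))
    (primrec_natAbs.comp (Primrec.snd.comp p))).and
    ((v.eq_pred (IntRec.const 0)).not.and
      (smallPrimes_rel.comp (primrec_natAbs.comp v.to_primrec) (Primrec.snd.comp Primrec.snd)))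

/-- **The Thue–Mahler equation, solved by search.** -/
def thueMahlerSolutions (t : List ℤ × ℕ) : List (ℤ × ℤ) :=
  (intBox (thueMahlerBound (t.1.length - 1) (formHeight t.1) t.2)).filter
    fun p => decide (SmoothValue p t)

theorem primrec_thueMahlerSolutions : Primrec thueMahlerSolutions :=
  (PrimrecRel.listFilter smoothValue_rel).comp (primrec_intBox.comp (PrimrecBounds.thueMahlerBound
    (Primrec.nat_sub.comp (Primrec.list_length.comp Primrec.fst) (num 1))
    (primrec_formHeight.comp Primrec.fst) Primrec.snd)) Primrec.id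

theorem mem_thueMahlerSolutions {L : List ℤ} (hL : ThreeFactors L) {g : ℕ} (x y : ℤ) :
    (x, y) ∈ thueMahlerSolutions (L, g) ↔ IsCoprime x y ∧ formValue L (x, y) ≠ 0 ∧
      ∀ q : ℕ, q.Prime → q ∣ (formValue L (x, y)).natAbs → q ≤ 2 ^ g := by
  unfold thueMahlerSolutions
  rw [List.mem_filter, decide_eq_true_eq, Int.isCoprime_iff_nat_coprime]
  simp only [SmoothValue, coprimes_iff]
  constructor
  · rintro ⟨-, h1, h2, h3⟩
    exact ⟨h1, h2, (smallPrimes_iff (Int.natAbs_ne_zero.2 h2)).1 h3⟩
  · rintro ⟨h1, h2, h3⟩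
    obtain ⟨hx, hy⟩ := threeFactors_bound hL h1 h2 h3
    exact ⟨mem_intBox hx hy, h1, h2, (smallPrimes_iff (Int.natAbs_ne_zero.2 h2)).2 h3⟩

/-- A solution of a Thue equation. -/
def ThueSolution (p : ℤ × ℤ) (t : List ℤ × ℤ) : Prop := formValue t.1 p = t.2

instance : DecidableRel ThueSolution := fun p t => by unfold ThueSolution; infer_instance

theorem thueSolution_rel : PrimrecRel ThueSolution :=
  (IntRec.of_primrec (primrec_formValue.comp (Primrec.fst.comp Primrec.snd) Primrec.fst)).eq_pred
    (IntRec.of_primrec (Primrec.snd.comp (Primrec.snd (α := ℤ × ℤ) (β := List ℤ × ℤ))))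

/-- **The Thue equation, solved by search.** -/
def thueSolutions (t : List ℤ × ℤ) : List (ℤ × ℤ) :=
  (intBox (t.2.natAbs + thueMahlerBound (t.1.length - 1) (formHeight t.1) t.2.natAbs)).filter
    fun p => decide (ThueSolution p t)

theorem primrec_thueSolutions : Primrec thueSolutions :=
  (PrimrecRel.listFilter thueSolution_rel).comp (primrec_intBox.comp
    (PrimrecBounds.add (primrec_natAbs.comp Primrec.snd) (PrimrecBounds.thueMahlerBound
      (Primrec.nat_sub.comp (Primrec.list_length.comp Primrec.fst) (num 1))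
      (primrec_formHeight.comp Primrec.fst) (primrec_natAbs.comp Primrec.snd)))) Primrec.id

theorem mem_thueSolutions {L : List ℤ} (hL : ThreeFactors L) {m : ℤ} (hm : m ≠ 0) (x y : ℤ) :
    (x, y) ∈ thueSolutions (L, m) ↔ formValue L (x, y) = m := by
  unfold thueSolutions
  rw [List.mem_filter, decide_eq_true_eq]
  refine ⟨fun h => h.2, fun h => ⟨?_, h⟩⟩
  have hN : L.length - 1 ≠ 0 := by have := hL.three_le; omega
  set d := Int.gcd x y with hd
  obtain ⟨x', hx⟩ : (d : ℤ) ∣ x := Int.gcd_dvd_left x y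
  obtain ⟨y', hy⟩ : (d : ℤ) ∣ y := Int.gcd_dvd_right x y
  have he : (d : ℤ) ^ (L.length - 1) * formValue L (x', y') = m := by
    rw [← formValue_smul, ← hx, ← hy, h]
  have hd0 : d ≠ 0 := fun h0 => hm (by rw [← he, h0]; simp [hN])
  have hv0 : formValue L (x', y') ≠ 0 := fun h0 => hm (by rw [← he, h0, mul_zero])
  have hdm : d ≤ m.natAbs := Nat.le_of_dvd (Int.natAbs_pos.2 hm)
    (Int.natCast_dvd.1 (he ▸ (dvd_pow_self (d : ℤ) hN).mul_right _))
  have hcop : Nat.Coprime x'.natAbs y'.natAbs := by
    have h1 : Int.gcd x y = d * Int.gcd x' y' := by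
      rw [hx, hy, Int.gcd_mul_left, Int.natAbs_natCast]
    rw [← hd] at h1
    exact (Nat.mul_eq_left hd0).1 h1.symm
  obtain ⟨bx, bY⟩ := threeFactors_bound (g := m.natAbs) hL hcop hv0 fun q _ hq =>
    (Nat.le_of_dvd (Int.natAbs_pos.2 hm) (hq.trans
      (Int.natAbs_dvd_natAbs.2 (he ▸ dvd_mul_left _ _)))).trans Nat.lt_two_pow_self.le
  have key : ∀ {z : ℤ} {T : ℕ}, z.natAbs ≤ 2 ^ T →
      ((d : ℤ) * z).natAbs ≤ 2 ^ (m.natAbs + T) := fun hz => by
    rw [Int.natAbs_mul, Int.natAbs_natCast, pow_add]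
    exact Nat.mul_le_mul (hdm.trans Nat.lt_two_pow_self.le) hz
  exact mem_intBox (hx ▸ key bx) (hy ▸ key bY)

/-- The coefficients, the multiplier, the exponent and `g` of a superelliptic equation. -/
abbrev PowerData : Type := List ℤ × ℤ × ℕ × ℕ

/-- A pair of reduced fractions solving `b y ^ m = f (x)`. -/
def PowerPoint (p : (ℤ × ℕ) × (ℤ × ℕ)) (t : PowerData) : Prop :=
  Reduced p.1 ∧ Reduced p.2 ∧ SmallPrimes p.1.2 t.2.2.2 ∧
    t.2.1 * p.2.1 ^ t.2.2.1 * (p.1.2 : ℤ) ^ (t.1.length - 1) =
      formValue t.1 (p.1.1, (p.1.2 : ℤ)) * (p.2.2 : ℤ) ^ t.2.2.1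

instance : DecidableRel PowerPoint := fun p t => by unfold PowerPoint; infer_instance

theorem powerPoint_rel : PrimrecRel PowerPoint := by
  have hp : Primrec fun a : ((ℤ × ℕ) × (ℤ × ℕ)) × PowerData => a.1 := Primrec.fst
  have ht : Primrec fun a : ((ℤ × ℕ) × (ℤ × ℕ)) × PowerData => a.2 := Primrec.snd
  have hX := Primrec.fst.comp hp
  have hY := Primrec.snd.comp hp
  have hL := Primrec.fst.comp ht
  have hm := Primrec.fst.comp (Primrec.snd.comp (Primrec.snd.comp ht))
  have xd := IntRec.natCast (Primrec.snd.comp hX)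
  have e := (((IntRec.of_primrec (Primrec.fst.comp (Primrec.snd.comp ht))).mul
    ((IntRec.of_primrec (Primrec.fst.comp hY)).powVar hm)).mul
      (xd.powVar (Primrec.nat_sub.comp (Primrec.list_length.comp hL) (num 1)))).eq_pred
    ((IntRec.of_primrec (primrec_formValue.comp hL
      (Primrec.pair (Primrec.fst.comp hX) xd.to_primrec))).mul
        ((IntRec.natCast (Primrec.snd.comp hY)).powVar hm))
  exact (reduced_pred.comp hX).and ((reduced_pred.comp hY).and
    ((smallPrimes_rel.comp (Primrec.snd.comp hX)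
      (Primrec.snd.comp (Primrec.snd.comp (Primrec.snd.comp ht)))).and e))

/-- The bound for the abscissa. -/
def powerAbscissa (t : PowerData) : ℕ :=
  SIntegralSuperelliptic.abscissaBound (t.1.length - 1) (formHeight t.1 + t.2.1.natAbs) t.2.2.1
    (t.2.2.2 + t.2.1.natAbs)

/-- **The superelliptic equation, solved by search.** -/
def superellipticPoints (t : PowerData) : List ((ℤ × ℕ) × (ℤ × ℕ)) :=
  (ratBox (t.1.length - 1 + (formHeight t.1 + t.2.1.natAbs) +
    powerAbscissa t * (t.1.length - 1) + powerAbscissa t)).filter fun p => decide (PowerPoint p t)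

theorem primrec_superellipticPoints : Primrec superellipticPoints := by
  have hN : Primrec fun t : PowerData => t.1.length - 1 :=
    Primrec.nat_sub.comp (Primrec.list_length.comp Primrec.fst) (num 1)
  have hb : Primrec fun t : PowerData => t.2.1.natAbs :=
    primrec_natAbs.comp (Primrec.fst.comp Primrec.snd)
  have hk := PrimrecBounds.add (primrec_formHeight.comp (Primrec.fst (α := List ℤ))) hb
  have hT : Primrec powerAbscissa := PrimrecBounds.abscissaBound hN hk
    (Primrec.fst.comp (Primrec.snd.comp Primrec.snd))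
    (PrimrecBounds.add (Primrec.snd.comp (Primrec.snd.comp Primrec.snd)) hb)
  exact (PrimrecRel.listFilter powerPoint_rel).comp (primrec_ratBox.comp
    (PrimrecBounds.add (PrimrecBounds.add (PrimrecBounds.add hN hk)
      (PrimrecBounds.mul hT hN)) hT)) Primrec.id

theorem powerPoint_iff {L : List ℤ} (hL : L ≠ []) (b : ℤ) (m g : ℕ) (x y : ℚ) :
    PowerPoint ((x.num, x.den), (y.num, y.den)) (L, b, m, g) ↔
      (∀ q : ℕ, q.Prime → q ∣ x.den → q ≤ 2 ^ g) ∧
        (b : ℚ) * y ^ m = aeval x (formPoly L) := by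
  simp only [PowerPoint, smallPrimes_iff x.den_nz]
  rw [iff_true_intro ((reduced_iff (x.num, x.den)).2 ⟨x, rfl, rfl⟩),
    iff_true_intro ((reduced_iff (y.num, y.den)).2 ⟨y, rfl, rfl⟩), true_and, true_and]
  refine and_congr_right fun _ => ?_
  have hx : (x.den : ℚ) ≠ 0 := Nat.cast_ne_zero.2 x.den_nz
  have hy : (y.den : ℚ) ≠ 0 := Nat.cast_ne_zero.2 y.den_nz
  have hv : (formValue L (x.num, (x.den : ℤ)) : ℚ) =
      (x.den : ℚ) ^ (L.length - 1) * aeval x (formPoly L) := by
    rw [formValue_eq hL, binaryValue,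
      aeval_eq_sum_range' (Nat.lt_succ_of_le (natDegree_formPoly L)),
      Finset.mul_sum]
    push_cast
    refine Finset.sum_congr rfl fun i hi => ?_
    rw [Finset.mem_range] at hi
    rw [zsmul_eq_mul, ← Rat.mul_den_eq_num x, mul_pow]
    conv_rhs => rw [show L.length - 1 = i + (L.length - 1 - i) by omega, pow_add]
    ring
  rw [← Int.cast_inj (α := ℚ)]
  push_cast
  rw [hv, ← Rat.mul_den_eq_num y, mul_pow]
  constructor <;> intro h
  · refine mul_right_cancel₀ (mul_ne_zero (pow_ne_zero m hy)
      (pow_ne_zero (L.length - 1) hx)) ?_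
    linear_combination h
  · linear_combination (y.den : ℚ) ^ m * (x.den : ℚ) ^ (L.length - 1) * h

theorem mem_superellipticPoints {L : List ℤ} {b : ℤ} {m g : ℕ}
    (hn3 : 3 ≤ (formPoly L).natDegree) (hsep : ((formPoly L).map (Int.castRingHom ℚ)).Separable)
    (hm : 2 ≤ m) (hb : b ≠ 0) (p : (ℤ × ℕ) × (ℤ × ℕ)) :
    p ∈ superellipticPoints (L, b, m, g) ↔
      ∃ x y : ℚ, p = ((x.num, x.den), (y.num, y.den)) ∧
        (∀ q : ℕ, q.Prime → q ∣ x.den → q ≤ 2 ^ g) ∧
        (b : ℚ) * y ^ m = aeval x (formPoly L) := by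
  have hL : L ≠ [] := fun h => by simp [h, formPoly] at hn3
  unfold superellipticPoints
  rw [List.mem_filter, decide_eq_true_eq]
  constructor
  · rintro ⟨-, h⟩
    obtain ⟨x, hx1, hx2⟩ := (reduced_iff _).1 h.1
    obtain ⟨y, hy1, hy2⟩ := (reduced_iff _).1 h.2.1
    have hp : p = ((x.num, x.den), (y.num, y.den)) := by rw [hx1, hx2, hy1, hy2]
    exact ⟨x, y, hp, (powerPoint_iff hL b m g x y).1 (hp ▸ h)⟩
  · rintro ⟨x, y, rfl, hg, he⟩
    refine ⟨?_, (powerPoint_iff hL b m g x y).2 ⟨hg, he⟩⟩
    have hk : ∀ i, ((formPoly L).coeff i).natAbs ≤ 2 ^ (formHeight L + b.natAbs) := fun i =>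
      ((coeff_natAbs_le L i).trans (Nat.le_add_right _ _)).trans Nat.lt_two_pow_self.le
    have hbk : ∀ c : ℕ, b.natAbs ≤ 2 ^ (c + b.natAbs) := fun c =>
      (Nat.le_add_left b.natAbs c).trans Nat.lt_two_pow_self.le
    obtain ⟨hx, hxd⟩ := SIntegralSuperelliptic.separable_bound_smooth
      (g := g + b.natAbs) (natDegree_formPoly L) hn3 hsep hk hm hb
      (fun q _ hq => (Nat.le_of_dvd (Int.natAbs_pos.2 hb) hq).trans (hbk g))
      (fun q hq hd => (hg q hq hd).trans (Nat.pow_le_pow_right two_pos (Nat.le_add_right _ _))) he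
    obtain ⟨hy, hyd⟩ := SIntegralSuperelliptic.ordinate_bound (natDegree_formPoly L) hk
      (by omega) hb (hbk _) he hx hxd
    have mono : ∀ {a E F : ℕ}, a ≤ 2 ^ E → E ≤ F → a ≤ 2 ^ F := fun h hEF =>
      h.trans (Nat.pow_le_pow_right two_pos hEF)
    exact mem_ratBox (mono hx (Nat.le_add_left _ _)) (mono hxd (Nat.le_add_left _ _))
      (mono hy (Nat.le_add_right _ _)) (mono hyd (Nat.le_add_right _ _))

end FA.BakerExplicit.Algorithms

end
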