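import Fermat.Agent.BakerExplicit.UnitEquation
import Fermat.Agent.BakerExplicit.DiscriminantField
import Fermat.Agent.BakerExplicit.DegreeBound
import Mathlib.Topology.Algebra.Polynomial

/-!
# Polynomials of given discriminant, effectively (Győry, 1973)

In the field of all roots the differences divide the discriminant and three of them sum to zero,
so their ratios are bounded; their product is the discriminant, so they are bounded; an integer
translation then bounds the roots and the coefficients.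
-/

set_option autoImplicit false

noncomputable section

namespace FA.BakerExplicit.GyoryEffective

open Finset NumberField Polynomial Module FA.Gyory EffectiveUnits

/-- The bound for the logarithm, to base `2`, of a difference of roots. -/
def spreadBound (d k : ℕ) : ℕ :=
  k + 2 * unitEquationBound d.factorial ((d.factorial + k) * d.factorial) (k * d.factorial)

/-- The bound for the logarithm, to base `2`, of a root after a translation. -/
def rootBound (d k : ℕ) : ℕ := spreadBound d k + 1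

/-- The bound for the logarithm, to base `2`, of a coefficient after a translation. -/
def coeffBound (d k : ℕ) : ℕ := d * rootBound d k + d

/-- **The bound in the discriminant alone.** -/
def gyoryBound (k : ℕ) : ℕ := coeffBound (DegreeBound.degreeBound k) k

/-- **The roots are within a bounded distance.** -/
theorem spread_le {f : ℤ[X]} (hf : f.Monic) (h0 : rootProd f ≠ 0) {k d : ℕ}
    (hk : (rootProd f).natAbs ≤ 2 ^ k) (hd : f.natDegree ≤ d) {z w : ℂ}
    (hz : z ∈ (f.map (Int.castRingHom ℂ)).roots) (hw : w ∈ (f.map (Int.castRingHom ℂ)).roots) :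
    ‖z - w‖ ≤ (2 : ℝ) ^ spreadBound d k := by
  classical
  obtain ⟨M, _, _, θ, hdeg, hdisc, hθinj, hθ0, hθ⟩ :=
    DiscriminantField.exists_root_field hf h0 hd
  obtain ⟨ρ⟩ : Nonempty (M →+* ℂ) := inferInstance
  set B := unitEquationBound d.factorial ((d.factorial + k) * d.factorial) (k * d.factorial)
  have he : (discr M).natAbs ≤ 2 ^ ((d.factorial + k) * d.factorial) := by
    refine hdisc.trans ?_
    rw [pow_mul]
    refine Nat.pow_le_pow_left ?_ _
    rw [pow_add]
    exact Nat.mul_le_mul Nat.lt_two_pow_self.le hk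
  have hnorm : ∀ i j, i ≠ j → (Algebra.norm ℤ (θ i - θ j)).natAbs ≤ 2 ^ (k * d.factorial) :=
      fun i j hij => by
    have h1 := map_dvd (Algebra.norm ℤ)
      (DiscriminantField.sub_dvd_rootProd hf (hθ0 i) (hθ0 j) (fun e => hij (hθinj e)))
    rw [← eq_intCast (algebraMap ℤ (𝓞 M)), Algebra.norm_algebraMap, RingOfIntegers.rank] at h1
    have h2 := Nat.le_of_dvd (Nat.pos_of_ne_zero (Int.natAbs_ne_zero.2 (pow_ne_zero _ h0)))
      (Int.natAbs_dvd_natAbs.2 h1)
    rw [Int.natAbs_pow] at h2
    refine h2.trans (le_trans (Nat.pow_le_pow_left hk _) ?_)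
    rw [← pow_mul]
    exact Nat.pow_le_pow_right two_pos (Nat.mul_le_mul_left _ hdeg)
  set t : Fin f.natDegree → ℂ := fun i => ρ (θ i : M) with ht
  have hB : (1 : ℝ) ≤ 2 ^ B := one_le_pow₀ one_le_two
  -- two differences with a common end
  have hstep : ∀ i j l, j ≠ i → l ≠ i → ‖t i - t j‖ ≤ (2 : ℝ) ^ B * ‖t i - t l‖ := by
    intro i j l hji hli
    rcases eq_or_ne j l with rfl | hjl
    · exact le_mul_of_one_le_left (norm_nonneg _) hB
    have hne : ∀ {a b}, a ≠ b → θ a - θ b ≠ 0 := fun h => sub_ne_zero.2 fun e => h (hθinj e)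
    have h1 := equation_ratio_le (d := d.factorial) hdeg he (hne hji.symm) (hne hli) (hne hjl)
      (by ring) (hnorm i j hji.symm) (hnorm l i hli) (hnorm j l hjl) ρ
    simp only [map_sub] at h1
    rwa [norm_sub_rev (t i) (t l)]
  -- all differences
  have hchain : ∀ i j p q, j ≠ i → q ≠ p →
      ‖t i - t j‖ ≤ (2 : ℝ) ^ (2 * B) * ‖t p - t q‖ := by
    intro i j p q hji hqp
    rw [two_mul, pow_add, mul_assoc]
    rcases eq_or_ne i p with rfl | hip
    · exact (hstep i j q hji hqp).trans (mul_le_mul_of_nonneg_left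
        (le_mul_of_one_le_left (norm_nonneg _) hB) (by positivity))
    · refine (hstep i j p hji hip.symm).trans (mul_le_mul_of_nonneg_left ?_ (by positivity))
      rw [norm_sub_rev]
      exact hstep p i q hip hqp
  have hroots : (f.map (Int.castRingHom ℂ)).roots = univ.val.map t := by
    rw [hθ ρ, prod_eq_multiset_prod,
      show (univ.val.map fun i => X - C (ρ (θ i : M))) = (univ.val.map t).map fun z => X - C z by
        rw [Multiset.map_map]; rfl, roots_multiset_prod_X_sub_C]
  rw [hroots, Multiset.mem_map] at hz hw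
  obtain ⟨i, -, rfl⟩ := hz
  obtain ⟨j, -, rfl⟩ := hw
  rcases eq_or_ne j i with rfl | hji
  · rw [sub_self, norm_zero]; positivity
  -- one of them is small
  obtain ⟨p, q, hqp, hsmall⟩ : ∃ p q, q ≠ p ∧ ‖t p - t q‖ ≤ (2 : ℝ) ^ k := by
    by_contra hno
    push Not at hno
    have h1 := DiscriminantField.prod_sub_eq hf (θ := t) (hθ ρ)
    have hk' : |(rootProd f : ℝ)| ≤ (2 : ℝ) ^ k := by
      rw [← Int.cast_abs, ← Int.natCast_natAbs, Int.cast_natCast]
      exact_mod_cast hk
    have hge : ∀ p, ∀ q ∈ univ.erase p, (1 : ℝ) ≤ ‖t p - t q‖ := fun p q hq =>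
      (one_le_pow₀ one_le_two).trans (hno p q (mem_erase.1 hq).1).le
    rw [← mul_prod_erase univ _ (mem_univ i),
      ← mul_prod_erase (univ.erase i) _ (mem_erase.2 ⟨hji, mem_univ j⟩)] at h1
    have h2 : (1 : ℝ) ≤ ∏ q ∈ (univ.erase i).erase j, ‖t i - t q‖ :=
      one_le_prod fun q hq => hge i q (erase_subset _ _ hq)
    have h3 : (1 : ℝ) ≤ ∏ p ∈ univ.erase i, ∏ q ∈ univ.erase p, ‖t p - t q‖ :=
      one_le_prod fun p _ => one_le_prod fun q hq => hge p q hq
    have h4 := le_mul_of_one_le_right (norm_nonneg (t i - t j)) h2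
    have h5 := le_mul_of_one_le_right ((norm_nonneg (t i - t j)).trans h4) h3
    linarith [hno i j hji]
  refine (hchain i j p q hji hqp).trans ?_
  rw [spreadBound, pow_add, mul_comm ((2 : ℝ) ^ k)]
  exact mul_le_mul_of_nonneg_left hsmall (by positivity)

/-- **A translation makes the roots small.** -/
theorem exists_small_roots {f : ℤ[X]} (hf : f.Monic) (h0 : rootProd f ≠ 0) {k d : ℕ}
    (hk : (rootProd f).natAbs ≤ 2 ^ k) (hd : f.natDegree ≤ d) :
    ∃ a : ℤ, ∀ z ∈ (f.map (Int.castRingHom ℂ)).roots, ‖z - a‖ ≤ (2 : ℝ) ^ rootBound d k := by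
  classical
  set F := f.map (Int.castRingHom ℂ) with hF
  set n := F.roots.card with hn
  set s : ℤ := -f.nextCoeff with hs
  refine ⟨s / (n : ℤ), fun z hz => ?_⟩
  have hn0 : 0 < n := Multiset.card_pos_iff_exists_mem.2 ⟨z, hz⟩
  have hsum : F.roots.sum = (s : ℂ) := by
    have h := (IsAlgClosed.splits F).nextCoeff_eq_neg_sum_roots_of_monic (hf.map _)
    rw [hF, nextCoeff_map Int.cast_injective] at h
    rw [hs, hF, Int.cast_neg, ← eq_intCast (Int.castRingHom ℂ) f.nextCoeff, h, neg_neg]
  have h1 : (n : ℂ) * (z - (s / (n : ℤ) : ℤ)) =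
      (F.roots.map fun w => z - w).sum + ((s % (n : ℤ) : ℤ) : ℂ) := by
    rw [Multiset.sum_map_sub, Multiset.map_const', Multiset.sum_replicate, Multiset.map_id',
      hsum, ← hn, nsmul_eq_mul, Int.emod_def]
    push_cast
    ring
  have h2 : ‖(F.roots.map fun w => z - w).sum‖ ≤ (n : ℝ) * (2 : ℝ) ^ spreadBound d k := by
    refine (norm_multiset_sum_le _).trans ?_
    rw [Multiset.map_map]
    refine (Multiset.sum_le_card_nsmul _ ((2 : ℝ) ^ spreadBound d k) fun x hx => ?_).trans_eq ?_
    · obtain ⟨w, hw, rfl⟩ := Multiset.mem_map.1 hx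
      exact spread_le hf h0 hk hd hz hw
    · rw [Multiset.card_map, nsmul_eq_mul]
  have h3 : ‖((s % (n : ℤ) : ℤ) : ℂ)‖ ≤ (n : ℝ) * (2 : ℝ) ^ spreadBound d k := by
    have e1 := Int.emod_nonneg s (show (n : ℤ) ≠ 0 by omega)
    have e2 := Int.emod_lt_of_pos s (show (0 : ℤ) < (n : ℤ) by omega)
    rw [Complex.norm_intCast, ← Int.cast_abs, abs_of_nonneg e1]
    refine le_trans ?_ (le_mul_of_one_le_right (Nat.cast_nonneg n) (one_le_pow₀ one_le_two))
    exact_mod_cast e2.le
  have h4 := congrArg (‖·‖) h1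
  simp only [norm_mul, Complex.norm_natCast] at h4
  have h5 : (n : ℝ) * ‖z - (s / (n : ℤ) : ℤ)‖ ≤ (n : ℝ) * (2 : ℝ) ^ rootBound d k := by
    rw [h4, rootBound, pow_succ]
    refine (norm_add_le _ _).trans ?_
    linarith
  exact le_of_mul_le_mul_left h5 (by exact_mod_cast hn0)

/-- **The coefficients after a translation.** -/
theorem exists_small_coeffs {f : ℤ[X]} (hf : f.Monic) (h0 : rootProd f ≠ 0) {k d : ℕ}
    (hk : (rootProd f).natAbs ≤ 2 ^ k) (hd : f.natDegree ≤ d) :
    ∃ a : ℤ, ∀ i, ((f.comp (X + C a)).coeff i).natAbs ≤ 2 ^ coeffBound d k := by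
  obtain ⟨a, ha⟩ := exists_small_roots hf h0 hk hd
  refine ⟨a, fun i => ?_⟩
  set g := f.comp (X + C a) with hg
  have hgm : g.Monic := hf.comp_X_add_C a
  have hgd : g.natDegree = f.natDegree := by rw [hg, natDegree_comp, natDegree_X_add_C, mul_one]
  have hroots : ∀ z ∈ (g.map (Int.castRingHom ℂ)).roots, ‖z‖ ≤ (2 : ℝ) ^ rootBound d k :=
      fun z hz => by
    rw [mem_roots (hgm.map _).ne_zero, IsRoot.def, hg, Polynomial.map_comp, eval_comp,
      Polynomial.map_add, map_X, map_C, eval_add, eval_X, eval_C, eq_intCast] at hz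
    have := ha (z + a) ((mem_roots (hf.map _).ne_zero).2 hz)
    rwa [add_sub_cancel_right] at this
  have h1 := coeff_le_of_roots_le i hgm (IsAlgClosed.splits _) hroots
  rw [coeff_map, eq_intCast, Complex.norm_intCast, hgd, ← Int.cast_abs, ← Int.natCast_natAbs,
    Int.cast_natCast] at h1
  have h2 : ((g.coeff i).natAbs : ℝ) ≤ ((2 ^ coeffBound d k : ℕ) : ℝ) := by
    refine h1.trans ?_
    rw [coeffBound, pow_add, Nat.cast_mul, Nat.cast_pow, Nat.cast_pow, Nat.cast_ofNat,
      mul_comm d, pow_mul]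
    refine mul_le_mul ?_ ?_ (Nat.cast_nonneg _) (by positivity)
    · exact pow_le_pow_right₀ (one_le_pow₀ one_le_two) (by omega)
    · exact_mod_cast (Nat.choose_le_two_pow _ _).trans (Nat.pow_le_pow_right two_pos hd)
  exact_mod_cast h2

/-- **Győry's theorem, effectively.** -/
theorem discriminant_bound {f : ℤ[X]} (hf : f.Monic) (h0 : f.discr ≠ 0) {k : ℕ}
    (hk : f.discr.natAbs ≤ 2 ^ k) : f.natDegree ≤ DegreeBound.degreeBound k ∧
      ∃ a : ℤ, ∀ i, ((f.comp (X + C a)).coeff i).natAbs ≤ 2 ^ gyoryBound k := by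
  have h0' : rootProd f ≠ 0 := fun e => h0 (Int.natAbs_eq_zero.1 (by
    rw [← natAbs_rootProd hf, e, Int.natAbs_zero]))
  rw [← natAbs_rootProd hf] at hk
  have hd := DegreeBound.natDegree_le hf h0' hk
  exact ⟨hd, exists_small_coeffs hf h0' hk hd⟩

/-- **Integers of given discriminant, effectively.** -/
theorem element_bound {K : Type*} [Field K] [NumberField K] {α : 𝓞 K} (pb : PowerBasis ℚ K)
    (hpb : pb.gen = (α : K)) {k : ℕ} (hk : |Algebra.discr ℚ pb.basis| ≤ (2 : ℚ) ^ k) :
    ∃ a : ℤ, ∀ σ : K →+* ℂ, ‖σ (α : K) - a‖ ≤ (2 : ℝ) ^ rootBound (finrank ℚ K) k := by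
  have hint : IsIntegral ℤ pb.gen := hpb.symm ▸ α.isIntegral_coe
  set G := minpoly ℤ pb.gen with hG
  have habs := abs_rootProd_minpoly pb hint
  rw [← hG] at habs
  have hne : rootProd G ≠ 0 := fun h => Algebra.discr_not_zero_of_basis ℚ pb.basis (by
    rw [h, Int.cast_zero, abs_zero, eq_comm, abs_eq_zero] at habs
    exact habs)
  rw [← habs, ← Int.cast_abs, ← Int.natCast_natAbs, Int.cast_natCast] at hk
  have hdeg : G.natDegree ≤ finrank ℚ K := by
    rw [hG, ← (minpoly.monic hint).natDegree_map (algebraMap ℤ ℚ),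
      ← minpoly.isIntegrallyClosed_eq_field_fractions' ℚ hint, pb.natDegree_minpoly, pb.finrank]
  obtain ⟨a, ha⟩ := exists_small_roots (minpoly.monic hint) hne (by exact_mod_cast hk) hdeg
  refine ⟨a, fun σ => ha _ ((mem_roots ((minpoly.monic hint).map _).ne_zero).2 ?_)⟩
  rw [IsRoot.def, eval_map, ← algebraMap_int_eq, ← aeval_def, ← hpb,
    show σ pb.gen = σ.toIntAlgHom pb.gen from rfl, aeval_algHom_apply, minpoly.aeval, map_zero]

end FA.BakerExplicit.GyoryEffective

end
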