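import Fermat.Agent.BakerExplicit.OrbitEigen

/-!
# The bound of the orbit problem

In the special case `(A ^ N - c ^ N) ^ d` kills `A ^ d x`. Then the orbit, along a class modulo
`N`, is either a scalar multiple of a point or has a coordinate linear in the index.
-/

set_option autoImplicit false

noncomputable section

namespace FA.BakerExplicit.OrbitProblem

open Matrix

variable {d : ℕ}

/-- The exponent of the bound for the linear coordinate. -/
def linearExp (d h : ℕ) : ℕ :=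
  (h + d) * orbitPeriod d + d * ((h + d) * orbitPeriod d + 1) +
    (h + d) * (d + orbitPeriod d) + h + 1

/-- **The bound for the exponent in the orbit problem.** -/
def orbitBound (d h : ℕ) : ℕ :=
  2 ^ eigenExp d h + d + orbitPeriod d + orbitPeriod d * 2 ^ linearExp d h

/-- All entries at most `2 ^ T`. -/
def VecLe (T : ℕ) (v : Fin d → ℤ) : Prop := ∀ i, (v i).natAbs ≤ 2 ^ T

theorem vecLe_mulVec {h T : ℕ} {A : Matrix (Fin d) (Fin d) ℤ}
    (hA : ∀ i j, (A i j).natAbs ≤ 2 ^ h) {v : Fin d → ℤ} (hv : VecLe T v) :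
    VecLe (T + (h + d)) (A *ᵥ v) := fun i => by
  show (∑ j, A i j * v j).natAbs ≤ _
  refine (Int.natAbs_sum_le _ _).trans ((Finset.sum_le_card_nsmul _ _ (2 ^ h * 2 ^ T)
    fun j _ => ?_).trans ?_)
  · rw [Int.natAbs_mul]
    exact Nat.mul_le_mul (hA i j) (hv j)
  · rw [Finset.card_univ, Fintype.card_fin, smul_eq_mul, pow_add, pow_add,
      show d * (2 ^ h * 2 ^ T) = 2 ^ T * (2 ^ h * d) by ring]
    exact Nat.mul_le_mul_left _ (Nat.mul_le_mul_left _ Nat.lt_two_pow_self.le)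

theorem vecLe_pow {h T : ℕ} {A : Matrix (Fin d) (Fin d) ℤ}
    (hA : ∀ i j, (A i j).natAbs ≤ 2 ^ h) {v : Fin d → ℤ} (hv : VecLe T v) (k : ℕ) :
    VecLe (T + (h + d) * k) (A ^ k *ᵥ v) := by
  induction k with
  | zero => simpa using hv
  | succ k ih =>
    rw [pow_succ', ← mulVec_mulVec, Nat.mul_succ, ← Nat.add_assoc]
    exact vecLe_mulVec hA ih

theorem vecLe_smul {h T : ℕ} {c : ℤ} (hc : c.natAbs ≤ 2 ^ h) {v : Fin d → ℤ} (hv : VecLe T v)
    (k : ℕ) : VecLe (T + h * k) (c ^ k • v) := fun i => by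
  rw [Pi.smul_apply, smul_eq_mul, Int.natAbs_mul, Int.natAbs_pow, pow_add, mul_comm (2 ^ T),
    pow_mul]
  exact Nat.mul_le_mul (Nat.pow_le_pow_left hc k) (hv i)

theorem vecLe_diff {h N : ℕ} {A : Matrix (Fin d) (Fin d) ℤ}
    (hA : ∀ i j, (A i j).natAbs ≤ 2 ^ h) {c : ℤ} (hc : c.natAbs ≤ 2 ^ h) {T : ℕ}
    {v : Fin d → ℤ} (hv : VecLe T v) (j : ℕ) :
    VecLe (T + j * ((h + d) * N + 1))
      ((A ^ N - c ^ N • (1 : Matrix (Fin d) (Fin d) ℤ)) ^ j *ᵥ v) := by
  induction j with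
  | zero => simpa using hv
  | succ j ih =>
    intro i
    rw [pow_succ', ← mulVec_mulVec, sub_mulVec, smul_mulVec, one_mulVec, Nat.succ_mul,
      ← Nat.add_assoc, ← Nat.add_assoc, pow_succ, mul_two]
    refine (Int.natAbs_sub_le _ _).trans (Nat.add_le_add (vecLe_pow hA ih N i) ?_)
    exact (vecLe_smul hc ih N i).trans (Nat.pow_le_pow_right two_pos
      (Nat.add_le_add_left (Nat.mul_le_mul_right N (Nat.le_add_right h d)) _))

/-- A scalar multiple and a shift along a fixed vector. -/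
theorem pow_mulVec_linear {B : Matrix (Fin d) (Fin d) ℤ} {C : ℤ} {v w : Fin d → ℤ}
    (hv : B *ᵥ v = C • v + w) (hw : B *ᵥ w = C • w) (m : ℕ) :
    C • (B ^ m *ᵥ v) = C ^ (m + 1) • v + ((m : ℤ) * C ^ m) • w := by
  induction m with
  | zero => simp
  | succ m ih =>
    rw [pow_succ', ← mulVec_mulVec, ← mulVec_smul, ih, mulVec_add, mulVec_smul, mulVec_smul, hv,
      hw, smul_add, smul_smul, smul_smul, ← pow_succ, add_assoc, ← add_smul]
    congr 2
    push_cast
    ring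

/-- **The orbit problem has a bounded witness.** -/
theorem exists_le_orbitBound {h : ℕ} {A : Matrix (Fin d) (Fin d) ℤ}
    (hA : ∀ i j, (A i j).natAbs ≤ 2 ^ h) {c : ℤ} (hc : c ≠ 0) (hch : c.natAbs ≤ 2 ^ h)
    {x y : Fin d → ℤ} (hx : VecLe h x) (hy : VecLe h y)
    (hex : ∃ n, A ^ n *ᵥ x = c ^ n • y) :
    ∃ n ≤ orbitBound d h, A ^ n *ᵥ x = c ^ n • y := by
  classical
  obtain ⟨n, hn⟩ := hex
  by_cases hsmall : n ≤ orbitBound d h
  · exact ⟨n, hsmall, hn⟩
  rcases exponent_bound_or_special hA hc hx hy hn with hlt | hspec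
  · exact absurd (hlt.le.trans (by rw [orbitBound]; omega)) hsmall
  obtain ⟨N, hN⟩ : ∃ N, orbitPeriod d = N := ⟨_, rfl⟩
  simp only [orbitBound, linearExp, hN] at hsmall hspec ⊢
  set P := A ^ N - c ^ N • (1 : Matrix (Fin d) (Fin d) ℤ) with hP
  have hNpos : 0 < N := hN ▸ orbitPeriod_pos d
  have hEpos := Nat.two_pow_pos (eigenExp d h)
  have hnd : d ≤ n := by omega
  obtain ⟨r, m, hrN, hnsplit⟩ : ∃ r m, r < N ∧ n = d + r + N * m :=
    ⟨(n - d) % N, (n - d) / N, Nat.mod_lt _ hNpos, by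
      have := Nat.mod_add_div (n - d) N; omega⟩
  have hcomm : Commute A P :=
    (Commute.pow_right rfl N).sub_right ((Commute.one_right A).smul_right _)
  set z := A ^ (d + r) *ᵥ x with hz
  set u := c ^ (d + r) • y with hu
  have hBz : (A ^ N) ^ m *ᵥ z = (c ^ N) ^ m • u := by
    rw [hz, hu, mulVec_mulVec, ← pow_mul, ← pow_add, smul_smul, ← pow_mul, ← pow_add,
      show N * m + (d + r) = n by omega, hn]
  have hkill : P ^ d *ᵥ z = 0 := by
    rw [hz, mulVec_mulVec, add_comm d r, pow_add, ← mul_assoc,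
      ((hcomm.pow_left r).pow_right d).eq.symm, mul_assoc, ((hcomm.pow_pow d d)).eq.symm,
      ← hcomm.mul_pow, ← mulVec_mulVec, hspec, mulVec_zero]
  have hCm : ∀ k, (c ^ N) ^ k ≠ 0 := fun k => pow_ne_zero _ (pow_ne_zero _ hc)
  by_cases h1 : P *ᵥ z = 0
  · refine ⟨d + r, by omega, ?_⟩
    rw [hP, sub_mulVec, smul_mulVec, one_mulVec, sub_eq_zero] at h1
    rw [pow_mulVec_eigen (A ^ N) h1] at hBz
    exact smul_right_injective (Fin d → ℤ) (hCm m) hBz
  -- the last power of `P` which does not kill `z`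
  have hexj : ∃ k, P ^ k *ᵥ z = 0 := ⟨d, hkill⟩
  have hj2 : 2 ≤ Nat.find hexj := by
    refine (Nat.le_find_iff hexj 2).2 fun k hk h0 => h1 ?_
    interval_cases k
    · rw [pow_zero, one_mulVec] at h0
      rw [h0, mulVec_zero]
    · rwa [pow_one] at h0
  obtain ⟨j, hj⟩ : ∃ j, Nat.find hexj = j + 2 := ⟨Nat.find hexj - 2, by omega⟩
  have hjd : j + 2 ≤ d := hj ▸ Nat.find_min' hexj hkill
  have htop : P ^ (j + 2) *ᵥ z = 0 := hj ▸ Nat.find_spec hexj
  have hw0 : P ^ (j + 1) *ᵥ z ≠ 0 := Nat.find_min hexj (by omega)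
  set v := P ^ j *ᵥ z with hv
  set w := P ^ (j + 1) *ᵥ z with hw
  have hBv : A ^ N *ᵥ v = c ^ N • v + w := by
    rw [hw, pow_succ', ← mulVec_mulVec, ← hv, hP, sub_mulVec, smul_mulVec, one_mulVec]
    abel
  have hBw : A ^ N *ᵥ w = c ^ N • w := by
    have h2 : P *ᵥ w = 0 := by rw [hw, mulVec_mulVec, ← pow_succ']; exact htop
    rwa [hP, sub_mulVec, smul_mulVec, one_mulVec, sub_eq_zero] at h2
  have hlin := pow_mulVec_linear hBv hBw m
  rw [hv, mulVec_mulVec, (((hcomm.pow_left N).pow_pow m j)).eq, ← mulVec_mulVec, hBz,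
    mulVec_smul] at hlin
  rw [← hv] at hlin
  obtain ⟨i, hi⟩ := Function.ne_iff.1 hw0
  have hi' : (m : ℤ) * w i = c ^ N * ((P ^ j *ᵥ u) i - v i) := by
    have h3 := congrFun hlin i
    simp only [Pi.smul_apply, Pi.add_apply, smul_eq_mul] at h3
    refine mul_left_cancel₀ (hCm m) ?_
    linear_combination -h3
  have hT : ∀ {q : Fin d → ℤ}, VecLe (h + (h + d) * (d + N)) q →
      ((P ^ j *ᵥ q) i).natAbs ≤ 2 ^ (h + (h + d) * (d + N) + d * ((h + d) * N + 1)) := fun hq =>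
    (vecLe_diff hA hch hq j i).trans (Nat.pow_le_pow_right two_pos
      (Nat.add_le_add_left (Nat.mul_le_mul_right _ (by omega)) _))
  have hmono : ∀ {q : Fin d → ℤ} {k s : ℕ}, VecLe (h + s * k) q → k ≤ d + N → s ≤ h + d →
      VecLe (h + (h + d) * (d + N)) q := fun hq hk hs i => (hq i).trans
    (Nat.pow_le_pow_right two_pos (Nat.add_le_add_left (Nat.mul_le_mul hs hk) _))
  have hbz := hT (hmono (vecLe_pow hA hx (d + r)) (by omega) le_rfl)
  have hbu := hT (hmono (vecLe_smul hch hy (d + r)) (by omega) (Nat.le_add_right _ _))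
  rw [← hz, ← hv] at hbz
  rw [← hu] at hbu
  have hm : m ≤ 2 ^ ((h + d) * N + d * ((h + d) * N + 1) + (h + d) * (d + N) + h + 1) := by
    refine le_trans (Nat.le_mul_of_pos_right m (Int.natAbs_pos.2 hi)) ?_
    have h5 : ((m : ℤ) * w i).natAbs = m * (w i).natAbs := by
      rw [Int.natAbs_mul, Int.natAbs_natCast]
    rw [← h5, hi', Int.natAbs_mul, Int.natAbs_pow]
    have h6 : c.natAbs ^ N ≤ 2 ^ ((h + d) * N) :=
      (Nat.pow_le_pow_left (hch.trans (Nat.pow_le_pow_right two_pos (Nat.le_add_right h d))) N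
        ).trans_eq (pow_mul _ _ _).symm
    refine (Nat.mul_le_mul h6 ((Int.natAbs_sub_le _ _).trans (Nat.add_le_add hbu hbz))).trans ?_
    rw [← mul_two, ← pow_succ, ← pow_add]
    exact Nat.pow_le_pow_right two_pos (by omega)
  have := Nat.mul_le_mul_left N hm
  omega

end FA.BakerExplicit.OrbitProblem

end
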