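import Fermat.Agent.BakerExplicit.TernaryTerms
import Mathlib.LinearAlgebra.Matrix.Charpoly.Coeff
import Mathlib.LinearAlgebra.Matrix.ToLinearEquiv

/-!
# An eigenvector in the orbit

If `A ^ n x = c ^ n y` and `(A ^ N - c ^ N) ^ d A ^ d x ≠ 0`, a polynomial in `A` made of roots of
the characteristic polynomial takes `x` to an eigenvector whose eigenvalue is not `c` times a root
of unity, and this bounds `n`.
-/

set_option autoImplicit false

noncomputable section

namespace FA.BakerExplicit.OrbitProblem

open Polynomial Matrix NumberField Module GeneratedField TernaryRecurrence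

variable {d : ℕ}

/-- The degree of the field of the roots. -/
def rootFieldDegree (d : ℕ) : ℕ := d ^ d

/-- The period of the special roots. -/
def orbitPeriod (d : ℕ) : ℕ := rootPeriod (rootFieldDegree d)

/-- The exponent of the eigenvector bound. -/
def eigenExp (d h : ℕ) : ℕ := (h + d * (h + d + 1) + 2) * rootFieldDegree d

theorem orbitPeriod_pos (d : ℕ) : 0 < orbitPeriod d := rootPeriod_pos _

section Ring

variable {R : Type*} [CommRing R] (M : Matrix (Fin d) (Fin d) R)

/-- The product of the factors `M - z` applied to a vector. -/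
def applyRoots (l : List R) (v : Fin d → R) : Fin d → R :=
  l.foldr (fun z w => M *ᵥ w - z • w) v

/-- The product of the factors `X - z`. -/
def rootsProd (l : List R) : R[X] := (l.map fun z => X - C z).prod

theorem applyRoots_eq (l : List R) (v : Fin d → R) :
    applyRoots M l v = aeval M (rootsProd l) *ᵥ v := by
  induction l with
  | nil => simp [applyRoots, rootsProd]
  | cons z l ih =>
    have e : rootsProd (z :: l) = (X - C z) * rootsProd l := rfl
    have e' : applyRoots M (z :: l) v = M *ᵥ applyRoots M l v - z • applyRoots M l v := rfl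
    rw [e', ih, e, map_mul, ← mulVec_mulVec, map_sub, aeval_X, aeval_C, sub_mulVec,
      Algebra.algebraMap_eq_smul_one, smul_mulVec, one_mulVec]

theorem rootsProd_append (l l' : List R) : rootsProd (l ++ l') = rootsProd l * rootsProd l' := by
  simp [rootsProd]

theorem applyRoots_append (l l' : List R) (v : Fin d → R) :
    applyRoots M (l ++ l') v = applyRoots M l (applyRoots M l' v) :=
  List.foldr_append

/-- The last non-zero vector is an eigenvector. -/
theorem exists_eigen (l : List R) {v : Fin d → R} (hv : v ≠ 0) (h : applyRoots M l v = 0) :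
    ∃ z ∈ l, ∃ post : List R, post.length ≤ l.length ∧ (∀ w ∈ post, w ∈ l) ∧
      applyRoots M post v ≠ 0 ∧ M *ᵥ applyRoots M post v = z • applyRoots M post v := by
  induction l with
  | nil => exact absurd h hv
  | cons z l ih =>
    by_cases h' : applyRoots M l v = 0
    · obtain ⟨w, hw, post, hlen, hsub, h1, h2⟩ := ih h'
      exact ⟨w, List.mem_cons_of_mem _ hw, post,
        hlen.trans (by simp only [List.length_cons]; omega),
        fun a ha => List.mem_cons_of_mem _ (hsub a ha), h1, h2⟩
    · exact ⟨z, List.mem_cons_self, l, by simp only [List.length_cons]; omega,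
        fun a ha => List.mem_cons_of_mem _ ha, h', sub_eq_zero.1 h⟩

theorem pow_mulVec_eigen {v : Fin d → R} {z : R} (h : M *ᵥ v = z • v) (n : ℕ) :
    M ^ n *ᵥ v = z ^ n • v := by
  induction n with
  | zero => simp
  | succ n ih => rw [pow_succ, ← mulVec_mulVec, h, mulVec_smul, ih, smul_smul, ← pow_succ']

/-- Zeros and scaled roots of unity give a product dividing a power of one polynomial. -/
theorem rootsProd_dvd {c : R} {N : ℕ} (l : List R) (hl : ∀ z ∈ l, z = 0 ∨ z ^ N = c ^ N) :
    rootsProd l ∣ (X * (X ^ N - C (c ^ N))) ^ l.length := by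
  induction l with
  | nil => simp [rootsProd]
  | cons z l ih =>
    rw [show rootsProd (z :: l) = (X - C z) * rootsProd l from rfl, List.length_cons, pow_succ']
    refine mul_dvd_mul ?_ (ih fun w hw => hl w (List.mem_cons_of_mem _ hw))
    rcases hl z List.mem_cons_self with h | h
    · rw [h, map_zero, sub_zero]
      exact dvd_mul_right _ _
    · rw [← h, map_pow]
      exact dvd_mul_of_dvd_right (sub_dvd_pow_sub_pow _ _ N) _

theorem applyRoots_commute (l : List R) (n : ℕ) (v : Fin d → R) :
    M ^ n *ᵥ applyRoots M l v = applyRoots M l (M ^ n *ᵥ v) := by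
  rw [applyRoots_eq, applyRoots_eq, mulVec_mulVec, mulVec_mulVec]
  congr 1
  rw [← aeval_X_pow (R := R) M (n := n), ← map_mul, ← map_mul, mul_comm]

theorem applyRoots_smul (l : List R) (a : R) (v : Fin d → R) :
    applyRoots M l (a • v) = a • applyRoots M l v := by
  rw [applyRoots_eq, applyRoots_eq, mulVec_smul]

end Ring

/-- The eigenvalues are bounded by the entries. -/
theorem eigenvalue_bound {h : ℕ} {A : Matrix (Fin d) (Fin d) ℤ}
    (hA : ∀ i j, (A i j).natAbs ≤ 2 ^ h) {w : ℂ} (hw : aeval w A.charpoly = 0) :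
    ‖w‖ ≤ (2 : ℝ) ^ (h + d) := by
  have hdet : (Matrix.scalar (Fin d) w - A.map (fun a : ℤ => (a : ℂ))).det = 0 := by
    rw [← Matrix.eval_charpoly, show A.map (fun a : ℤ => (a : ℂ)) = A.map (Int.castRingHom ℂ)
      from rfl, Matrix.charpoly_map, ← algebraMap_int_eq, eval_map_algebraMap]
    exact hw
  obtain ⟨v, hv, hv0⟩ := Matrix.exists_mulVec_eq_zero_iff.2 hdet
  obtain ⟨j₀, hj₀⟩ := Function.ne_iff.1 hv
  have : Nonempty (Fin d) := ⟨j₀⟩
  obtain ⟨i, hi⟩ := Finite.exists_max fun j => ‖v j‖
  have hvi : 0 < ‖v i‖ := lt_of_lt_of_le (norm_pos_iff.2 hj₀) (hi j₀)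
  have heq : w * v i = ∑ j, (A i j : ℂ) * v j := by
    have := congrFun hv0 i
    rw [sub_mulVec, Pi.sub_apply, Matrix.scalar_apply, mulVec_diagonal, Pi.zero_apply,
      sub_eq_zero] at this
    simpa [mulVec, dotProduct] using this
  have hsum : ‖w‖ * ‖v i‖ ≤ (d : ℝ) * (2 : ℝ) ^ h * ‖v i‖ := by
    rw [← norm_mul, heq]
    refine (norm_sum_le _ _).trans ((Finset.sum_le_card_nsmul _ _ ((2 : ℝ) ^ h * ‖v i‖)
      fun j _ => ?_).trans_eq (by rw [Finset.card_univ, Fintype.card_fin, nsmul_eq_mul]; ring))
    rw [norm_mul, Complex.norm_intCast, ← Int.cast_abs, ← Int.natCast_natAbs, Int.cast_natCast]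
    exact mul_le_mul (by exact_mod_cast hA i j) (hi j) (norm_nonneg _) (by positivity)
  refine (le_of_mul_le_mul_right hsum hvi).trans ?_
  rw [pow_add, mul_comm]
  exact mul_le_mul_of_nonneg_left (by exact_mod_cast Nat.lt_two_pow_self.le) (by positivity)

variable {L : Type*} [Field L] [NumberField L]

theorem houseLe_applyRoots {h s T : ℕ} {M : Matrix (Fin d) (Fin d) (𝓞 L)}
    (hM : ∀ i j, HouseLe h (M i j)) (l : List (𝓞 L)) (hl : ∀ z ∈ l, HouseLe s z)
    {v : Fin d → 𝓞 L} (hv : ∀ i, HouseLe T (v i)) (hs : h + d ≤ s) (i : Fin d) :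
    HouseLe (T + l.length * (s + 1)) (applyRoots M l v i) := by
  induction l generalizing i with
  | nil => simpa [applyRoots] using hv i
  | cons z l ih =>
    intro σ
    have ih' := fun j => ih (fun w hw => hl w (List.mem_cons_of_mem _ hw)) j σ
    have e : applyRoots M (z :: l) v i = ∑ j, M i j * applyRoots M l v j - z * applyRoots M l v i :=
      rfl
    rw [e, List.length_cons, Nat.succ_mul, ← Nat.add_assoc]
    set U := (2 : ℝ) ^ (T + l.length * (s + 1)) with hU
    simp only [map_sub, map_sum, map_mul]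
    refine (norm_sub_le _ _).trans ?_
    have h1 : ‖∑ j, σ (M i j : L) * σ ((applyRoots M l v j : 𝓞 L) : L)‖ ≤ (2 : ℝ) ^ s * U := by
      refine (norm_sum_le _ _).trans ((Finset.sum_le_card_nsmul _ _ ((2 : ℝ) ^ h * U)
        fun j _ => ?_).trans ?_)
      · rw [norm_mul]
        exact mul_le_mul (hM i j σ) (ih' j) (norm_nonneg _) (by positivity)
      · rw [Finset.card_univ, Fintype.card_fin, nsmul_eq_mul, ← mul_assoc]
        refine mul_le_mul_of_nonneg_right ?_ (by positivity)
        calc (d : ℝ) * 2 ^ h ≤ (2 : ℝ) ^ d * 2 ^ h :=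
              mul_le_mul_of_nonneg_right (by exact_mod_cast Nat.lt_two_pow_self.le) (by positivity)
          _ ≤ _ := by rw [← pow_add]; exact pow_le_pow_right₀ one_le_two (by omega)
    have h2 : ‖σ (z : L) * σ ((applyRoots M l v i : 𝓞 L) : L)‖ ≤ (2 : ℝ) ^ s * U := by
      rw [norm_mul]
      exact mul_le_mul (hl z List.mem_cons_self σ) (ih' i) (norm_nonneg _) (by positivity)
    rw [pow_add (2 : ℝ) _ (s + 1), ← hU, pow_succ]
    nlinarith

/-- **The eigenvector bounds the exponent**, or the vector is special. -/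
theorem exponent_bound_or_special {h n : ℕ} {A : Matrix (Fin d) (Fin d) ℤ}
    (hA : ∀ i j, (A i j).natAbs ≤ 2 ^ h) {c : ℤ} (hc : c ≠ 0) {x y : Fin d → ℤ}
    (hx : ∀ i, (x i).natAbs ≤ 2 ^ h) (hy : ∀ i, (y i).natAbs ≤ 2 ^ h)
    (heq : A ^ n *ᵥ x = c ^ n • y) :
    n < 2 ^ eigenExp d h ∨
      ((A * (A ^ orbitPeriod d - c ^ orbitPeriod d • (1 : Matrix (Fin d) (Fin d) ℤ))) ^ d) *ᵥ x
        = 0 := by
  classical
  rcases Nat.eq_zero_or_pos d with rfl | hd
  · exact Or.inr (funext fun i => i.elim0)
  set f := A.charpoly with hf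
  have hfm : f.Monic := A.charpoly_monic
  have hfd : f.natDegree = d := by rw [hf, charpoly_natDegree_eq_dim, Fintype.card_fin]
  set fC := f.map (Int.castRingHom ℂ)
  have hcard : fC.roots.toList.length = d := by
    rw [Multiset.length_toList, IsAlgClosed.card_roots_eq_natDegree, hfm.natDegree_map, hfd]
  set r : Fin d → ℂ := fun i => fC.roots.toList.get (i.cast hcard.symm) with hr
  have hofn : List.ofFn r = fC.roots.toList := by
    refine List.ext_getElem (by simp [hcard]) fun i h1 h2 => ?_
    simp [hr]
  have hroot : ∀ i, aeval (r i) f = 0 := fun i => by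
    have := (mem_roots'.1 (Multiset.mem_toList.1 (List.get_mem fC.roots.toList
      (i.cast hcard.symm)))).2
    simp only [fC, IsRoot, ← algebraMap_int_eq, eval_map_algebraMap] at this
    exact this
  obtain ⟨L, hNF, z, hz, -, hdeg, -⟩ := exists_field (d := d) (q := d) (s := h + d) hd r
    fun i => ⟨f, hfm, hfd.le, hroot i, fun w hw => eigenvalue_bound hA hw⟩
  set φ : 𝓞 L →+* ℂ := (algebraMap L ℂ).comp (algebraMap (𝓞 L) L) with hφ
  have hφinj : Function.Injective φ :=
    (algebraMap L ℂ).injective.comp RingOfIntegers.coe_injective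
  have hφz : ∀ i, φ (z i) = r i := hz
  set ι := Int.castRingHom (𝓞 L)
  set l : List (𝓞 L) := List.ofFn z
  have hprod : rootsProd l = f.map ι := by
    refine map_injective φ hφinj ?_
    rw [Polynomial.map_map, RingHom.ext_int (φ.comp ι) (Int.castRingHom ℂ)]
    refine Eq.trans ?_ ((IsAlgClosed.splits fC).eq_prod_roots_of_monic (hfm.map _)).symm
    rw [rootsProd, Polynomial.map_list_prod, List.map_map, ← Multiset.coe_toList fC.roots,
      Multiset.map_coe, Multiset.prod_coe, ← hofn, List.map_ofFn, List.map_ofFn]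
    congr 1
    refine congrArg List.ofFn (funext fun i => ?_)
    simp [hφz]
  set M : Matrix (Fin d) (Fin d) (𝓞 L) := A.map ι
  set vx : Fin d → 𝓞 L := fun i => ι (x i)
  set vy : Fin d → 𝓞 L := fun i => ι (y i)
  set N := orbitPeriod d
  let special : 𝓞 L → Bool := fun w => decide (w = 0 ∨ w ^ N = ι c ^ N)
  set ls := l.filter special with hls
  set lo := l.filter (fun w => !special w) with hlo
  have hperm : rootsProd (lo ++ ls) = f.map ι := by
    rw [← hprod]
    refine (List.Perm.map _ ?_).prod_eq
    exact List.perm_append_comm.trans (List.filter_append_perm special l)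
  have hzero : applyRoots M lo (applyRoots M ls vx) = 0 := by
    rw [← applyRoots_append, applyRoots_eq, hperm, hf, ← charpoly_map, aeval_self_charpoly,
      zero_mulVec]
  by_cases hs : applyRoots M ls vx = 0
  · right
    obtain ⟨q, hq⟩ := rootsProd_dvd (c := ι c) (N := N) ls fun w hw => by
      simpa [special] using (List.mem_filter.1 hw).2
    have hlen : ls.length ≤ d :=
      (List.length_filter_le _ _).trans (by simp [l])
    have h1 : ((M * (M ^ N - ι c ^ N • (1 : Matrix (Fin d) (Fin d) (𝓞 L)))) ^ d) *ᵥ vx = 0 := by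
      have e : (M * (M ^ N - ι c ^ N • (1 : Matrix (Fin d) (Fin d) (𝓞 L)))) ^ d =
          aeval M ((X * (X ^ N - C (ι c ^ N))) ^ (d - ls.length) * q) *
            aeval M (rootsProd ls) := by
        rw [← map_mul, mul_assoc, mul_comm q, ← hq, ← pow_add, Nat.sub_add_cancel hlen, map_pow,
          map_mul, map_sub, map_pow, aeval_X, aeval_C, Algebra.algebraMap_eq_smul_one]
      rw [e, ← mulVec_mulVec, ← applyRoots_eq, hs, mulVec_zero]
    have e2 : (M * (M ^ N - ι c ^ N • (1 : Matrix (Fin d) (Fin d) (𝓞 L)))) ^ d =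
        ι.mapMatrix ((A * (A ^ N - c ^ N • (1 : Matrix (Fin d) (Fin d) ℤ))) ^ d) := by
      rw [map_pow, map_mul, map_sub, map_pow, RingHom.mapMatrix_apply, RingHom.mapMatrix_apply]
      congr 3
      ext i j
      rw [Matrix.map_apply, Matrix.smul_apply, Matrix.smul_apply, Matrix.one_apply,
        Matrix.one_apply]
      split_ifs <;> simp [ι]
    rw [e2] at h1
    refine funext fun i => ?_
    have h3 : ι ((((A * (A ^ N - c ^ N • (1 : Matrix (Fin d) (Fin d) ℤ))) ^ d) *ᵥ x) i) = 0 := by
      rw [RingHom.map_mulVec]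
      exact congrFun h1 i
    exact (RingHom.injective_int ι) (by rw [h3, Pi.zero_apply, map_zero])
  · left
    obtain ⟨w, hw, post, hlen, hsub, hne, heig⟩ := exists_eigen M lo hs hzero
    obtain ⟨hwl, hwns⟩ := List.mem_filter.1 hw
    simp only [special, Bool.not_eq_true', decide_eq_false_iff_not, not_or] at hwns
    have hlist : ∀ a ∈ post ++ ls, a ∈ l := fun a ha => by
      rcases List.mem_append.1 ha with h1 | h1
      · exact (List.mem_filter.1 (hsub a h1)).1
      · exact (List.mem_filter.1 h1).1
    have hlen2 : (post ++ ls).length ≤ d := by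
      rw [List.length_append]
      have h1 := (List.filter_append_perm special l).length_eq
      simp only [List.length_append, ← hls, ← hlo] at h1
      simp only [l, List.length_ofFn] at h1
      omega
    rw [← applyRoots_append] at hne heig
    obtain ⟨i, hi⟩ := Function.ne_iff.1 hne
    have hzh : ∀ a ∈ l, HouseLe (h + d) a := fun a ha σ => by
      obtain ⟨j, rfl⟩ := List.mem_ofFn.1 ha
      refine eigenvalue_bound hA ?_
      have h0 : aeval (z j : L) f = 0 := by
        refine (algebraMap L ℂ).injective ?_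
        rw [map_zero, ← aeval_algebraMap_apply, show algebraMap L ℂ (z j : L) = r j from hz j]
        exact hroot j
      rw [← hf, show σ (z j : L) = σ.toIntAlgHom (z j : L) from rfl, aeval_algHom_apply, h0,
        map_zero]
    have hint : ∀ {a : ℤ}, a.natAbs ≤ 2 ^ h → HouseLe h (ι a) := fun ha σ => by
      simp only [ι, eq_intCast, map_intCast, Complex.norm_intCast]
      rw [← Int.cast_abs, ← Int.natCast_natAbs, Int.cast_natCast]
      exact_mod_cast ha
    have hbd : ∀ {u : Fin d → ℤ}, (∀ j, (u j).natAbs ≤ 2 ^ h) →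
        HouseLe (h + d * (h + d + 1)) (applyRoots M (post ++ ls) (fun j => ι (u j)) i) :=
      fun hu => (houseLe_applyRoots (fun a b => hint (hA a b)) _ (fun a ha => hzh a (hlist a ha))
        (fun j => hint (hu j)) le_rfl i).mono
          (Nat.add_le_add_left (Nat.mul_le_mul_right _ hlen2) _)
    have heqL : M ^ n *ᵥ vx = ι c ^ n • vy := by
      have e3 : M ^ n = (A ^ n).map ι := by
        rw [show M = ι.mapMatrix A from rfl, ← map_pow]
        rfl
      rw [e3]
      refine funext fun j => ?_
      rw [show vx = ι ∘ x from rfl, ← RingHom.map_mulVec, heq]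
      simp [vy]
    have hpow : w ^ n • applyRoots M (post ++ ls) vx =
        ι c ^ n • applyRoots M (post ++ ls) vy := by
      rw [← pow_mulVec_eigen M heig, applyRoots_commute, heqL, applyRoots_smul]
    have hnp : w ^ rootPeriod (rootFieldDegree d) ≠ ι c ^ rootPeriod (rootFieldDegree d) :=
      hwns.2
    refine lt_of_proportion (d := rootFieldDegree d) hdeg hwns.1
      (by simpa [ι] using hc) hnp hi (hbd hy) (hbd hx) (n := n) ?_
    have h4 := congrFun hpow i
    simp only [Pi.smul_apply, smul_eq_mul] at h4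
    linear_combination h4

end FA.BakerExplicit.OrbitProblem

end
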