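import Fermat.Agent.BakerExplicit.PointSearch
import Fermat.Agent.BrumerSilverman.Example

/-!
# Testing good reduction and isomorphism of short models

For `p ≥ 5` the curve `y² = x³ + A x + B` has good reduction at `p` if and only if there is `k` with
`p ^ (4k) ∣ A`, `p ^ (6k) ∣ B` and `p ^ (12k)` exactly dividing `4A³ + 27B²`. Two short models are
isomorphic over `ℚ` if and only if they differ by a bounded fraction.
-/

set_option autoImplicit false

noncomputable section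

namespace FA.BakerExplicit.Algorithms

open WeierstrassCurve PrimrecBounds

/-- The short model of a pair. -/
def shortCurve (t : ℤ × ℤ) : WeierstrassCurve ℚ := ⟨0, 0, 0, (t.1 : ℚ), (t.2 : ℚ)⟩

/-- The discriminant of a short model, up to `-16`. -/
def shortDisc (t : ℤ × ℤ) : ℤ := 4 * t.1 ^ 3 + 27 * t.2 ^ 2

theorem shortCurve_invariants (t : ℤ × ℤ) :
    (shortCurve t).c₄ = ((-48 * t.1 : ℤ) : ℚ) ∧ (shortCurve t).c₆ = ((-864 * t.2 : ℤ) : ℚ) ∧
      (shortCurve t).Δ = ((-16 * shortDisc t : ℤ) : ℚ) := by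
  have : (shortCurve t).IsShortNF := ⟨rfl, rfl, rfl⟩
  refine ⟨?_, ?_, ?_⟩
  · rw [c₄_of_isShortNF]; simp [shortCurve]
  · rw [c₆_of_isShortNF]; simp [shortCurve]
  · rw [Δ_of_isShortNF]; simp [shortCurve, shortDisc]

theorem isElliptic_shortCurve {t : ℤ × ℤ} (h : shortDisc t ≠ 0) : (shortCurve t).IsElliptic := by
  refine ⟨isUnit_iff_ne_zero.2 ?_⟩
  rw [(shortCurve_invariants t).2.2]
  exact_mod_cast mul_ne_zero (show (-16 : ℤ) ≠ 0 by norm_num) h

/-- The model becomes one with unit discriminant at `q` after scaling by `q ^ k`. -/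
def Scaled (k : ℕ) (b : ℕ × ℤ × ℤ) : Prop :=
  b.1 ^ (4 * k) ∣ b.2.1.natAbs ∧ b.1 ^ (6 * k) ∣ b.2.2.natAbs ∧
    b.1 ^ (12 * k) ∣ (shortDisc b.2).natAbs ∧ ¬b.1 ^ (12 * k + 1) ∣ (shortDisc b.2).natAbs

/-- The invariants of a curve with good reduction. -/
theorem exists_scale_sharp {p : ℕ} [Fact p.Prime] (E : WeierstrassCurve ℚ)
    {C : VariableChange ℚ_[p]}
    (hC : HasGoodReduction ℤ_[p] (C • E.map (algebraMap ℚ ℚ_[p]))) :
    ∃ m : ℤ, ((p : ℝ) ^ m) ^ 4 * ‖(E.c₄ : ℚ_[p])‖ ≤ 1 ∧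
      ((p : ℝ) ^ m) ^ 6 * ‖(E.c₆ : ℚ_[p])‖ ≤ 1 ∧
      ((p : ℝ) ^ m) ^ 12 * ‖(E.Δ : ℚ_[p])‖ = 1 := by
  set W := C • E.map (algebraMap ℚ ℚ_[p]) with hW
  have := hC.toIsMinimal
  obtain ⟨W₀, hW₀⟩ := (inferInstance : IsIntegral ℤ_[p] W).integral
  have hc4 : ‖W.c₄‖ ≤ 1 := by
    rw [hW₀, baseChange, map_c₄]; exact PadicInt.norm_le_one _
  have hc6 : ‖W.c₆‖ ≤ 1 := by
    rw [hW₀, baseChange, map_c₆]; exact PadicInt.norm_le_one _
  have hΔ : ‖W.Δ‖ = 1 := by
    have hg := hC.goodReduction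
    rw [hW₀, baseChange, map_Δ] at hg ⊢
    show ‖W₀.Δ‖ = 1
    rw [← PadicInt.isUnit_iff]
    by_contra hnu
    exact absurd hg (ne_of_lt
      ((IsDedekindDomain.HeightOneSpectrum.valuation_lt_one_iff_mem _ _).2 hnu))
  rw [hW, variableChange_c₄, map_c₄, eq_ratCast, norm_mul, norm_pow,
    Padic.norm_eq_zpow_neg_valuation (Units.ne_zero _)] at hc4
  rw [hW, variableChange_c₆, map_c₆, eq_ratCast, norm_mul, norm_pow,
    Padic.norm_eq_zpow_neg_valuation (Units.ne_zero _)] at hc6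
  rw [hW, variableChange_Δ, map_Δ, eq_ratCast, norm_mul, norm_pow,
    Padic.norm_eq_zpow_neg_valuation (Units.ne_zero _)] at hΔ
  exact ⟨_, hc4, hc6, hΔ⟩

/-- A small constant is a unit at a prime at least five. -/
theorem norm_smul_eq {p : ℕ} [Fact p.Prime] (h5 : 5 ≤ p) {c : ℤ}
    (hc : c.natAbs = 2 ^ 4 * 3 ∨ c.natAbs = 2 ^ 5 * 3 ^ 3 ∨ c.natAbs = 2 ^ 4) (z : ℤ) :
    ‖(((c * z : ℤ) : ℚ) : ℚ_[p])‖ = ‖(z : ℚ_[p])‖ := by
  have hp : p.Prime := Fact.out
  have h : ‖(c : ℚ_[p])‖ = 1 := by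
    rw [Padic.norm_intCast_eq_one_iff, Int.isCoprime_iff_gcd_eq_one, Int.gcd_def,
      Int.natAbs_natCast]
    refine (Nat.Coprime.symm (hp.coprime_iff_not_dvd.2 fun hd => ?_))
    have h6 : p ∣ 2 ∨ p ∣ 3 := by
      rcases hc with hc | hc | hc <;> rw [hc] at hd
      · rcases hp.dvd_mul.1 hd with h | h
        · exact Or.inl (hp.dvd_of_dvd_pow h)
        · exact Or.inr h
      · rcases hp.dvd_mul.1 hd with h | h
        · exact Or.inl (hp.dvd_of_dvd_pow h)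
        · exact Or.inr (hp.dvd_of_dvd_pow h)
      · exact Or.inl (hp.dvd_of_dvd_pow hd)
    rcases h6 with h | h <;> have := Nat.le_of_dvd (by norm_num) h <;> omega
  rw [Rat.cast_intCast, Int.cast_mul, norm_mul, h, one_mul]

/-- **The test is necessary.** -/
theorem scaled_of_good {p : ℕ} [Fact p.Prime] (h5 : 5 ≤ p) {t : ℤ × ℤ} (h0 : shortDisc t ≠ 0)
    {C : VariableChange ℚ_[p]}
    (hC : HasGoodReduction ℤ_[p] (C • (shortCurve t).map (algebraMap ℚ ℚ_[p]))) :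
    ∃ k < (shortDisc t).natAbs + 1, Scaled k (p, t) := by
  obtain ⟨m, h4, h6, h12⟩ := exists_scale_sharp (shortCurve t) hC
  obtain ⟨e4, e6, e12⟩ := shortCurve_invariants t
  rw [e4, norm_smul_eq h5 (by norm_num)] at h4
  rw [e6, norm_smul_eq h5 (by norm_num)] at h6
  rw [e12, norm_smul_eq h5 (by norm_num)] at h12
  have hp : p.Prime := Fact.out
  have hp1 : (1 : ℝ) < p := by exact_mod_cast hp.one_lt
  have hp0 : (0 : ℝ) < p := by linarith
  have hD : ‖(shortDisc t : ℚ_[p])‖ = (p : ℝ) ^ (-(12 * m)) := by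
    rw [zpow_neg, eq_inv_of_mul_eq_one_right h12, ← zpow_natCast ((p : ℝ) ^ m), ← zpow_mul]
    push_cast
    rw [mul_comm m]
  have hm : 0 ≤ m := by
    have h1 := Padic.norm_int_le_one (p := p) (shortDisc t)
    rw [hD, zpow_le_one_iff_right₀ hp1] at h1
    omega
  obtain ⟨k, rfl⟩ := Int.eq_ofNat_of_zero_le hm
  have hdvd : ∀ (z : ℤ) (e : ℕ), p ^ e ∣ z.natAbs ↔ ‖(z : ℚ_[p])‖ ≤ (p : ℝ) ^ (-(e : ℤ)) :=
    fun z e => by rw [Padic.norm_int_le_pow_iff_dvd, ← Int.natCast_dvd]; push_cast; rfl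
  have hle : ∀ (z : ℤ) (e : ℕ), ((p : ℝ) ^ (k : ℤ)) ^ e * ‖(z : ℚ_[p])‖ ≤ 1 →
      p ^ (e * k) ∣ z.natAbs := fun z e h => by
    rw [hdvd, zpow_neg, zpow_natCast, ← one_div, le_div_iff₀ (pow_pos hp0 _), mul_comm]
    rwa [zpow_natCast, ← pow_mul, mul_comm k e] at h
  have hD' : p ^ (12 * k) ∣ (shortDisc t).natAbs := by
    rw [hdvd, hD]; push_cast; rfl
  refine ⟨k, ?_, hle _ 4 h4, hle _ 6 h6, hD', fun h => ?_⟩
  · have h1 := Nat.le_of_dvd (Int.natAbs_pos.2 h0) hD'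
    have h2 := Nat.lt_pow_self (n := 12 * k) hp.one_lt
    omega
  · rw [hdvd, hD, zpow_le_zpow_iff_right₀ hp1] at h
    push_cast at h
    omega

/-- **The test is sufficient.** -/
theorem good_of_scaled {p : ℕ} [Fact p.Prime] (h5 : 5 ≤ p) {t : ℤ × ℤ} {k : ℕ}
    (h : Scaled k (p, t)) : ∃ C : VariableChange ℚ_[p],
      HasGoodReduction ℤ_[p] (C • (shortCurve t).map (algebraMap ℚ ℚ_[p])) := by
  obtain ⟨hA, hB, hD, hD'⟩ := h
  have hp : p.Prime := Fact.out
  obtain ⟨A', hA⟩ := Int.natCast_dvd.2 hA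
  obtain ⟨B', hB⟩ := Int.natCast_dvd.2 hB
  push_cast at hA hB
  set V : WeierstrassCurve ℤ_[p] := ⟨0, 0, 0, (A' : ℤ_[p]), (B' : ℤ_[p])⟩ with hV
  have hu : (p : ℚ_[p]) ^ k ≠ 0 := pow_ne_zero _ (Nat.cast_ne_zero.2 hp.ne_zero)
  refine ⟨⟨Units.mk0 _ hu, 0, 0, 0⟩, ?_⟩
  have e : (⟨Units.mk0 _ hu, 0, 0, 0⟩ : VariableChange ℚ_[p]) •
      (shortCurve t).map (algebraMap ℚ ℚ_[p]) = V.map (algebraMap ℤ_[p] ℚ_[p]) := by
    ext
    all_goals simp only [variableChange_a₁, variableChange_a₂, variableChange_a₃,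
      variableChange_a₄, variableChange_a₆, Units.val_inv_eq_inv_val, Units.val_mk0, map_a₁,
      map_a₂, map_a₃, map_a₄, map_a₆, hV, shortCurve, map_zero, map_intCast]
    · simp
    · simp
    · simp
    · rw [hA]
      push_cast
      field_simp
      ring
    · rw [hB]
      push_cast
      field_simp
      ring
  rw [e]
  refine FA.BrumerSilverman.hasGoodReduction_of_isUnit V ?_
  have hdisc : shortDisc t = (p : ℤ) ^ (12 * k) * (4 * A' ^ 3 + 27 * B' ^ 2) := by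
    rw [shortDisc, hA, hB]; ring
  have hΔ : V.Δ = ((-16 * (4 * A' ^ 3 + 27 * B' ^ 2) : ℤ) : ℤ_[p]) := by
    have : V.IsShortNF := ⟨rfl, rfl, rfl⟩
    rw [Δ_of_isShortNF]
    simp [hV]
  rw [hΔ, PadicInt.isUnit_iff]
  refine le_antisymm (PadicInt.norm_le_one _) (not_lt.1 fun hlt => ?_)
  rw [PadicInt.norm_int_lt_one_iff_dvd] at hlt
  rcases (Nat.prime_iff_prime_int.1 hp).dvd_mul.1 hlt with h16 | hrest
  · have h2 : p ∣ 2 ^ 4 := by
      rw [dvd_neg] at h16
      exact_mod_cast h16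
    have := Nat.le_of_dvd two_pos (hp.dvd_of_dvd_pow h2)
    omega
  · refine hD' (Int.natCast_dvd.1 ?_)
    rw [hdisc]
    push_cast
    rw [pow_succ]
    exact mul_dvd_mul_left _ hrest

/-- Every prime factor above `2 ^ g` of the discriminant passes the test. -/
def GoodAbove (t : ℤ × ℤ) (g : ℕ) : Prop :=
  shortDisc t ≠ 0 ∧ ∀ q < (shortDisc t).natAbs + 1, ¬q ∣ (shortDisc t).natAbs ∨ ¬q.Prime ∨
    q ≤ 2 ^ g ∨ ∃ k < (shortDisc t).natAbs + 1, Scaled k (q, t)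

instance : DecidableRel GoodAbove := fun t g => by
  unfold GoodAbove Scaled; infer_instance

/-- Good reduction at the primes above `2 ^ g`. -/
def GoodReductionAbove (E : WeierstrassCurve ℚ) (g : ℕ) : Prop :=
  ∀ p : ℕ, ∀ [Fact p.Prime], 2 ^ g < p → ∃ C : VariableChange ℚ_[p],
    HasGoodReduction ℤ_[p] (C • E.map (algebraMap ℚ ℚ_[p]))

/-- **Good reduction is decided by the test.** -/
theorem goodAbove_iff {g : ℕ} (hg : 2 ≤ g) (t : ℤ × ℤ) :
    GoodAbove t g ↔ shortDisc t ≠ 0 ∧ GoodReductionAbove (shortCurve t) g := by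
  have h4 : 4 ≤ 2 ^ g := (Nat.pow_le_pow_right two_pos hg).trans_eq' rfl
  refine and_congr_right fun h0 => ⟨fun h => ?_, fun h q _ => ?_⟩
  · intro p hp hgp
    by_cases hd : p ∣ (shortDisc t).natAbs
    · have hlt := Nat.lt_succ_of_le (Nat.le_of_dvd (Int.natAbs_pos.2 h0) hd)
      rcases h p hlt with h1 | h1 | h1 | ⟨k, -, h1⟩
      · exact absurd hd h1
      · exact absurd hp.out h1
      · omega
      · exact good_of_scaled (by omega) h1
    · refine good_of_scaled (k := 0) (by omega) ⟨by simp, by simp, by simp, ?_⟩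
      simpa using hd
  · by_cases h1 : q ∣ (shortDisc t).natAbs
    · by_cases h2 : q.Prime
      · by_cases h3 : q ≤ 2 ^ g
        · exact Or.inr (Or.inr (Or.inl h3))
        · have : Fact q.Prime := ⟨h2⟩
          obtain ⟨C, hC⟩ := h q (by omega)
          exact Or.inr (Or.inr (Or.inr (scaled_of_good (by omega) h0 hC)))
      · exact Or.inr (Or.inl h2)
    · exact Or.inl h1

/-- Good reduction does not depend on the model. -/
theorem GoodReductionAbove.smul {E : WeierstrassCurve ℚ} {g : ℕ} (h : GoodReductionAbove E g)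
    (C : VariableChange ℚ) : GoodReductionAbove (C • E) g := by
  intro p hp hgp
  obtain ⟨C', hC'⟩ := h p hgp
  refine ⟨C' * (C.map (algebraMap ℚ ℚ_[p]))⁻¹, ?_⟩
  rwa [← map_variableChange, mul_smul, inv_smul_smul]

/-- A size of a pair. -/
def pairHeight (t : ℤ × ℤ) : ℕ := t.1.natAbs + t.2.natAbs

/-- Two short models differ by a scaling by `n / d`. -/
def ScalesTo (n d : ℕ) (t s : ℤ × ℤ) : Prop :=
  n ≠ 0 ∧ d ≠ 0 ∧ t.1 * (d : ℤ) ^ 4 = (n : ℤ) ^ 4 * s.1 ∧ t.2 * (d : ℤ) ^ 6 = (n : ℤ) ^ 6 * s.2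

/-- The search for the isomorphism. -/
def Isomorphic (t s : ℤ × ℤ) : Prop :=
  ∃ n < pairHeight t + 1, ∃ d < pairHeight s + 1, ScalesTo n d t s

instance : DecidableRel Isomorphic := fun t s => by
  unfold Isomorphic ScalesTo; infer_instance

theorem scale_le_aux {a b : ℤ} {n d e : ℕ} (hcop : n.Coprime d) (he : e ≠ 0)
    (h : a * (d : ℤ) ^ e = (n : ℤ) ^ e * b) (hb : b ≠ 0) (hn : n ≠ 0) :
    n ≤ a.natAbs ∧ d ≤ b.natAbs := by
  have h' := congrArg Int.natAbs h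
  rw [Int.natAbs_mul, Int.natAbs_mul, Int.natAbs_pow, Int.natAbs_pow, Int.natAbs_natCast,
    Int.natAbs_natCast] at h'
  have ha : a.natAbs ≠ 0 := fun ha => by
    rw [ha, zero_mul] at h'
    exact mul_ne_zero (pow_ne_zero _ hn) (Int.natAbs_ne_zero.2 hb) h'.symm
  constructor
  · refine (Nat.le_self_pow he n).trans (Nat.le_of_dvd (Nat.pos_of_ne_zero ha) ?_)
    exact (hcop.pow e e).dvd_of_dvd_mul_right (Dvd.intro _ h'.symm)
  · refine (Nat.le_self_pow he d).trans (Nat.le_of_dvd (Int.natAbs_pos.2 hb) ?_)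
    exact (hcop.symm.pow e e).dvd_of_dvd_mul_left (Dvd.intro_left _ h')

/-- **Isomorphism is decided by the search.** -/
theorem isomorphic_iff {t s : ℤ × ℤ} (hs : shortDisc s ≠ 0) :
    Isomorphic t s ↔ ∃ C : VariableChange ℚ, C • shortCurve t = shortCurve s := by
  constructor
  · rintro ⟨n, -, d, -, hn, hd, h4, h6⟩
    have hnq : (n : ℚ) ≠ 0 := Nat.cast_ne_zero.2 hn
    have hdq : (d : ℚ) ≠ 0 := Nat.cast_ne_zero.2 hd
    have h4' : (t.1 : ℚ) * (d : ℚ) ^ 4 = (n : ℚ) ^ 4 * s.1 := by exact_mod_cast h4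
    have h6' : (t.2 : ℚ) * (d : ℚ) ^ 6 = (n : ℚ) ^ 6 * s.2 := by exact_mod_cast h6
    refine ⟨⟨Units.mk0 ((n : ℚ) / d) (div_ne_zero hnq hdq), 0, 0, 0⟩, ?_⟩
    ext
    all_goals simp only [variableChange_a₁, variableChange_a₂, variableChange_a₃,
      variableChange_a₄, variableChange_a₆, Units.val_inv_eq_inv_val, Units.val_mk0, shortCurve]
    · simp
    · simp
    · simp
    · field_simp
      linear_combination h4'
    · field_simp
      linear_combination h6'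
  · rintro ⟨C, hC⟩
    have h1 := congrArg WeierstrassCurve.a₁ hC
    have h2 := congrArg WeierstrassCurve.a₂ hC
    have h3 := congrArg WeierstrassCurve.a₃ hC
    have h4 := congrArg WeierstrassCurve.a₄ hC
    have h6 := congrArg WeierstrassCurve.a₆ hC
    simp only [variableChange_a₁, variableChange_a₂, variableChange_a₃, variableChange_a₄,
      variableChange_a₆, shortCurve] at h1 h2 h3 h4 h6
    have hu : ((C.u⁻¹ : ℚˣ) : ℚ) ≠ 0 := Units.ne_zero _
    have hs0 : C.s = 0 := by simpa [hu] using h1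
    have hr0 : C.r = 0 := by simpa [hu, hs0] using h2
    have ht0 : C.t = 0 := by simpa [hu, hs0, hr0] using h3
    simp only [hs0, hr0, ht0, Units.val_inv_eq_inv_val] at h4 h6
    set u : ℚ := (C.u : ℚ) with hudef
    have hu0 : u ≠ 0 := Units.ne_zero _
    have hd : (u.den : ℚ) ≠ 0 := Nat.cast_ne_zero.2 u.den_nz
    set n := u.num.natAbs with hn
    have hn0 : n ≠ 0 := Int.natAbs_ne_zero.2 (Rat.num_ne_zero.2 hu0)
    have hnu : (n : ℚ) ^ 2 = (u * u.den) ^ 2 := by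
      rw [Rat.mul_den_eq_num]
      exact_mod_cast Int.natAbs_sq u.num
    have hA : (t.1 : ℚ) = u ^ 4 * s.1 := by
      rw [← h4]
      field_simp
      ring
    have hB : (t.2 : ℚ) = u ^ 6 * s.2 := by
      rw [← h6]
      field_simp
      ring
    have e4 : t.1 * (u.den : ℤ) ^ 4 = (n : ℤ) ^ 4 * s.1 := by
      rw [← Int.cast_inj (α := ℚ)]
      push_cast
      linear_combination (u.den : ℚ) ^ 4 * hA -
        ((n : ℚ) ^ 2 + (u * u.den) ^ 2) * (s.1 : ℚ) * hnu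
    have e6 : t.2 * (u.den : ℤ) ^ 6 = (n : ℤ) ^ 6 * s.2 := by
      rw [← Int.cast_inj (α := ℚ)]
      push_cast
      linear_combination (u.den : ℚ) ^ 6 * hB -
        ((n : ℚ) ^ 4 + (n : ℚ) ^ 2 * (u * u.den) ^ 2 + (u * u.den) ^ 4) * (s.2 : ℚ) * hnu
    refine ⟨n, ?_, u.den, ?_, hn0, u.den_nz, e4, e6⟩ <;>
    · by_cases hs1 : s.1 = 0
      · have hs2 : s.2 ≠ 0 := fun h => hs (by simp [shortDisc, hs1, h])
        have := scale_le_aux u.reduced (by norm_num) e6 hs2 hn0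
        simp only [pairHeight]
        omega
      · have := scale_le_aux u.reduced (by norm_num) e4 hs1 hn0
        simp only [pairHeight]
        omega

theorem shortDisc_rec {α : Type*} [Primcodable α] {f : α → ℤ × ℤ} (hf : Primrec f) :
    IntRec fun a => shortDisc (f a) :=
  ((IntRec.const 4).mul (IntRec.of_primrec (Primrec.fst.comp hf)).cube).add
    ((IntRec.const 27).mul (IntRec.of_primrec (Primrec.snd.comp hf)).sq)

theorem IntRec.natAbs {α : Type*} [Primcodable α] {u : α → ℤ} (hu : IntRec u) :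
    Primrec fun a => (u a).natAbs := by
  obtain ⟨A, B, hA, hB, hu⟩ := hu
  refine (PrimrecBounds.add (Primrec.nat_sub.comp hA hB) (Primrec.nat_sub.comp hB hA)).of_eq
    fun a => ?_
  rw [hu]
  omega

/-- A bounded existential quantifier over any parameter. -/
theorem exists_lt_rel {β : Type*} [Primcodable β] {R : ℕ → β → Prop} (hR : PrimrecRel R) :
    PrimrecRel fun (n : ℕ) (b : β) => ∃ x < n, R x b :=
  (hR.exists_mem_list.comp (Primrec.list_range.comp Primrec.fst) Primrec.snd).of_eq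
    fun t : ℕ × β => by simp

theorem scaled_rel : PrimrecRel Scaled := by
  have q : Primrec fun a : ℕ × ℕ × ℤ × ℤ => a.2.1 := Primrec.fst.comp Primrec.snd
  have t : Primrec fun a : ℕ × ℕ × ℤ × ℤ => a.2.2 := Primrec.snd.comp Primrec.snd
  have e := fun c : ℕ => pow q (PrimrecBounds.mul (num c) Primrec.fst)
  exact (dvd_pred (e 4) (primrec_natAbs.comp (Primrec.fst.comp t))).and
    ((dvd_pred (e 6) (primrec_natAbs.comp (Primrec.snd.comp t))).and
      ((dvd_pred (e 12) (shortDisc_rec t).natAbs).and (dvd_pred (pow q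
        (PrimrecBounds.add (PrimrecBounds.mul (num 12) Primrec.fst) (num 1)))
          (shortDisc_rec t).natAbs).not))

theorem goodAbove_rel : PrimrecRel GoodAbove := by
  have hE : PrimrecRel fun (n : ℕ) (b : ℕ × ℤ × ℤ) => ∃ k < n, Scaled k b :=
    exists_lt_rel scaled_rel
  have q : Primrec fun a : ℕ × (ℤ × ℤ) × ℕ => a.1 := Primrec.fst
  have t : Primrec fun a : ℕ × (ℤ × ℤ) × ℕ => a.2.1 := Primrec.fst.comp Primrec.snd
  have hD := (shortDisc_rec t).natAbs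
  have hR : PrimrecRel fun (q : ℕ) (b : (ℤ × ℤ) × ℕ) => ¬q ∣ (shortDisc b.1).natAbs ∨ ¬q.Prime ∨
      q ≤ 2 ^ b.2 ∨ ∃ k < (shortDisc b.1).natAbs + 1, Scaled k (q, b.1) :=
    (dvd_pred q hD).not.or ((prime_pred.comp q).not.or ((Primrec.nat_le.comp q
      (pow (num 2) (Primrec.snd.comp Primrec.snd))).or
        (hE.comp (PrimrecBounds.add hD (num 1)) (Primrec.pair q t))))
  have hR' : PrimrecRel fun (n : ℕ) (b : (ℤ × ℤ) × ℕ) => ∀ q < n,
      ¬q ∣ (shortDisc b.1).natAbs ∨ ¬q.Prime ∨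
        q ≤ 2 ^ b.2 ∨ ∃ k < (shortDisc b.1).natAbs + 1, Scaled k (q, b.1) := forall_lt_rel hR
  have h0 := shortDisc_rec (α := (ℤ × ℤ) × ℕ) Primrec.fst
  exact (h0.eq_pred (IntRec.const 0)).not.and
    (hR'.comp (PrimrecBounds.add h0.natAbs (num 1)) Primrec.id)

theorem isomorphic_rel : PrimrecRel Isomorphic := by
  have hR : PrimrecRel fun (d : ℕ) (b : ℕ × (ℤ × ℤ) × (ℤ × ℤ)) =>
      ScalesTo b.1 d b.2.1 b.2.2 := by
    have d : Primrec fun a : ℕ × ℕ × (ℤ × ℤ) × (ℤ × ℤ) => a.1 := Primrec.fst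
    have n : Primrec fun a : ℕ × ℕ × (ℤ × ℤ) × (ℤ × ℤ) => a.2.1 := Primrec.fst.comp Primrec.snd
    have b2 : Primrec fun a : ℕ × ℕ × (ℤ × ℤ) × (ℤ × ℤ) => a.2.2 := Primrec.snd.comp Primrec.snd
    have t := Primrec.fst.comp b2
    have s := Primrec.snd.comp b2
    have c := fun {f : ℕ × ℕ × (ℤ × ℤ) × (ℤ × ℤ) → ℕ} (hf : Primrec f) (e : ℕ) =>
      show IntRec fun a => (f a : ℤ) ^ e by
        simpa only [Nat.cast_pow] using IntRec.natCast (pow hf (num e))
    exact (Primrec.eq.comp n (num 0)).not.and ((Primrec.eq.comp d (num 0)).not.and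
      ((((IntRec.of_primrec (Primrec.fst.comp t)).mul (c d 4)).eq_pred
          ((c n 4).mul (IntRec.of_primrec (Primrec.fst.comp s)))).and
        (((IntRec.of_primrec (Primrec.snd.comp t)).mul (c d 6)).eq_pred
          ((c n 6).mul (IntRec.of_primrec (Primrec.snd.comp s))))))
  have hD : PrimrecRel fun (m : ℕ) (b : ℕ × (ℤ × ℤ) × (ℤ × ℤ)) =>
      ∃ d < m, ScalesTo b.1 d b.2.1 b.2.2 := exists_lt_rel hR
  have hh : Primrec pairHeight :=
    PrimrecBounds.add (primrec_natAbs.comp Primrec.fst) (primrec_natAbs.comp Primrec.snd)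
  have hN : PrimrecRel fun (n : ℕ) (ts : (ℤ × ℤ) × (ℤ × ℤ)) =>
      ∃ d < pairHeight ts.2 + 1, ScalesTo n d ts.1 ts.2 :=
    hD.comp (PrimrecBounds.add (hh.comp (Primrec.snd.comp Primrec.snd)) (num 1)) Primrec.id
  have hN' : PrimrecRel fun (m : ℕ) (ts : (ℤ × ℤ) × (ℤ × ℤ)) =>
      ∃ n < m, ∃ d < pairHeight ts.2 + 1, ScalesTo n d ts.1 ts.2 := exists_lt_rel hN
  exact hN'.comp (PrimrecBounds.add (hh.comp Primrec.fst) (num 1)) Primrec.id

end FA.BakerExplicit.Algorithms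

end
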