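import Fermat.Agent.BakerExplicit.TernaryRecurrence
import Fermat.Agent.BakerExplicit.ReductionTest
import Fermat.Agent.BakerExplicit.FormSearch

/-!
# Skolem's problem in order three, by search

The zeros below `ternaryBound + ternaryPeriod` determine all the zeros.
-/

set_option autoImplicit false

noncomputable section

namespace FA.BakerExplicit.Algorithms

open PrimrecBounds TernaryRecurrence

/-- The coefficients `P, Q, R` and the first three values. -/
abbrev TernaryData : Type := ℤ × ℤ × ℤ × ℤ × ℤ × ℤ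

/-- One step of the recurrence. -/
def ternaryStep (t : TernaryData) (s : ℤ × ℤ × ℤ) : ℤ × ℤ × ℤ :=
  (s.2.1, s.2.2, t.1 * s.2.2 + t.2.1 * s.2.1 + t.2.2.1 * s.1)

/-- Three consecutive values. -/
def ternaryState (t : TernaryData) (n : ℕ) : ℤ × ℤ × ℤ :=
  (ternaryStep t)^[n] (t.2.2.2.1, t.2.2.2.2.1, t.2.2.2.2.2)

/-- The sequence. -/
def ternarySeq (t : TernaryData) (n : ℕ) : ℤ := (ternaryState t n).1

theorem ternaryState_succ (t : TernaryData) (n : ℕ) :
    ternaryState t (n + 1) = ternaryStep t (ternaryState t n) :=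
  Function.iterate_succ_apply' _ _ _

theorem ternarySeq_rec (t : TernaryData) (n : ℕ) :
    ternarySeq t (n + 3) = t.1 * ternarySeq t (n + 2) + t.2.1 * ternarySeq t (n + 1) +
      t.2.2.1 * ternarySeq t n := by
  simp only [ternarySeq, show n + 3 = n + 1 + 1 + 1 by rfl, show n + 2 = n + 1 + 1 by rfl,
    ternaryState_succ, ternaryStep]

theorem ternarySeq_init (t : TernaryData) : ternarySeq t 0 = t.2.2.2.1 ∧
    ternarySeq t 1 = t.2.2.2.2.1 ∧ ternarySeq t 2 = t.2.2.2.2.2 :=
  ⟨rfl, rfl, rfl⟩

/-- A bound for the data. -/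
def ternaryHeight (t : TernaryData) : ℕ :=
  t.1.natAbs + t.2.1.natAbs + t.2.2.1.natAbs + t.2.2.2.1.natAbs + t.2.2.2.2.1.natAbs +
    t.2.2.2.2.2.natAbs

/-- The index from which the zeros repeat. -/
def zeroBound (t : TernaryData) : ℕ := ternaryBound (ternaryHeight t)

theorem seq_periodic (t : TernaryData) {n : ℕ} (hn : zeroBound t ≤ n) :
    ternarySeq t n = 0 ↔ ternarySeq t (n + ternaryPeriod) = 0 := by
  have h : ∀ {z : ℤ}, z.natAbs ≤ ternaryHeight t → z.natAbs ≤ 2 ^ ternaryHeight t := fun hz =>
    hz.trans Nat.lt_two_pow_self.le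
  refine ternary_periodic (h (by simp only [ternaryHeight]; omega))
    (h (by simp only [ternaryHeight]; omega)) (h (by simp only [ternaryHeight]; omega))
    (ternarySeq_rec t) (fun i hi => ?_) hn
  obtain ⟨e0, e1, e2⟩ := ternarySeq_init t
  interval_cases i
  · rw [e0]; exact h (by simp only [ternaryHeight]; omega)
  · rw [e1]; exact h (by simp only [ternaryHeight]; omega)
  · rw [e2]; exact h (by simp only [ternaryHeight]; omega)

theorem seq_periodic_mul (t : TernaryData) {n : ℕ} (hn : zeroBound t ≤ n) (j : ℕ) :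
    ternarySeq t n = 0 ↔ ternarySeq t (n + ternaryPeriod * j) = 0 := by
  induction j with
  | zero => simp
  | succ j ih =>
    rw [ih, seq_periodic t (hn.trans (Nat.le_add_right _ _)), Nat.mul_succ, add_assoc]

/-- **Every zero repeats one in the first period.** -/
theorem zero_iff_mod (t : TernaryData) {n : ℕ} (hn : zeroBound t ≤ n) :
    ternarySeq t n = 0 ↔
      ternarySeq t (zeroBound t + (n - zeroBound t) % ternaryPeriod) = 0 := by
  rw [seq_periodic_mul t (Nat.le_add_right _ _) ((n - zeroBound t) / ternaryPeriod), add_assoc,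
    Nat.mod_add_div, Nat.add_sub_cancel' hn]

/-- A zero is found in the search. -/
def HasZero (t : TernaryData) : Prop :=
  ∃ n < zeroBound t + ternaryPeriod, ternarySeq t n = 0

theorem hasZero_iff (t : TernaryData) : HasZero t ↔ ∃ n, ternarySeq t n = 0 := by
  refine ⟨fun ⟨n, _, h⟩ => ⟨n, h⟩, fun ⟨n, h⟩ => ?_⟩
  rcases lt_or_ge n (zeroBound t) with hn | hn
  · exact ⟨n, Nat.lt_add_right _ hn, h⟩
  · exact ⟨_, Nat.add_lt_add_left (Nat.mod_lt _ ternaryPeriod_pos) _, (zero_iff_mod t hn).1 h⟩

/-- A zero is found in the first period after the bound. -/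
def HasPeriodicZero (t : TernaryData) : Prop :=
  ∃ j < ternaryPeriod, ternarySeq t (zeroBound t + j) = 0

theorem hasPeriodicZero_iff (t : TernaryData) :
    HasPeriodicZero t ↔ {n | ternarySeq t n = 0}.Infinite := by
  constructor
  · rintro ⟨j, -, h⟩
    refine Set.infinite_of_forall_exists_gt fun a =>
      ⟨zeroBound t + j + ternaryPeriod * (a + 1),
        (seq_periodic_mul t (Nat.le_add_right _ _) (a + 1)).1 h, ?_⟩
    have := Nat.le_mul_of_pos_left (a + 1) ternaryPeriod_pos
    omega
  · intro h
    obtain ⟨n, hn, hn'⟩ := h.exists_gt (zeroBound t)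
    exact ⟨_, Nat.mod_lt _ ternaryPeriod_pos, (zero_iff_mod t hn'.le).1 hn⟩

/-- The zeros which determine all others. -/
def zeroList (t : TernaryData) : List ℕ :=
  (List.range (zeroBound t + ternaryPeriod)).filter fun n => decide (ternarySeq t n = 0)

theorem mem_zeroList (t : TernaryData) (n : ℕ) :
    n ∈ zeroList t ↔ n < zeroBound t + ternaryPeriod ∧ ternarySeq t n = 0 := by
  simp [zeroList]

theorem primrec_zeroBound : Primrec zeroBound := by
  have p2 : Primrec fun t : TernaryData => t.2 := Primrec.snd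
  have p3 := Primrec.snd.comp p2
  have p4 := Primrec.snd.comp p3
  have p5 := Primrec.snd.comp p4
  have hH : Primrec ternaryHeight :=
    add (add (add (add (add (primrec_natAbs.comp Primrec.fst)
      (primrec_natAbs.comp (Primrec.fst.comp p2))) (primrec_natAbs.comp (Primrec.fst.comp p3)))
      (primrec_natAbs.comp (Primrec.fst.comp p4))) (primrec_natAbs.comp (Primrec.fst.comp p5)))
      (primrec_natAbs.comp (Primrec.snd.comp p5))
  exact add (add (pow (num 2) (mul (add (add (PrimrecBounds.sUnitBound (num 27)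
      (PrimrecBounds.discExp (num 3) (num 3) (add hH (num 3)))
      (mul (add (mul (num 4) hH) (num 12)) (num 27))) (add (mul (num 4) hH) (num 12))) (num 3))
      (num 27))) (num 1))
    (mul (num 8) (pow (add (pow (num 2) (add (mul (num 30) hH) (num 100))) (num 1)) (num 3)))

theorem seq_zero_rel : PrimrecRel fun (n : ℕ) (t : TernaryData) => ternarySeq t n = 0 := by
  have hb : Primrec fun a : (ℕ × TernaryData) × ℤ × ℤ × ℤ => a.1.2 :=
    Primrec.snd.comp Primrec.fst
  have b2 := Primrec.snd.comp hb
  have b3 := Primrec.snd.comp b2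
  have s : Primrec fun a : (ℕ × TernaryData) × ℤ × ℤ × ℤ => a.2 := Primrec.snd
  have s2 := Primrec.snd.comp s
  have e := ((((IntRec.of_primrec (Primrec.fst.comp hb)).mul
    (IntRec.of_primrec (Primrec.snd.comp s2))).add ((IntRec.of_primrec (Primrec.fst.comp b2)).mul
    (IntRec.of_primrec (Primrec.fst.comp s2)))).add ((IntRec.of_primrec (Primrec.fst.comp b3)).mul
    (IntRec.of_primrec (Primrec.fst.comp s)))).to_primrec
  have hh : Primrec₂ fun (a : ℕ × TernaryData) (x : ℤ × ℤ × ℤ) => ternaryStep a.2 x :=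
    (Primrec.pair (Primrec.fst.comp s2) (Primrec.pair (Primrec.snd.comp s2) e)).to₂
  have p : Primrec fun a : ℕ × TernaryData => a.2.2.2.2 :=
    Primrec.snd.comp (Primrec.snd.comp (Primrec.snd.comp Primrec.snd))
  have hs : Primrec fun a : ℕ × TernaryData => ternarySeq a.2 a.1 :=
    Primrec.fst.comp (Primrec.nat_iterate Primrec.fst (Primrec.pair (Primrec.fst.comp p)
      (Primrec.pair (Primrec.fst.comp (Primrec.snd.comp p))
        (Primrec.snd.comp (Primrec.snd.comp p)))) hh)
  exact (IntRec.of_primrec hs).eq_pred (IntRec.const 0)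

theorem hasZero_pred : PrimrecPred HasZero := by
  have h : PrimrecRel fun (m : ℕ) (t : TernaryData) => ∃ n < m, ternarySeq t n = 0 :=
    exists_lt_rel seq_zero_rel
  exact h.comp (add primrec_zeroBound (num ternaryPeriod)) Primrec.id

theorem hasPeriodicZero_pred : PrimrecPred HasPeriodicZero := by
  have h' : PrimrecRel fun (j : ℕ) (t : TernaryData) => ternarySeq t (zeroBound t + j) = 0 :=
    seq_zero_rel.comp (add (primrec_zeroBound.comp Primrec.snd) Primrec.fst) Primrec.snd
  have h : PrimrecRel fun (m : ℕ) (t : TernaryData) =>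
      ∃ j < m, ternarySeq t (zeroBound t + j) = 0 := exists_lt_rel h'
  exact h.comp (num ternaryPeriod) Primrec.id

theorem primrec_zeroList : Primrec zeroList :=
  (PrimrecRel.listFilter seq_zero_rel).comp
    (Primrec.list_range.comp (add primrec_zeroBound (num ternaryPeriod))) Primrec.id

end FA.BakerExplicit.Algorithms

end
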