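import Fermat.Agent.BakerExplicit.OrbitBound
import Fermat.Agent.BakerExplicit.SkolemSearch

/-!
# The orbit problem, by search

The dimension, the multiplier and lists of the entries are given; the orbit is computed on lists
and searched up to `orbitBound`.
-/

set_option autoImplicit false

noncomputable section

namespace FA.BakerExplicit.Algorithms

open PrimrecBounds OrbitProblem Matrix

/-- The dimension, `c`, the entries of the matrix, and the two vectors. -/
abbrev OrbitData : Type := ℕ × ℤ × List ℤ × List ℤ × List ℤ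

/-- The square matrix of a list, read by rows. -/
def matrixOf (d : ℕ) (L : List ℤ) : Matrix (Fin d) (Fin d) ℤ :=
  Matrix.of fun i j => L.getD (j.val + d * i.val) 0

/-- The vector of a list. -/
def vectorOf (d : ℕ) (L : List ℤ) : Fin d → ℤ := fun i => L.getD i.val 0

/-- A sum of a list. -/
def listSum (l : List ℤ) : ℤ := l.foldr (fun a s => a + s) 0

/-- The product of a row with a vector. -/
def rowProduct (d : ℕ) (L v : List ℤ) (i : ℕ) : ℤ :=
  listSum ((List.range d).map fun j => L.getD (j + d * i) 0 * v.getD j 0)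

/-- One step on lists. -/
def orbitStep (t : OrbitData) (v : List ℤ) : List ℤ :=
  (List.range t.1).map fun i => rowProduct t.1 t.2.2.1 v i

/-- The orbit on lists. -/
def orbitList (t : OrbitData) (n : ℕ) : List ℤ := (orbitStep t)^[n] t.2.2.2.1

/-- The equation at `n` on lists. -/
def OrbitHit (n : ℕ) (t : OrbitData) : Prop :=
  ∀ i < t.1, (orbitList t n).getD i 0 = t.2.1 ^ n * t.2.2.2.2.getD i 0

instance : DecidableRel OrbitHit := fun n t => by unfold OrbitHit; infer_instance

theorem orbitList_getD (t : OrbitData) (n : ℕ) (i : Fin t.1) :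
    (orbitList t n).getD i.val 0 =
      ((matrixOf t.1 t.2.2.1) ^ n *ᵥ vectorOf t.1 t.2.2.2.1) i := by
  induction n generalizing i with
  | zero => simp [orbitList, vectorOf]
  | succ n ih =>
    rw [pow_succ', ← mulVec_mulVec, orbitList, Function.iterate_succ_apply', ← orbitList,
      orbitStep, List.getD_eq_getElem?_getD, List.getElem?_map, List.getElem?_range i.isLt,
      Option.map_some, Option.getD_some, rowProduct, listSum]
    show List.sum ((List.range t.1).map fun j =>
      t.2.2.1.getD (j + t.1 * i.val) 0 * (orbitList t n).getD j 0) = _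
    refine (show _ = ∑ j ∈ Finset.range t.1,
      t.2.2.1.getD (j + t.1 * i.val) 0 * (orbitList t n).getD j 0 from rfl).trans ?_
    refine (Finset.sum_range (fun j =>
      t.2.2.1.getD (j + t.1 * i.val) 0 * (orbitList t n).getD j 0)).trans ?_
    exact Finset.sum_congr rfl fun j _ => by rw [ih j]; rfl

theorem orbitHit_iff (n : ℕ) (t : OrbitData) :
    OrbitHit n t ↔ matrixOf t.1 t.2.2.1 ^ n *ᵥ vectorOf t.1 t.2.2.2.1 =
      t.2.1 ^ n • vectorOf t.1 t.2.2.2.2 := by
  simp only [funext_iff, Pi.smul_apply, smul_eq_mul, ← orbitList_getD]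
  exact ⟨fun h i => h i.val i.isLt, fun h i hi => h ⟨i, hi⟩⟩

/-- A bound for the data. -/
def orbitHeight (t : OrbitData) : ℕ :=
  t.2.1.natAbs + formHeight t.2.2.1 + formHeight t.2.2.2.1 + formHeight t.2.2.2.2

/-- The bound of the search. -/
def orbitSearchBound (t : OrbitData) : ℕ := orbitBound t.1 (orbitHeight t)

/-- A witness is found by the search. -/
def HasOrbit (t : OrbitData) : Prop :=
  ¬(t.2.1 = 0) ∧ ∃ n < orbitSearchBound t + 1, OrbitHit n t

theorem getD_natAbs_le (L : List ℤ) (i : ℕ) : (L.getD i 0).natAbs ≤ formHeight L := by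
  rw [← coeff_formPoly]; exact coeff_natAbs_le L i

theorem exists_le_searchBound {t : OrbitData} (hc : t.2.1 ≠ 0)
    (h : ∃ n, matrixOf t.1 t.2.2.1 ^ n *ᵥ vectorOf t.1 t.2.2.2.1 =
      t.2.1 ^ n • vectorOf t.1 t.2.2.2.2) :
    ∃ n ≤ orbitSearchBound t, matrixOf t.1 t.2.2.1 ^ n *ᵥ vectorOf t.1 t.2.2.2.1 =
      t.2.1 ^ n • vectorOf t.1 t.2.2.2.2 := by
  have hle : ∀ {z : ℕ}, z ≤ orbitHeight t → z ≤ 2 ^ orbitHeight t := fun hz =>
    hz.trans Nat.lt_two_pow_self.le
  refine exists_le_orbitBound (fun i j => hle ?_) hc (hle ?_) (fun i => hle ?_) (fun i => hle ?_) h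
  · exact (getD_natAbs_le _ _).trans (by unfold orbitHeight; omega)
  · unfold orbitHeight; omega
  · exact (getD_natAbs_le _ _).trans (by unfold orbitHeight; omega)
  · exact (getD_natAbs_le _ _).trans (by unfold orbitHeight; omega)

theorem hasOrbit_iff (t : OrbitData) : HasOrbit t ↔ t.2.1 ≠ 0 ∧
    ∃ n, matrixOf t.1 t.2.2.1 ^ n *ᵥ vectorOf t.1 t.2.2.2.1 =
      t.2.1 ^ n • vectorOf t.1 t.2.2.2.2 := by
  refine and_congr_right fun hc => ⟨fun ⟨n, _, h⟩ => ⟨n, (orbitHit_iff n t).1 h⟩, fun h => ?_⟩
  obtain ⟨n, hn, h'⟩ := exists_le_searchBound hc h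
  exact ⟨n, Nat.lt_succ_of_le hn, (orbitHit_iff n t).2 h'⟩

theorem primrec_factorial : Primrec Nat.factorial := by
  refine (Primrec.nat_rec' Primrec.id (num 1) (h := fun _ p => (p.1 + 1) * p.2)
    ((mul (add (Primrec.fst.comp Primrec.snd) (num 1))
      (Primrec.snd.comp Primrec.snd)).to₂)).of_eq fun n => ?_
  simp only [id]
  induction n with
  | zero => rfl
  | succ n ih => simp only [ih, Nat.factorial_succ]

theorem primrec_orbitSearchBound : Primrec orbitSearchBound := by
  have hd : Primrec fun t : OrbitData => t.1 := Primrec.fst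
  have t3 : Primrec fun t : OrbitData => t.2.2 := Primrec.snd.comp Primrec.snd
  have hh : Primrec orbitHeight := add (add (add
    (primrec_natAbs.comp (Primrec.fst.comp Primrec.snd))
    (primrec_formHeight.comp (Primrec.fst.comp t3)))
    (primrec_formHeight.comp (Primrec.fst.comp (Primrec.snd.comp t3))))
    (primrec_formHeight.comp (Primrec.snd.comp (Primrec.snd.comp t3)))
  have hD := pow hd hd
  have hN : Primrec fun t : OrbitData => orbitPeriod t.1 :=
    primrec_factorial.comp (mul (num 2) hD)
  have hhd := add hh hd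
  exact add (add (add (pow (num 2) (mul (add (add hh (mul hd (add hhd (num 1)))) (num 2)) hD))
    hd) hN) (mul hN (pow (num 2) (add (add (add (add (mul hhd hN)
      (mul hd (add (mul hhd hN) (num 1)))) (mul hhd (add hd hN))) hh) (num 1))))

theorem primrec_orbitStep : Primrec₂ orbitStep := by
  have b : Primrec fun a : ((OrbitData × List ℤ) × ℕ) × ℕ => a.2 := Primrec.snd
  have i : Primrec fun a : ((OrbitData × List ℤ) × ℕ) × ℕ => a.1.2 :=
    Primrec.snd.comp Primrec.fst
  have t : Primrec fun a : ((OrbitData × List ℤ) × ℕ) × ℕ => a.1.1.1 :=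
    Primrec.fst.comp (Primrec.fst.comp Primrec.fst)
  have v : Primrec fun a : ((OrbitData × List ℤ) × ℕ) × ℕ => a.1.1.2 :=
    Primrec.snd.comp (Primrec.fst.comp Primrec.fst)
  have hterm := ((IntRec.of_primrec ((Primrec.list_getD 0).comp
      (Primrec.fst.comp (Primrec.snd.comp (Primrec.snd.comp t)))
      (add b (mul (Primrec.fst.comp t) i)))).mul
    (IntRec.of_primrec ((Primrec.list_getD 0).comp v b))).to_primrec
  have hrow := Primrec.list_map (f := fun a : (OrbitData × List ℤ) × ℕ => List.range a.1.1.1)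
    (Primrec.list_range.comp (Primrec.fst.comp (Primrec.fst.comp Primrec.fst))) hterm.to₂
  have hsum : Primrec listSum :=
    Primrec.list_foldr (h := fun _ (s : ℤ × ℤ) => s.1 + s.2) Primrec.id (Primrec.const 0)
      ((IntRec.of_primrec (Primrec.fst.comp Primrec.snd)).add
        (IntRec.of_primrec (Primrec.snd.comp Primrec.snd))).to_primrec.to₂
  exact Primrec.list_map (f := fun a : OrbitData × List ℤ => List.range a.1.1)
    (Primrec.list_range.comp (Primrec.fst.comp Primrec.fst)) (hsum.comp hrow).to₂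

theorem orbitHit_rel : PrimrecRel OrbitHit := by
  have hR : PrimrecRel fun (i : ℕ) (a : ℕ × OrbitData) =>
      (orbitList a.2 a.1).getD i 0 = a.2.2.1 ^ a.1 * a.2.2.2.2.2.getD i 0 := by
    have i : Primrec fun b : ℕ × ℕ × OrbitData => b.1 := Primrec.fst
    have n : Primrec fun b : ℕ × ℕ × OrbitData => b.2.1 := Primrec.fst.comp Primrec.snd
    have t : Primrec fun b : ℕ × ℕ × OrbitData => b.2.2 := Primrec.snd.comp Primrec.snd
    have t2 := Primrec.snd.comp t
    have t4 := Primrec.snd.comp (Primrec.snd.comp t2)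
    have hl : Primrec fun b : ℕ × ℕ × OrbitData => orbitList b.2.2 b.2.1 :=
      Primrec.nat_iterate n (Primrec.fst.comp t4)
        (primrec_orbitStep.comp (t.comp Primrec.fst) Primrec.snd).to₂
    exact (IntRec.of_primrec ((Primrec.list_getD 0).comp hl i)).eq_pred
      (((IntRec.of_primrec (Primrec.fst.comp t2)).powVar n).mul
        (IntRec.of_primrec ((Primrec.list_getD 0).comp (Primrec.snd.comp t4) i)))
  have hR' : PrimrecRel fun (m : ℕ) (a : ℕ × OrbitData) =>
      ∀ i < m, (orbitList a.2 a.1).getD i 0 = a.2.2.1 ^ a.1 * a.2.2.2.2.2.getD i 0 :=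
    forall_lt_rel hR
  exact hR'.comp (Primrec.fst.comp Primrec.snd) Primrec.id

theorem hasOrbit_pred : PrimrecPred HasOrbit := by
  have h : PrimrecRel fun (m : ℕ) (t : OrbitData) => ∃ n < m, OrbitHit n t :=
    exists_lt_rel orbitHit_rel
  exact ((IntRec.of_primrec (Primrec.fst.comp Primrec.snd)).eq_pred (IntRec.const 0)).not.and
    (h.comp (add primrec_orbitSearchBound (num 1)) Primrec.id)

end FA.BakerExplicit.Algorithms

end
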