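import Fermat.Agent.BakerExplicit.PadicSetup
import Fermat.Agent.BakerExplicit.AlgebraicMain

/-!
# An explicit `p`-adic theorem of Baker for algebraic numbers

The proof over `ℚ`, in any complete ultrametric field over `ℚ_p` into which the number field is
embedded: an algebraic integer which is `p`-adically smaller than the inverse of its house to the
degree vanishes. Colliding nodes have equal `p`-adic logarithms, so independence is not needed.
-/

set_option autoImplicit false

noncomputable section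

namespace FA.BakerExplicit.PadicAlgebraic

open Finset FA.Brumer NumberField Module
open Algebraic (exists_int_solution house_le_of_forall)

/-- The logarithm of the loss. -/
theorem loss_le {n d h m P : ℕ} (hn : 1 ≤ n) (hh : 1 ≤ h) (hd : 1 ≤ d) (hm : m ≤ P)
    (hP : 2 ^ 17 * n ^ 2 * 2 ^ (3 * n ^ 2) * d ≤ P) (hPh : 2 ^ 17 * n * h * d ≤ P) :
    (2 + 6 * n ^ 2) * P * (2 * (intRange P (3 * n ^ 2) * orders n P 0)) +
      (m + 1) * orders n P 0 + m +
      d * (termLogAlg n h m P + 2 * n * h * degree n P * intRange P (3 * n ^ 2)) + 2 ≤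
        2 * P ^ kappa n := by
  refine le_trans ?_ (Nat.mul_le_mul_left 2 (lossLogAlg_le hn hh hd hm hP hPh))
  simp only [lossLogAlg]
  set X := (2 + 6 * n ^ 2) * P
  set σ := intRange P (3 * n ^ 2)
  set T := orders n P 0
  have hP1 := one_le_of_facts hn hd hP
  have hT : 1 ≤ T := Nat.mul_pos (Nat.two_pow_pos _) (pow_pos hP1 _)
  have hσ : 1 ≤ σ := Nat.one_le_pow _ _ hP1
  have hX : m + 1 ≤ X := by
    have : 2 * P ≤ X := Nat.mul_le_mul_right _ (by omega)
    omega
  have h1 : (m + 1) * T ≤ X * T := Nat.mul_le_mul_right _ hX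
  have h2 : m + 1 ≤ X * T := hX.trans (Nat.le_mul_of_pos_right _ hT)
  have e : (5 + X) * ((σ + 1) * T) = 5 * (σ * T) + 5 * T + X * (σ * T) + X * T := by ring
  have e' : X * (2 * (σ * T)) = 2 * (X * (σ * T)) := by ring
  omega

variable {p : ℕ} [hp : Fact p.Prime] {C : Type*} [NontriviallyNormedField C] [CompleteSpace C]
  [IsUltrametricDist C] [hC : NormedAlgebra ℚ_[p] C] [CharZero C]

omit [CompleteSpace C] [IsUltrametricDist C] in
/-- The logarithms of colliding nodes span nothing containing a nonzero form. -/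
theorem notMem_span {n : ℕ} {ell : Fin n → C} {b : Fin n → ℤ}
    (hΛ : ∑ i, (b i : C) * ell i ≠ 0) {W : Finset (Fin n → ℤ)}
    (hW : ∀ w ∈ W, ∑ i, (w i : C) * ell i = 0) :
    (fun i => (b i : ℚ)) ∉
      Submodule.span ℚ ((fun w i => (w i : ℚ)) '' (W : Set (Fin n → ℤ))) := fun hmem => by
  classical
  let φ : (Fin n → ℚ) →ₗ[ℚ] C :=
    { toFun := fun x => ∑ i, (x i : C) * ell i
      map_add' := fun x y => by simp [add_mul, sum_add_distrib]
      map_smul' := fun q x => by simp [mul_sum, Rat.smul_def, mul_assoc] }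
  have h1 := (Submodule.span_le (p := LinearMap.ker φ)).2 (fun x hx => by
    obtain ⟨w, hw, rfl⟩ := hx
    simpa [φ] using hW w hw) hmem
  exact hΛ (by simpa [φ] using h1)

variable {K : Type*} [Field K] [NumberField K]

set_option maxHeartbeats 1000000 in
/-- **The `p`-adic theorem of Baker for algebraic numbers, explicit.** No independence is
needed. -/
theorem padic_baker_algebraic_bound {d : ℕ} (hd : finrank ℚ K ≤ d) (ψ : K →+* C) {n : ℕ}
    {A : Fin n → 𝓞 K} {h m : ℕ} (hh : 1 ≤ h)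
    (hAh : ∀ i (σ : K →+* ℂ), ‖σ (A i : K)‖ ≤ (2 : ℝ) ^ h)
    (hA1 : ∀ i, ‖ψ (A i : K) - 1‖ ≤ rad p) {u v : Fin n → ℕ}
    (hne : ∏ i, A i ^ u i ≠ ∏ i, A i ^ v i) (hu : ∀ i, u i ≤ 2 ^ m) (hv : ∀ i, v i ≤ 2 ^ m)
    {M : ℕ} (hsmall : ‖ψ ((∏ i, A i ^ u i : 𝓞 K) : K) - ψ ((∏ i, A i ^ v i : 𝓞 K) : K)‖ ≤
      ((p : ℝ) ^ M)⁻¹) : M ≤ 2 * baseAlg n d h m ^ kappa n := by
  classical
  by_contra hlt
  push Not at hlt
  set b : Fin n → ℤ := fun i => (u i : ℤ) - v i with hbdef
  obtain ⟨i₁, -⟩ := Function.ne_iff.1 (fun e => hne (by rw [e]) : u ≠ v)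
  have hn : 1 ≤ n := i₁.pos
  have hd1 : 1 ≤ d := le_trans finrank_pos hd
  have hp1 : (1 : ℝ) < p := one_lt_prime p
  have hp0 : (0 : ℝ) < p := prime_pos p
  have hp2 : 2 ≤ p := hp.out.two_le
  -- the logarithms
  set ell : Fin n → C := fun i => plog p (ψ (A i : K))
  have hl : ∀ i, ‖ell i‖ ≤ rad p := fun i => norm_plog_le _
  have hexp : ∀ i, pexp (ell i) = ψ (A i : K) := fun i => pexp_plog (hA1 i)
  have hlin : ∀ w : Fin n → ℕ, ‖∑ i, (w i : C) * ell i‖ ≤ rad p ∧
      pexp (∑ i, (w i : C) * ell i) = ψ ((∏ i, A i ^ w i : 𝓞 K) : K) := fun w => by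
    refine ⟨IsUltrametricDist.norm_sum_le_of_forall_le_of_nonneg (rad_pos (p := p)).le
      fun i _ => ?_, ?_⟩
    · rw [norm_mul]
      exact (mul_le_of_le_one_left (norm_nonneg _)
        (IsUltrametricDist.norm_natCast_le_one _ _)).trans (hl i)
    · rw [pexp_sum fun i _ =>
        (small_of_le (hl i)).mul (IsUltrametricDist.norm_natCast_le_one _ _)]
      simp only [map_prod, map_pow]
      exact prod_congr rfl fun i _ => by rw [pexp_nat_mul (small_of_le (hl i)), hexp]
  set Λ := ∑ i, (b i : C) * ell i with hΛdef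
  have hsub : ∑ i, (u i : C) * ell i - ∑ i, (v i : C) * ell i = Λ := by
    rw [hΛdef, ← sum_sub_distrib]
    refine sum_congr rfl fun i _ => ?_
    simp only [hbdef]
    push_cast
    ring
  obtain ⟨hxu, heu⟩ := hlin u
  obtain ⟨hxv, hev⟩ := hlin v
  have hΛ0 : Λ ≠ 0 := fun h0 => by
    rw [← hsub, sub_eq_zero] at h0
    exact hne (RingOfIntegers.ext (ψ.injective (by rw [← heu, ← hev, h0])))
  have hΛ : ‖Λ‖ ≤ ((p : ℝ) ^ M)⁻¹ := by
    have hdiff := norm_pexp_diff_le (p := p) hxu hxv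
    rw [hsub, heu, hev] at hdiff
    set D := ψ ((∏ i, A i ^ u i : 𝓞 K) : K) - ψ ((∏ i, A i ^ v i : 𝓞 K) : K)
    have h2 : ‖Λ‖ ≤ max ‖D‖ ‖D - Λ‖ := by
      have := norm_sub_le_max D (D - Λ)
      rwa [sub_sub_cancel] at this
    rcases le_max_iff.1 h2 with h3 | h3
    · exact h3.trans hsmall
    · have h4 : (1 - (p : ℝ)⁻¹) * ‖Λ‖ ≤ 0 := by linarith
      have h5 : ‖Λ‖ ≤ 0 := le_of_mul_le_mul_left (by rw [mul_zero]; exact h4)
        (sub_pos.2 (inv_lt_one_of_one_lt₀ hp1))
      exact h5.trans (by positivity)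
  have : Nonempty (Fin n) := ⟨i₁⟩
  obtain ⟨i₀, -, hmax'⟩ := exists_max_image univ (fun i => ‖(b i : C)‖) univ_nonempty
  have hmax : ∀ i, ‖(b i : C)‖ ≤ ‖(b i₀ : C)‖ := fun i => hmax' i (mem_univ i)
  have hbi : b i₀ ≠ 0 := fun e => hΛ0 (sum_eq_zero fun i _ => by
    have h1 := hmax i
    rw [e, Int.cast_zero, norm_zero, norm_le_zero_iff] at h1
    rw [h1, zero_mul])
  have hbm : ∀ i, (b i).natAbs ≤ 2 ^ m := fun i => by
    have := hu i; have := hv i
    simp only [hbdef]
    omega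
  have hbinv : ‖(b i₀ : C)‖⁻¹ ≤ (p : ℝ) ^ m := by
    refine inv_le_of_inv_le₀ (by positivity) ?_
    rw [norm_intCast p (C := C)]
    exact inv_pow_le_norm hbi ((hbm i₀).trans (Nat.pow_le_pow_left hp2 m))
  -- the parameters
  obtain ⟨hP, hPm, hPh⟩ := baseAlg_facts (m := m) (n := n) hh hd1
  set P := baseAlg n d h m
  set J := 3 * n ^ 2 with hJ
  set T := orders n P with hTdef
  set S := intRange P with hSdef
  set L := degree n P with hLdef
  set N := L ^ n with hNdef
  have hP1 : 1 ≤ P := one_le_of_facts hn hd1 hP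
  have hTmono : ∀ j, T j ≤ T 0 := fun j =>
    Nat.mul_le_mul_right _ (Nat.pow_le_pow_right two_pos (by omega))
  have hT0 : ∀ j, 1 ≤ T j := fun j => Nat.mul_pos (Nat.two_pow_pos _) (pow_pos hP1 _)
  have hTstep : ∀ j, j < J → 2 * T (j + 1) = T j := fun j hj => by
    simp only [hTdef, orders]
    rw [← mul_assoc, ← pow_succ', show 3 * n ^ 2 - (j + 1) + 1 = 3 * n ^ 2 - j by omega]
  have hSmono : ∀ {i j : ℕ}, i ≤ j → S i ≤ S j := fun hij =>
    Nat.pow_le_pow_right hP1 (by omega)
  set e := m + 1 + 6 * n * P with he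
  have hcoord : ∀ i, 2 * L * (b i).natAbs ≤ 2 ^ e := fun i => by
    calc 2 * L * (b i).natAbs ≤ 2 * 2 ^ (6 * n * P) * 2 ^ m :=
          Nat.mul_le_mul (Nat.mul_le_mul_left _ degree_le_two_pow) (hbm i)
      _ = 2 ^ e := by rw [he, pow_add, pow_add]; ring
  have hmonom : ∀ {Tb : ℕ} {t : Other i₀ → ℕ}, ∑ i, t i ≤ Tb → ∀ lam : Fin n → Fin L,
      (monom b i₀ t lam).natAbs ≤ 2 ^ (e * Tb) := fun {Tb t} ht lam => by
    rw [monom, show (∏ i : Other i₀, coord b i₀ lam i.1 ^ t i).natAbs =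
      ∏ i : Other i₀, (coord b i₀ lam i.1 ^ t i).natAbs from map_prod Int.natAbsHom _ _, pow_mul]
    refine le_trans ?_ (Nat.pow_le_pow_right (Nat.two_pow_pos e) ht)
    rw [← prod_pow_eq_pow_sum]
    refine prod_le_prod' fun i _ => ?_
    rw [Int.natAbs_pow]
    refine Nat.pow_le_pow_left ?_ _
    simp only [coord]
    refine (Int.natAbs_sub_le _ _).trans ?_
    rw [Int.natAbs_mul, Int.natAbs_mul, Int.natAbs_natCast, Int.natAbs_natCast]
    have h1 := hcoord i₀
    have h2 := hcoord i.1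
    rw [mul_assoc] at h1 h2
    have h3 : (b i₀).natAbs * (lam i.1).val ≤ L * (b i₀).natAbs := by
      rw [mul_comm L]; exact Nat.mul_le_mul_left _ (lam i.1).isLt.le
    have h4 : (b i.1).natAbs * (lam i₀).val ≤ L * (b i.1).natAbs := by
      rw [mul_comm L]; exact Nat.mul_le_mul_left _ (lam i₀).isLt.le
    omega
  have hN2 : N ≤ 2 ^ (6 * n ^ 2 * P) := degree_pow_le_two_pow
  have hcardι : Fintype.card (Other i₀) = n - 1 := by simp [Fintype.card_subtype_compl]
  have hcardL : Fintype.card (Fin n → Fin L) = N := by simp [hNdef]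
  have hAh2 : ∀ i (σ : K →+* ℂ), ‖σ (A i : K)‖ ≤ (2 : ℝ) ^ (2 * h) := fun i σ =>
    (hAh i σ).trans (pow_le_pow_right₀ one_le_two (by omega))
  have hD1 : 1 ≤ 2 ^ h := Nat.one_le_two_pow
  have hcast : ∀ (c : ℤ) (σ : K →+* ℂ) (w : 𝓞 K),
      ‖σ (((c : 𝓞 K) * w : 𝓞 K) : K)‖ = (c.natAbs : ℝ) * ‖σ (w : K)‖ := fun c σ w => by
    simp only [map_mul, map_intCast, norm_mul, Complex.norm_intCast, Nat.cast_natAbs, Int.cast_abs]
  -- Siegel's lemma
  let x : (Other i₀ → Fin (T 0)) × Fin (S 0) → (Fin n → Fin L) → 𝓞 K := fun tk lam =>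
    (monom b i₀ (fun i => (tk.1 i).val) lam : 𝓞 K) * Algebraic.weight A 1 tk.2.val lam
  obtain ⟨c, hc0, hcA, hcb⟩ := exists_int_solution x (by
      simp only [Fintype.card_prod, Fintype.card_fun, Fintype.card_fin]
      exact Nat.mul_pos (pow_pos (hT0 0) _) (pow_pos hP1 _)) (by
      simp only [Fintype.card_prod, Fintype.card_fun, Fintype.card_fin, hcardι]
      exact le_trans (by gcongr) (unknowns_alg hn hd1 hP))
    (a := e * (n * T 0) + 2 * n * h * L * S 0) (hcardL.trans_le hN2) fun tk lam σ => by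
    simp only [x]
    rw [hcast, pow_add]
    refine mul_le_mul ?_ ((Algebraic.norm_weight_le hAh2 hD1 _ lam σ).trans
      (pow_le_pow_right₀ one_le_two (Nat.mul_le_mul_left _ tk.2.isLt.le))) (norm_nonneg _)
      (by positivity)
    exact_mod_cast hmonom ((sum_le_card_nsmul _ _ (T 0) fun i _ => (tk.1 i).isLt.le).trans (by
      rw [card_univ, hcardι, smul_eq_mul]
      exact Nat.mul_le_mul_right _ (Nat.sub_le _ _))) lam
  set U := termLogAlg n h m P with hU
  have hterm : ∀ t : Other i₀ → ℕ, ∑ i, t i ≤ T 0 → ∀ lam,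
      L ^ n * (c lam * monom b i₀ t lam).natAbs ≤ 2 ^ U := fun t ht lam => by
    have hUe : U = 6 * n ^ 2 * P + (6 * n ^ 2 * P + (e * (n * T 0) + 2 * n * h * L * S 0) + 2 +
        e * (n * T 0)) := by
      simp only [hU, termLogAlg, he, hTdef, hSdef, hLdef]; ring
    rw [Int.natAbs_mul, hUe, pow_add 2 (6 * n ^ 2 * P),
      pow_add 2 (6 * n ^ 2 * P + (e * (n * T 0) + 2 * n * h * L * S 0) + 2)]
    exact Nat.mul_le_mul hN2 (Nat.mul_le_mul (hcb lam)
      (hmonom (ht.trans (Nat.le_mul_of_pos_left _ hn)) lam))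
  -- the vanishing
  let X : (Other i₀ → ℕ) → ℕ → 𝓞 K := fun t k =>
    ∑ lam, ((c lam * monom b i₀ t lam : ℤ) : 𝓞 K) * Algebraic.weight A 1 k lam
  let Vanish : ℕ → Prop := fun j => ∀ t : Other i₀ → ℕ, ∑ i, t i < T j → ∀ k < S j, X t k = 0
  have hnode : ∀ lam : Fin n → Fin L,
      pexp (padicMu ell lam) = ψ ((∏ i, A i ^ (lam i).val : 𝓞 K) : K) := fun lam =>
    (hlin fun i => (lam i).val).2
  have hval : ∀ (t : Other i₀ → ℕ) (k : ℕ),
      ψ (X t k : K) = padicVal ell b i₀ c t k := fun t k => by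
    simp only [X, padicVal, map_sum, map_mul, map_intCast, hnode]
    refine sum_congr rfl fun lam _ => congrArg _ ?_
    simp only [Algebraic.weight, Nat.cast_one, one_pow, mul_one, map_prod, map_pow, ← prod_pow,
      ← pow_mul]
  have hstart : Vanish 0 := fun t ht k hk => by
    refine Eq.trans (sum_congr rfl fun lam _ => ?_) (hcA
      (fun i => ⟨t i, lt_of_le_of_lt (single_le_sum (fun _ _ => Nat.zero_le _) (mem_univ i)) ht⟩,
        ⟨k, hk⟩))
    simp only [x]
    push_cast
    ring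
  set σ := S J with hσdef
  have hloss := loss_le hn hh hd1 hPm hP hPh
  simp only [← hU, ← hTdef, ← hSdef, ← hLdef, ← hJ, ← hσdef] at hloss
  set Z := (2 + 6 * n ^ 2) * P with hZ
  have hσZ : σ ≤ 2 ^ Z := by
    rw [hσdef, hSdef, intRange, hZ, mul_comm (2 + 6 * n ^ 2), pow_mul]
    exact (Nat.pow_le_pow_left Nat.lt_two_pow_self.le _).trans_eq (by rw [hJ]; ring_nf)
  have hb0inv : ∀ i : Fin n, ‖ell i / (b i₀ : C)‖ ≤ (p : ℝ) ^ m := fun i => by
    rw [norm_div, div_eq_mul_inv]
    exact (mul_le_of_le_one_left (by positivity) ((hl i).trans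
      (inv_le_one_of_one_le₀ (one_le_pow₀ hp1.le)))).trans hbinv
  set δ := (p : ℝ) ^ (m + 1) / (p : ℝ) ^ M with hδ
  have hclose : ∀ (t : Other i₀ → ℕ) (k : ℕ),
      ‖padicFun ell b i₀ c t (k : C) - padicVal ell b i₀ c t k‖ ≤ δ := fun t k => by
    refine (norm_padicFun_sub_padicVal_le hl hbi hmax c t k).trans ?_
    rw [norm_div, hδ, pow_succ', mul_div_assoc]
    refine mul_le_mul_of_nonneg_left ?_ hp0.le
    rw [div_eq_mul_inv, div_eq_mul_inv, mul_comm ((p : ℝ) ^ m)]
    exact mul_le_mul hΛ hbinv (by positivity) (by positivity)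
  have hR : (1 : ℝ) < (p : ℝ) ^ 2 := one_lt_pow₀ hp1 two_ne_zero
  have hstep : ∀ j, j < J → Vanish j → Vanish (j + 1) := fun j hj hvan t ht k hk => by
    have hTj := hTstep j hj
    set T' := T (j + 1)
    set ρ := S (j + 1)
    have hρσ : ρ ≤ σ := hSmono hj
    have hjρ : S j ≤ ρ := hSmono (Nat.le_succ j)
    have ht0 : ∑ i, t i ≤ T 0 := ht.le.trans (hTmono _)
    have hdec := decays_padicCoeff hl hbi hmax c t (x₀ := 0) (by simp)
    set ε := (p : ℝ) ^ ((m + 1) * T 0) * δ with hε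
    set nodes : Finset C := (range (S j)).image fun l : ℕ => (l : C) with hnodes
    have hcard : nodes.card = S j := by
      rw [hnodes, card_image_of_injective _ fun _ _ e => Nat.cast_injective e, card_range]
    have hsmallj : ∀ x ∈ nodes, ∀ r < T', ‖seqEval ((seqDiv x)^[r]
        (padicCoeff ell b i₀ c t 0)) x‖ ≤ ε := fun x hx r hr => by
      rw [hnodes, mem_image] at hx
      obtain ⟨l, hl', rfl⟩ := hx
      have hl1 : ‖(l : C)‖ ≤ 1 := IsUltrametricDist.norm_natCast_le_one _ l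
      rw [seqEval_iterate_eq hR hl1 r hdec (decays_padicCoeff hl hbi hmax c t hl1) fun y hy => by
        rw [seqEval_padicCoeff hl hbi hmax c t (by simp)
          ((IsUltrametricDist.norm_add_le_max _ _).trans (max_le hl1 hy)),
          seqEval_padicCoeff hl hbi hmax c t hl1 hy, zero_add],
        padicCoeff_eq, norm_mul]
      refine (mul_le_mul (norm_inv_factorial_le p r)
        (IsUltrametricDist.norm_sum_le_of_forall_le_of_nonneg
        (by positivity : 0 ≤ ((p : ℝ) ^ m) ^ r * δ) fun g _ => ?_) (norm_nonneg _)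
        (by positivity)).trans ?_
      · rw [norm_mul, norm_prod]
        refine mul_le_mul ((prod_le_prod (fun i _ => norm_nonneg _) (g := fun _ => (p : ℝ) ^ m)
          fun i _ => hb0inv _).trans_eq (by simp)) ?_ (norm_nonneg _) (by positivity)
        have hsum : ∑ i, (t i + (univ.filter fun y => g y = i).card) = ∑ i, t i + r := by
          rw [sum_add_distrib, ← card_eq_sum_card_fiberwise (fun y _ => mem_univ (g y)), card_univ,
            Fintype.card_fin]
        have h0 : X (fun i => t i + (univ.filter fun y => g y = i).card) l = 0 :=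
          hvan _ (by rw [hsum]; omega) l (Finset.mem_range.1 hl')
        have h1 := hclose (fun i => t i + (univ.filter fun y => g y = i).card) l
        rwa [← hval, h0, RingOfIntegers.coe_eq_algebraMap, map_zero, map_zero, sub_zero] at h1
      · rw [hε, ← mul_assoc, ← pow_mul, ← pow_add]
        refine mul_le_mul_of_nonneg_right (pow_le_pow_right₀ hp1.le ?_) (by positivity)
        calc r + m * r = (m + 1) * r := by ring
          _ ≤ (m + 1) * T 0 := Nat.mul_le_mul_left _ (hr.le.trans (hTmono _))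
    have hsep : ∀ x ∈ nodes, ∀ y ∈ nodes, x ≠ y → 1 ≤ (S j : ℝ) * ‖x - y‖ := by
      intro x hx y hy hne'
      rw [hnodes, mem_image] at hx hy
      obtain ⟨l, hl', rfl⟩ := hx
      obtain ⟨l', hl'', rfl⟩ := hy
      have hne0 : ((l : ℤ) - l') ≠ 0 := fun e => hne' (by rw [show l = l' by omega])
      rw [Finset.mem_range] at hl' hl''
      have h1 : (((l : ℤ) - l').natAbs : ℝ) ≤ (S j : ℝ) := by
        exact_mod_cast (show ((l : ℤ) - l').natAbs ≤ S j by omega)
      have h2 : (((l : ℤ) - l').natAbs : ℝ)⁻¹ ≤ ‖(l : C) - (l' : C)‖ := by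
        refine (inv_natCast_le_norm p (C := C) (Int.natAbs_ne_zero.2 hne0)).trans (le_of_eq ?_)
        rw [show (l : C) - (l' : C) = (((l : ℤ) - l' : ℤ) : C) by push_cast; rfl]
        rcases Int.natAbs_eq ((l : ℤ) - l') with e' | e'
        · conv_rhs => rw [e', Int.cast_natCast]
        · conv_rhs => rw [e', Int.cast_neg, Int.cast_natCast, norm_neg]
      calc (1 : ℝ) = (((l : ℤ) - l').natAbs : ℝ) * (((l : ℤ) - l').natAbs : ℝ)⁻¹ :=
            (mul_inv_cancel₀ (Nat.cast_ne_zero.2 (Int.natAbs_ne_zero.2 hne0))).symm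
        _ ≤ _ := mul_le_mul h1 h2 (by positivity) (Nat.cast_nonneg _)
    have hs := schwarz hR (show (1 : ℝ) ≤ (S j : ℝ) by exact_mod_cast Nat.one_le_pow _ _ hP1) nodes
      (fun x hx => by
        rw [hnodes, mem_image] at hx
        obtain ⟨l, -, rfl⟩ := hx
        exact IsUltrametricDist.norm_natCast_le_one _ l)
      hsep hdec (by positivity : 0 ≤ ε) hsmallj
    rw [hcard] at hs
    -- the power of `p`
    set G := d * (U + 2 * n * h * L * ρ) + 1 with hG
    have hgain := step_gain_alg hn hd1 hPm hP hPh j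
    simp only [← hU, ← hTdef, ← hSdef, ← hLdef] at hgain
    change U + 4 * n * h * L * (16 * ρ) + n * h * L * ρ + d * (U + 2 * n * h * L * ρ) + 4 ≤
      2 * (S j * T') at hgain
    have hρle : d * (U + 2 * n * h * L * ρ) ≤ d * (U + 2 * n * h * L * σ) := by gcongr
    have hq : ∀ {x Y : ℕ}, x + G ≤ Y → (p : ℝ) ^ x / (p : ℝ) ^ Y ≤ ((p : ℝ) ^ G)⁻¹ :=
      fun {x Y} hxY => by
      rw [div_le_iff₀ (by positivity), ← div_eq_inv_mul, le_div_iff₀ (by positivity), ← pow_add]
      exact pow_le_pow_right₀ hp1.le hxY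
    have hcoef : ∀ i, ‖padicCoeff ell b i₀ c t 0 i‖ ≤ ((p : ℝ) ^ G)⁻¹ := fun i => by
      refine (hs i).trans (max_le ?_ ?_)
      · have hSp : (S j : ℝ) ≤ (p : ℝ) ^ Z := by
          exact_mod_cast ((hjρ.trans hρσ).trans hσZ).trans (Nat.pow_le_pow_left hp2 Z)
        have hexpo : Z * (2 * (S j * T')) ≤ Z * (2 * (σ * T 0)) :=
          Nat.mul_le_mul_left _ (Nat.mul_le_mul_left _
            (Nat.mul_le_mul (hjρ.trans hρσ) (hTmono _)))
        refine le_trans ?_ (hq (x := Z * (2 * (S j * T')) + ((m + 1) * T 0 + (m + 1))) (Y := M)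
          (by omega))
        calc (((S j : ℝ)) ^ (2 * T')) ^ S j * ε ≤ (((p : ℝ) ^ Z) ^ (2 * T')) ^ S j * ε := by
              gcongr
          _ = _ := by
              rw [hε, hδ, ← pow_mul, ← pow_mul, ← mul_div_assoc, ← mul_div_assoc, ← pow_add,
                ← pow_add]
              congr 2
              ring
      · refine le_trans (le_of_eq ?_) (hq (x := 0) (Y := 2 * (S j * T')) (by omega))
        rw [pow_zero, ← pow_mul, ← pow_mul]
        congr 2
        ring
    have hk1 : ‖(k : C)‖ ≤ 1 := IsUltrametricDist.norm_natCast_le_one _ k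
    have hfun : ‖padicFun ell b i₀ c t (k : C)‖ ≤ ((p : ℝ) ^ G)⁻¹ := by
      rw [← zero_add (k : C), ← seqEval_padicCoeff hl hbi hmax c t (by simp) hk1]
      refine IsUltrametricDist.norm_tsum_le_of_forall_le_of_nonneg (by positivity) fun i => ?_
      rw [norm_mul, norm_pow]
      exact (mul_le_of_le_one_right (norm_nonneg _) (pow_le_one₀ (norm_nonneg _) hk1)).trans
        (hcoef i)
    have hXψ : ‖ψ (X t k : K)‖ ≤ ((p : ℝ) ^ G)⁻¹ := by
      have h1 := norm_sub_le_max (padicFun ell b i₀ c t (k : C))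
        (padicFun ell b i₀ c t (k : C) - padicVal ell b i₀ c t k)
      rw [sub_sub_cancel, ← hval] at h1
      refine h1.trans (max_le hfun ?_)
      rw [hval]
      exact (hclose t k).trans (hq (x := m + 1) (Y := M) (by omega))
    by_contra hX0
    set E := d * (U + 2 * n * h * L * ρ) with hE
    have hhouse : house (X t k : K) ^ finrank ℚ K ≤ (p : ℝ) ^ E := by
      have hone : (1 : ℝ) ≤ (2 : ℝ) ^ (U + 2 * n * h * L * ρ) := one_le_pow₀ one_le_two
      refine ((pow_le_pow_left₀ (house_nonneg _) (house_le_of_forall (by positivity) fun τ => ?_)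
        _).trans ((pow_le_pow_right₀ hone hd).trans_eq (by rw [hE, ← pow_mul, mul_comm d]))).trans
        (pow_le_pow_left₀ two_pos.le (by exact_mod_cast hp2) _)
      simp only [X, map_sum]
      refine (norm_sum_le _ _).trans ((sum_le_card_nsmul _ _
        ((2 : ℝ) ^ (U + 2 * n * h * L * ρ) / (N : ℕ)) fun lam _ => ?_).trans_eq ?_)
      · rw [hcast, le_div_iff₀ (Nat.cast_pos.2 (pow_pos (lam i₀).pos n)), mul_comm, pow_add,
          ← mul_assoc]
        exact mul_le_mul (by exact_mod_cast hterm t ht0 lam)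
          ((Algebraic.norm_weight_le hAh2 hD1 _ lam τ).trans
            (pow_le_pow_right₀ one_le_two (Nat.mul_le_mul_left _ hk.le)))
          (norm_nonneg _) (by positivity)
      · rw [card_univ, hcardL, nsmul_eq_mul, mul_div_cancel₀ _ ?_]
        exact Nat.cast_ne_zero.2 (pow_pos (pow_pos hP1 _) n).ne'
    have hone := one_le_norm_mul_house_pow p hX0 ψ
    refine absurd hone (not_le.2 (lt_of_le_of_lt (mul_le_mul hXψ hhouse
      (pow_nonneg (house_nonneg _) _) (by positivity)) ?_))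
    rw [inv_mul_eq_div, div_lt_one (by positivity)]
    exact pow_lt_pow_right₀ hp1 (Nat.lt_succ_self E)
  have hall : ∀ j, j ≤ J → Vanish j := by
    intro j
    induction j with
    | zero => exact fun _ => hstart
    | succ j ih => exact fun hj => hstep j hj (ih (Nat.le_of_succ_le hj))
  -- the classes
  refine hc0 (funext fun lam₀ => ?_)
  set node := fun lam : Fin n → Fin L => pexp (padicMu ell lam) with hnodedef
  refine Classes.eq_zero_of_notMem_span hbi (T := T J) ?_
    (C := univ.filter fun lam => node lam = node lam₀) (mem_filter.2 ⟨mem_univ _, rfl⟩)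
    (fun t ht => ?_) (notMem_span hΛ0 fun w hw => ?_)
  · have hP3 : n < P ^ 3 := by
      have h1 : 1 * n ^ 2 * 1 * 1 ≤ P := le_trans (Nat.mul_le_mul (Nat.mul_le_mul
        (Nat.mul_le_mul_right _ (by norm_num)) Nat.one_le_two_pow) hd1) hP
      have h2 : 2 ≤ P := le_trans (le_trans (show 2 ≤ 2 ^ 17 by norm_num)
        (Nat.le_mul_of_pos_right _ (Nat.mul_pos (Nat.mul_pos hn hh) hd1)))
        (by simpa only [mul_assoc] using hPh)
      nlinarith [Nat.mul_le_mul h2 h2, Nat.le_self_pow two_ne_zero n]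
    calc n * L < P ^ 3 * L := Nat.mul_lt_mul_of_pos_right hP3 (pow_pos hP1 _)
      _ = P ^ (6 * n) := by rw [mul_comm, hLdef, degree_mul_pow hn]
      _ ≤ T J := Nat.le_mul_of_pos_left _ (Nat.two_pow_pos _)
  · have h1 := Classes.sum_filter_eq_zero (fun lam => ((c lam * monom b i₀ t lam : ℤ) : C)) node
      (N := N) hcardL.le (fun k hk => by
        have h2 := hval t k
        rw [hall J le_rfl t ht k (hk.trans_le (range_last hP1)), RingOfIntegers.coe_eq_algebraMap,
          map_zero, map_zero] at h2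
        exact h2.symm) lam₀
    rw [← Int.cast_sum] at h1
    exact_mod_cast h1
  · obtain ⟨lam, hlam, rfl⟩ := mem_image.1 hw
    have h1 := pexp_injOn (p := p) (norm_padicMu_le hl lam) (norm_padicMu_le hl lam₀)
      (mem_filter.1 hlam).2
    rw [← sub_eq_zero, padicMu, padicMu, ← sum_sub_distrib] at h1
    refine Eq.trans (sum_congr rfl fun i _ => ?_) h1
    push_cast
    ring

end FA.BakerExplicit.PadicAlgebraic

end
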