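import Fermat.Agent.BakerExplicit.PadicMain
import Fermat.Agent.BakerExplicit.Applications
import Mathlib.FieldTheory.Finite.Basic

/-!
# The `S`-unit equation over `ℚ`, effectively

The exponent of a prime `q` in `x - y`, `x` and `y` composed of other given primes, is at most a
power of the logarithm of their exponents. With the squares this bounds every exponent of `z` in
`x + y = z`, so `log z` is below a power of its own logarithm and hence bounded.
-/

set_option autoImplicit false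

noncomputable section

namespace FA.BakerExplicit

open Finset

theorem base_mono {n k h h' m : ℕ} (hnk : n ≤ k) (hhh : h ≤ h') :
    base n h m ≤ base k h' m := by
  refine Nat.mul_le_mul (Nat.pow_le_pow_right two_pos ?_) (by omega)
  have := Nat.pow_le_pow_left hnk 2
  omega

theorem base_pow_mono {n k h h' m : ℕ} (hnk : n ≤ k) (hhh : h ≤ h') (hpos : 1 ≤ h' + m) :
    base n h m ^ kappa n ≤ base k h' m ^ kappa k := by
  refine (Nat.pow_le_pow_left (base_mono hnk hhh) _).trans (Nat.pow_le_pow_right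
    (Nat.mul_pos (Nat.two_pow_pos _) hpos) ?_)
  have := Nat.pow_le_pow_left hnk 2
  simp only [kappa]
  omega

theorem prod_powers_eq {s : Finset ℕ} {x : ℕ} (hx : x ≠ 0) (hxs : x.primeFactors ⊆ s) :
    x = ∏ r : s, (r : ℕ) ^ x.factorization r := by
  conv_lhs => rw [← Nat.prod_factorization_pow_eq_self hx]
  rw [Finsupp.prod_of_support_subset _ ((Nat.support_factorization x).le.trans hxs) _
    (fun r _ => pow_zero r), ← prod_coe_sort]

/-- **The exponent of a prime in `x - y`.** -/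
theorem padic_primes_bound {q : ℕ} (hq : q.Prime) {s : Finset ℕ} (hs : ∀ r ∈ s, r.Prime)
    (hqs : q ∉ s) {h m : ℕ} (hh : ∀ r ∈ s, r ≤ 2 ^ h) {x y : ℕ} (hx : x ≠ 0) (hy : y ≠ 0)
    (hxy : x ≠ y) (hxs : x.primeFactors ⊆ s) (hys : y.primeFactors ⊆ s)
    (hxm : ∀ r ∈ s, x.factorization r ≤ 2 ^ m) (hym : ∀ r ∈ s, y.factorization r ≤ 2 ^ m)
    {M : ℕ} (hdvd : (q : ℤ) ^ M ∣ (x : ℤ) - y) :
    M ≤ 2 * base s.card (h * q ^ 3) m ^ kappa s.card := by
  set e := s.equivFin.symm
  set N := (q ^ 3).totient with hNdef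
  have hN0 : 0 < N := Nat.totient_pos.2 (pow_pos hq.pos 3)
  set u : Fin s.card → ℕ := fun i => x.factorization (e i)
  set v : Fin s.card → ℕ := fun i => y.factorization (e i)
  have hprod : ∀ (z : ℕ), z ≠ 0 → z.primeFactors ⊆ s →
      ∏ i, ((e i : ℕ) ^ N) ^ z.factorization (e i) = z ^ N := fun z hz hzs => by
    conv_rhs => rw [prod_powers_eq hz hzs, ← prod_pow, ← e.prod_comp]
    exact prod_congr rfl fun i _ => pow_right_comm _ _ _
  refine padic_baker_bound hq (a := fun i => (e i : ℕ) ^ N) (h := h * q ^ 3) (u := u) (v := v)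
    (fun i => ?_) (fun i => ?_) (fun u' v' he => ?_) (fun he => ?_) (fun i => hxm _ (e i).2)
    (fun i => hym _ (e i).2) ?_
  · refine (Nat.pow_le_pow_left (hh _ (e i).2) N).trans ?_
    rw [← pow_mul]
    exact Nat.pow_le_pow_right two_pos (Nat.mul_le_mul_left h (Nat.totient_le _))
  · have hne : q ≠ (e i : ℕ) := fun h0 => hqs (h0 ▸ (e i).2)
    have h1 :=
      Nat.ModEq.pow_totient (((Nat.coprime_primes hq (hs _ (e i).2)).2 hne).pow_left 3).symm
    have h2 := h1.symm.dvd
    push_cast at h2 ⊢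
    exact h2
  · funext i
    have hfac : ∀ w : Fin s.card → ℕ,
        (∏ j, ((e j : ℕ) ^ N) ^ w j).factorization (e i) = N * w i := fun w => by
      rw [Nat.factorization_prod fun j _ => pow_ne_zero _ (pow_ne_zero _ (hs _ (e j).2).ne_zero),
        Finsupp.finsetSum_apply, sum_eq_single i]
      · simp [← pow_mul, (hs _ (e i).2).factorization_pow]
      · intro j _ hji
        have : (e j : ℕ) ≠ (e i : ℕ) := fun h0 => hji (e.injective (Subtype.ext h0))
        simp [← pow_mul, (hs _ (e j).2).factorization_pow, this]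
      · simp
    have h1 := congrArg (fun z : ℕ => z.factorization (e i)) he
    simp only [hfac] at h1
    exact Nat.eq_of_mul_eq_mul_left hN0 h1
  · refine hxy (Nat.pow_left_injective hN0.ne' ?_)
    show x ^ N = y ^ N
    rw [← hprod x hx hxs, ← hprod y hy hys]
    exact prod_congr rfl fun i _ => by rw [show x.factorization (e i) = u i from rfl, he]
  · have hc : ∀ z : ℕ, z ≠ 0 → z.primeFactors ⊆ s →
        ∏ i, (((e i : ℕ) ^ N : ℕ) : ℤ) ^ z.factorization (e i) = (z : ℤ) ^ N := fun z hz hzs => by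
      exact_mod_cast hprod z hz hzs
    rw [hc x hx hxs, hc y hy hys]
    exact hdvd.trans (sub_dvd_pow_sub_pow _ _ _)

/-- The bound for the logarithm, to base `2`, of a solution of `x + y = z`. -/
def sUnitBound (k h : ℕ) : ℕ :=
  2 * (2 * kappa k) ^ (2 * kappa k) *
    (k * h * (2 * (2 * 2 ^ (4 * k ^ 2 + 12) * (h * 2 ^ (3 * h) + 1)) ^ kappa k)) ^ 2

/-- **The `S`-unit equation over `ℚ`, effectively.** -/
theorem sUnit_bound {s : Finset ℕ} (hs : ∀ r ∈ s, r.Prime) {k h : ℕ} (hk : s.card ≤ k)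
    (hh : ∀ r ∈ s, r ≤ 2 ^ h) {x y z : ℕ} (hx : x ≠ 0) (hy : y ≠ 0) (hcop : x.Coprime y)
    (hxyz : x + y = z) (hxs : x.primeFactors ⊆ s) (hys : y.primeFactors ⊆ s)
    (hzs : z.primeFactors ⊆ s) : z < 2 ^ (sUnitBound k h + 1) := by
  have hz : z ≠ 0 := by omega
  set X := Nat.log 2 z with hX
  set n := Nat.log 2 X + 1 with hn
  set H := h * 2 ^ (3 * h) with hH
  set C := 2 * 2 ^ (4 * k ^ 2 + 12) * (H + 1) with hC
  refine lt_of_lt_of_le (Nat.lt_pow_succ_log_self one_lt_two z)
    (Nat.pow_le_pow_right two_pos (Nat.succ_le_succ ?_))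
  obtain ⟨q, hqp, hqz⟩ := Nat.exists_prime_and_dvd (show z ≠ 1 by omega)
  have hqs : q ∈ s := hzs (Nat.mem_primeFactors.2 ⟨hqp, hqz, hz⟩)
  have hk1 : 1 ≤ k := le_trans (card_pos.2 ⟨q, hqs⟩) hk
  have hh1 : 1 ≤ h := by
    by_contra h0
    have := hh q hqs
    rw [show h = 0 by omega] at this
    have := hqp.two_le
    omega
  by_cases hxy : x = y
  · have h1 : x = 1 := by rwa [← hxy, Nat.coprime_self] at hcop
    have h2 : z = 2 := by omega
    show X ≤ sUnitBound k h
    rw [hX, h2, show Nat.log 2 2 = 1 from Nat.log_pow one_lt_two 1]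
    exact Nat.mul_pos (Nat.mul_pos two_pos (pow_pos (by simp [kappa]) _)) (pow_pos (Nat.mul_pos
      (Nat.mul_pos hk1 hh1) (Nat.mul_pos two_pos (pow_pos (by positivity) _))) _)
  have hfac : ∀ r ∈ s, z.factorization r ≤ 2 * C ^ kappa k * n ^ kappa k := fun r hr => by
    rcases Nat.eq_zero_or_pos (z.factorization r) with h0 | h0
    · rw [h0]; exact Nat.zero_le _
    have hrp := hs r hr
    have hrz : r ∣ z := Nat.dvd_of_factorization_pos h0.ne'
    have hrx : ¬ r ∣ x := fun h' => hrp.not_dvd_one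
      (hcop ▸ Nat.dvd_gcd h' ((Nat.dvd_add_right h').1 (hxyz ▸ hrz)))
    have hry : ¬ r ∣ y := fun h' => hrp.not_dvd_one
      (hcop ▸ Nat.dvd_gcd ((Nat.dvd_add_left h').1 (hxyz ▸ hrz)) h')
    have hsup : ∀ w : ℕ, w.primeFactors ⊆ s → ¬ r ∣ w → (w ^ 2).primeFactors ⊆ s.erase r := by
      intro w hw hrw t ht
      rw [Nat.primeFactors_pow _ two_ne_zero] at ht
      exact mem_erase.2 ⟨fun e => hrw (e ▸ Nat.dvd_of_mem_primeFactors ht), hw ht⟩
    have hexp : ∀ w : ℕ, w ≠ 0 → w ≤ z → ∀ t ∈ s.erase r,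
        (w ^ 2).factorization t ≤ 2 ^ (n + 1) := fun w hw hwz t ht => by
      have h1 : w.factorization t ≤ X := Nat.le_log_of_pow_le one_lt_two
        (((Nat.pow_le_pow_left (hs t (mem_of_mem_erase ht)).two_le _).trans
          (Nat.le_of_dvd (Nat.pos_of_ne_zero hw) (Nat.ordProj_dvd w t))).trans hwz)
      have h2 : X < 2 ^ n := Nat.lt_pow_succ_log_self one_lt_two X
      rw [Nat.factorization_pow, Finsupp.smul_apply, smul_eq_mul, pow_succ]
      omega
    have hdvd : (r : ℤ) ^ z.factorization r ∣ ((x ^ 2 : ℕ) : ℤ) - (y ^ 2 : ℕ) := by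
      have h1 : (r : ℤ) ^ z.factorization r ∣ (z : ℤ) := by exact_mod_cast Nat.ordProj_dvd z r
      refine h1.trans ⟨(x : ℤ) - y, ?_⟩
      rw [← hxyz]
      push_cast
      ring
    refine (padic_primes_bound hrp (fun t ht => hs t (mem_of_mem_erase ht)) (notMem_erase r s)
      (fun t ht => hh t (mem_of_mem_erase ht)) (pow_ne_zero _ hx) (pow_ne_zero _ hy)
      (fun e => hxy (Nat.pow_left_injective two_ne_zero e)) (hsup x hxs hrx) (hsup y hys hry)
      (hexp x hx (by omega)) (hexp y hy (by omega)) hdvd).trans ?_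
    have hcard : (s.erase r).card ≤ k := (card_erase_le).trans hk
    have hHle : h * r ^ 3 ≤ H := by
      refine Nat.mul_le_mul_left h ((Nat.pow_le_pow_left (hh r hr) 3).trans_eq ?_)
      rw [← pow_mul, mul_comm]
    rw [mul_assoc 2, ← mul_pow]
    refine Nat.mul_le_mul_left 2 ((base_pow_mono hcard hHle (by omega)).trans
      (Nat.pow_le_pow_left ?_ _))
    rw [hC, base, mul_comm 2 (2 ^ _), mul_assoc, mul_assoc]
    refine Nat.mul_le_mul_left _ ?_
    calc H + (n + 1) ≤ 2 * (H * n) + 2 * n := by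
          have : H ≤ H * n := Nat.le_mul_of_pos_right _ (Nat.succ_pos _)
          omega
      _ = 2 * ((H + 1) * n) := by ring
  have hlin : X ≤ 0 + k * h * (2 * C ^ kappa k) * n ^ kappa k := by
    set E := 2 * C ^ kappa k * n ^ kappa k
    have hzle : z ≤ 2 ^ (k * (h * E)) := by
      conv_lhs => rw [prod_powers_eq hz hzs]
      refine (prod_le_prod' (g := fun _ => 2 ^ (h * E)) fun r _ => ?_).trans ?_
      · rw [pow_mul]
        exact (Nat.pow_le_pow_left (hh _ r.2) _).trans
          (Nat.pow_le_pow_right (Nat.two_pow_pos h) (hfac _ r.2))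
      · rw [prod_const, card_univ, Fintype.card_coe, ← pow_mul, mul_comm]
        exact Nat.pow_le_pow_right two_pos (Nat.mul_le_mul_right _ hk)
    refine ((Nat.log_mono_right hzle).trans_eq (Nat.log_pow one_lt_two _)).trans_eq ?_
    simp only [E]
    ring
  refine (le_of_le_add_mul_log_pow (by simp only [kappa]; omega) hlin).trans_eq ?_
  rw [sUnitBound, mul_zero, zero_add, ← hH, ← hC]

/-- **Finiteness with a computable box.** -/
theorem sUnit_finite {s : Finset ℕ} (hs : ∀ r ∈ s, r.Prime) :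
    {t : ℕ × ℕ | t.1 ≠ 0 ∧ t.2 ≠ 0 ∧ t.1.Coprime t.2 ∧ t.1.primeFactors ⊆ s ∧
      t.2.primeFactors ⊆ s ∧ (t.1 + t.2).primeFactors ⊆ s}.Finite := by
  set B := 2 ^ (sUnitBound s.card (s.sup id) + 1)
  refine ((Set.finite_Iic B).prod (Set.finite_Iic B)).subset fun t ht => ?_
  obtain ⟨h1, h2, h3, h4, h5, h6⟩ := ht
  have := sUnit_bound hs (h := s.sup id) le_rfl
    (fun q hq => (le_sup (f := id) hq).trans Nat.lt_two_pow_self.le) h1 h2 h3 rfl h4 h5 h6
  exact ⟨Set.mem_Iic.2 (by omega), Set.mem_Iic.2 (by omega)⟩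

/-- The bound in terms of the radical. -/
def abcBound (R : ℕ) : ℕ := sUnitBound (Nat.log 2 R + 1) (Nat.log 2 R + 1)

/-- **A weak `abc` bound.** -/
theorem abc_bound {a b c : ℕ} (ha : a ≠ 0) (hb : b ≠ 0) (hcop : a.Coprime b) (h : a + b = c) :
    c < 2 ^ (abcBound (∏ q ∈ (a * b * c).primeFactors, q) + 1) := by
  set s := (a * b * c).primeFactors
  set R := ∏ q ∈ s, q
  have hs : ∀ q ∈ s, q.Prime := fun q hq => Nat.prime_of_mem_primeFactors hq
  have hR : 0 < R := prod_pos fun q hq => (hs q hq).pos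
  have hne : a * b * c ≠ 0 := mul_ne_zero (mul_ne_zero ha hb) (by omega)
  have hcard : s.card ≤ Nat.log 2 R + 1 := by
    refine le_trans (Nat.le_log_of_pow_le one_lt_two ?_) (Nat.le_succ _)
    rw [← prod_const]
    exact prod_le_prod' fun q hq => (hs q hq).two_le
  have hle : ∀ q ∈ s, q ≤ 2 ^ (Nat.log 2 R + 1) := fun q hq =>
    (Nat.le_of_dvd hR (dvd_prod_of_mem _ hq)).trans (Nat.lt_pow_succ_log_self one_lt_two R).le
  exact sUnit_bound hs hcard hle ha hb hcop h
    (Nat.primeFactors_mono ((dvd_mul_right a b).trans (dvd_mul_right _ c)) hne)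
    (Nat.primeFactors_mono ((dvd_mul_left b a).trans (dvd_mul_right _ c)) hne)
    (Nat.primeFactors_mono (dvd_mul_left c _) hne)

end FA.BakerExplicit

end
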