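import Fermat.Agent.BakerExplicit.PadicSetup
import Fermat.Agent.BakerExplicit.Main

/-!
# An explicit `p`-adic theorem of Baker

If a high power of `p` divides `∏ a i ^ u i - ∏ a i ^ v i`, `a i ≡ 1 (mod p ^ 3)`, then `Λ` is
small in `ℚ_p`, and the ultrametric Schwarz lemma pushes the vanishing of the integers next to the
`F t` exactly as in the archimedean proof: an integer divisible by a power of `p` above its size
vanishes.
-/

set_option autoImplicit false

noncomputable section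

namespace FA.BakerExplicit

open Finset FA.Brumer
open scoped Nat

set_option maxHeartbeats 1000000 in
/-- **The `p`-adic theorem of Baker, explicit.** -/
theorem padic_baker_bound {p : ℕ} (hp : p.Prime) {n : ℕ} {a : Fin n → ℕ} {h m : ℕ}
    (hah : ∀ i, a i ≤ 2 ^ h) (ha1 : ∀ i, (p : ℤ) ^ 3 ∣ (a i : ℤ) - 1)
    (hind : ∀ u v : Fin n → ℕ, ∏ i, a i ^ u i = ∏ i, a i ^ v i → u = v)
    {u v : Fin n → ℕ} (huv : u ≠ v) (hu : ∀ i, u i ≤ 2 ^ m) (hv : ∀ i, v i ≤ 2 ^ m) {M : ℕ}
    (hdvd : (p : ℤ) ^ M ∣ (∏ i, (a i : ℤ) ^ u i) - ∏ i, (a i : ℤ) ^ v i) :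
    M ≤ 2 * base n h m ^ kappa n := by
  classical
  have : Fact p.Prime := ⟨hp⟩
  by_contra hlt
  push Not at hlt
  set b : Fin n → ℤ := fun i => (u i : ℤ) - v i with hbdef
  obtain ⟨i₁, hi₁⟩ := Function.ne_iff.1 huv
  have hn : 1 ≤ n := i₁.pos
  have ha0 : ∀ i, 0 < a i := fun i => Nat.pos_of_ne_zero fun e => by
    have h1 := ha1 i
    rw [e, Nat.cast_zero, zero_sub, dvd_neg] at h1
    exact (Nat.prime_iff_prime_int.1 hp).not_isUnit
      (isUnit_of_dvd_one ((dvd_pow_self _ three_ne_zero).trans h1))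
  have hh : 1 ≤ h := by
    by_contra h0
    have h00 : h = 0 := by omega
    refine huv (hind u v ?_)
    have h1 : ∀ i, a i = 1 := fun i => by
      have a1 := hah i; have a2 := ha0 i
      simp [h00] at a1
      omega
    simp [h1]
  have : Nonempty (Fin n) := ⟨i₁⟩
  obtain ⟨i₀, -, hmax'⟩ := exists_max_image univ (fun i => ‖(b i : ℚ_[p])‖) univ_nonempty
  have hmax : ∀ i, ‖(b i : ℚ_[p])‖ ≤ ‖(b i₀ : ℚ_[p])‖ := fun i => hmax' i (mem_univ i)
  have hbi : b i₀ ≠ 0 := fun e => by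
    have h1 := hmax i₁
    rw [e, Int.cast_zero, norm_zero, norm_le_zero_iff, Int.cast_eq_zero] at h1
    simp only [hbdef] at h1
    exact hi₁ (by omega)
  have hbm : ∀ i, (b i).natAbs ≤ 2 ^ m := fun i => by
    have := hu i; have := hv i
    simp only [hbdef]
    omega
  obtain ⟨i₂, -, hbig'⟩ := exists_max_image univ (fun i => (b i).natAbs) univ_nonempty
  -- the logarithms
  set ell : Fin n → ℚ_[p] := fun i => plog p (a i : ℚ_[p])
  have haC : ∀ i, ‖(a i : ℚ_[p]) - 1‖ ≤ rad p := fun i => by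
    rw [show (a i : ℚ_[p]) - 1 = (((a i : ℤ) - 1 : ℤ) : ℚ_[p]) by push_cast; rfl, rad,
      ← zpow_natCast, ← zpow_neg]
    exact (Padic.norm_int_le_pow_iff_dvd _ 3).2 (by exact_mod_cast ha1 i)
  have hl : ∀ i, ‖ell i‖ ≤ rad p := fun i => norm_plog_le _
  have hexp : ∀ i, pexp (ell i) = (a i : ℚ_[p]) := fun i => pexp_plog (haC i)
  set Λ := ∑ i, (b i : ℚ_[p]) * ell i with hΛdef
  have hp1 : (1 : ℝ) < p := one_lt_prime p
  have hp0 : (0 : ℝ) < p := prime_pos p
  have hΛ : ‖Λ‖ ≤ ((p : ℝ) ^ M)⁻¹ := by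
    have hlin : ∀ w : Fin n → ℕ, ‖∑ i, (w i : ℚ_[p]) * ell i‖ ≤ rad p ∧
        pexp (∑ i, (w i : ℚ_[p]) * ell i) = ((∏ i, (a i : ℤ) ^ w i : ℤ) : ℚ_[p]) := fun w => by
      refine ⟨IsUltrametricDist.norm_sum_le_of_forall_le_of_nonneg (rad_pos (p := p)).le
        fun i _ => ?_, ?_⟩
      · rw [norm_mul]
        exact (mul_le_of_le_one_left (norm_nonneg _)
          (IsUltrametricDist.norm_natCast_le_one _ _)).trans (hl i)
      · rw [pexp_sum fun i _ =>
          (small_of_le (hl i)).mul (IsUltrametricDist.norm_natCast_le_one _ _)]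
        push_cast
        exact prod_congr rfl fun i _ => by rw [pexp_nat_mul (small_of_le (hl i)), hexp]
    obtain ⟨hxu, heu⟩ := hlin u
    obtain ⟨hxv, hev⟩ := hlin v
    have hD : ‖pexp (∑ i, (u i : ℚ_[p]) * ell i) - pexp (∑ i, (v i : ℚ_[p]) * ell i)‖ ≤
        ((p : ℝ) ^ M)⁻¹ := by
      rw [heu, hev, ← Int.cast_sub, ← zpow_natCast, ← zpow_neg]
      exact (Padic.norm_int_le_pow_iff_dvd _ M).2 (by exact_mod_cast hdvd)
    have hdiff := norm_pexp_diff_le hxu hxv
    have he : ∑ i, (u i : ℚ_[p]) * ell i - ∑ i, (v i : ℚ_[p]) * ell i = Λ := by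
      rw [hΛdef, ← sum_sub_distrib]
      refine sum_congr rfl fun i _ => ?_
      simp only [hbdef]
      push_cast
      ring
    rw [he] at hdiff
    set D := pexp (∑ i, (u i : ℚ_[p]) * ell i) - pexp (∑ i, (v i : ℚ_[p]) * ell i)
    have h2 : ‖Λ‖ ≤ max ‖D‖ ‖D - Λ‖ := by
      have := norm_sub_le_max D (D - Λ)
      rwa [sub_sub_cancel] at this
    rcases le_max_iff.1 h2 with h3 | h3
    · exact h3.trans hD
    · have h4 : (1 - (p : ℝ)⁻¹) * ‖Λ‖ ≤ 0 := by linarith
      have h5 : ‖Λ‖ ≤ 0 := le_of_mul_le_mul_left (by rw [mul_zero]; exact h4)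
        (sub_pos.2 (inv_lt_one_of_one_lt₀ hp1))
      exact h5.trans (by positivity)
  -- the parameters
  obtain ⟨hP, hPm, hPh⟩ := base_facts (m := m) (n := n) hh
  set P := base n h m
  set J := 3 * n ^ 2 with hJ
  set T := orders n P with hTdef
  set S := intRange P with hSdef
  set L := degree n P with hLdef
  set N := L ^ n with hNdef
  have hP1 : 1 ≤ P := (Nat.one_le_iff_ne_zero.2 (by positivity)).trans hP
  have hTmono : ∀ j, T j ≤ T 0 := fun j =>
    Nat.mul_le_mul_right _ (Nat.pow_le_pow_right two_pos (by omega))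
  have hT0 : ∀ j, 1 ≤ T j := fun j => Nat.mul_pos (Nat.two_pow_pos _) (pow_pos hP1 _)
  have hTstep : ∀ j, j < J → 2 * T (j + 1) = T j := fun j hj => by
    simp only [hTdef, orders]
    rw [← mul_assoc, ← pow_succ', show 3 * n ^ 2 - (j + 1) + 1 = 3 * n ^ 2 - j by omega]
  have hSmono : ∀ {i j : ℕ}, i ≤ j → S i ≤ S j := fun hij =>
    Nat.pow_le_pow_right hP1 (by omega)
  set e := m + 1 + 6 * n * P with he
  have hcoord : 2 * L * (b i₂).natAbs ≤ 2 ^ e := by
    calc 2 * L * (b i₂).natAbs ≤ 2 * 2 ^ (6 * n * P) * 2 ^ m :=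
          Nat.mul_le_mul (Nat.mul_le_mul_left _ degree_le_two_pow) (hbm i₂)
      _ = 2 ^ e := by rw [he, pow_add, pow_add]; ring
  have hmonom : ∀ {Tb : ℕ} {t : Other i₀ → ℕ}, ∑ i, t i ≤ Tb → ∀ lam : Fin n → Fin L,
      (monom b i₀ t lam).natAbs ≤ 2 ^ (e * Tb) := fun {Tb t} ht lam => by
    rw [monom, show (∏ i : Other i₀, coord b i₀ lam i.1 ^ t i).natAbs =
      ∏ i : Other i₀, (coord b i₀ lam i.1 ^ t i).natAbs from map_prod Int.natAbsHom _ _, pow_mul]
    refine le_trans ?_ (Nat.pow_le_pow_right (Nat.two_pow_pos e) ht)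
    rw [← prod_pow_eq_pow_sum]
    refine prod_le_prod' fun i _ => ?_
    rw [Int.natAbs_pow]
    refine Nat.pow_le_pow_left (le_trans ?_ hcoord) _
    simp only [coord]
    refine (Int.natAbs_sub_le _ _).trans ?_
    rw [Int.natAbs_mul, Int.natAbs_mul, Int.natAbs_natCast, Int.natAbs_natCast]
    calc (b i₀).natAbs * (lam i.1).val + (b i.1).natAbs * (lam i₀).val
        ≤ (b i₂).natAbs * L + (b i₂).natAbs * L := Nat.add_le_add
          (Nat.mul_le_mul (hbig' i₀ (mem_univ _)) (lam i.1).isLt.le)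
          (Nat.mul_le_mul (hbig' i.1 (mem_univ _)) (lam i₀).isLt.le)
      _ = 2 * L * (b i₂).natAbs := by ring
  have hN2 : N ≤ 2 ^ (6 * n ^ 2 * P) := degree_pow_le_two_pow
  have hcardι : Fintype.card (Other i₀) = n - 1 := by simp [Fintype.card_subtype_compl]
  have hcardL : Fintype.card (Fin n → Fin L) = N := by simp [hNdef]
  have hweight : ∀ (k : ℕ) (lam : Fin n → Fin L),
      ∏ i, a i ^ ((lam i).val * k) ≤ 2 ^ (n * h * L * k) := fun k lam => by
    refine (prod_le_prod' (g := fun _ => 2 ^ (h * L * k)) fun i _ => ?_).trans_eq ?_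
    · rw [mul_assoc h, pow_mul 2 h]
      exact (Nat.pow_le_pow_left (hah i) _).trans (Nat.pow_le_pow_right (Nat.two_pow_pos h)
        (Nat.mul_le_mul_right _ (lam i).isLt.le))
    · rw [prod_const, card_univ, Fintype.card_fin, ← pow_mul]
      congr 1
      ring
  -- Siegel's lemma
  let A : Matrix ((Other i₀ → Fin (T 0)) × Fin (S 0)) (Fin n → Fin L) ℤ :=
    Matrix.of fun tk lam => monom b i₀ (fun i => (tk.1 i).val) lam *
      ((∏ i, a i ^ ((lam i).val * tk.2.val) : ℕ) : ℤ)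
  obtain ⟨c, hc0, hcA, hcb⟩ := exists_small_solution A (by
      simp only [Fintype.card_prod, Fintype.card_fun, Fintype.card_fin]
      exact Nat.mul_pos (pow_pos (hT0 0) _) (pow_pos hP1 _)) (by
      simp only [Fintype.card_prod, Fintype.card_fun, Fintype.card_fin, hcardι]
      exact unknowns hn hP) (a := e * (n * T 0) + n * h * L * S 0) fun tk lam => by
    simp only [A, Matrix.of_apply, Int.natAbs_mul, Int.natAbs_natCast, pow_add]
    refine Nat.mul_le_mul (hmonom ?_ lam) ((hweight _ lam).trans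
      (Nat.pow_le_pow_right two_pos (Nat.mul_le_mul_left _ tk.2.isLt.le)))
    refine (sum_le_card_nsmul _ _ (T 0) fun i _ => (tk.1 i).isLt.le).trans ?_
    rw [card_univ, hcardι, smul_eq_mul]
    exact Nat.mul_le_mul_right _ (Nat.sub_le _ _)
  rw [hcardL] at hcb
  set U := termLog n h m P with hU
  have hterm : ∀ t : Other i₀ → ℕ, ∑ i, t i ≤ T 0 → ∀ lam,
      L ^ n * (c lam * monom b i₀ t lam).natAbs ≤ 2 ^ U := fun t ht lam => by
    have hUe : U = 6 * n ^ 2 * P + (6 * n ^ 2 * P + (e * (n * T 0) + n * h * L * S 0) +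
        e * (n * T 0)) := by
      simp only [hU, termLog, he, hTdef, hSdef, hLdef]; ring
    rw [Int.natAbs_mul, hUe, pow_add 2 (6 * n ^ 2 * P),
      pow_add 2 (6 * n ^ 2 * P + (e * (n * T 0) + n * h * L * S 0)), pow_add 2 (6 * n ^ 2 * P)]
    exact Nat.mul_le_mul hN2 (Nat.mul_le_mul ((hcb lam).trans (Nat.mul_le_mul_right _ hN2))
      (hmonom (ht.trans (Nat.le_mul_of_pos_left _ hn)) lam))
  -- the vanishing
  let Vanish : ℕ → Prop := fun j => ∀ t : Other i₀ → ℕ, ∑ i, t i < T j → ∀ k < S j,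
    padicVal' a b i₀ c t k = 0
  have hstart : Vanish 0 := fun t ht k hk => by
    have h1 := congrFun hcA
      (fun i => ⟨t i, lt_of_le_of_lt (single_le_sum (fun _ _ => Nat.zero_le _) (mem_univ i)) ht⟩,
        ⟨k, hk⟩)
    refine Eq.trans (sum_congr rfl fun lam _ => ?_) h1
    simp only [A, Matrix.of_apply]
    ring
  set σ := S J with hσdef
  have hloss := padicLoss_le hn hh hPm hP hPh
  simp only [← hU, ← hTdef, ← hSdef, ← hLdef, ← hJ, ← hσdef] at hloss
  set X := (2 + 6 * n ^ 2) * P with hX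
  have hσX : σ ≤ 2 ^ X := by
    rw [hσdef, hSdef, intRange, hX, mul_comm (2 + 6 * n ^ 2), pow_mul]
    exact (Nat.pow_le_pow_left Nat.lt_two_pow_self.le _).trans_eq (by rw [hJ]; ring_nf)
  have hb0inv : ∀ i : Fin n, ‖ell i / (b i₀ : ℚ_[p])‖ ≤ (p : ℝ) ^ m := fun i => by
    rw [norm_div, div_eq_mul_inv]
    refine (mul_le_of_le_one_left (by positivity) ((hl i).trans ?_)).trans ?_
    · exact inv_le_one_of_one_le₀ (one_le_pow₀ hp1.le)
    · refine inv_le_of_inv_le₀ (by positivity) (inv_pow_le_norm hbi ?_)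
      exact (hbm i₀).trans (Nat.pow_le_pow_left hp.two_le m)
  set δ := (p : ℝ) ^ (m + 1) / (p : ℝ) ^ M with hδ
  have hclose : ∀ (t : Other i₀ → ℕ) (k : ℕ),
      ‖padicFun ell b i₀ c t (k : ℚ_[p]) - (padicVal' a b i₀ c t k : ℚ_[p])‖ ≤ δ := fun t k => by
    refine (norm_padicFun_sub_le hl hexp hbi hmax c t k).trans ?_
    rw [norm_div, hδ, pow_succ', mul_div_assoc]
    refine mul_le_mul_of_nonneg_left ?_ hp0.le
    rw [div_eq_mul_inv, div_eq_mul_inv, mul_comm ((p : ℝ) ^ m)]
    refine mul_le_mul hΛ ?_ (by positivity) (by positivity)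
    exact inv_le_of_inv_le₀ (by positivity)
      (inv_pow_le_norm hbi ((hbm i₀).trans (Nat.pow_le_pow_left hp.two_le m)))
  have hR : (1 : ℝ) < (p : ℝ) ^ 2 := one_lt_pow₀ hp1 two_ne_zero
  have hstep : ∀ j, j < J → Vanish j → Vanish (j + 1) := fun j hj hvan t ht k hk => by
    have hTj := hTstep j hj
    set T' := T (j + 1)
    set ρ := S (j + 1)
    have hρσ : ρ ≤ σ := hSmono hj
    have hjρ : S j ≤ ρ := hSmono (Nat.le_succ j)
    have ht0 : ∑ i, t i ≤ T 0 := ht.le.trans (hTmono _)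
    have hdec := decays_padicCoeff hl hbi hmax c t (x₀ := 0) (by simp)
    set ε := (p : ℝ) ^ ((m + 1) * T 0) * δ with hε
    set nodes : Finset ℚ_[p] := (range (S j)).image fun l : ℕ => (l : ℚ_[p]) with hnodes
    have hcard : nodes.card = S j := by
      rw [hnodes, card_image_of_injective _ fun _ _ e => Nat.cast_injective e, card_range]
    have hsmall : ∀ x ∈ nodes, ∀ d < T', ‖seqEval ((seqDiv x)^[d]
        (padicCoeff ell b i₀ c t 0)) x‖ ≤ ε := fun x hx d hd => by
      rw [hnodes, mem_image] at hx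
      obtain ⟨l, hl', rfl⟩ := hx
      have hl1 : ‖(l : ℚ_[p])‖ ≤ 1 := IsUltrametricDist.norm_natCast_le_one _ l
      rw [seqEval_iterate_eq hR hl1 d hdec (decays_padicCoeff hl hbi hmax c t hl1) fun y hy => by
        rw [seqEval_padicCoeff hl hbi hmax c t (by simp)
          ((IsUltrametricDist.norm_add_le_max _ _).trans (max_le hl1 hy)),
          seqEval_padicCoeff hl hbi hmax c t hl1 hy, zero_add],
        padicCoeff_eq, norm_mul]
      refine (mul_le_mul (norm_inv_factorial_le p d)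
        (IsUltrametricDist.norm_sum_le_of_forall_le_of_nonneg
        (by positivity : 0 ≤ ((p : ℝ) ^ m) ^ d * δ) fun g _ => ?_) (norm_nonneg _)
        (by positivity)).trans ?_
      · rw [norm_mul, norm_prod]
        refine mul_le_mul ((prod_le_prod (fun i _ => norm_nonneg _) (g := fun _ => (p : ℝ) ^ m)
          fun i _ => hb0inv _).trans_eq (by simp)) ?_ (norm_nonneg _) (by positivity)
        have hsum : ∑ i, (t i + (univ.filter fun y => g y = i).card) = ∑ i, t i + d := by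
          rw [sum_add_distrib, ← card_eq_sum_card_fiberwise (fun y _ => mem_univ (g y)), card_univ,
            Fintype.card_fin]
        have h0 : padicVal' a b i₀ c (fun i => t i + (univ.filter fun y => g y = i).card) l = 0 :=
          hvan _ (by rw [hsum]; omega) l (Finset.mem_range.1 hl')
        have h1 := hclose (fun i => t i + (univ.filter fun y => g y = i).card) l
        rwa [h0, Int.cast_zero, sub_zero] at h1
      · rw [hε, ← mul_assoc, ← pow_mul, ← pow_add]
        refine mul_le_mul_of_nonneg_right (pow_le_pow_right₀ hp1.le ?_) (by positivity)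
        calc d + m * d = (m + 1) * d := by ring
          _ ≤ (m + 1) * T 0 := Nat.mul_le_mul_left _ (hd.le.trans (hTmono _))
    have hsep : ∀ x ∈ nodes, ∀ y ∈ nodes, x ≠ y → 1 ≤ (S j : ℝ) * ‖x - y‖ := by
      intro x hx y hy hne
      rw [hnodes, mem_image] at hx hy
      obtain ⟨l, hl', rfl⟩ := hx
      obtain ⟨l', hl'', rfl⟩ := hy
      have hne' : ((l : ℤ) - l') ≠ 0 := fun e => hne (by rw [show l = l' by omega])
      rw [show (l : ℚ_[p]) - (l' : ℚ_[p]) = (((l : ℤ) - l' : ℤ) : ℚ_[p]) by push_cast; rfl]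
      rw [Finset.mem_range] at hl' hl''
      have h1 : (((l : ℤ) - l').natAbs : ℝ) ≤ (S j : ℝ) := by
        exact_mod_cast (show ((l : ℤ) - l').natAbs ≤ S j by omega)
      have h2 : (((l : ℤ) - l').natAbs : ℝ)⁻¹ ≤ ‖(((l : ℤ) - l' : ℤ) : ℚ_[p])‖ := by
        refine (inv_natCast_le_norm p (C := ℚ_[p]) (Int.natAbs_ne_zero.2 hne')).trans (le_of_eq ?_)
        rcases Int.natAbs_eq ((l : ℤ) - l') with e' | e'
        · conv_rhs => rw [e', Int.cast_natCast]
        · conv_rhs => rw [e', Int.cast_neg, Int.cast_natCast, norm_neg]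
      calc (1 : ℝ) = (((l : ℤ) - l').natAbs : ℝ) * (((l : ℤ) - l').natAbs : ℝ)⁻¹ :=
            (mul_inv_cancel₀ (Nat.cast_ne_zero.2 (Int.natAbs_ne_zero.2 hne'))).symm
        _ ≤ _ := mul_le_mul h1 h2 (by positivity) (Nat.cast_nonneg _)
    have hs := schwarz hR (show (1 : ℝ) ≤ (S j : ℝ) by exact_mod_cast Nat.one_le_pow _ _ hP1) nodes
      (fun x hx => by
        rw [hnodes, mem_image] at hx
        obtain ⟨l, -, rfl⟩ := hx
        exact IsUltrametricDist.norm_natCast_le_one _ l)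
      hsep hdec (by positivity : 0 ≤ ε) hsmall
    rw [hcard] at hs
    -- the power of `p`
    set G := U + n * h * L * ρ + 1 with hG
    have hgain := step_gain hn hPm hP hPh j
    simp only [← hU, ← hTdef, ← hSdef, ← hLdef] at hgain
    change U + 4 * n * h * L * (16 * ρ) + n * h * L * ρ + 4 ≤ 2 * (S j * T') at hgain
    have hρle : n * h * L * ρ ≤ n * h * L * σ := Nat.mul_le_mul_left _ hρσ
    have hq : ∀ {x Z : ℕ}, x + G ≤ Z → (p : ℝ) ^ x / (p : ℝ) ^ Z ≤ ((p : ℝ) ^ G)⁻¹ :=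
      fun {x Z} hxZ => by
      rw [div_le_iff₀ (by positivity), ← div_eq_inv_mul, le_div_iff₀ (by positivity), ← pow_add]
      exact pow_le_pow_right₀ hp1.le hxZ
    have hcoef : ∀ i, ‖padicCoeff ell b i₀ c t 0 i‖ ≤ ((p : ℝ) ^ G)⁻¹ := fun i => by
      refine (hs i).trans (max_le ?_ ?_)
      · have hSp : (S j : ℝ) ≤ (p : ℝ) ^ X := by
          exact_mod_cast ((hjρ.trans hρσ).trans hσX).trans (Nat.pow_le_pow_left hp.two_le X)
        have hexpo : X * (2 * (S j * T')) ≤ X * (2 * (σ * T 0)) :=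
          Nat.mul_le_mul_left _ (Nat.mul_le_mul_left _
            (Nat.mul_le_mul (hjρ.trans hρσ) (hTmono _)))
        refine le_trans ?_ (hq (x := X * (2 * (S j * T')) + ((m + 1) * T 0 + (m + 1))) (Z := M)
          (by omega))
        calc (((S j : ℝ)) ^ (2 * T')) ^ S j * ε ≤ (((p : ℝ) ^ X) ^ (2 * T')) ^ S j * ε := by
              gcongr
          _ = _ := by
              rw [hε, hδ, ← pow_mul, ← pow_mul, ← mul_div_assoc, ← mul_div_assoc, ← pow_add,
                ← pow_add]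
              congr 2
              ring
      · refine le_trans (le_of_eq ?_) (hq (x := 0) (Z := 2 * (S j * T')) (by omega))
        rw [pow_zero, ← pow_mul, ← pow_mul]
        congr 2
        ring
    have hk1 : ‖(k : ℚ_[p])‖ ≤ 1 := IsUltrametricDist.norm_natCast_le_one _ k
    have hfun : ‖padicFun ell b i₀ c t (k : ℚ_[p])‖ ≤ ((p : ℝ) ^ G)⁻¹ := by
      rw [← zero_add (k : ℚ_[p]), ← seqEval_padicCoeff hl hbi hmax c t (by simp) hk1]
      refine IsUltrametricDist.norm_tsum_le_of_forall_le_of_nonneg (by positivity) fun i => ?_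
      rw [norm_mul, norm_pow]
      exact (mul_le_of_le_one_right (norm_nonneg _) (pow_le_one₀ (norm_nonneg _) hk1)).trans
        (hcoef i)
    have hval : ‖(padicVal' a b i₀ c t k : ℚ_[p])‖ ≤ ((p : ℝ) ^ G)⁻¹ := by
      have h1 := norm_sub_le_max (padicFun ell b i₀ c t (k : ℚ_[p]))
        (padicFun ell b i₀ c t (k : ℚ_[p]) - (padicVal' a b i₀ c t k : ℚ_[p]))
      rw [sub_sub_cancel] at h1
      exact h1.trans (max_le hfun ((hclose t k).trans (hq (x := m + 1) (Z := M) (by omega))))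
    rw [← zpow_natCast, ← zpow_neg] at hval
    have hdiv : (p : ℤ) ^ G ∣ padicVal' a b i₀ c t k := by
      exact_mod_cast (Padic.norm_int_le_pow_iff_dvd _ G).1 hval
    refine Int.eq_zero_of_dvd_of_natAbs_lt_natAbs hdiv ?_
    rw [Int.natAbs_pow, Int.natAbs_natCast]
    refine lt_of_lt_of_le (lt_of_le_of_lt ?_ (Nat.pow_lt_pow_right one_lt_two
      (show U + n * h * L * ρ < G by omega))) (Nat.pow_le_pow_left hp.two_le G)
    refine Nat.le_of_mul_le_mul_left ?_ (show 0 < N from pow_pos (pow_pos hP1 _) n)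
    refine (Nat.mul_le_mul_left _ (Int.natAbs_sum_le _ _)).trans ?_
    rw [mul_sum]
    refine (sum_le_card_nsmul _ _ (2 ^ (U + n * h * L * ρ)) fun lam _ => ?_).trans_eq ?_
    · rw [Int.natAbs_mul, Int.natAbs_natCast, ← mul_assoc, pow_add]
      exact Nat.mul_le_mul (hterm t ht0 lam) ((hweight k lam).trans
        (Nat.pow_le_pow_right two_pos (Nat.mul_le_mul_left _ hk.le)))
    · rw [card_univ, hcardL, smul_eq_mul]
  have hall : ∀ j, j ≤ J → Vanish j := by
    intro j
    induction j with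
    | zero => exact fun _ => hstart
    | succ j ih => exact fun hj => hstep j hj (ih (Nat.le_of_succ_le hj))
  -- Vandermonde
  refine hc0 ?_
  have hlam : Function.Injective fun lam : Fin n → Fin L =>
      ((∏ i, a i ^ (lam i).val : ℕ) : ℤ) := fun x y hxy => by
    have h1 := hind (fun i => (x i).val) (fun i => (y i).val) (Int.ofNat_inj.1 hxy)
    funext i
    exact Fin.ext (congrFun h1 i)
  let E : Fin N ≃ (Fin n → Fin L) := (Fintype.equivFinOfCardEq hcardL).symm
  have hv0 : (fun x => c (E x)) = 0 := by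
    refine Matrix.eq_zero_of_forall_pow_sum_mul_pow_eq_zero
      (f := fun x => ((∏ i, a i ^ (E x i).val : ℕ) : ℤ)) (hlam.comp E.injective) fun k => ?_
    have h1 := hall J le_rfl (fun _ => 0) (by rw [sum_const_zero]; exact hT0 J) k.val
      (k.isLt.trans_le (range_last hP1))
    rw [padicVal', ← E.sum_comp] at h1
    refine Eq.trans (sum_congr rfl fun x _ => ?_) h1
    simp only [monom, pow_zero, prod_const_one, mul_one, pow_mul, prod_pow]
    push_cast
    ring
  funext lam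
  have h1 := congrFun hv0 (E.symm lam)
  simpa using h1

end FA.BakerExplicit

end
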