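import Fermat.Agent.BakerExplicit.Setup
import Fermat.Agent.BakerExplicit.Numeric
import Fermat.Agent.Transcendence.BrumerLog
import Fermat.Agent.Transcendence.BrumerSeries
import Mathlib.NumberTheory.Padics.PadicNumbers

/-!
# The functions of Baker's method over `ℚ_p`

With `b i / b i₀` integral at `p` the frequencies stay in the disc `‖x‖ ≤ p ^ -3`, so `F t` is a
series with `‖c j‖ ≤ p ^ (-2 j)`; its expansion at an integer has combinations of the values
`F t'` there for coefficients, and at the integers `F t` is within `p ‖Λ / b i₀‖` of an integer.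
-/

set_option autoImplicit false
set_option linter.unusedSectionVars false

noncomputable section

namespace FA.BakerExplicit

open Finset FA.Brumer
open scoped Nat

variable {n L p : ℕ} [hp : Fact p.Prime] {C : Type*} [NontriviallyNormedField C] [CompleteSpace C]
  [IsUltrametricDist C] [hC : NormedAlgebra ℚ_[p] C] [CharZero C]

/-- The frequency in `ℚ_p`. -/
def padicOmega (ell : Fin n → C) (b : Fin n → ℤ) (i₀ : Fin n) (lam : Fin n → Fin L) : C :=
  ∑ i : Other i₀, (coord b i₀ lam i.1 : C) * (ell i.1 / (b i₀ : C))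

/-- The logarithm of `∏ a i ^ λ i` in `ℚ_p`. -/
def padicMu (ell : Fin n → C) (lam : Fin n → Fin L) : C :=
  ∑ i, ((lam i).val : C) * ell i

/-- The auxiliary functions in `ℚ_p`. -/
def padicFun (ell : Fin n → C) (b : Fin n → ℤ) (i₀ : Fin n) (c : (Fin n → Fin L) → ℤ)
    (t : Other i₀ → ℕ) (x : C) : C :=
  ∑ lam, ((c lam * monom b i₀ t lam : ℤ) : C) * pexp (padicOmega ell b i₀ lam * x)

/-- Their series at `x₀`. -/
def padicCoeff (ell : Fin n → C) (b : Fin n → ℤ) (i₀ : Fin n) (c : (Fin n → Fin L) → ℤ)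
    (t : Other i₀ → ℕ) (x₀ : C) (j : ℕ) : C :=
  ∑ lam, ((c lam * monom b i₀ t lam : ℤ) : C) * pexp (padicOmega ell b i₀ lam * x₀) *
    expTerm (padicOmega ell b i₀ lam) j

theorem norm_intCast_le_one (z : ℤ) : ‖(z : C)‖ ≤ 1 :=
  IsUltrametricDist.norm_intCast_le_one _ z

/-- `‖z‖ ≥ p ^ -e` for `|z| ≤ p ^ e`. -/
theorem inv_pow_le_norm {z : ℤ} (hz : z ≠ 0) {e : ℕ} (h : z.natAbs ≤ p ^ e) :
    ((p : ℝ) ^ e)⁻¹ ≤ ‖(z : C)‖ := by
  have h0 : z.natAbs ≠ 0 := Int.natAbs_ne_zero.2 hz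
  refine le_trans (inv_anti₀ (by exact_mod_cast Nat.pos_of_ne_zero h0)
    (by exact_mod_cast h : (z.natAbs : ℝ) ≤ (p : ℝ) ^ e)) ?_
  refine (inv_natCast_le_norm p (C := C) h0).trans (le_of_eq ?_)
  rcases Int.natAbs_eq z with e' | e'
  · conv_rhs => rw [e', Int.cast_natCast]
  · conv_rhs => rw [e', Int.cast_neg, Int.cast_natCast, norm_neg]

theorem norm_coord_div_le {b : Fin n → ℤ} {i₀ : Fin n} (hb : b i₀ ≠ 0)
    (hmax : ∀ i, ‖(b i : C)‖ ≤ ‖(b i₀ : C)‖) (lam : Fin n → Fin L) (i : Fin n) :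
    ‖(coord b i₀ lam i : C) / (b i₀ : C)‖ ≤ 1 := by
  have h0 : 0 < ‖(b i₀ : C)‖ := norm_pos_iff.2 (Int.cast_ne_zero.2 hb)
  rw [norm_div, div_le_one h0, coord, Int.cast_sub, Int.cast_mul, Int.cast_mul]
  refine (norm_sub_le_max _ _).trans (max_le ?_ ?_) <;> rw [norm_mul]
  · exact mul_le_of_le_one_right (norm_nonneg _) (norm_intCast_le_one _)
  · exact (mul_le_of_le_one_right (norm_nonneg _) (norm_intCast_le_one _)).trans (hmax i)

theorem norm_padicOmega_le {ell : Fin n → C} (hl : ∀ i, ‖ell i‖ ≤ rad p) {b : Fin n → ℤ}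
    {i₀ : Fin n} (hb : b i₀ ≠ 0) (hmax : ∀ i, ‖(b i : C)‖ ≤ ‖(b i₀ : C)‖)
    (lam : Fin n → Fin L) : ‖padicOmega ell b i₀ lam‖ ≤ rad p := by
  refine IsUltrametricDist.norm_sum_le_of_forall_le_of_nonneg (rad_pos (p := p)).le fun i _ => ?_
  rw [mul_div_assoc', mul_div_right_comm, norm_mul]
  exact (mul_le_of_le_one_left (norm_nonneg _) (norm_coord_div_le hb hmax lam i.1)).trans (hl _)

theorem norm_padicMu_le {ell : Fin n → C} (hl : ∀ i, ‖ell i‖ ≤ rad p) (lam : Fin n → Fin L) :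
    ‖padicMu ell lam‖ ≤ rad p :=
  IsUltrametricDist.norm_sum_le_of_forall_le_of_nonneg (rad_pos (p := p)).le fun i _ => by
    rw [norm_mul]
    exact (mul_le_of_le_one_left (norm_nonneg _)
      (IsUltrametricDist.norm_natCast_le_one _ _)).trans (hl _)

theorem padicOmega_eq (ell : Fin n → C) {b : Fin n → ℤ} {i₀ : Fin n} (hb : b i₀ ≠ 0)
    (lam : Fin n → Fin L) :
    padicOmega ell b i₀ lam = padicMu ell lam -
      ((lam i₀).val : C) * ((∑ i, (b i : C) * ell i) / (b i₀ : C)) := by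
  have hbC : (b i₀ : C) ≠ 0 := Int.cast_ne_zero.2 hb
  have h1 : ∑ i : Other i₀, (coord b i₀ lam i.1 : C) * (ell i.1 / (b i₀ : C)) =
      ∑ i, (coord b i₀ lam i : C) * (ell i / (b i₀ : C)) := by
    rw [← sum_subtype (univ.filter fun i => i ≠ i₀) (p := fun i => i ≠ i₀) (fun i => by simp)
      fun i => (coord b i₀ lam i : C) * (ell i / (b i₀ : C))]
    refine sum_filter_of_ne fun i _ h e => h ?_
    subst e
    simp [coord]
  rw [padicOmega, h1, padicMu, sum_div, mul_sum, ← sum_sub_distrib]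
  refine sum_congr rfl fun i _ => ?_
  simp only [coord]
  push_cast
  field_simp

/-- The coefficients decay. -/
theorem decays_padicCoeff {ell : Fin n → C} (hl : ∀ i, ‖ell i‖ ≤ rad p) {b : Fin n → ℤ}
    {i₀ : Fin n} (hb : b i₀ ≠ 0) (hmax : ∀ i, ‖(b i : C)‖ ≤ ‖(b i₀ : C)‖)
    (c : (Fin n → Fin L) → ℤ) (t : Other i₀ → ℕ) {x₀ : C} (hx : ‖x₀‖ ≤ 1) :
    Decays ((p : ℝ) ^ 2) 1 (padicCoeff ell b i₀ c t x₀) := fun j => by
  have hp0 : (0 : ℝ) < p := prime_pos p
  rw [← le_div_iff₀ (pow_pos (pow_pos hp0 2) j), one_div, ← inv_pow]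
  refine IsUltrametricDist.norm_sum_le_of_forall_le_of_nonneg (by positivity) fun lam _ => ?_
  have hw := norm_padicOmega_le hl hb hmax lam
  have hs : Small p (padicOmega ell b i₀ lam * x₀) := by
    rw [mul_comm]; exact (small_of_le hw).mul hx
  rw [norm_mul, norm_mul, norm_pexp hs, mul_one]
  refine (mul_le_of_le_one_left (norm_nonneg _) (norm_intCast_le_one _)).trans
    ((norm_expTerm_le p _ j).trans (pow_le_pow_left₀ (by positivity)
      ((mul_le_mul_of_nonneg_left hw hp0.le).trans (le_of_eq ?_)) j))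
  rw [rad, pow_succ' (p : ℝ) 2, mul_inv, ← mul_assoc, mul_inv_cancel₀ hp0.ne', one_mul]

/-- Taylor's formula. -/
theorem seqEval_padicCoeff {ell : Fin n → C} (hl : ∀ i, ‖ell i‖ ≤ rad p) {b : Fin n → ℤ}
    {i₀ : Fin n} (hb : b i₀ ≠ 0) (hmax : ∀ i, ‖(b i : C)‖ ≤ ‖(b i₀ : C)‖)
    (c : (Fin n → Fin L) → ℤ) (t : Other i₀ → ℕ) {x₀ x : C} (hx₀ : ‖x₀‖ ≤ 1) (hx : ‖x‖ ≤ 1) :
    seqEval (padicCoeff ell b i₀ c t x₀) x = padicFun ell b i₀ c t (x₀ + x) := by
  have hs : ∀ (lam : Fin n → Fin L) {y : C}, ‖y‖ ≤ 1 →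
      Small p (padicOmega ell b i₀ lam * y) := fun lam y hy => by
    rw [mul_comm]; exact (small_of_le (norm_padicOmega_le hl hb hmax lam)).mul hy
  have e : ∀ (lam : Fin n → Fin L) (j : ℕ), expTerm (padicOmega ell b i₀ lam) j * x ^ j =
      expTerm (padicOmega ell b i₀ lam * x) j := fun lam j => by
    simp only [expTerm, mul_pow]; ring
  simp only [seqEval, padicCoeff, sum_mul, mul_assoc, e]
  rw [Summable.tsum_finsetSum fun lam _ =>
    (((summable_norm_expTerm (hs lam hx)).of_norm).mul_left _).mul_left _]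
  refine sum_congr rfl fun lam _ => ?_
  rw [tsum_mul_left, tsum_mul_left, mul_add, pexp_add (hs lam hx₀) (hs lam hx)]
  rfl

/-- The coefficients are combinations of the values. -/
theorem padicCoeff_eq (ell : Fin n → C) (b : Fin n → ℤ) (i₀ : Fin n)
    (c : (Fin n → Fin L) → ℤ) (t : Other i₀ → ℕ) (x₀ : C) (j : ℕ) :
    padicCoeff ell b i₀ c t x₀ j = ((j ! : ℕ) : C)⁻¹ * ∑ g : Fin j → Other i₀,
      (∏ y, (ell (g y).1 / (b i₀ : C))) *
        padicFun ell b i₀ c (fun i => t i + (univ.filter fun y => g y = i).card) x₀ := by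
  simp only [padicCoeff, padicFun, mul_sum]
  rw [sum_comm]
  refine sum_congr rfl fun lam _ => ?_
  simp only [monom_add]
  set E := pexp (padicOmega ell b i₀ lam * x₀)
  simp only [expTerm, padicOmega]
  push_cast
  rw [Fintype.sum_pow fun i : Other i₀ =>
    (coord b i₀ lam i.1 : C) * (ell i.1 / (b i₀ : C)), sum_mul, mul_sum]
  refine sum_congr rfl fun g _ => ?_
  rw [prod_mul_distrib]
  ring

/-- The values next to them at the integers. -/
def padicVal (ell : Fin n → C) (b : Fin n → ℤ) (i₀ : Fin n) (c : (Fin n → Fin L) → ℤ)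
    (t : Other i₀ → ℕ) (k : ℕ) : C :=
  ∑ lam, ((c lam * monom b i₀ t lam : ℤ) : C) * pexp (padicMu ell lam) ^ k

/-- The values at the integers. -/
theorem norm_padicFun_sub_padicVal_le {ell : Fin n → C} (hl : ∀ i, ‖ell i‖ ≤ rad p)
    {b : Fin n → ℤ} {i₀ : Fin n} (hb : b i₀ ≠ 0)
    (hmax : ∀ i, ‖(b i : C)‖ ≤ ‖(b i₀ : C)‖)
    (c : (Fin n → Fin L) → ℤ) (t : Other i₀ → ℕ) (k : ℕ) :
    ‖padicFun ell b i₀ c t (k : C) - padicVal ell b i₀ c t k‖ ≤
      (p : ℝ) * ‖(∑ i, (b i : C) * ell i) / (b i₀ : C)‖ := by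
  set Λ := (∑ i, (b i : C) * ell i) / (b i₀ : C)
  rw [padicFun, padicVal, ← sum_sub_distrib]
  refine IsUltrametricDist.norm_sum_le_of_forall_le_of_nonneg
    (mul_nonneg (prime_pos p).le (norm_nonneg _)) fun lam _ => ?_
  have hW : pexp ((k : C) * padicMu ell lam) = pexp (padicMu ell lam) ^ k :=
    pexp_nat_mul (small_of_le (norm_padicMu_le hl lam)) k
  have hwk : Small p (padicOmega ell b i₀ lam * (k : C)) := by
    rw [mul_comm]
    exact (small_of_le (norm_padicOmega_le hl hb hmax lam)).mul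
      (IsUltrametricDist.norm_natCast_le_one _ _)
  have hμk : Small p ((k : C) * padicMu ell lam) :=
    (small_of_le (norm_padicMu_le hl lam)).mul (IsUltrametricDist.norm_natCast_le_one _ _)
  set d := (k : C) * padicMu ell lam - padicOmega ell b i₀ lam * (k : C) with hd
  have hdsmall : Small p d := by
    rw [hd, sub_eq_add_neg]
    refine hμk.add ?_
    show (p : ℝ) * ‖-(padicOmega ell b i₀ lam * (k : C))‖ < 1
    rwa [norm_neg]
  have hdle : ‖d‖ ≤ ‖Λ‖ := by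
    rw [hd, padicOmega_eq ell hb lam, show (k : C) * padicMu ell lam -
      (padicMu ell lam - ((lam i₀).val : C) * Λ) * (k : C) =
        ((lam i₀).val : C) * (k : C) * Λ by ring, norm_mul, norm_mul]
    exact mul_le_of_le_one_left (norm_nonneg _) (mul_le_one₀
      (IsUltrametricDist.norm_natCast_le_one _ _) (norm_nonneg _)
      (IsUltrametricDist.norm_natCast_le_one _ _))
  rw [← mul_sub, ← hW,
    show (k : C) * padicMu ell lam = padicOmega ell b i₀ lam * (k : C) + d by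
      rw [hd]; ring,
    pexp_add hwk hdsmall, ← mul_one_sub, norm_mul, norm_mul, norm_pexp hwk, one_mul, norm_sub_rev]
  exact (mul_le_of_le_one_left (norm_nonneg _) (norm_intCast_le_one _)).trans
    ((norm_pexp_sub_one_le hdsmall).trans (mul_le_mul_of_nonneg_left hdle (prime_pos p).le))

/-- The integers next to the values. -/
def padicVal' (a : Fin n → ℕ) (b : Fin n → ℤ) (i₀ : Fin n) (c : (Fin n → Fin L) → ℤ)
    (t : Other i₀ → ℕ) (k : ℕ) : ℤ :=
  ∑ lam, c lam * monom b i₀ t lam * ((∏ i, a i ^ ((lam i).val * k) : ℕ) : ℤ)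

/-- The values at the integers. -/
theorem norm_padicFun_sub_le {a : Fin n → ℕ} {ell : Fin n → ℚ_[p]} (hl : ∀ i, ‖ell i‖ ≤ rad p)
    (hexp : ∀ i, pexp (ell i) = (a i : ℚ_[p])) {b : Fin n → ℤ}
    {i₀ : Fin n} (hb : b i₀ ≠ 0) (hmax : ∀ i, ‖(b i : ℚ_[p])‖ ≤ ‖(b i₀ : ℚ_[p])‖)
    (c : (Fin n → Fin L) → ℤ) (t : Other i₀ → ℕ) (k : ℕ) :
    ‖padicFun ell b i₀ c t (k : ℚ_[p]) - (padicVal' a b i₀ c t k : ℚ_[p])‖ ≤
      (p : ℝ) * ‖(∑ i, (b i : ℚ_[p]) * ell i) / (b i₀ : ℚ_[p])‖ := by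
  refine le_trans (le_of_eq ?_) (norm_padicFun_sub_padicVal_le hl hb hmax c t k)
  rw [padicVal', padicVal, Int.cast_sum]
  refine congrArg (‖_ - ·‖) (sum_congr rfl fun lam _ => ?_)
  rw [padicMu, pexp_sum fun i _ => (small_of_le (hl i)).mul
    (IsUltrametricDist.norm_natCast_le_one _ _), ← prod_pow]
  push_cast
  refine congrArg _ (prod_congr rfl fun i _ => ?_)
  rw [pexp_nat_mul (small_of_le (hl i)), hexp, ← pow_mul]

/-- The logarithm of the loss. -/
theorem padicLoss_le {n h m P : ℕ} (hn : 1 ≤ n) (hh : 1 ≤ h) (hm : m ≤ P)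
    (hP : 2 ^ 11 * n ^ 2 * 2 ^ (3 * n ^ 2) ≤ P) (hPh : 2 ^ 11 * n * h ≤ P) :
    (2 + 6 * n ^ 2) * P * (2 * (intRange P (3 * n ^ 2) * orders n P 0)) +
      (m + 1) * orders n P 0 + m +
      (termLog n h m P + n * h * degree n P * intRange P (3 * n ^ 2)) + 2 ≤ 2 * P ^ kappa n := by
  refine le_trans ?_ (Nat.mul_le_mul_left 2 (lossLog_le hn hh hm hP hPh))
  simp only [lossLog]
  set X := (2 + 6 * n ^ 2) * P
  set σ := intRange P (3 * n ^ 2)
  set T := orders n P 0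
  have hP1 : 1 ≤ P := (Nat.one_le_iff_ne_zero.2 (by positivity)).trans hP
  have hX : m + 1 ≤ X := by
    have : 2 * P ≤ X := Nat.mul_le_mul_right _ (by omega)
    omega
  have hT1 : 1 ≤ T := Nat.mul_pos (Nat.two_pow_pos _) (pow_pos hP1 _)
  have h1 : (m + 1) * T ≤ 2 * (X * T) :=
    (Nat.mul_le_mul_right _ hX).trans (Nat.le_mul_of_pos_left _ two_pos)
  have h2 : m ≤ (5 + X) * ((σ + 1) * T) :=
    (show m ≤ 5 + X by omega).trans (Nat.le_mul_of_pos_right _ (Nat.mul_pos (Nat.succ_pos _) hT1))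
  have e : (5 + X) * ((σ + 1) * T) = 5 * (σ * T) + 5 * T + X * (σ * T) + X * T := by ring
  have e' : X * (2 * (σ * T)) = 2 * (X * (σ * T)) := by ring
  have h3 : m ≤ 5 * (σ * T) + 5 * T + 2 * T := by
    have : m ≤ 2 ^ 3 * P := by omega
    rcases Nat.eq_zero_or_pos m with h0 | h0
    · omega
    have hPT : P ≤ T := le_trans (Nat.le_self_pow (by omega) P)
      (Nat.le_mul_of_pos_left _ (Nat.two_pow_pos _))
    omega
  have e2 : (4 + σ) * T = 4 * T + σ * T := by ring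
  omega

end FA.BakerExplicit

end
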