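import Fermat.Agent.BakerExplicit.PrimrecBounds
import Mathlib.Computability.Primrec.List

/-!
# The algorithms of Baker's theorem

The integral and the `S`-integral points of an elliptic equation are found by testing a box whose
size is a primitive recursive function of the coefficients; so are the models of Shafarevich.
-/

set_option autoImplicit false

noncomputable section

namespace FA.BakerExplicit.Algorithms

open SIntegralPoints PrimrecBounds

/-- An integer valued function which is a difference of primitive recursive functions. -/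
def IntRec {α : Type*} [Primcodable α] (u : α → ℤ) : Prop :=
  ∃ A B : α → ℕ, Primrec A ∧ Primrec B ∧ ∀ a, u a = (A a : ℤ) - (B a : ℤ)

theorem int_encode (z : ℤ) :
    Encodable.encode z = if 0 ≤ z then 2 * z.natAbs else 2 * z.natAbs - 1 := by
  cases z with
  | ofNat n => exact (if_pos (Int.natCast_nonneg n)).symm
  | negSucc n =>
    rw [if_neg (not_le.2 (Int.negSucc_lt_zero n))]
    show 2 * n + 1 = 2 * (n + 1) - 1
    omega

theorem primrec_natAbs : Primrec Int.natAbs :=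
  (Primrec.nat_div.comp (add Primrec.encode (num 1)) (num 2)).of_eq fun z => by
    rw [int_encode]
    split_ifs <;> omega

theorem primrec_toNat : Primrec Int.toNat := by
  refine (Primrec.ite (c := fun z : ℤ => Encodable.encode z % 2 = 0) ?_
    (Primrec.nat_div.comp Primrec.encode (num 2)) (num 0)).of_eq fun z => ?_
  · exact Primrec.eq.comp (Primrec.nat_mod.comp Primrec.encode (num 2)) (num 0)
  · rw [int_encode]
    split_ifs <;> omega

variable {α : Type*} [Primcodable α] {u v : α → ℤ}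

theorem IntRec.of_primrec {u : α → ℤ} (hu : Primrec u) : IntRec u :=
  ⟨fun a => (u a).toNat, fun a => (u a).natAbs - (u a).toNat, primrec_toNat.comp hu,
    Primrec.nat_sub.comp (primrec_natAbs.comp hu) (primrec_toNat.comp hu),
    fun a => by simp only; omega⟩

theorem IntRec.natCast {f : α → ℕ} (hf : Primrec f) : IntRec fun a => (f a : ℤ) :=
  ⟨f, fun _ => 0, hf, num 0, fun a => by simp⟩

theorem IntRec.const (z : ℤ) : IntRec fun _ : α => z :=
  ⟨fun _ => z.toNat, fun _ => (-z).toNat, num _, num _, fun _ => (Int.toNat_sub_toNat_neg z).symm⟩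

theorem IntRec.add (hu : IntRec u) (hv : IntRec v) : IntRec fun a => u a + v a := by
  obtain ⟨A, B, hA, hB, hu⟩ := hu
  obtain ⟨C, D, hC, hD, hv⟩ := hv
  exact ⟨_, _, PrimrecBounds.add hA hC, PrimrecBounds.add hB hD,
    fun a => by simp only [hu, hv]; push_cast; ring⟩

theorem IntRec.mul (hu : IntRec u) (hv : IntRec v) : IntRec fun a => u a * v a := by
  obtain ⟨A, B, hA, hB, hu⟩ := hu
  obtain ⟨C, D, hC, hD, hv⟩ := hv
  exact ⟨_, _, PrimrecBounds.add (PrimrecBounds.mul hA hC) (PrimrecBounds.mul hB hD),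
    PrimrecBounds.add (PrimrecBounds.mul hA hD) (PrimrecBounds.mul hB hC),
    fun a => by simp only [hu, hv]; push_cast; ring⟩

theorem IntRec.sq (hu : IntRec u) : IntRec fun a => u a ^ 2 := by
  simpa only [pow_two] using hu.mul hu

theorem IntRec.cube (hu : IntRec u) : IntRec fun a => u a ^ 3 := by
  simpa only [pow_succ, pow_zero, one_mul] using (hu.mul hu).mul hu

theorem IntRec.eq_pred (hu : IntRec u) (hv : IntRec v) : PrimrecPred fun a => u a = v a := by
  obtain ⟨A, B, hA, hB, hu⟩ := hu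
  obtain ⟨C, D, hC, hD, hv⟩ := hv
  refine (Primrec.eq.comp (PrimrecBounds.add hA hD) (PrimrecBounds.add hB hC)).of_eq fun a => ?_
  rw [hu, hv]
  omega

theorem dvd_pred {f g : α → ℕ} (hf : Primrec f) (hg : Primrec g) :
    PrimrecPred fun a => f a ∣ g a :=
  (Primrec.eq.comp (Primrec.nat_mod.comp hg hf) (num 0)).of_eq fun _ =>
    (Nat.dvd_iff_mod_eq_zero).symm

/-- Divisibility is a primitive recursive relation. -/
theorem dvd_rel : PrimrecRel fun m q : ℕ => m ∣ q :=
  dvd_pred (α := ℕ × ℕ) Primrec.fst Primrec.snd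

/-- A bounded universal quantifier over any parameter. -/
theorem forall_lt_rel {β : Type*} [Primcodable β] {R : ℕ → β → Prop} (hR : PrimrecRel R) :
    PrimrecRel fun (n : ℕ) (b : β) => ∀ x < n, R x b :=
  (hR.forall_mem_list.comp (Primrec.list_range.comp Primrec.fst) Primrec.snd).of_eq
    fun t : ℕ × β => by simp

theorem prime_pred : PrimrecPred Nat.Prime := by
  have h1 : PrimrecRel fun m q : ℕ => ¬m ∣ q ∨ m = 1 :=
    dvd_rel.not.or (Primrec.eq.comp (α := ℕ × ℕ) Primrec.fst (num 1))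
  refine ((Primrec.nat_le.comp (num 2) Primrec.id).and
    ((forall_lt_rel h1).comp Primrec.id Primrec.id)).of_eq fun q => ?_
  simp only [id, Nat.prime_def_lt, ← imp_iff_not_or]

/-- Reduced fractions with positive denominator. -/
def Reduced (p : ℤ × ℕ) : Prop :=
  p.2 ≠ 0 ∧ ∀ r < p.2 + 1, ¬r ∣ p.1.natAbs ∨ ¬r ∣ p.2 ∨ r = 1

instance : DecidablePred Reduced := fun p => by unfold Reduced; infer_instance

theorem reduced_pred : PrimrecPred Reduced := by
  have hR : PrimrecRel fun (r : ℕ) (p : ℤ × ℕ) => ¬r ∣ p.1.natAbs ∨ ¬r ∣ p.2 ∨ r = 1 :=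
    (dvd_pred (α := ℕ × ℤ × ℕ) Primrec.fst
      (primrec_natAbs.comp (Primrec.fst.comp Primrec.snd))).not.or
      ((dvd_pred (α := ℕ × ℤ × ℕ) Primrec.fst (Primrec.snd.comp Primrec.snd)).not.or
        (Primrec.eq.comp Primrec.fst (num 1)))
  have hR' : PrimrecRel fun (n : ℕ) (p : ℤ × ℕ) =>
      ∀ r < n, ¬r ∣ p.1.natAbs ∨ ¬r ∣ p.2 ∨ r = 1 := forall_lt_rel hR
  exact (Primrec.eq.comp Primrec.snd (num 0)).not.and
    (hR'.comp (PrimrecBounds.add Primrec.snd (num 1)) Primrec.id)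

theorem reduced_iff (p : ℤ × ℕ) : Reduced p ↔ ∃ x : ℚ, x.num = p.1 ∧ x.den = p.2 := by
  constructor
  · rintro ⟨h0, h⟩
    refine ⟨⟨p.1, p.2, h0, ?_⟩, rfl, rfl⟩
    have hg : 0 < Nat.gcd p.1.natAbs p.2 :=
      Nat.gcd_pos_of_pos_right _ (Nat.pos_of_ne_zero h0)
    rcases h _ (Nat.lt_succ_of_le (Nat.le_of_dvd (Nat.pos_of_ne_zero h0)
      (Nat.gcd_dvd_right p.1.natAbs p.2))) with h1 | h1 | h1
    · exact absurd (Nat.gcd_dvd_left _ _) h1
    · exact absurd (Nat.gcd_dvd_right _ _) h1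
    · exact h1
  · rintro ⟨x, h1, h2⟩
    refine ⟨h2 ▸ x.den_nz, fun r _ => ?_⟩
    by_cases ha : r ∣ p.1.natAbs
    · by_cases hb : r ∣ p.2
      · right; right
        rw [← h1, ← h2] at *
        exact Nat.eq_one_of_dvd_coprimes x.reduced ha hb
      · exact Or.inr (Or.inl hb)
    · exact Or.inl ha

/-- No prime factor above `2 ^ g`; the list of candidates is finite. -/
def SmallPrimes (d g : ℕ) : Prop := ∀ q < d + 1, ¬q ∣ d ∨ ¬q.Prime ∨ q ≤ 2 ^ g

instance (d g : ℕ) : Decidable (SmallPrimes d g) := by unfold SmallPrimes; infer_instance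

theorem smallPrimes_rel : PrimrecRel SmallPrimes := by
  have hR : PrimrecRel fun (q : ℕ) (p : ℕ × ℕ) => ¬q ∣ p.1 ∨ ¬q.Prime ∨ q ≤ 2 ^ p.2 :=
    (dvd_pred (α := ℕ × ℕ × ℕ) Primrec.fst (Primrec.fst.comp Primrec.snd)).not.or
      ((prime_pred.comp Primrec.fst).not.or (Primrec.nat_le.comp Primrec.fst
        (pow (num 2) (Primrec.snd.comp Primrec.snd))))
  have hR' : PrimrecRel fun (n : ℕ) (p : ℕ × ℕ) =>
      ∀ q < n, ¬q ∣ p.1 ∨ ¬q.Prime ∨ q ≤ 2 ^ p.2 := forall_lt_rel hR
  exact hR'.comp (PrimrecBounds.add Primrec.fst (num 1)) Primrec.id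

theorem smallPrimes_iff {d g : ℕ} (hd : d ≠ 0) :
    SmallPrimes d g ↔ ∀ q : ℕ, q.Prime → q ∣ d → q ≤ 2 ^ g := by
  constructor
  · intro h q hq hqd
    rcases h q (Nat.lt_succ_of_le (Nat.le_of_dvd (Nat.pos_of_ne_zero hd) hqd)) with h1 | h1 | h1
    · exact absurd hqd h1
    · exact absurd hq h1
    · exact h1
  · intro h q _
    by_cases h1 : q ∣ d
    · by_cases h2 : q.Prime
      · exact Or.inr (Or.inr (h q h2 h1))
      · exact Or.inr (Or.inl h2)
    · exact Or.inl h1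

/-- The coefficients `a₁, a₂, a₃, a₄, a₆`. -/
abbrev Coeffs : Type := ℤ × ℤ × ℤ × ℤ × ℤ

/-- The Weierstrass equation of given coefficients. -/
def curve (c : Coeffs) : WeierstrassCurve ℤ := ⟨c.1, c.2.1, c.2.2.1, c.2.2.2.1, c.2.2.2.2⟩

/-- A bound for the coefficients. -/
def height (c : Coeffs) : ℕ :=
  c.1.natAbs + c.2.1.natAbs + c.2.2.1.natAbs + c.2.2.2.1.natAbs + c.2.2.2.2.natAbs

theorem primrec_height : Primrec height :=
  PrimrecBounds.add (PrimrecBounds.add (PrimrecBounds.add (PrimrecBounds.add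
    (primrec_natAbs.comp Primrec.fst)
    (primrec_natAbs.comp (Primrec.fst.comp Primrec.snd)))
    (primrec_natAbs.comp (Primrec.fst.comp (Primrec.snd.comp Primrec.snd))))
    (primrec_natAbs.comp (Primrec.fst.comp (Primrec.snd.comp (Primrec.snd.comp Primrec.snd)))))
    (primrec_natAbs.comp (Primrec.snd.comp (Primrec.snd.comp (Primrec.snd.comp Primrec.snd))))

/-- The pairs of integers at most `2 ^ T`. -/
def intBox (T : ℕ) : List (ℤ × ℤ) :=
  (List.range ((2 * 2 ^ T + 2) ^ 2)).map (Denumerable.ofNat (ℤ × ℤ))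

/-- The pairs of fractions with all parts at most `2 ^ T`. -/
def ratBox (T : ℕ) : List ((ℤ × ℕ) × (ℤ × ℕ)) :=
  (List.range (((2 * 2 ^ T + 2) ^ 2) ^ 2)).map (Denumerable.ofNat ((ℤ × ℕ) × (ℤ × ℕ)))

theorem primrec_intBox : Primrec intBox :=
  Primrec.list_map (Primrec.list_range.comp (pow (PrimrecBounds.add (PrimrecBounds.mul (num 2)
    (pow (num 2) Primrec.id)) (num 2)) (num 2)))
    ((Primrec.ofNat (ℤ × ℤ)).comp₂ Primrec₂.right)

theorem primrec_ratBox : Primrec ratBox :=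
  Primrec.list_map (Primrec.list_range.comp (pow (pow (PrimrecBounds.add (PrimrecBounds.mul (num 2)
    (pow (num 2) Primrec.id)) (num 2)) (num 2)) (num 2)))
    ((Primrec.ofNat ((ℤ × ℕ) × (ℤ × ℕ))).comp₂ Primrec₂.right)

theorem pair_lt_sq {a b M : ℕ} (ha : a < M) (hb : b < M) : Nat.pair a b < M ^ 2 :=
  (Nat.pair_lt_max_add_one_sq a b).trans_le (Nat.pow_le_pow_left (max_lt ha hb) 2)

theorem encode_lt {z : ℤ} {T : ℕ} (h : z.natAbs ≤ 2 ^ T) :
    Encodable.encode z < 2 * 2 ^ T + 2 := by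
  rw [int_encode]
  split_ifs <;> omega

theorem mem_intBox {T : ℕ} {p : ℤ × ℤ} (h1 : p.1.natAbs ≤ 2 ^ T) (h2 : p.2.natAbs ≤ 2 ^ T) :
    p ∈ intBox T := by
  refine List.mem_map.2 ⟨Encodable.encode p, List.mem_range.2 ?_, Denumerable.ofNat_encode p⟩
  rw [Encodable.encode_prod_val]
  exact pair_lt_sq (encode_lt h1) (encode_lt h2)

theorem mem_ratBox {T : ℕ} {p : (ℤ × ℕ) × (ℤ × ℕ)} (h1 : p.1.1.natAbs ≤ 2 ^ T)
    (h2 : p.1.2 ≤ 2 ^ T) (h3 : p.2.1.natAbs ≤ 2 ^ T) (h4 : p.2.2 ≤ 2 ^ T) : p ∈ ratBox T := by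
  refine List.mem_map.2 ⟨Encodable.encode p, List.mem_range.2 ?_, Denumerable.ofNat_encode p⟩
  rw [Encodable.encode_prod_val, Encodable.encode_prod_val, Encodable.encode_prod_val]
  have hd : ∀ {d : ℕ}, d ≤ 2 ^ T → Encodable.encode d < 2 * 2 ^ T + 2 := fun {d} h => by
    rw [show Encodable.encode d = d from rfl]
    omega
  exact pair_lt_sq (pair_lt_sq (encode_lt h1) (hd h2)) (pair_lt_sq (encode_lt h3) (hd h4))

/-- The point satisfies the equation. -/
def OnCurve (p : ℤ × ℤ) (c : Coeffs) : Prop :=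
  p.2 ^ 2 + (curve c).a₁ * p.1 * p.2 + (curve c).a₃ * p.2 =
    p.1 ^ 3 + (curve c).a₂ * p.1 ^ 2 + (curve c).a₄ * p.1 + (curve c).a₆

instance : DecidableRel OnCurve := fun p c => by unfold OnCurve; infer_instance

theorem onCurve_rel : PrimrecRel OnCurve := by
  have s1 : Primrec fun t : (ℤ × ℤ) × Coeffs => t.2 := Primrec.snd
  have s2 := Primrec.snd.comp s1
  have s3 := Primrec.snd.comp s2
  have s4 := Primrec.snd.comp s3
  have x := IntRec.of_primrec (u := fun t : (ℤ × ℤ) × Coeffs => t.1.1)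
    (Primrec.fst.comp Primrec.fst)
  have y := IntRec.of_primrec (u := fun t : (ℤ × ℤ) × Coeffs => t.1.2)
    (Primrec.snd.comp Primrec.fst)
  exact (y.sq.add (((IntRec.of_primrec (Primrec.fst.comp s1)).mul x).mul y) |>.add
    ((IntRec.of_primrec (Primrec.fst.comp s3)).mul y)).eq_pred
    (x.cube.add ((IntRec.of_primrec (Primrec.fst.comp s2)).mul x.sq) |>.add
      ((IntRec.of_primrec (Primrec.fst.comp s4)).mul x) |>.add
      (IntRec.of_primrec (Primrec.snd.comp s4)))

/-- **The integral points of an equation, found by search.** -/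
def integralPoints (c : Coeffs) : List (ℤ × ℤ) :=
  (intBox (sIntegralBound (height c) 0)).filter fun p => decide (OnCurve p c)

theorem primrec_integralPoints : Primrec integralPoints :=
  (PrimrecRel.listFilter onCurve_rel).comp
    (primrec_intBox.comp (PrimrecBounds.sIntegralBound primrec_height (num 0))) Primrec.id

theorem height_le (c : Coeffs) :
    |(curve c).a₁| ≤ 2 ^ height c ∧ |(curve c).a₂| ≤ 2 ^ height c ∧
      |(curve c).a₃| ≤ 2 ^ height c ∧ |(curve c).a₄| ≤ 2 ^ height c ∧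
      |(curve c).a₆| ≤ 2 ^ height c := by
  have h : ∀ {z : ℤ}, z.natAbs ≤ height c → |z| ≤ 2 ^ height c := fun hz => by
    rw [Int.abs_eq_natAbs]
    exact_mod_cast hz.trans Nat.lt_two_pow_self.le
  exact ⟨h (by simp only [curve, height]; omega), h (by simp only [curve, height]; omega),
    h (by simp only [curve, height]; omega), h (by simp only [curve, height]; omega),
    h (by simp only [curve, height]; omega)⟩

theorem mem_integralPoints {c : Coeffs} (hΔ : (curve c).Δ ≠ 0) (p : ℤ × ℤ) :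
    p ∈ integralPoints c ↔ OnCurve p c := by
  simp only [integralPoints, List.mem_filter, decide_eq_true_eq]
  refine ⟨fun h => h.2, fun h => ⟨?_, h⟩⟩
  obtain ⟨k1, k2, k3, k4, k6⟩ := height_le c
  obtain ⟨⟨hx, -⟩, hy, -⟩ := sIntegral_bound (g := 0) hΔ k1 k2 k3 k4 k6 (x := (p.1 : ℚ))
    (y := (p.2 : ℚ)) (by unfold OnCurve at h; exact_mod_cast h)
    (fun q hq hd => absurd (by simpa using hd) hq.one_lt.ne')
  rw [Rat.num_intCast] at hx hy
  exact mem_intBox hx hy

/-- A pair of reduced fractions is a point with small denominator primes in `x`. -/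
def OnCurveRat (p : (ℤ × ℕ) × (ℤ × ℕ)) (t : Coeffs × ℕ) : Prop :=
  Reduced p.1 ∧ Reduced p.2 ∧ SmallPrimes p.1.2 t.2 ∧
    (p.2.1 ^ 2 * (p.1.2 : ℤ) ^ 3 + (curve t.1).a₁ * p.1.1 * p.2.1 * (p.1.2 : ℤ) ^ 2 * p.2.2 +
        (curve t.1).a₃ * p.2.1 * p.2.2 * (p.1.2 : ℤ) ^ 3 =
      (p.1.1 ^ 3 + (curve t.1).a₂ * p.1.1 ^ 2 * p.1.2 + (curve t.1).a₄ * p.1.1 * (p.1.2 : ℤ) ^ 2 +
        (curve t.1).a₆ * (p.1.2 : ℤ) ^ 3) * (p.2.2 : ℤ) ^ 2)

instance : DecidableRel OnCurveRat := fun p t => by unfold OnCurveRat; infer_instance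

theorem onCurveRat_rel : PrimrecRel OnCurveRat := by
  have hp : Primrec fun t : ((ℤ × ℕ) × (ℤ × ℕ)) × (Coeffs × ℕ) => t.1 := Primrec.fst
  have hc : Primrec fun t : ((ℤ × ℕ) × (ℤ × ℕ)) × (Coeffs × ℕ) => t.2.1 :=
    Primrec.fst.comp Primrec.snd
  have hX := Primrec.fst.comp hp
  have hY := Primrec.snd.comp hp
  have xn := IntRec.of_primrec (Primrec.fst.comp hX)
  have yn := IntRec.of_primrec (Primrec.fst.comp hY)
  have xd := IntRec.natCast (Primrec.snd.comp hX)
  have yd := IntRec.natCast (Primrec.snd.comp hY)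
  have s2 := Primrec.snd.comp hc
  have s3 := Primrec.snd.comp s2
  have s4 := Primrec.snd.comp s3
  have e := ((yn.sq.mul xd.cube).add
    ((((IntRec.of_primrec (Primrec.fst.comp hc)).mul xn).mul yn).mul xd.sq |>.mul yd) |>.add
    ((((IntRec.of_primrec (Primrec.fst.comp s3)).mul yn).mul yd).mul xd.cube)).eq_pred
    ((xn.cube.add (((IntRec.of_primrec (Primrec.fst.comp s2)).mul xn.sq).mul xd) |>.add
      (((IntRec.of_primrec (Primrec.fst.comp s4)).mul xn).mul xd.sq) |>.add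
      ((IntRec.of_primrec (Primrec.snd.comp s4)).mul xd.cube)).mul yd.sq)
  exact (reduced_pred.comp hX).and ((reduced_pred.comp hY).and
    ((smallPrimes_rel.comp (Primrec.snd.comp hX) (Primrec.snd.comp Primrec.snd)).and e))

/-- **The `S`-integral points, found by search**, as reduced fractions. -/
def sIntegralPointList (t : Coeffs × ℕ) : List ((ℤ × ℕ) × (ℤ × ℕ)) :=
  (ratBox (sIntegralBound (height t.1) t.2)).filter fun p => decide (OnCurveRat p t)

theorem primrec_sIntegralPointList : Primrec sIntegralPointList :=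
  (PrimrecRel.listFilter onCurveRat_rel).comp (primrec_ratBox.comp
    (PrimrecBounds.sIntegralBound (primrec_height.comp Primrec.fst) Primrec.snd)) Primrec.id

theorem onCurveRat_iff (x y : ℚ) (t : Coeffs × ℕ) :
    OnCurveRat ((x.num, x.den), (y.num, y.den)) t ↔
      (∀ q : ℕ, q.Prime → q ∣ x.den → q ≤ 2 ^ t.2) ∧
        y ^ 2 + (curve t.1).a₁ * x * y + (curve t.1).a₃ * y =
          x ^ 3 + (curve t.1).a₂ * x ^ 2 + (curve t.1).a₄ * x + (curve t.1).a₆ := by
  simp only [OnCurveRat, smallPrimes_iff x.den_nz]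
  rw [iff_true_intro ((reduced_iff (x.num, x.den)).2 ⟨x, rfl, rfl⟩),
    iff_true_intro ((reduced_iff (y.num, y.den)).2 ⟨y, rfl, rfl⟩), true_and, true_and]
  refine and_congr_right fun _ => ?_
  have hx : (x.den : ℚ) ≠ 0 := Nat.cast_ne_zero.2 x.den_nz
  have hy : (y.den : ℚ) ≠ 0 := Nat.cast_ne_zero.2 y.den_nz
  rw [← Int.cast_inj (α := ℚ)]
  push_cast
  rw [← Rat.mul_den_eq_num x, ← Rat.mul_den_eq_num y]
  constructor <;> intro h
  · refine mul_right_cancel₀ (mul_ne_zero (pow_ne_zero 3 hx) (pow_ne_zero 2 hy)) ?_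
    linear_combination h
  · linear_combination (x.den : ℚ) ^ 3 * (y.den : ℚ) ^ 2 * h

theorem mem_sIntegralPointList {t : Coeffs × ℕ} (hΔ : (curve t.1).Δ ≠ 0)
    (p : (ℤ × ℕ) × (ℤ × ℕ)) : p ∈ sIntegralPointList t ↔
      ∃ x y : ℚ, p = ((x.num, x.den), (y.num, y.den)) ∧
        (∀ q : ℕ, q.Prime → q ∣ x.den → q ≤ 2 ^ t.2) ∧
        y ^ 2 + (curve t.1).a₁ * x * y + (curve t.1).a₃ * y =
          x ^ 3 + (curve t.1).a₂ * x ^ 2 + (curve t.1).a₄ * x + (curve t.1).a₆ := by
  simp only [sIntegralPointList, List.mem_filter, decide_eq_true_eq]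
  constructor
  · rintro ⟨-, h⟩
    obtain ⟨x, hx1, hx2⟩ := (reduced_iff _).1 h.1
    obtain ⟨y, hy1, hy2⟩ := (reduced_iff _).1 h.2.1
    have hp : p = ((x.num, x.den), (y.num, y.den)) := by rw [hx1, hx2, hy1, hy2]
    exact ⟨x, y, hp, (onCurveRat_iff x y t).1 (hp ▸ h)⟩
  · rintro ⟨x, y, rfl, hg, he⟩
    refine ⟨?_, (onCurveRat_iff x y t).2 ⟨hg, he⟩⟩
    obtain ⟨k1, k2, k3, k4, k6⟩ := height_le t.1
    obtain ⟨⟨hx, hx'⟩, hy, hy'⟩ := sIntegral_bound hΔ k1 k2 k3 k4 k6 he hg
    exact mem_ratBox hx hx' hy hy'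

/-- The discriminant of a short model is not zero. -/
def IsModel (p : ℤ × ℤ) (_ : Unit) : Prop := ¬(4 * p.1 ^ 3 + 27 * p.2 ^ 2 = 0)

instance : DecidableRel IsModel := fun p u => by unfold IsModel; infer_instance

theorem isModel_rel : PrimrecRel IsModel :=
  ((((IntRec.const 4).mul (IntRec.of_primrec (u := fun t : (ℤ × ℤ) × Unit => t.1.1)
    (Primrec.fst.comp Primrec.fst)).cube).add ((IntRec.const 27).mul
    (IntRec.of_primrec (u := fun t : (ℤ × ℤ) × Unit => t.1.2)
      (Primrec.snd.comp Primrec.fst)).sq)).eq_pred (IntRec.const 0)).not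

/-- **Shafarevich's models, listed.** -/
def shafarevichModels (g : ℕ) : List (ℤ × ℤ) :=
  (intBox (shafarevichBound g)).filter fun p => decide (IsModel p ())

theorem primrec_shafarevichModels : Primrec shafarevichModels :=
  (PrimrecRel.listFilter isModel_rel).comp
    (primrec_intBox.comp (PrimrecBounds.shafarevichBound Primrec.id)) (Primrec.const ())

open WeierstrassCurve in
theorem exists_mem_shafarevichModels {g : ℕ} (E : WeierstrassCurve ℚ) [E.IsElliptic]
    (hE : ∀ p : ℕ, ∀ [Fact p.Prime], 2 ^ g < p → ∃ C : VariableChange ℚ_[p],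
      HasGoodReduction ℤ_[p] (C • E.map (algebraMap ℚ ℚ_[p]))) :
    ∃ p ∈ shafarevichModels g, ∃ C : VariableChange ℚ,
      C • E = ⟨0, 0, 0, (p.1 : ℚ), (p.2 : ℚ)⟩ := by
  obtain ⟨C, A, B, hC, hA, hB⟩ := effective_shafarevich E hE
  refine ⟨(A, B), List.mem_filter.2 ⟨mem_intBox (QuarticValues.natAbs_le_two_pow hA)
    (QuarticValues.natAbs_le_two_pow hB), ?_⟩, C, hC⟩
  exact decide_eq_true (discriminant_ne_zero _ hC)

end FA.BakerExplicit.Algorithms

end
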