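import Fermat.Agent.BakerExplicit.SignDichotomy

/-!
# The sign of an integer recurrence of order four along progressions

Along every progression with step `positivityStep` the terms are either nonnegative from an
explicit index on or negative somewhere in every window of explicit length from there.
-/

set_option autoImplicit false

noncomputable section

namespace FA.BakerExplicit.Positivity

open Finset NumberField Module GeneratedField TernaryRecurrence FourTerms ComplexConjugate

/-- **The field of bounded numbers closed under conjugation.** -/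
theorem exists_conj_field {q d h : ℕ} (hd : 1 ≤ d) (r : Fin q → ℂ)
    (hr : ∀ i, BoundedRoot d h (r i)) (hclosed : ∀ i, ∃ j, r j = conj (r i)) :
    ∃ (L : IntermediateField ℚ ℂ) (_ : NumberField L) (z : Fin q → 𝓞 L) (c : 𝓞 L →+* 𝓞 L),
      (∀ i, ((z i : L) : ℂ) = r i) ∧ (∀ i, HouseLe h (z i)) ∧ finrank ℚ L ≤ d ^ q ∧
        ConjPair (algebraMap L ℂ) c := by
  obtain ⟨L, hNF, z, hz, hmin, hdeg, -⟩ := exists_field hd r hr
  have hsub := hmin (L.comap (starRingEnd ℂ).toRatAlgHom) fun i => by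
    obtain ⟨j, hj⟩ := hclosed i
    show conj (r i) ∈ L
    rw [← hj, ← hz j]
    exact SetLike.coe_mem _
  set cL : L →+* L :=
    { toFun := fun x => ⟨conj (x : ℂ), hsub x.2⟩
      map_one' := Subtype.ext (map_one (starRingEnd ℂ))
      map_mul' := fun x y => Subtype.ext (map_mul (starRingEnd ℂ) (x : ℂ) y)
      map_zero' := Subtype.ext (map_zero (starRingEnd ℂ))
      map_add' := fun x y => Subtype.ext (map_add (starRingEnd ℂ) (x : ℂ) y) }
  refine ⟨L, hNF, z, RingOfIntegers.mapRingHom cL, hz, fun i σ => ?_, hdeg, fun x => rfl,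
    fun {T x} hx σ => hx (σ.comp cL)⟩
  obtain ⟨P, -, -, hP0, hPb⟩ := hr i
  refine hPb _ ?_
  have h0 : Polynomial.aeval (z i : L) P = 0 := by
    refine (algebraMap L ℂ).injective ?_
    rw [map_zero, ← Polynomial.aeval_algebraMap_apply,
      show algebraMap L ℂ (z i : L) = r i from hz i]
    exact hP0
  rw [show σ (z i : L) = σ.toIntAlgHom (z i : L) from rfl, Polynomial.aeval_algHom_apply, h0,
    map_zero]

variable {K : Type*} [Field K] [NumberField K]

omit [NumberField K] in
theorem count_ofFn_four (z : Fin 4 → 𝓞 K) (x : 𝓞 K) [DecidableEq (𝓞 K)] :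
    (List.ofFn z).count x = #(univ.filter fun i => z i = x) := by
  rw [Finset.card_filter, Fin.sum_univ_four]
  simp [List.ofFn_succ, List.count_cons]
  ring

/-- The size of the numbers in the combination. -/
def signHeight (B h M : ℕ) : ℕ := 2 * B + h * (M + 4) + 3

open Classical in
/-- **The sign along a progression.** -/
theorem combination_sign {d B h N M n₀ : ℕ} (hd : finrank ℚ K ≤ d) (hN : N = rootPeriod d)
    (hM : M = 2 * N) (hn4 : 4 ≤ n₀) (hnM : n₀ ≤ M + 4) {σ : K →+* ℂ} {c : 𝓞 K →+* 𝓞 K}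
    (hc : ConjPair σ c) {z : Fin 4 → 𝓞 K} (hz : ∀ i, HouseLe h (z i))
    (hclosed : ∀ i, ∃ j, c (z i) = z j) {D : 𝓞 K} (hD : D ≠ 0) (hDh : HouseLe B D)
    {a : 𝓞 K → ℕ → 𝓞 K} (ha : ∀ x j, HouseLe B (a x j))
    (hmult : ∀ x j, (List.ofFn z).count x ≤ j → a x j = 0) {u : ℕ → ℤ}
    (hu : ∀ n, D * (u n : 𝓞 K) = ∑ x ∈ univ.image z, ∑ j ∈ range 4, a x j * expTerm x j n) :
    (∀ i, signStart d (signHeight B h M) M ≤ i → 0 ≤ u (n₀ + M * i)) ∨
      ∀ i₀, signStart d (signHeight B h M) M ≤ i₀ → ∃ i, i₀ ≤ i ∧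
        i ≤ i₀ + signWindow d (signHeight B h M) ∧ u (n₀ + M * i) < 0 := by
  set H := signHeight B h M with hH
  have hN0 : 0 < N := hN ▸ rootPeriod_pos d
  have hMpos : 1 ≤ M := by omega
  have hcinj : Function.Injective c := Function.Involutive.injective hc.involutive
  have hS : ∀ x ∈ univ.image z, c x ∈ univ.image z := fun x hx => by
    obtain ⟨i, -, rfl⟩ := mem_image.1 hx
    obtain ⟨j, hj⟩ := hclosed i
    exact mem_image.2 ⟨j, mem_univ j, hj.symm⟩
  set a' : 𝓞 K → ℕ → 𝓞 K := fun x j => c D * a x j + c (c D * a (c x) j) with ha'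
  have hsym : ∀ x j, a' (c x) j = c (a' x j) := fun x j => by
    simp only [ha', map_add, map_mul, hc.involutive]
    ring
  have ha'h : ∀ x j, HouseLe (2 * B + 1) (a' x j) := fun x j =>
    house_add (((hc.house hDh).mul (ha x j)).mono (by omega))
      ((hc.house ((hc.house hDh).mul (ha (c x) j))).mono (by omega))
  have hu' : ∀ n, 2 * (c D * D) * (u n : 𝓞 K) =
      ∑ x ∈ univ.image z, ∑ j ∈ range 4, a' x j * expTerm x j n := fun n => by
    have e1 : c D * D * (u n : 𝓞 K) =
        ∑ x ∈ univ.image z, ∑ j ∈ range 4, c D * a x j * expTerm x j n := by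
      rw [mul_assoc, hu n]
      simp only [mul_sum, mul_assoc]
    have e2 : c D * D * (u n : 𝓞 K) =
        ∑ x ∈ univ.image z, ∑ j ∈ range 4, c (c D * a (c x) j) * expTerm x j n := by
      have h2 := congrArg c e1
      rw [map_mul, map_mul, map_intCast, hc.involutive, mul_comm D] at h2
      rw [h2, map_sum]
      refine sum_nbij' c c hS hS (fun x _ => hc.involutive x) (fun x _ => hc.involutive x)
        fun x _ => ?_
      simp only [map_sum, map_mul, expTerm, map_natCast, map_pow, hc.involutive]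
    rw [mul_assoc, two_mul]
    conv_lhs => arg 1; rw [e1]
    rw [e2, ← sum_add_distrib]
    refine sum_congr rfl fun x _ => ?_
    rw [← sum_add_distrib]
    simp only [ha', add_mul]
  set S := (univ.image z).filter (fun x : 𝓞 K => x ≠ 0) with hSdef
  have hSc : ∀ x ∈ S, c x ∈ S := fun x hx => mem_filter.2
    ⟨hS x (mem_filter.1 hx).1, fun h0 => (mem_filter.1 hx).2 (hcinj (by rw [h0, map_zero]))⟩
  have hSh : ∀ x ∈ S, x ≠ 0 ∧ HouseLe h x := fun x hx => by
    obtain ⟨h1, h2⟩ := mem_filter.1 hx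
    obtain ⟨i, -, rfl⟩ := mem_image.1 h1
    exact ⟨h2, hz i⟩
  set G := S.image (fun x => x ^ M) with hG
  set F : 𝓞 K → Finset (𝓞 K) := fun g => S.filter (fun x => x ^ M = g) with hF
  set b : 𝓞 K → ℕ → 𝓞 K := fun g j => ∑ x ∈ F g, a' x j * x ^ (n₀ - j) with hb
  have hper : ∀ {x y : 𝓞 K}, y ≠ 0 → x ^ M ≠ y ^ M → Independent x y := fun {x y} hy hne =>
    independent_of_period hd hy fun h0 => hne (by
      rw [hM, mul_comm, pow_mul, pow_mul, hN, h0])
  have hcard : #(univ.image z) ≤ 4 := card_image_le.trans (by simp)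
  have hdata : SignData d H M n₀ σ c G b := by
    refine ⟨hd, hc, hMpos, hn4, hnM, card_image_le.trans ((card_filter_le _ _).trans hcard),
      fun g hg => ?_, fun g hg => ?_, fun g j => ?_, fun g hg g' hg' hne => ?_, fun g hg => ?_,
      fun g hg j => ?_, fun g hg hgc => ?_, fun g hg hgc g' hg' hgc' j hj1 hj4 hbg hbg' => ?_⟩
    · obtain ⟨x, hx, rfl⟩ := mem_image.1 hg
      exact pow_ne_zero M (hSh x hx).1
    · obtain ⟨x, hx, rfl⟩ := mem_image.1 hg
      refine (house_pow (hSh x hx).2 M).mono ?_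
      simp only [hH, signHeight, mul_add]
      omega
    · refine (house_sum (k := 2) (T := 2 * B + 1 + h * (M + 4))
        (((card_filter_le _ _).trans ((card_filter_le _ _).trans hcard)).trans (by norm_num))
        fun x hx => ?_).mono (by simp only [hH, signHeight]; omega)
      refine ((ha'h x j).mul (house_pow (hSh x (mem_filter.1 hx).1).2 _)).mono ?_
      exact Nat.add_le_add_left (Nat.mul_le_mul_left h (by omega)) _
    · obtain ⟨x, hx, rfl⟩ := mem_image.1 hg
      obtain ⟨y, hy, rfl⟩ := mem_image.1 hg'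
      intro i hi h0
      rw [← pow_mul, ← pow_mul] at h0
      exact hper (hSh y hy).1 hne (M * i) (Nat.mul_pos hMpos hi) h0
    · obtain ⟨x, hx, rfl⟩ := mem_image.1 hg
      exact mem_image.2 ⟨c x, hSc x hx, (map_pow c x M).symm⟩
    · simp only [hb, map_sum, map_mul, map_pow]
      have hFc : ∀ {g x}, x ∈ F g → c x ∈ F (c g) := fun {g x} hx => by
        obtain ⟨h1, h2⟩ := mem_filter.1 hx
        exact mem_filter.2 ⟨hSc x h1, by rw [← map_pow, h2]⟩
      refine sum_nbij' c c (fun x hx => by have := hFc hx; rwa [hc.involutive] at this)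
        (fun x hx => hFc hx) (fun x _ => hc.involutive x) (fun x _ => hc.involutive x)
        fun x _ => ?_
      rw [← hsym, hc.involutive]
    · obtain ⟨x, hx, rfl⟩ := mem_image.1 hg
      have hcx : c x ^ N = x ^ N := by_contra fun hne => by
        refine (independent_of_period hd (hSh x hx).1 (hN ▸ hne)) M hMpos ?_
        rw [← map_pow]
        exact hgc
      have h1 : conj (σ (x : K) ^ N) = σ (x : K) ^ N := by
        have h2 := congrArg (fun t : 𝓞 K => σ (t : K)) hcx
        simp only [map_pow, hc.map_conj] at h2 ⊢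
        exact h2
      have hne : σ (x : K) ^ N ≠ 0 :=
        pow_ne_zero N ((map_ne_zero σ).2 (RingOfIntegers.coe_ne_zero_iff.2 (hSh x hx).1))
      obtain ⟨r, hr⟩ := Complex.conj_eq_iff_real.1 h1
      have e : σ ((x ^ M : 𝓞 K) : K) = ((r ^ 2 : ℝ) : ℂ) := by
        simp only [map_pow]
        rw [hM, mul_comm, pow_mul, hr, Complex.ofReal_pow]
      rw [e, Complex.ofReal_re]
      exact sq_pos_of_ne_zero fun h0 => hne (by rw [hr, h0, Complex.ofReal_zero])
    · set S' : 𝓞 K → Finset (Fin 4) := fun g => univ.filter (fun i => z i ^ M = g) with hS'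
      have hne1 : ∀ g ∈ G, 1 ≤ #(S' g) := fun g hg => by
        obtain ⟨x, hx, rfl⟩ := mem_image.1 hg
        obtain ⟨i, -, rfl⟩ := mem_image.1 (mem_filter.1 hx).1
        exact card_pos.2 ⟨i, mem_filter.2 ⟨mem_univ i, rfl⟩⟩
      have htwo : ∀ g, b g j ≠ 0 → 2 ≤ #(S' g) ∨ 2 ≤ #(S' (c g)) := fun g hbg => by
        obtain ⟨x, hx, hx0⟩ := exists_ne_zero_of_sum_ne_zero hbg
        have hxg := (mem_filter.1 hx).2
        have hcnt : ∀ {y}, a y j ≠ 0 → 2 ≤ #(S' (y ^ M)) := fun {y} hy => by
          have h1 : j < (List.ofFn z).count y := not_le.1 fun h0 => hy (hmult y j h0)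
          rw [count_ofFn_four] at h1
          refine le_trans (by omega)
            (card_le_card (s := univ.filter fun i => z i = y) fun i hi => ?_)
          exact mem_filter.2 ⟨mem_univ i, by rw [(mem_filter.1 hi).2]⟩
        by_cases h1 : a x j = 0
        · refine Or.inr ?_
          have h2 : a (c x) j ≠ 0 := fun h0 => hx0 (by simp [ha', h1, h0])
          simpa only [← map_pow, hxg] using hcnt h2
        · exact Or.inl (hxg ▸ hcnt h1)
      have hg₀ : 2 ≤ #(S' g) := (htwo g hbg).elim id fun h1 => by rwa [hgc] at h1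
      have hcg' : c g' ∈ G := by
        obtain ⟨x, hx, rfl⟩ := mem_image.1 hg'
        exact mem_image.2 ⟨c x, hSc x hx, (map_pow c x M).symm⟩
      have hd1 : g ≠ g' := fun h0 => hgc' (h0 ▸ hgc)
      have hd2 : g ≠ c g' := fun h0 => hgc' (by
        conv_rhs => rw [← hc.involutive g', ← h0, hgc]
        exact h0.symm)
      have hdisj : ∀ {g g' : 𝓞 K}, g ≠ g' → Disjoint (S' g) (S' g') := fun {g g'} hne =>
        disjoint_left.2 fun i hi hi' => hne ((mem_filter.1 hi).2.symm.trans (mem_filter.1 hi').2)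
      have htot := card_le_univ (S' g ∪ S' g' ∪ S' (c g'))
      rw [card_union_of_disjoint (disjoint_union_left.2 ⟨hdisj hd2, hdisj hgc'.symm⟩),
        card_union_of_disjoint (hdisj hd1), Fintype.card_fin] at htot
      have := hne1 g' hg'
      have := hne1 (c g') hcg'
      rcases htwo g' hbg' with h1 | h1 <;> omega
  have hval : ∀ i, 2 * ‖σ (D : K)‖ ^ 2 * (u (n₀ + M * i) : ℝ) =
      (σ (progSum G b n₀ M i : K)).re := fun i => by
    set n := n₀ + M * i with hn
    have e : progSum G b n₀ M i = ∑ x ∈ univ.image z, ∑ j ∈ range 4, a' x j * expTerm x j n := by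
      rw [← sum_subset (filter_subset (fun x : 𝓞 K => x ≠ 0) (univ.image z)) (fun x hx hx' => by
        have h0 : x = 0 := by_contra fun h0 => hx' (mem_filter.2 ⟨hx, h0⟩)
        refine sum_eq_zero fun j hj => ?_
        rw [mem_range] at hj
        rw [expTerm, h0, zero_pow (by omega : n - j ≠ 0), mul_zero, mul_zero]), ← hSdef,
        ← sum_fiberwise_of_maps_to (fun x hx => show x ^ M ∈ G from mem_image_of_mem _ hx)]
      refine sum_congr rfl fun g _ => ?_
      simp only [hb, sum_mul]
      rw [sum_comm]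
      refine sum_congr rfl fun x hx => sum_congr rfl fun j hj => ?_
      rw [mem_range] at hj
      rw [expTerm, show n - j = (n₀ - j) + M * i by omega, pow_add, pow_mul,
        (mem_filter.1 hx).2, ← hn]
      ring
    have h3 : σ (progSum G b n₀ M i : K) = ((2 * ‖σ (D : K)‖ ^ 2 * (u n : ℝ) : ℝ) : ℂ) := by
      rw [e, ← hu']
      simp only [map_mul, map_ofNat, map_intCast, hc.map_conj, Complex.conj_mul']
      push_cast
      ring
    rw [h3, Complex.ofReal_re]
  have hpos : 0 < 2 * ‖σ (D : K)‖ ^ 2 := by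
    have : σ (D : K) ≠ 0 := (map_ne_zero σ).2 (RingOfIntegers.coe_ne_zero_iff.2 hD)
    positivity
  rcases sign_dichotomy hdata with h1 | h1
  · refine Or.inl fun i hi => ?_
    have h2 := h1 i hi
    rw [← hval] at h2
    exact_mod_cast (nonneg_of_mul_nonneg_right h2 hpos : (0 : ℝ) ≤ u (n₀ + M * i))
  · refine Or.inr fun i₀ hi₀ => ?_
    obtain ⟨i, hi1, hi2, hi3⟩ := h1 i₀ hi₀
    refine ⟨i, hi1, hi2, ?_⟩
    rw [← hval] at hi3
    exact_mod_cast (neg_of_mul_neg_right hi3 hpos.le : (u (n₀ + M * i) : ℝ) < 0)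

/-- The step of the progressions. -/
def positivityStep : ℕ := 2 * rootPeriod 256

/-- The size for data at most `2 ^ k`. -/
def positivityHeight (k : ℕ) : ℕ :=
  signHeight (closedBound (k + 4) 4 k) (k + 4) positivityStep

/-- The index from which the sign along a progression is decided. -/
def positivityStart (k : ℕ) : ℕ := signStart 256 (positivityHeight k) positivityStep

/-- The length of a window with a negative term. -/
def positivityWindow (k : ℕ) : ℕ := signWindow 256 (positivityHeight k)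

theorem positivityStep_pos : 0 < positivityStep :=
  Nat.mul_pos two_pos (rootPeriod_pos _)

open Polynomial in
/-- **The sign of a recurrence along a progression.** -/
theorem quaternary_sign {P Q R S : ℤ} {u : ℕ → ℤ} {k : ℕ} (hP : P.natAbs ≤ 2 ^ k)
    (hQ : Q.natAbs ≤ 2 ^ k) (hR : R.natAbs ≤ 2 ^ k) (hS : S.natAbs ≤ 2 ^ k)
    (hu : ∀ n, u (n + 4) = P * u (n + 3) + Q * u (n + 2) + R * u (n + 1) + S * u n)
    (h0 : ∀ i < 4, (u i).natAbs ≤ 2 ^ k) {n₀ : ℕ} (hn4 : 4 ≤ n₀)
    (hnM : n₀ ≤ positivityStep + 4) :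
    (∀ i, positivityStart k ≤ i → 0 ≤ u (n₀ + positivityStep * i)) ∨
      ∀ i₀, positivityStart k ≤ i₀ → ∃ i, i₀ ≤ i ∧ i ≤ i₀ + positivityWindow k ∧
        u (n₀ + positivityStep * i) < 0 := by
  classical
  obtain ⟨α, β, γ, δ, h1, h2, h3, h4⟩ := exists_four_roots P Q R S
  obtain ⟨hfm, hfd, hfk⟩ := charPoly_four hP hQ hR hS
  set p : ℤ[X] := X ^ 4 - C P * X ^ 3 - C Q * X ^ 2 - C R * X - C S with hp
  set r : Fin 4 → ℂ := ![α, β, γ, δ] with hr
  have hfac : ∀ w : ℂ, aeval w p = (w - α) * (w - β) * (w - γ) * (w - δ) := fun w => by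
    simp only [hp, map_sub, map_pow, map_mul, aeval_X, eq_intCast, map_intCast]
    linear_combination w ^ 3 * h1 - w ^ 2 * h2 + w * h3 - h4
  have hroot : ∀ i, aeval (r i) p = 0 := fun i => by
    rw [hfac]
    fin_cases i <;> simp [hr]
  have hclosed : ∀ i, ∃ j, r j = conj (r i) := fun i => by
    have h5 : aeval (conj (r i)) p = 0 := by
      rw [show conj (r i) = (starRingEnd ℂ).toIntAlgHom (r i) from rfl, aeval_algHom_apply,
        hroot i, map_zero]
    rw [hfac] at h5
    simp only [mul_eq_zero, sub_eq_zero] at h5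
    rcases h5 with ((h5 | h5) | h5) | h5
    exacts [⟨0, h5.symm⟩, ⟨1, h5.symm⟩, ⟨2, h5.symm⟩, ⟨3, h5.symm⟩]
  obtain ⟨L, hNF, z, c, hz, hzh, hdeg, hc⟩ := exists_conj_field (by norm_num) r
    (fun i => BoundedRoot.of_polynomial hfm hfd hfk (hroot i)) hclosed
  set φ : 𝓞 L →+* ℂ := (algebraMap L ℂ).comp (algebraMap (𝓞 L) L) with hφ
  have hφinj : Function.Injective φ :=
    (algebraMap L ℂ).injective.comp RingOfIntegers.coe_injective
  have hφz : ∀ i, φ (z i) = r i := hz
  have e1 : z 0 + z 1 + z 2 + z 3 = (P : 𝓞 L) := hφinj (by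
    simp only [map_add, map_intCast, hφz]; simpa [hr] using h1)
  have e2 : z 0 * z 1 + z 0 * z 2 + z 0 * z 3 + z 1 * z 2 + z 1 * z 3 + z 2 * z 3 = -(Q : 𝓞 L) :=
    hφinj (by simp only [map_add, map_mul, map_neg, map_intCast, hφz]; simpa [hr] using h2)
  have e3 : z 0 * z 1 * z 2 + z 0 * z 1 * z 3 + z 0 * z 2 * z 3 + z 1 * z 2 * z 3 = (R : 𝓞 L) :=
    hφinj (by simp only [map_add, map_mul, map_intCast, hφz]; simpa [hr] using h3)
  have e4 : z 0 * z 1 * z 2 * z 3 = -(S : 𝓞 L) := hφinj (by
    simp only [map_mul, map_neg, map_intCast, hφz]; simpa [hr] using h4)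
  have hann : Annihilates (List.ofFn z) fun m => (u m : 𝓞 L) := by
    simp only [List.ofFn_succ, List.ofFn_zero, Annihilates, Fin.succ_zero_eq_one]
    intro m
    have := congrArg (Int.cast (R := 𝓞 L)) (hu m)
    push_cast at this
    simp only [show m + 1 + 1 + 1 + 1 = m + 4 by omega, show m + 1 + 1 + 1 = m + 3 by omega,
      show m + 1 + 1 = m + 2 by omega,
      show (Fin.succ 1 : Fin 4) = 2 from rfl, show (Fin.succ (Fin.succ 1) : Fin 4) = 3 from rfl]
    linear_combination this - (u (m + 3) : 𝓞 L) * e1 + (u (m + 2) : 𝓞 L) * e2 -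
      (u (m + 1) : 𝓞 L) * e3 + (u m : 𝓞 L) * e4
  have hval : ∀ i < (List.ofFn z).length, HouseLe k ((u i : 𝓞 L)) := fun i hi σ => by
    rw [List.length_ofFn] at hi
    simp only [map_intCast, Complex.norm_intCast]
    rw [← Int.cast_abs, ← Int.natCast_natAbs, Int.cast_natCast]
    exact_mod_cast h0 i hi
  obtain ⟨D, a, hD, hDh, hah, hmult, heq⟩ := exists_closed_form (k + 4) (List.ofFn z)
    (by simp) (fun x hx => by
      obtain ⟨i, rfl⟩ := List.mem_ofFn.1 hx
      exact hzh i) _ k hann hval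
  rw [List.length_ofFn] at hah hDh
  have hset : (List.ofFn z).toFinset = univ.image z := by
    ext x
    simp [Fin.exists_fin_succ, eq_comm]
  exact combination_sign (σ := algebraMap L ℂ) (d := 256) (hdeg.trans (by norm_num)) rfl rfl hn4
    hnM hc hzh (fun i => by
      obtain ⟨j, hj⟩ := hclosed i
      refine ⟨j, hφinj ?_⟩
      show algebraMap L ℂ (c (z i) : L) = algebraMap L ℂ (z j : L)
      rw [hc.map_conj, show algebraMap L ℂ (z j : L) = r j from hz j,
        show algebraMap L ℂ (z i : L) = r i from hz i, hj])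
    hD hDh hah hmult fun n => by rw [heq n, hset]

end FA.BakerExplicit.Positivity

end
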