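import Fermat.Agent.BakerExplicit.QuaternaryRecurrence
import Fermat.Agent.BakerExplicit.ReductionTest
import Fermat.Agent.BakerExplicit.FormSearch

/-!
# Skolem's problem in order four, by search

The zeros below `quaternaryBound + quaternaryPeriod` determine all the zeros.
-/

set_option autoImplicit false

noncomputable section

namespace FA.BakerExplicit.PrimrecBounds

open FourTerms

variable {α : Type*} [Primcodable α] {f g h : α → ℕ}

theorem baseAlg {i : α → ℕ} (hf : Primrec f) (hg : Primrec g) (hh : Primrec h) (hi : Primrec i) :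
    Primrec fun a => BakerExplicit.baseAlg (f a) (g a) (h a) (i a) :=
  mul (mul (pow (num 2) (add (mul (num 4) (pow hf (num 2))) (num 18))) hg) (add hh hi)

theorem partHeight (hf : Primrec f) (hg : Primrec g) (hh : Primrec h) :
    Primrec fun a => FourTerms.partHeight (f a) (g a) (h a) :=
  add (mul hh (pow (num 2) (classExp hf hg))) (mul (num 2) (reducedSize hf (unitBound hf hg)
    (mul (mul hh hf) (pow (num 2) (classExp hf hg)))))

theorem placePrime (hf : Primrec f) (hg : Primrec g) (hh : Primrec h) :
    Primrec fun a => FourTerms.placePrime (f a) (g a) (h a) :=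
  mul (partHeight hf hg hh) hf

theorem archWeight (hf : Primrec f) (hh : Primrec h) :
    Primrec fun a => FourTerms.archWeight (f a) (h a) :=
  add (add (mul hh hf) (num 1)) (pow (baseAlg (num 3) hf
    (add (add (mul (mul (num 2) hh) hf) (mul (num 2) hh)) (num 4)) (num 4)) (kappa (num 3)))

theorem padicWeight {i : α → ℕ} (hf : Primrec f) (hg : Primrec g) (hh : Primrec h)
    (hi : Primrec i) : Primrec fun a => FourTerms.padicWeight (f a) (g a) (h a) (i a) :=
  add (add (add (mul hh hf) hf) (num 1)) (mul (num 2) (pow (baseAlg (num 4) hf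
    (add (mul (pow (num 2) (mul (num 3) (mul hi hf))) (partHeight hf hg hh)) (num 1)) (num 1))
    (kappa (num 4))))

theorem placeLoss (hf : Primrec f) (hg : Primrec g) (hh : Primrec h) :
    Primrec fun a => FourTerms.placeLoss (f a) (g a) (h a) :=
  have hp := placePrime hf hg hh
  add (add (mul hh (mul hf (add hp (num 1)))) (archWeight hf hh))
    (mul hp (padicWeight hf hg hh hp))

theorem placeGap (hf : Primrec f) (hg : Primrec g) (hh : Primrec h) :
    Primrec fun a => FourTerms.placeGap (f a) (g a) (h a) :=
  add (pow (num 2) (add (add (mul (add (mul (num 2) hh) (num 1)) (pow hf (num 4)))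
    (mul (num 2) hh)) (num 1)))
    (mul (pow (num 2) (classExp hf hg)) (pow (num 2) (mul (placePrime hf hg hh) hf)))

theorem indexBound (hf : Primrec f) : Primrec fun a => FourTerms.indexBound (f a) :=
  mul (mul (num 2) (pow (mul (num 2) (kappa (num 4))) (mul (num 2) (kappa (num 4)))))
    (pow hf (num 2))

theorem largeIndex (hf : Primrec f) (hg : Primrec g) (hh : Primrec h) :
    Primrec fun a => FourTerms.largeIndex (f a) (g a) (h a) :=
  indexBound (mul (add (add (placeLoss hf hg hh) hh) (num 3)) (placeGap hf hg hh))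

theorem fourBound (hf : Primrec f) (hg : Primrec g) (hh : Primrec h) :
    Primrec fun a => FourTerms.fourBound (f a) (g a) (h a) :=
  have hd' : Primrec fun a => quadDegree (f a) := pow (mul (num 2) hf) (num 5)
  have he' : Primrec fun a => quadDisc (f a) (h a) :=
    discExp (mul (num 2) hf) (num 5) (add (mul (num 2) hh) (num 4))
  have hh' := add (mul (num 2) hh) (num 5)
  have hq : Primrec fun a => quadLoss (f a) (h a) :=
    add (add (mul (num 2) (placeLoss hd' he' hh')) hh) (num 2)
  add (add (largeIndex hf hg hh) (largeIndex hd' he' hh'))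
    (indexBound (mul (add (add hq hh) (num 3)) (placeGap hf hg hh)))

theorem combBound {i : α → ℕ} (hf : Primrec f) (hg : Primrec g) (hh : Primrec h)
    (hi : Primrec i) : Primrec fun a => FourTerms.combBound (f a) (g a) (h a) (i a) :=
  have hH : Primrec fun a => coeffSize (h a) (i a) := add (add hh (mul (num 3) hi)) (num 22)
  add (add (fourBound hf hg hH) (pow (num 2) (add (add hH (mul hH hf)) (num 5)))) (num 8)

theorem quaternaryBound (hf : Primrec f) :
    Primrec fun a => FourTerms.quaternaryBound (f a) := by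
  have hc : Primrec fun a => closedBound (f a + 4) 4 (f a) := by
    simp only [closedBound, zero_add]
    have hs := add (add hf (num 4)) (num 1)
    have h1 := add (add hf (add hf (num 4))) (num 1)
    have h2 := add (add h1 (add hf (num 4))) (num 1)
    have h3 := add (add h2 (add hf (num 4))) (num 1)
    exact add (add (add (add (add (add (add h3 (mul (num 25) hs)) h2) (mul (num 25) hs)) h1)
      (mul (num 25) hs)) hf) (mul (num 25) hs)
  exact combBound (num 256) (discExp (num 4) (num 4) (add hf (num 4))) hc (add hf (num 4))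

end FA.BakerExplicit.PrimrecBounds

namespace FA.BakerExplicit.Algorithms

open PrimrecBounds FourTerms

/-- The coefficients `P, Q, R, S` and the first four values. -/
abbrev QuaternaryData : Type := (ℤ × ℤ × ℤ × ℤ) × ℤ × ℤ × ℤ × ℤ

/-- One step of the recurrence. -/
def quaternaryStep (c s : ℤ × ℤ × ℤ × ℤ) : ℤ × ℤ × ℤ × ℤ :=
  (s.2.1, s.2.2.1, s.2.2.2,
    c.1 * s.2.2.2 + c.2.1 * s.2.2.1 + c.2.2.1 * s.2.1 + c.2.2.2 * s.1)

/-- Four consecutive values. -/
def quaternaryState (t : QuaternaryData) (n : ℕ) : ℤ × ℤ × ℤ × ℤ :=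
  (quaternaryStep t.1)^[n] t.2

/-- The sequence. -/
def quaternarySeq (t : QuaternaryData) (n : ℕ) : ℤ := (quaternaryState t n).1

theorem quaternarySeq_rec (t : QuaternaryData) (n : ℕ) :
    quaternarySeq t (n + 4) = t.1.1 * quaternarySeq t (n + 3) + t.1.2.1 * quaternarySeq t (n + 2) +
      t.1.2.2.1 * quaternarySeq t (n + 1) + t.1.2.2.2 * quaternarySeq t n := by
  have h : ∀ m, quaternaryState t (m + 1) = quaternaryStep t.1 (quaternaryState t m) := fun m =>
    Function.iterate_succ_apply' _ _ _
  simp only [quaternarySeq, show n + 4 = n + 1 + 1 + 1 + 1 by rfl,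
    show n + 3 = n + 1 + 1 + 1 by rfl, show n + 2 = n + 1 + 1 by rfl, h, quaternaryStep]

theorem quaternarySeq_init (t : QuaternaryData) : quaternarySeq t 0 = t.2.1 ∧
    quaternarySeq t 1 = t.2.2.1 ∧ quaternarySeq t 2 = t.2.2.2.1 ∧ quaternarySeq t 3 = t.2.2.2.2 :=
  ⟨rfl, rfl, rfl, rfl⟩

/-- A bound for the data. -/
def quaternaryHeight (t : QuaternaryData) : ℕ :=
  t.1.1.natAbs + t.1.2.1.natAbs + t.1.2.2.1.natAbs + t.1.2.2.2.natAbs + t.2.1.natAbs +
    t.2.2.1.natAbs + t.2.2.2.1.natAbs + t.2.2.2.2.natAbs

/-- The index from which the zeros repeat. -/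
def fourZeroBound (t : QuaternaryData) : ℕ := quaternaryBound (quaternaryHeight t)

theorem quaternarySeq_periodic (t : QuaternaryData) {n : ℕ} (hn : fourZeroBound t ≤ n) :
    quaternarySeq t n = 0 ↔ quaternarySeq t (n + quaternaryPeriod) = 0 := by
  have h : ∀ {z : ℤ}, z.natAbs ≤ quaternaryHeight t → z.natAbs ≤ 2 ^ quaternaryHeight t :=
    fun hz => hz.trans Nat.lt_two_pow_self.le
  refine quaternary_periodic (h (by simp only [quaternaryHeight]; omega))
    (h (by simp only [quaternaryHeight]; omega)) (h (by simp only [quaternaryHeight]; omega))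
    (h (by simp only [quaternaryHeight]; omega)) (quaternarySeq_rec t) (fun i hi => ?_) hn
  obtain ⟨e0, e1, e2, e3⟩ := quaternarySeq_init t
  interval_cases i
  · rw [e0]; exact h (by simp only [quaternaryHeight]; omega)
  · rw [e1]; exact h (by simp only [quaternaryHeight]; omega)
  · rw [e2]; exact h (by simp only [quaternaryHeight]; omega)
  · rw [e3]; exact h (by simp only [quaternaryHeight]; omega)

theorem quaternarySeq_periodic_mul (t : QuaternaryData) {n : ℕ} (hn : fourZeroBound t ≤ n)
    (j : ℕ) : quaternarySeq t n = 0 ↔ quaternarySeq t (n + quaternaryPeriod * j) = 0 := by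
  induction j with
  | zero => simp
  | succ j ih =>
    rw [ih, quaternarySeq_periodic t (hn.trans (Nat.le_add_right _ _)), Nat.mul_succ, add_assoc]

/-- **Every zero repeats one in the first period.** -/
theorem fourZero_iff_mod (t : QuaternaryData) {n : ℕ} (hn : fourZeroBound t ≤ n) :
    quaternarySeq t n = 0 ↔
      quaternarySeq t (fourZeroBound t + (n - fourZeroBound t) % quaternaryPeriod) = 0 := by
  rw [quaternarySeq_periodic_mul t (Nat.le_add_right _ _)
    ((n - fourZeroBound t) / quaternaryPeriod), add_assoc, Nat.mod_add_div,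
    Nat.add_sub_cancel' hn]

/-- A zero is found in the search. -/
def HasFourZero (t : QuaternaryData) : Prop :=
  ∃ n < fourZeroBound t + quaternaryPeriod, quaternarySeq t n = 0

theorem hasFourZero_iff (t : QuaternaryData) : HasFourZero t ↔ ∃ n, quaternarySeq t n = 0 := by
  refine ⟨fun ⟨n, _, h⟩ => ⟨n, h⟩, fun ⟨n, h⟩ => ?_⟩
  rcases lt_or_ge n (fourZeroBound t) with hn | hn
  · exact ⟨n, Nat.lt_add_right _ hn, h⟩
  · exact ⟨_, Nat.add_lt_add_left (Nat.mod_lt _ quaternaryPeriod_pos) _,
      (fourZero_iff_mod t hn).1 h⟩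

/-- A zero is found in the first period after the bound. -/
def HasPeriodicFourZero (t : QuaternaryData) : Prop :=
  ∃ j < quaternaryPeriod, quaternarySeq t (fourZeroBound t + j) = 0

theorem hasPeriodicFourZero_iff (t : QuaternaryData) :
    HasPeriodicFourZero t ↔ {n | quaternarySeq t n = 0}.Infinite := by
  constructor
  · rintro ⟨j, -, h⟩
    refine Set.infinite_of_forall_exists_gt fun a =>
      ⟨fourZeroBound t + j + quaternaryPeriod * (a + 1),
        (quaternarySeq_periodic_mul t (Nat.le_add_right _ _) (a + 1)).1 h, ?_⟩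
    have := Nat.le_mul_of_pos_left (a + 1) quaternaryPeriod_pos
    omega
  · intro h
    obtain ⟨n, hn, hn'⟩ := h.exists_gt (fourZeroBound t)
    exact ⟨_, Nat.mod_lt _ quaternaryPeriod_pos, (fourZero_iff_mod t hn'.le).1 hn⟩

/-- The zeros which determine all others. -/
def fourZeroList (t : QuaternaryData) : List ℕ :=
  (List.range (fourZeroBound t + quaternaryPeriod)).filter fun n =>
    decide (quaternarySeq t n = 0)

theorem mem_fourZeroList (t : QuaternaryData) (n : ℕ) :
    n ∈ fourZeroList t ↔
      n < fourZeroBound t + quaternaryPeriod ∧ quaternarySeq t n = 0 := by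
  simp [fourZeroList]

theorem primrec_fourZeroBound : Primrec fourZeroBound := by
  have c : Primrec fun t : QuaternaryData => t.1 := Primrec.fst
  have c2 := Primrec.snd.comp c
  have c3 := Primrec.snd.comp c2
  have v : Primrec fun t : QuaternaryData => t.2 := Primrec.snd
  have v2 := Primrec.snd.comp v
  have v3 := Primrec.snd.comp v2
  exact PrimrecBounds.quaternaryBound
    (add (add (add (add (add (add (add (primrec_natAbs.comp (Primrec.fst.comp c))
      (primrec_natAbs.comp (Primrec.fst.comp c2))) (primrec_natAbs.comp (Primrec.fst.comp c3)))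
      (primrec_natAbs.comp (Primrec.snd.comp c3))) (primrec_natAbs.comp (Primrec.fst.comp v)))
      (primrec_natAbs.comp (Primrec.fst.comp v2))) (primrec_natAbs.comp (Primrec.fst.comp v3)))
      (primrec_natAbs.comp (Primrec.snd.comp v3)))

theorem fourSeq_zero_rel :
    PrimrecRel fun (n : ℕ) (t : QuaternaryData) => quaternarySeq t n = 0 := by
  have c : Primrec fun a : (ℕ × QuaternaryData) × ℤ × ℤ × ℤ × ℤ => a.1.2.1 :=
    Primrec.fst.comp (Primrec.snd.comp Primrec.fst)
  have c2 := Primrec.snd.comp c
  have c3 := Primrec.snd.comp c2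
  have s : Primrec fun a : (ℕ × QuaternaryData) × ℤ × ℤ × ℤ × ℤ => a.2 := Primrec.snd
  have s2 := Primrec.snd.comp s
  have s3 := Primrec.snd.comp s2
  have e := (((((IntRec.of_primrec (Primrec.fst.comp c)).mul
    (IntRec.of_primrec (Primrec.snd.comp s3))).add
    ((IntRec.of_primrec (Primrec.fst.comp c2)).mul
      (IntRec.of_primrec (Primrec.fst.comp s3)))).add
    ((IntRec.of_primrec (Primrec.fst.comp c3)).mul
      (IntRec.of_primrec (Primrec.fst.comp s2)))).add
    ((IntRec.of_primrec (Primrec.snd.comp c3)).mul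
      (IntRec.of_primrec (Primrec.fst.comp s)))).to_primrec
  have hh : Primrec₂ fun (a : ℕ × QuaternaryData) (x : ℤ × ℤ × ℤ × ℤ) =>
      quaternaryStep a.2.1 x :=
    (Primrec.pair (Primrec.fst.comp s2) (Primrec.pair (Primrec.fst.comp s3)
      (Primrec.pair (Primrec.snd.comp s3) e))).to₂
  have hs : Primrec fun a : ℕ × QuaternaryData => quaternarySeq a.2 a.1 :=
    Primrec.fst.comp (Primrec.nat_iterate Primrec.fst (Primrec.snd.comp Primrec.snd) hh)
  exact (IntRec.of_primrec hs).eq_pred (IntRec.const 0)

theorem hasFourZero_pred : PrimrecPred HasFourZero := by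
  have h : PrimrecRel fun (m : ℕ) (t : QuaternaryData) => ∃ n < m, quaternarySeq t n = 0 :=
    exists_lt_rel fourSeq_zero_rel
  exact h.comp (add primrec_fourZeroBound (num quaternaryPeriod)) Primrec.id

theorem hasPeriodicFourZero_pred : PrimrecPred HasPeriodicFourZero := by
  have h' : PrimrecRel fun (j : ℕ) (t : QuaternaryData) =>
      quaternarySeq t (fourZeroBound t + j) = 0 :=
    fourSeq_zero_rel.comp (add (primrec_fourZeroBound.comp Primrec.snd) Primrec.fst) Primrec.snd
  have h : PrimrecRel fun (m : ℕ) (t : QuaternaryData) =>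
      ∃ j < m, quaternarySeq t (fourZeroBound t + j) = 0 := exists_lt_rel h'
  exact h.comp (num quaternaryPeriod) Primrec.id

theorem primrec_fourZeroList : Primrec fourZeroList :=
  (PrimrecRel.listFilter fourSeq_zero_rel).comp
    (Primrec.list_range.comp (add primrec_fourZeroBound (num quaternaryPeriod))) Primrec.id

end FA.BakerExplicit.Algorithms

end
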