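import Fermat.Agent.BakerExplicit.PositivityRecurrence
import Fermat.Agent.BakerExplicit.SkolemFour

/-!
# The positivity problem in order four, by search

A negative term exists below an explicit index if there is one at all; one in the last window below
it means that there are infinitely many.
-/

set_option autoImplicit false

noncomputable section

namespace FA.BakerExplicit.PrimrecBounds

open FourTerms Positivity

variable {α : Type*} [Primcodable α] {f : α → ℕ}

theorem signStart {g i : α → ℕ} (hf : Primrec f) (hg : Primrec g) (hi : Primrec i) :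
    Primrec fun a => Positivity.signStart (f a) (g a) (i a) :=
  have hd' : Primrec fun a => quadDegree (f a) := pow (mul (num 2) hf) (num 5)
  have he' : Primrec fun a => quadDisc (f a) (g a) :=
    discExp (mul (num 2) hf) (num 5) (add (mul (num 2) hg) (num 4))
  have hh' := add (mul (num 2) hg) (num 5)
  have hq : Primrec fun a => quadLoss (f a) (g a) :=
    add (add (mul (num 2) (placeLoss hd' he' hh')) hg) (num 2)
  have hm : Primrec fun a => mainLoss (f a) (g a) :=
    add (add (mul (add (mul (num 2) hg) (num 3)) hf) hg) (num 4)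
  have hgap := pow (num 2)
    (add (add (mul (add (mul (num 2) hg) (num 1)) (pow hf (num 4))) (mul (num 2) hg)) (num 1))
  add (add (indexBound (mul (add (add (add (add (add hm hq) hg) (mul (num 3) (add hi (num 5))))
    (num 5)) (num 6)) hgap)) (largeIndex hd' he' hh')) (pow (num 2) (add (add hm hg) (num 8)))

theorem signWindow {g : α → ℕ} (hf : Primrec f) (hg : Primrec g) :
    Primrec fun a => Positivity.signWindow (f a) (g a) :=
  have hu : Primrec fun a => unitLoss (f a) (g a) :=
    add (add (mul (add hg (num 1)) hf) hg) (num 1)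
  have hQ : Primrec fun a => stepCount (f a) (g a) :=
    pow (add (mul (num 2) (pow (num 2) (add (add (mul (add (mul (num 2) hg) (num 3)) hf)
      (mul (num 2) hg)) (num 6)))) (num 1)) (num 2)
  add (pow (num 2) (add (add (add (mul (num 2) hg) (mul (num 2) (mul hg hf))) hu) (num 8)))
    (mul hQ (mul (num 8) (pow (num 2)
      (add (add (mul (add (mul hg hQ) (num 1)) hf) (mul hg hQ)) (num 1)))))

theorem positivityHeight (hf : Primrec f) :
    Primrec fun a => Positivity.positivityHeight (f a) := by
  have hc : Primrec fun a => closedBound (f a + 4) 4 (f a) := by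
    simp only [closedBound, zero_add]
    have hs := add (add hf (num 4)) (num 1)
    have h1 := add (add hf (add hf (num 4))) (num 1)
    have h2 := add (add h1 (add hf (num 4))) (num 1)
    have h3 := add (add h2 (add hf (num 4))) (num 1)
    exact add (add (add (add (add (add (add h3 (mul (num 25) hs)) h2) (mul (num 25) hs)) h1)
      (mul (num 25) hs)) hf) (mul (num 25) hs)
  exact add (add (mul (num 2) hc) (mul (add hf (num 4)) (num (positivityStep + 4)))) (num 3)

end FA.BakerExplicit.PrimrecBounds

namespace FA.BakerExplicit.Algorithms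

open PrimrecBounds FourTerms Positivity

/-- The index from which the sign is decided on every progression. -/
def signFrom (t : QuaternaryData) : ℕ :=
  4 + positivityStep * positivityStart (quaternaryHeight t)

/-- Below this index a negative term is found, if there is one. -/
def signBound (t : QuaternaryData) : ℕ :=
  4 + positivityStep *
    (positivityStart (quaternaryHeight t) + positivityWindow (quaternaryHeight t) + 2)

theorem quaternarySeq_sign (t : QuaternaryData) {n₀ : ℕ} (hn4 : 4 ≤ n₀)
    (hnM : n₀ ≤ positivityStep + 4) :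
    (∀ i, positivityStart (quaternaryHeight t) ≤ i →
        0 ≤ quaternarySeq t (n₀ + positivityStep * i)) ∨
      ∀ i₀, positivityStart (quaternaryHeight t) ≤ i₀ → ∃ i, i₀ ≤ i ∧
        i ≤ i₀ + positivityWindow (quaternaryHeight t) ∧
          quaternarySeq t (n₀ + positivityStep * i) < 0 := by
  have h : ∀ {z : ℤ}, z.natAbs ≤ quaternaryHeight t → z.natAbs ≤ 2 ^ quaternaryHeight t :=
    fun hz => hz.trans Nat.lt_two_pow_self.le
  refine quaternary_sign (h (by simp only [quaternaryHeight]; omega))
    (h (by simp only [quaternaryHeight]; omega)) (h (by simp only [quaternaryHeight]; omega))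
    (h (by simp only [quaternaryHeight]; omega)) (quaternarySeq_rec t) (fun i hi => ?_) hn4 hnM
  obtain ⟨e0, e1, e2, e3⟩ := quaternarySeq_init t
  interval_cases i
  · rw [e0]; exact h (by simp only [quaternaryHeight]; omega)
  · rw [e1]; exact h (by simp only [quaternaryHeight]; omega)
  · rw [e2]; exact h (by simp only [quaternaryHeight]; omega)
  · rw [e3]; exact h (by simp only [quaternaryHeight]; omega)

/-- The residue and the position in the progression. -/
theorem exists_progression {a n : ℕ} (hn : 4 + positivityStep * a ≤ n) :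
    ∃ n₀ i, 4 ≤ n₀ ∧ n₀ ≤ positivityStep + 4 ∧ a ≤ i ∧ n = n₀ + positivityStep * i := by
  refine ⟨(n - 4) % positivityStep + 4, (n - 4) / positivityStep, Nat.le_add_left _ _, ?_, ?_, ?_⟩
  · have := Nat.mod_lt (n - 4) positivityStep_pos
    omega
  · rw [Nat.le_div_iff_mul_le positivityStep_pos, mul_comm]
    omega
  · have := Nat.mod_add_div (n - 4) positivityStep
    omega

theorem negative_in_window (t : QuaternaryData) {n : ℕ} (hn : signFrom t ≤ n)
    (hneg : quaternarySeq t n < 0) {a : ℕ} (ha : positivityStart (quaternaryHeight t) ≤ a) :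
    ∃ m, 4 + positivityStep * a ≤ m ∧
      m < 4 + positivityStep * (a + positivityWindow (quaternaryHeight t) + 2) ∧
        quaternarySeq t m < 0 := by
  rw [signFrom] at hn
  obtain ⟨n₀, i, h4, hM, hi, hn'⟩ := exists_progression (n := n)
    (a := positivityStart (quaternaryHeight t)) hn
  rw [hn'] at hneg
  rcases quaternarySeq_sign t h4 hM with h | h
  · exact absurd (h i hi) (not_le.2 hneg)
  obtain ⟨j, hj1, hj2, hj3⟩ := h a ha
  refine ⟨_, Nat.add_le_add h4 (Nat.mul_le_mul_left _ hj1), ?_, hj3⟩
  have := Nat.mul_le_mul_left positivityStep hj2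
  simp only [mul_add] at this ⊢
  have := positivityStep_pos
  omega

/-- A negative term is found. -/
def HasNegative (t : QuaternaryData) : Prop := ∃ n < signBound t, quaternarySeq t n < 0

theorem hasNegative_iff (t : QuaternaryData) :
    HasNegative t ↔ ∃ n, quaternarySeq t n < 0 := by
  refine ⟨fun ⟨n, _, h⟩ => ⟨n, h⟩, fun ⟨n, h⟩ => ?_⟩
  rcases lt_or_ge n (signFrom t) with hn | hn
  · refine ⟨n, lt_of_lt_of_le hn ?_, h⟩
    exact Nat.add_le_add_left (Nat.mul_le_mul_left _
      ((Nat.le_add_right _ _).trans (Nat.le_add_right _ _))) _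
  · obtain ⟨m, -, hm, hm'⟩ := negative_in_window t hn h le_rfl
    exact ⟨m, hm, hm'⟩

/-- A negative term is found in the last window. -/
def HasLateNegative (t : QuaternaryData) : Prop :=
  ∃ j < signBound t, signFrom t ≤ j ∧ quaternarySeq t j < 0

theorem hasLateNegative_iff (t : QuaternaryData) :
    ¬HasLateNegative t ↔ ∃ N, ∀ n, N ≤ n → 0 ≤ quaternarySeq t n := by
  constructor
  · refine fun h => ⟨signFrom t, fun n hn => not_lt.1 fun hneg => h ?_⟩
    obtain ⟨m, hm1, hm2, hm3⟩ := negative_in_window t hn hneg le_rfl
    exact ⟨m, hm2, hm1, hm3⟩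
  · rintro ⟨N, hN⟩ ⟨j, -, hj, hneg⟩
    obtain ⟨m, hm1, -, hm3⟩ :=
      negative_in_window t hj hneg (a := positivityStart (quaternaryHeight t) + N)
        (Nat.le_add_right _ _)
    have := Nat.le_mul_of_pos_left (positivityStart (quaternaryHeight t) + N) positivityStep_pos
    exact (hN m (by omega)).not_gt hm3

theorem not_hasNegative_iff (t : QuaternaryData) :
    ¬HasNegative t ↔ ∀ n, 0 ≤ quaternarySeq t n := by
  simp only [hasNegative_iff, not_exists, not_lt]

theorem all_positive_iff (t : QuaternaryData) :
    (¬HasNegative t ∧ ¬HasFourZero t) ↔ ∀ n, 0 < quaternarySeq t n := by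
  rw [not_hasNegative_iff, hasFourZero_iff, not_exists]
  exact ⟨fun h n => lt_of_le_of_ne (h.1 n) (Ne.symm (h.2 n)),
    fun h => ⟨fun n => (h n).le, fun n => (h n).ne'⟩⟩

theorem primrec_quaternaryHeight : Primrec quaternaryHeight := by
  have c : Primrec fun t : QuaternaryData => t.1 := Primrec.fst
  have c2 := Primrec.snd.comp c
  have c3 := Primrec.snd.comp c2
  have v : Primrec fun t : QuaternaryData => t.2 := Primrec.snd
  have v2 := Primrec.snd.comp v
  have v3 := Primrec.snd.comp v2
  exact add (add (add (add (add (add (add (primrec_natAbs.comp (Primrec.fst.comp c))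
    (primrec_natAbs.comp (Primrec.fst.comp c2))) (primrec_natAbs.comp (Primrec.fst.comp c3)))
    (primrec_natAbs.comp (Primrec.snd.comp c3))) (primrec_natAbs.comp (Primrec.fst.comp v)))
    (primrec_natAbs.comp (Primrec.fst.comp v2))) (primrec_natAbs.comp (Primrec.fst.comp v3)))
    (primrec_natAbs.comp (Primrec.snd.comp v3))

theorem primrec_quaternarySeq :
    Primrec fun a : ℕ × QuaternaryData => quaternarySeq a.2 a.1 := by
  have c : Primrec fun a : (ℕ × QuaternaryData) × ℤ × ℤ × ℤ × ℤ => a.1.2.1 :=
    Primrec.fst.comp (Primrec.snd.comp Primrec.fst)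
  have c2 := Primrec.snd.comp c
  have c3 := Primrec.snd.comp c2
  have s : Primrec fun a : (ℕ × QuaternaryData) × ℤ × ℤ × ℤ × ℤ => a.2 := Primrec.snd
  have s2 := Primrec.snd.comp s
  have s3 := Primrec.snd.comp s2
  have e := (((((IntRec.of_primrec (Primrec.fst.comp c)).mul
    (IntRec.of_primrec (Primrec.snd.comp s3))).add
    ((IntRec.of_primrec (Primrec.fst.comp c2)).mul
      (IntRec.of_primrec (Primrec.fst.comp s3)))).add
    ((IntRec.of_primrec (Primrec.fst.comp c3)).mul
      (IntRec.of_primrec (Primrec.fst.comp s2)))).add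
    ((IntRec.of_primrec (Primrec.snd.comp c3)).mul
      (IntRec.of_primrec (Primrec.fst.comp s)))).to_primrec
  have hh : Primrec₂ fun (a : ℕ × QuaternaryData) (x : ℤ × ℤ × ℤ × ℤ) =>
      quaternaryStep a.2.1 x :=
    (Primrec.pair (Primrec.fst.comp s2) (Primrec.pair (Primrec.fst.comp s3)
      (Primrec.pair (Primrec.snd.comp s3) e))).to₂
  exact Primrec.fst.comp (Primrec.nat_iterate Primrec.fst (Primrec.snd.comp Primrec.snd) hh)

theorem seq_neg_rel : PrimrecRel fun (n : ℕ) (t : QuaternaryData) => quaternarySeq t n < 0 := by
  have h : PrimrecPred fun a : ℕ × QuaternaryData =>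
      quaternarySeq a.2 a.1 = ((quaternarySeq a.2 a.1).natAbs : ℤ) :=
    (IntRec.of_primrec primrec_quaternarySeq).eq_pred
      (IntRec.natCast (primrec_natAbs.comp primrec_quaternarySeq))
  exact h.not.of_eq fun a => by omega

theorem primrec_signBound : Primrec signBound :=
  add (num 4) (mul (num positivityStep) (add (add
    (PrimrecBounds.signStart (num 256) (PrimrecBounds.positivityHeight primrec_quaternaryHeight)
      (num positivityStep))
    (PrimrecBounds.signWindow (num 256)
      (PrimrecBounds.positivityHeight primrec_quaternaryHeight))) (num 2)))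

theorem primrec_signFrom : Primrec signFrom :=
  add (num 4) (mul (num positivityStep) (PrimrecBounds.signStart (num 256)
    (PrimrecBounds.positivityHeight primrec_quaternaryHeight) (num positivityStep)))

theorem hasNegative_pred : PrimrecPred HasNegative := by
  have h : PrimrecRel fun (m : ℕ) (t : QuaternaryData) => ∃ n < m, quaternarySeq t n < 0 :=
    exists_lt_rel seq_neg_rel
  exact h.comp primrec_signBound Primrec.id

theorem hasLateNegative_pred : PrimrecPred HasLateNegative := by
  have h' : PrimrecRel fun (j : ℕ) (t : QuaternaryData) =>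
      signFrom t ≤ j ∧ quaternarySeq t j < 0 :=
    PrimrecPred.and (Primrec.nat_le.comp (primrec_signFrom.comp Primrec.snd) Primrec.fst)
      seq_neg_rel
  have h : PrimrecRel fun (m : ℕ) (t : QuaternaryData) =>
      ∃ j < m, signFrom t ≤ j ∧ quaternarySeq t j < 0 := exists_lt_rel h'
  exact h.comp primrec_signBound Primrec.id

end FA.BakerExplicit.Algorithms

end
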