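import Fermat.Agent.BakerExplicit.UnitEquation
import Mathlib.RingTheory.DedekindDomain.Ideal.Lemmas
import Mathlib.NumberTheory.NumberField.ClassNumber

/-!
# Numbers which are almost `m`-th powers

If `β γ = B y ^ m` and `γ ≡ F` modulo `β`, the ideal of `β` is an `m`-th power up to a divisor of
`(B F) ^ m`. By Minkowski's theorem and the units, `c ^ m β = δ ξ ^ m` with bounded `c` and `δ`,
without the class group.
-/

set_option autoImplicit false

noncomputable section

namespace FA.BakerExplicit.PowerDecomposition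

open Finset NumberField NumberField.Units Module UniqueFactorizationMonoid UnitExponents
  NumberField.InfinitePlace

variable {K : Type*} [Field K] [NumberField K]

/-- The bound for the multiplier. -/
def multExp (d e : ℕ) : ℕ := d + e

/-- The bound for the cofactor. -/
def cofactorExp (d e h m : ℕ) : ℕ :=
  2 * (EffectiveUnits.reducedSize d (UnitSystem.unitBound d e) (m * (multExp d e * d + h)) +
    d * (m * UnitSystem.unitBound d e))

/-- An ideal with multiplicities divisible by `m` outside `E` is almost an `m`-th power. -/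
theorem exists_ideal_decomposition {I : Ideal (𝓞 K)} (hI : I ≠ ⊥) {E : 𝓞 K} {m : ℕ}
    (hm : 1 ≤ m) (h : ∀ P : Ideal (𝓞 K), P ∈ normalizedFactors I → E ∉ P →
      m ∣ (normalizedFactors I).count P) :
    ∃ A B : Ideal (𝓞 K), I = A * B ^ m ∧ A ∣ Ideal.span {E} ^ m := by
  classical
  set s := normalizedFactors I with hs
  refine ⟨∏ P ∈ s.toFinset, P ^ (s.count P % m), ∏ P ∈ s.toFinset, P ^ (s.count P / m), ?_, ?_⟩
  · rw [← prod_pow, ← prod_mul_distrib]
    conv_lhs => rw [← Ideal.prod_normalizedFactors_eq_self hI, ← hs, Finset.prod_multiset_count]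
    refine prod_congr rfl fun P _ => ?_
    rw [← pow_mul, ← pow_add, mul_comm (s.count P / m), Nat.mod_add_div]
  · have hprime : ∀ P ∈ s.toFinset, Prime P := fun P hP =>
      prime_of_normalized_factor P (Multiset.mem_toFinset.1 hP)
    refine prod_dvd_of_coprime (fun P hP Q hQ hne => ?_) fun P hP => ?_
    · have hPm := (Ideal.isPrime_of_prime (hprime P hP)).isMaximal (hprime P hP).ne_zero
      have hQm := (Ideal.isPrime_of_prime (hprime Q hQ)).isMaximal (hprime Q hQ).ne_zero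
      exact (Ideal.isCoprime_iff_sup_eq.2 (hPm.coprime_of_ne hQm hne)).pow
    · by_cases hE : E ∈ P
      · exact (pow_dvd_pow_of_dvd (Ideal.dvd_span_singleton.2 hE) _).trans
          (pow_dvd_pow _ (Nat.mod_lt _ hm).le)
      · rw [Nat.mod_eq_zero_of_dvd (h P (Multiset.mem_toFinset.1 hP) hE), pow_zero]
        exact one_dvd _

/-- The multiplicities are divisible by `m` outside `B F`. -/
theorem dvd_count {β γ B F y : 𝓞 K} {m : ℕ} (hβ : β ≠ 0) (hγ : γ ≠ 0) (hB : B ≠ 0)
    (hy : y ≠ 0) (heq : β * γ = B * y ^ m) (hmod : β ∣ γ - F) {P : Ideal (𝓞 K)}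
    (hP : P ∈ normalizedFactors (Ideal.span {β})) (hE : B * F ∉ P) :
    m ∣ (normalizedFactors (Ideal.span {β})).count P := by
  classical
  have hβP : β ∈ P := Ideal.dvd_span_singleton.1 (dvd_of_mem_normalizedFactors hP)
  have hBP : B ∉ P := fun h => hE (P.mul_mem_right _ h)
  have hFP : F ∉ P := fun h => hE (P.mul_mem_left _ h)
  have hγP : γ ∉ P := fun h => hFP (by
    obtain ⟨w, hw⟩ := hmod
    rw [show F = γ - β * w by rw [← hw]; ring]
    exact P.sub_mem h (P.mul_mem_right _ hβP))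
  have h0 : ∀ {z : 𝓞 K}, z ∉ P → (normalizedFactors (Ideal.span {z})).count P = 0 := fun hz =>
    Multiset.count_eq_zero.2 fun hmem => hz
      (Ideal.dvd_span_singleton.1 (dvd_of_mem_normalizedFactors hmem))
  have hne : ∀ {z : 𝓞 K}, z ≠ 0 → Ideal.span {z} ≠ 0 := fun hz h => hz (by
    rwa [Ideal.zero_eq_bot, Ideal.span_singleton_eq_bot] at h)
  have h1 := congrArg (fun z : 𝓞 K => (normalizedFactors (Ideal.span {z})).count P) heq
  rw [← Ideal.span_singleton_mul_span_singleton, ← Ideal.span_singleton_mul_span_singleton,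
    ← Ideal.span_singleton_pow, normalizedFactors_mul (hne hβ) (hne hγ),
    normalizedFactors_mul (hne hB) (pow_ne_zero _ (hne hy)), normalizedFactors_pow,
    Multiset.count_add, Multiset.count_add, Multiset.count_nsmul, h0 hγP, h0 hBP, zero_add,
    add_zero] at h1
  exact ⟨_, h1⟩

/-- Minkowski's bound is at most `2 ^ (d + e)`. -/
theorem minkowski_le {d e : ℕ} (hd : finrank ℚ K ≤ d) (he : (discr K).natAbs ≤ 2 ^ e) :
    (4 / Real.pi) ^ nrComplexPlaces K * ((finrank ℚ K).factorial /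
      (finrank ℚ K : ℝ) ^ finrank ℚ K * Real.sqrt |discr K|) ≤ (2 : ℝ) ^ multExp d e := by
  rw [multExp, pow_add]
  refine mul_le_mul ?_ ?_ (by positivity) (by positivity)
  · refine (pow_le_pow_left₀ (by positivity) (show (4 : ℝ) / Real.pi ≤ 2 by
      rw [div_le_iff₀ Real.pi_pos]; linarith [Real.pi_gt_three]) _).trans
      (pow_le_pow_right₀ one_le_two ?_)
    have := card_add_two_mul_card_eq_rank K
    omega
  · refine (mul_le_of_le_one_left (Real.sqrt_nonneg _)
      (div_le_one_of_le₀ ?_ (by positivity))).trans ?_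
    · exact_mod_cast (finrank ℚ K).factorial_le_pow
    · have h1 : (|discr K| : ℝ) ≤ (2 : ℝ) ^ e := by
        rw [← Int.cast_abs, ← Int.natCast_natAbs, Int.cast_natCast]
        exact_mod_cast he
      rw [Real.sqrt_le_left (by positivity)]
      exact h1.trans (le_self_pow₀ (one_le_pow₀ one_le_two) two_ne_zero)

/-- **`c ^ m β = δ ξ ^ m` with bounded `c` and `δ`.** -/
theorem exists_power_decomposition {d e h m : ℕ} (hd : finrank ℚ K ≤ d)
    (he : (discr K).natAbs ≤ 2 ^ e) (hm : 1 ≤ m) {β γ B F y : 𝓞 K} (hβ : β ≠ 0) (hγ : γ ≠ 0)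
    (hB : B ≠ 0) (hy : y ≠ 0) (heq : β * γ = B * y ^ m) (hmod : β ∣ γ - F) (hF : F ≠ 0)
    (hBF : (Algebra.norm ℤ (B * F)).natAbs ≤ 2 ^ h) :
    ∃ (c : ℕ) (δ ξ : 𝓞 K), 0 < c ∧ c ≤ 2 ^ multExp d e ∧ (c : 𝓞 K) ^ m * β = δ * ξ ^ m ∧ δ ≠ 0 ∧
      ∀ σ : K →+* ℂ, ‖σ (δ : K)‖ ≤ (2 : ℝ) ^ cofactorExp d e h m := by
  classical
  have hI : Ideal.span {β} ≠ ⊥ := by simpa using hβ
  obtain ⟨A, J, hAJ, hA⟩ := exists_ideal_decomposition hI hm fun P hP hE =>
    dvd_count hβ hγ hB hy heq hmod hP hE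
  have hA0 : A ≠ 0 := fun h => hI (by rw [hAJ, h, zero_mul, Ideal.zero_eq_bot])
  have hJ0 : J ≠ 0 := fun h => hI (by
    rw [hAJ, h, zero_pow (by omega), mul_zero, Ideal.zero_eq_bot])
  set J' : (nonZeroDivisors (Ideal (𝓞 K))) := ⟨J, mem_nonZeroDivisors_iff_ne_zero.2 hJ0⟩
  obtain ⟨_, ⟨ξ, hξ, rfl⟩, hξ0, hnm⟩ :=
    exists_ne_zero_mem_ideal_of_norm_le_mul_sqrt_discr K (FractionalIdeal.mk0 K J')
  obtain ⟨C, hC⟩ := Ideal.dvd_iff_le.mpr ((Ideal.span_singleton_le_iff_mem J).mpr (by exact hξ))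
  have hξ' : ξ ≠ 0 := fun h => hξ0 (by simp [h])
  have hC0 : C ≠ 0 := fun h => hξ' (by
    rw [h, mul_zero, Ideal.zero_eq_bot, Ideal.span_singleton_eq_bot] at hC; exact hC)
  have hCN : (Ideal.absNorm C : ℝ) ≤ (2 : ℝ) ^ multExp d e := by
    rw [← FractionalIdeal.absNorm_span_singleton (𝓞 K), Algebra.linearMap_apply,
      ← FractionalIdeal.coeIdeal_span_singleton, FractionalIdeal.coeIdeal_absNorm, hC, map_mul,
      Nat.cast_mul, Rat.cast_mul, Rat.cast_natCast, Rat.cast_natCast, FractionalIdeal.coe_mk0,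
      FractionalIdeal.coeIdeal_absNorm, Rat.cast_natCast, mul_div_assoc, mul_assoc, mul_assoc]
      at hnm
    exact (le_of_mul_le_mul_of_pos_left hnm (Nat.cast_pos.2 (Nat.pos_of_ne_zero
      (mt Ideal.absNorm_eq_zero_iff.1 hJ0)))).trans (minkowski_le hd he)
  set c := Ideal.absNorm C with hc
  have hc0 : 0 < c := Nat.pos_of_ne_zero (mt Ideal.absNorm_eq_zero_iff.1 hC0)
  have hcle : c ≤ 2 ^ multExp d e := by exact_mod_cast hCN
  obtain ⟨D, hD⟩ : C ∣ Ideal.span {(c : 𝓞 K)} :=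
    Ideal.dvd_span_singleton.2 (Ideal.absNorm_mem C)
  have hspan : Ideal.span {(c : 𝓞 K) ^ m * β} = Ideal.span {ξ ^ m} * (A * D ^ m) := by
    rw [← Ideal.span_singleton_mul_span_singleton, ← Ideal.span_singleton_pow,
      ← Ideal.span_singleton_pow, hAJ, hD, hC, mul_pow, mul_pow]
    ring
  obtain ⟨δ', hδ'⟩ : ξ ^ m ∣ (c : 𝓞 K) ^ m * β := by
    exact (Ideal.span_singleton_le_span_singleton (x := (c : 𝓞 K) ^ m * β) (y := ξ ^ m)).1
      (hspan.le.trans Ideal.mul_le_left)
  have hδI : Ideal.span {δ'} = A * D ^ m := by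
    refine mul_left_cancel₀ (show Ideal.span {ξ ^ m} ≠ 0 from fun h => hξ' ?_) ?_
    · rw [Ideal.zero_eq_bot, Ideal.span_singleton_eq_bot] at h
      exact eq_zero_of_pow_eq_zero h
    · rw [Ideal.span_singleton_mul_span_singleton, ← hδ', hspan]
  have hc0' : (c : 𝓞 K) ≠ 0 := Nat.cast_ne_zero.2 hc0.ne'
  have hδ'0 : δ' ≠ 0 := fun h => mul_ne_zero (pow_ne_zero m hc0') hβ (by rw [hδ', h, mul_zero])
  -- its norm
  have hNδ : (Algebra.norm ℤ δ').natAbs ≤ 2 ^ (m * (multExp d e * d + h)) := by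
    rw [← Ideal.absNorm_span_singleton, hδI, map_mul, map_pow]
    have h1 : Ideal.absNorm A ≤ (2 ^ h) ^ m := by
      refine le_trans (Nat.le_of_dvd ?_ (Ideal.absNorm_dvd_absNorm_of_le (Ideal.le_of_dvd hA))) ?_
      · rw [map_pow, Ideal.absNorm_span_singleton]
        exact pow_pos (Int.natAbs_pos.2 (Algebra.norm_ne_zero_iff.2 (mul_ne_zero hB hF))) m
      · rw [map_pow, Ideal.absNorm_span_singleton]
        exact Nat.pow_le_pow_left hBF m
    have h2 : Ideal.absNorm D ≤ 2 ^ (multExp d e * d) := by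
      have e1 := congrArg Ideal.absNorm hD
      rw [Ideal.absNorm_span_singleton, map_mul, ← hc, ← map_natCast (algebraMap ℤ (𝓞 K)),
        Algebra.norm_algebraMap, Int.natAbs_pow, Int.natAbs_natCast, RingOfIntegers.rank] at e1
      refine le_trans (Nat.le_mul_of_pos_left _ hc0) (e1.symm.le.trans ?_)
      rw [pow_mul]
      exact (Nat.pow_le_pow_left hcle _).trans (Nat.pow_le_pow_right (Nat.two_pow_pos _) hd)
    refine (Nat.mul_le_mul h1 (Nat.pow_le_pow_left h2 m)).trans_eq ?_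
    rw [← pow_mul, ← pow_mul, ← pow_add]
    ring_nf
  -- the units
  obtain ⟨u, hu, huh⟩ := UnitSystem.exists_unit_system (K := K) rfl he
  set H := UnitSystem.unitBound d e with hH
  have hmono : UnitSystem.unitBound (finrank ℚ K) e ≤ H := by
    simp only [hH, UnitSystem.unitBound]
    gcongr
    · norm_num
  have huH : ∀ i (σ : K →+* ℂ), |Real.log ‖σ (u i : K)‖| ≤ H := fun i σ =>
    (huh i σ).trans (Nat.cast_le.2 hmono)
  obtain ⟨k, g, w, hgU, -, hg0, hlog⟩ := EffectiveUnits.exists_reduced hd hu huH hδ'0 hNδ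
  set r : Fin (rank K) → ℤ := fun i => k i % (m : ℤ) with hr
  set q : Fin (rank K) → ℤ := fun i => k i / (m : ℤ) with hq
  have hk : unitPow u k = unitPow u r * unitPow u q ^ m := by
    simp only [unitPow, ← prod_pow, ← prod_mul_distrib]
    refine prod_congr rfl fun i _ => ?_
    rw [← zpow_natCast, ← zpow_mul, ← zpow_add, hr, hq, mul_comm (k i / _), Int.emod_add_mul_ediv]
  have hgU' : g * (unitPow u k : 𝓞 K) = δ' := RingOfIntegers.coe_injective (by
    rw [map_mul]; exact hgU)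
  refine ⟨c, g * (unitPow u r : 𝓞 K), ξ * (unitPow u q : 𝓞 K), hc0, hcle, ?_,
    mul_ne_zero hg0 (Units.ne_zero _), fun σ => ?_⟩
  · rw [hδ', ← hgU', hk, Units.val_mul, Units.val_pow_eq_pow_val]
    ring
  · have h1 : |Real.log ‖σ ((unitPow u r : (𝓞 K)ˣ) : K)‖| ≤ ((d * (m * H) : ℕ) : ℝ) := by
      rw [log_norm_unitPow]
      refine (abs_sum_le_sum_abs _ _).trans ((sum_le_card_nsmul _ _ ((m * H : ℕ) : ℝ)
        fun i _ => ?_).trans ?_)
      · rw [abs_mul, Nat.cast_mul]
        refine mul_le_mul ?_ (huH i σ) (abs_nonneg _) (Nat.cast_nonneg _)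
        have e1 := Int.emod_nonneg (k i) (show (m : ℤ) ≠ 0 by omega)
        have e2 := Int.emod_lt_of_pos (k i) (show (0 : ℤ) < (m : ℤ) by omega)
        rw [← Int.cast_abs, abs_of_nonneg e1]
        exact_mod_cast e2.le
      · rw [card_univ, Fintype.card_fin, nsmul_eq_mul, ← Nat.cast_mul]
        refine Nat.cast_le.2 (Nat.mul_le_mul_right _ ?_)
        have := EffectiveThue.rank_add_one_le (K := K) rfl
        omega
    have hg' : σ (g : K) ≠ 0 := (map_ne_zero σ).2 (RingOfIntegers.coe_ne_zero_iff.2 hg0)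
    have hu' := map_unit_ne_zero σ (unitPow u r)
    simp only [map_mul, cofactorExp]
    refine EffectiveThue.le_two_pow_of_abs_log_le (norm_pos_iff.2 (mul_ne_zero hg' hu')) ?_
    rw [norm_mul, Real.log_mul (norm_ne_zero_iff.2 hg') (norm_ne_zero_iff.2 hu'), Nat.cast_add]
    exact (abs_add_le _ _).trans (add_le_add (hlog σ) h1)

end FA.BakerExplicit.PowerDecomposition

end
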