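import Fermat.Agent.BakerExplicit.SUnitBound

/-!
# An exponent from a bounded ratio

Integers with all conjugates at most `2 ^ T` are distinct modulo `2 ^ (T + 2)`, so boundedly many.
If `γ ^ n = A / B` with such `A`, `B`, all `B γ ^ j`, `j ≤ n`, are such integers; so `n` is
bounded unless `γ` is a root of unity.
-/

set_option autoImplicit false

noncomputable section

namespace FA.BakerExplicit.PowerRatio

open Finset NumberField Module

variable {K : Type*} [Field K] [NumberField K]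

/-- Bounded integers, congruent modulo a large number, are equal. -/
theorem eq_of_congr {T : ℕ} {z z' w : 𝓞 K} (hz : ∀ σ : K →+* ℂ, ‖σ (z : K)‖ ≤ (2 : ℝ) ^ T)
    (hz' : ∀ σ : K →+* ℂ, ‖σ (z' : K)‖ ≤ (2 : ℝ) ^ T)
    (hw : z - z' = ((2 ^ (T + 2) : ℕ) : 𝓞 K) * w) : z = z' := by
  refine sub_eq_zero.1 ?_
  rw [hw, Algebraic.eq_zero_of_forall_norm_lt_one (x := w) fun σ => ?_, mul_zero]
  have h : ‖σ ((z - z' : 𝓞 K) : K)‖ ≤ (2 : ℝ) ^ (T + 1) := by
    simp only [map_sub]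
    rw [pow_succ, mul_two]
    exact (norm_sub_le _ _).trans (add_le_add (hz σ) (hz' σ))
  rw [hw] at h
  simp only [map_mul, map_natCast, norm_mul, Complex.norm_natCast] at h
  rw [Nat.cast_pow, Nat.cast_ofNat, pow_succ _ (T + 1)] at h
  nlinarith [pow_pos (two_pos : (0 : ℝ) < 2) (T + 1), norm_nonneg (σ (w : K))]

/-- **The number of bounded integers.** -/
theorem card_le {d T : ℕ} (hd : finrank ℚ K ≤ d) {s : Finset (𝓞 K)}
    (hs : ∀ z ∈ s, ∀ σ : K →+* ℂ, ‖σ (z : K)‖ ≤ (2 : ℝ) ^ T) :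
    s.card ≤ 2 ^ ((T + 2) * d) := by
  classical
  set B := RingOfIntegers.basis K
  have : NeZero (2 ^ (T + 2)) := ⟨(Nat.two_pow_pos _).ne'⟩
  refine (Finset.card_le_card_of_injOn
    (t := (univ : Finset (Free.ChooseBasisIndex ℤ (𝓞 K) → ZMod (2 ^ (T + 2)))))
    (fun z i => ((B.repr z i : ℤ) : ZMod (2 ^ (T + 2)))) (fun z _ => mem_univ _)
    fun z hz z' hz' he => ?_).trans ?_
  · have hdvd : ∀ i, ((2 ^ (T + 2) : ℕ) : ℤ) ∣ B.repr (z - z') i := fun i => by
      rw [← ZMod.intCast_zmod_eq_zero_iff_dvd, map_sub, Finsupp.sub_apply, Int.cast_sub]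
      exact sub_eq_zero.2 (congrFun he i)
    choose c hc using hdvd
    refine eq_of_congr (hs z hz) (hs z' hz') (w := ∑ i, c i • B i) ?_
    conv_lhs => rw [← B.sum_repr (z - z')]
    rw [mul_sum]
    refine sum_congr rfl fun i _ => ?_
    rw [hc i, mul_smul, zsmul_eq_mul, Int.cast_natCast]
  · rw [card_univ, Fintype.card_pi, prod_const, card_univ, ZMod.card,
      ← finrank_eq_card_chooseBasisIndex, RingOfIntegers.rank, ← pow_mul]
    exact Nat.pow_le_pow_right two_pos (Nat.mul_le_mul_left _ hd)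

/-- **The exponent of a power with bounded numerator and denominator.** -/
theorem power_ratio_bound {d T : ℕ} (hd : finrank ℚ K ≤ d) {γ : K} (hγ0 : γ ≠ 0)
    (hγ : ∀ i : ℕ, 0 < i → γ ^ i ≠ 1) {A B : 𝓞 K} (hB : B ≠ 0)
    (hA : ∀ σ : K →+* ℂ, ‖σ (A : K)‖ ≤ (2 : ℝ) ^ T)
    (hBT : ∀ σ : K →+* ℂ, ‖σ (B : K)‖ ≤ (2 : ℝ) ^ T) {n : ℕ}
    (h : (B : K) * γ ^ n = (A : K)) : n < 2 ^ ((T + 2) * d) := by
  classical
  rcases Nat.eq_zero_or_pos n with rfl | hn
  · exact Nat.two_pow_pos _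
  set c : ℕ → K := fun j => (B : K) * γ ^ j with hc
  have hpow : ∀ j ≤ n, c j ^ n = ((B ^ (n - j) * A ^ j : 𝓞 K) : K) := fun j hj => by
    simp only [hc, map_mul, map_pow]
    rw [show algebraMap (𝓞 K) K A = (B : K) * γ ^ n from h.symm, mul_pow, mul_pow,
      ← mul_assoc, ← pow_add, Nat.sub_add_cancel hj, ← pow_mul, ← pow_mul, mul_comm j n]
  have hint : ∀ j ≤ n, IsIntegral ℤ (c j) := fun j hj =>
    IsIntegral.of_pow hn (by rw [hpow j hj]; exact (B ^ (n - j) * A ^ j).isIntegral_coe)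
  choose e₀ he₀ using fun j : {j // j ≤ n} => (⟨⟨c j, hint j j.2⟩, rfl⟩ :
    ∃ z : 𝓞 K, (z : K) = c j)
  let e : ℕ → 𝓞 K := fun j => if hj : j ≤ n then e₀ ⟨j, hj⟩ else 0
  have he : ∀ j ≤ n, (e j : K) = c j := fun j hj => by
    rw [show e j = e₀ ⟨j, hj⟩ from dif_pos hj, he₀]
  have hbd : ∀ j ≤ n, ∀ σ : K →+* ℂ, ‖σ (e j : K)‖ ≤ (2 : ℝ) ^ T := fun j hj σ => by
    refine le_of_pow_le_pow_left₀ hn.ne' (by positivity) ?_
    rw [he j hj, ← norm_pow, ← map_pow, hpow j hj]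
    simp only [map_mul, map_pow, norm_mul, norm_pow]
    refine (mul_le_mul (pow_le_pow_left₀ (norm_nonneg _) (hBT σ) _)
      (pow_le_pow_left₀ (norm_nonneg _) (hA σ) _) (by positivity) (by positivity)).trans_eq ?_
    rw [← pow_add, Nat.sub_add_cancel hj]
  have hinj : Set.InjOn e (range (n + 1) : Finset ℕ) := fun i hi j hj hij => by
    have hi' : i ≤ n := Nat.lt_succ_iff.1 (mem_range.1 hi)
    have hj' : j ≤ n := Nat.lt_succ_iff.1 (mem_range.1 hj)
    have h1 : γ ^ i = γ ^ j := mul_left_cancel₀ (RingOfIntegers.coe_ne_zero_iff.2 hB) (by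
      rw [← show (e i : K) = (B : K) * γ ^ i from he i hi',
        ← show (e j : K) = (B : K) * γ ^ j from he j hj', hij])
    by_contra hne
    rcases lt_or_gt_of_ne hne with hlt | hlt
    · refine hγ (j - i) (by omega) (mul_left_cancel₀ (pow_ne_zero i hγ0) ?_)
      rw [← pow_add, Nat.add_sub_cancel' hlt.le, mul_one, h1]
    · refine hγ (i - j) (by omega) (mul_left_cancel₀ (pow_ne_zero j hγ0) ?_)
      rw [← pow_add, Nat.add_sub_cancel' hlt.le, mul_one, h1]
  have h2 := card_le (T := T) hd (s := (range (n + 1)).image e) fun z hz => by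
    obtain ⟨j, hj, rfl⟩ := mem_image.1 hz
    exact hbd j (Nat.lt_succ_iff.1 (mem_range.1 hj))
  rw [card_image_of_injOn hinj, card_range] at h2
  omega

end FA.BakerExplicit.PowerRatio

end
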