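import Fermat.Agent.BakerExplicit.SUnitBound

/-!
# Ratios of radicals by the `S`-unit equation

If `U ^ m - V ^ m` has a smooth norm, `m ≥ 3`, so have `U - ζ ^ i V`, and three of them have a
linear relation: so `U : V` is a bounded ratio. For `m = 2` two relations among six such numbers
do the same with three radicals. Then `x` is bounded.
-/

set_option autoImplicit false

noncomputable section

namespace FA.BakerExplicit.RadicalRatios

open NumberField Module EffectiveSUnits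

variable {K : Type*} [Field K] [NumberField K]

omit [NumberField K] in
theorem smooth_norm_of_dvd {g : ℕ} {z w : 𝓞 K} (h : z ∣ w)
    (hs : Smooth g (Algebra.norm ℤ w).natAbs) : Smooth g (Algebra.norm ℤ z).natAbs :=
  Smooth.of_dvd hs (Int.natAbs_dvd_natAbs.2 (map_dvd (Algebra.norm ℤ) h))

/-- Two integers of a field with a rational quotient. -/
theorem num_den_of_quotient {x : ℚ} {Z W : 𝓞 K} (hW : W ≠ 0)
    (h : (x : K) * (W : K) = (Z : K)) {R : ℕ} (hZR : ∀ σ : K →+* ℂ, ‖σ (Z : K)‖ ≤ (2 : ℝ) ^ R)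
    (hWR : ∀ σ : K →+* ℂ, ‖σ (W : K)‖ ≤ (2 : ℝ) ^ R) :
    x.num.natAbs ≤ 2 ^ R ∧ x.den ≤ 2 ^ R := by
  obtain ⟨u, v, huv⟩ := Rat.isCoprime_num_den x
  have h1 : (x.num : 𝓞 K) * W = ((x.den : ℤ) : 𝓞 K) * Z := by
    refine RingOfIntegers.coe_injective ?_
    have hd : (x.den : K) ≠ 0 := Nat.cast_ne_zero.2 x.den_nz
    rw [Rat.cast_def, div_mul_eq_mul_div, div_eq_iff hd] at h
    simp only [map_mul, map_intCast, map_natCast, Int.cast_natCast]
    linear_combination h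
  have huv' : (u : 𝓞 K) * (x.num : 𝓞 K) + (v : 𝓞 K) * ((x.den : ℤ) : 𝓞 K) = 1 := by
    exact_mod_cast congrArg (fun z : ℤ => (z : 𝓞 K)) huv
  set w := (u : 𝓞 K) * Z + (v : 𝓞 K) * W with hw
  have hWw : W = ((x.den : ℤ) : 𝓞 K) * w := by
    rw [hw]; linear_combination -W * huv' + (u : 𝓞 K) * h1
  have hZw : Z = (x.num : 𝓞 K) * w := by
    rw [hw]; linear_combination -Z * huv' - (v : 𝓞 K) * h1
  have hw0 : w ≠ 0 := fun e => hW (by rw [hWw, e, mul_zero])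
  obtain ⟨σ, hσ⟩ : ∃ σ : K →+* ℂ, 1 ≤ ‖σ (w : K)‖ := by
    by_contra hc
    push Not at hc
    exact hw0 (Algebraic.eq_zero_of_forall_norm_lt_one hc)
  refine ⟨?_, ?_⟩
  · have h2 := hZR σ
    simp only [hZw, map_mul, map_intCast, norm_mul, Complex.norm_intCast] at h2
    rw [← Int.cast_abs, ← Int.natCast_natAbs, Int.cast_natCast] at h2
    have h3 := (le_mul_of_one_le_right (Nat.cast_nonneg x.num.natAbs) hσ).trans h2
    exact_mod_cast h3
  · have h2 := hWR σ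
    simp only [hWw, map_mul, map_natCast, norm_mul, Int.cast_natCast,
      Complex.norm_natCast] at h2
    have h3 := (le_mul_of_one_le_right (Nat.cast_nonneg x.den) hσ).trans h2
    exact_mod_cast h3

theorem norm_le_two_pow_add {a b : ℂ} {i : ℕ} (ha : ‖a‖ ≤ (2 : ℝ) ^ i)
    (hb : ‖b‖ ≤ (2 : ℝ) ^ i) : ‖a + b‖ ≤ (2 : ℝ) ^ (i + 1) := by
  rw [pow_succ, mul_two]
  exact (norm_add_le a b).trans (add_le_add ha hb)

theorem norm_le_two_pow_sub {a b : ℂ} {i : ℕ} (ha : ‖a‖ ≤ (2 : ℝ) ^ i)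
    (hb : ‖b‖ ≤ (2 : ℝ) ^ i) : ‖a - b‖ ≤ (2 : ℝ) ^ (i + 1) := by
  rw [pow_succ, mul_two]
  exact (norm_sub_le a b).trans (add_le_add ha hb)

/-- **The ratio of two radicals of exponent at least three.** -/
theorem power_radicals {d e g : ℕ} (hd : finrank ℚ K ≤ d) (he : (discr K).natAbs ≤ 2 ^ e)
    (hdg : d ≤ g) {m : ℕ} (hm : 3 ≤ m) {ζ U V : 𝓞 K} (hζ : IsPrimitiveRoot ζ m)
    (hne : U ^ m - V ^ m ≠ 0) (hs : Smooth g (Algebra.norm ℤ (U ^ m - V ^ m)).natAbs) :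
    ∃ U₁ V₁ : 𝓞 K, U₁ ^ m ≠ V₁ ^ m ∧ U * V₁ = V * U₁ ∧
      ∀ σ : K →+* ℂ, ‖σ (U₁ : K)‖ ≤ (2 : ℝ) ^ (sUnitBound d e g + 2) ∧
        ‖σ (V₁ : K)‖ ≤ (2 : ℝ) ^ (sUnitBound d e g + 2) := by
  have hσζ : ∀ σ : K →+* ℂ, ‖σ (ζ : K)‖ = 1 := fun σ =>
    Complex.norm_eq_one_of_pow_eq_one (by
      rw [← map_pow, ← map_pow, hζ.pow_eq_one, map_one, map_one]) (by omega)
  have hdvd : ∀ i : ℕ, U - ζ ^ i * V ∣ U ^ m - V ^ m := fun i => by
    have h := sub_dvd_pow_sub_pow U (ζ ^ i * V) m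
    rwa [mul_pow, ← pow_mul, mul_comm i m, pow_mul, hζ.pow_eq_one, one_pow, one_mul] at h
  have hsm : ∀ i : ℕ, Smooth g (Algebra.norm ℤ (U - ζ ^ i * V)).natAbs ∧ U - ζ ^ i * V ≠ 0 :=
    fun i => ⟨smooth_norm_of_dvd (hdvd i) hs, fun h0 => hne (by
      have := hdvd i
      rwa [h0, zero_dvd_iff] at this)⟩
  have hζ0 : ζ ≠ 0 := hζ.ne_zero (by omega)
  have hζ1 : ζ - 1 ≠ 0 := sub_ne_zero.2 (hζ.ne_one (by omega))
  have hω : 1 + ζ ≠ 0 := fun h => by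
    have h2 : ζ ^ 2 = 1 := by rw [eq_neg_of_add_eq_zero_right h]; ring
    exact hζ.pow_ne_one_of_pos_of_lt (by omega) (by omega) h2
  have hsmall : ∀ {z : 𝓞 K}, z ≠ 0 → (∀ σ : K →+* ℂ, ‖σ (z : K)‖ ≤ 2) →
      Smooth g (Algebra.norm ℤ z).natAbs := fun {z} hz h =>
    Smooth.of_le (Int.natAbs_ne_zero.2 (Algebra.norm_ne_zero_iff.2 hz))
      ((EffectiveThue.norm_le_of_bounded hd one_le_two fun σ => by
        exact_mod_cast h σ).trans (Nat.pow_le_pow_right two_pos hdg))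
  obtain ⟨hsA, hA⟩ := hsm 0
  obtain ⟨hsB, hB⟩ := hsm 1
  obtain ⟨hsC, hC⟩ := hsm 2
  simp only [pow_zero, one_mul, pow_one] at hsA hA hsB hB
  obtain ⟨μ, a', b', c', hμ, ea, eb, -, hbd⟩ := sUnit_equation_bound hd he
    (mul_ne_zero hζ0 hA) (mul_ne_zero (neg_ne_zero.2 hω) hB) hC (by ring)
    (by
      rw [map_mul, Int.natAbs_mul]
      exact (hsmall hζ0 fun σ => by rw [hσζ]; norm_num).mul hsA)
    (by
      rw [map_mul, Int.natAbs_mul]
      refine (hsmall (neg_ne_zero.2 hω) fun σ => ?_).mul hsB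
      simp only [map_neg, map_add, map_one, norm_neg]
      exact (norm_add_le _ _).trans (by rw [hσζ, norm_one]; norm_num)) hsC
  simp only [map_mul, map_neg, map_add, map_one, map_sub] at ea eb
  refine ⟨ζ * (-(1 + ζ) * a') - ζ * b', -(1 + ζ) * a' - ζ * b', fun heq => ?_, ?_, fun σ => ?_⟩
  · set U₁ := ζ * (-(1 + ζ) * a') - ζ * b'
    set V₁ := -(1 + ζ) * a' - ζ * b'
    have hcross : U * V₁ = V * U₁ := by
      refine RingOfIntegers.coe_injective (mul_left_cancel₀ hμ ?_)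
      simp only [U₁, V₁, map_mul, map_sub, map_neg, map_add, map_one]
      linear_combination ((U : K) - (V : K) * ζ) * (1 + (ζ : K)) * ea +
        ((U : K) - (V : K)) * (ζ : K) * eb
    have h1 : (U ^ m - V ^ m) * V₁ ^ m = 0 := by
      rw [sub_mul, ← mul_pow, hcross, mul_pow, heq, sub_self]
    have hV : V₁ = 0 := eq_zero_of_pow_eq_zero ((mul_eq_zero.1 h1).resolve_left hne)
    have hU : U₁ = 0 := eq_zero_of_pow_eq_zero (by rw [heq, hV, zero_pow (by omega)])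
    have h2 : (ζ - 1) * (-(1 + ζ) * a') = 0 := by
      calc (ζ - 1) * (-(1 + ζ) * a') = U₁ - V₁ := by simp only [U₁, V₁]; ring
        _ = 0 := by rw [hU, hV, sub_self]
    have ha' : a' = 0 :=
      (mul_eq_zero.1 ((mul_eq_zero.1 h2).resolve_left hζ1)).resolve_left (neg_ne_zero.2 hω)
    refine mul_ne_zero hζ0 hA (RingOfIntegers.coe_injective ?_)
    simp only [map_mul, map_sub, map_zero]
    rw [ea, ha']; simp
  · refine RingOfIntegers.coe_injective (mul_left_cancel₀ hμ ?_)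
    simp only [map_mul, map_sub, map_neg, map_add, map_one]
    linear_combination ((U : K) - (V : K) * ζ) * (1 + (ζ : K)) * ea +
      ((U : K) - (V : K)) * (ζ : K) * eb
  · obtain ⟨ha, hb, -⟩ := hbd σ
    have h1 : ‖σ (-(1 + ζ) * a' : 𝓞 K)‖ ≤ (2 : ℝ) ^ (sUnitBound d e g + 1) := by
      simp only [map_mul, map_neg, map_add, map_one, norm_mul, norm_neg]
      rw [pow_succ']
      exact mul_le_mul ((norm_add_le _ _).trans (by rw [hσζ, norm_one]; norm_num)) ha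
        (norm_nonneg _) (by norm_num)
    have h2 : ‖σ (ζ * b' : 𝓞 K)‖ ≤ (2 : ℝ) ^ (sUnitBound d e g + 1) := by
      simp only [map_mul, norm_mul, hσζ, one_mul]
      exact hb.trans (pow_le_pow_right₀ one_le_two (Nat.le_succ _))
    constructor
    · simp only [map_sub] at h1 h2 ⊢
      refine norm_le_two_pow_sub ?_ h2
      simp only [map_mul, norm_mul, hσζ, one_mul] at h1 ⊢
      exact h1
    · simp only [map_sub]
      exact norm_le_two_pow_sub h1 h2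

/-- **The ratio of two of three square roots.** -/
theorem square_radicals {d e g : ℕ} (hd : finrank ℚ K ≤ d) (he : (discr K).natAbs ≤ 2 ^ e)
    {U V W : 𝓞 K} (hUV : U ^ 2 - V ^ 2 ≠ 0) (hVW : V ^ 2 - W ^ 2 ≠ 0) (hWU : W ^ 2 - U ^ 2 ≠ 0)
    (sUV : Smooth g (Algebra.norm ℤ (U ^ 2 - V ^ 2)).natAbs)
    (sVW : Smooth g (Algebra.norm ℤ (V ^ 2 - W ^ 2)).natAbs)
    (sWU : Smooth g (Algebra.norm ℤ (W ^ 2 - U ^ 2)).natAbs) :
    ∃ U₁ V₁ : 𝓞 K, U₁ ^ 2 ≠ V₁ ^ 2 ∧ U * V₁ = V * U₁ ∧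
      ∀ σ : K →+* ℂ, ‖σ (U₁ : K)‖ ≤ (2 : ℝ) ^ (2 * sUnitBound d e g + 1) ∧
        ‖σ (V₁ : K)‖ ≤ (2 : ℝ) ^ (2 * sUnitBound d e g + 1) := by
  have hfac : ∀ {P Q z : 𝓞 K}, P ^ 2 - Q ^ 2 ≠ 0 →
      Smooth g (Algebra.norm ℤ (P ^ 2 - Q ^ 2)).natAbs → z ∣ P ^ 2 - Q ^ 2 →
      z ≠ 0 ∧ Smooth g (Algebra.norm ℤ z).natAbs := fun h hs hd =>
    ⟨fun h0 => h (by rwa [h0, zero_dvd_iff] at hd), smooth_norm_of_dvd hd hs⟩
  obtain ⟨hA, sA⟩ := hfac hUV sUV (Dvd.intro (U + V) (by ring : (U - V) * (U + V) = _))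
  obtain ⟨hA', sA'⟩ := hfac hUV sUV (Dvd.intro (U - V) (by ring : (U + V) * (U - V) = _))
  obtain ⟨hB, sB⟩ := hfac hVW sVW (Dvd.intro (V + W) (by ring : (V - W) * (V + W) = _))
  obtain ⟨hB', sB'⟩ := hfac hVW sVW (Dvd.intro (-(V + W)) (by ring : (-(V - W)) * -(V + W) = _))
  obtain ⟨hC, sC⟩ := hfac hWU sWU (Dvd.intro (W + U) (by ring : (W - U) * (W + U) = _))
  obtain ⟨hC', sC'⟩ := hfac hWU sWU (Dvd.intro (U - W) (by ring : (-(U + W)) * (U - W) = _))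
  obtain ⟨μ, a₁, b₁, c₁, hμ, ea, eb, -, hbd⟩ :=
    sUnit_equation_bound hd he hA hB hC (by ring) sA sB sC
  obtain ⟨ν, a₂, b₂, c₂, hν, fa, fb, -, hbd'⟩ :=
    sUnit_equation_bound hd he hA' hB' hC' (by ring) sA' sB' sC'
  simp only [map_neg, map_add, map_sub] at ea eb fa fb
  have hBK : (V : K) - (W : K) ≠ 0 := fun h =>
    hB (RingOfIntegers.coe_injective (by rw [map_sub, map_zero]; exact h))
  have g1 : ((U : K) - V) * b₁ = ((V : K) - W) * a₁ := mul_left_cancel₀ hμ (by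
    linear_combination -((U : K) - V) * eb + ((V : K) - W) * ea)
  have g2 : ((U : K) + V) * b₂ = -((V : K) - W) * a₂ := mul_left_cancel₀ hν (by
    linear_combination -((U : K) + V) * fb - ((V : K) - W) * fa)
  have hcross : U * -(a₂ * b₁ + a₁ * b₂) = V * (a₁ * b₂ - a₂ * b₁) := by
    refine RingOfIntegers.coe_injective ?_
    simp only [map_mul, map_neg, map_add, map_sub]
    linear_combination -(a₂ : K) * g1 - (a₁ : K) * g2
  refine ⟨a₁ * b₂ - a₂ * b₁, -(a₂ * b₁ + a₁ * b₂), fun heq => ?_, hcross, fun σ => ?_⟩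
  · set U₁ := a₁ * b₂ - a₂ * b₁
    set V₁ := -(a₂ * b₁ + a₁ * b₂)
    have h1 : (U ^ 2 - V ^ 2) * V₁ ^ 2 = 0 := by
      rw [sub_mul, ← mul_pow, hcross, mul_pow, heq, sub_self]
    have hV : V₁ = 0 := eq_zero_of_pow_eq_zero ((mul_eq_zero.1 h1).resolve_left hUV)
    have hU : U₁ = 0 := eq_zero_of_pow_eq_zero (by rw [heq, hV, zero_pow two_ne_zero])
    have h2 : (2 : 𝓞 K) * (a₁ * b₂) = 0 := by
      calc (2 : 𝓞 K) * (a₁ * b₂) = U₁ - V₁ := by simp only [U₁, V₁]; ring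
        _ = 0 := by rw [hU, hV, sub_self]
    rcases mul_eq_zero.1 ((mul_eq_zero.1 h2).resolve_left two_ne_zero) with h | h
    · refine hA (RingOfIntegers.coe_injective ?_)
      rw [map_sub, ea, h]; simp
    · refine hB' (RingOfIntegers.coe_injective ?_)
      simp only [map_neg, map_sub, map_zero]
      rw [fb, h]; simp
  · obtain ⟨p1, p2, -⟩ := hbd σ
    obtain ⟨q1, q2, -⟩ := hbd' σ
    have hp : ∀ {a b : 𝓞 K}, ‖σ (a : K)‖ ≤ (2 : ℝ) ^ sUnitBound d e g →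
        ‖σ (b : K)‖ ≤ (2 : ℝ) ^ sUnitBound d e g →
        ‖σ ((a * b : 𝓞 K) : K)‖ ≤ (2 : ℝ) ^ (2 * sUnitBound d e g) := fun ha hb => by
      simp only [map_mul, norm_mul]
      rw [two_mul, pow_add]
      exact mul_le_mul ha hb (norm_nonneg _) (by positivity)
    constructor
    · simp only [map_sub]
      exact norm_le_two_pow_sub (hp p1 q2) (hp q1 p2)
    · simp only [map_neg, norm_neg, map_add]
      exact norm_le_two_pow_add (hp q1 p2) (hp p1 q2)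

/-- **The abscissa from a bounded ratio.** -/
theorem abscissa_bound {x : ℚ} {a : ℤ} {m : ℕ} {U V U₁ V₁ t t' : 𝓞 K} (ha : a ≠ 0)
    (hne : U₁ ^ m ≠ V₁ ^ m) (hcross : U * V₁ = V * U₁)
    (hU : U ^ m = ((a * x.num : ℤ) : 𝓞 K) - ((x.den : ℤ) : 𝓞 K) * t)
    (hV : V ^ m = ((a * x.num : ℤ) : 𝓞 K) - ((x.den : ℤ) : 𝓞 K) * t') {s k R : ℕ}
    (hak : a.natAbs ≤ 2 ^ k) (ht : ∀ σ : K →+* ℂ, ‖σ (t : K)‖ ≤ (2 : ℝ) ^ s)
    (ht' : ∀ σ : K →+* ℂ, ‖σ (t' : K)‖ ≤ (2 : ℝ) ^ s)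
    (hR : ∀ σ : K →+* ℂ, ‖σ (U₁ : K)‖ ≤ (2 : ℝ) ^ R ∧ ‖σ (V₁ : K)‖ ≤ (2 : ℝ) ^ R) :
    x.num.natAbs ≤ 2 ^ (m * R + s + k + 1) ∧ x.den ≤ 2 ^ (m * R + s + k + 1) := by
  have hpow : ∀ {z : 𝓞 K} (σ : K →+* ℂ), ‖σ (z : K)‖ ≤ (2 : ℝ) ^ R →
      ‖σ ((z ^ m : 𝓞 K) : K)‖ ≤ (2 : ℝ) ^ (m * R) := fun σ h => by
    simp only [map_pow, norm_pow]
    rw [mul_comm, pow_mul]
    exact pow_le_pow_left₀ (norm_nonneg _) h m
  refine num_den_of_quotient (W := (a : 𝓞 K) * (V₁ ^ m - U₁ ^ m)) (Z := t * V₁ ^ m - t' * U₁ ^ m)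
    (mul_ne_zero (Int.cast_ne_zero.2 ha) (sub_ne_zero.2 hne.symm)) ?_ (fun σ => ?_) fun σ => ?_
  · have h1 := congrArg (fun v : 𝓞 K => (v : K)) (show U ^ m * V₁ ^ m = V ^ m * U₁ ^ m by
      rw [← mul_pow, ← mul_pow, hcross])
    rw [hU, hV] at h1
    simp only [map_mul, map_sub, map_pow, map_intCast] at h1 ⊢
    push_cast at h1
    have hd : (x.den : K) ≠ 0 := Nat.cast_ne_zero.2 x.den_nz
    rw [Rat.cast_def, div_mul_eq_mul_div, div_eq_iff hd]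
    linear_combination h1
  · simp only [map_sub]
    refine (norm_le_two_pow_sub (i := m * R + s + k) ?_ ?_)
    · simp only [map_mul, norm_mul]
      refine (mul_le_mul (ht σ) (hpow σ (hR σ).2) (norm_nonneg _) (by positivity)).trans ?_
      rw [← pow_add]
      exact pow_le_pow_right₀ one_le_two (by omega)
    · simp only [map_mul, norm_mul]
      refine (mul_le_mul (ht' σ) (hpow σ (hR σ).1) (norm_nonneg _) (by positivity)).trans ?_
      rw [← pow_add]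
      exact pow_le_pow_right₀ one_le_two (by omega)
  · simp only [map_mul, map_intCast, norm_mul, Complex.norm_intCast, map_sub]
    rw [← Int.cast_abs, ← Int.natCast_natAbs, Int.cast_natCast]
    have hak' : (a.natAbs : ℝ) ≤ (2 : ℝ) ^ k := by exact_mod_cast hak
    refine (mul_le_mul hak'
      (norm_le_two_pow_sub (hpow σ (hR σ).2) (hpow σ (hR σ).1)) (norm_nonneg _)
      (by positivity)).trans ?_
    rw [← pow_add]
    exact pow_le_pow_right₀ one_le_two (by omega)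

end FA.BakerExplicit.RadicalRatios

end
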