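import Fermat.Agent.BakerExplicit.SuperellipticMonic
import Mathlib.RingTheory.Polynomial.IntegralNormalization

/-!
# Superelliptic equations, any leading coefficient

`a ^ (n - 1) f (x) = g (a x)` with `g` monic, so the monic case bounds `a x`, and then `y`.
-/

set_option autoImplicit false

noncomputable section

namespace FA.BakerExplicit.Superelliptic

open Finset Polynomial

/-- **The bound for `log₂` of a solution, two simple roots and `m ≥ 3`.** -/
def powerBound (n k m : ℕ) : ℕ :=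
  powerExp n (k * n) m * n + powerExp n (k * n) m + n + k + 1

/-- **The bound for `log₂` of a solution, three simple roots and `m = 2`.** -/
def squareBound (n k : ℕ) : ℕ := squareExp n (k * n) * n + squareExp n (k * n) + n + k + 1

/-- The bound for a separable polynomial and any exponent at least two. -/
def separableBound (n k m : ℕ) : ℕ := powerBound n k m + squareBound n k

variable {f : ℤ[X]} {n k : ℕ}

theorem natDegree_pos_of_root {α : ℂ} (hα' : aeval α f.derivative ≠ 0) :
    1 ≤ f.natDegree := by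
  by_contra h0
  exact hα' (by rw [eq_C_of_natDegree_eq_zero (show f.natDegree = 0 by omega), derivative_C,
    map_zero])

/-- The coefficients of the monic polynomial. -/
theorem normalization_coeff_le (hn : f.natDegree ≤ n) (hn0 : 1 ≤ f.natDegree)
    (hk : ∀ i, (f.coeff i).natAbs ≤ 2 ^ k) (i : ℕ) :
    (f.integralNormalization.coeff i).natAbs ≤ 2 ^ (k * n) := by
  have hf0 : f ≠ 0 := fun h => by simp [h] at hn0
  rcases eq_or_ne i f.natDegree with rfl | hi
  · rw [integralNormalization_coeff_natDegree hf0]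
    exact Nat.one_le_two_pow
  rw [integralNormalization_coeff_ne_natDegree hi, Int.natAbs_mul, Int.natAbs_pow]
  refine (Nat.mul_le_mul (hk i) (Nat.pow_le_pow_left (hk f.natDegree) _)).trans ?_
  rw [← pow_mul, ← pow_add]
  refine Nat.pow_le_pow_right two_pos ?_
  calc k + k * (f.natDegree - 1 - i) ≤ k * 1 + k * (f.natDegree - 1) :=
        Nat.add_le_add (mul_one k).ge (Nat.mul_le_mul_left _ (Nat.sub_le _ _))
    _ ≤ k * n := by rw [← mul_add]; exact Nat.mul_le_mul_left _ (by omega)

/-- A simple root of `f` gives one of the monic polynomial. -/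
theorem aeval_normalization (hn0 : 1 ≤ f.natDegree) {α : ℂ} (h1 : aeval α f = 0)
    (h2 : aeval α f.derivative ≠ 0) :
    aeval ((f.leadingCoeff : ℂ) * α) f.integralNormalization = 0 ∧
      aeval ((f.leadingCoeff : ℂ) * α) f.integralNormalization.derivative ≠ 0 := by
  have hf0 : f ≠ 0 := fun h => by simp [h] at hn0
  set a := f.leadingCoeff with ha
  have ha0 : a ≠ 0 := leadingCoeff_ne_zero.2 hf0
  have hev : ∀ w : ℂ, aeval ((a : ℂ) * w) f.integralNormalization =
      (a : ℂ) ^ (f.natDegree - 1) * aeval w f := fun w => by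
    have h := integralNormalization_eval₂_leadingCoeff_mul hn0 (algebraMap ℤ ℂ) w
    rwa [eq_intCast, ← aeval_def, ← aeval_def] at h
  refine ⟨by rw [hev, h1, mul_zero], fun h3 => h2 ?_⟩
  set G := f.integralNormalization.map (Int.castRingHom ℂ) with hG
  have hcomp : G.comp (C (a : ℂ) * X) =
      C ((a : ℂ) ^ (f.natDegree - 1)) * f.map (Int.castRingHom ℂ) :=
    Polynomial.funext fun w => by
      rw [eval_comp, eval_mul, eval_mul, eval_C, eval_C, eval_X, hG, eval_map, eval_map,
        ← algebraMap_int_eq, ← aeval_def, ← aeval_def, hev]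
  have h4 := congrArg (fun P : ℂ[X] => P.derivative.eval α) hcomp
  simp only [derivative_comp, derivative_mul, derivative_C, derivative_X, zero_mul, zero_add,
    mul_one, eval_mul, eval_C, eval_comp, eval_X] at h4
  rw [hG, derivative_map, derivative_map, eval_map, eval_map, ← algebraMap_int_eq, ← aeval_def,
    ← aeval_def, h3, mul_zero, eq_comm, mul_eq_zero] at h4
  exact h4.resolve_left (pow_ne_zero _ (Int.cast_ne_zero.2 ha0))

/-- The equation and the simple roots of the monic polynomial. -/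
theorem normalization_data (hn : f.natDegree ≤ n) (hn0 : 1 ≤ f.natDegree)
    (hk : ∀ i, (f.coeff i).natAbs ≤ 2 ^ k) {b x y : ℤ} {m : ℕ} (hb : b ≠ 0)
    (hbk : b.natAbs ≤ 2 ^ k) (heq : b * y ^ m = f.eval x) :
    ∃ B : ℤ, B ≠ 0 ∧ B.natAbs ≤ 2 ^ (k * n) ∧
      B * y ^ m = f.integralNormalization.eval (f.leadingCoeff * x) ∧
      ∀ α : ℂ, aeval α f = 0 → aeval α f.derivative ≠ 0 →
        aeval ((f.leadingCoeff : ℂ) * α) f.integralNormalization = 0 ∧
          aeval ((f.leadingCoeff : ℂ) * α) f.integralNormalization.derivative ≠ 0 := by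
  have hf0 : f ≠ 0 := fun h => by simp [h] at hn0
  set a := f.leadingCoeff with ha
  have ha0 : a ≠ 0 := leadingCoeff_ne_zero.2 hf0
  refine ⟨a ^ (f.natDegree - 1) * b, mul_ne_zero (pow_ne_zero _ ha0) hb, ?_, ?_, ?_⟩
  · rw [Int.natAbs_mul, Int.natAbs_pow]
    refine (Nat.mul_le_mul (Nat.pow_le_pow_left (hk _) _) hbk).trans ?_
    rw [← pow_mul, ← pow_add]
    refine Nat.pow_le_pow_right two_pos ?_
    calc k * (f.natDegree - 1) + k = k * (f.natDegree - 1 + 1) := by ring
      _ ≤ k * n := Nat.mul_le_mul_left _ (by omega)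
  · have h := integralNormalization_eval₂_leadingCoeff_mul hn0 (RingHom.id ℤ) x
    rw [RingHom.id_apply, eval₂_id, eval₂_id] at h
    rw [h, mul_assoc, heq]
  · exact fun α h1 h2 => aeval_normalization hn0 h1 h2

/-- From a bound on `a x` to both variables. -/
theorem box_of_bound (hn : f.natDegree ≤ n) (hn0 : 1 ≤ f.natDegree)
    (hk : ∀ i, (f.coeff i).natAbs ≤ 2 ^ k) {b x y : ℤ} {m : ℕ} (hm : 1 ≤ m) (hb : b ≠ 0)
    (heq : b * y ^ m = f.eval x) {E : ℕ}
    (hE : |((f.leadingCoeff * x : ℤ) : ℝ)| ≤ (2 : ℝ) ^ E) :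
    x.natAbs < 2 ^ (E * n + E + n + k + 1) ∧ y.natAbs < 2 ^ (E * n + E + n + k + 1) := by
  have hf0 : f ≠ 0 := fun h => by simp [h] at hn0
  rw [← Int.cast_abs, ← Int.natCast_natAbs, Int.cast_natCast] at hE
  have hax : (f.leadingCoeff * x).natAbs ≤ 2 ^ E := by exact_mod_cast hE
  have hx : x.natAbs ≤ 2 ^ E := by
    refine le_trans ?_ hax
    rw [Int.natAbs_mul]
    exact Nat.le_mul_of_pos_left _ (Int.natAbs_pos.2 (leadingCoeff_ne_zero.2 hf0))
  have hfx : (f.eval x).natAbs ≤ 2 ^ (n + k + E * n) := by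
    rw [eval_eq_sum_range' (Nat.lt_succ_of_le hn)]
    refine (Int.natAbs_sum_le _ _).trans
      ((sum_le_card_nsmul _ _ (2 ^ k * (2 ^ E) ^ n) fun i hi => ?_).trans ?_)
    · rw [Int.natAbs_mul, Int.natAbs_pow]
      exact Nat.mul_le_mul (hk i) ((Nat.pow_le_pow_left hx i).trans
        (Nat.pow_le_pow_right (Nat.two_pow_pos _) (Nat.lt_succ_iff.1 (mem_range.1 hi))))
    · rw [card_range, smul_eq_mul, ← pow_mul, add_assoc n k, pow_add _ n, pow_add _ k]
      exact Nat.mul_le_mul_right _ (Nat.lt_two_pow_self (n := n))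
  have hy : y.natAbs ≤ 2 ^ (n + k + E * n) := by
    rcases eq_or_ne y 0 with rfl | hy0
    · simp
    refine le_trans ?_ hfx
    rw [← heq, Int.natAbs_mul, Int.natAbs_pow]
    exact (Nat.le_self_pow (by omega) _).trans
      (Nat.le_mul_of_pos_left _ (Int.natAbs_pos.2 hb))
  exact ⟨lt_of_le_of_lt hx (Nat.pow_lt_pow_right one_lt_two (by omega)),
    lt_of_le_of_lt hy (Nat.pow_lt_pow_right one_lt_two (by omega))⟩

/-- **Two simple roots and `m ≥ 3`.** -/
theorem power_bound (hn : f.natDegree ≤ n) (hk : ∀ i, (f.coeff i).natAbs ≤ 2 ^ k) {b x y : ℤ}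
    {m : ℕ} (hm : 3 ≤ m) (hb : b ≠ 0) (hbk : b.natAbs ≤ 2 ^ k) (heq : b * y ^ m = f.eval x)
    {α : Fin 2 → ℂ} (hinj : Function.Injective α) (hα : ∀ i, aeval (α i) f = 0)
    (hα' : ∀ i, aeval (α i) f.derivative ≠ 0) :
    x.natAbs < 2 ^ powerBound n k m ∧ y.natAbs < 2 ^ powerBound n k m := by
  have hn0 := natDegree_pos_of_root (hα' 0)
  have hf0 : f ≠ 0 := fun h => by simp [h] at hn0
  have ha : (f.leadingCoeff : ℂ) ≠ 0 := Int.cast_ne_zero.2 (leadingCoeff_ne_zero.2 hf0)
  obtain ⟨B, hB, hBk, hBeq, hroot⟩ := normalization_data hn hn0 hk hb hbk heq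
  have h := power_monic_bound (monic_integralNormalization hf0)
    (natDegree_integralNormalization.trans_le hn) (normalization_coeff_le hn hn0 hk) hm hB hBk hBeq
    (α := fun i => (f.leadingCoeff : ℂ) * α i) (fun i j e => hinj (mul_left_cancel₀ ha e))
    (fun i => (hroot _ (hα i) (hα' i)).1) fun i => (hroot _ (hα i) (hα' i)).2
  exact box_of_bound hn hn0 hk (by omega) hb heq h

/-- **Three simple roots and `m = 2`.** -/
theorem square_bound (hn : f.natDegree ≤ n) (hk : ∀ i, (f.coeff i).natAbs ≤ 2 ^ k) {b x y : ℤ}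
    (hb : b ≠ 0) (hbk : b.natAbs ≤ 2 ^ k) (heq : b * y ^ 2 = f.eval x)
    {α : Fin 3 → ℂ} (hinj : Function.Injective α) (hα : ∀ i, aeval (α i) f = 0)
    (hα' : ∀ i, aeval (α i) f.derivative ≠ 0) :
    x.natAbs < 2 ^ squareBound n k ∧ y.natAbs < 2 ^ squareBound n k := by
  have hn0 := natDegree_pos_of_root (hα' 0)
  have hf0 : f ≠ 0 := fun h => by simp [h] at hn0
  have ha : (f.leadingCoeff : ℂ) ≠ 0 := Int.cast_ne_zero.2 (leadingCoeff_ne_zero.2 hf0)
  obtain ⟨B, hB, hBk, hBeq, hroot⟩ := normalization_data hn hn0 hk hb hbk heq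
  have h := square_monic_bound (monic_integralNormalization hf0)
    (natDegree_integralNormalization.trans_le hn) (normalization_coeff_le hn hn0 hk) hB hBk hBeq
    (α := fun i => (f.leadingCoeff : ℂ) * α i) (fun i j e => hinj (mul_left_cancel₀ ha e))
    (fun i => (hroot _ (hα i) (hα' i)).1) fun i => (hroot _ (hα i) (hα' i)).2
  exact box_of_bound hn hn0 hk (by omega) hb heq h

/-- A separable polynomial of degree at least `r` has `r` simple roots. -/
theorem exists_simple_roots {r : ℕ} (hr : r ≤ f.natDegree)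
    (hsep : (f.map (Int.castRingHom ℚ)).Separable) :
    ∃ α : Fin r → ℂ, Function.Injective α ∧ (∀ i, aeval (α i) f = 0) ∧
      ∀ i, aeval (α i) f.derivative ≠ 0 := by
  classical
  set G := f.map (Int.castRingHom ℂ) with hG
  have hGsep : G.Separable := by
    have h := hsep.map (f := algebraMap ℚ ℂ)
    rwa [Polynomial.map_map,
      Subsingleton.elim ((algebraMap ℚ ℂ).comp (Int.castRingHom ℚ)) (Int.castRingHom ℂ)] at h
  have hcard : G.roots.toFinset.card = f.natDegree := by
    rw [Multiset.toFinset_card_of_nodup (nodup_roots hGsep),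
      ← (IsAlgClosed.splits G).natDegree_eq_card_roots,
      natDegree_map_eq_of_injective Int.cast_injective]
  obtain ⟨S, hS, hSc⟩ := exists_subset_card_eq (hr.trans_eq hcard.symm)
  let e : Fin r ≃ S := (S.equivFinOfCardEq hSc).symm
  have hroot : ∀ i, aeval (e i : ℂ) f = 0 := fun i => by
    have h := (mem_roots'.1 (Multiset.mem_toFinset.1 (hS (e i).2))).2
    rwa [IsRoot.def, hG, eval_map, ← algebraMap_int_eq, ← aeval_def] at h
  refine ⟨fun i => e i, Subtype.val_injective.comp e.injective, hroot, fun i h => ?_⟩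
  have h1 : G.eval (e i : ℂ) = 0 := by
    rw [hG, eval_map, ← algebraMap_int_eq, ← aeval_def]; exact hroot i
  have h2 : G.derivative.eval (e i : ℂ) = 0 := by
    rw [hG, derivative_map, eval_map, ← algebraMap_int_eq, ← aeval_def]; exact h
  obtain ⟨u, v, huv⟩ := (separable_def' G).1 hGsep
  have := congrArg (eval (e i : ℂ)) huv
  rw [eval_add, eval_mul, eval_mul, h1, h2, mul_zero, mul_zero, add_zero, eval_one] at this
  exact zero_ne_one this

/-- **Separable `f` of degree at least three, every exponent at least two.** -/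
theorem separable_bound (hn : f.natDegree ≤ n) (hn3 : 3 ≤ f.natDegree)
    (hsep : (f.map (Int.castRingHom ℚ)).Separable) (hk : ∀ i, (f.coeff i).natAbs ≤ 2 ^ k)
    {b x y : ℤ} {m : ℕ} (hm : 2 ≤ m) (hb : b ≠ 0) (hbk : b.natAbs ≤ 2 ^ k)
    (heq : b * y ^ m = f.eval x) :
    x.natAbs < 2 ^ separableBound n k m ∧ y.natAbs < 2 ^ separableBound n k m := by
  have hle : ∀ {z E : ℕ}, z < 2 ^ E → E ≤ separableBound n k m → z < 2 ^ separableBound n k m :=
    fun hz hE => hz.trans_le (Nat.pow_le_pow_right two_pos hE)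
  rcases eq_or_lt_of_le hm with rfl | hm3
  · obtain ⟨α, hinj, hα, hα'⟩ := exists_simple_roots hn3 hsep
    obtain ⟨h1, h2⟩ := square_bound hn hk hb hbk heq hinj hα hα'
    exact ⟨hle h1 (Nat.le_add_left _ _), hle h2 (Nat.le_add_left _ _)⟩
  · obtain ⟨α, hinj, hα, hα'⟩ := exists_simple_roots (show 2 ≤ f.natDegree by omega) hsep
    obtain ⟨h1, h2⟩ := power_bound hn hk hm3 hb hbk heq hinj hα hα'
    exact ⟨hle h1 (Nat.le_add_right _ _), hle h2 (Nat.le_add_right _ _)⟩

end FA.BakerExplicit.Superelliptic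

end
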