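import Fermat.Agent.BakerExplicit.RadicalField
import Fermat.Agent.BakerExplicit.RadicalRatios
import Fermat.Agent.BakerExplicit.Superelliptic

/-!
# `S`-integral solutions of hyper- and superelliptic equations, effectively

`b y ^ m = f (x)` with the denominator of `x` and `b` composed of small primes: in the field of
the radicals the differences of the radicals have smooth norms, so `x` is bounded.
-/

set_option autoImplicit false

noncomputable section

namespace FA.BakerExplicit.SIntegralSuperelliptic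

open Polynomial Finset NumberField Module EffectiveSUnits RadicalField RadicalRatios Superelliptic

/-- The primes of the `S`-unit equation are at most `2 ^` this. -/
def primeExp (n k m g : ℕ) : ℕ := badExp n (k * n) m (g + k)

/-- The bound of the `S`-unit equation. -/
def radicalUnitBound (n k m g : ℕ) : ℕ :=
  sUnitBound (radDeg n m) (radDisc n (k * n) m (g + k)) (primeExp n k m g)

/-- **The bound for `log₂` of numerator and denominator of `x`.** -/
def abscissaBound (n k m g : ℕ) : ℕ :=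
  m * (2 * radicalUnitBound n k m g + 2) + (k * n + n) + k + 1

/-- **The bound for `log₂` of numerator and denominator of `y`, when `b` is bounded too.** -/
def ordinateBound (n k m g : ℕ) : ℕ := n + k + abscissaBound n k m g * n

variable {f : ℤ[X]} {n k m g : ℕ}

/-- The integral equation. -/
theorem homogeneous_equation (hn0 : 1 ≤ f.natDegree) {b : ℤ} {x y : ℚ}
    (heq : (b : ℚ) * y ^ m = aeval x f) :
    (((x.den : ℤ) ^ f.natDegree * f.leadingCoeff ^ (f.natDegree - 1) * b : ℤ) : ℚ) * y ^ m =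
      (((f.integralNormalization.scaleRoots (x.den : ℤ)).eval
        (f.leadingCoeff * x.num) : ℤ) : ℚ) := by
  have hf0 : f ≠ 0 := fun h => by simp [h] at hn0
  have hdeg : f.integralNormalization.natDegree = f.natDegree := natDegree_integralNormalization
  have h1 := scaleRoots_eval₂_mul (algebraMap ℤ ℚ) ((f.leadingCoeff : ℚ) * x) (x.den : ℤ)
    (p := f.integralNormalization)
  have h2 := integralNormalization_eval₂_leadingCoeff_mul hn0 (algebraMap ℤ ℚ) x
  rw [eq_intCast] at h1 h2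
  rw [h2, hdeg, ← aeval_def, ← aeval_def, ← heq] at h1
  rw [← aeval_intCast (R := ℚ), show ((f.leadingCoeff * x.num : ℤ) : ℚ) =
    ((x.den : ℤ) : ℚ) * ((f.leadingCoeff : ℚ) * x) by
      push_cast
      rw [← Rat.mul_den_eq_num]; ring, h1]
  push_cast
  ring

/-- The zero of `f`. -/
theorem root_bound (hn : f.natDegree ≤ n) (hn0 : 1 ≤ f.natDegree)
    (hk : ∀ i, (f.coeff i).natAbs ≤ 2 ^ k) {x : ℚ} (hx : aeval x f = 0) :
    x.num.natAbs ≤ 2 ^ (k * n + n + k) ∧ x.den ≤ 2 ^ (k * n + n + k) := by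
  have hf0 : f ≠ 0 := fun h => by simp [h] at hn0
  set z := (f.leadingCoeff : ℚ) * x with hz
  have hroot : aeval z f.integralNormalization = 0 := by
    have h2 := integralNormalization_eval₂_leadingCoeff_mul hn0 (algebraMap ℤ ℚ) x
    rw [eq_intCast, ← aeval_def, ← aeval_def, hx, mul_zero] at h2
    exact h2
  obtain ⟨w, hw⟩ := IsIntegrallyClosed.isIntegral_iff.1
    (⟨_, monic_integralNormalization hf0, by rw [← aeval_def]; exact hroot⟩ : IsIntegral ℤ z)
  rw [eq_intCast] at hw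
  have hwC : aeval ((w : ℤ) : ℂ) f.integralNormalization = 0 := by
    have h3 : ((f.integralNormalization.eval w : ℤ) : ℚ) = 0 := by
      rw [← aeval_intCast (R := ℚ), hw, hroot]
    rw [aeval_intCast, Int.cast_eq_zero.1 h3, Int.cast_zero]
  have hbw := norm_root_le (monic_integralNormalization hf0)
    (natDegree_integralNormalization.trans_le hn) (normalization_coeff_le hn hn0 hk) hwC
  rw [rootSize] at hbw
  refine num_den_of_quotient (K := ℚ) (W := (f.leadingCoeff : 𝓞 ℚ)) (Z := (w : 𝓞 ℚ))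
    (Int.cast_ne_zero.2 (leadingCoeff_ne_zero.2 hf0)) ?_ (fun σ => ?_) fun σ => ?_
  · simp only [map_intCast, Rat.cast_id]
    rw [hw, hz, mul_comm]
  · simp only [map_intCast]
    exact hbw.trans (pow_le_pow_right₀ one_le_two (by omega))
  · simp only [map_intCast, Complex.norm_intCast]
    rw [← Int.cast_abs, ← Int.natCast_natAbs, Int.cast_natCast]
    refine le_trans ?_ (pow_le_pow_right₀ one_le_two (Nat.le_add_left k (k * n + n)))
    exact_mod_cast hk f.natDegree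

/-- **The field and the radicals of an equation.** -/
theorem exists_radicals (hn : f.natDegree ≤ n) (hk : ∀ i, (f.coeff i).natAbs ≤ 2 ^ k)
    (hm : 1 ≤ m) {r : ℕ} {α : Fin r → ℂ} (hinj : Function.Injective α) (hα : ∀ i, aeval (α i) f = 0)
    (hα' : ∀ i, aeval (α i) f.derivative ≠ 0) (hn0 : 1 ≤ f.natDegree) {b : ℤ} (hb : b ≠ 0)
    (hbs : Smooth g b.natAbs) {x y : ℚ} (hy : y ≠ 0)
    (hden : ∀ q : ℕ, q.Prime → q ∣ x.den → q ≤ 2 ^ g) (heq : (b : ℚ) * y ^ m = aeval x f) :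
    ∃ (L : IntermediateField ℚ ℂ) (_ : NumberField L) (ζ : 𝓞 L) (t U : Fin r → 𝓞 L),
      finrank ℚ L ≤ radDeg n m ∧ (discr L).natAbs ≤ 2 ^ radDisc n (k * n) m (g + k) ∧
      IsPrimitiveRoot ζ m ∧
      (∀ i, U i ^ m = ((f.leadingCoeff * x.num : ℤ) : 𝓞 L) - ((x.den : ℤ) : 𝓞 L) * t i) ∧
      (∀ i (σ : L →+* ℂ), ‖σ (t i : L)‖ ≤ (2 : ℝ) ^ (k * n + n)) ∧
      ∀ i j, i ≠ j → U i ^ m - U j ^ m ≠ 0 ∧
        Smooth (primeExp n k m g) (Algebra.norm ℤ (U i ^ m - U j ^ m)).natAbs := by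
  have hf0 : f ≠ 0 := fun h => by simp [h] at hn0
  set a := f.leadingCoeff with ha
  have ha0 : a ≠ 0 := leadingCoeff_ne_zero.2 hf0
  set G := f.integralNormalization with hG
  have hGm : G.Monic := monic_integralNormalization hf0
  have hGn : G.natDegree ≤ n := natDegree_integralNormalization.trans_le hn
  have hGk : ∀ i, (G.coeff i).natAbs ≤ 2 ^ (k * n) := normalization_coeff_le hn hn0 hk
  have hD : ((x.den : ℤ)) ≠ 0 := Int.natCast_ne_zero.2 x.den_nz
  have hDs : Smooth (g + k) (x.den : ℤ).natAbs := fun q hq hd =>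
    (hden q hq (by simpa using hd)).trans (Nat.pow_le_pow_right two_pos (Nat.le_add_right g k))
  obtain ⟨L, hNF, ζ, hdeg, hdisc, hζ, hrad⟩ := exists_radical_field hGm hGn (by omega) hGk
    (g := g + k) hm hD hDs
    (mul_ne_zero (mul_ne_zero (pow_ne_zero _ hD) (pow_ne_zero _ ha0)) hb)
    (by
      rw [Int.natAbs_mul, Int.natAbs_mul, Int.natAbs_pow, Int.natAbs_pow]
      exact ((hDs.pow _).mul (((Smooth.of_le (Int.natAbs_ne_zero.2 ha0) (hk _)).mono
        (Nat.le_add_left k g)).pow _)).mul (hbs.mono (Nat.le_add_right g k)))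
    hy (homogeneous_equation hn0 heq)
  have hαG : ∀ i, aeval ((a : ℂ) * α i) G = 0 ∧ aeval ((a : ℂ) * α i) G.derivative ≠ 0 := fun i =>
    aeval_normalization hn0 (hα i) (hα' i)
  choose t U ht hU0 hU using fun i => hrad _ (hαG i).1 (hαG i).2
  have hUm : ∀ i, U i ^ m = ((a * x.num : ℤ) : 𝓞 L) - ((x.den : ℤ) : 𝓞 L) * t i := fun i => by
    refine RingOfIntegers.coe_injective ((algebraMap L ℂ).injective ?_)
    simp only [map_pow, map_sub, map_mul, map_intCast]
    rw [show algebraMap L ℂ (U i : L) = ((U i : L) : ℂ) from rfl,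
      show algebraMap L ℂ (t i : L) = ((t i : L) : ℂ) from rfl, hU, ht]
  have htb : ∀ i (σ : L →+* ℂ), ‖σ (t i : L)‖ ≤ (2 : ℝ) ^ (k * n + n) := fun i σ =>
    norm_conj_root_le hGm hGn hGk (by rw [ht]; exact (hαG i).1) σ
  refine ⟨L, hNF, ζ, t, U, hdeg, hdisc, ?_, hUm, htb, fun i j hij => ?_⟩
  · exact IsPrimitiveRoot.of_map_of_injective (f := (algebraMap L ℂ).comp (algebraMap (𝓞 L) L))
      hζ ((algebraMap L ℂ).injective.comp RingOfIntegers.coe_injective)
  have e : U i ^ m - U j ^ m = ((x.den : ℤ) : 𝓞 L) * (t j - t i) := by rw [hUm, hUm]; ring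
  have hne : t j - t i ≠ 0 := fun h => hij (hinj (mul_left_cancel₀ (Int.cast_ne_zero.2 ha0)
    (by rw [← ht i, ← ht j, sub_eq_zero.1 h])))
  refine ⟨e ▸ mul_ne_zero (Int.cast_ne_zero.2 hD) hne, ?_⟩
  rw [e, map_mul, ← eq_intCast (algebraMap ℤ (𝓞 L)), Algebra.norm_algebraMap, Int.natAbs_mul,
    Int.natAbs_pow]
  refine Smooth.mul ((hDs.pow _).mono ?_) ?_
  · rw [primeExp, badExp]; omega
  refine Smooth.of_le (Int.natAbs_ne_zero.2 (Algebra.norm_ne_zero_iff.2 hne))
    ((EffectiveThue.norm_le_of_bounded hdeg (Nat.one_le_two_pow (n := k * n + n + 1))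
      fun σ => ?_).trans ?_)
  · rw [Nat.cast_pow, Nat.cast_ofNat]
    simp only [map_sub]
    exact norm_le_two_pow_sub (htb j σ) (htb i σ)
  · rw [← pow_mul, mul_comm, primeExp, badExp]
    refine Nat.pow_le_pow_right two_pos ?_
    have h1 := Nat.mul_le_mul_left (radDeg n m)
      (show k * n + n + 1 ≤ k * n + 2 * n + (k * n + n) * n + k * n + n + 2 by omega)
    omega

theorem natDegree_pos (hf : ∃ α : ℂ, aeval α f.derivative ≠ 0) : 1 ≤ f.natDegree := by
  obtain ⟨α, hα⟩ := hf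
  exact natDegree_pos_of_root hα

/-- **Two simple roots and `m ≥ 3`.** -/
theorem power_bound_smooth (hn : f.natDegree ≤ n) (hk : ∀ i, (f.coeff i).natAbs ≤ 2 ^ k)
    (hm : 3 ≤ m) {α : Fin 2 → ℂ} (hinj : Function.Injective α) (hα : ∀ i, aeval (α i) f = 0)
    (hα' : ∀ i, aeval (α i) f.derivative ≠ 0) {b : ℤ} (hb : b ≠ 0) (hbs : Smooth g b.natAbs)
    {x y : ℚ} (hden : ∀ q : ℕ, q.Prime → q ∣ x.den → q ≤ 2 ^ g)
    (heq : (b : ℚ) * y ^ m = aeval x f) :
    x.num.natAbs ≤ 2 ^ abscissaBound n k m g ∧ x.den ≤ 2 ^ abscissaBound n k m g := by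
  have hn0 := natDegree_pos ⟨_, hα' 0⟩
  have hle : ∀ {E : ℕ}, E ≤ abscissaBound n k m g → x.num.natAbs ≤ 2 ^ E ∧ x.den ≤ 2 ^ E →
      x.num.natAbs ≤ 2 ^ abscissaBound n k m g ∧ x.den ≤ 2 ^ abscissaBound n k m g := fun hE h =>
    ⟨h.1.trans (Nat.pow_le_pow_right two_pos hE), h.2.trans (Nat.pow_le_pow_right two_pos hE)⟩
  rcases eq_or_ne y 0 with rfl | hy
  · rw [zero_pow (by omega), mul_zero, eq_comm] at heq
    exact hle (by rw [abscissaBound]; omega) (root_bound hn hn0 hk heq)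
  obtain ⟨L, hNF, ζ, t, U, hdeg, hdisc, hζ, hU, ht, hdiff⟩ :=
    exists_radicals hn hk (by omega) hinj hα hα' hn0 hb hbs hy hden heq
  obtain ⟨hne, hs⟩ := hdiff 0 1 (by decide)
  have hdg : radDeg n m ≤ primeExp n k m g := by
    rw [primeExp, badExp]
    have := Nat.le_mul_of_pos_right (radDeg n m)
      (show 0 < k * n + 2 * n + (k * n + n) * n + k * n + n + 2 by omega)
    omega
  obtain ⟨U₁, V₁, hne₁, hcross, hb₁⟩ := power_radicals hdeg hdisc hdg hm hζ hne hs
  refine hle ?_ (abscissa_bound (leadingCoeff_ne_zero.2 fun h => by simp [h] at hn0) hne₁ hcross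
    (hU 0) (hU 1) (hk _) (ht 0) (ht 1) hb₁)
  rw [abscissaBound, ← radicalUnitBound]
  have := Nat.mul_le_mul_left m (show radicalUnitBound n k m g + 2 ≤
    2 * radicalUnitBound n k m g + 2 by omega)
  omega

/-- **Three simple roots and `m = 2`.** -/
theorem square_bound_smooth (hn : f.natDegree ≤ n) (hk : ∀ i, (f.coeff i).natAbs ≤ 2 ^ k)
    {α : Fin 3 → ℂ} (hinj : Function.Injective α) (hα : ∀ i, aeval (α i) f = 0)
    (hα' : ∀ i, aeval (α i) f.derivative ≠ 0) {b : ℤ} (hb : b ≠ 0) (hbs : Smooth g b.natAbs)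
    {x y : ℚ} (hden : ∀ q : ℕ, q.Prime → q ∣ x.den → q ≤ 2 ^ g)
    (heq : (b : ℚ) * y ^ 2 = aeval x f) :
    x.num.natAbs ≤ 2 ^ abscissaBound n k 2 g ∧ x.den ≤ 2 ^ abscissaBound n k 2 g := by
  have hn0 := natDegree_pos ⟨_, hα' 0⟩
  have hle : ∀ {E : ℕ}, E ≤ abscissaBound n k 2 g → x.num.natAbs ≤ 2 ^ E ∧ x.den ≤ 2 ^ E →
      x.num.natAbs ≤ 2 ^ abscissaBound n k 2 g ∧ x.den ≤ 2 ^ abscissaBound n k 2 g := fun hE h =>
    ⟨h.1.trans (Nat.pow_le_pow_right two_pos hE), h.2.trans (Nat.pow_le_pow_right two_pos hE)⟩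
  rcases eq_or_ne y 0 with rfl | hy
  · rw [zero_pow two_ne_zero, mul_zero, eq_comm] at heq
    exact hle (by rw [abscissaBound]; omega) (root_bound hn hn0 hk heq)
  obtain ⟨L, hNF, ζ, t, U, hdeg, hdisc, -, hU, ht, hdiff⟩ :=
    exists_radicals hn hk (by omega) hinj hα hα' hn0 hb hbs hy hden heq
  obtain ⟨h01, s01⟩ := hdiff 0 1 (by decide)
  obtain ⟨h12, s12⟩ := hdiff 1 2 (by decide)
  obtain ⟨h20, s20⟩ := hdiff 2 0 (by decide)
  obtain ⟨U₁, V₁, hne₁, hcross, hb₁⟩ := square_radicals hdeg hdisc h01 h12 h20 s01 s12 s20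
  refine hle ?_ (abscissa_bound (leadingCoeff_ne_zero.2 fun h => by simp [h] at hn0) hne₁ hcross
    (hU 0) (hU 1) (hk _) (ht 0) (ht 1) hb₁)
  rw [abscissaBound, ← radicalUnitBound]
  omega

/-- **Separable `f`, every exponent.** -/
theorem separable_bound_smooth (hn : f.natDegree ≤ n) (hn3 : 3 ≤ f.natDegree)
    (hsep : (f.map (Int.castRingHom ℚ)).Separable) (hk : ∀ i, (f.coeff i).natAbs ≤ 2 ^ k)
    (hm : 2 ≤ m) {b : ℤ} (hb : b ≠ 0) (hbs : Smooth g b.natAbs)
    {x y : ℚ} (hden : ∀ q : ℕ, q.Prime → q ∣ x.den → q ≤ 2 ^ g)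
    (heq : (b : ℚ) * y ^ m = aeval x f) :
    x.num.natAbs ≤ 2 ^ abscissaBound n k m g ∧ x.den ≤ 2 ^ abscissaBound n k m g := by
  rcases eq_or_lt_of_le hm with rfl | hm3
  · obtain ⟨α, hinj, hα, hα'⟩ := exists_simple_roots hn3 hsep
    exact square_bound_smooth hn hk hinj hα hα' hb hbs hden heq
  · obtain ⟨α, hinj, hα, hα'⟩ := exists_simple_roots (show 2 ≤ f.natDegree by omega) hsep
    exact power_bound_smooth hn hk hm3 hinj hα hα' hb hbs hden heq

/-- The ordinate, when `b` is bounded. -/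
theorem ordinate_bound (hn : f.natDegree ≤ n) (hk : ∀ i, (f.coeff i).natAbs ≤ 2 ^ k) (hm : 1 ≤ m)
    {b : ℤ} (hb : b ≠ 0) (hbk : b.natAbs ≤ 2 ^ k) {x y : ℚ} (heq : (b : ℚ) * y ^ m = aeval x f)
    {T : ℕ} (hx : x.num.natAbs ≤ 2 ^ T) (hxd : x.den ≤ 2 ^ T) :
    y.num.natAbs ≤ 2 ^ (n + k + T * n) ∧ y.den ≤ 2 ^ (n + k + T * n) := by
  rcases eq_or_ne y 0 with rfl | hy
  · simp [Nat.one_le_two_pow]
  set F := ∑ i ∈ range (n + 1), f.coeff i * x.num ^ i * (x.den : ℤ) ^ (n - i) with hF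
  have e : b * y.num ^ m * (x.den : ℤ) ^ n = (y.den : ℤ) ^ m * F := by
    have h : ((b * y.num ^ m * (x.den : ℤ) ^ n : ℤ) : ℚ) = (((y.den : ℤ) ^ m * F : ℤ) : ℚ) := by
      push_cast [hF]
      rw [← Rat.mul_den_eq_num y, mul_pow, mul_sum]
      calc (b : ℚ) * (y ^ m * (y.den : ℚ) ^ m) * (x.den : ℚ) ^ n
          = (y.den : ℚ) ^ m * ((x.den : ℚ) ^ n * ((b : ℚ) * y ^ m)) := by ring
        _ = _ := by
          rw [heq, aeval_eq_sum_range' (Nat.lt_succ_of_le hn), mul_sum, mul_sum]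
          refine sum_congr rfl fun i hi => ?_
          rw [mem_range] at hi
          rw [zsmul_eq_mul, ← Rat.mul_den_eq_num x, mul_pow]
          conv_lhs => rw [show n = n - i + i by omega, pow_add]
          ring
    exact_mod_cast h
  have hcop : IsCoprime (y.num ^ m) ((y.den : ℤ) ^ m) := (Rat.isCoprime_num_den y).pow
  have hd1 : y.num ^ m ∣ F := hcop.dvd_of_dvd_mul_left
    ⟨b * (x.den : ℤ) ^ n, by linear_combination -e⟩
  have hd2 : (y.den : ℤ) ^ m ∣ b * (x.den : ℤ) ^ n := hcop.symm.dvd_of_dvd_mul_left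
    ⟨F, by linear_combination e⟩
  have hy' : y.num ≠ 0 := Rat.num_ne_zero.2 hy
  have hx0 : (x.den : ℤ) ≠ 0 := Int.natCast_ne_zero.2 x.den_nz
  have hF0 : F ≠ 0 := fun h => by
    rw [h, mul_zero] at e
    exact mul_ne_zero (mul_ne_zero hb (pow_ne_zero _ hy')) (pow_ne_zero _ hx0) e
  have hFb : F.natAbs ≤ 2 ^ (n + k + T * n) := by
    refine (Int.natAbs_sum_le _ _).trans ((sum_le_card_nsmul _ _ (2 ^ k * 2 ^ (T * n))
      fun i hi => ?_).trans ?_)
    · rw [mem_range] at hi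
      rw [Int.natAbs_mul, Int.natAbs_mul, Int.natAbs_pow, Int.natAbs_pow, Int.natAbs_natCast,
        mul_assoc]
      refine Nat.mul_le_mul (hk i) ((Nat.mul_le_mul (Nat.pow_le_pow_left hx i)
        (Nat.pow_le_pow_left hxd _)).trans (le_of_eq ?_))
      rw [← pow_mul, ← pow_mul, ← pow_add, ← mul_add, show i + (n - i) = n by omega]
    · rw [card_range, smul_eq_mul, add_assoc n k, pow_add _ n, pow_add _ k]
      exact Nat.mul_le_mul_right _ (Nat.lt_two_pow_self (n := n))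
  constructor
  · refine le_trans ?_ hFb
    refine le_trans ?_ (Nat.le_of_dvd (Int.natAbs_pos.2 hF0) (Int.natAbs_dvd_natAbs.2 hd1))
    rw [Int.natAbs_pow]
    exact Nat.le_self_pow (by omega) _
  · have h := Nat.le_of_dvd (Int.natAbs_pos.2 (mul_ne_zero hb (pow_ne_zero _ hx0)))
      (Int.natAbs_dvd_natAbs.2 hd2)
    rw [Int.natAbs_pow, Int.natAbs_mul, Int.natAbs_pow, Int.natAbs_natCast,
      Int.natAbs_natCast] at h
    refine ((Nat.le_self_pow (by omega) _).trans h).trans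
      ((Nat.mul_le_mul hbk (Nat.pow_le_pow_left hxd n)).trans ?_)
    rw [← pow_mul, ← pow_add]
    exact Nat.pow_le_pow_right two_pos (by omega)

/-- A number without large primes to exponents prime to `m` is a smooth number times a power. -/
theorem exists_smooth_mul_pow {F : ℤ} (hF : F ≠ 0)
    (h : ∀ p : ℕ, p.Prime → 2 ^ g < p → m ∣ F.natAbs.factorization p) :
    ∃ (b : ℤ) (y : ℕ), b ≠ 0 ∧ Smooth g b.natAbs ∧ F = b * (y : ℤ) ^ m := by
  set N := F.natAbs with hN
  have hN0 : N ≠ 0 := Int.natAbs_ne_zero.2 hF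
  set s := ∏ p ∈ N.primeFactors.filter (fun p => p ≤ 2 ^ g), p ^ N.factorization p with hs
  set w := ∏ p ∈ N.primeFactors.filter (fun p => ¬p ≤ 2 ^ g), p ^ (N.factorization p / m)
  have hsw : s * w ^ m = N := by
    rw [← prod_pow, hs]
    conv_rhs => rw [← Nat.prod_factorization_pow_eq_self hN0, Finsupp.prod,
      Nat.support_factorization, ← prod_filter_mul_prod_filter_not N.primeFactors
        (fun p => p ≤ 2 ^ g)]
    congr 1
    refine prod_congr rfl fun p hp => ?_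
    obtain ⟨hp1, hp2⟩ := mem_filter.1 hp
    rw [← pow_mul, Nat.div_mul_cancel (h p (Nat.prime_of_mem_primeFactors hp1) (by omega))]
  have hsm : Smooth g s := fun q hq hd => by
    obtain ⟨p, hp, hqp⟩ := (Prime.dvd_finsetProd_iff hq.prime _).1 hd
    obtain ⟨hp1, hp2⟩ := mem_filter.1 hp
    rw [(Nat.prime_dvd_prime_iff_eq hq (Nat.prime_of_mem_primeFactors hp1)).1
      (hq.dvd_of_dvd_pow hqp)]
    exact hp2
  have hs0 : s ≠ 0 := fun e => hN0 (by rw [← hsw, e, zero_mul])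
  refine ⟨F.sign * s, w, mul_ne_zero (fun e => hF (Int.sign_eq_zero_iff_zero.1 e))
    (Int.natCast_ne_zero.2 hs0), ?_, ?_⟩
  · rw [Int.natAbs_mul, Int.natAbs_sign_of_ne_zero hF, one_mul, Int.natAbs_natCast]
    exact hsm
  · rw [mul_assoc, ← Nat.cast_pow, ← Nat.cast_mul, hsw, hN, Int.sign_mul_natAbs]

/-- **A large prime to an exponent not divisible by `m`.** -/
theorem exists_prime_exponent (hn : f.natDegree ≤ n) (hn3 : 3 ≤ f.natDegree)
    (hsep : (f.map (Int.castRingHom ℚ)).Separable) (hk : ∀ i, (f.coeff i).natAbs ≤ 2 ^ k)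
    (hm : 2 ≤ m) {x : ℤ} (hx : 2 ^ abscissaBound n k m g < x.natAbs) :
    ∃ p : ℕ, p.Prime ∧ 2 ^ g < p ∧ ¬m ∣ (f.eval x).natAbs.factorization p := by
  by_contra hc
  push Not at hc
  have key : ∀ (b : ℤ) (y : ℕ), b ≠ 0 → Smooth g b.natAbs → f.eval x = b * (y : ℤ) ^ m →
      False := fun b y hb hbs he => by
    have h1 := (separable_bound_smooth hn hn3 hsep hk hm hb hbs (x := (x : ℚ)) (y := (y : ℚ))
      (fun q hq hd => absurd (by simpa using hd) hq.one_lt.ne')
      (by rw [aeval_intCast, he]; push_cast; ring)).1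
    rw [Rat.num_intCast] at h1
    omega
  rcases eq_or_ne (f.eval x) 0 with h0 | h0
  · exact key 1 0 one_ne_zero (fun q hq hd => absurd (Nat.dvd_one.1 hd) hq.one_lt.ne')
      (by rw [h0, Nat.cast_zero, zero_pow (by omega), mul_zero])
  · obtain ⟨b, y, hb, hbs, he⟩ := exists_smooth_mul_pow h0 hc
    exact key b y hb hbs he

end FA.BakerExplicit.SIntegralSuperelliptic

end
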