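import Fermat.Agent.BakerExplicit.EffectiveShafarevich
import Fermat.Agent.BakerExplicit.SIntegralSuperelliptic
import Mathlib.Computability.Primrec.Basic

/-!
# The bounds are primitive recursive

The explicit bounds of the effective theorems are built from their arguments by sums, products and
powers, so they are primitive recursive functions.
-/

set_option autoImplicit false

noncomputable section

namespace FA.BakerExplicit.PrimrecBounds

variable {α : Type*} [Primcodable α] {f g h i : α → ℕ}

theorem add (hf : Primrec f) (hg : Primrec g) : Primrec fun a => f a + g a :=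
  Primrec.nat_add.comp hf hg

theorem mul (hf : Primrec f) (hg : Primrec g) : Primrec fun a => f a * g a :=
  Primrec.nat_mul.comp hf hg

theorem nat_pow₂ : Primrec₂ ((· ^ ·) : ℕ → ℕ → ℕ) := Primrec₂.unpaired'.1 Nat.Primrec.pow

theorem pow (hf : Primrec f) (hg : Primrec g) : Primrec fun a => f a ^ g a :=
  nat_pow₂.comp hf hg

theorem num (n : ℕ) : Primrec fun _ : α => n := Primrec.const n

theorem kappa (hf : Primrec f) : Primrec fun a => kappa (f a) :=
  add (add (mul (num 6) (pow hf (num 2))) (mul (num 6) hf)) (num 6)

theorem countExp (hf : Primrec f) (hg : Primrec g) :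
    Primrec fun a => EffectiveSUnits.countExp (f a) (g a) :=
  mul (add hg (num 1)) (add (mul hf hf) (num 1))

theorem classExp (hf : Primrec f) (hg : Primrec g) :
    Primrec fun a => EffectiveSUnits.classExp (f a) (g a) :=
  countExp hf (add hf hg)

theorem powBound (hf : Primrec f) (hg : Primrec g) :
    Primrec fun a => EffectiveSUnits.powBound (f a) (g a) :=
  pow (num 2) (add (mul (num 3) (mul hg hf)) (num 1))

theorem unitBound (hf : Primrec f) (hg : Primrec g) :
    Primrec fun a => UnitSystem.unitBound (f a) (g a) :=
  mul hf (mul (add (pow (num 2) (mul (add (add hf hg) (num 1)) (add hf (num 1)))) (num 1))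
    (add (add hf hg) (num 2)))

theorem reducedSize (hf : Primrec f) (hg : Primrec g) (hh : Primrec h) :
    Primrec fun a => EffectiveUnits.reducedSize (f a) (g a) (h a) :=
  add (mul (add hf (num 1)) hg) hh

theorem formLog (hf : Primrec f) (hg : Primrec g) (hh : Primrec h) :
    Primrec fun a => EffectiveUnits.formLog (f a) (g a) (h a) :=
  add (mul (num 4) (reducedSize hf hg hh)) (num 8)

theorem formExp (hf : Primrec f) (hg : Primrec g) (hh : Primrec h) :
    Primrec fun a => EffectiveUnits.formExp (f a) (g a) (h a) :=
  add (add (add (add (add (mul (num 2) hf) hh) (mul (num 2) (reducedSize hf hg hh))) (num 3))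
    (mul (mul (num 2) hf) (add (mul (num 2) (mul hf hg)) (num 5)))) (formLog hf hg hh)

theorem ratioBound (hf : Primrec f) (hg : Primrec g) (hh : Primrec h) :
    Primrec fun a => EffectiveUnits.ratioBound (f a) (g a) (h a) :=
  add (num (2 * 3)) (mul (mul (num 2) (pow (mul (num 2) (kappa (add hf (num 2))))
    (mul (num 2) (kappa (add hf (num 2))))))
    (pow (pow (mul (mul (pow (num 2) (add (mul (num 4) (pow (add hf (num 2)) (num 2))) (num 18)))
      hf) (mul (num 2) (add (add (formLog hf hg hh) (formExp hf hg hh)) (num 2))))
      (kappa (add hf (num 2)))) (num 2)))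

theorem unitEquationBound (hf : Primrec f) (hg : Primrec g) (hh : Primrec h) :
    Primrec fun a => EffectiveUnits.unitEquationBound (f a) (g a) (h a) :=
  mul (num 2) (ratioBound hf (unitBound hf hg) hh)

theorem genSize (hf : Primrec f) (hg : Primrec g) (hh : Primrec h) :
    Primrec fun a => EffectiveSUnits.genSize (f a) (g a) (h a) :=
  reducedSize hf (unitBound hf hg) (mul (mul hh hf) (pow (num 2) (classExp hf hg)))

theorem termSize (hf : Primrec f) (hg : Primrec g) (hh : Primrec h) :
    Primrec fun a => EffectiveSUnits.termSize (f a) (g a) (h a) :=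
  add (add (add (reducedSize hf (unitBound hf hg) (num 0)) (unitBound hf hg))
    (genSize hf hg hh)) (num 1)

theorem formRank (hf : Primrec f) (hg : Primrec g) :
    Primrec fun a => EffectiveSUnits.formRank (f a) (g a) :=
  add (add (num 1) hf) (pow (num 2) (countExp hf (mul hg hf)))

theorem partSize (hf : Primrec f) (hg : Primrec g) (hh : Primrec h) (hi : Primrec i) :
    Primrec fun a => EffectiveSUnits.partSize (f a) (g a) (h a) (i a) :=
  add (add (add (mul (pow (num 2) (classExp hf hg)) (unitEquationBound hf hg hi))
    (mul (mul (pow (num 2) (countExp hf (mul hh hf))) (genSize hf hg hh)) hi))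
    (reducedSize hf (unitBound hf hg) (num 0))) (num 1)

theorem expRate (hf : Primrec f) (hg : Primrec g) (hh : Primrec h) :
    Primrec fun a => EffectiveSUnits.expRate (f a) (g a) (h a) :=
  add (add (add (add (partSize hf hg hh (num 1)) (num 1))
    (mul (num 2) (kappa (add hf (num 2))))) (num 1))
    (mul (mul (num 2) hf) (add (mul (num 2) (mul hf (unitBound hf hg))) (num 5)))

theorem placeConst (hf : Primrec f) (hg : Primrec g) (hh : Primrec h) (hi : Primrec i) :
    Primrec fun a => EffectiveSUnits.placeConst (f a) (g a) (h a) (i a) :=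
  add (mul hi (add (mul (pow (num 2) (classExp hf hg)) (powBound hf hh)) (num 1))) hf

theorem placeRate (hf : Primrec f) (hg : Primrec g) (hh : Primrec h) :
    Primrec fun a => EffectiveSUnits.placeRate (f a) (g a) (h a) :=
  mul (num 2) (pow (mul (mul (pow (num 2) (add (mul (num 4) (pow (formRank hf hh) (num 2)))
    (num 18))) hf) (add (mul (powBound hf hh) (mul (num 2) (termSize hf hg hh)))
      (expRate hf hg hh))) (kappa (formRank hf hh)))

theorem normFactor (hf : Primrec f) (hg : Primrec g) :
    Primrec fun a => EffectiveSUnits.normFactor (f a) (g a) :=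
  mul hg (mul hf (add (pow (num 2) hg) (num 1)))

theorem normExp (hf : Primrec f) (hg : Primrec g) (hh : Primrec h) (hi : Primrec i) :
    Primrec fun a => EffectiveSUnits.normExp (f a) (g a) (h a) (i a) :=
  add (mul (num 2) (add (mul (normFactor hf hh) (add (placeConst hf hg hh hi) (num 1))) (num 1)))
    (mul (mul (num 2) (pow (mul (num 2) (kappa (formRank hf hh)))
      (mul (num 2) (kappa (formRank hf hh)))))
      (pow (mul (normFactor hf hh) (placeRate hf hg hh)) (num 2)))

/-- **The bound of the `S`-unit equation is primitive recursive.** -/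
theorem sUnitBound (hf : Primrec f) (hg : Primrec g) (hh : Primrec h) :
    Primrec fun a => EffectiveSUnits.sUnitBound (f a) (g a) (h a) :=
  have hn := normExp hf hg (add (add hh hf) hg) (add hf hg)
  add (unitEquationBound hf hg hn) (mul (num 2) (reducedSize hf (unitBound hf hg) hn))

theorem discExp (hf : Primrec f) (hg : Primrec g) (hh : Primrec h) :
    Primrec fun a => GeneratedField.discExp (f a) (g a) (h a) :=
  mul (num 2) (add (mul (pow hf hg) (pow hf hg)) (mul (add (add hg
    (mul (mul (mul (pow hf hg) (pow hf hg)) hg) hg)) hh) (mul (pow hf hg) (pow hf hg))))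

theorem linesBound (hf : Primrec f) (hg : Primrec g) (hh : Primrec h) (hi : Primrec i) :
    Primrec fun a => EffectiveThueMahler.linesBound (f a) (g a) (h a) (i a) :=
  mul (add (add (mul (num 3) hh) (num 2))
    (sUnitBound hf hg (add hi (mul (add (mul (num 2) hh) (num 1)) hf)))) hf

/-- **The Thue–Mahler bound is primitive recursive.** -/
theorem thueMahlerBound (hf : Primrec f) (hg : Primrec g) (hh : Primrec h) :
    Primrec fun a => EffectiveThueMahler.thueMahlerBound (f a) (g a) (h a) :=
  linesBound (pow (add hf (num 1)) (num 3))
    (discExp (add hf (num 1)) (num 3) (add (mul hg hf) (add hf (num 1))))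
    (add (add (mul hg hf) (add hf (num 1))) hg) (add hh hg)

theorem formSize (hf : Primrec f) : Primrec fun a => EllipticEffective.formSize (f a) :=
  add (mul (num 12) hf) (num 27)

theorem shortSBound (hf : Primrec f) (hg : Primrec g) :
    Primrec fun a => SIntegralPoints.shortSBound (f a) (g a) :=
  have hF := formSize (add hf (num 11))
  add (add (mul (num 3) (add (add (mul (num 2) hF)
    (mul (num 4) (thueMahlerBound (num 4) hF hg))) (num 8))) hf) (num 2)

/-- **The bound for `S`-integral points is primitive recursive.** -/
theorem sIntegralBound (hf : Primrec f) (hg : Primrec g) :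
    Primrec fun a => SIntegralPoints.sIntegralBound (f a) (g a) :=
  add (add (mul (num 2) (shortSBound (add (mul (num 6) hf) (num 19)) hg)) (mul (num 3) hf))
    (num 24)

/-- **Shafarevich's bound is primitive recursive.** -/
theorem shafarevichBound (hf : Primrec f) :
    Primrec fun a => SIntegralPoints.shafarevichBound (f a) :=
  add (mul (num 12) (shortSBound (add (num 11) (mul (mul (num 11) hf)
    (add (pow (num 2) hf) (num 1)))) hf)) (num 6)

theorem radDeg (hf : Primrec f) (hg : Primrec g) :
    Primrec fun a => RadicalField.radDeg (f a) (g a) :=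
  pow (mul hf hg) (add (mul (num 2) hf) (num 2))

theorem badExp (hf : Primrec f) (hg : Primrec g) (hh : Primrec h) (hi : Primrec i) :
    Primrec fun a => RadicalField.badExp (f a) (g a) (h a) (i a) :=
  add (add (add hi hh) (num 1)) (mul (radDeg hf hh) (add (add (add (add (add hg (mul (num 2) hf))
    (mul (add hg hf) hf)) hg) hf) (num 2)))

theorem radDisc (hf : Primrec f) (hg : Primrec g) (hh : Primrec h) (hi : Primrec i) :
    Primrec fun a => RadicalField.radDisc (f a) (g a) (h a) (i a) :=
  have hB := badExp hf hg hh hi
  mul (radDeg hf hh) (add (radDeg hf hh) (mul hB (add (pow (num 2) hB) (num 1))))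

/-- **The superelliptic bound is primitive recursive.** -/
theorem abscissaBound (hf : Primrec f) (hg : Primrec g) (hh : Primrec h) (hi : Primrec i) :
    Primrec fun a => SIntegralSuperelliptic.abscissaBound (f a) (g a) (h a) (i a) :=
  have hk := mul hg hf
  have hgk := add hi hg
  add (add (add (mul hh (add (mul (num 2) (sUnitBound (radDeg hf hh) (radDisc hf hk hh hgk)
    (badExp hf hk hh hgk))) (num 2))) (add hk hf)) hg) (num 1)

end FA.BakerExplicit.PrimrecBounds

end
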