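import Fermat.Agent.BakerExplicit.SUnitBound
import Fermat.Agent.BakerExplicit.GeneratedDiscriminant
import Mathlib.RingTheory.Polynomial.IntegralNormalization

/-!
# The Thue–Mahler equation, effectively

Three linear forms with smooth values satisfy a linear relation, so by the `S`-unit equation two of
them have a bounded ratio, and coprime variables are bounded. For a form with integer coefficients
the linear factors live in the field of three of its roots.
-/

set_option autoImplicit false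

noncomputable section

namespace FA.BakerExplicit.EffectiveThueMahler

open Finset NumberField Module Polynomial EffectiveSUnits GeneratedField

/-- The bound for three linear forms. -/
def linesBound (D E S g : ℕ) : ℕ :=
  (3 * S + 2 + sUnitBound D E (g + (2 * S + 1) * D)) * D

/-- The value at `(x, y)` of the form of degree `N` with the coefficients of `f`. -/
def binaryValue (f : ℤ[X]) (N : ℕ) (x y : ℤ) : ℤ :=
  ∑ i ∈ range (N + 1), f.coeff i * x ^ i * y ^ (N - i)

/-- **The bound for `log₂` of a solution of a Thue–Mahler equation.** -/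
def thueMahlerBound (n k g : ℕ) : ℕ :=
  linesBound ((n + 1) ^ 3) (discExp (n + 1) 3 (k * n + (n + 1))) (k * n + (n + 1) + k) (g + k)

section Lines

variable {L : Type*} [Field L] [NumberField L]

/-- A bound for the conjugates bounds the norm. -/
theorem norm_le_two_pow {D T : ℕ} (hd : finrank ℚ L ≤ D) {z : 𝓞 L}
    (hz : ∀ σ : L →+* ℂ, ‖σ (z : L)‖ ≤ (2 : ℝ) ^ T) :
    (Algebra.norm ℤ z).natAbs ≤ 2 ^ (T * D) := by
  rw [pow_mul]
  exact EffectiveThue.norm_le_of_bounded hd Nat.one_le_two_pow fun σ => by push_cast; exact hz σ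

/-- Coprime integers in a bounded ratio are bounded. -/
theorem coprime_le_of_ratio {D T : ℕ} (hd : finrank ℚ L ≤ D) {x y : ℤ} (hxy : IsCoprime x y)
    {U V : 𝓞 L} (hU : ∀ σ : L →+* ℂ, ‖σ (U : L)‖ ≤ (2 : ℝ) ^ T)
    (hV : ∀ σ : L →+* ℂ, ‖σ (V : L)‖ ≤ (2 : ℝ) ^ T) (hUV : U ≠ 0 ∨ V ≠ 0)
    (heq : (x : 𝓞 L) * U = (y : 𝓞 L) * V) :
    x.natAbs ≤ 2 ^ (T * D) ∧ y.natAbs ≤ 2 ^ (T * D) := by
  suffices key : ∀ {x y : ℤ} {U V : 𝓞 L}, IsCoprime x y →
      (∀ σ : L →+* ℂ, ‖σ (U : L)‖ ≤ (2 : ℝ) ^ T) → (U ≠ 0 ∨ V ≠ 0) →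
      (x : 𝓞 L) * U = (y : 𝓞 L) * V → y.natAbs ≤ 2 ^ (T * D) from
    ⟨key hxy.symm hV hUV.symm heq.symm, key hxy hU hUV heq⟩
  intro x y U V hxy hU hUV heq
  rcases eq_or_ne U 0 with rfl | hU0
  · rw [mul_zero, eq_comm, mul_eq_zero] at heq
    rw [Int.cast_eq_zero.1 (heq.resolve_right (hUV.resolve_left fun h => h rfl)),
      Int.natAbs_zero]
    exact Nat.zero_le _
  have h1 := congrArg (Algebra.norm ℤ) heq
  simp only [map_mul, ← eq_intCast (algebraMap ℤ (𝓞 L)), Algebra.norm_algebraMap,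
    RingOfIntegers.rank] at h1
  have h2 : y ∣ Algebra.norm ℤ U := by
    refine (hxy.symm.pow_right (n := finrank ℚ L)).dvd_of_dvd_mul_left ?_
    rw [h1]
    exact (dvd_pow_self y finrank_pos.ne').trans (dvd_mul_right _ _)
  exact (Nat.le_of_dvd (Int.natAbs_pos.2 (Algebra.norm_ne_zero_iff.2 hU0))
    (Int.natAbs_dvd_natAbs.2 h2)).trans (norm_le_two_pow hd hU)

/-- **Three linear forms with smooth values.** -/
theorem lines_bound {D E S g : ℕ} (hd : finrank ℚ L ≤ D) (he : (discr L).natAbs ≤ 2 ^ E)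
    {A B : Fin 3 → 𝓞 L} (hA : ∀ i (σ : L →+* ℂ), ‖σ (A i : L)‖ ≤ (2 : ℝ) ^ S)
    (hB : ∀ i (σ : L →+* ℂ), ‖σ (B i : L)‖ ≤ (2 : ℝ) ^ S)
    (hdet : ∀ i j, i ≠ j → A i * B j - A j * B i ≠ 0) {x y : ℤ} (hxy : IsCoprime x y)
    (hl : ∀ i, A i * x + B i * y ≠ 0)
    (hs : ∀ i, Smooth g (Algebra.norm ℤ (A i * x + B i * y)).natAbs) :
    x.natAbs ≤ 2 ^ linesBound D E S g ∧ y.natAbs ≤ 2 ^ linesBound D E S g := by
  set l : Fin 3 → 𝓞 L := fun i => A i * x + B i * y with hldef
  set δ : Fin 3 → Fin 3 → 𝓞 L := fun i j => A i * B j - A j * B i with hδ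
  set g' := g + (2 * S + 1) * D
  have hδS : ∀ i j (σ : L →+* ℂ), ‖σ (δ i j : L)‖ ≤ (2 : ℝ) ^ (2 * S + 1) := fun i j σ => by
    simp only [hδ, map_sub, map_mul]
    refine (norm_sub_le _ _).trans ?_
    rw [norm_mul, norm_mul, pow_succ, two_mul, pow_add]
    have h1 := mul_le_mul (hA i σ) (hB j σ) (norm_nonneg _) (by positivity)
    have h2 := mul_le_mul (hA j σ) (hB i σ) (norm_nonneg _) (by positivity)
    linarith
  have hterm : ∀ i j m, i ≠ j → δ i j * l m ≠ 0 ∧
      Smooth g' (Algebra.norm ℤ (δ i j * l m)).natAbs := fun i j m hij => by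
    refine ⟨mul_ne_zero (hdet i j hij) (hl m), ?_⟩
    rw [map_mul, Int.natAbs_mul]
    refine Smooth.mul ((Smooth.of_le ?_ (norm_le_two_pow hd (hδS i j))).mono
      (Nat.le_add_left _ _)) ((hs m).mono (Nat.le_add_right _ _))
    exact Int.natAbs_ne_zero.2 (Algebra.norm_ne_zero_iff.2 (hdet i j hij))
  obtain ⟨ha, hsa⟩ := hterm 1 2 0 (by decide)
  obtain ⟨hb, hsb⟩ := hterm 2 0 1 (by decide)
  obtain ⟨hc, hsc⟩ := hterm 0 1 2 (by decide)
  obtain ⟨μ, a', b', c', hμ, ea, eb, -, hbound⟩ :=
    sUnit_equation_bound hd he ha hb hc (by simp only [hδ, hldef]; ring) hsa hsb hsc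
  set B₀ := sUnitBound D E g'
  set P := δ 1 2 * b' with hP
  set Q := δ 2 0 * a' with hQ
  have hkey : l 0 * P = l 1 * Q := by
    refine FaithfulSMul.algebraMap_injective (𝓞 L) L (mul_left_cancel₀ hμ ?_)
    simp only [hP, hQ, map_mul] at ea eb ⊢
    linear_combination μ * (b' : L) * ea - μ * (a' : L) * eb
  have hb'0 : b' ≠ 0 := fun h => hb (RingOfIntegers.coe_eq_zero_iff.1 (by
    simp only [h, map_zero, mul_zero] at eb
    exact eb))
  have hUV : A 0 * P - A 1 * Q ≠ 0 ∨ B 1 * Q - B 0 * P ≠ 0 := by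
    by_contra hno
    push Not at hno
    have h1 : δ 0 1 * P = 0 := by
      simp only [hδ]; linear_combination B 1 * hno.1 + A 1 * hno.2
    exact mul_ne_zero (hdet 0 1 (by decide))
      (mul_ne_zero (hdet 1 2 (by decide)) hb'0) h1
  have hPQ : ∀ σ : L →+* ℂ, ‖σ (P : L)‖ ≤ (2 : ℝ) ^ (2 * S + 1 + B₀) ∧
      ‖σ (Q : L)‖ ≤ (2 : ℝ) ^ (2 * S + 1 + B₀) := fun σ => by
    simp only [hP, hQ, map_mul, norm_mul, pow_add _ (2 * S + 1) B₀]
    exact ⟨mul_le_mul (hδS 1 2 σ) (hbound σ).2.1 (norm_nonneg _) (by positivity),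
      mul_le_mul (hδS 2 0 σ) (hbound σ).1 (norm_nonneg _) (by positivity)⟩
  have hsize : ∀ {u v : 𝓞 L}, (∀ σ : L →+* ℂ, ‖σ (u : L)‖ ≤ (2 : ℝ) ^ S) →
      (∀ σ : L →+* ℂ, ‖σ (v : L)‖ ≤ (2 : ℝ) ^ S) → ∀ {z w : 𝓞 L},
      (∀ σ : L →+* ℂ, ‖σ (z : L)‖ ≤ (2 : ℝ) ^ (2 * S + 1 + B₀)) →
      (∀ σ : L →+* ℂ, ‖σ (w : L)‖ ≤ (2 : ℝ) ^ (2 * S + 1 + B₀)) →
      ∀ σ : L →+* ℂ, ‖σ ((u * z - v * w : 𝓞 L) : L)‖ ≤ (2 : ℝ) ^ (3 * S + 2 + B₀) :=
    fun {u v} hu hv {z w} hz hw σ => by
      simp only [map_sub, map_mul]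
      refine (norm_sub_le _ _).trans ?_
      rw [norm_mul, norm_mul, show 3 * S + 2 + B₀ = S + (2 * S + 1 + B₀) + 1 by ring, pow_succ,
        pow_add]
      have h1 := mul_le_mul (hu σ) (hz σ) (norm_nonneg _) (by positivity)
      have h2 := mul_le_mul (hv σ) (hw σ) (norm_nonneg _) (by positivity)
      linarith
  exact coprime_le_of_ratio hd hxy
    (hsize (hA 0) (hA 1) (fun σ => (hPQ σ).1) fun σ => (hPQ σ).2)
    (hsize (hB 1) (hB 0) (fun σ => (hPQ σ).2) fun σ => (hPQ σ).1) hUV
    (by simp only [hldef] at hkey; linear_combination hkey)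

end Lines

/-- The monic form of the leading part. -/
theorem binaryValue_normalization {f : ℤ[X]} (hf : f ≠ 0) (h0 : 1 ≤ f.natDegree) (x y : ℤ) :
    f.leadingCoeff ^ (f.natDegree - 1) * binaryValue f f.natDegree x y =
      binaryValue f.integralNormalization f.natDegree (f.leadingCoeff * x) y := by
  rw [binaryValue, binaryValue, mul_sum]
  refine sum_congr rfl fun i hi => ?_
  rw [mem_range] at hi
  rcases eq_or_ne i f.natDegree with rfl | hne
  · rw [integralNormalization_coeff_natDegree hf, mul_pow, coeff_natDegree]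
    conv_rhs => rw [show f.natDegree = f.natDegree - 1 + 1 by omega, pow_succ]
    rw [show f.natDegree - 1 + 1 = f.natDegree by omega]
    ring
  · rw [integralNormalization_coeff_ne_natDegree hne, mul_pow]
    conv_lhs => rw [show f.natDegree - 1 = f.natDegree - 1 - i + i by omega, pow_add]
    ring

/-- Above the degree the form is a power of `y` times the leading part. -/
theorem binaryValue_eq {f : ℤ[X]} {N : ℕ} (hN : f.natDegree ≤ N) (x y : ℤ) :
    binaryValue f N x y = y ^ (N - f.natDegree) * binaryValue f f.natDegree x y := by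
  rw [binaryValue, binaryValue, mul_sum,
    ← sum_subset (range_mono (Nat.succ_le_succ hN)) fun i _ hi => ?_]
  · refine sum_congr rfl fun i hi => ?_
    rw [mem_range] at hi
    rw [show N - i = N - f.natDegree + (f.natDegree - i) by omega, pow_add]
    ring
  · rw [mem_range, not_lt] at hi
    rw [coeff_eq_zero_of_natDegree_lt (by omega), zero_mul, zero_mul]

/-- A linear factor divides the form. -/
theorem sub_dvd_binaryValue {R : Type*} [CommRing R] {g : ℤ[X]} {η : R} (hη : aeval η g = 0)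
    (x y : ℤ) : (x : R) - η * y ∣ (binaryValue g g.natDegree x y : R) := by
  have h0 : ∑ i ∈ range (g.natDegree + 1), (g.coeff i : R) * (η * y) ^ i *
      (y : R) ^ (g.natDegree - i) = 0 := by
    rw [aeval_eq_sum_range] at hη
    rw [← mul_zero ((y : R) ^ g.natDegree), ← hη, mul_sum]
    refine sum_congr rfl fun i hi => ?_
    rw [mem_range] at hi
    rw [zsmul_eq_mul, mul_pow]
    conv_rhs => rw [show g.natDegree = i + (g.natDegree - i) by omega, pow_add]
    ring
  rw [binaryValue, Int.cast_sum, ← sub_zero (∑ _ ∈ _, ((_ : ℤ) : R)), ← h0, ← sum_sub_distrib]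
  refine dvd_sum fun i _ => ?_
  push_cast
  rw [← sub_mul, ← mul_sub]
  exact ((sub_dvd_pow_sub_pow _ _ i).mul_left _).mul_right _

/-- **The effective Thue–Mahler theorem.** If the form of degree `N` with the coefficients of `f`
has three different linear factors, coprime `x` and `y` at which it has no prime factor above
`2 ^ g` are bounded. -/
theorem thueMahler_bound {f : ℤ[X]} {N n k g : ℕ} (hfN : f.natDegree ≤ N) (hn : f.natDegree ≤ n)
    (hk : ∀ i, (f.coeff i).natAbs ≤ 2 ^ k)
    (hroots : 3 ≤ (f.map (Int.castRingHom ℂ)).roots.toFinset.card +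
      if f.natDegree < N then 1 else 0)
    {x y : ℤ} (hxy : IsCoprime x y) (hF : binaryValue f N x y ≠ 0)
    (hs : Smooth g (binaryValue f N x y).natAbs) :
    x.natAbs ≤ 2 ^ thueMahlerBound n k g ∧ y.natAbs ≤ 2 ^ thueMahlerBound n k g := by
  classical
  have hf : f ≠ 0 := fun h => by
    simp only [h, Polynomial.map_zero, roots_zero, Multiset.toFinset_zero, card_empty] at hroots
    split_ifs at hroots <;> omega
  set Z := (f.map (Int.castRingHom ℂ)).roots.toFinset with hZ
  have hZd : Z.card ≤ f.natDegree :=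
    (Multiset.toFinset_card_le _).trans ((card_roots' _).trans natDegree_map_le)
  have h2 : 2 ≤ Z.card := by split_ifs at hroots <;> omega
  have hd0 : 1 ≤ f.natDegree := by omega
  set a := f.leadingCoeff with ha
  have ha0 : a ≠ 0 := leadingCoeff_ne_zero.2 hf
  -- the lines
  obtain ⟨z, hzinj, hz⟩ : ∃ z : Fin 3 → Option ℂ, Function.Injective z ∧
      ∀ i, (∃ α ∈ Z, z i = some α) ∨ (z i = none ∧ f.natDegree < N) := by
    by_cases h3 : 3 ≤ Z.card
    · obtain ⟨T, hT, hTc⟩ := exists_subset_card_eq h3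
      let e : Fin 3 ≃ T := (T.equivFinOfCardEq hTc).symm
      exact ⟨fun i => some (e i : ℂ), (Option.some_injective ℂ).comp
        (Subtype.val_injective.comp e.injective), fun i => Or.inl ⟨e i, hT (e i).2, rfl⟩⟩
    have hlt : f.natDegree < N := by
      by_contra hlt; rw [if_neg hlt] at hroots; omega
    obtain ⟨α, hα, β, hβ, hne⟩ := Finset.one_lt_card.1 (show 1 < Z.card by omega)
    refine ⟨![some α, some β, none], fun i j h => ?_, fun i => ?_⟩
    · fin_cases i <;> fin_cases j <;> simp_all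
    · fin_cases i <;> simp [hα, hβ, hlt]
  set G := f.integralNormalization with hG
  have hGm : G.Monic := monic_integralNormalization hf
  let η : Fin 3 → ℂ := fun i => (z i).elim 0 fun α => (a : ℂ) * α
  have hηroot : ∀ i α, z i = some α → aeval (η i) G = 0 := fun i α e => by
    obtain ⟨β, hβ, e'⟩ := (hz i).resolve_right (by simp [e])
    obtain rfl : α = β := Option.some_injective ℂ (e.symm.trans e')
    rw [hZ, Multiset.mem_toFinset] at hβ
    have h1 := (mem_roots'.1 hβ).2
    rw [IsRoot.def, eval_map, ← algebraMap_int_eq, ← aeval_def] at h1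
    have h3 := integralNormalization_eval₂_leadingCoeff_mul hd0 (algebraMap ℤ ℂ) α
    rw [eq_intCast, ← aeval_def, ← aeval_def, h1, mul_zero] at h3
    simpa [η, e] using h3
  have hcoeff : ∀ i, (G.coeff i).natAbs ≤ 2 ^ (k * n) := fun i => by
    rcases eq_or_ne i f.natDegree with rfl | hi
    · rw [hG, integralNormalization_coeff_natDegree hf]
      exact Nat.one_le_two_pow
    rw [hG, integralNormalization_coeff_ne_natDegree hi, Int.natAbs_mul, Int.natAbs_pow]
    refine (Nat.mul_le_mul (hk i) (Nat.pow_le_pow_left (hk f.natDegree) _)).trans ?_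
    rw [← pow_mul, ← pow_add]
    refine Nat.pow_le_pow_right two_pos ?_
    calc k + k * (f.natDegree - 1 - i) ≤ k * 1 + k * (f.natDegree - 1) :=
          Nat.add_le_add (mul_one k).ge (Nat.mul_le_mul_left _ (Nat.sub_le _ _))
      _ ≤ k * n := by rw [← mul_add]; exact Nat.mul_le_mul_left _ (by omega)
  have hbr : ∀ i, BoundedRoot (n + 1) (k * n + (n + 1)) (η i) := fun i => by
    rcases hzi : z i with - | α
    · exact ⟨X, monic_X, natDegree_X_le.trans (Nat.le_add_left 1 n), by simp [η, hzi],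
        fun w hw => by rw [aeval_X] at hw; simp [hw]⟩
    · exact BoundedRoot.of_polynomial hGm
        (natDegree_integralNormalization.trans_le (hn.trans (Nat.le_succ n))) hcoeff
        (hηroot i α hzi)
  obtain ⟨L, hNF, w, hw, -, hdeg, hdisc⟩ := exists_field (Nat.succ_pos n) η hbr
  let A : Fin 3 → 𝓞 L := fun i => if (z i).isSome then (a : 𝓞 L) else 0
  let B : Fin 3 → 𝓞 L := fun i => if (z i).isSome then -w i else 1
  have hN : binaryValue f N x y = y ^ (N - f.natDegree) * binaryValue f f.natDegree x y :=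
    binaryValue_eq hfN x y
  have hdvd : ∀ i, A i * x + B i * y ∣
      ((a ^ (f.natDegree - 1) * binaryValue f N x y : ℤ) : 𝓞 L) := fun i => by
    rcases hzi : z i with - | α
    · obtain ⟨-, hlt⟩ := (hz i).resolve_left (by simp [hzi])
      simp only [A, B, hzi, Option.isSome_none, Bool.false_eq_true, if_false, zero_mul, zero_add,
        one_mul]
      refine map_dvd (Int.castRingHom (𝓞 L)) ((dvd_trans ?_ (Dvd.intro _ hN.symm)).mul_left _)
      exact dvd_pow_self y (by omega)
    · have hroot : aeval (w i) G = 0 := by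
        refine FaithfulSMul.algebraMap_injective (𝓞 L) ℂ ?_
        rw [map_zero, ← aeval_algebraMap_apply]
        rw [show algebraMap (𝓞 L) ℂ (w i) = η i from hw i]
        exact hηroot i α hzi
      simp only [A, B, hzi, Option.isSome_some, if_true]
      have h := sub_dvd_binaryValue hroot (a * x) y
      rw [show G.natDegree = f.natDegree from natDegree_integralNormalization, hG, ha,
        ← binaryValue_normalization hf hd0, ← ha, Int.cast_mul a x,
        sub_eq_add_neg, ← neg_mul] at h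
      rw [hN, show a ^ (f.natDegree - 1) * (y ^ (N - f.natDegree) * binaryValue f f.natDegree x y) =
        a ^ (f.natDegree - 1) * binaryValue f f.natDegree x y * y ^ (N - f.natDegree) by ring,
        Int.cast_mul _ (y ^ (N - f.natDegree))]
      exact h.mul_right _
  have hne0 : a ^ (f.natDegree - 1) * binaryValue f N x y ≠ 0 := mul_ne_zero (pow_ne_zero _ ha0) hF
  have hl : ∀ i, A i * x + B i * y ≠ 0 := fun i h => by
    have := hdvd i
    rw [h, zero_dvd_iff, Int.cast_eq_zero] at this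
    exact hne0 this
  have hsm : ∀ i, Smooth (g + k) (Algebra.norm ℤ (A i * x + B i * y)).natAbs := fun i => by
    have h := map_dvd (Algebra.norm ℤ) (hdvd i)
    rw [← eq_intCast (algebraMap ℤ (𝓞 L)) (a ^ (f.natDegree - 1) * binaryValue f N x y),
      Algebra.norm_algebraMap] at h
    refine Smooth.of_dvd ?_ (Int.natAbs_dvd_natAbs.2 h)
    rw [Int.natAbs_pow, Int.natAbs_mul, Int.natAbs_pow]
    exact (Smooth.mul (((Smooth.of_le (Int.natAbs_ne_zero.2 ha0) (hk _)).mono
      (Nat.le_add_left _ _)).pow _) (hs.mono (Nat.le_add_right _ _))).pow _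
  have hwσ : ∀ i (σ : L →+* ℂ), ‖σ (w i : L)‖ ≤ (2 : ℝ) ^ (k * n + (n + 1)) := fun i σ => by
    obtain ⟨P, -, -, h3, h4⟩ := hbr i
    refine h4 _ ?_
    have h5 : aeval (w i : L) P = 0 := by
      refine (algebraMap L ℂ).injective ?_
      rw [map_zero, ← aeval_algebraMap_apply]
      rw [show algebraMap L ℂ (w i : L) = η i from hw i]
      exact h3
    rw [show σ (w i : L) = σ.toIntAlgHom (w i : L) from rfl, aeval_algHom_apply, h5, map_zero]
  have hone : (1 : ℝ) ≤ (2 : ℝ) ^ (k * n + (n + 1) + k) := one_le_pow₀ one_le_two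
  refine lines_bound (A := A) (B := B) hdeg hdisc (fun i σ => ?_) (fun i σ => ?_)
    (fun i j hij h => ?_) hxy hl hsm
  · simp only [A]
    split_ifs
    · simp only [map_intCast, Complex.norm_intCast]
      rw [← Int.cast_abs, ← Int.natCast_natAbs, Int.cast_natCast]
      exact le_trans (by exact_mod_cast hk f.natDegree)
        (pow_le_pow_right₀ one_le_two (Nat.le_add_left _ _))
    · simp
  · simp only [B]
    split_ifs
    · simp only [map_neg, norm_neg]
      exact (hwσ i σ).trans (pow_le_pow_right₀ one_le_two (Nat.le_add_right _ _))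
    · simpa using hone
  · simp only [A, B] at h
    rcases hzi : z i with - | α <;> rcases hzj : z j with - | β <;>
      simp only [hzi, hzj, Option.isSome_none, Option.isSome_some, Bool.false_eq_true, if_false,
        if_true, zero_mul, sub_zero, zero_sub, mul_one, neg_eq_zero, Int.cast_eq_zero] at h
    · exact hij (hzinj (hzi.trans hzj.symm))
    · exact ha0 h
    · exact ha0 h
    · refine hij (hzinj ?_)
      rw [hzi, hzj]
      have h1 := congrArg (fun v : 𝓞 L => (((v : L)) : ℂ)) h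
      simp only [map_sub, map_neg, map_mul, map_intCast, map_zero] at h1
      push_cast [hw] at h1
      simp only [η, hzi, hzj, Option.elim_some] at h1
      exact congrArg some (mul_left_cancel₀ (mul_ne_zero (Int.cast_ne_zero.2 ha0)
        (Int.cast_ne_zero.2 ha0)) (by linear_combination h1))

/-- **The greatest prime factor of a form tends to infinity, effectively.** -/
theorem exists_prime_gt {f : ℤ[X]} {N n k g : ℕ} (hfN : f.natDegree ≤ N) (hn : f.natDegree ≤ n)
    (hk : ∀ i, (f.coeff i).natAbs ≤ 2 ^ k)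
    (hroots : 3 ≤ (f.map (Int.castRingHom ℂ)).roots.toFinset.card +
      if f.natDegree < N then 1 else 0)
    {x y : ℤ} (hxy : IsCoprime x y) (hF : binaryValue f N x y ≠ 0)
    (hbig : 2 ^ thueMahlerBound n k g < max x.natAbs y.natAbs) :
    ∃ p : ℕ, p.Prime ∧ 2 ^ g < p ∧ (p : ℤ) ∣ binaryValue f N x y := by
  by_contra hno
  push Not at hno
  have hs : Smooth g (binaryValue f N x y).natAbs := fun r hr hd => le_of_not_gt fun hlt =>
    hno r hr hlt (Int.natCast_dvd.2 hd)
  obtain ⟨h1, h2⟩ := thueMahler_bound hfN hn hk hroots hxy hF hs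
  omega

end FA.BakerExplicit.EffectiveThueMahler

end
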