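import Fermat.Agent.BakerExplicit.EllipticPoints
import Fermat.Agent.BakerExplicit.ThueMahlerEffective

/-!
# Smooth values of bounded quartic forms

A non-degenerate binary quartic form has three different linear factors (one of them `Y` when
the leading coefficient vanishes), so the effective Thue–Mahler theorem bounds the coprime pairs
where it takes a smooth value.
-/

set_option autoImplicit false

noncomputable section

namespace FA.BakerExplicit.SIntegralPoints

open Polynomial FA.SiegelPoints QuarticValues EllipticEffective EffectiveSUnits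
  EffectiveThueMahler

theorem binaryValue_poly (G : QuarticForm) (x y : ℤ) :
    binaryValue G.poly 4 x y = G.eval x y := by
  obtain ⟨h0, h1, h2, h3, h4⟩ := coeff_poly G
  simp only [binaryValue, Finset.sum_range_succ, Finset.sum_range_zero, QuarticForm.eval,
    Int.cast_id, h0, h1, h2, h3, h4]
  ring

theorem natDegree_poly_le (G : QuarticForm) : G.poly.natDegree ≤ 4 := by
  rw [QuarticForm.poly]; compute_degree

theorem three_le_natDegree_poly {G : QuarticForm} (hG : G.Nondegenerate) :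
    3 ≤ G.poly.natDegree := by
  obtain ⟨-, -, -, h3, h4⟩ := coeff_poly G
  rcases eq_or_ne G.a 0 with ha | ha
  · refine le_natDegree_of_ne_zero ?_
    rw [h3]
    intro hb
    exact hG (by simp only [QuarticForm.invI, QuarticForm.invJ, ha, hb]; ring)
  · have := le_natDegree_of_ne_zero (p := G.poly) (n := 4) (by rwa [h4])
    omega

theorem three_le_roots_poly {G : QuarticForm} (hG : G.Nondegenerate) :
    3 ≤ (G.poly.map (Int.castRingHom ℂ)).roots.toFinset.card := by
  classical
  have hs : (G.poly.map (Int.castRingHom ℂ)).Separable := by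
    have := (QuarticForm.separable_poly hG).map (f := algebraMap ℚ ℂ)
    rwa [Polynomial.map_map,
      Subsingleton.elim ((algebraMap ℚ ℂ).comp (Int.castRingHom ℚ)) (Int.castRingHom ℂ)] at this
  rw [Multiset.toFinset_card_of_nodup (nodup_roots hs),
    ← (IsAlgClosed.splits _).natDegree_eq_card_roots,
    natDegree_map_eq_of_injective Int.cast_injective]
  exact three_le_natDegree_poly hG

/-- **Thue–Mahler for a bounded quartic form.** -/
theorem smooth_values_bound {G : QuarticForm} (hG : G.Nondegenerate) {N g : ℕ}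
    (hN : G ∈ QuarticForm.box (2 ^ N)) {s r : ℤ} (hsr : IsCoprime s r) (h0 : G.eval s r ≠ 0)
    (hs : Smooth g (G.eval s r).natAbs) :
    |s| ≤ 2 ^ thueMahlerBound 4 N g ∧ |r| ≤ 2 ^ thueMahlerBound 4 N g := by
  have hk : ∀ i, (G.poly.coeff i).natAbs ≤ 2 ^ N := fun i => by
    obtain ⟨h0, h1, h2, h3, h4⟩ := coeff_poly G
    obtain ⟨ka, kb, kc, kd, ke⟩ := hN
    rcases le_or_gt i 4 with hi | hi
    · interval_cases i
      · rw [h0]; exact natAbs_le_two_pow ke
      · rw [h1]; exact natAbs_le_two_pow kd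
      · rw [h2]; exact natAbs_le_two_pow kc
      · rw [h3]; exact natAbs_le_two_pow kb
      · rw [h4]; exact natAbs_le_two_pow ka
    · rw [coeff_eq_zero_of_natDegree_lt ((natDegree_poly_le G).trans_lt hi)]
      simp
  obtain ⟨hs', hr'⟩ := thueMahler_bound (f := G.poly) (N := 4) (n := 4) (k := N) (g := g)
    (natDegree_poly_le G) (natDegree_poly_le G) hk
    ((three_le_roots_poly hG).trans (Nat.le_add_right _ _)) hsr
    (by rwa [binaryValue_poly]) (by rwa [binaryValue_poly])
  rw [Int.abs_eq_natAbs, Int.abs_eq_natAbs]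
  exact ⟨by exact_mod_cast hs', by exact_mod_cast hr'⟩

/-- A bounded form at a bounded pair. -/
theorem abs_eval_le {G : QuarticForm} {N T : ℕ} (hN : G ∈ QuarticForm.box (2 ^ N)) {u v : ℤ}
    (hu : |u| ≤ 2 ^ T) (hv : |v| ≤ 2 ^ T) : |G.eval u v| ≤ 2 ^ (N + 4 * T + 4) := by
  obtain ⟨ha, hb, hc, hd, he⟩ := hN
  simp only [QuarticForm.eval, Int.cast_id]
  rw [show G.a * u ^ 4 + G.b * u ^ 3 * v + G.c * u ^ 2 * v ^ 2 + G.d * u * v ^ 3 + G.e * v ^ 4 =
    G.a * (u * u * u * u) + G.b * (u * u * u * v) + G.c * (u * u * v * v) +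
      G.d * (u * v * v * v) + G.e * (v * v * v * v) by ring]
  have hmon : ∀ {z x₁ x₂ x₃ x₄ : ℤ}, |z| ≤ 2 ^ N → |x₁| ≤ 2 ^ T → |x₂| ≤ 2 ^ T → |x₃| ≤ 2 ^ T →
      |x₄| ≤ 2 ^ T → |z * (x₁ * x₂ * x₃ * x₄)| ≤ 2 ^ (N + 4 * T) :=
    fun {z x₁ x₂ x₃ x₄} hz h₁ h₂ h₃ h₄ =>
    (abs_mul_le_two_pow hz (abs_mul_le_two_pow (abs_mul_le_two_pow (abs_mul_le_two_pow h₁ h₂) h₃)
      h₄)).trans (two_pow_le (by omega))
  exact (abs_add_le_two_pow (abs_add_le_two_pow (abs_add_le_two_pow (abs_add_le_two_pow
    (hmon ha hu hu hu hu) (hmon hb hu hu hu hv)) (hmon hc hu hu hv hv)) (hmon hd hu hv hv hv))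
    (hmon he hv hv hv hv)).trans (two_pow_le (by omega))

end FA.BakerExplicit.SIntegralPoints

end
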