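import Fermat.Agent.BakerExplicit.ThueCoefficients
import Fermat.Agent.SiegelPoints.Classes
import Mathlib.NumberTheory.MahlerMeasure

/-!
# The value one of a binary quartic form, effectively

A primitive form without rational zero is irreducible, hence a Thue form, or a product of two
quadratic forms whose coefficients Mignotte bounds. A form with a rational zero at infinity is
elementary.
-/

set_option autoImplicit false

noncomputable section

namespace FA.BakerExplicit.QuarticValues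

open Polynomial FA.SiegelPoints

theorem two_pow_cast (T : ℕ) : ((2 ^ T : ℕ) : ℤ) = (2 : ℤ) ^ T := by push_cast; rfl

theorem natAbs_le_two_pow {z : ℤ} {T : ℕ} (hz : |z| ≤ 2 ^ T) : z.natAbs ≤ 2 ^ T := by
  rw [← two_pow_cast, Int.abs_eq_natAbs] at hz
  exact_mod_cast hz

theorem abs_le_two_pow {z : ℤ} {T : ℕ} (hz : z.natAbs < 2 ^ T) : |z| ≤ 2 ^ T := by
  rw [← two_pow_cast, Int.abs_eq_natAbs]
  exact_mod_cast hz.le

theorem two_pow_le {a b : ℕ} (h : a ≤ b) : (2 : ℤ) ^ a ≤ 2 ^ b :=
  pow_le_pow_right₀ (by norm_num) h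

/-- The bound for the logarithm, to base `2`, of the solutions. -/
def valueBound (N : ℕ) : ℕ := EffectiveThue.thueCoeffBound 4 N + N + 10

theorem coeff_poly (G : QuarticForm) :
    G.poly.coeff 0 = G.e ∧ G.poly.coeff 1 = G.d ∧ G.poly.coeff 2 = G.c ∧ G.poly.coeff 3 = G.b ∧
      G.poly.coeff 4 = G.a := by
  simp only [QuarticForm.poly, coeff_add, coeff_C_mul, coeff_X_pow, coeff_X, coeff_C]
  norm_num

theorem form_poly {G : QuarticForm} (ha : G.a ≠ 0) (x y : ℤ) :
    FA.Thue.form G.poly x y = G.eval x y := by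
  obtain ⟨h0, h1, h2, h3, h4⟩ := coeff_poly G
  rw [FA.Thue.form, QuarticForm.natDegree_poly ha]
  simp only [Finset.sum_range_succ, Finset.sum_range_zero, QuarticForm.eval, Int.cast_id,
    h0, h1, h2, h3, h4]
  ring

/-- A factor of a bounded quartic has bounded coefficients. -/
theorem factor_coeff_le {G : QuarticForm} (ha : G.a ≠ 0) {N : ℕ}
    (hN : G ∈ QuarticForm.box (2 ^ N)) {g h : ℤ[X]} (hgh : G.poly = g * h) (hh : h ≠ 0) (i : ℕ) :
    |g.coeff i| ≤ 2 ^ (N + 7) := by
  set F := G.poly.map (Int.castRingHom ℂ) with hF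
  have hFdeg : F.natDegree = 4 := by
    rw [hF, natDegree_map_eq_of_injective Int.cast_injective, QuarticForm.natDegree_poly ha]
  have hcoeff : ∀ j < 5, ‖F.coeff j‖ ≤ (2 : ℝ) ^ N := fun j hj => by
    obtain ⟨h0, h1, h2, h3, h4⟩ := coeff_poly G
    rw [hF, coeff_map, eq_intCast, Complex.norm_intCast]
    obtain ⟨ka, kb, kc, kd, ke⟩ := hN
    interval_cases j
    · rw [h0]; exact_mod_cast ke
    · rw [h1]; exact_mod_cast kd
    · rw [h2]; exact_mod_cast kc
    · rw [h3]; exact_mod_cast kb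
    · rw [h4]; exact_mod_cast ka
  have hM : F.mahlerMeasure ≤ 5 * (2 : ℝ) ^ N := by
    refine (mahlerMeasure_le_sum_norm_coeff F).trans ?_
    rw [sum_over_range' F (fun _ => norm_zero) 5 (by omega)]
    refine (Finset.sum_le_sum fun j hj => hcoeff j (Finset.mem_range.1 hj)).trans_eq ?_
    simp
  have hg0 : g ≠ 0 := fun e => by
    have := QuarticForm.natDegree_poly ha
    rw [hgh, e, zero_mul] at this
    simp at this
  have hdeg : g.natDegree ≤ 4 := by
    rw [← QuarticForm.natDegree_poly ha, hgh, natDegree_mul hg0 hh]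
    omega
  have h1 := norm_coeff_le_choose_mul_mahlerMeasure_of_one_le_mahlerMeasure i
    (g.map (Int.castRingHom ℂ)) (h.map (Int.castRingHom ℂ)) (one_le_mahlerMeasure_of_ne_zero hh)
  rw [← Polynomial.map_mul, ← hgh, ← hF, coeff_map, eq_intCast, Complex.norm_intCast,
    natDegree_map_eq_of_injective Int.cast_injective] at h1
  have hchoose : ((g.natDegree.choose i : ℕ) : ℝ) ≤ 16 := by
    have := (Nat.choose_le_two_pow g.natDegree i).trans (Nat.pow_le_pow_right two_pos hdeg)
    exact_mod_cast this.trans (le_of_eq (by norm_num : 2 ^ 4 = 16))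
  have h2 : (|(g.coeff i : ℤ)| : ℝ) ≤ (2 : ℝ) ^ (N + 7) := by
    refine h1.trans ((mul_le_mul hchoose hM (mahlerMeasure_nonneg _) (by norm_num)).trans ?_)
    rw [pow_add]
    linarith [pow_pos (two_pos : (0 : ℝ) < 2) N]
  exact_mod_cast h2

/-- A coprime zero of a non-zero quadratic form. -/
theorem quadratic_zero_le {A B C s r : ℤ} (hne : ¬(A = 0 ∧ B = 0 ∧ C = 0)) (hco : IsCoprime s r)
    (h0 : A * s ^ 2 + B * s * r + C * r ^ 2 = 0) :
    |s| ≤ |A| + |B| + |C| ∧ |r| ≤ |A| + |B| + |C| := by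
  suffices key : ∀ {A B C s r : ℤ}, ¬(A = 0 ∧ B = 0 ∧ C = 0) → IsCoprime s r →
      A * s ^ 2 + B * s * r + C * r ^ 2 = 0 → |s| ≤ |A| + |B| + |C| by
    refine ⟨key hne hco h0, ?_⟩
    have := key (A := C) (B := B) (C := A) (fun h => hne ⟨h.2.2, h.2.1, h.1⟩) hco.symm
      (by linear_combination h0)
    linarith
  intro A B C s r hne hco h0
  have hA := abs_nonneg A
  have hB := abs_nonneg B
  have hC := abs_nonneg C
  have hdvd : ∀ {z : ℤ}, z ≠ 0 → s ∣ z → |s| ≤ |z| := fun hz hd =>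
    Int.le_of_dvd (abs_pos.2 hz) ((abs_dvd_abs _ _).2 hd)
  have hsC : s ∣ C := (hco.pow_right (n := 2)).dvd_of_dvd_mul_right
    ⟨-(A * s + B * r), by linear_combination h0⟩
  rcases ne_or_eq C 0 with hC0 | hC0
  · linarith [hdvd hC0 hsC]
  rcases eq_or_ne s 0 with hs | hs
  · rw [hs, abs_zero]
    linarith
  have h1 : A * s + B * r = 0 := by
    refine (mul_eq_zero.1 (?_ : s * _ = 0)).resolve_left hs
    rw [hC0] at h0
    linear_combination h0
  rcases ne_or_eq B 0 with hB0 | hB0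
  · linarith [hdvd hB0 (hco.dvd_of_dvd_mul_right ⟨-A, by linear_combination h1⟩)]
  · refine absurd ⟨?_, hB0, hC0⟩ hne
    rw [hB0, zero_mul, add_zero] at h1
    exact (mul_eq_zero.1 h1).resolve_right hs

theorem isCoprime_of_eval {G : QuarticForm} {s r : ℤ} (h1 : G.eval s r = 1) : IsCoprime s r := by
  refine ⟨G.a * s ^ 3 + G.b * s ^ 2 * r + G.c * s * r ^ 2 + G.d * r ^ 3, G.e * r ^ 3, ?_⟩
  simp only [QuarticForm.eval, Int.cast_id] at h1
  linear_combination h1

/-- A product of two quadratic forms. -/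
theorem split_bound {G : QuarticForm} (hG : G.Nondegenerate) {N : ℕ}
    (hN : G ∈ QuarticForm.box (2 ^ N)) (ha : G.a ≠ 0) {g h : ℤ[X]} (hgh : G.poly = g * h)
    (hg : g.natDegree = 2) (hh : h.natDegree = 2) {s r : ℤ} (h1 : G.eval s r = 1) :
    |s| ≤ 2 ^ (N + 10) ∧ |r| ≤ 2 ^ (N + 10) := by
  have hquad : ∀ u : ℤ[X], u.natDegree = 2 →
      ∃ A A' A'', u = C A * X ^ 2 + C A' * X + C A'' := fun u hu =>
    ⟨u.coeff 2, u.coeff 1, u.coeff 0, by
      conv_lhs => rw [u.as_sum_range_C_mul_X_pow, hu]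
      simp only [Finset.sum_range_succ, Finset.sum_range_zero]
      ring⟩
  obtain ⟨A, A', A'', hA⟩ := hquad g hg
  obtain ⟨B, B', B'', hB⟩ := hquad h hh
  have hev : ∀ t : ℤ, G.eval t 1 = (A * t ^ 2 + A' * t + A'') * (B * t ^ 2 + B' * t + B'') :=
    fun t => by
    have := congrArg (eval t) hgh
    rw [hA, hB] at this
    simp [QuarticForm.poly] at this
    simp only [QuarticForm.eval, Int.cast_id]
    linear_combination this
  have e0 := hev 0
  have e1 := hev 1
  have em := hev (-1)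
  have e2 := hev 2
  have em2 := hev (-2)
  simp only [QuarticForm.eval, Int.cast_id] at e0 e1 em e2 em2
  ring_nf at e0 e1 em e2 em2
  have ka : G.a = A * B := by linarith
  have kb : G.b = A * B' + A' * B := by linarith
  have kc : G.c = A * B'' + A' * B' + A'' * B := by linarith
  have kd : G.d = A' * B'' + A'' * B' := by linarith
  have ke : G.e = A'' * B'' := by linarith
  have hmul : (A * s ^ 2 + A' * s * r + A'' * r ^ 2) *
      (B * s ^ 2 + B' * s * r + B'' * r ^ 2) = 1 := by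
    rw [← h1]
    simp only [QuarticForm.eval, Int.cast_id, ka, kb, kc, kd, ke]
    ring
  have hne : ¬(A - B = 0 ∧ A' - B' = 0 ∧ A'' - B'' = 0) := fun hz => by
    obtain ⟨z1, z2, z3⟩ := hz
    rw [sub_eq_zero] at z1 z2 z3
    refine hG ?_
    simp only [QuarticForm.invI, QuarticForm.invJ, ka, kb, kc, kd, ke, z1, z2, z3]
    ring
  have hz : (A - B) * s ^ 2 + (A' - B') * s * r + (A'' - B'') * r ^ 2 = 0 := by
    rcases Int.mul_eq_one_iff_eq_one_or_neg_one.1 hmul with ⟨u, v⟩ | ⟨u, v⟩ <;>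
      linear_combination u - v
  obtain ⟨hs, hr⟩ := quadratic_zero_le hne (isCoprime_of_eval h1) hz
  have hbg := factor_coeff_le ha hN hgh (by rintro rfl; simp at hh)
  have hbh := factor_coeff_le ha hN (hgh.trans (mul_comm g h)) (by rintro rfl; simp at hg)
  have g2 := hbg 2; have g1 := hbg 1; have g0 := hbg 0
  have f2 := hbh 2; have f1 := hbh 1; have f0 := hbh 0
  simp only [hA, coeff_add, coeff_C_mul, coeff_X_pow, coeff_X, coeff_C] at g2 g1 g0
  simp only [hB, coeff_add, coeff_C_mul, coeff_X_pow, coeff_X, coeff_C] at f2 f1 f0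
  norm_num at g2 g1 g0 f2 f1 f0
  have := abs_sub A B
  have := abs_sub A' B'
  have := abs_sub A'' B''
  have e3 : (2 : ℤ) ^ (N + 10) = 8 * 2 ^ (N + 7) := by
    rw [show N + 10 = N + 7 + 3 by ring, pow_add _ (N + 7)]; ring
  have := pow_pos (two_pos : (0 : ℤ) < 2) (N + 7)
  constructor <;> linarith

/-- **The solutions of `G (s, r) = 1` for a bounded form without rational zero.** -/
theorem anisotropic_bound {G : QuarticForm} (hG : G.Nondegenerate) (han : G.Anisotropic) {N : ℕ}
    (hN : G ∈ QuarticForm.box (2 ^ N)) {s r : ℤ} (h1 : G.eval s r = 1) :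
    |s| ≤ 2 ^ valueBound N ∧ |r| ≤ 2 ^ valueBound N := by
  have ha : G.a ≠ 0 := fun ha => one_ne_zero (han 1 0 (by simp [QuarticForm.eval, ha])).1
  have hdeg := QuarticForm.natDegree_poly ha
  by_cases hirr : Irreducible G.poly
  · have hH : ∀ i, (G.poly.coeff i).natAbs ≤ 2 ^ N := fun i => by
      obtain ⟨h0, h1, h2, h3, h4⟩ := coeff_poly G
      obtain ⟨ka, kb, kc, kd, ke⟩ := hN
      rcases le_or_gt i 4 with hi | hi
      · interval_cases i
        · rw [h0]; exact natAbs_le_two_pow ke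
        · rw [h1]; exact natAbs_le_two_pow kd
        · rw [h2]; exact natAbs_le_two_pow kc
        · rw [h3]; exact natAbs_le_two_pow kb
        · rw [h4]; exact natAbs_le_two_pow ka
      · rw [coeff_eq_zero_of_natDegree_lt (by omega)]
        simp
    obtain ⟨h2, h3⟩ := EffectiveThue.coefficient_bound (m := 1) (x := s) (y := r) hirr
      (by omega) hH Nat.one_le_two_pow (by rw [form_poly ha]; exact h1)
    rw [hdeg] at h2 h3
    exact ⟨(abs_le_two_pow h2).trans (two_pow_le (by rw [valueBound]; omega)),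
      (abs_le_two_pow h3).trans (two_pow_le (by rw [valueBound]; omega))⟩
  rw [irreducible_iff] at hirr
  push Not at hirr
  obtain ⟨g, h, hgh, hg, hh⟩ := hirr (fun hu => by
    have := natDegree_eq_zero_of_isUnit hu; omega)
  have hg0 : g ≠ 0 := fun e => by rw [hgh, e, zero_mul] at hdeg; simp at hdeg
  have hh0 : h ≠ 0 := fun e => by rw [hgh, e, mul_zero] at hdeg; simp at hdeg
  -- no constant and no linear factor
  have key : ∀ {u v : ℤ[X]}, G.poly = u * v → ¬IsUnit u →
      u.natDegree ≠ 0 ∧ u.natDegree ≠ 1 := fun {u v} huv hu => by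
    constructor
    · intro hd
      obtain ⟨c, hc⟩ := natDegree_eq_zero.1 hd
      refine hu (hc ▸ isUnit_C.2 (isUnit_of_dvd_one ?_))
      have hco : ∀ i, c ∣ G.poly.coeff i := fun i => ⟨v.coeff i, by rw [huv, ← hc, coeff_C_mul]⟩
      obtain ⟨k0, k1, k2, k3, k4⟩ := coeff_poly G
      have d0 := hco 0; have d1 := hco 1; have d2 := hco 2; have d3 := hco 3; have d4 := hco 4
      rw [k0] at d0; rw [k1] at d1; rw [k2] at d2; rw [k3] at d3; rw [k4] at d4
      rw [← h1]
      simp only [QuarticForm.eval, Int.cast_id]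
      exact dvd_add (dvd_add (dvd_add (dvd_add (dvd_mul_of_dvd_left d4 _)
        ((d3.mul_right _).mul_right _)) ((d2.mul_right _).mul_right _))
        ((d1.mul_right _).mul_right _)) (d0.mul_right _)
    · intro hd
      obtain ⟨a, a', ha'⟩ := exists_eq_X_add_C_of_natDegree_le_one hd.le
      have ha0 : a ≠ 0 := by
        rintro rfl
        rw [ha'] at hd
        simp at hd
      have hq : (G.poly.map (Int.castRingHom ℚ)).eval (-(a' : ℚ) / a) = 0 := by
        rw [huv, ha', Polynomial.map_mul, eval_mul]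
        simp
        left
        field_simp
        ring
      rw [QuarticForm.eval_map_poly] at hq
      have hz : G.eval (-a') a = 0 := by
        refine Int.cast_injective (α := ℚ) ?_
        have ha1 : (a : ℚ) ≠ 0 := Int.cast_ne_zero.2 ha0
        simp only [QuarticForm.eval, Int.cast_id] at hq ⊢
        field_simp at hq
        push_cast
        linear_combination hq
      exact ha0 (han _ _ hz).2
  obtain ⟨g0, g1⟩ := key hgh hg
  obtain ⟨k0, k1⟩ := key (hgh.trans (mul_comm g h)) hh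
  have hsum : g.natDegree + h.natDegree = 4 := by rw [← natDegree_mul hg0 hh0, ← hgh, hdeg]
  obtain ⟨h2, h3⟩ := split_bound hG hN ha hgh (by omega) (by omega) h1
  exact ⟨h2.trans (two_pow_le (by rw [valueBound]; omega)),
    h3.trans (two_pow_le (by rw [valueBound]; omega))⟩

/-- The solutions for a form vanishing at infinity. -/
theorem isotropic_bound {G : QuarticForm} (ha : G.a = 0) (hb : G.b ≠ 0) {N : ℕ}
    (hN : G ∈ QuarticForm.box (2 ^ N)) {s r : ℤ} (h1 : G.eval s r = 1) :
    |s| ≤ 2 ^ valueBound N ∧ |r| ≤ 2 ^ valueBound N := by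
  obtain ⟨-, -, hc, hd, he⟩ := hN
  simp only [QuarticForm.eval, Int.cast_id, ha] at h1
  have hmul : r * (G.b * s ^ 3 + G.c * s ^ 2 * r + G.d * s * r ^ 2 + G.e * r ^ 3) = 1 := by
    linear_combination h1
  have hr : |r| = 1 := Int.isUnit_iff_abs_eq.1 (IsUnit.of_mul_eq_one _ hmul)
  have hP := pow_pos (two_pos : (0 : ℤ) < 2) N
  have hV : 8 * (2 : ℤ) ^ N ≤ 2 ^ valueBound N := by
    refine le_trans ?_ (two_pow_le (show N + 3 ≤ valueBound N by rw [valueBound]; omega))
    rw [pow_add]; linarith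
  refine ⟨?_, by rw [hr]; linarith⟩
  by_contra hlt
  rw [not_le] at hlt
  have hs1 : 1 ≤ |s| := by linarith
  have hC : |G.b * s ^ 3 + G.c * s ^ 2 * r + G.d * s * r ^ 2 + G.e * r ^ 3| = 1 := by
    have := congrArg abs hmul
    rwa [abs_mul, hr, one_mul, abs_one] at this
  have hb1 : |s| ^ 3 ≤ |G.b * s ^ 3| := by
    rw [abs_mul, abs_pow]
    exact le_mul_of_one_le_left (pow_nonneg (abs_nonneg _) 3) (Int.one_le_abs hb)
  have h2 : |G.b * s ^ 3| ≤ 1 + (|G.c| * |s| ^ 2 + |G.d| * |s| + |G.e|) := by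
    have e1 : |G.c * s ^ 2 * r| = |G.c| * |s| ^ 2 := by rw [abs_mul, abs_mul, hr, abs_pow, mul_one]
    have e2 : |G.d * s * r ^ 2| = |G.d| * |s| := by
      rw [abs_mul, abs_mul, abs_pow, hr, one_pow, mul_one]
    have e3 : |G.e * r ^ 3| = |G.e| := by rw [abs_mul, abs_pow, hr, one_pow, mul_one]
    rw [← e1, ← e2, ← e3, ← hC]
    calc |G.b * s ^ 3|
        = |G.b * s ^ 3 + G.c * s ^ 2 * r + G.d * s * r ^ 2 + G.e * r ^ 3 -
            (G.c * s ^ 2 * r + G.d * s * r ^ 2 + G.e * r ^ 3)| := by congr 1; ring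
      _ ≤ _ := abs_sub _ _
      _ ≤ _ := by gcongr; exact abs_add_three _ _ _
  have hs2 : |s| ≤ |s| ^ 2 := le_self_pow₀ hs1 two_ne_zero
  have hs3 : 1 ≤ |s| ^ 2 := hs1.trans hs2
  have h5 : |s| ^ 3 ≤ |s| ^ 2 * (4 * 2 ^ N) := by
    refine hb1.trans (h2.trans ?_)
    have e1 := mul_le_mul hc le_rfl (pow_nonneg (abs_nonneg s) 2) hP.le
    have e2 := mul_le_mul hd hs2 (abs_nonneg s) hP.le
    have e3 := mul_le_mul he hs3 zero_le_one hP.le
    have e4 := mul_le_mul (hP : (1 : ℤ) ≤ 2 ^ N) hs3 zero_le_one hP.le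
    linarith
  rw [show |s| ^ 3 = |s| ^ 2 * |s| by ring] at h5
  have := le_of_mul_le_mul_left h5 (by linarith)
  linarith

end FA.BakerExplicit.QuarticValues

end
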