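import Fermat.Agent.BakerExplicit.TernaryTerms
import Mathlib.Data.Nat.Choose.Basic

/-!
# Closed form of a short linear recurrence

A sequence killed by at most four shifts minus a root is, up to a bounded factor, a sum of binomial
coefficients times powers of the roots, with bounded coefficients. Roots may be repeated.
-/

set_option autoImplicit false

noncomputable section

namespace FA.BakerExplicit.FourTerms

open Finset NumberField TernaryRecurrence

variable {K : Type*} [Field K] [NumberField K]

/-- The product of the shifts minus the roots kills the sequence. -/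
def Annihilates : List (𝓞 K) → (ℕ → 𝓞 K) → Prop
  | [], u => ∀ n, u n = 0
  | y :: l, u => Annihilates l fun n => u (n + 1) - y * u n

/-- The term of order `j` of a root. -/
def expTerm (x : 𝓞 K) (j n : ℕ) : 𝓞 K := n.choose j * x ^ (n - j)

omit [NumberField K] in
theorem expTerm_at_zero (x : 𝓞 K) (j : ℕ) : expTerm x j 0 = if j = 0 then 1 else 0 := by
  cases j <;> simp [expTerm]

omit [NumberField K] in
theorem expTerm_zero_succ (x : 𝓞 K) (n : ℕ) : expTerm x 0 (n + 1) = x * expTerm x 0 n := by
  simp [expTerm, pow_succ']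

omit [NumberField K] in
theorem expTerm_succ (x : 𝓞 K) (j n : ℕ) :
    expTerm x (j + 1) (n + 1) = expTerm x j n + x * expTerm x (j + 1) n := by
  simp only [expTerm, Nat.choose_succ_succ, Nat.succ_eq_add_one, Nat.cast_add, Nat.succ_sub_succ]
  rcases Nat.lt_or_ge n (j + 1) with h | h
  · simp [Nat.choose_eq_zero_of_lt h]
  · obtain ⟨r, rfl⟩ := Nat.exists_eq_add_of_le h
    rw [show j + 1 + r - j = r + 1 by omega, Nat.add_sub_cancel_left]
    ring

section House

variable {ι : Type*} {T T' : ℕ} {s : Finset ι} {f : ι → 𝓞 K}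

omit [NumberField K] in
theorem house_zero (T : ℕ) : HouseLe T (0 : 𝓞 K) := fun σ => by
  simp

omit [NumberField K] in
theorem house_one (T : ℕ) : HouseLe T (1 : 𝓞 K) := fun σ => by
  simpa using one_le_pow₀ (n := T) (one_le_two : (1 : ℝ) ≤ 2)

omit [NumberField K] in
theorem house_add {z w : 𝓞 K} (hz : HouseLe T z) (hw : HouseLe T w) : HouseLe (T + 1) (z + w) :=
  fun σ => by
  simp only [map_add]
  refine (norm_add_le _ _).trans ?_
  rw [pow_succ, mul_two]
  exact add_le_add (hz σ) (hw σ)

theorem house_sub {z w : 𝓞 K} (hz : HouseLe T z) (hw : HouseLe T w) : HouseLe (T + 1) (z - w) := by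
  rw [sub_eq_add_neg]
  exact house_add hz hw.neg

omit [NumberField K] in
theorem house_pow {z : 𝓞 K} (hz : HouseLe T z) (k : ℕ) : HouseLe (T * k) (z ^ k) := fun σ => by
  simp only [map_pow, norm_pow, pow_mul]
  exact pow_le_pow_left₀ (norm_nonneg _) (hz σ) k

omit [NumberField K] in
theorem house_sum {k : ℕ} (hs : #s ≤ 2 ^ k) (hf : ∀ i ∈ s, HouseLe T (f i)) :
    HouseLe (T + k) (∑ i ∈ s, f i) := fun σ => by
  simp only [map_sum]
  refine ((norm_sum_le _ _).trans (sum_le_card_nsmul s _ _ fun i hi => hf i hi σ)).trans ?_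
  rw [nsmul_eq_mul, add_comm T k, pow_add]
  exact mul_le_mul_of_nonneg_right (by exact_mod_cast hs) (by positivity)

omit [NumberField K] in
theorem house_prod {k : ℕ} (hs : #s ≤ k) (hf : ∀ i ∈ s, HouseLe T (f i)) :
    HouseLe (T * k) (∏ i ∈ s, f i) := fun σ => by
  simp only [map_prod, norm_prod]
  refine (prod_le_prod (fun i _ => norm_nonneg _) fun i hi => hf i hi σ).trans ?_
  rw [prod_const, pow_mul]
  exact pow_le_pow_right₀ (one_le_pow₀ one_le_two) hs

end House

/-- The size of the coefficients for `m` roots at most `2 ^ h` and values at most `2 ^ H`. -/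
def closedBound (h : ℕ) : ℕ → ℕ → ℕ
  | 0, _ => 0
  | m + 1, H => closedBound h m (H + h + 1) + H + 25 * (h + 1)

open Classical in
/-- **The closed form.** -/
theorem exists_closed_form (h : ℕ) : ∀ l : List (𝓞 K), l.length ≤ 4 → (∀ x ∈ l, HouseLe h x) →
    ∀ (u : ℕ → 𝓞 K) (H : ℕ), Annihilates l u → (∀ n < l.length, HouseLe H (u n)) →
    ∃ (D : 𝓞 K) (a : 𝓞 K → ℕ → 𝓞 K), D ≠ 0 ∧ HouseLe (closedBound h l.length H) D ∧
      (∀ x j, HouseLe (closedBound h l.length H) (a x j)) ∧
      (∀ x j, l.count x ≤ j → a x j = 0) ∧
      ∀ n, D * u n = ∑ x ∈ l.toFinset, ∑ j ∈ range 4, a x j * expTerm x j n := by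
  intro l
  induction l with
  | nil =>
    intro _ _ u H hu _
    refine ⟨1, fun _ _ => 0, one_ne_zero, house_one _, fun _ _ => house_zero _, fun _ _ _ => rfl,
      fun n => ?_⟩
    simp [hu n]
  | cons y l ih =>
    intro hlen hroots u H hu hval
    rw [List.length_cons] at hlen hval
    have hy : HouseLe h y := hroots y List.mem_cons_self
    have hl : ∀ x ∈ l, HouseLe h x := fun x hx => hroots x (List.mem_cons_of_mem _ hx)
    obtain ⟨D, a, hD, hDh, hah, hmult, heq⟩ := ih (by omega) hl
      (fun n => u (n + 1) - y * u n) (H + h + 1) hu fun n hn =>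
        house_sub ((hval (n + 1) (by omega)).mono (by omega))
          ((hy.mul (hval n (by omega))).mono (by omega))
    rw [List.length_cons]
    set B := closedBound h l.length (H + h + 1)
    have hB : closedBound h (l.length + 1) H = B + H + 25 * (h + 1) := rfl
    rw [hB]
    set S := l.toFinset.erase y with hS
    set others : 𝓞 K → 𝓞 K := fun x => ∏ z ∈ S.erase x, (z - y) ^ 4 with hothers
    set s := ∏ z ∈ S, (z - y) ^ 4 with hs
    have hScard : #S ≤ 4 := (card_erase_le.trans (List.toFinset_card_le l)).trans (by omega)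
    have hfac : ∀ z ∈ S, HouseLe ((h + 1) * 4) ((z - y) ^ 4) := fun z hz =>
      house_pow (house_sub (hl z (List.mem_toFinset.1 (mem_erase.1 hz).2)) hy) 4
    have hsh : HouseLe ((h + 1) * 4 * 4) s := house_prod hScard hfac
    have hs0 : s ≠ 0 := prod_ne_zero_iff.2 fun z hz =>
      pow_ne_zero 4 (sub_ne_zero.2 (mem_erase.1 hz).1)
    set bo : 𝓞 K → ℕ → 𝓞 K := fun x j => others x * ∑ i ∈ range 4,
      if j ≤ i then (-1) ^ (i - j) * a x i * (x - y) ^ (3 - (i - j)) else 0 with hbo
    have hboh : ∀ x ∈ S, ∀ j, HouseLe (B + 22 * (h + 1)) (bo x j) := fun x hx j => by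
      refine ((house_prod (card_erase_le.trans hScard) fun z hz =>
        hfac z (mem_erase.1 hz).2).mul (house_sum (k := 2) (T := B + (h + 1) * 3)
          (by simp) fun i _ => ?_)).mono (by omega)
      split_ifs
      · refine (((house_pow (house_one (K := K) 0).neg (i - j)).mul (hah x i)).mul
          (house_pow (house_sub (hl x (List.mem_toFinset.1 (mem_erase.1 hx).2)) hy) _)).mono ?_
        rw [zero_mul, zero_add]
        exact Nat.add_le_add_left (Nat.mul_le_mul_left _ (Nat.sub_le _ _)) _
      · exact house_zero _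
    set b0 := D * s * u 0 - ∑ x ∈ S, bo x 0 with hb0
    set b : 𝓞 K → ℕ → 𝓞 K := fun x j => if x = y then (if j = 0 then b0 else s * a y (j - 1))
      else if x ∈ S then bo x j else 0 with hb
    have hmem : ∀ x, x ∈ (y :: l).toFinset ↔ x ∈ insert y S := fun x => by
      simp only [List.toFinset_cons, mem_insert, hS, mem_erase]
      tauto
    have hset : (y :: l).toFinset = insert y S := Finset.ext hmem
    have hyS : y ∉ S := notMem_erase y _
    refine ⟨D * s, b, mul_ne_zero hD hs0, (hDh.mul hsh).mono (by omega), fun x j => ?_,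
      fun x j hj => ?_, fun n => ?_⟩
    · simp only [hb]
      split_ifs with hx hj hxS
      · refine (house_sub (T := B + H + 24 * (h + 1))
          (((hDh.mul hsh).mul (hval 0 (by omega))).mono (by omega))
          ((house_sum (k := 2) (by simpa using hScard) fun x hx => hboh x hx 0).mono
            (by omega))).mono (by omega)
      · exact (hsh.mul (hah y _)).mono (by omega)
      · exact (hboh x hxS j).mono (by omega)
      · exact house_zero _
    · simp only [hb]
      split_ifs with hx hj0 hxS
      · subst hx hj0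
        rw [List.count_cons_self] at hj
        omega
      · subst hx
        rw [List.count_cons_self] at hj
        rw [hmult x (j - 1) (by omega), mul_zero]
      · rw [List.count_cons_of_ne (Ne.symm hx)] at hj
        simp only [hbo]
        refine mul_eq_zero_of_right _ (sum_eq_zero fun i _ => ?_)
        split_ifs with hji
        · rw [hmult x i (hj.trans hji)]; simp
        · rfl
      · rfl
    have hby : ∀ j, b y j = if j = 0 then b0 else s * a y (j - 1) := fun j => if_pos rfl
    have hbS : ∀ x ∈ S, ∀ j, b x j = bo x j := fun x hx j => by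
      simp only [hb, if_neg (mem_erase.1 hx).1, if_pos hx]
    have heq' : ∀ n, D * (u (n + 1) - y * u n) =
        ∑ x ∈ insert y S, ∑ j ∈ range 4, a x j * expTerm x j n := fun n => by
      rw [heq n]
      refine sum_subset (fun x hx => ?_) fun x _ hx => sum_eq_zero fun j _ => ?_
      · rw [← hset, List.toFinset_cons]; exact mem_insert_of_mem hx
      · rw [hmult x j (by rw [List.count_eq_zero.2 fun h => hx (List.mem_toFinset.2 h)]; omega),
          zero_mul]
    rw [hset]
    induction n with
    | zero =>
      rw [sum_insert hyS]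
      simp only [sum_range_succ, sum_range_zero, expTerm_at_zero, hby]
      simp only [OfNat.ofNat_ne_zero, one_ne_zero, ↓reduceIte, mul_zero, mul_one, add_zero,
        zero_add]
      rw [sum_congr rfl fun x hx => hbS x hx 0, hb0, sub_add_cancel]
    | succ n ihn =>
      have key : ∀ x ∈ insert y S, ∑ j ∈ range 4, b x j * expTerm x j (n + 1) =
          s * (∑ j ∈ range 4, a x j * expTerm x j n) +
            y * ∑ j ∈ range 4, b x j * expTerm x j n := fun x hx => by
        simp only [sum_range_succ, sum_range_zero, expTerm_zero_succ, expTerm_succ]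
        rcases eq_or_ne x y with rfl | hxy
        · have h3 : a x 3 = 0 := hmult x 3 (by
            have h1 : (x :: l).count x ≤ 4 := List.count_le_length.trans (by simpa using hlen)
            rw [List.count_cons_self] at h1
            omega)
          simp [hby, h3]
          ring
        · have hxS : x ∈ S := (mem_insert.1 hx).resolve_left hxy
          have hse : s = (x - y) ^ 4 * others x := (mul_prod_erase S _ hxS).symm
          simp [hbS x hxS, hbo, hse, sum_range_succ]
          ring
      rw [sum_congr rfl key, sum_add_distrib, ← mul_sum, ← mul_sum, ← heq' n, ← ihn]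
      ring

/-- The coefficient of `x ^ (n - 3)`. -/
def rootCoeff (a : ℕ → 𝓞 K) (x : 𝓞 K) (n : ℕ) : 𝓞 K :=
  ∑ j ∈ range 4, a j * x ^ (3 - j) * (n.choose j : 𝓞 K)

omit [NumberField K] in
theorem sum_expTerm {a : ℕ → 𝓞 K} {x : 𝓞 K} {n : ℕ} (hn : 3 ≤ n) :
    ∑ j ∈ range 4, a j * expTerm x j n = rootCoeff a x n * x ^ (n - 3) := by
  rw [rootCoeff, sum_mul]
  refine sum_congr rfl fun j hj => ?_
  rw [mem_range] at hj
  rw [expTerm, show n - j = (3 - j) + (n - 3) by omega, pow_add]
  ring

end FA.BakerExplicit.FourTerms

end
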