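import Fermat.Agent.BakerExplicit.FewTerms
import Fermat.Agent.BakerExplicit.QuaternaryClosedForm

/-!
# The zeros of an integer recurrence of order four

From an explicit index on they are periodic with a fixed period. The roots with ratio a root of
unity form a class; each class has a coefficient which vanishes periodically, and the classes
which remain cannot cancel.
-/

set_option autoImplicit false

noncomputable section

namespace FA.BakerExplicit.FourTerms

open Finset NumberField Module GeneratedField TernaryRecurrence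

variable {K : Type*} [Field K] [NumberField K] {d e B h n : ℕ}

omit [NumberField K] in
theorem house_root_of_unity {ζ : 𝓞 K} {N : ℕ} (hN : N ≠ 0) (hζ : ζ ^ N = 1) (T : ℕ) :
    HouseLe T ζ := fun σ => by
  have h1 := congrArg (fun z : 𝓞 K => σ (z : K)) hζ
  simp only [map_pow, map_one] at h1
  rw [Complex.norm_eq_one_of_pow_eq_one h1 hN]
  exact one_le_pow₀ one_le_two

omit [NumberField K] in
theorem exists_ratio {x r : 𝓞 K} {N : ℕ} (hN : 0 < N) (hr : r ≠ 0) (h : x ^ N = r ^ N) :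
    ∃ ζ : 𝓞 K, x = ζ * r ∧ ζ ^ N = 1 := by
  have hrK : (r : K) ≠ 0 := RingOfIntegers.coe_ne_zero_iff.2 hr
  have h1 : ((x : K) / r) ^ N = 1 := by
    rw [div_pow, div_eq_one_iff_eq (pow_ne_zero _ hrK), ← map_pow, ← map_pow, h]
  obtain ⟨ζ, hζ⟩ : ∃ ζ : 𝓞 K, (ζ : K) = (x : K) / r :=
    ⟨⟨(x : K) / r, IsIntegral.of_pow (x := (x : K) / r) hN (h1 ▸ isIntegral_one)⟩, rfl⟩
  refine ⟨ζ, RingOfIntegers.coe_injective ?_, RingOfIntegers.coe_injective ?_⟩
  · simp only [map_mul, hζ, div_mul_cancel₀ _ hrK]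
  · simp only [map_pow, map_one, hζ, h1]

theorem choose_step {n i : ℕ} (hi : i < 3) (hn : 5 ≤ n) :
    n.choose i * (n - 2) ≤ 3 * n.choose (i + 1) := by
  have h := Nat.choose_succ_right_eq n i
  calc n.choose i * (n - 2) ≤ n.choose i * (n - i) := Nat.mul_le_mul_left _ (by omega)
    _ = n.choose (i + 1) * (i + 1) := h.symm
    _ ≤ n.choose (i + 1) * 3 := Nat.mul_le_mul_left _ (by omega)
    _ = _ := mul_comm _ _

theorem choose_dominates {n : ℕ} (hn : 5 ≤ n) : ∀ {i j : ℕ}, i < j → j ≤ 3 →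
    n.choose i * (n - 2) ≤ 3 * n.choose j := by
  intro i j hij hj
  induction j, hij using Nat.le_induction with
  | base => exact choose_step (by omega) hn
  | succ j hij' ih =>
    have h2 : n.choose j ≤ n.choose (j + 1) := by
      have h1 := Nat.mul_le_mul_left (n.choose j) (show 3 ≤ n - 2 by omega)
      have := choose_step (show j < 3 by omega) hn
      omega
    exact (ih (by omega)).trans (Nat.mul_le_mul_left 3 h2)

/-- A small combination of binomial coefficients has no large zero. -/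
theorem top_coeff_zero (hd : finrank ℚ K ≤ d) {b : ℕ → 𝓞 K} (hb : ∀ i, HouseLe B (b i))
    (hn : 2 ^ (B + B * d + 5) ≤ n) {j : ℕ} (hj : j ≤ 3)
    (h0 : ∑ i ∈ range (j + 1), b i * (n.choose i : 𝓞 K) = 0) : b j = 0 := by
  by_contra hne
  obtain ⟨σ⟩ : Nonempty (K →+* ℂ) := inferInstance
  have h1 := inv_two_pow_le hd hne (hb j) σ
  have hn5 : 32 ≤ n := le_trans (Nat.pow_le_pow_right two_pos (show 5 ≤ B + B * d + 5 by omega)) hn
  have hcj : (0 : ℝ) < n.choose j := by exact_mod_cast Nat.choose_pos (show j ≤ n by omega)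
  rw [sum_range_succ] at h0
  have e := congrArg (fun z : 𝓞 K => σ (z : K)) h0
  simp only [map_add, map_sum, map_mul, map_natCast, map_zero] at e
  have h2 : ‖σ (b j : K)‖ * n.choose j ≤ 3 * ((2 : ℝ) ^ B * (3 * n.choose j / (n - 2 : ℕ))) := by
    rw [show ‖σ (b j : K)‖ * n.choose j = ‖σ (b j : K) * (n.choose j : ℂ)‖ by
      rw [norm_mul, Complex.norm_natCast], eq_neg_of_add_eq_zero_right e, norm_neg]
    refine ((norm_sum_le _ _).trans (sum_le_card_nsmul _ _
      ((2 : ℝ) ^ B * (3 * n.choose j / (n - 2 : ℕ))) fun i hi => ?_)).trans ?_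
    · rw [norm_mul, Complex.norm_natCast]
      refine mul_le_mul (hb i σ) ?_ (Nat.cast_nonneg _) (by positivity)
      rw [le_div_iff₀ (by exact_mod_cast (show 0 < n - 2 by omega))]
      exact_mod_cast choose_dominates (by omega) (mem_range.1 hi) hj
    · rw [card_range, nsmul_eq_mul]
      exact mul_le_mul_of_nonneg_right (by exact_mod_cast hj) (by positivity)
  have h3 : ((2 : ℝ) ^ (B * d))⁻¹ * n.choose j ≤
      9 * (2 : ℝ) ^ B * n.choose j / (n - 2 : ℕ) :=
    (mul_le_mul_of_nonneg_right h1 hcj.le).trans (h2.trans_eq (by ring))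
  rw [le_div_iff₀ (by exact_mod_cast (show 0 < n - 2 by omega)), mul_right_comm,
    mul_le_mul_iff_of_pos_right hcj, inv_mul_le_iff₀ (by positivity)] at h3
  have h4 : (n - 2 : ℕ) ≤ 2 ^ (B * d) * (9 * 2 ^ B) := by exact_mod_cast h3
  rw [show 2 ^ (B * d) * (9 * 2 ^ B) = 9 * 2 ^ (B + B * d) by ring] at h4
  rw [pow_add] at hn
  have := Nat.two_pow_pos (B + B * d)
  omega

theorem binomial_zero_iff (hd : finrank ℚ K ≤ d) {b : ℕ → 𝓞 K} (hb : ∀ i, HouseLe B (b i))
    (hn : 2 ^ (B + B * d + 5) ≤ n) :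
    ∑ i ∈ range 4, b i * (n.choose i : 𝓞 K) = 0 ↔ ∀ i ∈ range 4, b i = 0 := by
  refine ⟨fun h0 => ?_, fun h => sum_eq_zero fun i hi => by rw [h i hi, zero_mul]⟩
  have hdrop : ∀ j ≤ 3, ∑ i ∈ range (j + 1), b i * (n.choose i : 𝓞 K) = 0 →
      b j = 0 ∧ ∑ i ∈ range j, b i * (n.choose i : 𝓞 K) = 0 := fun j hj h => by
    have := top_coeff_zero hd hb hn hj h
    rw [sum_range_succ, this, zero_mul, add_zero] at h
    exact ⟨this, h⟩
  obtain ⟨e3, h3⟩ := hdrop 3 le_rfl h0
  obtain ⟨e2, h2⟩ := hdrop 2 (by omega) h3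
  obtain ⟨e1, h1⟩ := hdrop 1 (by omega) h2
  obtain ⟨e0, -⟩ := hdrop 0 (by omega) h1
  intro i hi
  rw [mem_range] at hi
  interval_cases i <;> assumption

/-- The size of the coefficients of the classes. -/
def coeffSize (B h : ℕ) : ℕ := B + 3 * h + 22

/-- The index from which the zeros of the combination are periodic. -/
def combBound (d e B h : ℕ) : ℕ :=
  fourBound d e (coeffSize B h) + 2 ^ (coeffSize B h + coeffSize B h * d + 5) + 8

theorem choose_le_two_pow {n j : ℕ} (hn : 8 ≤ n) (hj : j ≤ 3) :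
    n.choose j ≤ 2 ^ (6 * logSize (n - 3)) := by
  have h1 : n + 1 ≤ 2 ^ (2 * logSize (n - 3)) := by
    have h2 := Nat.lt_pow_succ_log_self one_lt_two (n - 3 + 1)
    have h3 : 2 ≤ 2 ^ logSize (n - 3) :=
      Nat.le_self_pow (Nat.ne_of_gt (one_le_logSize _)) 2
    have h4 := Nat.mul_le_mul_right (2 ^ logSize (n - 3)) h3
    rw [two_mul, pow_add]
    simp only [logSize] at *
    omega
  refine (Nat.choose_le_pow n j).trans ?_
  refine (Nat.pow_le_pow_left (Nat.le_succ n) j).trans ?_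
  refine (Nat.pow_le_pow_right (Nat.succ_pos n) hj).trans ?_
  refine (Nat.pow_le_pow_left h1 3).trans ?_
  rw [← pow_mul]
  exact Nat.pow_le_pow_right two_pos (by omega)

open Classical in
/-- **The zeros of a combination of four roots.** -/
theorem combination_periodic (hd : finrank ℚ K ≤ d) (he : (discr K).natAbs ≤ 2 ^ e)
    {z : Fin 4 → 𝓞 K} (hz : ∀ i, HouseLe h (z i)) {a : 𝓞 K → ℕ → 𝓞 K}
    (ha : ∀ x j, HouseLe B (a x j))
    (hsimple : Function.Injective z → ∀ i j, 0 < j → a (z i) j = 0) (σ : K →+* ℂ)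
    (hconj : ∀ i, ∃ j, σ (z j : K) = starRingEnd ℂ (σ (z i : K)))
    {f : ℕ → 𝓞 K} (hf : ∀ n, f n = ∑ x ∈ univ.image z, ∑ j ∈ range 4, a x j * expTerm x j n)
    (hn : combBound d e B h ≤ n) : f n = 0 ↔ f (n + rootPeriod d) = 0 := by
  rw [combBound] at hn
  set H := coeffSize B h with hH
  have := Nat.two_pow_pos (H + H * d + 5)
  obtain ⟨N, hN⟩ : ∃ N, N = rootPeriod d := ⟨_, rfl⟩
  have hN0 : 0 < N := hN ▸ rootPeriod_pos d
  rw [← hN]
  set T := (univ.image z).filter (fun x => x ≠ 0) with hT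
  set G := T.image (fun x => x ^ N) with hG
  have hTh : ∀ x ∈ T, x ≠ 0 ∧ HouseLe h x := fun x hx => by
    obtain ⟨h1, h2⟩ := mem_filter.1 hx
    obtain ⟨i, -, rfl⟩ := mem_image.1 h1
    exact ⟨h2, hz i⟩
  have hrep : ∀ g : 𝓞 K, ∃ r, g ∈ G → r ∈ T ∧ r ^ N = g := fun g => by
    by_cases hg : g ∈ G
    · obtain ⟨r, hr, hrg⟩ := mem_image.1 hg
      exact ⟨r, fun _ => ⟨hr, hrg⟩⟩
    · exact ⟨0, fun hg' => absurd hg' hg⟩
  choose r hr using hrep
  have hrat : ∀ x : 𝓞 K, ∃ ζ, (x ∈ T → x = ζ * r (x ^ N)) ∧ ζ ^ N = 1 := fun x => by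
    by_cases hx : x ∈ T
    · obtain ⟨h1, h2⟩ := hr _ (mem_image_of_mem _ hx)
      obtain ⟨ζ, h3, h4⟩ := exists_ratio hN0 (hTh _ h1).1 h2.symm
      exact ⟨ζ, fun _ => h3, h4⟩
    · exact ⟨1, fun hx' => absurd hx' hx, one_pow N⟩
  choose ζ hζ hζN using hrat
  set F : 𝓞 K → Finset (𝓞 K) := fun g => T.filter (fun x => x ^ N = g) with hF
  set b : 𝓞 K → ℕ → ℕ → 𝓞 K := fun g j m =>
    ∑ x ∈ F g, ζ x ^ (m - 3) * a x j * x ^ (3 - j) with hb
  set C : 𝓞 K → ℕ → 𝓞 K := fun g m => ∑ j ∈ range 4, b g j m * (m.choose j : 𝓞 K) with hC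
  have hFcard : ∀ g, #(F g) ≤ 4 := fun g =>
    (card_filter_le _ _).trans ((card_filter_le _ _).trans (card_image_le.trans (by simp)))
  have hbh : ∀ g j m, HouseLe (B + 3 * h + 2) (b g j m) := fun g j m => by
    refine (house_sum (k := 2) (T := B + 3 * h) (by simpa using hFcard g) fun x hx => ?_).mono
      le_rfl
    refine (((house_root_of_unity hN0.ne' (N := N) (ζ := ζ x ^ (m - 3)) ?_ 0).mul (ha x j)).mul
      (house_pow (hTh x (mem_filter.1 hx).1).2 _)).mono ?_
    · rw [← pow_mul, mul_comm, pow_mul, hζN, one_pow]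
    · rw [zero_add]
      exact Nat.add_le_add_left
        ((Nat.mul_le_mul_left h (Nat.sub_le 3 j)).trans_eq (mul_comm h 3)) B
  have hterms : ∀ m, 4 ≤ m → f m = ∑ g ∈ G, C g m * r g ^ (m - 3) := fun m hm => by
    rw [hf m, ← sum_subset (filter_subset (fun x => x ≠ 0) (univ.image z)) (fun x hx hx' => by
      have h0 : x = 0 := by_contra fun h0 => hx' (mem_filter.2 ⟨hx, h0⟩)
      rw [sum_expTerm (by omega : 3 ≤ m), h0, zero_pow (show m - 3 ≠ 0 by omega), mul_zero]),
      ← hT, ← sum_fiberwise_of_maps_to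
        (fun x hx => show x ^ N ∈ G from mem_image_of_mem _ hx)]
    refine sum_congr rfl fun g _ => ?_
    simp only [hC, hb, sum_mul]
    rw [sum_comm (s := range 4)]
    refine sum_congr rfl fun x hx => ?_
    obtain ⟨hxT, hxg⟩ := mem_filter.1 hx
    rw [sum_expTerm (by omega : 3 ≤ m), rootCoeff, sum_mul]
    refine sum_congr rfl fun j _ => ?_
    have e : x ^ (m - 3) = ζ x ^ (m - 3) * r g ^ (m - 3) := by
      rw [← mul_pow, ← hxg, ← hζ x hxT]
    rw [e]
    ring
  have hCiff : ∀ g m, n ≤ m → (C g m = 0 ↔ ∀ j ∈ range 4, b g j m = 0) := fun g m hm =>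
    binomial_zero_iff hd (fun j => hbh g j m) <| by
      refine le_trans (Nat.pow_le_pow_right two_pos ?_) (show 2 ^ (H + H * d + 5) ≤ m by omega)
      have hle : B + 3 * h + 2 ≤ H := by simp only [hH, coeffSize]; omega
      exact Nat.add_le_add_right (Nat.add_le_add hle (Nat.mul_le_mul_right d hle)) 5
  have hbper : ∀ g j, b g j (n + N) = b g j n := fun g j => sum_congr rfl fun x _ => by
    rw [show n + N - 3 = (n - 3) + N by omega, pow_add, hζN, mul_one]
  have hCper : ∀ g, C g n = 0 ↔ C g (n + N) = 0 := fun g => by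
    rw [hCiff g n le_rfl, hCiff g (n + N) (Nat.le_add_right _ _)]
    simp only [hbper]
  set Z := G.filter (fun g => C g n ≠ 0) with hZ
  have hsum : ∀ m, n ≤ m → (∀ g ∈ G, C g n = 0 ↔ C g m = 0) →
      f m = ∑ g ∈ Z, C g m * r g ^ (m - 3) := fun m hm hper => by
    rw [hterms m (by omega)]
    refine (sum_subset (filter_subset _ _) fun g hg hg' => ?_).symm
    rw [(hper g hg).1 (by_contra fun h0 => hg' (mem_filter.2 ⟨hg, h0⟩)), zero_mul]
  rcases Z.eq_empty_or_nonempty with hZ0 | hZne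
  · refine iff_of_true ?_ ?_
    · rw [hsum n le_rfl fun g _ => Iff.rfl, hZ0, sum_empty]
    · rw [hsum (n + N) (Nat.le_add_right _ _) fun g _ => hCper g, hZ0, sum_empty]
  suffices key : ∀ m, n ≤ m → (∀ g ∈ G, C g n = 0 ↔ C g m = 0) → f m ≠ 0 from
    iff_of_false (key n le_rfl fun g _ => Iff.rfl)
      (key (n + N) (Nat.le_add_right _ _) fun g _ => hCper g)
  intro m hm hper
  have hGcard : #G ≤ #T := card_image_le
  have hTcard : #T ≤ 4 := (card_filter_le _ _).trans (card_image_le.trans (by simp))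
  have hZG : #Z ≤ #G := card_filter_le _ _
  have hC0 : ∀ g ∈ Z, C g m ≠ 0 := fun g hg h0 =>
    (mem_filter.1 hg).2 ((hper g (mem_filter.1 hg).1).2 h0)
  rcases Nat.lt_or_ge (#Z) 4 with hlt | hge
  · rw [hsum m hm hper]
    have hrh : ∀ g ∈ Z, r g ∈ T ∧ r g ^ N = g := fun g hg => hr g (mem_filter.1 hg).1
    refine three_terms_ne_zero (h := H) (n := m - 3) hd he hZne (Nat.le_of_lt_succ hlt) hC0
      (fun g _ => ?_) (fun g hg => (hTh _ (hrh g hg).1).1)
      (fun g hg => (hTh _ (hrh g hg).1).2.mono (by simp only [hH, coeffSize]; omega))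
      (fun g hg g' hg' hne => independent_of_period hd (hTh _ (hrh g' hg').1).1 fun h0 => hne ?_)
      (by rw [fourBound] at hn; omega)
    · refine (house_sum (k := 2) (T := B + 3 * h + 2 + 6 * logSize (m - 3)) (by simp) fun j hj =>
        (hbh g j m).mul fun τ => ?_).mono ?_
      · simp only [map_natCast, Complex.norm_natCast]
        exact_mod_cast choose_le_two_pow (show 8 ≤ m by omega)
          (Nat.le_of_lt_succ (mem_range.1 hj))
      · have h1 := one_le_logSize (m - 3)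
        have h2 := Nat.le_mul_of_pos_right (B + 3 * h + 4) h1
        simp only [hH, coeffSize]
        rw [show (B + 3 * h + 22) * logSize (m - 3) =
          (B + 3 * h + 4) * logSize (m - 3) + 18 * logSize (m - 3) by ring]
        omega
    · rw [← (hrh g hg).2, ← (hrh g' hg').2, hN, h0]
  · have hT4 : #T = 4 := by omega
    have himg : #(univ.image z) = 4 :=
      le_antisymm (card_image_le.trans (by simp)) (hT4.symm.trans_le (card_filter_le _ _))
    have hinj : Function.Injective z := fun i j hij =>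
      card_image_iff.1 (himg.trans (by simp)) (mem_coe.2 (mem_univ i)) (mem_coe.2 (mem_univ j)) hij
    have hmemT : ∀ i, z i ∈ T := fun i => by
      rw [hT, eq_of_subset_of_card_le (filter_subset (fun x => x ≠ 0) (univ.image z))
        (show #(univ.image z) ≤ #T by omega)]
      exact mem_image_of_mem z (mem_univ i)
    have hGT : Set.InjOn (fun x => x ^ N) (T : Set (𝓞 K)) :=
      card_image_iff.1 (le_antisymm hGcard (show #T ≤ #G by omega))
    have hZeq : Z = G := eq_of_subset_of_card_le (filter_subset _ _) (by omega)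
    set c : Fin 4 → 𝓞 K := fun i => a (z i) 0 * z i ^ 3 with hc
    have hcoeff : ∀ i m', rootCoeff (a (z i)) (z i) m' = c i := fun i m' => by
      simp [rootCoeff, hc, sum_range_succ, hsimple hinj i]
    rw [hf m, sum_image fun i _ j _ hij => hinj hij]
    simp only [sum_expTerm (show 3 ≤ m by omega), hcoeff]
    refine four_terms_ne_zero (h := H) (n := m - 3) hd he (fun i h0 => ?_) (fun i => ?_)
      (fun i => (hTh _ (hmemT i)).1) (fun i => (hz i).mono (by simp only [hH, coeffSize]; omega))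
      (fun i j hij => independent_of_period hd (hTh _ (hmemT j)).1 fun h0 => hij (hinj
        (hGT (hmemT i) (hmemT j) (by simp only [hN]; exact h0))))
      σ hconj (by omega)
    · have hg : z i ^ N ∈ Z := hZeq ▸ mem_image_of_mem _ (hmemT i)
      refine hC0 _ hg ?_
      have hF1 : F (z i ^ N) = {z i} := eq_singleton_iff_unique_mem.2
        ⟨mem_filter.2 ⟨hmemT i, rfl⟩, fun x hx =>
          hGT (mem_filter.1 hx).1 (hmemT i) (mem_filter.1 hx).2⟩
      simp only [hC, hb, hF1, sum_singleton]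
      rw [show (∑ j ∈ range 4, ζ (z i) ^ (m - 3) * a (z i) j * z i ^ (3 - j) *
          (m.choose j : 𝓞 K)) = ζ (z i) ^ (m - 3) * rootCoeff (a (z i)) (z i) m by
        rw [rootCoeff, mul_sum]; exact sum_congr rfl fun j _ => by ring, hcoeff, h0, mul_zero]
    · exact ((ha _ 0).mul (house_pow (hz i) 3)).mono (by simp only [hH, coeffSize]; omega)

/-- The period of the zeros of a recurrence of order four. -/
def quaternaryPeriod : ℕ := rootPeriod 256

/-- The index from which they are periodic for data at most `2 ^ k`. -/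
def quaternaryBound (k : ℕ) : ℕ :=
  combBound 256 (discExp 4 4 (k + 4)) (closedBound (k + 4) 4 k) (k + 4)

theorem quaternaryPeriod_pos : 0 < quaternaryPeriod := rootPeriod_pos _

open Polynomial in
/-- The four roots with multiplicity. -/
theorem exists_four_roots (P Q R S : ℤ) : ∃ α β γ δ : ℂ, α + β + γ + δ = P ∧
    α * β + α * γ + α * δ + β * γ + β * δ + γ * δ = -Q ∧
    α * β * γ + α * β * δ + α * γ * δ + β * γ * δ = R ∧ α * β * γ * δ = -S := by
  obtain ⟨α, hα⟩ := IsAlgClosed.exists_root (k := ℂ)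
    (X ^ 4 - C (P : ℂ) * X ^ 3 - C (Q : ℂ) * X ^ 2 - C (R : ℂ) * X - C (S : ℂ)) (by
      have e : (X ^ 4 - C (P : ℂ) * X ^ 3 - C (Q : ℂ) * X ^ 2 - C (R : ℂ) * X -
          C (S : ℂ)).degree = 4 := by compute_degree!
      rw [e]; decide)
  set q := α ^ 2 - P * α - Q with hq
  obtain ⟨β, hβ⟩ := IsAlgClosed.exists_root (k := ℂ)
    (X ^ 3 + C (α - P) * X ^ 2 + C q * X + C (α * q - R)) (by
      have e : (X ^ 3 + C (α - P) * X ^ 2 + C q * X + C (α * q - R)).degree = 3 := by
        compute_degree!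
      rw [e]; decide)
  set w := β + α - P with hw
  set v := β * w + q with hv
  obtain ⟨s, hs⟩ := IsAlgClosed.exists_pow_nat_eq (w ^ 2 - 4 * v) two_pos
  simp only [IsRoot, eval_add, eval_sub, eval_pow, eval_mul, eval_X, eval_C] at hα hβ
  refine ⟨α, β, (-w + s) / 2, (-w - s) / 2, by simp only [hw]; ring, ?_, ?_, ?_⟩
  · simp only [hw, hv, hq] at *
    linear_combination -(1 / 4 : ℂ) * hs
  · simp only [hw, hv, hq] at *
    linear_combination -((α + β) / 4) * hs + hβ
  · simp only [hw, hv, hq] at *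
    linear_combination -(α * β / 4) * hs + α * hβ - hα

variable {P Q R S : ℤ} {u : ℕ → ℤ}

open Polynomial in
/-- The characteristic polynomial. -/
theorem charPoly_four {k : ℕ} (hP : P.natAbs ≤ 2 ^ k) (hQ : Q.natAbs ≤ 2 ^ k)
    (hR : R.natAbs ≤ 2 ^ k) (hS : S.natAbs ≤ 2 ^ k) :
    (X ^ 4 - C P * X ^ 3 - C Q * X ^ 2 - C R * X - C S : ℤ[X]).Monic ∧
      (X ^ 4 - C P * X ^ 3 - C Q * X ^ 2 - C R * X - C S : ℤ[X]).natDegree ≤ 4 ∧
      ∀ i, ((X ^ 4 - C P * X ^ 3 - C Q * X ^ 2 - C R * X - C S : ℤ[X]).coeff i).natAbs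
        ≤ 2 ^ k := by
  have hd : (X ^ 4 - C P * X ^ 3 - C Q * X ^ 2 - C R * X - C S : ℤ[X]).natDegree ≤ 4 := by
    compute_degree
  refine ⟨by monicity!, hd, fun i => ?_⟩
  rcases le_or_gt i 4 with hi | hi
  · simp only [coeff_sub, coeff_X_pow, coeff_C_mul, coeff_X, coeff_C]
    interval_cases i
    · simpa using hS
    · simpa using hR
    · simpa using hQ
    · simpa using hP
    · simp [Nat.one_le_two_pow]
  · rw [coeff_eq_zero_of_natDegree_lt (hd.trans_lt hi)]
    simp

open Polynomial in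
/-- **The zeros are periodic from `quaternaryBound k` on.** -/
theorem quaternary_periodic {k : ℕ} (hP : P.natAbs ≤ 2 ^ k) (hQ : Q.natAbs ≤ 2 ^ k)
    (hR : R.natAbs ≤ 2 ^ k) (hS : S.natAbs ≤ 2 ^ k)
    (hu : ∀ n, u (n + 4) = P * u (n + 3) + Q * u (n + 2) + R * u (n + 1) + S * u n)
    (h0 : ∀ i < 4, (u i).natAbs ≤ 2 ^ k) {n : ℕ} (hn : quaternaryBound k ≤ n) :
    (u n = 0 ↔ u (n + quaternaryPeriod) = 0) := by
  classical
  obtain ⟨α, β, γ, δ, h1, h2, h3, h4⟩ := exists_four_roots P Q R S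
  obtain ⟨hfm, hfd, hfk⟩ := charPoly_four hP hQ hR hS
  set p : ℤ[X] := X ^ 4 - C P * X ^ 3 - C Q * X ^ 2 - C R * X - C S with hp
  set r : Fin 4 → ℂ := ![α, β, γ, δ] with hr
  have hfac : ∀ w : ℂ, aeval w p = (w - α) * (w - β) * (w - γ) * (w - δ) := fun w => by
    simp only [hp, map_sub, map_pow, map_mul, aeval_X, eq_intCast, map_intCast]
    linear_combination w ^ 3 * h1 - w ^ 2 * h2 + w * h3 - h4
  have hroot : ∀ i, aeval (r i) p = 0 := fun i => by
    rw [hfac]
    fin_cases i <;> simp [hr]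
  have hbr : ∀ i, BoundedRoot 4 (k + 4) (r i) := fun i =>
    BoundedRoot.of_polynomial hfm hfd hfk (hroot i)
  obtain ⟨L, hNF, z, hz, hzh, hdeg, hdisc⟩ := exists_lift (by norm_num) r hbr
  set φ : 𝓞 L →+* ℂ := (algebraMap L ℂ).comp (algebraMap (𝓞 L) L) with hφ
  have hφinj : Function.Injective φ :=
    (algebraMap L ℂ).injective.comp RingOfIntegers.coe_injective
  have hφz : ∀ i, φ (z i) = r i := hz
  have e1 : z 0 + z 1 + z 2 + z 3 = (P : 𝓞 L) := hφinj (by
    simp only [map_add, map_intCast, hφz]; simpa [hr] using h1)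
  have e2 : z 0 * z 1 + z 0 * z 2 + z 0 * z 3 + z 1 * z 2 + z 1 * z 3 + z 2 * z 3 = -(Q : 𝓞 L) :=
    hφinj (by simp only [map_add, map_mul, map_neg, map_intCast, hφz]; simpa [hr] using h2)
  have e3 : z 0 * z 1 * z 2 + z 0 * z 1 * z 3 + z 0 * z 2 * z 3 + z 1 * z 2 * z 3 = (R : 𝓞 L) :=
    hφinj (by simp only [map_add, map_mul, map_intCast, hφz]; simpa [hr] using h3)
  have e4 : z 0 * z 1 * z 2 * z 3 = -(S : 𝓞 L) := hφinj (by
    simp only [map_mul, map_neg, map_intCast, hφz]; simpa [hr] using h4)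
  have hann : Annihilates (List.ofFn z) fun m => (u m : 𝓞 L) := by
    simp only [List.ofFn_succ, List.ofFn_zero, Annihilates, Fin.succ_zero_eq_one]
    intro m
    have := congrArg (Int.cast (R := 𝓞 L)) (hu m)
    push_cast at this
    simp only [show m + 1 + 1 + 1 + 1 = m + 4 by omega, show m + 1 + 1 + 1 = m + 3 by omega,
      show m + 1 + 1 = m + 2 by omega,
      show (Fin.succ 1 : Fin 4) = 2 from rfl, show (Fin.succ (Fin.succ 1) : Fin 4) = 3 from rfl]
    linear_combination this - (u (m + 3) : 𝓞 L) * e1 + (u (m + 2) : 𝓞 L) * e2 -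
      (u (m + 1) : 𝓞 L) * e3 + (u m : 𝓞 L) * e4
  have hval : ∀ i < (List.ofFn z).length, HouseLe k ((u i : 𝓞 L)) := fun i hi σ => by
    rw [List.length_ofFn] at hi
    simp only [map_intCast, Complex.norm_intCast]
    rw [← Int.cast_abs, ← Int.natCast_natAbs, Int.cast_natCast]
    exact_mod_cast h0 i hi
  obtain ⟨D, a, hD, -, hah, hmult, heq⟩ := exists_closed_form (k + 4) (List.ofFn z)
    (by simp) (fun x hx => by
      obtain ⟨i, rfl⟩ := List.mem_ofFn.1 hx
      exact hzh i) _ k hann hval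
  rw [List.length_ofFn] at hah
  have hset : (List.ofFn z).toFinset = univ.image z := by
    ext x
    simp [Fin.exists_fin_succ, eq_comm]
  have hiff : ∀ m, u m = 0 ↔ D * (u m : 𝓞 L) = 0 := fun m => by
    rw [mul_eq_zero, or_iff_right hD, Int.cast_eq_zero]
  rw [hiff, hiff]
  refine combination_periodic (f := fun m => D * (u m : 𝓞 L)) (hdeg.trans (by norm_num)) hdisc hzh
    hah (fun hinj i j hj => hmult _ _ ?_) (algebraMap L ℂ) (fun i => ?_)
    (fun m => by rw [heq m, hset]) hn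
  · exact (List.nodup_iff_count_le_one.1 (List.nodup_ofFn.2 hinj) _).trans hj
  · have h5 : aeval (starRingEnd ℂ (r i)) p = 0 := by
      rw [show starRingEnd ℂ (r i) = (starRingEnd ℂ).toIntAlgHom (r i) from rfl, aeval_algHom_apply,
        hroot i, map_zero]
    rw [hfac] at h5
    simp only [mul_eq_zero, sub_eq_zero] at h5
    obtain ⟨j, hj⟩ : ∃ j, r j = starRingEnd ℂ (r i) := by
      rcases h5 with ((h5 | h5) | h5) | h5
      exacts [⟨0, h5.symm⟩, ⟨1, h5.symm⟩, ⟨2, h5.symm⟩, ⟨3, h5.symm⟩]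
    exact ⟨j, by
      rw [show algebraMap L ℂ (z j : L) = r j from hz j,
        show algebraMap L ℂ (z i : L) = r i from hz i, hj]⟩

end FA.BakerExplicit.FourTerms

end
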