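import Fermat.Agent.BakerExplicit.UnitEquation
import Mathlib.RingTheory.Polynomial.Cyclotomic.Basic

/-!
# Linear forms of bounded product in a radical extension

`u ^ m - v ^ m = C` splits into forms `u - ω v` whose norms divide that of `C` and three of which
are dependent, so their ratios and with their product their sizes are bounded; so are `u`, `v`,
`w` if `u² - v²`, `v² - w²`, `w² - u²` are given.
-/

set_option autoImplicit false

noncomputable section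

namespace FA.BakerExplicit.RadicalForms

open Finset NumberField Module Polynomial EffectiveUnits EffectiveThue

variable {L : Type*} [Field L] [NumberField L]

/-- The bound for two `m`-th powers of given difference. -/
def powerCore (N e s : ℕ) : ℕ := s + unitEquationBound N e ((s + 1) * N) + 2 * N + 2

/-- The bound for three squares of given differences. -/
def squareCore (N e s : ℕ) : ℕ := 2 * unitEquationBound N e (s * N) + s

theorem natAbs_norm_le_of_dvd {N s : ℕ} (hN : finrank ℚ L ≤ N) {z C : 𝓞 L} (hC : C ≠ 0)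
    (hdvd : z ∣ C) (hs : ∀ σ : L →+* ℂ, ‖σ (C : L)‖ ≤ (2 : ℝ) ^ s) :
    (Algebra.norm ℤ z).natAbs ≤ 2 ^ (s * N) := by
  refine (Nat.le_of_dvd (Int.natAbs_pos.2 (Algebra.norm_ne_zero_iff.2 hC))
    (Int.natAbs_dvd_natAbs.2 (map_dvd (Algebra.norm ℤ) hdvd))).trans ?_
  rw [pow_mul]
  exact norm_le_of_bounded hN Nat.one_le_two_pow fun σ => by push_cast; exact hs σ

/-- **Two `m`-th powers of given difference.** -/
theorem power_core {N e s m : ℕ} (hN : finrank ℚ L ≤ N) (he : (discr L).natAbs ≤ 2 ^ e)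
    (hm : 3 ≤ m) {ζ : 𝓞 L} (hζ : IsPrimitiveRoot ζ m) {u v C : 𝓞 L}
    (huv : u ^ m - v ^ m = C) (hC : C ≠ 0) (hs : ∀ σ : L →+* ℂ, ‖σ (C : L)‖ ≤ (2 : ℝ) ^ s)
    (σ : L →+* ℂ) : ‖σ (v : L)‖ ≤ (2 : ℝ) ^ powerCore N e s := by
  classical
  set S := nthRootsFinset m (1 : 𝓞 L) with hS
  have hpow : ∀ ω ∈ S, ω ^ m = 1 := fun ω hω => (mem_nthRootsFinset (by omega) 1).1 hω
  have hcard : S.card = m := hζ.card_nthRootsFinset
  have hprod : C = ∏ ω ∈ S, (u - ω * v) := by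
    rw [← huv]; exact hζ.pow_sub_pow_eq_prod_sub_mul u v (by omega)
  have hz : ∀ ω ∈ S, u - ω * v ≠ 0 ∧ u - ω * v ∣ C := fun ω hω =>
    ⟨fun h0 => hC (by rw [hprod]; exact prod_eq_zero hω h0),
      hprod ▸ dvd_prod_of_mem _ hω⟩
  have hone : ∀ ω ∈ S, ∀ τ : L →+* ℂ, ‖τ (ω : L)‖ = 1 := fun ω hω τ =>
    Complex.norm_eq_one_of_pow_eq_one (n := m) (by rw [← map_pow, ← map_pow, hpow ω hω, map_one,
      map_one]) (by omega)
  have hsub : ∀ ω ∈ S, ∀ ω' ∈ S, ∀ τ : L →+* ℂ,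
      ‖τ ((ω - ω' : 𝓞 L) : L)‖ ≤ (2 : ℝ) ^ 1 := fun ω hω ω' hω' τ => by
    simp only [map_sub, pow_one]
    refine (norm_sub_le _ _).trans ?_
    rw [hone ω hω, hone ω' hω']
    norm_num
  have hlow : ∀ ω ∈ S, ∀ ω' ∈ S, ω ≠ ω' →
      1 ≤ (2 : ℝ) ^ N * ‖σ ((ω - ω' : 𝓞 L) : L)‖ := fun ω hω ω' hω' hne => by
    have := one_le_pow_mul_norm (sub_ne_zero.2 hne) hN one_le_two
      (fun τ => (hsub ω hω ω' hω' τ).trans_eq (pow_one _)) σ
    exact this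
  set R := unitEquationBound N e ((s + 1) * N) with hR
  have hstep : ∀ i ∈ S, ∀ j ∈ S,
      ‖σ ((u - i * v : 𝓞 L) : L)‖ ≤ (2 : ℝ) ^ (R + 1 + N) * ‖σ ((u - j * v : 𝓞 L) : L)‖ := by
    intro i hi j hj
    rcases eq_or_ne i j with rfl | hij
    · exact le_mul_of_one_le_left (norm_nonneg _) (one_le_pow₀ one_le_two)
    obtain ⟨l, hl⟩ : ((S.erase i).erase j).Nonempty := by
      rw [← card_pos, card_erase_of_mem (mem_erase.2 ⟨hij.symm, hj⟩), card_erase_of_mem hi, hcard]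
      omega
    obtain ⟨hlj, hl⟩ := mem_erase.1 hl
    obtain ⟨hli, hl⟩ := mem_erase.1 hl
    have hnorm : ∀ p ∈ S, ∀ q ∈ S, ∀ w ∈ S,
        (Algebra.norm ℤ ((p - q) * (u - w * v))).natAbs ≤ 2 ^ ((s + 1) * N) :=
        fun p hp q hq w hw => by
      rw [map_mul, Int.natAbs_mul, add_mul, one_mul, pow_add, mul_comm (2 ^ (s * N))]
      refine Nat.mul_le_mul ?_ (natAbs_norm_le_of_dvd hN hC (hz w hw).2 hs)
      exact norm_le_of_bounded hN (B := 2) one_le_two fun τ => by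
        simpa using hsub p hp q hq τ
    have h1 := equation_ratio_le (a := (l - j) * (u - i * v)) (b := (i - l) * (u - j * v))
      (c := (j - i) * (u - l * v)) hN he
      (mul_ne_zero (sub_ne_zero.2 hlj) (hz i hi).1)
      (mul_ne_zero (sub_ne_zero.2 (Ne.symm hli)) (hz j hj).1)
      (mul_ne_zero (sub_ne_zero.2 hij.symm) (hz l hl).1) (by ring)
      (hnorm l hl j hj i hi) (hnorm i hi l hl j hj) (hnorm j hj i hi l hl) σ
    simp only [map_mul, norm_mul] at h1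
    have h2 := hsub i hi l hl σ
    have h3 := hlow l hl j hj hlj
    calc ‖σ ((u - i * v : 𝓞 L) : L)‖
        ≤ (2 : ℝ) ^ N * (‖σ ((l - j : 𝓞 L) : L)‖ * ‖σ ((u - i * v : 𝓞 L) : L)‖) := by
          rw [← mul_assoc]; exact le_mul_of_one_le_left (norm_nonneg _) h3
      _ ≤ (2 : ℝ) ^ N * ((2 : ℝ) ^ R * ((2 : ℝ) ^ 1 * ‖σ ((u - j * v : 𝓞 L) : L)‖)) := by
          refine mul_le_mul_of_nonneg_left (h1.trans ?_) (by positivity)
          gcongr
      _ = _ := by rw [pow_add, pow_add]; ring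
  obtain ⟨ω₀, hω₀, hsmall⟩ : ∃ ω ∈ S, ‖σ ((u - ω * v : 𝓞 L) : L)‖ ≤ (2 : ℝ) ^ s := by
    by_contra hno
    push Not at hno
    have h1 := hs σ
    simp only [hprod, map_prod, norm_prod] at h1
    obtain ⟨ω, hω⟩ : S.Nonempty := card_pos.1 (by omega)
    rw [← mul_prod_erase S _ hω] at h1
    have h2 : (1 : ℝ) ≤ ∏ x ∈ S.erase ω, ‖σ ((u - x * v : 𝓞 L) : L)‖ := one_le_prod fun x hx =>
      (one_le_pow₀ one_le_two).trans (hno x (mem_of_mem_erase hx)).le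
    exact absurd ((le_mul_of_one_le_right (norm_nonneg _) h2).trans h1) (hno ω hω).not_ge
  have hall : ∀ i ∈ S, ‖σ ((u - i * v : 𝓞 L) : L)‖ ≤ (2 : ℝ) ^ (s + (R + 1 + N)) := fun i hi => by
    refine (hstep i hi ω₀ hω₀).trans ?_
    rw [pow_add _ s, mul_comm ((2 : ℝ) ^ s)]
    exact mul_le_mul_of_nonneg_left hsmall (by positivity)
  obtain ⟨p, hp, q, hq, hpq⟩ := one_lt_card.1 (show 1 < S.card by omega)
  have h4 := hlow p hp q hq hpq
  calc ‖σ (v : L)‖ ≤ (2 : ℝ) ^ N * (‖σ ((p - q : 𝓞 L) : L)‖ * ‖σ (v : L)‖) := by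
        rw [← mul_assoc]; exact le_mul_of_one_le_left (norm_nonneg _) h4
    _ ≤ (2 : ℝ) ^ N * ((2 : ℝ) ^ (s + (R + 1 + N)) + (2 : ℝ) ^ (s + (R + 1 + N))) := by
        refine mul_le_mul_of_nonneg_left ?_ (by positivity)
        rw [← norm_mul, ← map_mul, ← map_mul,
          show (p - q) * v = (u - q * v) - (u - p * v) by ring]
        simp only [map_sub (algebraMap (𝓞 L) L) (u - q * v), map_sub σ]
        exact (norm_sub_le _ _).trans (add_le_add (hall q hq) (hall p hp))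
    _ = (2 : ℝ) ^ powerCore N e s := by
        rw [powerCore, ← hR]; simp only [pow_add, two_mul]; ring

/-- **Three squares of given differences.** -/
theorem square_core {N e s : ℕ} (hN : finrank ℚ L ≤ N) (he : (discr L).natAbs ≤ 2 ^ e)
    {u v w : 𝓞 L} (h1 : u ^ 2 - v ^ 2 ≠ 0) (h2 : v ^ 2 - w ^ 2 ≠ 0) (h3 : w ^ 2 - u ^ 2 ≠ 0)
    (hs1 : ∀ σ : L →+* ℂ, ‖σ ((u ^ 2 - v ^ 2 : 𝓞 L) : L)‖ ≤ (2 : ℝ) ^ s)
    (hs2 : ∀ σ : L →+* ℂ, ‖σ ((v ^ 2 - w ^ 2 : 𝓞 L) : L)‖ ≤ (2 : ℝ) ^ s)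
    (hs3 : ∀ σ : L →+* ℂ, ‖σ ((w ^ 2 - u ^ 2 : 𝓞 L) : L)‖ ≤ (2 : ℝ) ^ s) (σ : L →+* ℂ) :
    ‖σ (u : L)‖ ≤ (2 : ℝ) ^ squareCore N e s := by
  have h3' : ∀ τ : L →+* ℂ, ‖τ ((u ^ 2 - w ^ 2 : 𝓞 L) : L)‖ ≤ (2 : ℝ) ^ s := fun τ => by
    rw [show u ^ 2 - w ^ 2 = -(w ^ 2 - u ^ 2) by ring]
    simp only [map_neg, norm_neg]
    exact hs3 τ
  have h3n : u ^ 2 - w ^ 2 ≠ 0 := fun h => h3 (by linear_combination -h)
  have hne : ∀ {z C : 𝓞 L}, C ≠ 0 → z ∣ C → z ≠ 0 := fun hC hd h0 => hC (zero_dvd_iff.1 (h0 ▸ hd))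
  have da : u - v ∣ u ^ 2 - v ^ 2 := ⟨u + v, by ring⟩
  have da' : u + v ∣ u ^ 2 - v ^ 2 := ⟨u - v, by ring⟩
  have db : v - w ∣ v ^ 2 - w ^ 2 := ⟨v + w, by ring⟩
  have db' : -(v - w) ∣ v ^ 2 - w ^ 2 := ⟨-(v + w), by ring⟩
  have dc : w - u ∣ w ^ 2 - u ^ 2 := ⟨w + u, by ring⟩
  have dc' : -(u + w) ∣ u ^ 2 - w ^ 2 := ⟨w - u, by ring⟩
  set R := unitEquationBound N e (s * N) with hR
  have e1 := equation_ratio_le hN he (hne h1 da) (hne h2 db) (hne h3 dc) (by ring)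
    (natAbs_norm_le_of_dvd hN h1 da hs1) (natAbs_norm_le_of_dvd hN h2 db hs2)
    (natAbs_norm_le_of_dvd hN h3 dc hs3) σ
  have e2 := equation_ratio_le hN he (hne h2 db') (hne h1 da') (hne h3n dc') (by ring)
    (natAbs_norm_le_of_dvd hN h2 db' hs2) (natAbs_norm_le_of_dvd hN h1 da' hs1)
    (natAbs_norm_le_of_dvd hN h3n dc' h3') σ
  have e3 := equation_ratio_le hN he (hne h1 da') (hne h2 db') (hne h3n dc') (by ring)
    (natAbs_norm_le_of_dvd hN h1 da' hs1) (natAbs_norm_le_of_dvd hN h2 db' hs2)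
    (natAbs_norm_le_of_dvd hN h3n dc' h3') σ
  have e4 := equation_ratio_le hN he (hne h2 db) (hne h1 da) (hne h3 dc) (by ring)
    (natAbs_norm_le_of_dvd hN h2 db hs2) (natAbs_norm_le_of_dvd hN h1 da hs1)
    (natAbs_norm_le_of_dvd hN h3 dc hs3) σ
  rw [← hR] at e1 e2 e3 e4
  simp only [map_neg, norm_neg] at e2 e3
  set a := ‖σ ((u - v : 𝓞 L) : L)‖ with ha
  set a' := ‖σ ((u + v : 𝓞 L) : L)‖ with ha'
  have hb0 : (0 : ℝ) ≤ (2 : ℝ) ^ R := by positivity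
  have f1 : a ≤ (2 : ℝ) ^ (2 * R) * a' := by
    rw [two_mul, pow_add, mul_assoc]
    exact e1.trans (mul_le_mul_of_nonneg_left e2 hb0)
  have f2 : a' ≤ (2 : ℝ) ^ (2 * R) * a := by
    rw [two_mul, pow_add, mul_assoc]
    exact e3.trans (mul_le_mul_of_nonneg_left e4 hb0)
  have f3 : a * a' ≤ (2 : ℝ) ^ s := by
    rw [ha, ha', ← norm_mul, ← map_mul, ← map_mul, show (u - v) * (u + v) = u ^ 2 - v ^ 2 by ring]
    exact hs1 σ
  have hsq : ∀ {p q : ℝ}, 0 ≤ p → p ≤ (2 : ℝ) ^ (2 * R) * q → p * q ≤ (2 : ℝ) ^ s →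
      p ≤ (2 : ℝ) ^ squareCore N e s := fun {p q} hp hpq hmul => by
    rw [squareCore, ← hR, pow_add]
    rcases le_or_gt p 1 with hp1 | hp1
    · exact hp1.trans (one_le_mul_of_one_le_of_one_le (one_le_pow₀ one_le_two)
        (one_le_pow₀ one_le_two))
    refine (le_mul_of_one_le_right hp hp1.le).trans ?_
    calc p * p ≤ p * ((2 : ℝ) ^ (2 * R) * q) := mul_le_mul_of_nonneg_left hpq hp
      _ = (2 : ℝ) ^ (2 * R) * (p * q) := by ring
      _ ≤ _ := mul_le_mul_of_nonneg_left hmul (by positivity)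
  have g1 := hsq (norm_nonneg _) f1 f3
  have g2 := hsq (norm_nonneg _) f2 (by rw [mul_comm]; exact f3)
  have h := norm_add_le (σ ((u - v : 𝓞 L) : L)) (σ ((u + v : 𝓞 L) : L))
  rw [← map_add, ← map_add, show u - v + (u + v) = 2 * u by ring] at h
  simp only [map_mul, norm_mul, map_ofNat, Complex.norm_ofNat] at h
  linarith

end FA.BakerExplicit.RadicalForms

end
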