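import Fermat.Agent.BakerExplicit.GeneratedDiscriminant
import Fermat.Agent.BakerExplicit.PowerDecomposition
import Fermat.Agent.BakerExplicit.RadicalForms
import Mathlib.RingTheory.RootsOfUnity.Complex

/-!
# `b y ^ m = f (x)` for monic `f`, effectively (Baker, 1969)

At a simple root `α` of `f` some `c ^ m (x - α)` is `δ ξ ^ m` with bounded `c` and `δ`. Adjoining
`m`-th roots of the `δ` of two roots (three for `m = 2`) gives powers of given difference.
-/

set_option autoImplicit false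

noncomputable section

namespace FA.BakerExplicit.Superelliptic

open Finset Polynomial NumberField Module GeneratedField

/-- The size of a root. -/
def rootSize (n k : ℕ) : ℕ := k + n

/-- The size of `b f' (α)`. -/
def valueSize (n k : ℕ) : ℕ := 2 * k + 2 * n + (k + n) * n

/-- The size of the discriminant of the field of a root. -/
def rootFieldExp (n k : ℕ) : ℕ := discExp n 1 (rootSize n k)

/-- The size of the multiplier at a root. -/
def multSize (n k : ℕ) : ℕ := PowerDecomposition.multExp n (rootFieldExp n k)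

/-- The size of the cofactor at a root. -/
def cofactorSize (n k m : ℕ) : ℕ :=
  PowerDecomposition.cofactorExp n (rootFieldExp n k) (valueSize n k * n) m

/-- The size of the generators of the radical field. -/
def generatorSize (n k m : ℕ) : ℕ := rootSize n k + cofactorSize n k m

/-- The size of a difference of two powers. -/
def differenceSize (n k m : ℕ) : ℕ := 3 * multSize n k * m + rootSize n k + 1

/-- The bound for `log₂ |x|`, two simple roots and `m ≥ 3`. -/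
def powerExp (n k m : ℕ) : ℕ :=
  RadicalForms.powerCore ((n * m) ^ 5) (discExp (n * m) 5 (generatorSize n k m))
    (differenceSize n k m) * m + rootSize n k + 1

/-- The bound for `log₂ |x|`, three simple roots and `m = 2`. -/
def squareExp (n k : ℕ) : ℕ :=
  RadicalForms.squareCore ((n * 2) ^ 6) (discExp (n * 2) 6 (generatorSize n k 2))
    (differenceSize n k 2) * 2 + rootSize n k + 1

variable {f : ℤ[X]} {n k : ℕ}

theorem aeval_intCast {R : Type*} [CommRing R] (f : ℤ[X]) (x : ℤ) :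
    aeval (x : R) f = ((f.eval x : ℤ) : R) := by
  rw [← eq_intCast (algebraMap ℤ R) x, aeval_algebraMap_apply_eq_algebraMap_eval, eq_intCast]

theorem norm_root_le (hf : f.Monic) (hn : f.natDegree ≤ n)
    (hk : ∀ i, (f.coeff i).natAbs ≤ 2 ^ k) {w : ℂ} (hw : aeval w f = 0) :
    ‖w‖ ≤ (2 : ℝ) ^ rootSize n k := by
  obtain ⟨P, -, -, hP, hPw⟩ := BoundedRoot.of_polynomial hf hn hk hw
  exact hPw w hP

/-- The conjugates of a root in a field inside `ℂ`. -/
theorem norm_conj_root_le (hf : f.Monic) (hn : f.natDegree ≤ n)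
    (hk : ∀ i, (f.coeff i).natAbs ≤ 2 ^ k) {L : IntermediateField ℚ ℂ} {w : L}
    (hw : aeval (w : ℂ) f = 0) (σ : L →+* ℂ) : ‖σ w‖ ≤ (2 : ℝ) ^ rootSize n k := by
  refine norm_root_le hf hn hk ?_
  have h : aeval w f = 0 := by
    refine (algebraMap L ℂ).injective ?_
    rw [map_zero, ← aeval_algebraMap_apply]
    exact hw
  rw [show σ w = σ.toIntAlgHom w from rfl, aeval_algHom_apply, h, map_zero]

theorem norm_derivative_le (hf : f.Monic) (hn : f.natDegree ≤ n)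
    (hk : ∀ i, (f.coeff i).natAbs ≤ 2 ^ k) {w : ℂ} (hw : aeval w f = 0) :
    ‖aeval w f.derivative‖ ≤ (2 : ℝ) ^ (k + 2 * n + (k + n) * n) := by
  have hr := norm_root_le hf hn hk hw
  have hd : f.derivative.natDegree < n + 1 :=
    Nat.lt_succ_of_le ((natDegree_derivative_le f).trans ((Nat.sub_le _ _).trans hn))
  rw [aeval_eq_sum_range' hd]
  refine (norm_sum_le _ _).trans ((sum_le_card_nsmul _ _
    ((2 : ℝ) ^ k * (n + 1 : ℕ) * ((2 : ℝ) ^ rootSize n k) ^ n) fun i hi => ?_).trans ?_)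
  · rw [zsmul_eq_mul, norm_mul, norm_pow, coeff_derivative, Complex.norm_intCast]
    have hi' : i ≤ n := Nat.lt_succ_iff.1 (mem_range.1 hi)
    refine mul_le_mul ?_ ?_ (by positivity) (by positivity)
    · push_cast
      rw [abs_mul]
      refine mul_le_mul ?_ ?_ (abs_nonneg _) (by positivity)
      · rw [← Int.cast_abs, ← Int.natCast_natAbs, Int.cast_natCast]
        exact_mod_cast hk (i + 1)
      · rw [abs_of_nonneg (by positivity)]
        exact_mod_cast Nat.add_le_add_right hi' 1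
    · exact (pow_le_pow_left₀ (norm_nonneg _) hr i).trans
        (pow_le_pow_right₀ (one_le_pow₀ one_le_two) hi')
  · rw [card_range, nsmul_eq_mul, rootSize, ← pow_mul, pow_add _ (k + 2 * n), pow_add _ k,
      two_mul n, pow_add _ n]
    have h1 : ((n + 1 : ℕ) : ℝ) ≤ (2 : ℝ) ^ n := by
      exact_mod_cast Nat.succ_le_of_lt (Nat.lt_two_pow_self (n := n))
    have h2 := mul_le_mul h1 h1 (Nat.cast_nonneg _) (by positivity)
    calc ((n + 1 : ℕ) : ℝ) * ((2 : ℝ) ^ k * (n + 1 : ℕ) * (2 : ℝ) ^ ((k + n) * n))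
        = (2 : ℝ) ^ k * (((n + 1 : ℕ) : ℝ) * (n + 1 : ℕ)) * (2 : ℝ) ^ ((k + n) * n) := by ring
      _ ≤ _ := by gcongr

/-- **At a simple root `c ^ m (x - α) = δ ξ ^ m`.** -/
theorem exists_root_data (hf : f.Monic) (hn : f.natDegree ≤ n)
    (hk : ∀ i, (f.coeff i).natAbs ≤ 2 ^ k) {b x y : ℤ} {m : ℕ} (hm : 1 ≤ m) (hb : b ≠ 0)
    (hbk : b.natAbs ≤ 2 ^ k) (hy : y ≠ 0) (heq : b * y ^ m = f.eval x) {α : ℂ}
    (hα : aeval α f = 0) (hα' : aeval α f.derivative ≠ 0) :
    ∃ (c : ℕ) (δ ξ : ℂ), 0 < c ∧ c ≤ 2 ^ multSize n k ∧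
      (c : ℂ) ^ m * ((x : ℂ) - α) = δ * ξ ^ m ∧ BoundedRoot n (cofactorSize n k m) δ ∧
      IsIntegral ℤ ξ ∧ ∀ T : IntermediateField ℚ ℂ, α ∈ T → ξ ∈ T := by
  have hn1 : 1 ≤ n := by
    by_contra h0
    rw [hf.natDegree_eq_zero.1 (by omega), map_one] at hα
    exact one_ne_zero hα
  obtain ⟨L, _, z, hz, hle, hdeg, hdisc⟩ := exists_field (d := n) (q := 1) hn1 (fun _ => α)
    (fun _ => BoundedRoot.of_polynomial hf hn hk hα)
  rw [pow_one] at hdeg
  set φ : 𝓞 L →+* ℂ := (algebraMap L ℂ).comp (algebraMap (𝓞 L) L) with hφ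
  have hφinj : Function.Injective φ :=
    (algebraMap L ℂ).injective.comp RingOfIntegers.coe_injective
  set a := z 0 with ha
  have hφa : φ a = α := hz 0
  have hroot : aeval a f = 0 := by
    refine hφinj ?_
    rw [map_zero, show φ (aeval a f) = φ.toIntAlgHom (aeval a f) from rfl, ← aeval_algHom_apply]
    exact hφa.symm ▸ hα
  set fR := f.map (algebraMap ℤ (𝓞 L)) with hfR
  have hfa : fR.eval a = 0 := by rw [hfR, eval_map, ← aeval_def, hroot]
  obtain ⟨g, hg⟩ := dvd_iff_isRoot.2 (show fR.IsRoot a from hfa)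
  set F := aeval a f.derivative with hF
  have hgF : g.eval a = F := by
    rw [hF, aeval_def, ← eval_map, ← derivative_map, ← hfR, hg, derivative_mul, eval_add, eval_mul,
      eval_mul, derivative_sub, derivative_X, derivative_C, eval_sub, eval_sub, eval_X, eval_C]
    simp
  have hF0 : F ≠ 0 := fun h0 => hα' (by
    rw [← hφa, show φ a = φ.toIntAlgHom a from rfl, aeval_algHom_apply, ← hF, h0, map_zero])
  have hb' : (b : 𝓞 L) ≠ 0 := Int.cast_ne_zero.2 hb
  have hy' : (y : 𝓞 L) ≠ 0 := Int.cast_ne_zero.2 hy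
  have hprod : ((x : 𝓞 L) - a) * g.eval (x : 𝓞 L) = (b : 𝓞 L) * (y : 𝓞 L) ^ m := by
    have h := congrArg (eval (x : 𝓞 L)) hg
    rw [eval_mul, eval_sub, eval_X, eval_C, hfR, eval_map, ← aeval_def, aeval_intCast,
      ← heq] at h
    rw [← h]
    push_cast
    rfl
  have hne := mul_ne_zero_iff.1 (hprod ▸ mul_ne_zero hb' (pow_ne_zero m hy') :
    ((x : 𝓞 L) - a) * g.eval (x : 𝓞 L) ≠ 0)
  have hroots : ∀ σ : L →+* ℂ, aeval (σ (a : L)) f = 0 := fun σ => by
    have h : aeval (a : L) f = 0 := by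
      rw [aeval_algebraMap_apply, hroot, map_zero]
    rw [show σ (a : L) = σ.toIntAlgHom (a : L) from rfl, aeval_algHom_apply, h, map_zero]
  have hBF : (Algebra.norm ℤ ((b : 𝓞 L) * F)).natAbs ≤ 2 ^ (valueSize n k * n) := by
    rw [pow_mul]
    refine EffectiveThue.norm_le_of_bounded hdeg Nat.one_le_two_pow fun σ => ?_
    have hσF : σ (F : L) = aeval (σ (a : L)) f.derivative := by
      rw [hF, show σ (a : L) = (σ.comp (algebraMap (𝓞 L) L)).toIntAlgHom a from rfl,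
        aeval_algHom_apply]
      rfl
    simp only [map_mul, map_intCast, norm_mul, Complex.norm_intCast, hσF]
    rw [valueSize, show 2 * k + 2 * n + (k + n) * n = k + (k + 2 * n + (k + n) * n) by ring,
      Nat.cast_pow, Nat.cast_ofNat, pow_add]
    refine mul_le_mul ?_ (norm_derivative_le hf hn hk (hroots σ)) (norm_nonneg _) (by positivity)
    rw [← Int.cast_abs, ← Int.natCast_natAbs, Int.cast_natCast]
    exact_mod_cast hbk
  obtain ⟨c, δ, ξ, hc0, hc, hcd, hδ0, hδ⟩ := PowerDecomposition.exists_power_decomposition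
    (e := rootFieldExp n k) hdeg hdisc hm hne.1 hne.2 hb' hy' hprod
    (hgF ▸ sub_dvd_eval_sub (x : 𝓞 L) a g) hF0 hBF
  refine ⟨c, φ δ, φ ξ, hc0, hc, ?_,
    BoundedRoot.of_conjugates hdeg δ.isIntegral_coe hδ (algebraMap L ℂ),
    map_isIntegral_int (algebraMap L ℂ) ξ.isIntegral_coe, fun T hT =>
      hle T (fun _ => hT) (SetLike.coe_mem (ξ : L))⟩
  have h := congrArg φ hcd
  simp only [map_mul, map_pow, map_sub, map_natCast, map_intCast, hφa] at h
  exact h

/-- An integral element of a field inside `ℂ`. -/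
theorem exists_integer {L : IntermediateField ℚ ℂ} {w : ℂ} (hw : w ∈ L) (hint : IsIntegral ℤ w) :
    ∃ W : 𝓞 L, ((W : L) : ℂ) = w :=
  ⟨⟨⟨w, hw⟩, (isIntegral_algebraMap_iff (R := ℤ) (x := (⟨w, hw⟩ : L))
    (algebraMap L ℂ).injective).1 hint⟩, rfl⟩

/-- A multiple of a difference of roots. -/
theorem norm_scaled_sub_le (hf : f.Monic) (hn : f.natDegree ≤ n)
    (hk : ∀ i, (f.coeff i).natAbs ≤ 2 ^ k) {L : IntermediateField ℚ ℂ} {p q : 𝓞 L}
    (hp : aeval ((p : L) : ℂ) f = 0) (hq : aeval ((q : L) : ℂ) f = 0) {c m : ℕ}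
    (hc : c ≤ 2 ^ (3 * multSize n k)) (σ : L →+* ℂ) :
    ‖σ (((c : 𝓞 L) ^ m * (p - q) : 𝓞 L) : L)‖ ≤ (2 : ℝ) ^ differenceSize n k m := by
  simp only [map_mul, map_pow, map_sub, map_natCast, norm_mul, norm_pow, Complex.norm_natCast]
  rw [differenceSize, add_assoc, pow_add, pow_succ, pow_mul]
  refine mul_le_mul (pow_le_pow_left₀ (Nat.cast_nonneg c) (by exact_mod_cast hc) m) ?_
    (norm_nonneg _) (by positivity)
  refine (norm_sub_le _ _).trans ?_
  linarith [norm_conj_root_le hf hn hk hp σ, norm_conj_root_le hf hn hk hq σ]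

/-- From the bound on an `m`-th root to that on `x`. -/
theorem abs_x_le {x : ℤ} {α U : ℂ} {c m E r : ℕ} (hc : 0 < c)
    (hU : U ^ m = (c : ℂ) ^ m * ((x : ℂ) - α)) (hE : ‖U‖ ≤ (2 : ℝ) ^ E)
    (hr : ‖α‖ ≤ (2 : ℝ) ^ r) : |(x : ℝ)| ≤ (2 : ℝ) ^ (E * m + r + 1) := by
  have h1 : ‖(x : ℂ) - α‖ ≤ (2 : ℝ) ^ (E * m) := by
    have h2 := congrArg (‖·‖) hU
    simp only [norm_mul, norm_pow, Complex.norm_natCast] at h2
    rw [pow_mul]
    refine le_trans ?_ (pow_le_pow_left₀ (norm_nonneg _) hE m)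
    rw [h2]
    exact le_mul_of_one_le_left (norm_nonneg _) (one_le_pow₀ (by exact_mod_cast hc))
  have h3 := norm_sub_norm_le (x : ℂ) α
  rw [Complex.norm_intCast] at h3
  have hA : (1 : ℝ) ≤ (2 : ℝ) ^ (E * m) := one_le_pow₀ one_le_two
  have hB : (1 : ℝ) ≤ (2 : ℝ) ^ r := one_le_pow₀ one_le_two
  rw [pow_succ, pow_add]
  nlinarith

set_option maxHeartbeats 1000000 in
/-- **Two simple roots and `m ≥ 3`.** -/
theorem power_monic_bound (hf : f.Monic) (hn : f.natDegree ≤ n)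
    (hk : ∀ i, (f.coeff i).natAbs ≤ 2 ^ k) {b x y : ℤ} {m : ℕ} (hm : 3 ≤ m) (hb : b ≠ 0)
    (hbk : b.natAbs ≤ 2 ^ k) (heq : b * y ^ m = f.eval x) {α : Fin 2 → ℂ}
    (hinj : Function.Injective α) (hα : ∀ i, aeval (α i) f = 0)
    (hα' : ∀ i, aeval (α i) f.derivative ≠ 0) : |(x : ℝ)| ≤ (2 : ℝ) ^ powerExp n k m := by
  rcases eq_or_ne y 0 with rfl | hy
  · rw [zero_pow (by omega), mul_zero, eq_comm] at heq
    have hx : aeval (x : ℂ) f = 0 := by
      rw [aeval_intCast, heq, Int.cast_zero]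
    have h := norm_root_le hf hn hk hx
    rw [Complex.norm_intCast] at h
    exact h.trans (pow_le_pow_right₀ one_le_two (by rw [powerExp]; omega))
  have hn1 : 1 ≤ n := by
    by_contra h0
    have h1 := hα 0
    rw [hf.natDegree_eq_zero.1 (by omega), map_one] at h1
    exact one_ne_zero h1
  choose c δ ξ hc0 hc hcd hδ hξ hξT using fun i =>
    exists_root_data (n := n) (k := k) hf hn hk (by omega : 1 ≤ m) hb hbk hy heq (hα i) (hα' i)
  choose η hη using fun i => IsAlgClosed.exists_pow_nat_eq (δ i) (by omega : 0 < m)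
  have hζ := Complex.isPrimitiveRoot_exp m (by omega)
  set ζ := Complex.exp (2 * Real.pi * Complex.I / m)
  have hnm : n ≤ n * m := Nat.le_mul_of_pos_right _ (by omega)
  have hrs : rootSize n k ≤ generatorSize n k m := Nat.le_add_right _ _
  have hcs : cofactorSize n k m ≤ generatorSize n k m := Nat.le_add_left _ _
  obtain ⟨L, _, z, hz, -, hdeg, hdisc⟩ := exists_field (d := n * m) (q := 5)
    (s := generatorSize n k m) (Nat.mul_pos hn1 (by omega)) ![α 0, α 1, η 0, η 1, ζ] (fun i => by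
      fin_cases i
      · exact (BoundedRoot.of_polynomial hf hn hk (hα 0)).mono hnm hrs
      · exact (BoundedRoot.of_polynomial hf hn hk (hα 1)).mono hnm hrs
      · exact ((hδ 0).radical (by omega) (hη 0)).mono le_rfl hcs
      · exact ((hδ 1).radical (by omega) (hη 1)).mono le_rfl hcs
      · exact (BoundedRoot.root_of_unity (by omega) hζ.pow_eq_one).mono
          (Nat.le_mul_of_pos_left _ hn1) (Nat.zero_le _))
  set φ : 𝓞 L →+* ℂ := (algebraMap L ℂ).comp (algebraMap (𝓞 L) L) with hφ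
  have hφinj : Function.Injective φ :=
    (algebraMap L ℂ).injective.comp RingOfIntegers.coe_injective
  have hz0 : φ (z 0) = α 0 := hz 0
  have hz1 : φ (z 1) = α 1 := hz 1
  have hz2 : φ (z 2) = η 0 := hz 2
  have hz3 : φ (z 3) = η 1 := hz 3
  have hz4 : φ (z 4) = ζ := hz 4
  obtain ⟨W₀, hW₀⟩ := exists_integer (hξT 0 L (hz0 ▸ SetLike.coe_mem (z 0 : L))) (hξ 0)
  obtain ⟨W₁, hW₁⟩ := exists_integer (hξT 1 L (hz1 ▸ SetLike.coe_mem (z 1 : L))) (hξ 1)
  have hφW₀ : φ W₀ = ξ 0 := hW₀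
  have hφW₁ : φ W₁ = ξ 1 := hW₁
  set u : 𝓞 L := z 2 * W₀ * (c 1 : 𝓞 L) with hu
  set v : 𝓞 L := z 3 * W₁ * (c 0 : 𝓞 L) with hv
  set C : 𝓞 L := ((c 0 * c 1 : ℕ) : 𝓞 L) ^ m * (z 1 - z 0) with hC
  have hvm : (φ v) ^ m = ((c 0 * c 1 : ℕ) : ℂ) ^ m * ((x : ℂ) - α 1) := by
    simp only [hv, map_mul, map_natCast, hz3, hφW₁, mul_pow, hη, Nat.cast_mul]
    linear_combination -((c 0 : ℂ) ^ m) * hcd 1
  have huv : u ^ m - v ^ m = C := by
    refine hφinj ?_
    rw [map_sub, map_pow, map_pow, hvm]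
    simp only [hu, hC, map_mul, map_pow, map_sub, map_natCast, hz2, hz0, hz1, hφW₀, mul_pow, hη,
      Nat.cast_mul]
    linear_combination -((c 1 : ℂ) ^ m) * hcd 0
  have hC0 : C ≠ 0 := mul_ne_zero (pow_ne_zero _ (Nat.cast_ne_zero.2
    (Nat.mul_pos (hc0 0) (hc0 1)).ne')) (sub_ne_zero.2 fun e => by
      have := hinj (hz1.symm.trans ((congrArg φ e).trans hz0))
      exact absurd this (by decide))
  have hcc : c 0 * c 1 ≤ 2 ^ (3 * multSize n k) := by
    refine (Nat.mul_le_mul (hc 0) (hc 1)).trans ?_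
    rw [← pow_add]
    exact Nat.pow_le_pow_right two_pos (by omega)
  have hζ' : IsPrimitiveRoot (z 4) m := IsPrimitiveRoot.of_map_of_injective
    (f := φ) (by rw [hz4]; exact hζ) hφinj
  have h := RadicalForms.power_core hdeg hdisc hm hζ' huv hC0
    (fun σ => norm_scaled_sub_le hf hn hk (by rw [hz 1]; exact hα 1) (by rw [hz 0]; exact hα 0)
      hcc σ) (algebraMap L ℂ)
  exact abs_x_le (Nat.mul_pos (hc0 0) (hc0 1)) hvm h (norm_root_le hf hn hk (hα 1))

set_option maxHeartbeats 1000000 in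
/-- **Three simple roots and `m = 2`.** -/
theorem square_monic_bound (hf : f.Monic) (hn : f.natDegree ≤ n)
    (hk : ∀ i, (f.coeff i).natAbs ≤ 2 ^ k) {b x y : ℤ} (hb : b ≠ 0) (hbk : b.natAbs ≤ 2 ^ k)
    (heq : b * y ^ 2 = f.eval x) {α : Fin 3 → ℂ} (hinj : Function.Injective α)
    (hα : ∀ i, aeval (α i) f = 0) (hα' : ∀ i, aeval (α i) f.derivative ≠ 0) :
    |(x : ℝ)| ≤ (2 : ℝ) ^ squareExp n k := by
  rcases eq_or_ne y 0 with rfl | hy
  · rw [zero_pow (by omega), mul_zero, eq_comm] at heq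
    have hx : aeval (x : ℂ) f = 0 := by
      rw [aeval_intCast, heq, Int.cast_zero]
    have h := norm_root_le hf hn hk hx
    rw [Complex.norm_intCast] at h
    exact h.trans (pow_le_pow_right₀ one_le_two (by rw [squareExp]; omega))
  have hn1 : 1 ≤ n := by
    by_contra h0
    have h1 := hα 0
    rw [hf.natDegree_eq_zero.1 (by omega), map_one] at h1
    exact one_ne_zero h1
  choose c δ ξ hc0 hc hcd hδ hξ hξT using fun i =>
    exists_root_data (n := n) (k := k) hf hn hk (by omega : 1 ≤ 2) hb hbk hy heq (hα i) (hα' i)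
  choose η hη using fun i => IsAlgClosed.exists_pow_nat_eq (δ i) two_pos
  have hn2 : n ≤ n * 2 := Nat.le_mul_of_pos_right _ two_pos
  have hrs : rootSize n k ≤ generatorSize n k 2 := Nat.le_add_right _ _
  have hcs : cofactorSize n k 2 ≤ generatorSize n k 2 := Nat.le_add_left _ _
  obtain ⟨L, _, z, hz, -, hdeg, hdisc⟩ := exists_field (d := n * 2) (q := 6)
    (s := generatorSize n k 2) (Nat.mul_pos hn1 two_pos) ![α 0, α 1, α 2, η 0, η 1, η 2]
    (fun i => by
      fin_cases i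
      · exact (BoundedRoot.of_polynomial hf hn hk (hα 0)).mono hn2 hrs
      · exact (BoundedRoot.of_polynomial hf hn hk (hα 1)).mono hn2 hrs
      · exact (BoundedRoot.of_polynomial hf hn hk (hα 2)).mono hn2 hrs
      · exact ((hδ 0).radical one_le_two (hη 0)).mono le_rfl hcs
      · exact ((hδ 1).radical one_le_two (hη 1)).mono le_rfl hcs
      · exact ((hδ 2).radical one_le_two (hη 2)).mono le_rfl hcs)
  set φ : 𝓞 L →+* ℂ := (algebraMap L ℂ).comp (algebraMap (𝓞 L) L) with hφ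
  have hφinj : Function.Injective φ :=
    (algebraMap L ℂ).injective.comp RingOfIntegers.coe_injective
  have hz0 : φ (z 0) = α 0 := hz 0
  have hz1 : φ (z 1) = α 1 := hz 1
  have hz2 : φ (z 2) = α 2 := hz 2
  have hz3 : φ (z 3) = η 0 := hz 3
  have hz4 : φ (z 4) = η 1 := hz 4
  have hz5 : φ (z 5) = η 2 := hz 5
  obtain ⟨W₀, hW₀⟩ := exists_integer (hξT 0 L (hz0 ▸ SetLike.coe_mem (z 0 : L))) (hξ 0)
  obtain ⟨W₁, hW₁⟩ := exists_integer (hξT 1 L (hz1 ▸ SetLike.coe_mem (z 1 : L))) (hξ 1)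
  obtain ⟨W₂, hW₂⟩ := exists_integer (hξT 2 L (hz2 ▸ SetLike.coe_mem (z 2 : L))) (hξ 2)
  have hφW₀ : φ W₀ = ξ 0 := hW₀
  have hφW₁ : φ W₁ = ξ 1 := hW₁
  have hφW₂ : φ W₂ = ξ 2 := hW₂
  set C := c 0 * c 1 * c 2 with hC
  set u : 𝓞 L := z 3 * W₀ * ((c 1 * c 2 : ℕ) : 𝓞 L) with hu
  set v : 𝓞 L := z 4 * W₁ * ((c 0 * c 2 : ℕ) : 𝓞 L) with hv
  set w : 𝓞 L := z 5 * W₂ * ((c 0 * c 1 : ℕ) : 𝓞 L) with hw
  have hum : (φ u) ^ 2 = (C : ℂ) ^ 2 * ((x : ℂ) - α 0) := by
    simp only [hu, hC, map_mul, map_natCast, hz3, hφW₀, mul_pow, hη, Nat.cast_mul]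
    linear_combination -((c 1 : ℂ) * c 2) ^ 2 * hcd 0
  have hvm : (φ v) ^ 2 = (C : ℂ) ^ 2 * ((x : ℂ) - α 1) := by
    simp only [hv, hC, map_mul, map_natCast, hz4, hφW₁, mul_pow, hη, Nat.cast_mul]
    linear_combination -((c 0 : ℂ) * c 2) ^ 2 * hcd 1
  have hwm : (φ w) ^ 2 = (C : ℂ) ^ 2 * ((x : ℂ) - α 2) := by
    simp only [hw, hC, map_mul, map_natCast, hz5, hφW₂, mul_pow, hη, Nat.cast_mul]
    linear_combination -((c 0 : ℂ) * c 1) ^ 2 * hcd 2
  have hd1 : u ^ 2 - v ^ 2 = (C : 𝓞 L) ^ 2 * (z 1 - z 0) := hφinj (by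
    simp only [map_sub, map_pow, map_mul, map_natCast, hum, hvm, hz0, hz1]; ring)
  have hd2 : v ^ 2 - w ^ 2 = (C : 𝓞 L) ^ 2 * (z 2 - z 1) := hφinj (by
    simp only [map_sub, map_pow, map_mul, map_natCast, hvm, hwm, hz1, hz2]; ring)
  have hd3 : w ^ 2 - u ^ 2 = (C : 𝓞 L) ^ 2 * (z 0 - z 2) := hφinj (by
    simp only [map_sub, map_pow, map_mul, map_natCast, hwm, hum, hz0, hz2]; ring)
  have hCpos : 0 < C := Nat.mul_pos (Nat.mul_pos (hc0 0) (hc0 1)) (hc0 2)
  have hne : ∀ {i j : Fin 6} {p q : Fin 3}, φ (z i) = α p → φ (z j) = α q → p ≠ q →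
      (C : 𝓞 L) ^ 2 * (z i - z j) ≠ 0 := fun hi hj hpq =>
    mul_ne_zero (pow_ne_zero _ (Nat.cast_ne_zero.2 hCpos.ne'))
      (sub_ne_zero.2 fun e => hpq (hinj (hi.symm.trans ((congrArg φ e).trans hj))))
  have hCle : C ≤ 2 ^ (3 * multSize n k) := by
    refine (Nat.mul_le_mul (Nat.mul_le_mul (hc 0) (hc 1)) (hc 2)).trans ?_
    rw [← pow_add, ← pow_add]
    exact Nat.pow_le_pow_right two_pos (by omega)
  have hs : ∀ {i j : Fin 6} {p q : Fin 3}, φ (z i) = α p → φ (z j) = α q → ∀ σ : L →+* ℂ,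
      ‖σ (((C : 𝓞 L) ^ 2 * (z i - z j) : 𝓞 L) : L)‖ ≤ (2 : ℝ) ^ differenceSize n k 2 :=
    fun {i j p q} hi hj σ => norm_scaled_sub_le hf hn hk (p := z i) (q := z j)
      (show aeval (φ (z i)) f = 0 by rw [hi]; exact hα p)
      (show aeval (φ (z j)) f = 0 by rw [hj]; exact hα q) hCle σ
  have n1 : u ^ 2 - v ^ 2 ≠ 0 := hd1.trans_ne (hne hz1 hz0 (by decide))
  have n2 : v ^ 2 - w ^ 2 ≠ 0 := hd2.trans_ne (hne hz2 hz1 (by decide))
  have n3 : w ^ 2 - u ^ 2 ≠ 0 := hd3.trans_ne (hne hz0 hz2 (by decide))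
  have h := RadicalForms.square_core hdeg hdisc n1 n2 n3
    (fun σ => by rw [hd1]; exact hs hz1 hz0 σ) (fun σ => by rw [hd2]; exact hs hz2 hz1 σ)
    (fun σ => by rw [hd3]; exact hs hz0 hz2 σ) (algebraMap L ℂ)
  exact abs_x_le hCpos hum h (norm_root_le hf hn hk (hα 0))

end FA.BakerExplicit.Superelliptic

end
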