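import Fermat.Agent.BakerExplicit.SUnitGenerators
import Fermat.Agent.BakerExplicit.GeneratedDiscriminant
import Fermat.Agent.BakerExplicit.SuperellipticMonic
import Fermat.Agent.Faltings.Hermite

/-!
# The field of the roots and of the radicals of their values

For monic `G` and `c y ^ m = D ^ N G (A / D)`, `D` and `c` with small primes only: the roots, the
`m`th roots of unity and of `c` and the `m`th roots of `A - θ D` at the simple roots generate a
Galois field unramified above the large primes. So its degree and discriminant are bounded.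
-/

set_option autoImplicit false

noncomputable section

namespace FA.BakerExplicit.RadicalField

open Polynomial Finset NumberField Module EffectiveSUnits GeneratedField Superelliptic

/-- The degree of the field. -/
def radDeg (n m : ℕ) : ℕ := (n * m) ^ (2 * n + 2)

/-- Above `2 ^ badExp` no prime ramifies. -/
def badExp (n k m g : ℕ) : ℕ :=
  g + m + 1 + radDeg n m * (k + 2 * n + (k + n) * n + k + n + 2)

/-- The logarithm, to base `2`, of the discriminant. -/
def radDisc (n k m g : ℕ) : ℕ :=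
  radDeg n m * (radDeg n m + badExp n k m g * (2 ^ badExp n k m g + 1))

theorem prime_le_of_smooth {g q : ℕ} {z : ℤ} (hz : Smooth g z.natAbs) (hq : q.Prime)
    (hd : (q : ℤ) ∣ z) : q ≤ 2 ^ g :=
  hz q hq (Int.natCast_dvd.1 hd)

section Local

variable {K : Type*} [Field K] [NumberField K] {q : ℕ} {P : Ideal (𝓞 K)}

omit [NumberField K] in
theorem intCast_mem_prime (hq : q.Prime) [P.IsMaximal] (hqP : (q : 𝓞 K) ∈ P) {z : ℤ}
    (hz : (z : 𝓞 K) ∈ P) : (q : ℤ) ∣ z := by
  by_contra hd
  obtain ⟨u, v, huv⟩ := (Nat.prime_iff_prime_int.1 hq).coprime_iff_not_dvd.2 hd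
  refine (Ideal.IsPrime.ne_top (I := P) inferInstance) ((Ideal.eq_top_iff_one P).2 ?_)
  have h : ((u * q + v * z : ℤ) : 𝓞 K) ∈ P := by
    push_cast
    exact P.add_mem (P.mul_mem_left _ hqP) (P.mul_mem_left _ hz)
  rwa [huv, Int.cast_one] at h

/-- A large prime divides no small element. -/
theorem prime_le_of_mem (hq : q.Prime) [P.IsMaximal] (hqP : (q : 𝓞 K) ∈ P) {z : 𝓞 K} (hz : z ≠ 0)
    (hzP : z ∈ P) {d s : ℕ} (hd : finrank ℚ K ≤ d)
    (hs : ∀ σ : K →+* ℂ, ‖σ (z : K)‖ ≤ (2 : ℝ) ^ s) : q ≤ 2 ^ (s * d) := by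
  have h0 : Algebra.norm ℤ z ≠ 0 := Algebra.norm_ne_zero_iff.2 hz
  have hqn : (q : ℤ) ∣ (Ideal.absNorm P : ℤ) :=
    intCast_mem_prime hq hqP (by exact_mod_cast Ideal.absNorm_mem P)
  have h1 : q ∣ (Algebra.norm ℤ z).natAbs :=
    Int.natCast_dvd.1 (hqn.trans (Ideal.absNorm_dvd_norm_of_mem hzP))
  refine (Nat.le_of_dvd (Int.natAbs_pos.2 h0) h1).trans ?_
  rw [pow_mul]
  exact EffectiveThue.norm_le_of_bounded hd Nat.one_le_two_pow fun σ => by
    rw [Nat.cast_pow, Nat.cast_ofNat]; exact hs σ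

omit [NumberField K] in
theorem norm_conj_le {w : K} {m : ℕ} (hm : m ≠ 0) (h : w ^ m = 1) (σ : K →+* ℂ) : ‖σ w‖ = 1 :=
  Complex.norm_eq_one_of_pow_eq_one (by rw [← map_pow, h, map_one]) hm

/-- A radical which an inertia element fixes. -/
theorem radical_fixed (hq : q.Prime) [P.IsMaximal] (hqP : (q : 𝓞 K) ∈ P) {d : ℕ}
    (hd : finrank ℚ K ≤ d) (hbig : 2 ^ d < q) {m : ℕ} (hm : m ≠ 0) {τ : K ≃ₐ[ℚ] K}
    (hτ : ∀ x : 𝓞 K, τ • x - x ∈ P) {z : 𝓞 K} (hzP : z ∉ P)
    (hfix : τ ((z : K) ^ m) = (z : K) ^ m) : τ (z : K) = z := by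
  have hz0 : (z : K) ≠ 0 := RingOfIntegers.coe_ne_zero_iff.2 fun h => hzP (h ▸ P.zero_mem)
  have hw : (τ (z : K) / z) ^ m = 1 := by
    rw [div_pow, ← map_pow, hfix, div_self (pow_ne_zero _ hz0)]
  have hint : IsIntegral ℤ (τ (z : K) / z) :=
    ⟨X ^ m - 1, monic_X_pow_sub_C 1 hm, by
      rw [← aeval_def, map_sub, map_pow, aeval_X, map_one, hw, sub_self]⟩
  set ρ : 𝓞 K := ⟨τ (z : K) / z, hint⟩ with hρ
  have hρz : (ρ - 1) * z = τ • z - z := by
    refine RingOfIntegers.coe_injective ?_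
    have hs : ((τ • z : 𝓞 K) : K) = τ (z : K) := algebraMap.coe_smul' τ z K
    rw [map_mul, map_sub, map_sub, map_one,
      show algebraMap (𝓞 K) K (τ • z) = τ (z : K) from hs,
      show (algebraMap (𝓞 K) K ρ) = τ (z : K) / z from rfl, sub_mul, one_mul,
      div_mul_cancel₀ _ hz0]
  have hmem : ρ - 1 ∈ P := ((Ideal.IsPrime.mem_or_mem inferInstance
    (hρz ▸ hτ z : (ρ - 1) * z ∈ P)).resolve_right hzP)
  by_contra hne
  have hρ1 : ρ - 1 ≠ 0 := fun h => hne ((div_eq_one_iff_eq hz0).1
    (congrArg (fun x : 𝓞 K => (x : K)) (sub_eq_zero.1 h)))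
  have := prime_le_of_mem hq hqP hρ1 hmem hd (s := 1) fun σ => by
    simp only [map_sub, map_one, pow_one]
    refine (norm_sub_le _ _).trans ?_
    rw [show (algebraMap (𝓞 K) K ρ) = τ (z : K) / z from rfl, norm_conj_le hm hw σ, norm_one]
    norm_num
  rw [one_mul] at this
  omega

end Local

/-- Elements with the same minimal polynomial satisfy the same equations. -/
theorem transfer {z w : ℂ} (hz : IsIntegral ℚ z) (hw : aeval w (minpoly ℚ z) = 0) (Q : ℚ[X]) :
    aeval z Q = 0 ↔ aeval w Q = 0 := by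
  have h : minpoly ℚ z = minpoly ℚ w :=
    minpoly.eq_of_irreducible_of_monic (minpoly.irreducible hz) hw (minpoly.monic hz)
  rw [← minpoly.dvd_iff, ← minpoly.dvd_iff, h]

theorem isGalois_adjoin {T : Finset ℂ} (hint : ∀ z ∈ T, IsIntegral ℚ z)
    (hconj : ∀ z ∈ T, ∀ w : ℂ, aeval w (minpoly ℚ z) = 0 →
      w ∈ IntermediateField.adjoin ℚ (T : Set ℂ)) :
    IsGalois ℚ (IntermediateField.adjoin ℚ (T : Set ℂ)) := by
  set E : IntermediateField ℚ ℂ :=
    ⨆ z : T, IntermediateField.adjoin ℚ ((minpoly ℚ (z : ℂ)).rootSet ℂ) with hEdef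
  have hE : IntermediateField.adjoin ℚ (T : Set ℂ) = E := by
    refine le_antisymm (IntermediateField.adjoin_le_iff.2 fun z hz => ?_) ?_
    · refine le_iSup (fun z : T => IntermediateField.adjoin ℚ ((minpoly ℚ (z : ℂ)).rootSet ℂ))
        ⟨z, Finset.mem_coe.1 hz⟩ (IntermediateField.subset_adjoin _ _ ?_)
      exact mem_rootSet.2 ⟨minpoly.ne_zero (hint z (Finset.mem_coe.1 hz)), minpoly.aeval _ _⟩
    · exact iSup_le fun z => IntermediateField.adjoin_le_iff.2 fun w hw =>
        hconj z z.2 w (mem_rootSet.1 hw).2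
  have hn : Normal ℚ E := IntermediateField.normal_iSup (h := fun z =>
    Normal.of_isSplittingField (hFEp := IntermediateField.adjoin_rootSet_isSplittingField
      (IsAlgClosed.splits ((minpoly ℚ (z : ℂ)).map (algebraMap ℚ ℂ)))))
  rw [hE]
  exact ⟨⟩

theorem scaleRoots_derivative {R : Type*} [CommRing R] [IsDomain R] [Infinite R]
    {G : R[X]} {D θ : R} :
    D * (G.scaleRoots D).derivative.eval (D * θ) = D ^ G.natDegree * G.derivative.eval θ := by
  have hc : (G.scaleRoots D).comp (C D * X) = C (D ^ G.natDegree) * G :=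
    Polynomial.funext fun w => by
      rw [eval_comp, eval_mul, eval_mul, eval_C, eval_C, eval_X]
      exact scaleRoots_eval₂_mul (RingHom.id R) w D (p := G)
  have h := congrArg (fun P : R[X] => P.derivative.eval θ) hc
  simp only [derivative_comp, derivative_mul, derivative_C, derivative_X, zero_mul, zero_add,
    mul_one, eval_mul, eval_C, eval_comp, eval_X] at h
  exact h

/-- **The field of roots and radicals.** -/
theorem exists_radical_field {G : ℤ[X]} (hG : G.Monic) {n k : ℕ} (hn : G.natDegree ≤ n)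
    (hn1 : 1 ≤ n) (hk : ∀ i, (G.coeff i).natAbs ≤ 2 ^ k) {m g : ℕ} (hm : 1 ≤ m) {A D c : ℤ}
    (hD : D ≠ 0) (hDs : Smooth g D.natAbs) (hc : c ≠ 0) (hcs : Smooth g c.natAbs) {y : ℚ}
    (hy : y ≠ 0) (heq : (c : ℚ) * y ^ m = ((G.scaleRoots D).eval A : ℤ)) :
    ∃ (L : IntermediateField ℚ ℂ) (_ : NumberField L) (ζ : 𝓞 L),
      finrank ℚ L ≤ radDeg n m ∧ (discr L).natAbs ≤ 2 ^ radDisc n k m g ∧
      IsPrimitiveRoot ((ζ : L) : ℂ) m ∧
      ∀ θ : ℂ, aeval θ G = 0 → aeval θ G.derivative ≠ 0 →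
        ∃ t U : 𝓞 L, ((t : L) : ℂ) = θ ∧ U ≠ 0 ∧ ((U : L) : ℂ) ^ m = A - D * θ := by
  classical
  have hm0 : m ≠ 0 := by omega
  have : NeZero m := ⟨hm0⟩
  set H := G.scaleRoots D with hH
  have hHG : ∀ {θ : ℂ}, aeval θ G = 0 → aeval ((D : ℂ) * θ) H = 0 := fun {θ} h => by
    have := scaleRoots_aeval_eq_zero (r := D) h
    rwa [eq_intCast] at this
  have heqC : (c : ℂ) * (y : ℂ) ^ m = ((H.eval A : ℤ) : ℂ) := by exact_mod_cast heq
  have hHA0 : ((H.eval A : ℤ) : ℂ) ≠ 0 := by
    rw [← heqC]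
    exact mul_ne_zero (Int.cast_ne_zero.2 hc) (pow_ne_zero _ (Rat.cast_ne_zero.2 hy))
  choose γ hγ using fun θ : ℂ =>
    IsAlgClosed.exists_pow_nat_eq ((A : ℂ) - D * θ) (Nat.pos_of_ne_zero hm0)
  obtain ⟨η, hη⟩ := IsAlgClosed.exists_pow_nat_eq (c : ℂ) (Nat.pos_of_ne_zero hm0)
  set ζ₀ : ℂ := Complex.exp (2 * Real.pi * Complex.I / m)
  have hζ : IsPrimitiveRoot ζ₀ m := Complex.isPrimitiveRoot_exp m hm0
  set Z := (G.map (Int.castRingHom ℂ)).roots.toFinset with hZ
  have hmemZ : ∀ {θ : ℂ}, aeval θ G = 0 → θ ∈ Z := fun {θ} h => by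
    rw [hZ, Multiset.mem_toFinset, mem_roots (hG.map _).ne_zero, IsRoot.def, eval_map,
      ← algebraMap_int_eq, ← aeval_def]
    exact h
  have hZroot : ∀ {θ : ℂ}, θ ∈ Z → aeval θ G = 0 := fun {θ} h => by
    rw [hZ, Multiset.mem_toFinset, mem_roots (hG.map _).ne_zero, IsRoot.def, eval_map,
      ← algebraMap_int_eq, ← aeval_def] at h
    exact h
  set Z₁ := Z.filter fun θ => aeval θ G.derivative ≠ 0 with hZ₁
  set T : Finset ℂ := insert ζ₀ (insert η (Z ∪ Z₁.image γ)) with hT
  -- every generator is a root of an integral polynomial of degree at most `n m`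
  have hnm : 1 * m ≤ n * m := Nat.mul_le_mul_right _ hn1
  have hpol : ∀ z ∈ T, ∃ P : ℤ[X], P.Monic ∧ P.natDegree ≤ n * m ∧ aeval z P = 0 := fun z hz => by
    rw [hT, mem_insert, mem_insert, mem_union, mem_image] at hz
    rcases hz with rfl | rfl | hz | ⟨θ, hθ, rfl⟩
    · exact ⟨X ^ m - C 1, monic_X_pow_sub_C 1 hm0, by
        rw [natDegree_X_pow_sub_C]; omega, by simp [hζ.pow_eq_one]⟩
    · exact ⟨X ^ m - C c, monic_X_pow_sub_C c hm0, by
        rw [natDegree_X_pow_sub_C]; omega, by simp [hη]⟩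
    · exact ⟨G, hG, hn.trans (Nat.le_mul_of_pos_right _ (by omega)), hZroot hz⟩
    · refine ⟨expand ℤ m ((G.scaleRoots (-D)).comp (X - C A)),
        (monic_expand_iff hm).2 (((monic_scaleRoots_iff _).2 hG).comp_X_sub_C A), ?_, ?_⟩
      · rw [natDegree_expand, natDegree_comp, natDegree_scaleRoots, natDegree_X_sub_C, mul_one]
        exact Nat.mul_le_mul_right _ hn
      · rw [expand_aeval, hγ, aeval_comp]
        have := scaleRoots_aeval_eq_zero (r := -D) (hZroot (mem_filter.1 hθ).1)
        simpa using this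
  have hint : ∀ z ∈ T, IsIntegral ℤ z := fun z hz => by
    obtain ⟨P, h1, -, h2⟩ := hpol z hz
    exact ⟨P, h1, by rw [← aeval_def]; exact h2⟩
  obtain ⟨hfin, hdeg⟩ := finrank_adjoin_le (d := n * m) T hpol
  set L := IntermediateField.adjoin ℚ (T : Set ℂ) with hL
  have hNF : NumberField L := @NumberField.mk _ _ inferInstance hfin
  have hmemL : ∀ {z : ℂ}, z ∈ T → z ∈ L := fun {z} hz =>
    IntermediateField.subset_adjoin _ _ (Finset.mem_coe.2 hz)
  have hζT : ζ₀ ∈ T := mem_insert_self _ _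
  have hηT : η ∈ T := mem_insert_of_mem (mem_insert_self _ _)
  have hθT : ∀ {θ}, θ ∈ Z → θ ∈ T := fun h =>
    mem_insert_of_mem (mem_insert_of_mem (mem_union_left _ h))
  have hγT : ∀ {θ}, θ ∈ Z₁ → γ θ ∈ T := fun h =>
    mem_insert_of_mem (mem_insert_of_mem (mem_union_right _ (mem_image_of_mem γ h)))
  have hrad : ∀ {z w : ℂ}, z ∈ T → w ^ m = z ^ m → w ∈ L := fun {z w} hz he => by
    rcases eq_or_ne z 0 with rfl | hz0
    · rw [zero_pow hm0] at he
      rw [eq_zero_of_pow_eq_zero he]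
      exact zero_mem L
    obtain ⟨i, -, hi⟩ := hζ.eq_pow_of_pow_eq_one
      (show (w / z) ^ m = 1 by rw [div_pow, he, div_self (pow_ne_zero _ hz0)])
    rw [← div_mul_cancel₀ w hz0, ← hi]
    exact mul_mem (pow_mem (hmemL hζT) i) (hmemL hz)
  have hgal : IsGalois ℚ L := by
    refine isGalois_adjoin (fun z hz => (hint z hz).tower_top) fun z hz w hw => ?_
    have htr := transfer (hint z hz).tower_top hw
    have hroot : ∀ θ : ℂ, aeval θ (G.map (algebraMap ℤ ℚ)) = aeval θ G := fun θ =>
      aeval_map_algebraMap ℚ θ G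
    rw [hT, mem_insert, mem_insert, mem_union, mem_image] at hz
    rcases hz with rfl | rfl | hz | ⟨θ, hθ, rfl⟩
    · refine hrad hζT ?_
      have := (htr (X ^ m - 1)).1 (by simp [hζ.pow_eq_one])
      simp only [map_sub, map_pow, aeval_X, map_one, sub_eq_zero] at this
      rw [this, hζ.pow_eq_one]
    · refine hrad hηT ?_
      have := (htr (X ^ m - C (c : ℚ))).1 (by simp [hη])
      simp only [map_sub, map_pow, aeval_X, aeval_C, sub_eq_zero] at this
      rw [this, hη]
      simp
    · refine hmemL (hθT (hmemZ ?_))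
      rw [← hroot]
      exact (htr _).1 (by rw [hroot]; exact hZroot hz)
    · obtain ⟨hθZ, hθ'⟩ := mem_filter.1 hθ
      set Q : ℚ[X] := C ((A : ℚ) / D) - C (1 / (D : ℚ)) * X ^ m with hQ
      have hDC : (D : ℂ) ≠ 0 := Int.cast_ne_zero.2 hD
      have hQv : ∀ v : ℂ, aeval v Q = ((A : ℂ) - v ^ m) / D := fun v => by
        simp [hQ]; ring
      have hQθ : aeval (γ θ) Q = θ := by rw [hQv, hγ]; field_simp; ring
      have hcomp : ∀ (R : ℤ[X]) (v : ℂ),
          aeval v ((R.map (algebraMap ℤ ℚ)).comp Q) = aeval (aeval v Q) R := fun R v => by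
        rw [aeval_comp, aeval_map_algebraMap]
      have h1 : aeval (aeval w Q) G = 0 := by
        rw [← hcomp]; exact (htr _).1 (by rw [hcomp, hQθ]; exact hZroot hθZ)
      have h2 : aeval (aeval w Q) G.derivative ≠ 0 := fun h0 => hθ' (by
        rw [← hQθ, ← hcomp]; exact (htr _).2 (by rw [hcomp]; exact h0))
      refine hrad (hγT (mem_filter.2 ⟨hmemZ h1, h2⟩)) ?_
      rw [hγ, hQv]
      field_simp
      ring
  have hDeg : finrank ℚ L ≤ radDeg n m := by
    refine hdeg.trans (Nat.pow_le_pow_right (by nlinarith) ?_)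
    refine (card_insert_le _ _).trans (Nat.add_le_add_right
      ((card_insert_le _ _).trans (Nat.add_le_add_right ((card_union_le _ _).trans ?_) 1)) 1)
    have h1 : Z.card ≤ n := ((Multiset.toFinset_card_le _).trans (card_roots' _)).trans
      (natDegree_map_le.trans hn)
    have h2 : (Z₁.image γ).card ≤ n := card_image_le.trans ((card_filter_le _ _).trans h1)
    omega
  obtain ⟨lift, hlift⟩ : ∃ lift : ∀ z ∈ T, 𝓞 L, ∀ z hz, ((lift z hz : L) : ℂ) = z :=
    ⟨fun z hz => ⟨⟨z, hmemL hz⟩, (isIntegral_algebraMap_iff (R := ℤ) (x := (⟨z, hmemL hz⟩ : L))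
      (algebraMap L ℂ).injective).1 (hint z hz)⟩, fun z hz => rfl⟩
  refine ⟨L, hNF, lift ζ₀ hζT, hDeg, ?_, by rw [hlift]; exact hζ, fun θ hθ hθ' => ?_⟩
  swap
  · have hθ₁ : θ ∈ Z₁ := mem_filter.2 ⟨hmemZ hθ, hθ'⟩
    refine ⟨lift θ (hθT (hmemZ hθ)), lift (γ θ) (hγT hθ₁), hlift _ _, fun h0 => ?_,
      by rw [hlift, hγ]⟩
    have h1 := congrArg (fun v : 𝓞 L => ((v : L) : ℂ) ^ m) h0
    simp only [map_zero, ZeroMemClass.coe_zero, zero_pow hm0] at h1
    rw [hlift, hγ, sub_eq_zero] at h1
    refine hHA0 ?_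
    rw [← aeval_intCast H A (R := ℂ), h1]
    exact hHG hθ
  -- nothing ramifies above `2 ^ badExp`
  set B := badExp n k m g with hB
  set S : Finset ℕ := (range (2 ^ B + 1)).filter Nat.Prime with hS
  refine (FA.Faltings.natAbs_discr_le (S := S) (fun p hp => (mem_filter.1 hp).2) ?_).trans ?_
  swap
  · have h1 : ∏ p ∈ S, p ≤ (2 ^ B) ^ (2 ^ B + 1) := by
      refine (prod_le_pow_card _ _ (2 ^ B) fun p hp => ?_).trans
        (Nat.pow_le_pow_right (Nat.two_pow_pos _) ((card_filter_le _ _).trans (card_range _).le))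
      exact Nat.lt_succ_iff.1 (mem_range.1 (mem_filter.1 hp).1)
    refine (Nat.pow_le_pow_left (Nat.mul_le_mul (hDeg.trans Nat.lt_two_pow_self.le) h1) _).trans
      ((Nat.pow_le_pow_right (Nat.mul_pos (Nat.two_pow_pos _)
        (pow_pos (Nat.two_pow_pos _) _)) hDeg).trans ?_)
    rw [radDisc, ← hB, ← pow_mul, ← pow_add, ← pow_mul]
    exact Nat.pow_le_pow_right two_pos (le_of_eq (mul_comm _ _))
  intro q P hPmax hq hqS hqP
  have hbig : 2 ^ B < q := by
    by_contra hle
    exact hqS (mem_filter.2 ⟨mem_range.2 (by omega), hq⟩)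
  have hbigE : ∀ {E : ℕ}, E ≤ B → ¬ q ≤ 2 ^ E := fun hE h =>
    absurd (h.trans (Nat.pow_le_pow_right two_pos hE)) (by omega)
  have hgB : g ≤ B := by rw [hB, badExp]; omega
  have hdB : radDeg n m ≤ B := by
    rw [hB, badExp]
    have := Nat.le_mul_of_pos_right (radDeg n m)
      (show 0 < k + 2 * n + (k + n) * n + k + n + 2 by omega)
    omega
  have hd2 : 2 ^ radDeg n m < q := Nat.lt_of_not_le (hbigE hdB)
  have hintP : ∀ {z : ℤ}, Smooth g z.natAbs → (z : 𝓞 L) ∉ P := fun hz h =>
    hbigE hgB (prime_le_of_smooth hz hq (intCast_mem_prime hq hqP h))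
  have := IsGaloisGroup.of_isFractionRing (L ≃ₐ[ℚ] L) ℤ (𝓞 L) ℚ L
  let pI : Ideal ℤ := Ideal.span {(q : ℤ)}
  have hpI : pI.IsMaximal := PrincipalIdealRing.isMaximal_of_irreducible
    (Nat.prime_iff_prime_int.mp hq).irreducible
  have hover : P.LiesOver pI := by
    refine ⟨hpI.eq_of_le (Ideal.IsPrime.ne_top') ?_⟩
    rw [Ideal.span_le, Set.singleton_subset_iff, SetLike.mem_coe, Ideal.mem_comap]
    simpa using hqP
  have : Finite pI.ResidueField := by
    have : Finite (ℤ ⧸ pI) := by
      have : NeZero q := ⟨hq.ne_zero⟩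
      exact Finite.of_equiv (ZMod q) (Int.quotientSpanNatEquivZMod q).symm.toEquiv
    exact Finite.of_surjective _ pI.bijective_algebraMap_quotient_residueField.2
  -- an inertia element fixes the generators
  have hinert : ∀ τ : L ≃ₐ[ℚ] L, (∀ x : 𝓞 L, τ • x - x ∈ P) → τ = 1 := fun τ hτ => by
    have hsmul : ∀ x : 𝓞 L, ((τ • x : 𝓞 L) : L) = τ (x : L) := fun x =>
      algebraMap.coe_smul' τ x L
    have hval : ∀ {z : L} {a : ℤ}, (z : ℂ) = (a : ℂ) → τ z = z := fun {z a} h => by
      rw [show z = (a : L) from Subtype.ext (by simpa using h), map_intCast]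
    have hζfix : τ (lift ζ₀ hζT : L) = (lift ζ₀ hζT : L) := by
      refine radical_fixed hq hqP hDeg hd2 hm0 hτ (fun h => ?_) ?_
      · have h1 := P.pow_mem_of_mem h m (by omega)
        rw [show (lift ζ₀ hζT) ^ m = 1 from RingOfIntegers.coe_injective (Subtype.ext
          (by rw [map_pow, map_one]; push_cast; rw [hlift, hζ.pow_eq_one]))] at h1
        exact (Ideal.IsPrime.ne_top (I := P) inferInstance) ((Ideal.eq_top_iff_one P).2 h1)
      · exact hval (a := 1) (by push_cast; rw [hlift, hζ.pow_eq_one])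
    have hηfix : τ (lift η hηT : L) = (lift η hηT : L) := by
      refine radical_fixed hq hqP hDeg hd2 hm0 hτ (fun h => ?_) ?_
      · have h1 := P.pow_mem_of_mem h m (by omega)
        rw [show (lift η hηT) ^ m = (c : 𝓞 L) from RingOfIntegers.coe_injective (Subtype.ext
          (by rw [map_pow, map_intCast]; push_cast; rw [hlift, hη]))] at h1
        exact hintP hcs h1
      · exact hval (a := c) (by push_cast; rw [hlift, hη])
    have hθfix : ∀ θ (hθ : θ ∈ Z), τ (lift θ (hθT hθ) : L) = (lift θ (hθT hθ) : L) := fun θ hθ => by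
      by_contra hne
      have h0 : τ • lift θ (hθT hθ) - lift θ (hθT hθ) ≠ 0 := fun h =>
        hne (by rw [← hsmul, sub_eq_zero.1 h])
      refine hbigE ?_ (prime_le_of_mem hq hqP h0 (hτ _) hDeg (s := k + n + 1) fun σ => ?_)
      · rw [hB, badExp]
        have h1 := Nat.mul_le_mul_left (radDeg n m)
          (show k + n + 1 ≤ k + 2 * n + (k + n) * n + k + n + 2 by omega)
        rw [mul_comm _ (radDeg n m)]
        omega
      · simp only [map_sub, hsmul]
        rw [pow_succ, mul_two]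
        refine (norm_sub_le _ _).trans (add_le_add ?_ ?_)
        · exact norm_conj_root_le hG hn hk (w := (lift θ (hθT hθ) : L))
            (by rw [hlift]; exact hZroot hθ)
            (σ.comp (τ : L →+* L))
        · exact norm_conj_root_le hG hn hk (w := (lift θ (hθT hθ) : L))
            (by rw [hlift]; exact hZroot hθ) σ
    have hγfix : ∀ θ (hθ : θ ∈ Z₁), τ (lift (γ θ) (hγT hθ) : L) = (lift (γ θ) (hγT hθ) : L) := by
      intro θ hθ
      obtain ⟨hθZ, hθ'⟩ := mem_filter.1 hθ
      set t := lift θ (hθT hθZ) with ht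
      set U := lift (γ θ) (hγT hθ) with hU
      have hUm : U ^ m = (A : 𝓞 L) - D * t := RingOfIntegers.coe_injective (Subtype.ext (by
        simp only [map_pow, map_sub, map_mul, map_intCast]
        push_cast
        rw [hlift, hlift, hγ]))
      have hUfix : τ ((U : L) ^ m) = (U : L) ^ m := by
        rw [← map_pow, hUm, map_sub, map_mul, map_intCast, map_intCast, map_sub, map_mul,
          map_intCast, map_intCast, hθfix θ hθZ]
      by_cases hUP : U ∈ P
      swap
      · exact radical_fixed hq hqP hDeg hd2 hm0 hτ hUP hUfix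
      -- the cofactor
      set HR := H.map (algebraMap ℤ (𝓞 L)) with hHR
      have ht0 : aeval t G = 0 := by
        refine RingOfIntegers.coe_injective ((algebraMap L ℂ).injective ?_)
        rw [map_zero, map_zero, ← aeval_algebraMap_apply, ← aeval_algebraMap_apply,
          show algebraMap L ℂ (t : L) = θ from hlift _ _]
        exact hZroot hθZ
      have hHt : HR.IsRoot ((D : 𝓞 L) * t) := by
        rw [IsRoot.def, hHR, eval_map, ← aeval_def]
        have := scaleRoots_aeval_eq_zero (r := D) ht0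
        rwa [eq_intCast] at this
      obtain ⟨h, hh⟩ := dvd_iff_isRoot.2 hHt
      set M := h.eval (A : 𝓞 L) with hM
      have hfac : U ^ m * M = ((H.eval A : ℤ) : 𝓞 L) := by
        rw [hUm, ← aeval_intCast H A (R := 𝓞 L), aeval_def, ← eval_map, ← hHR, hh, eval_mul,
          eval_sub, eval_X, eval_C]
      have hMP : M ∉ P := fun hMP => by
        have h1 : h.eval ((D : 𝓞 L) * t) ∈ P := by
          obtain ⟨e, he⟩ := sub_dvd_eval_sub (A : 𝓞 L) ((D : 𝓞 L) * t) h
          rw [← hUm, ← hM] at he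
          rw [show h.eval ((D : 𝓞 L) * t) = M - U ^ m * e by linear_combination -he]
          exact P.sub_mem hMP (P.mul_mem_right _ (P.pow_mem_of_mem hUP m (by omega)))
        have hd : HR.derivative.eval ((D : 𝓞 L) * t) = h.eval ((D : 𝓞 L) * t) := by
          rw [hh, derivative_mul, eval_add, eval_mul, eval_mul, derivative_sub, derivative_X,
            derivative_C, eval_sub, eval_sub, eval_X, eval_C]
          simp
        have h2 := scaleRoots_derivative (G := G.map (algebraMap ℤ (𝓞 L))) (D := (D : 𝓞 L))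
          (θ := t)
        rw [← eq_intCast (algebraMap ℤ (𝓞 L)) D,
          ← map_scaleRoots _ _ _ (by rw [hG.leadingCoeff, map_one]; exact one_ne_zero), ← hH,
          ← hHR, eq_intCast, hd, hG.natDegree_map, derivative_map, eval_map, ← aeval_def] at h2
        have h3 : (D : 𝓞 L) ^ G.natDegree * aeval t G.derivative ∈ P :=
          h2 ▸ P.mul_mem_left _ h1
        rcases Ideal.IsPrime.mem_or_mem inferInstance h3 with h4 | h4
        · exact hintP hDs (Ideal.IsPrime.mem_of_pow_mem inferInstance _ h4)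
        · have ht' : ∀ σ : L →+* ℂ, σ ((aeval t G.derivative : 𝓞 L) : L) =
              aeval (σ (t : L)) G.derivative := fun σ => by
            rw [show σ (t : L) = (σ.comp (algebraMap (𝓞 L) L)).toIntAlgHom t from rfl,
              aeval_algHom_apply]
            rfl
          have h0 : aeval t G.derivative ≠ 0 := fun h0 => hθ' (by
            have := ht' (algebraMap L ℂ)
            simp only [h0, map_zero] at this
            rw [show algebraMap L ℂ (t : L) = θ from hlift _ _] at this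
            exact this.symm)
          refine hbigE ?_ (prime_le_of_mem hq hqP h0 h4 hDeg
            (s := k + 2 * n + (k + n) * n) fun σ => ?_)
          · rw [hB, badExp]
            have h1 := Nat.mul_le_mul_left (radDeg n m)
              (show k + 2 * n + (k + n) * n ≤ k + 2 * n + (k + n) * n + k + n + 2 by omega)
            rw [mul_comm _ (radDeg n m)]
            omega
          · rw [ht']
            refine norm_derivative_le hG hn hk ?_
            rw [show σ (t : L) = (σ.comp (algebraMap (𝓞 L) L)).toIntAlgHom t from rfl,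
              aeval_algHom_apply, ht0, map_zero]
      -- its `m`th root
      set E := lift η hηT with hE
      have hU0 : (U : L) ≠ 0 := fun h0 => by
        have h1 := congrArg (fun v : L => (v : ℂ) ^ m) h0
        simp only [ZeroMemClass.coe_zero, zero_pow hm0] at h1
        rw [hlift, hγ, sub_eq_zero] at h1
        refine hHA0 ?_
        rw [← aeval_intCast H A (R := ℂ), h1]
        exact hHG (hZroot hθZ)
      have hEm : (E : L) ^ m = (c : L) := Subtype.ext (by push_cast; rw [hlift, hη])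
      set w : L := (E : L) * (y : L) / (U : L) with hw
      have heqL : (c : L) * (y : L) ^ m = ((H.eval A : ℤ) : L) := by exact_mod_cast heq
      have hwm : w ^ m = (M : L) := by
        rw [hw, div_pow, mul_pow, hEm, heqL, div_eq_iff (pow_ne_zero _ hU0), mul_comm,
          ← map_pow, ← map_mul, hfac, map_intCast]
      set W : 𝓞 L := ⟨w, IsIntegral.of_pow (Nat.pos_of_ne_zero hm0)
        (by rw [hwm]; exact M.isIntegral_coe)⟩ with hW
      have hWW : (W : L) = w := rfl
      have hWm : W ^ m = M := RingOfIntegers.coe_injective (by rw [map_pow]; exact hwm)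
      have hWfix : τ (W : L) = W := by
        refine radical_fixed hq hqP hDeg hd2 hm0 hτ
          (fun h => hMP (hWm ▸ P.pow_mem_of_mem h m (by omega))) ?_
        rw [hWW, hw, div_pow, mul_pow, map_div₀, map_mul, hUfix]
        simp only [map_pow, hηfix, map_ratCast]
      have hy' : (y : L) ≠ 0 := Rat.cast_ne_zero.2 hy
      have hE0 : (E : L) ≠ 0 := fun h => by
        rw [h, zero_pow hm0, eq_comm, Int.cast_eq_zero] at hEm
        exact hc hEm
      rw [hWW, hw, map_div₀, map_mul, hηfix, map_ratCast,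
        div_eq_div_iff ((map_ne_zero τ).2 hU0) hU0] at hWfix
      exact (mul_left_cancel₀ (mul_ne_zero hE0 hy') hWfix).symm
    refine AlgEquiv.ext fun x => DFunLike.congr_fun
      (IntermediateField.adjoin_algHom_ext ℚ (φ₁ := τ.toAlgHom) (φ₂ := AlgHom.id ℚ L)
        fun z hz => ?_) x
    have hz' := Finset.mem_coe.1 hz
    rw [hT, mem_insert, mem_insert, mem_union, mem_image] at hz'
    suffices h : ∀ hzT : z ∈ T, τ (lift z hzT : L) = (lift z hzT : L) by
      show τ ⟨z, _⟩ = ⟨z, _⟩
      rw [show (⟨z, IntermediateField.subset_adjoin _ _ hz⟩ : L) = (lift z (mem_coe.1 hz) : L) from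
        Subtype.ext (hlift _ _).symm]
      exact h _
    intro hzT
    rcases hz' with rfl | rfl | h | ⟨θ, hθ, rfl⟩
    · exact hζfix
    · exact hηfix
    · exact hθfix _ h
    · exact hγfix θ hθ
  have hcard : Nat.card (P.inertia (L ≃ₐ[ℚ] L)) = 1 := by
    rw [(Subgroup.eq_bot_iff_forall _).mpr fun σ (hσ : σ ∈ P.inertia (L ≃ₐ[ℚ] L)) => hinert σ hσ,
      Subgroup.card_bot]
  rwa [Ideal.card_inertia_eq_ramificationIdxIn pI P,
    Ideal.ramificationIdxIn_eq_ramificationIdx pI P (L ≃ₐ[ℚ] L),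
    Ideal.ramificationIdx_eq_one_iff] at hcard

end FA.BakerExplicit.RadicalField

end
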