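import Fermat.Agent.BakerExplicit.SUnitEquation

/-!
# Győry's effective bound for the `S`-unit equation

Up to proportion `a + b + c = 0` has boundedly many solutions in algebraic integers whose norms
are smooth: after a scaling the conjugates of all three are bounded by a number depending only on
the degree, the discriminant and the largest prime.
-/

set_option autoImplicit false

noncomputable section

namespace FA.BakerExplicit.EffectiveSUnits

open Finset NumberField NumberField.Units Module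
open scoped nonZeroDivisors

/-- The logarithmic growth of the exponents. -/
def expRate (d e g : ℕ) : ℕ :=
  partSize d e g 1 + 1 + 2 * kappa (d + 2) + 1 +
    2 * d * (2 * (d * UnitSystem.unitBound d e) + 5)

/-- The constant in the bound at an embedding. -/
def placeConst (d e g G : ℕ) : ℕ := G * (2 ^ classExp d e * powBound d g + 1) + d

/-- The factor of the power of `log h` in the bound at an embedding. -/
def placeRate (d e g : ℕ) : ℕ :=
  2 * (2 ^ (4 * formRank d g ^ 2 + 18) * d *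
    (powBound d g * (2 * termSize d e g) + expRate d e g)) ^ kappa (formRank d g)

/-- From the exponents to the norms. -/
def normFactor (d g : ℕ) : ℕ := g * (d * (2 ^ g + 1))

/-- **The bound for the logarithm, to base `2`, of the norms.** -/
def normExp (d e g G : ℕ) : ℕ :=
  2 * (normFactor d g * (placeConst d e g G + 1) + 1) +
    2 * (2 * kappa (formRank d g)) ^ (2 * kappa (formRank d g)) *
      (normFactor d g * placeRate d e g) ^ 2

/-- **The bound for the logarithm, to base `2`, of the conjugates.** -/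
def sUnitBound (d e g : ℕ) : ℕ :=
  EffectiveUnits.unitEquationBound d e (normExp d e (g + d + e) (d + e)) +
    2 * EffectiveUnits.reducedSize d (UnitSystem.unitBound d e) (normExp d e (g + d + e) (d + e))

theorem scale_le {A A₁ E c κ h : ℕ} (hA : A ≤ A₁ * (h + 1)) :
    2 * 3 + E * ((c * (2 * A)) ^ κ) ^ 2 ≤
      (2 * 3 + E * ((c * (2 * A₁)) ^ κ) ^ 2) * (h + 1) ^ (2 * κ) := by
  rw [add_mul]
  refine Nat.add_le_add (Nat.le_mul_of_pos_right _ (pow_pos (Nat.succ_pos h) _)) ?_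
  rw [mul_assoc E]
  refine Nat.mul_le_mul_left E ?_
  rw [mul_comm 2 κ, pow_mul (h + 1) κ 2, ← mul_pow, ← mul_pow]
  refine Nat.pow_le_pow_left (Nat.pow_le_pow_left ?_ _) _
  rw [mul_assoc c, mul_assoc 2 A₁]
  exact Nat.mul_le_mul_left c (Nat.mul_le_mul_left 2 hA)

theorem formSize_le (d H h : ℕ) :
    EffectiveUnits.formLog d H h + EffectiveUnits.formExp d H h + 2 ≤
      (EffectiveUnits.formLog d H 1 + EffectiveUnits.formExp d H 1 + 2) * (h + 1) := by
  simp only [EffectiveUnits.formLog, EffectiveUnits.formExp, EffectiveUnits.reducedSize]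
  nlinarith [Nat.zero_le (h * ((d + 1) * H)), Nat.zero_le (h * d),
    Nat.zero_le (h * (d * (d * H)))]

theorem unitEquationBound_le (d e h : ℕ) : EffectiveUnits.unitEquationBound d e h ≤
    EffectiveUnits.unitEquationBound d e 1 * (h + 1) ^ (2 * kappa (d + 2)) := by
  simp only [EffectiveUnits.unitEquationBound, EffectiveUnits.ratioBound]
  rw [mul_assoc 2 _ ((h + 1) ^ _)]
  exact Nat.mul_le_mul_left 2 (scale_le (formSize_le d (UnitSystem.unitBound d e) h))

theorem log_le_of_le {P X j h : ℕ} (hP : P ≤ X * (h + 1) ^ j) :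
    Nat.log 2 P ≤ X + j * (Nat.log 2 h + 1) := by
  refine (Nat.log_mono_right (show P ≤ 2 ^ X * (2 ^ (Nat.log 2 h + 1)) ^ j from
    hP.trans (Nat.mul_le_mul Nat.lt_two_pow_self.le
      (Nat.pow_le_pow_left (Nat.lt_pow_succ_log_self one_lt_two h) _)))).trans ?_
  rw [← pow_mul, ← pow_add, Nat.log_pow one_lt_two, mul_comm j]

theorem rate_mul_le {X j E l : ℕ} (hl : 1 ≤ l) :
    X + j * l + 1 + E ≤ (X + j + 1 + E) * l := by
  have := Nat.le_mul_of_pos_right (X + 1 + E) hl
  nlinarith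

theorem rate_le {c A m M l κ : ℕ} (hm : m ≤ M * l) (hl : 1 ≤ l) :
    2 * (c * (A + m)) ^ κ ≤ 2 * (c * (A + M)) ^ κ * l ^ κ := by
  rw [mul_assoc 2, ← mul_pow, mul_assoc c, add_mul]
  exact Nat.mul_le_mul_left 2 (Nat.pow_le_pow_left (Nat.mul_le_mul_left c
    (Nat.add_le_add (Nat.le_mul_of_pos_right A hl) hm)) _)

theorem expBound_le (d e g h : ℕ) :
    expBound d e g h ≤ expRate d e g * (Nat.log 2 h + 1) := by
  set j := 2 * kappa (d + 2)
  set l := Nat.log 2 h + 1
  have hpow : 1 ≤ (h + 1) ^ j := pow_pos (Nat.succ_pos h) _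
  have hle : h + 1 ≤ (h + 1) ^ j := Nat.le_self_pow (by simp only [j, kappa]; omega) _
  have h1 : partSize d e g h + h ≤ (partSize d e g 1 + 1) * (h + 1) ^ j := by
    simp only [partSize]
    have e1 : 2 ^ classExp d e * EffectiveUnits.unitEquationBound d e h ≤
        2 ^ classExp d e * EffectiveUnits.unitEquationBound d e 1 * (h + 1) ^ j := by
      rw [mul_assoc]; exact Nat.mul_le_mul_left _ (unitEquationBound_le d e h)
    have e2 : 2 ^ countExp d (g * d) * genSize d e g * h ≤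
        2 ^ countExp d (g * d) * genSize d e g * 1 * (h + 1) ^ j := by
      rw [mul_one]; exact Nat.mul_le_mul_left _ (by omega)
    have e3 : EffectiveUnits.reducedSize d (UnitSystem.unitBound d e) 0 + 1 ≤
        (EffectiveUnits.reducedSize d (UnitSystem.unitBound d e) 0 + 1) * (h + 1) ^ j :=
      Nat.le_mul_of_pos_right _ hpow
    nlinarith
  have h3 := log_le_of_le h1
  rw [expBound, expRate]
  refine le_trans ?_ (rate_mul_le (Nat.succ_pos _))
  exact Nat.add_le_add_right (Nat.add_le_add_right h3 1) _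

theorem placeBound_le (d e g G h : ℕ) : placeBound d e g G h ≤
    placeConst d e g G + placeRate d e g * (Nat.log 2 h + 1) ^ kappa (formRank d g) := by
  rw [placeBound, placeConst, placeRate, baseAlg]
  exact Nat.add_le_add_left (rate_le (expBound_le d e g h) (Nat.succ_pos _)) _

/-- A smooth number with bounded exponents. -/
theorem le_of_smooth {g V N : ℕ} (hN : N ≠ 0) (hs : Smooth g N)
    (hv : ∀ r ∈ N.primeFactors, padicValNat r N ≤ V) : N ≤ 2 ^ (g * (V * (2 ^ g + 1))) := by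
  classical
  conv_lhs => rw [← Nat.prod_factorization_pow_eq_self hN]
  rw [Finsupp.prod, Nat.support_factorization]
  refine (prod_le_prod' (g := fun _ => (2 ^ g) ^ V) fun r hr => ?_).trans ?_
  · have hp := Nat.prime_of_mem_primeFactors hr
    rw [Nat.factorization_def N hp]
    exact (Nat.pow_le_pow_left (hs r hp (Nat.dvd_of_mem_primeFactors hr)) _).trans
      (Nat.pow_le_pow_right (Nat.two_pow_pos g) (hv r hr))
  rw [prod_const, ← pow_mul, ← pow_mul]
  refine Nat.pow_le_pow_right two_pos (Nat.mul_le_mul_left g (Nat.mul_le_mul_left V ?_))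
  refine (card_le_card (t := range (2 ^ g + 1)) fun r hr => mem_range.2 ?_).trans_eq (card_range _)
  exact Nat.lt_succ_of_le
    (hs r (Nat.prime_of_mem_primeFactors hr) (Nat.dvd_of_mem_primeFactors hr))

variable {K : Type*} [Field K] [NumberField K]

/-- **The norms are bounded** if a bounded number is a combination of two of the terms. -/
theorem norm_le_normExp {d e g G : ℕ} (hd : finrank ℚ K ≤ d) (he : (discr K).natAbs ≤ 2 ^ e)
    {a b c : 𝓞 K} (ha : a ≠ 0) (hb : b ≠ 0) (hc : c ≠ 0) (habc : a + b + c = 0)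
    (hsa : Smooth g (Algebra.norm ℤ a).natAbs) (hsb : Smooth g (Algebra.norm ℤ b).natAbs)
    (hsc : Smooth g (Algebra.norm ℤ c).natAbs) {g₀ : ℕ} (hg₀ : 0 < g₀) (hg₀G : g₀ ≤ 2 ^ G)
    {x y : 𝓞 K} (hxy : (g₀ : 𝓞 K) = x * a + y * b) :
    (Algebra.norm ℤ a).natAbs ≤ 2 ^ normExp d e g G ∧
      (Algebra.norm ℤ b).natAbs ≤ 2 ^ normExp d e g G ∧
      (Algebra.norm ℤ c).natAbs ≤ 2 ^ normExp d e g G := by
  classical
  set N := max (Algebra.norm ℤ a).natAbs
    (max (Algebra.norm ℤ b).natAbs (Algebra.norm ℤ c).natAbs) with hN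
  set h := Nat.log 2 N + 1 with hh
  have hNh : N ≤ 2 ^ h := (Nat.lt_pow_succ_log_self one_lt_two N).le
  have hah : (Algebra.norm ℤ a).natAbs ≤ 2 ^ h := (le_max_left _ _).trans hNh
  have hbh : (Algebra.norm ℤ b).natAbs ≤ 2 ^ h :=
    ((le_max_left _ _).trans (le_max_right _ _)).trans hNh
  have hch : (Algebra.norm ℤ c).natAbs ≤ 2 ^ h :=
    ((le_max_right _ _).trans (le_max_right _ _)).trans hNh
  set PB := placeBound d e g G h with hPB
  have key : ∀ {a b c : 𝓞 K}, a ≠ 0 → b ≠ 0 → c ≠ 0 → a + b + c = 0 →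
      Smooth g (Algebra.norm ℤ a).natAbs → Smooth g (Algebra.norm ℤ b).natAbs →
      Smooth g (Algebra.norm ℤ c).natAbs → (Algebra.norm ℤ a).natAbs ≤ 2 ^ h →
      (Algebra.norm ℤ b).natAbs ≤ 2 ^ h → (Algebra.norm ℤ c).natAbs ≤ 2 ^ h →
      ∀ x y : 𝓞 K, (g₀ : 𝓞 K) = x * a + y * b →
        (Algebra.norm ℤ c).natAbs ≤ 2 ^ (normFactor d g * (PB + 1)) := by
    intro a b c ha hb hc habc hsa hsb hsc hah hbh hch x y hxy
    refine (le_of_smooth (V := d * (PB + 1)) (Int.natAbs_ne_zero.2 (Algebra.norm_ne_zero_iff.2 hc))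
      hsc fun r hr => ?_).trans_eq (by rw [normFactor]; ring)
    have hrp := Nat.prime_of_mem_primeFactors hr
    have : Fact r.Prime := ⟨hrp⟩
    refine padicValNat_norm_le hd fun ψ => le_of_not_gt fun hlt => ?_
    have := place_bound hd he ha hb hc habc hsa hsb hah hbh hch hg₀ hg₀G hxy
      (hsc r hrp (Nat.dvd_of_mem_primeFactors hr)) ψ hlt.le
    omega
  have hNc := key ha hb hc habc hsa hsb hsc hah hbh hch x y hxy
  have hNa := key hb hc ha (by rw [← habc]; ring) hsb hsc hsa hbh hch hah (y - x) (-x)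
    (by rw [hxy]; linear_combination x * habc)
  have hNb := key hc ha hb (by rw [← habc]; ring) hsc hsa hsb hch hah hbh (-y) (x - y)
    (by rw [hxy]; linear_combination y * habc)
  have hNW : N ≤ 2 ^ (normFactor d g * (PB + 1)) := max_le hNa (max_le hNb hNc)
  have hN0 : N ≠ 0 := by
    have := Int.natAbs_ne_zero.2 (Algebra.norm_ne_zero_iff.2 ha)
    have := le_max_left (Algebra.norm ℤ a).natAbs
      (max (Algebra.norm ℤ b).natAbs (Algebra.norm ℤ c).natAbs)
    omega
  have h1 : Nat.log 2 N ≤ normFactor d g * (PB + 1) := by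
    have := Nat.log_mono_right (b := 2) hNW
    rwa [Nat.log_pow one_lt_two] at this
  have h2 : h ≤ normFactor d g * (placeConst d e g G + 1) + 1 +
      normFactor d g * placeRate d e g * (Nat.log 2 h + 1) ^ kappa (formRank d g) := by
    have h3 := Nat.mul_le_mul_left (normFactor d g) 
      (Nat.add_le_add_right (placeBound_le d e g G h) 1)
    rw [← hPB] at h3
    rw [mul_assoc]
    have e : normFactor d g * (placeConst d e g G +
        placeRate d e g * (Nat.log 2 h + 1) ^ kappa (formRank d g) + 1) =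
        normFactor d g * (placeConst d e g G + 1) +
          normFactor d g * (placeRate d e g * (Nat.log 2 h + 1) ^ kappa (formRank d g)) := by
      ring
    rw [e] at h3
    omega
  have hfin := le_of_le_add_mul_log_pow (by simp only [kappa]; omega) h2
  have hle : 2 ^ h ≤ 2 ^ normExp d e g G := Nat.pow_le_pow_right two_pos hfin
  exact ⟨hah.trans hle, hbh.trans hle, hch.trans hle⟩

/-- A proportional triple whose first two terms generate an ideal of bounded norm. -/
theorem exists_scaled {d e g : ℕ} (hd : finrank ℚ K ≤ d) (he : (discr K).natAbs ≤ 2 ^ e)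
    {a b c : 𝓞 K} (ha : a ≠ 0) (hb : b ≠ 0) (hc : c ≠ 0) (habc : a + b + c = 0)
    (hsa : Smooth g (Algebra.norm ℤ a).natAbs) (hsb : Smooth g (Algebra.norm ℤ b).natAbs)
    (hsc : Smooth g (Algebra.norm ℤ c).natAbs) :
    ∃ (μ : K) (a' b' c' : 𝓞 K) (g₀ : ℕ) (x y : 𝓞 K), μ ≠ 0 ∧ (a : K) = μ * a' ∧
      (b : K) = μ * b' ∧ (c : K) = μ * c' ∧ a' ≠ 0 ∧ b' ≠ 0 ∧ c' ≠ 0 ∧ a' + b' + c' = 0 ∧
      Smooth (g + d + e) (Algebra.norm ℤ a').natAbs ∧
      Smooth (g + d + e) (Algebra.norm ℤ b').natAbs ∧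
      Smooth (g + d + e) (Algebra.norm ℤ c').natAbs ∧ 0 < g₀ ∧ g₀ ≤ 2 ^ (d + e) ∧
      (g₀ : 𝓞 K) = x * a' + y * b' := by
  classical
  set I : Ideal (𝓞 K) := Ideal.span {a, b} with hI
  have hI0 : I ≠ 0 := fun h => ha (by
    have : a ∈ I := Ideal.subset_span (Set.mem_insert _ _)
    rwa [h, Ideal.zero_eq_bot, Ideal.mem_bot] at this)
  set I₀ : (Ideal (𝓞 K))⁰ := ⟨I, mem_nonZeroDivisors_iff_ne_zero.2 hI0⟩
  obtain ⟨J, hJ, hJN⟩ := exists_rep hd he (ClassGroup.mk0 I₀)
  obtain ⟨s, t, hs, ht, heq⟩ := ClassGroup.mk0_eq_mk0_iff.1 hJ.symm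
  change Ideal.span {s} * I = Ideal.span {t} * (J : Ideal (𝓞 K)) at heq
  set g₀ := Ideal.absNorm (J : Ideal (𝓞 K)) with hg₀
  have htK : (t : K) ≠ 0 := RingOfIntegers.coe_ne_zero_iff.2 ht
  have hsK : (s : K) ≠ 0 := RingOfIntegers.coe_ne_zero_iff.2 hs
  have hmem : ∀ z ∈ I, ∃ w ∈ (J : Ideal (𝓞 K)), s * z = t * w := fun z hz => by
    have h1 : s * z ∈ Ideal.span {t} * (J : Ideal (𝓞 K)) :=
      heq ▸ Ideal.mul_mem_mul (Ideal.mem_span_singleton_self s) hz
    obtain ⟨w, hw, hw'⟩ := Ideal.mem_span_singleton_mul.1 h1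
    exact ⟨w, hw, hw'.symm⟩
  have hcI : c ∈ I := by
    rw [show c = -a + -b by linear_combination habc]
    exact I.add_mem (I.neg_mem (Ideal.subset_span (Set.mem_insert _ _)))
      (I.neg_mem (Ideal.subset_span (Set.mem_insert_of_mem _ rfl)))
  obtain ⟨a', -, hsa'⟩ := hmem a (Ideal.subset_span (Set.mem_insert _ _))
  obtain ⟨b', -, hsb'⟩ := hmem b (Ideal.subset_span (Set.mem_insert_of_mem _ rfl))
  obtain ⟨c', -, hsc'⟩ := hmem c hcI
  have hne : ∀ {z w : 𝓞 K}, z ≠ 0 → s * z = t * w → w ≠ 0 := fun hz e h => by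
    rw [h, mul_zero] at e
    exact (mul_eq_zero.1 e).elim hs hz
  have hK : ∀ {z w : 𝓞 K}, s * z = t * w → (z : K) = (t : K) / s * w := fun e => by
    have h1 := congrArg (fun v : 𝓞 K => (v : K)) e
    simp only [map_mul] at h1
    field_simp
    linear_combination h1
  have hsm : ∀ {z w : 𝓞 K}, z ∈ I → z ≠ 0 → Smooth g (Algebra.norm ℤ z).natAbs → s * z = t * w →
      Smooth (g + d + e) (Algebra.norm ℤ w).natAbs := fun {z w} hzI hz hzs e => by
    have h1 := congrArg (fun v : 𝓞 K => (Algebra.norm ℤ v).natAbs) e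
    simp only [map_mul, Int.natAbs_mul] at h1
    have h2 := congrArg Ideal.absNorm heq
    simp only [map_mul, Ideal.absNorm_span_singleton, ← hg₀] at h2
    have h3 : (Algebra.norm ℤ w).natAbs * Ideal.absNorm I = g₀ * (Algebra.norm ℤ z).natAbs := by
      refine mul_left_cancel₀ (a := (Algebra.norm ℤ t).natAbs)
        (Int.natAbs_ne_zero.2 (Algebra.norm_ne_zero_iff.2 ht)) ?_
      rw [← mul_assoc, ← mul_assoc, ← h1, ← h2]
      ring
    refine (Smooth.mul ?_ (hzs.mono (by omega))).of_dvd (Dvd.intro _ h3)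
    exact (Smooth.of_le (mt Ideal.absNorm_eq_zero_iff.1 (nonZeroDivisors.coe_ne_zero _)) hJN).mono
      (by omega)
  have hg₀mem : t * (g₀ : 𝓞 K) ∈ Ideal.span {s} * I :=
    heq ▸ Ideal.mul_mem_mul (Ideal.mem_span_singleton_self t) (Ideal.absNorm_mem _)
  obtain ⟨v, hv, hv'⟩ := Ideal.mem_span_singleton_mul.1 hg₀mem
  obtain ⟨x, y, hxy⟩ := Ideal.mem_span_pair.1 hv
  refine ⟨(t : K) / s, a', b', c', g₀, x, y, div_ne_zero htK hsK, hK hsa', hK hsb', hK hsc',
    hne ha hsa', hne hb hsb', hne hc hsc', ?_, ?_, ?_, ?_,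
    Nat.pos_of_ne_zero (mt Ideal.absNorm_eq_zero_iff.1 (nonZeroDivisors.coe_ne_zero _)), hJN, ?_⟩
  · exact mul_left_cancel₀ ht (by
      rw [mul_add, mul_add, ← hsa', ← hsb', ← hsc', mul_zero, ← mul_add, ← mul_add, habc,
        mul_zero])
  · exact hsm (Ideal.subset_span (Set.mem_insert _ _)) ha hsa hsa'
  · exact hsm (Ideal.subset_span (Set.mem_insert_of_mem _ rfl)) hb hsb hsb'
  · exact hsm hcI hc hsc hsc'
  · refine mul_left_cancel₀ ht ?_
    linear_combination -hv' - s * hxy + x * hsa' + y * hsb'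

/-- **The effective `S`-unit equation (Győry).** A solution of `a + b + c = 0` in algebraic
integers whose norms have no prime factor above `2 ^ g` is proportional to one with all conjugates
bounded by `2 ^ sUnitBound d e g`. -/
theorem sUnit_equation_bound {d e g : ℕ} (hd : finrank ℚ K ≤ d) (he : (discr K).natAbs ≤ 2 ^ e)
    {a b c : 𝓞 K} (ha : a ≠ 0) (hb : b ≠ 0) (hc : c ≠ 0) (habc : a + b + c = 0)
    (hsa : Smooth g (Algebra.norm ℤ a).natAbs) (hsb : Smooth g (Algebra.norm ℤ b).natAbs)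
    (hsc : Smooth g (Algebra.norm ℤ c).natAbs) :
    ∃ (μ : K) (a' b' c' : 𝓞 K), μ ≠ 0 ∧ (a : K) = μ * a' ∧ (b : K) = μ * b' ∧
      (c : K) = μ * c' ∧ ∀ σ : K →+* ℂ, ‖σ (a' : K)‖ ≤ (2 : ℝ) ^ sUnitBound d e g ∧
        ‖σ (b' : K)‖ ≤ (2 : ℝ) ^ sUnitBound d e g ∧
        ‖σ (c' : K)‖ ≤ (2 : ℝ) ^ sUnitBound d e g := by
  obtain ⟨μ, a', b', c', g₀, x, y, hμ, ea, eb, ec, ha', hb', hc', habc', hsa', hsb', hsc', hg₀,
    hg₀G, hxy⟩ := exists_scaled hd he ha hb hc habc hsa hsb hsc
  set h := normExp d e (g + d + e) (d + e) with hh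
  obtain ⟨hah, hbh, hch⟩ := norm_le_normExp hd he ha' hb' hc' habc' hsa' hsb' hsc' hg₀ hg₀G hxy
  obtain ⟨u, hu, huh⟩ := UnitSystem.exists_unit_system (K := K) rfl he
  have hmono : UnitSystem.unitBound (finrank ℚ K) e ≤ UnitSystem.unitBound d e := by
    simp only [UnitSystem.unitBound]
    gcongr
    · norm_num
  obtain ⟨k, γ, w, hγU, -, hγ0, hlog⟩ := EffectiveUnits.exists_reduced hd hu
    (fun i σ => (huh i σ).trans (Nat.cast_le.2 hmono)) hb' hbh
  set U : (𝓞 K)ˣ := UnitExponents.unitPow u k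
  have hU : (U : K) ≠ 0 := Units.coe_ne_zero U
  refine ⟨μ * (U : K), a' * ((U⁻¹ : (𝓞 K)ˣ) : 𝓞 K), γ, c' * ((U⁻¹ : (𝓞 K)ˣ) : 𝓞 K),
    mul_ne_zero hμ hU, ?_, by rw [eb, ← hγU]; ring, ?_, fun σ => ?_⟩
  · simp only [ea, map_mul]
    rw [mul_assoc, mul_comm (U : K), mul_assoc, ← map_mul, ← Units.val_mul,
      inv_mul_cancel, Units.val_one, map_one, mul_one]
  · simp only [ec, map_mul]
    rw [mul_assoc, mul_comm (U : K), mul_assoc, ← map_mul, ← Units.val_mul,
      inv_mul_cancel, Units.val_one, map_one, mul_one]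
  have hγne : σ (γ : K) ≠ 0 := (map_ne_zero σ).2 (RingOfIntegers.coe_ne_zero_iff.2 hγ0)
  have hγB := EffectiveThue.le_two_pow_of_abs_log_le (norm_pos_iff.2 hγne) (hlog σ)
  have hU1 : σ ((U⁻¹ : (𝓞 K)ˣ) : K) * σ (U : K) = 1 := by
    rw [← map_mul, ← map_mul, ← Units.val_mul, inv_mul_cancel, Units.val_one, map_one, map_one]
  have hbound : ∀ {z : 𝓞 K}, ‖σ (z : K)‖ ≤ (2 : ℝ) ^ EffectiveUnits.unitEquationBound d e h *
      ‖σ (b' : K)‖ → ‖σ ((z * ((U⁻¹ : (𝓞 K)ˣ) : 𝓞 K) : 𝓞 K) : K)‖ ≤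
        (2 : ℝ) ^ sUnitBound d e g := fun {z} hz => by
    simp only [map_mul, norm_mul]
    rw [sUnitBound, ← hh, pow_add]
    refine (mul_le_mul_of_nonneg_right hz (norm_nonneg _)).trans ?_
    rw [← hγU, map_mul, norm_mul, mul_assoc, mul_assoc, ← norm_mul (σ (U : K)),
      mul_comm (σ (U : K)), hU1, norm_one, mul_one]
    exact mul_le_mul_of_nonneg_left hγB (by positivity)
  refine ⟨hbound (EffectiveUnits.equation_ratio_le hd he ha' hb' hc' habc' hah hbh hch σ),
    hγB.trans (pow_le_pow_right₀ one_le_two (by rw [sUnitBound, ← hh]; omega)),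
    hbound (EffectiveUnits.equation_ratio_le hd he hc' hb' ha' (by rw [← habc']; ring) hch hbh
      hah σ)⟩

end FA.BakerExplicit.EffectiveSUnits

end
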