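import Fermat.Agent.BakerExplicit.SUnitPlaces
import Fermat.Agent.BakerExplicit.SUnitGenerators

/-!
# The `S`-unit equation over a number field, effectively

Let `a + b + c = 0` with smooth norms of at most `2 ^ h`. The archimedean unit equation bounds the
ratios polynomially in `h`; so the exponents of the units and generators in `(a / b) ^ H` are, and
the `p`-adic theorem of Baker bounds the exponent of every prime in `c` by a power of `log h`.
Hence `h` is bounded.
-/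

set_option autoImplicit false

noncomputable section

namespace FA.BakerExplicit.EffectiveSUnits

open Finset NumberField NumberField.Units Module UnitExponents FA.Brumer
open scoped nonZeroDivisors

/-- The sizes of the numbers raised to their powers in the forms. -/
def termSize (d e g : ℕ) : ℕ :=
  EffectiveUnits.reducedSize d (UnitSystem.unitBound d e) 0 + UnitSystem.unitBound d e +
    genSize d e g + 1

/-- The number of terms in the forms. -/
def formRank (d g : ℕ) : ℕ := 1 + d + 2 ^ countExp d (g * d)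

/-- The size of the unit part of a ratio, the norms being at most `2 ^ h`. -/
def partSize (d e g h : ℕ) : ℕ :=
  2 ^ classExp d e * EffectiveUnits.unitEquationBound d e h +
    2 ^ countExp d (g * d) * genSize d e g * h +
    EffectiveUnits.reducedSize d (UnitSystem.unitBound d e) 0 + 1

/-- The exponents in the forms. -/
def expBound (d e g h : ℕ) : ℕ :=
  Nat.log 2 (partSize d e g h + h) + 1 + 2 * d * (2 * (d * UnitSystem.unitBound d e) + 5)

/-- A bound for the exponent bringing all numbers near `1`. -/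
def powBound (d g : ℕ) : ℕ := 2 ^ (3 * (g * d) + 1)

/-- The bound for the exponent of `p` at an embedding. -/
def placeBound (d e g G h : ℕ) : ℕ :=
  G * (2 ^ classExp d e * powBound d g + 1) + d +
    2 * baseAlg (formRank d g) d (powBound d g * (2 * termSize d e g)) (expBound d e g h) ^
      kappa (formRank d g)

variable {K : Type*} [Field K] [NumberField K]

omit [NumberField K] in
/-- The logarithms of a unit times a product. -/
theorem abs_log_unit_le {H Q R h Rπ : ℕ} {σ : K →+* ℂ} {ι : Type*} [Fintype ι] {π : ι → 𝓞 K}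
    (hπ0 : ∀ q, π q ≠ 0) (hπ : ∀ q, |Real.log ‖σ (π q : K)‖| ≤ Rπ) (hQ : Fintype.card ι ≤ Q)
    {ka kb : ι → ℕ} (hka : ∀ q, ka q ≤ h) (hkb : ∀ q, kb q ≤ h) {a b : 𝓞 K} (ha : a ≠ 0)
    (hb : b ≠ 0) (hab : |Real.log ‖σ (a : K)‖ - Real.log ‖σ (b : K)‖| ≤ R) {n : ℕ} (hn : n ≤ H)
    {εa εb : (𝓞 K)ˣ} (ea : a ^ n = (εa : 𝓞 K) * ∏ q, π q ^ ka q)
    (eb : b ^ n = (εb : 𝓞 K) * ∏ q, π q ^ kb q) :
    |Real.log ‖σ ((εa / εb : (𝓞 K)ˣ) : K)‖| ≤ ((H * R + Q * Rπ * h : ℕ) : ℝ) := by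
  have hne : ∀ {z : 𝓞 K}, z ≠ 0 → ‖σ (z : K)‖ ≠ 0 := fun hz =>
    norm_ne_zero_iff.2 ((map_ne_zero σ).2 (RingOfIntegers.coe_ne_zero_iff.2 hz))
  have hlog : ∀ {z : 𝓞 K} {ε : (𝓞 K)ˣ} {k : ι → ℕ}, z ≠ 0 →
      z ^ n = (ε : 𝓞 K) * ∏ q, π q ^ k q → Real.log ‖σ (ε : K)‖ =
        n * Real.log ‖σ (z : K)‖ - ∑ q, (k q : ℝ) * Real.log ‖σ (π q : K)‖ :=
      fun {z ε k} hz e => by
    have h1 := congrArg (fun w : 𝓞 K => Real.log ‖σ (w : K)‖) e
    simp only [map_pow, map_mul, map_prod, norm_pow, norm_mul, norm_prod] at h1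
    rw [Real.log_pow, Real.log_mul (norm_ne_zero_iff.2 (map_unit_ne_zero σ ε))
      (prod_ne_zero_iff.2 fun q _ => pow_ne_zero _ (hne (hπ0 q))),
      Real.log_prod fun q _ => pow_ne_zero _ (hne (hπ0 q))] at h1
    simp only [Real.log_pow] at h1
    linarith
  have hdiv : Real.log ‖σ ((εa / εb : (𝓞 K)ˣ) : K)‖ =
      Real.log ‖σ (εa : K)‖ - Real.log ‖σ (εb : K)‖ := by
    rw [← Real.log_div (norm_ne_zero_iff.2 (map_unit_ne_zero σ εa))
      (norm_ne_zero_iff.2 (map_unit_ne_zero σ εb)), ← norm_div, ← map_div₀]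
    congr 3
    rw [eq_div_iff (Units.coe_ne_zero εb), ← map_mul, ← Units.val_mul, div_mul_cancel]
  rw [hdiv, hlog ha ea, hlog hb eb]
  have h1 : |(n : ℝ) * (Real.log ‖σ (a : K)‖ - Real.log ‖σ (b : K)‖)| ≤ (H : ℝ) * R := by
    rw [abs_mul, Nat.abs_cast]
    exact mul_le_mul (Nat.cast_le.2 hn) hab (abs_nonneg _) (Nat.cast_nonneg _)
  have h2 : |∑ q, ((ka q : ℝ) - kb q) * Real.log ‖σ (π q : K)‖| ≤ (Q : ℝ) * Rπ * h := by
    refine (abs_sum_le_sum_abs _ _).trans ((sum_le_card_nsmul _ _ ((Rπ : ℝ) * h)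
      fun q _ => ?_).trans ?_)
    · rw [abs_mul, mul_comm]
      refine mul_le_mul (hπ q) ?_ (abs_nonneg _) (Nat.cast_nonneg _)
      have e1 : ((ka q : ℕ) : ℝ) ≤ h := Nat.cast_le.2 (hka q)
      have e2 : ((kb q : ℕ) : ℝ) ≤ h := Nat.cast_le.2 (hkb q)
      rw [abs_le]
      constructor <;> linarith [(Nat.cast_nonneg (ka q) : (0 : ℝ) ≤ ka q),
        (Nat.cast_nonneg (kb q) : (0 : ℝ) ≤ kb q)]
    · rw [card_univ, nsmul_eq_mul, mul_assoc (Q : ℝ)]
      exact mul_le_mul_of_nonneg_right (Nat.cast_le.2 hQ) (by positivity)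
  have e : (n : ℝ) * Real.log ‖σ (a : K)‖ - ∑ q, (ka q : ℝ) * Real.log ‖σ (π q : K)‖ -
      ((n : ℝ) * Real.log ‖σ (b : K)‖ - ∑ q, (kb q : ℝ) * Real.log ‖σ (π q : K)‖) =
      (n : ℝ) * (Real.log ‖σ (a : K)‖ - Real.log ‖σ (b : K)‖) -
        ∑ q, ((ka q : ℝ) - kb q) * Real.log ‖σ (π q : K)‖ := by
    simp only [sub_mul, sum_sub_distrib]
    ring
  rw [e]
  push_cast
  exact (abs_sub _ _).trans (add_le_add h1 h2)

section Places

variable {C : Type*} [NormedField C] [IsUltrametricDist C]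

omit [NumberField K] in
/-- The small ones among coprime numbers have equal exponents. -/
theorem prod_filter_eq {ι : Type*} [Fintype ι] {π : ι → 𝓞 K} (ψ : K →+* C)
    (hπ0 : ∀ q, π q ≠ 0) (hπ : ∀ q q', q ≠ q' → IsCoprime (π q) (π q')) {ka kb : ι → ℕ}
    (h : ‖ψ ((∏ q, π q ^ ka q : 𝓞 K) : K)‖ = ‖ψ ((∏ q, π q ^ kb q : 𝓞 K) : K)‖) :
    ∀ q, ‖ψ (π q : K)‖ < 1 → ka q = kb q := fun q hq => by
  classical
  have hone : ∀ k : ι → ℕ, ‖ψ ((∏ q, π q ^ k q : 𝓞 K) : K)‖ = ‖ψ (π q : K)‖ ^ k q := fun k => by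
    simp only [map_prod, map_pow, norm_prod, norm_pow]
    refine prod_eq_single q (fun q' _ hne => ?_) (fun h => absurd (mem_univ q) h)
    rw [le_antisymm (norm_map_le_one ψ (π q'))
      (not_lt.1 fun hlt => not_isCoprime_of_norm_lt_one ψ hlt hq (hπ q' q hne)), one_pow]
  rw [hone, hone] at h
  exact pow_right_injective₀ (norm_pos_iff.2 ((map_ne_zero ψ).2
    (RingOfIntegers.coe_ne_zero_iff.2 (hπ0 q)))) hq.ne h

set_option maxHeartbeats 1000000 in
/-- **The two powers as products**, at an embedding where they have equal size. -/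
theorem exists_forms {d e g h : ℕ} (hd : finrank ℚ K ≤ d) (he : (discr K).natAbs ≤ 2 ^ e)
    {a b : 𝓞 K} (ha : a ≠ 0) (hb : b ≠ 0) (hsa : Smooth g (Algebra.norm ℤ a).natAbs)
    (hsb : Smooth g (Algebra.norm ℤ b).natAbs) (hah : (Algebra.norm ℤ a).natAbs ≤ 2 ^ h)
    (hbh : (Algebra.norm ℤ b).natAbs ≤ 2 ^ h) (hab : ∀ σ : K →+* ℂ,
      |Real.log ‖σ (a : K)‖ - Real.log ‖σ (b : K)‖| ≤
        (EffectiveUnits.unitEquationBound d e h : ℕ))
    (ψ : K →+* C) (hψ : ‖ψ (a : K)‖ = ‖ψ (b : K)‖) :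
    ∃ (n : ℕ) (A : Fin n → 𝓞 K) (u v : Fin n → ℕ) (w : 𝓞 K), n ≤ formRank d g ∧
      (∀ i, ‖ψ (A i : K)‖ = 1) ∧
      (∀ i (σ : K →+* ℂ), ‖σ (A i : K)‖ ≤ (2 : ℝ) ^ (2 * termSize d e g)) ∧
      (∀ i, u i ≤ 2 ^ expBound d e g h) ∧ (∀ i, v i ≤ 2 ^ expBound d e g h) ∧
      a ^ classNumber K = w * ∏ i, A i ^ u i ∧ b ^ classNumber K = w * ∏ i, A i ^ v i := by
  classical
  obtain ⟨P, π, hPc, hcop, hπ0, hπlog, hfac⟩ := exists_generators (g := g) hd he
  obtain ⟨εa, ka, ea, hka⟩ := hfac a ha hsa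
  obtain ⟨εb, kb, eb, hkb⟩ := hfac b hb hsb
  have hk : ∀ {k : P → ℕ} {N : ℕ}, (∀ q, 2 ^ k q ≤ N) → N ≤ 2 ^ h → ∀ q, k q ≤ h :=
    fun hk hN q => (Nat.pow_le_pow_iff_right one_lt_two).1 ((hk q).trans hN)
  obtain ⟨us, hus, hush⟩ := UnitSystem.exists_unit_system (K := K) rfl he
  set Hu := UnitSystem.unitBound d e with hHu
  have hush' : ∀ i (σ : K →+* ℂ), |Real.log ‖σ (us i : K)‖| ≤ (Hu : ℝ) := fun i σ => by
    refine (hush i σ).trans (Nat.cast_le.2 ?_)
    simp only [hHu, UnitSystem.unitBound]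
    gcongr
    · norm_num
  set δ : (𝓞 K)ˣ := εa / εb with hδ
  obtain ⟨kU, γ, w₀, hγU, hγw, -, hγlog⟩ := EffectiveUnits.exists_reduced (h := 0) hd hus hush'
    (Units.ne_zero δ) (le_of_eq (Int.isUnit_iff_natAbs_eq.1 (δ.isUnit.map (Algebra.norm ℤ))))
  rw [Int.isUnit_iff_natAbs_eq.1 (δ.isUnit.map (Algebra.norm ℤ)), Nat.cast_one] at hγw
  set γu : (𝓞 K)ˣ := Units.mkOfMulEqOne γ w₀ hγw.symm with hγu
  have hδeq : δ = γu * unitPow us kU := Units.ext (FaithfulSMul.algebraMap_injective (𝓞 K) K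
    (by rw [Units.val_mul, map_mul]; exact hγU.symm))
  have hrank : rank K ≤ d := by
    have := EffectiveThue.rank_add_one_le (K := K) rfl
    omega
  set X₀ := 2 ^ classExp d e * EffectiveUnits.unitEquationBound d e h +
    2 ^ countExp d (g * d) * genSize d e g * h with hX₀
  set Rγ := EffectiveUnits.reducedSize d Hu 0 with hRγ
  have hkU : ∀ i, (kU i).natAbs ≤ 2 ^ expBound d e g h := fun i => by
    refine (exponent_le (injective_unitPow hus) hush' (X := X₀ + Rγ + 1) (by omega)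
      (fun σ => ?_) i).trans ?_
    · have h1 := abs_le.1 (abs_log_unit_le (σ := σ) hπ0 (fun q => hπlog q σ)
        ((Fintype.card_coe P).trans_le hPc) (hk hka hah) (hk hkb hbh) ha hb (hab σ)
        (classNumber_le hd he) ea eb)
      rw [← hX₀] at h1
      have h2 := abs_le.1 (hγlog σ)
      have h3 : Real.log ‖σ (δ : K)‖ =
          Real.log ‖σ (γ : K)‖ + Real.log ‖σ ((unitPow us kU : (𝓞 K)ˣ) : K)‖ := by
        rw [hδeq, Units.val_mul, map_mul, map_mul, norm_mul,
          Real.log_mul (norm_ne_zero_iff.2 (map_unit_ne_zero σ γu))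
            (norm_ne_zero_iff.2 (map_unit_ne_zero σ _))]
        rfl
      rw [abs_le, Nat.cast_add, Nat.cast_add]
      push_cast at h1 h2 ⊢
      rw [hδ] at h3
      constructor <;> linarith
    · rw [expBound, ← hHu, pow_add]
      refine Nat.mul_le_mul ?_ (Nat.pow_le_pow_right two_pos ?_)
      · refine le_trans (le_trans ?_ (Nat.le_add_right _ h))
          (Nat.lt_pow_succ_log_self one_lt_two _).le
        rw [partSize, ← hX₀, ← hRγ]
      · exact Nat.mul_le_mul (Nat.mul_le_mul_left 2 hd)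
          (by have := Nat.mul_le_mul_right Hu hrank; omega)
  -- the numbers
  set good : P → Prop := fun q => ‖ψ (π q : K)‖ = 1 with hgood
  let ι := Unit ⊕ (Fin (rank K) ⊕ P)
  let A₀ : ι → 𝓞 K := Sum.elim (fun _ => γ)
    (Sum.elim (fun i => (us i : 𝓞 K)) fun q => if good q then π q else 1)
  let u₀ : ι → ℕ := Sum.elim (fun _ => 1) (Sum.elim (fun i => (kU i).toNat) ka)
  let v₀ : ι → ℕ := Sum.elim (fun _ => 0) (Sum.elim (fun i => (-kU i).toNat) kb)
  let eqv := (Fintype.equivFin ι).symm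
  set Pb := ∏ q, (if good q then 1 else π q) ^ ka q with hPb
  have hnorm : ‖ψ ((∏ q, π q ^ ka q : 𝓞 K) : K)‖ = ‖ψ ((∏ q, π q ^ kb q : 𝓞 K) : K)‖ := by
    have h1 := congrArg (fun z : 𝓞 K => ‖ψ (z : K)‖) ea
    have h2 := congrArg (fun z : 𝓞 K => ‖ψ (z : K)‖) eb
    simp only [map_pow, map_mul, norm_pow, norm_mul, norm_map_unit, one_mul] at h1 h2
    rw [← h1, ← h2, hψ]
  have hbad : Pb = ∏ q, (if good q then 1 else π q) ^ kb q := prod_congr rfl fun q _ => by
    by_cases hq : good q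
    · simp [hq]
    · rw [prod_filter_eq ψ hπ0 hcop hnorm q (lt_of_le_of_ne (norm_map_le_one ψ _) hq)]
  have hsplit : ∀ k : P → ℕ, ∏ q, π q ^ k q =
      (∏ q, (if good q then 1 else π q) ^ k q) * ∏ q, (if good q then π q else 1) ^ k q :=
      fun k => by
    rw [← prod_mul_distrib]
    refine prod_congr rfl fun q _ => ?_
    split_ifs <;> simp
  set up : (𝓞 K)ˣ := ∏ i, us i ^ (kU i).toNat with hup
  set un : (𝓞 K)ˣ := ∏ i, us i ^ (-kU i).toNat with hun
  have hupn : unitPow us kU * un = up := by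
    rw [unitPow, hun, hup, ← prod_mul_distrib]
    refine prod_congr rfl fun i _ => ?_
    rw [← zpow_natCast, ← zpow_natCast, ← zpow_add]
    congr 1
    omega
  refine ⟨Fintype.card ι, fun i => A₀ (eqv i), fun i => u₀ (eqv i), fun i => v₀ (eqv i),
    ((εb / un : (𝓞 K)ˣ) : 𝓞 K) * Pb, ?_, fun i => ?_, fun i σ => ?_, fun i => ?_, fun i => ?_,
    ?_, ?_⟩
  · simp only [ι, Fintype.card_sum, Fintype.card_unit, Fintype.card_fin, Fintype.card_coe,
      formRank]
    omega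
  · refine (?_ : ∀ x : ι, ‖ψ (A₀ x : K)‖ = 1) (eqv i)
    rintro (x | x | q)
    · exact norm_map_unit ψ γu
    · exact norm_map_unit ψ (us x)
    · simp only [A₀, Sum.elim_inr]
      split_ifs with hq
      · exact hq
      · simp
  · have hle : ∀ {z : 𝓞 K} {R : ℕ}, z ≠ 0 → |Real.log ‖σ (z : K)‖| ≤ (R : ℝ) →
        R ≤ termSize d e g → ‖σ (z : K)‖ ≤ (2 : ℝ) ^ (2 * termSize d e g) := fun hz hR hRt =>
      (EffectiveThue.le_two_pow_of_abs_log_le (norm_pos_iff.2 ((map_ne_zero σ).2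
        (RingOfIntegers.coe_ne_zero_iff.2 hz))) hR).trans
        (pow_le_pow_right₀ one_le_two (by omega))
    refine (?_ : ∀ x : ι, ‖σ (A₀ x : K)‖ ≤ (2 : ℝ) ^ (2 * termSize d e g)) (eqv i)
    rintro (x | x | q)
    · exact hle (Units.ne_zero γu) (hγlog σ) (by rw [termSize, ← hHu, ← hRγ]; omega)
    · exact hle (Units.ne_zero (us x)) (hush' x σ) (by rw [termSize, ← hHu]; omega)
    · simp only [A₀, Sum.elim_inr]
      split_ifs with hq
      · exact hle (hπ0 q) (hπlog q σ) (by rw [termSize]; omega)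
      · simpa using one_le_pow₀ (M₀ := ℝ) one_le_two
  · have hh : h ≤ 2 ^ expBound d e g h := by
      refine le_trans ?_ (Nat.pow_le_pow_right two_pos (Nat.le_add_right _ _))
      exact (Nat.le_add_left h _).trans (Nat.lt_pow_succ_log_self one_lt_two _).le
    refine (?_ : ∀ x : ι, u₀ x ≤ 2 ^ expBound d e g h) (eqv i)
    rintro (x | x | q)
    · exact Nat.one_le_two_pow
    · exact le_trans (by simp only [u₀, Sum.elim_inr, Sum.elim_inl]; omega) (hkU x)
    · exact (hk hka hah q).trans hh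
  · have hh : h ≤ 2 ^ expBound d e g h := by
      refine le_trans ?_ (Nat.pow_le_pow_right two_pos (Nat.le_add_right _ _))
      exact (Nat.le_add_left h _).trans (Nat.lt_pow_succ_log_self one_lt_two _).le
    refine (?_ : ∀ x : ι, v₀ x ≤ 2 ^ expBound d e g h) (eqv i)
    rintro (x | x | q)
    · exact Nat.zero_le _
    · exact le_trans (by simp only [v₀, Sum.elim_inr, Sum.elim_inl]; omega) (hkU x)
    · exact (hk hkb hbh q).trans hh
  · have h1 : εa = εb / un * (γu * up) := by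
      rw [← hupn, ← mul_assoc γu, ← hδeq, hδ]
      rw [mul_comm (εa / εb) un, ← mul_assoc, div_mul_cancel, mul_div_cancel]
    rw [ea, hsplit ka, eqv.prod_comp (fun x => A₀ x ^ u₀ x), Fintype.prod_sum_type,
      Fintype.prod_sum_type, h1]
    simp only [A₀, u₀, Sum.elim_inl, Sum.elim_inr, Fintype.prod_unique, pow_one,
      hup, Units.val_mul, Units.coe_prod, Units.val_pow_eq_pow_val]
    simp only [hPb, hγu, Units.val_mkOfMulEqOne]
    ring
  · rw [eb, hsplit kb, eqv.prod_comp (fun x => A₀ x ^ v₀ x), Fintype.prod_sum_type,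
      Fintype.prod_sum_type, ← hbad]
    simp only [A₀, v₀, Sum.elim_inl, Sum.elim_inr, Fintype.prod_unique, pow_zero,
      one_mul]
    have h1 : ((εb / un : (𝓞 K)ˣ) : 𝓞 K) * ∏ i, (us i : 𝓞 K) ^ (-kU i).toNat = εb := by
      simp only [← Units.val_pow_eq_pow_val, ← Units.coe_prod, ← hun, ← Units.val_mul,
        div_mul_cancel]
    rw [← h1]
    ring

end Places

section Padic

variable {p : ℕ} [hp : Fact p.Prime] {C : Type*} [NontriviallyNormedField C] [CompleteSpace C]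
  [IsUltrametricDist C] [hC : NormedAlgebra ℚ_[p] C] [CharZero C]

omit [CharZero C] in
include hp hC in
/-- **The exponent of `p` in `a + b` at an embedding**, if `a` and `b` are not both small there. -/
theorem place_bound {d e g G h : ℕ} (hd : finrank ℚ K ≤ d) (he : (discr K).natAbs ≤ 2 ^ e)
    {a b c : 𝓞 K} (ha : a ≠ 0) (hb : b ≠ 0) (hc : c ≠ 0) (habc : a + b + c = 0)
    (hsa : Smooth g (Algebra.norm ℤ a).natAbs) (hsb : Smooth g (Algebra.norm ℤ b).natAbs)
    (hah : (Algebra.norm ℤ a).natAbs ≤ 2 ^ h) (hbh : (Algebra.norm ℤ b).natAbs ≤ 2 ^ h)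
    (hch : (Algebra.norm ℤ c).natAbs ≤ 2 ^ h) {g₀ : ℕ} (hg₀ : 0 < g₀) (hg₀G : g₀ ≤ 2 ^ G)
    {x y : 𝓞 K} (hxy : (g₀ : 𝓞 K) = x * a + y * b) (hpg : p ≤ 2 ^ g) (ψ : K →+* C) {M : ℕ}
    (hM : ‖ψ (c : K)‖ ≤ ((p : ℝ) ^ M)⁻¹) : M ≤ placeBound d e g G h := by
  have := charZero_of_padic p (C := C)
  have hp1 : (1 : ℝ) < p := one_lt_prime p
  have hp0 : (0 : ℝ) < p := prime_pos p
  have hne : ∀ {z : 𝓞 K}, z ≠ 0 → ψ (z : K) ≠ 0 := fun hz =>
    (map_ne_zero ψ).2 (RingOfIntegers.coe_ne_zero_iff.2 hz)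
  rcases Nat.lt_or_ge G M with hGM | hGM
  swap
  · exact hGM.trans (by rw [placeBound, mul_add, mul_one]; omega)
  have hlt : ((p : ℝ) ^ M)⁻¹ < ((p : ℝ) ^ G)⁻¹ :=
    inv_strictAnti₀ (pow_pos hp0 G) (pow_lt_pow_right₀ hp1 hGM)
  have hgG : ((p : ℝ) ^ G)⁻¹ ≤ max ‖ψ (a : K)‖ ‖ψ (b : K)‖ := by
    have h1 : ((p : ℝ) ^ G)⁻¹ ≤ ‖ψ ((g₀ : 𝓞 K) : K)‖ := by
      simp only [map_natCast]
      refine le_trans (inv_anti₀ (by exact_mod_cast hg₀) ?_) (inv_natCast_le_norm p hg₀.ne')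
      exact_mod_cast hg₀G.trans (Nat.pow_le_pow_left hp.out.two_le G)
    refine h1.trans ?_
    rw [hxy]
    simp only [map_add, map_mul]
    refine (IsUltrametricDist.norm_add_le_max _ _).trans (max_le_max ?_ ?_) <;> rw [norm_mul] <;>
      exact mul_le_of_le_one_left (norm_nonneg _) (norm_map_le_one ψ _)
  have hsum : ψ (c : K) = -(ψ (a : K) + ψ (b : K)) := by
    have h1 := congrArg (fun z : 𝓞 K => ψ (z : K)) habc
    simp only [map_add, map_zero] at h1
    linear_combination h1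
  have heq : ‖ψ (a : K)‖ = ‖ψ (b : K)‖ := by_contra fun hne' => by
    have h1 := IsUltrametricDist.norm_add_eq_max_of_norm_ne_norm hne'
    rw [hsum, norm_neg, h1] at hM
    linarith
  rw [heq, max_self] at hgG
  -- the ratios
  set R := EffectiveUnits.unitEquationBound d e h
  have hR : ∀ σ : K →+* ℂ, |Real.log ‖σ (a : K)‖ - Real.log ‖σ (b : K)‖| ≤ (R : ℝ) := fun σ => by
    have key : ∀ {z w : 𝓞 K}, z ≠ 0 → w ≠ 0 → ‖σ (z : K)‖ ≤ (2 : ℝ) ^ R * ‖σ (w : K)‖ →
        Real.log ‖σ (z : K)‖ ≤ (R : ℝ) + Real.log ‖σ (w : K)‖ := fun hz hw hle => by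
      have hz' := norm_pos_iff.2 ((map_ne_zero σ).2 (RingOfIntegers.coe_ne_zero_iff.2 hz))
      have hw' := norm_pos_iff.2 ((map_ne_zero σ).2 (RingOfIntegers.coe_ne_zero_iff.2 hw))
      refine (Real.log_le_log hz' hle).trans ?_
      rw [Real.log_mul (by positivity) hw'.ne', Real.log_pow]
      have : (R : ℝ) * Real.log 2 ≤ R :=
        mul_le_of_le_one_right (Nat.cast_nonneg _) (Real.log_two_lt_d9.le.trans (by norm_num))
      linarith
    have h1 := key ha hb (EffectiveUnits.equation_ratio_le hd he ha hb hc habc hah hbh hch σ)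
    have h2 := key hb ha (EffectiveUnits.equation_ratio_le hd he hb ha hc
      (by rw [← habc]; ring) hbh hah hch σ)
    rw [abs_sub_le_iff]
    constructor <;> linarith
  obtain ⟨n, A, u, v, w, hn, hA1, hAsize, hu, hv, hwa, hwb⟩ :=
    exists_forms hd he ha hb hsa hsb hah hbh hR ψ heq
  obtain ⟨N, hN1, hNp, hN⟩ := exists_exponent (p := p) hd ψ
  set H := classNumber K with hH
  have hNpow : 2 * N ≤ powBound d g := by
    rw [powBound, pow_succ']
    refine Nat.mul_le_mul_left 2 (hNp.trans ?_)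
    rw [show 3 * (g * d) = g * (3 * d) by ring, pow_mul 2 g]
    exact Nat.pow_le_pow_left hpg _
  set A' : Fin n → 𝓞 K := fun i => A i ^ (2 * N) with hA'
  set t := H * (2 * N) with ht
  have htle : t ≤ 2 ^ classExp d e * powBound d g :=
    Nat.mul_le_mul (classNumber_le hd he) hNpow
  have hpow : ∀ {z : 𝓞 K} {k : Fin n → ℕ}, z ^ H = w * ∏ i, A i ^ k i →
      z ^ t = w ^ (2 * N) * ∏ i, A' i ^ k i := fun {z k} e => by
    rw [ht, pow_mul, e, mul_pow, ← prod_pow]
    simp only [hA', ← pow_mul, mul_comm]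
  have hta := hpow hwa
  have htb := hpow hwb
  by_cases hne2 : a ^ t = b ^ t
  · -- a root of unity
    have hbK : (b : K) ≠ 0 := RingOfIntegers.coe_ne_zero_iff.2 hb
    have hz : ((a : K) / b) ^ t = 1 := by
      rw [div_pow, div_eq_one_iff_eq (pow_ne_zero _ hbK), ← map_pow, ← map_pow, hne2]
    have ht0 : 0 < t := Nat.mul_pos Fintype.card_pos (by omega)
    have hint : IsIntegral ℤ ((a : K) / b) :=
      IsIntegral.of_pow ht0 (by rw [hz]; exact isIntegral_one)
    set z : 𝓞 K := ⟨(a : K) / b, hint⟩ with hzdef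
    have hcz : c = -b * (1 + z) := by
      refine FaithfulSMul.algebraMap_injective (𝓞 K) K ?_
      simp only [map_mul, map_neg, map_add, map_one]
      rw [show algebraMap (𝓞 K) K z = (a : K) / b from rfl]
      have h1 := congrArg (fun z : 𝓞 K => (z : K)) habc
      simp only [map_add, map_zero] at h1
      field_simp
      linear_combination h1
    have h1z : ∀ σ : K →+* ℂ, ‖σ ((1 + z : 𝓞 K) : K)‖ ≤ (2 : ℝ) ^ 1 := fun σ => by
      simp only [map_add, map_one]
      rw [show algebraMap (𝓞 K) K z = (a : K) / b from rfl]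
      have h2 : ‖σ ((a : K) / b)‖ = 1 := by
        refine (pow_eq_one_iff_of_nonneg (norm_nonneg _) ht0.ne').1 ?_
        rw [← norm_pow, ← map_pow, hz, map_one, norm_one]
      linarith [norm_add_le (1 : ℂ) (σ ((a : K) / b)), norm_one (α := ℂ)]
    have h1 := inv_pow_le_norm_map (p := p) hd ψ (right_ne_zero_of_mul (hcz ▸ hc)) h1z
    rw [hcz] at hM
    simp only [map_mul, map_neg, norm_mul, norm_neg] at hM
    have h2 := (mul_le_mul hgG h1 (by positivity) (norm_nonneg _)).trans hM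
    rw [← mul_inv, ← pow_add, inv_le_inv₀ (pow_pos hp0 _) (pow_pos hp0 _)] at h2
    exact ((pow_le_pow_iff_right₀ hp1).1 h2).trans (by rw [placeBound, mul_add, mul_one]; omega)
  -- Baker
  have hXY : ∏ i, A' i ^ u i ≠ ∏ i, A' i ^ v i := fun e => hne2 (by rw [hta, htb, e])
  have hdvd : c ∣ a ^ t - b ^ t := by
    have h1 : a + b ∣ a ^ 2 - b ^ 2 := ⟨a - b, by ring⟩
    rw [ht, mul_left_comm, pow_mul a 2, pow_mul b 2,
      show c = -(a + b) by linear_combination habc, neg_dvd]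
    exact h1.trans (sub_dvd_pow_sub_pow _ _ _)
  have hsmall := (norm_map_le_of_dvd ψ hdvd).trans hM
  rw [hta, htb, ← mul_sub] at hsmall
  simp only [map_mul, norm_mul, map_sub] at hsmall
  have hwt : ((p : ℝ) ^ (G * t))⁻¹ ≤ ‖ψ ((w ^ (2 * N) : 𝓞 K) : K)‖ := by
    have h1 := congrArg (fun z : 𝓞 K => ‖ψ (z : K)‖) htb
    simp only [map_pow, map_mul, map_prod, hA', norm_pow, norm_mul, norm_prod, hA1, one_pow,
      prod_const_one, mul_one] at h1
    simp only [map_pow, norm_pow]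
    rw [← h1, pow_mul, ← inv_pow]
    exact pow_le_pow_left₀ (by positivity) hgG _
  rcases Nat.lt_or_ge M (G * t) with hMt | hMt
  · exact hMt.le.trans ((Nat.mul_le_mul_left G htle).trans
      (by rw [placeBound, mul_add, mul_one]; omega))
  have hXYsmall : ‖ψ ((∏ i, A' i ^ u i : 𝓞 K) : K) - ψ ((∏ i, A' i ^ v i : 𝓞 K) : K)‖ ≤
      ((p : ℝ) ^ (M - G * t))⁻¹ := by
    have h1 := le_trans (mul_le_mul_of_nonneg_right hwt (norm_nonneg _)) hsmall
    rw [inv_mul_le_iff₀ (pow_pos hp0 _)] at h1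
    refine h1.trans (le_of_eq ?_)
    conv_lhs => rw [show M = G * t + (M - G * t) by omega, pow_add, mul_inv, ← mul_assoc,
      mul_inv_cancel₀ (pow_pos hp0 _).ne', one_mul]
  have hA'1 : ∀ i, ‖ψ (A' i : K) - 1‖ ≤ rad p := fun i => by
    have h1 := hN (A i ^ 2) (by simp only [map_pow, norm_pow, hA1, one_pow])
    simp only [hA', pow_mul, map_pow] at h1 ⊢
    exact h1
  have hA'h : ∀ i (σ : K →+* ℂ),
      ‖σ (A' i : K)‖ ≤ (2 : ℝ) ^ (powBound d g * (2 * termSize d e g)) := fun i σ => by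
    simp only [hA', map_pow, norm_pow]
    refine (pow_le_pow_left₀ (norm_nonneg _) (hAsize i σ) _).trans ?_
    rw [← pow_mul, mul_comm (powBound d g)]
    exact pow_le_pow_right₀ one_le_two (Nat.mul_le_mul_left _ hNpow)
  have hB := PadicAlgebraic.padic_baker_algebraic_bound (p := p) hd ψ (A := A')
    (h := powBound d g * (2 * termSize d e g))
    (Nat.mul_pos (Nat.two_pow_pos _) (Nat.mul_pos two_pos (Nat.succ_pos _))) hA'h hA'1 hXY hu hv
    hXYsmall
  have hmono : baseAlg n d (powBound d g * (2 * termSize d e g)) (expBound d e g h) ^ kappa n ≤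
      baseAlg (formRank d g) d (powBound d g * (2 * termSize d e g)) (expBound d e g h) ^
        kappa (formRank d g) :=
    (Nat.pow_le_pow_left (EffectiveThue.baseAlg_mono hn) _).trans (Nat.pow_le_pow_right
      (Nat.mul_pos (Nat.mul_pos (Nat.two_pow_pos _) (le_trans finrank_pos hd))
        (by simp only [expBound]; omega)) (EffectiveThue.kappa_mono hn))
  have hGt := Nat.mul_le_mul_left G htle
  rw [placeBound, mul_add, mul_one]
  omega

end Padic

end FA.BakerExplicit.EffectiveSUnits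

end
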