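import Fermat.Agent.Transcendence.BakerSchwarz

/-!
# An explicit Schwarz lemma

An entire function bounded by `B` on `‖z‖ ≤ 16 ρ` whose first `T` derivatives at `0, …, m - 1`
are below `ε` is at most `B / 4 ^ (m T)` on `‖z‖ ≤ ρ`, up to an explicit multiple of `ε`.
-/

set_option autoImplicit false

noncomputable section

namespace FA.BakerExplicit

open Finset Metric FA.BakerTheorem
open scoped Nat

/-- **The Schwarz lemma with explicit constants.** -/
theorem norm_le_schwarz {f : ℂ → ℂ} (hf : Differentiable ℂ f) {m T : ℕ} {ρ ε B : ℝ}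
    (hm : (m : ℝ) ≤ ρ) (hρ : 1 ≤ ρ) (hε : 0 ≤ ε)
    (hsmall : ∀ l < m, ∀ k < T, ‖iteratedDeriv k f (l : ℂ)‖ ≤ k ! * ε)
    (hB : ∀ z : ℂ, ‖z‖ ≤ 16 * ρ → ‖f z‖ ≤ B) {x : ℂ} (hx : ‖x‖ ≤ ρ) :
    ‖f x‖ ≤ 2 * (ε * (m * (16 * 2 ^ m) ^ T) * (17 * ρ) ^ ((m + 1) * T)) + B / 4 ^ (m * T) := by
  classical
  set I := ε * (m * (16 * 2 ^ m) ^ T) * (17 * ρ) ^ ((m + 1) * T)
  have hρ0 : 0 < ρ := one_pos.trans_le hρ
  have hI0 : 0 ≤ I := by positivity
  have hint : ∀ z : ℂ, ‖z‖ ≤ 16 * ρ → ‖interpolant f m T z‖ ≤ I := fun z hz =>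
    norm_interpolant_le hε (by linarith) (by linarith) hsmall
  obtain ⟨G, hG, hfac⟩ := GelfondSchneider.exists_factor
    ((Finset.range m).image (Nat.cast : ℕ → ℂ))
    (hf.sub (differentiable_interpolant f m T))
    (r := T) fun a ha => by
      obtain ⟨l, hl, rfl⟩ := Finset.mem_image.mp ha
      exact order_sub_interpolant hf (Finset.mem_range.mp hl)
  simp only [Finset.prod_image Nat.cast_injective.injOn] at hfac
  have hnode : ∀ l ∈ range m, ‖((l : ℕ) : ℂ)‖ ≤ ρ := fun l hl => by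
    rw [Complex.norm_natCast]
    exact le_trans (by exact_mod_cast (Finset.mem_range.mp hl).le) hm
  have hGb : ‖G x‖ ≤ (B + I) / (8 * ρ) ^ (m * T) := by
    refine Complex.norm_le_of_forall_mem_frontier_norm_le (U := ball (0 : ℂ) (16 * ρ))
      isBounded_ball hG.diffContOnCl (fun w hw => ?_) ?_
    · rw [frontier_ball _ (by positivity : (16 * ρ : ℝ) ≠ 0), mem_sphere_zero_iff_norm] at hw
      have hP : (8 * ρ) ^ (m * T) ≤ ‖∏ l ∈ range m, (w - (l : ℂ)) ^ T‖ := by
        rw [norm_prod, mul_comm m T, pow_mul]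
        conv_lhs => rw [← card_range m, ← prod_const]
        refine prod_le_prod (fun l _ => by positivity) fun l hl => ?_
        rw [norm_pow]
        refine pow_le_pow_left₀ (by positivity) ?_ T
        have h1 := norm_sub_norm_le w (l : ℂ)
        have h2 := hnode l hl
        linarith
      rw [le_div_iff₀ (by positivity), mul_comm]
      refine (mul_le_mul_of_nonneg_right hP (norm_nonneg _)).trans ?_
      rw [← norm_mul, ← hfac w]
      exact (norm_sub_le _ _).trans (add_le_add (hB w hw.le) (hint w hw.le))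
    · rw [closure_ball _ (by positivity : (16 * ρ : ℝ) ≠ 0), mem_closedBall_zero_iff]; linarith
  have hPx : ‖∏ l ∈ range m, (x - (l : ℂ)) ^ T‖ ≤ (2 * ρ) ^ (m * T) := by
    rw [norm_prod, mul_comm m T, pow_mul]
    refine ((prod_le_prod (g := fun _ => (2 * ρ) ^ T) (fun l _ => by positivity)
      fun l hl => ?_).trans_eq (prod_const _)).trans_eq (by rw [card_range])
    rw [norm_pow]
    refine pow_le_pow_left₀ (norm_nonneg _) ((norm_sub_le _ _).trans ?_) T
    have := hnode l hl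
    linarith
  have e : f x = interpolant f m T x + (∏ l ∈ range m, (x - (l : ℂ)) ^ T) * G x := by
    rw [← hfac x, Pi.sub_apply]; ring
  rw [e]
  refine (norm_add_le _ _).trans ?_
  rw [norm_mul]
  refine (add_le_add (hint x (by linarith))
    (mul_le_mul hPx hGb (norm_nonneg _) (by positivity))).trans ?_
  have hratio : (2 * ρ) ^ (m * T) * ((B + I) / (8 * ρ) ^ (m * T)) = (B + I) / 4 ^ (m * T) := by
    rw [show 8 * ρ = 4 * (2 * ρ) by ring, mul_pow (4 : ℝ)]
    field_simp
  rw [hratio, add_div, two_mul]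
  have h4 : I / 4 ^ (m * T) ≤ I := div_le_self hI0 (one_le_pow₀ (by norm_num))
  linarith

end FA.BakerExplicit

end
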