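import Fermat.Agent.BakerExplicit.ReductionTest

/-!
# Shafarevich's classification by an algorithm

For `g ≥ 2` the search returns exactly one short model in every isomorphism class of elliptic
curves over `ℚ` with good reduction above `2 ^ g`, so their number is a computable function of `g`.
-/

set_option autoImplicit false

noncomputable section

namespace FA.BakerExplicit.Algorithms

open WeierstrassCurve PrimrecBounds SIntegralPoints

/-- The models in the box with good reduction above `2 ^ g`. -/
def goodModels (g : ℕ) : List (ℤ × ℤ) :=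
  (intBox (shafarevichBound g)).filter fun t => decide (GoodAbove t g)

theorem primrec_goodModels : Primrec goodModels :=
  (PrimrecRel.listFilter goodAbove_rel).comp
    (primrec_intBox.comp (PrimrecBounds.shafarevichBound Primrec.id)) Primrec.id

theorem mem_goodModels {g : ℕ} {t : ℤ × ℤ} :
    t ∈ goodModels g ↔ t ∈ intBox (shafarevichBound g) ∧ GoodAbove t g := by
  simp [goodModels]

/-- A model before `t` which is isomorphic to it. -/
def Earlier (s t : ℤ × ℤ) : Prop :=
  Encodable.encode s < Encodable.encode t ∧ Isomorphic s t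

instance : DecidableRel Earlier := fun s t => by unfold Earlier; infer_instance

theorem earlier_rel : PrimrecRel Earlier :=
  (Primrec.nat_lt.comp (Primrec.encode.comp Primrec.fst)
    (Primrec.encode.comp Primrec.snd)).and isomorphic_rel

/-- The first model of each class in a list. -/
def First (t : ℤ × ℤ) (L : List (ℤ × ℤ)) : Prop := ¬∃ s ∈ L, Earlier s t

instance : DecidableRel First := fun t L => by unfold First; infer_instance

theorem first_rel : PrimrecRel First :=
  ((earlier_rel.exists_mem_list).comp Primrec.snd Primrec.fst).not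

/-- **One model in each isomorphism class.** -/
def shafarevichRepresentatives (g : ℕ) : List (ℤ × ℤ) :=
  (goodModels g).filter fun t => decide (First t (goodModels g))

theorem primrec_shafarevichRepresentatives : Primrec shafarevichRepresentatives :=
  (PrimrecRel.listFilter first_rel).comp primrec_goodModels primrec_goodModels

theorem nodup_intBox (T : ℕ) : (intBox T).Nodup :=
  List.Nodup.map (Denumerable.eqv (ℤ × ℤ)).symm.injective List.nodup_range

theorem nodup_representatives (g : ℕ) : (shafarevichRepresentatives g).Nodup :=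
  ((nodup_intBox _).filter _).filter _

theorem mem_representatives {g : ℕ} {t : ℤ × ℤ} :
    t ∈ shafarevichRepresentatives g ↔ t ∈ goodModels g ∧ First t (goodModels g) := by
  unfold shafarevichRepresentatives
  rw [List.mem_filter, decide_eq_true_eq]

theorem representative_good {g : ℕ} (hg : 2 ≤ g) {t : ℤ × ℤ}
    (ht : t ∈ shafarevichRepresentatives g) :
    (shortCurve t).IsElliptic ∧ GoodReductionAbove (shortCurve t) g := by
  have h := (goodAbove_iff hg t).1 (mem_goodModels.1 (mem_representatives.1 ht).1).2
  exact ⟨isElliptic_shortCurve h.1, h.2⟩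

/-- **Exactly one representative for each curve.** -/
theorem existsUnique_representative {g : ℕ} (hg : 2 ≤ g) (E : WeierstrassCurve ℚ) [E.IsElliptic]
    (hE : GoodReductionAbove E g) :
    ∃! t : ℤ × ℤ, t ∈ shafarevichRepresentatives g ∧
      ∃ C : VariableChange ℚ, C • E = shortCurve t := by
  classical
  have hdisc : ∀ {t : ℤ × ℤ}, t ∈ goodModels g → shortDisc t ≠ 0 := fun ht =>
    (mem_goodModels.1 ht).2.1
  have hiso : ∀ {s t : ℤ × ℤ} {C C' : VariableChange ℚ}, t ∈ goodModels g →
      C • E = shortCurve s → C' • E = shortCurve t → Isomorphic s t :=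
    fun {s t C C'} ht hs ht' =>
      (isomorphic_iff (hdisc ht)).2 ⟨C' * C⁻¹, by rw [← hs, mul_smul, inv_smul_smul, ht']⟩
  obtain ⟨C₀, A, B, hC₀, hA, hB⟩ := effective_shafarevich E hE
  have h0 : shortDisc (A, B) ≠ 0 := discriminant_ne_zero _ hC₀
  have hS : ∃ N, ∃ t ∈ goodModels g, Encodable.encode t = N ∧
      ∃ C : VariableChange ℚ, C • E = shortCurve t := by
    refine ⟨_, (A, B), mem_goodModels.2 ⟨mem_intBox (QuarticValues.natAbs_le_two_pow hA)
      (QuarticValues.natAbs_le_two_pow hB), (goodAbove_iff hg _).2 ⟨h0, ?_⟩⟩, rfl, C₀, hC₀⟩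
    rw [show shortCurve (A, B) = C₀ • E from hC₀.symm]
    exact hE.smul C₀
  obtain ⟨t, ht, hN, C, hC⟩ := Nat.find_spec hS
  have hfirst : t ∈ shafarevichRepresentatives g := by
    refine mem_representatives.2 ⟨ht, ?_⟩
    rintro ⟨s, hs, hlt, hst⟩
    obtain ⟨D, hD⟩ := (isomorphic_iff (hdisc ht)).1 hst
    refine Nat.find_min hS (hN ▸ hlt) ⟨s, hs, rfl, D⁻¹ * C, ?_⟩
    rw [mul_smul, hC, ← hD, inv_smul_smul]
  refine ⟨t, ⟨hfirst, C, hC⟩, ?_⟩
  rintro s ⟨hs, C', hC'⟩
  obtain ⟨hsM, hsF⟩ := mem_representatives.1 hs
  have htF := (mem_representatives.1 hfirst).2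
  rcases lt_trichotomy (Encodable.encode s) (Encodable.encode t) with h | h | h
  · exact absurd ⟨s, hsM, h, hiso ht hC' hC⟩ htF
  · exact Encodable.encode_injective h
  · exact absurd ⟨t, ht, h, hiso hsM hC hC'⟩ hsF

/-- The elliptic curves over `ℚ` with good reduction above `2 ^ g`. -/
abbrev GoodCurve (g : ℕ) : Type :=
  { E : WeierstrassCurve ℚ // E.IsElliptic ∧ GoodReductionAbove E g }

/-- Isomorphism over `ℚ`. -/
def classSetoid (g : ℕ) : Setoid (GoodCurve g) where
  r E E' := ∃ C : VariableChange ℚ, C • E.1 = E'.1
  iseqv :=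
    { refl := fun E => ⟨1, one_smul _ _⟩
      symm := fun {E E'} h => by
        obtain ⟨C, hC⟩ := h
        exact ⟨C⁻¹, by rw [← hC, inv_smul_smul]⟩
      trans := fun {E E' E''} h h' => by
        obtain ⟨C, hC⟩ := h
        obtain ⟨D, hD⟩ := h'
        exact ⟨D * C, by rw [mul_smul, hC, hD]⟩ }

/-- **The number of isomorphism classes** of elliptic curves with good reduction above `2 ^ g`. -/
def shafarevichClassCount (g : ℕ) : ℕ := Nat.card (Quotient (classSetoid g))

theorem classCount_eq_length {g : ℕ} (hg : 2 ≤ g) :
    shafarevichClassCount g = (shafarevichRepresentatives g).length := by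
  classical
  have e : Nat.card { t // t ∈ shafarevichRepresentatives g } =
      (shafarevichRepresentatives g).length := by
    rw [Nat.card_congr (List.Nodup.getEquiv _ (nodup_representatives g)).symm, Nat.card_fin]
  rw [shafarevichClassCount, ← e]
  refine (Nat.card_congr (Equiv.ofBijective
    (fun t => Quotient.mk (classSetoid g) ⟨shortCurve t.1, representative_good hg t.2⟩)
    ⟨fun t s h => ?_, fun q => ?_⟩)).symm
  · obtain ⟨C, hC⟩ := Quotient.exact h
    have hs := representative_good hg s.2
    have := hs.1
    exact Subtype.ext ((existsUnique_representative hg (shortCurve s.1) hs.2).unique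
      ⟨t.2, C⁻¹, by simp only at hC; rw [← hC, inv_smul_smul]⟩ ⟨s.2, 1, one_smul _ _⟩)
  · obtain ⟨⟨E, hEl, hE⟩, rfl⟩ := Quotient.exists_rep q
    obtain ⟨t, ⟨ht, C, hC⟩, -⟩ := existsUnique_representative hg E hE
    exact ⟨⟨t, ht⟩, Quotient.sound ⟨C⁻¹, (inv_smul_eq_iff).2 hC.symm⟩⟩

/-- **The number of classes is computable.** Two values are constants of the program. -/
theorem primrec_shafarevichClassCount : Primrec shafarevichClassCount := by
  refine (Primrec.ite (Primrec.eq.comp Primrec.id (num 0)) (num (shafarevichClassCount 0))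
    (Primrec.ite (Primrec.eq.comp Primrec.id (num 1)) (num (shafarevichClassCount 1))
      (Primrec.list_length.comp primrec_shafarevichRepresentatives))).of_eq fun g => ?_
  simp only [id]
  split_ifs with h0 h1
  · rw [h0]
  · rw [h1]
  · exact (classCount_eq_length (by omega)).symm

end FA.BakerExplicit.Algorithms

end
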