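import Fermat.Agent.BakerExplicit.CircleSums
import Fermat.Agent.BakerExplicit.QuaternaryRecurrence

/-!
# The sign of a combination of at most four powers

Let `n = n₀ + M k`. A real combination `∑ g ^ k ∑ b (g, j) (n choose j)`, at most four independent
numbers `g` closed under complex conjugation, is either nonnegative from an explicit index on or
negative somewhere in every window of explicit length from there. Baker's theorem is needed only
when the largest terms have sum `R ^ k (c + 2 re (a z ^ k))` with `c = 2 |a|`.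
-/

set_option autoImplicit false

noncomputable section

namespace FA.BakerExplicit.Positivity

open Finset NumberField Module TernaryRecurrence FourTerms ComplexConjugate

variable {K : Type*} [Field K] [NumberField K]

/-- The exponent of the least size of the main term. -/
def mainLoss (d H : ℕ) : ℕ := (2 * H + 3) * d + H + 4

/-- The exponent of the least distance from `1`. -/
def unitLoss (d H : ℕ) : ℕ := (H + 1) * d + H + 1

/-- The number of powers of which two are close. -/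
def stepCount (d H : ℕ) : ℕ := (2 * 2 ^ ((2 * H + 3) * d + 2 * H + 6) + 1) ^ 2

/-- The length of a window with a negative term. -/
def signWindow (d H : ℕ) : ℕ :=
  2 ^ (2 * H + 2 * (H * d) + unitLoss d H + 8) +
    stepCount d H * (8 * 2 ^ ((H * stepCount d H + 1) * d + H * stepCount d H + 1))

/-- The coefficient of `log` in the smallness of the other terms. -/
def signRoom (d H M : ℕ) : ℕ := mainLoss d H + quadLoss d H + H + 3 * (M + 5) + 5

/-- The index from which the sign is decided. -/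
def signStart (d H M : ℕ) : ℕ :=
  indexBound ((signRoom d H M + 6) * 2 ^ archGap d H) +
    largeIndex (quadDegree d) (quadDisc d H) (2 * H + 5) + 2 ^ (mainLoss d H + H + 8)

/-- Complex conjugation on the integers of the field. -/
structure ConjPair (σ : K →+* ℂ) (c : 𝓞 K →+* 𝓞 K) : Prop where
  map_conj : ∀ x : 𝓞 K, σ (c x : K) = conj (σ (x : K))
  house : ∀ {T : ℕ} {x : 𝓞 K}, HouseLe T x → HouseLe T (c x)

omit [NumberField K] in
theorem ConjPair.involutive {σ : K →+* ℂ} {c : 𝓞 K →+* 𝓞 K} (h : ConjPair σ c) (x : 𝓞 K) :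
    c (c x) = x :=
  RingOfIntegers.coe_injective (σ.injective (by rw [h.map_conj, h.map_conj, Complex.conj_conj]))

/-- The combination along the progression. -/
def progSum (G : Finset (𝓞 K)) (b : 𝓞 K → ℕ → 𝓞 K) (n₀ M k : ℕ) : 𝓞 K :=
  ∑ g ∈ G, (∑ j ∈ range 4, b g j * ((n₀ + M * k).choose j : 𝓞 K)) * g ^ k

/-- A number with a coefficient which is not zero. -/
def Active (b : 𝓞 K → ℕ → 𝓞 K) (g : 𝓞 K) : Prop := ∃ j < 4, b g j ≠ 0

/-- The hypotheses on the combination. -/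
structure SignData (d H M n₀ : ℕ) (σ : K →+* ℂ) (c : 𝓞 K →+* 𝓞 K) (G : Finset (𝓞 K))
    (b : 𝓞 K → ℕ → 𝓞 K) : Prop where
  degree : finrank ℚ K ≤ d
  pair : ConjPair σ c
  step : 1 ≤ M
  start : 4 ≤ n₀
  start_le : n₀ ≤ M + 4
  card : #G ≤ 4
  ne_zero : ∀ g ∈ G, g ≠ 0
  root_house : ∀ g ∈ G, HouseLe H g
  coeff_house : ∀ g j, HouseLe H (b g j)
  independent : ∀ g ∈ G, ∀ g' ∈ G, g ≠ g' → Independent g g'
  closed : ∀ g ∈ G, c g ∈ G
  symm : ∀ g ∈ G, ∀ j, b (c g) j = c (b g j)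
  positive : ∀ g ∈ G, c g = g → 0 < (σ (g : K)).re
  weight : ∀ g ∈ G, c g = g → ∀ g' ∈ G, c g' ≠ g' → ∀ j, 1 ≤ j → j < 4 →
    b g j ≠ 0 → b g' j ≠ 0 → False

variable {d H M n₀ : ℕ} {σ : K →+* ℂ} {c : 𝓞 K →+* 𝓞 K} {G : Finset (𝓞 K)}
  {b : 𝓞 K → ℕ → 𝓞 K}

theorem choose_prog_le (hn : n₀ ≤ M + 4) {j : ℕ} (hj : j ≤ 3) (k : ℕ) :
    (n₀ + M * k).choose j ≤ 2 ^ (3 * (M + 5) + 3 * logSize k) := by
  have h1 : n₀ + M * k + 1 ≤ 2 ^ (M + 5) * 2 ^ logSize k := by
    have h2 := Nat.lt_pow_succ_log_self one_lt_two (k + 1)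
    calc n₀ + M * k + 1 ≤ (M + 5) * (k + 1) := by
          rw [add_mul, mul_add, mul_one]; omega
      _ ≤ _ := Nat.mul_le_mul Nat.lt_two_pow_self.le h2.le
  refine (Nat.choose_le_pow _ j).trans ((Nat.pow_le_pow_left (Nat.le_succ _) j).trans ?_)
  refine (Nat.pow_le_pow_right (Nat.succ_pos _) hj).trans ((Nat.pow_le_pow_left h1 3).trans ?_)
  rw [mul_pow, ← pow_mul, ← pow_mul, ← pow_add, mul_comm 3, mul_comm 3]

/-- **The terms outside the largest are small.** -/
theorem split_bound (h : SignData d H M n₀ σ c G b) {T : Finset (𝓞 K)} (hTG : T ⊆ G) {R : ℝ}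
    (hR0 : 0 ≤ R) (hRmax : ∀ g ∈ G, (∃ j < 4, b g j ≠ 0) → ‖σ (g : K)‖ ≤ R) {g₀ : 𝓞 K}
    (hg₀ : g₀ ∈ G) (hR : ‖σ (g₀ : K)‖ = R) {J : ℕ} (hJ : J ≤ 3)
    (hJmax : ∀ g ∈ G, ‖σ (g : K)‖ = R → ∀ j < 4, J < j → b g j = 0)
    (hT : ∀ g ∈ G, ‖σ (g : K)‖ = R → b g J ≠ 0 → g ∈ T) {k s : ℕ}
    (hs : s * 2 ^ archGap d H ≤ k) {τ : ℝ} (hτ : 0 ≤ τ)
    (hlow : (2 : ℝ) ^ (3 * (M + 5) + 3 * logSize k) / 2 ^ s ≤ τ)
    (hdeg : J ≠ 0 → 3 / ((n₀ + M * k - 2 : ℕ) : ℝ) ≤ τ) (hk : 1 ≤ k) :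
    ‖σ (progSum G b n₀ M k : K) -
        ∑ g ∈ T, σ (b g J : K) * ((n₀ + M * k).choose J : ℂ) * σ (g : K) ^ k‖ ≤
      R ^ k * ((n₀ + M * k).choose J : ℝ) * (16 * 2 ^ H * τ) := by
  classical
  set n := n₀ + M * k with hn
  have hn5 : 5 ≤ n := by
    have := h.start
    have := Nat.mul_pos h.step hk
    omega
  have hCJ : (1 : ℝ) ≤ n.choose J := by exact_mod_cast Nat.choose_pos (show J ≤ n by omega)
  set term : 𝓞 K → ℕ → ℂ := fun g j => σ (b g j : K) * (n.choose j : ℂ) * σ (g : K) ^ k with hterm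
  have hF : σ (progSum G b n₀ M k : K) = ∑ p ∈ G ×ˢ range 4, term p.1 p.2 := by
    simp only [progSum, hterm, map_sum, map_mul, map_pow, map_natCast, sum_product, sum_mul, hn]
  have hmain : ∑ g ∈ T, term g J = ∑ p ∈ T ×ˢ {J}, term p.1 p.2 := by
    rw [sum_product]; simp
  rw [hF, show (∑ g ∈ T, σ (b g J : K) * (n.choose J : ℂ) * σ (g : K) ^ k) =
    ∑ p ∈ T ×ˢ {J}, term p.1 p.2 from hmain, ← sum_sdiff
      (product_subset_product hTG (singleton_subset_iff.2 (mem_range.2 (by omega : J < 4)))),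
    add_sub_cancel_right]
  refine (norm_sum_le _ _).trans ((sum_le_card_nsmul _ _ (R ^ k * n.choose J * (2 ^ H * τ))
    fun p hp => ?_).trans ?_)
  · obtain ⟨hp1, hp2⟩ := mem_sdiff.1 hp
    obtain ⟨hg, hj⟩ := mem_product.1 hp1
    rw [mem_range] at hj
    rcases eq_or_ne (b p.1 p.2) 0 with h0 | hne
    · simp only [hterm, h0, map_zero, zero_mul, norm_zero]
      positivity
    simp only [hterm, norm_mul, norm_pow, Complex.norm_natCast]
    rcases (hRmax p.1 hg ⟨p.2, hj, hne⟩).lt_or_eq with hlt | heq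
    · have hgap := arch_gap (k := s) (n := k) h.degree σ (h.root_house _ hg) (h.root_house _ hg₀)
        (hlt.trans_eq hR.symm) hs
      rw [hR, ← le_div_iff₀ (by positivity)] at hgap
      calc ‖σ (b p.1 p.2 : K)‖ * n.choose p.2 * ‖σ (p.1 : K)‖ ^ k
          ≤ 2 ^ H * 2 ^ (3 * (M + 5) + 3 * logSize k) * (R ^ k / 2 ^ s) := by
            refine mul_le_mul (mul_le_mul (h.coeff_house _ _ σ) ?_ (Nat.cast_nonneg _)
              (by positivity)) hgap (by positivity) (by positivity)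
            exact_mod_cast choose_prog_le h.start_le (by omega : p.2 ≤ 3) k
        _ = R ^ k * 1 * (2 ^ H * (2 ^ (3 * (M + 5) + 3 * logSize k) / 2 ^ s)) := by ring
        _ ≤ R ^ k * n.choose J * (2 ^ H * τ) := by gcongr
    · have hjJ : p.2 < J := by
        rcases Nat.lt_trichotomy p.2 J with h1 | h1 | h1
        · exact h1
        · exact absurd (mem_product.2
            ⟨hT _ hg heq (h1 ▸ hne), mem_singleton.2 h1⟩) hp2
        · exact absurd (hJmax _ hg heq _ hj h1) hne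
      have hc : (n.choose p.2 : ℝ) ≤ n.choose J * τ := by
        have h1 : (n.choose p.2 : ℝ) * ((n - 2 : ℕ) : ℝ) ≤ 3 * n.choose J := by
          exact_mod_cast choose_dominates hn5 hjJ hJ
        rw [← le_div_iff₀ (by exact_mod_cast (show 0 < n - 2 by omega))] at h1
        refine h1.trans ((le_of_eq ?_).trans
          (mul_le_mul_of_nonneg_left (hdeg (by omega)) (Nat.cast_nonneg _)))
        ring
      calc ‖σ (b p.1 p.2 : K)‖ * n.choose p.2 * ‖σ (p.1 : K)‖ ^ k
          ≤ 2 ^ H * (n.choose J * τ) * R ^ k := by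
            rw [heq]
            exact mul_le_mul_of_nonneg_right (mul_le_mul (h.coeff_house _ _ σ) hc
              (Nat.cast_nonneg _) (by positivity)) (by positivity)
        _ = _ := by ring
  · rw [nsmul_eq_mul, show R ^ k * (n.choose J : ℝ) * (16 * 2 ^ H * τ) =
      16 * (R ^ k * n.choose J * (2 ^ H * τ)) by ring]
    refine mul_le_mul_of_nonneg_right ?_ (by positivity)
    have h1 : #((G ×ˢ range 4) \ (T ×ˢ {J})) ≤ 16 := (card_le_card sdiff_subset).trans (by
      rw [card_product, card_range]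
      exact Nat.mul_le_mul_right 4 h.card)
    exact_mod_cast h1

section Circle

variable (h : SignData d H M n₀ σ c G b)

include h in
theorem coeff_lower {g : 𝓞 K} {j : ℕ} (hb : b g j ≠ 0) :
    ((2 : ℝ) ^ (H * d))⁻¹ ≤ ‖σ (b g j : K)‖ :=
  inv_two_pow_le h.degree hb (h.coeff_house g j) σ

include h in
theorem diff_lower {g g' : 𝓞 K} (hg : g ∈ G) (hg' : g' ∈ G) (hne : g ≠ g') :
    ((2 : ℝ) ^ ((H + 1) * d))⁻¹ ≤ ‖σ (g : K) - σ (g' : K)‖ := by
  have h1 := inv_two_pow_le h.degree (sub_ne_zero.2 hne)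
    (house_sub (h.root_house g hg) (h.root_house g' hg')) σ
  simpa only [map_sub] using h1

/-- The point on the circle. -/
def circlePoint (σ : K →+* ℂ) (R : ℝ) (g : 𝓞 K) : ℂ := σ (g : K) / (R : ℂ)

omit [NumberField K] in
theorem norm_circlePoint {R : ℝ} (hR : 0 < R) {g : 𝓞 K} (hg : ‖σ (g : K)‖ = R) :
    ‖circlePoint σ R g‖ = 1 := by
  rw [circlePoint, norm_div, hg, Complex.norm_of_nonneg hR.le, div_self hR.ne']

theorem pow_sub_one_lower {w : ℂ} (hw : ‖w‖ = 1) : ‖w ^ 2 - 1‖ / 2 ≤ ‖w - 1‖ := by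
  rw [show w ^ 2 - 1 = (w - 1) * (w + 1) by ring, norm_mul, div_le_iff₀ two_pos]
  refine mul_le_mul_of_nonneg_left ((norm_add_le _ _).trans_eq ?_) (norm_nonneg _)
  rw [hw, norm_one]
  norm_num

omit [NumberField K] in
theorem circlePoint_mul_conj {R : ℝ} (hR : 0 < R) {g' : 𝓞 K} (hg' : ‖σ (g' : K)‖ = R)
    (g : 𝓞 K) : circlePoint σ R g * conj (circlePoint σ R g') - 1 =
      (circlePoint σ R g - circlePoint σ R g') * conj (circlePoint σ R g') := by
  rw [sub_mul, Complex.mul_conj', norm_circlePoint hR hg']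
  simp

include h in
theorem sep_lower {R : ℝ} (hR : 0 < R) (hRH : R ≤ 2 ^ H) {g g' : 𝓞 K} (hg : g ∈ G) (hg' : g' ∈ G)
    (hn' : ‖σ (g' : K)‖ = R) (hne : g ≠ g') :
    ((2 : ℝ) ^ unitLoss d H)⁻¹ ≤ ‖circlePoint σ R g * conj (circlePoint σ R g') - 1‖ := by
  rw [circlePoint_mul_conj hR hn', norm_mul, Complex.norm_conj, norm_circlePoint hR hn', mul_one,
    circlePoint, circlePoint, ← sub_div, norm_div, Complex.norm_of_nonneg hR.le]
  refine le_trans ?_ (div_le_div₀ (norm_nonneg _) (diff_lower h hg hg' hne) hR hRH)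
  rw [unitLoss, div_eq_mul_inv, ← mul_inv, ← pow_add]
  exact inv_anti₀ (by positivity) (pow_le_pow_right₀ one_le_two (Nat.le_succ _))

include h in
theorem one_lower {R : ℝ} (hR : 0 < R) (hRH : R ≤ 2 ^ H) {g : 𝓞 K} (hg : g ∈ G)
    (hn : ‖σ (g : K)‖ = R) (hne : c g ≠ g) :
    ((2 : ℝ) ^ unitLoss d H)⁻¹ ≤ ‖circlePoint σ R g - 1‖ := by
  have hw := norm_circlePoint hR hn
  refine le_trans ?_ (pow_sub_one_lower hw)
  have hcc : circlePoint σ R (c g) = conj (circlePoint σ R g) := by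
    rw [circlePoint, circlePoint, map_div₀, h.pair.map_conj, Complex.conj_ofReal]
  have h2 := circlePoint_mul_conj hR (show ‖σ (c g : K)‖ = R by
    rw [h.pair.map_conj, Complex.norm_conj, hn]) g
  rw [hcc, Complex.conj_conj, ← sq] at h2
  rw [h2, norm_mul, hw, mul_one, ← hcc, circlePoint, circlePoint, ← sub_div, norm_div,
    Complex.norm_of_nonneg hR.le]
  refine le_trans ?_ (div_le_div_of_nonneg_right
    (div_le_div₀ (norm_nonneg _) (diff_lower h hg (h.closed g hg) hne.symm) hR hRH) two_pos.le)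
  rw [unitLoss, div_eq_mul_inv, div_eq_mul_inv, ← mul_inv, ← mul_inv, pow_succ, pow_add]

include h in
theorem power_lower {R : ℝ} (hR : 0 < R) (hRH : R ≤ 2 ^ H) {g : 𝓞 K} (hg : g ∈ G)
    (hn : ‖σ (g : K)‖ = R) (hne : c g ≠ g) {q : ℕ} (hq : 1 ≤ q) :
    ((2 : ℝ) ^ ((H * q + 1) * d + H * q + 1))⁻¹ ≤ ‖circlePoint σ R g ^ q - 1‖ := by
  have hw := norm_circlePoint hR hn
  refine le_trans ?_ (pow_sub_one_lower (by rw [norm_pow, hw, one_pow]))
  have hσg : σ (g : K) ≠ 0 := norm_pos_iff.1 (hn ▸ hR)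
  have hnc : ‖σ (c g : K)‖ = R := by rw [h.pair.map_conj, Complex.norm_conj, hn]
  have e : (circlePoint σ R g ^ q) ^ 2 - 1 =
      (σ ((g ^ q - c g ^ q : 𝓞 K) : K)) / σ (c g : K) ^ q := by
    have hR2 : ((R : ℂ)) ^ 2 = σ (g : K) * σ (c g : K) := by
      rw [h.pair.map_conj, Complex.mul_conj', hn]
    have hc0 : σ (c g : K) ≠ 0 := norm_pos_iff.1 (hnc ▸ hR)
    simp only [map_sub, map_pow]
    rw [← pow_mul, mul_comm q, pow_mul, circlePoint, div_pow, hR2, sq, mul_div_mul_left _ _ hσg,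
      div_pow, sub_div, div_self (pow_ne_zero q hc0)]
  have h1 := inv_two_pow_le h.degree
    (sub_ne_zero.2 (h.independent g hg (c g) (h.closed g hg) hne.symm q hq))
    (house_sub (house_pow (h.root_house g hg) q) (house_pow (h.pair.house (h.root_house g hg)) q)) σ
  rw [e, norm_div, norm_pow, hnc]
  refine le_trans ?_ (div_le_div_of_nonneg_right
    (div_le_div₀ (norm_nonneg _) h1 (pow_pos hR q) (pow_le_pow_left₀ hR.le hRH q)) two_pos.le)
  rw [← pow_mul, div_eq_mul_inv, div_eq_mul_inv, ← mul_inv, ← mul_inv, pow_succ, pow_add]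

end Circle

/-- **Real part plus twice a real part.** -/
theorem gap_lower (h : SignData d H M n₀ σ c G b) {g₀ g₁ : 𝓞 K} {J : ℕ} {c₀ : ℝ} (hc₀ : 0 ≤ c₀)
    (he : σ (b g₀ J : K) = (c₀ : ℂ)) :
    c₀ = 2 * ‖σ (b g₁ J : K)‖ ∨
      ((2 : ℝ) ^ ((2 * H + 3) * d + H + 2))⁻¹ ≤ |2 * ‖σ (b g₁ J : K)‖ - c₀| := by
  set x := ‖σ (b g₁ J : K)‖ with hx
  set t : 𝓞 K := 4 * (b g₁ J * c (b g₁ J)) - b g₀ J * b g₀ J with ht
  have hσt : σ (t : K) = (((2 * x - c₀) * (2 * x + c₀) : ℝ) : ℂ) := by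
    simp only [ht, map_sub, map_mul, map_ofNat, h.pair.map_conj, Complex.mul_conj', he, hx]
    push_cast
    ring
  rcases eq_or_ne c₀ (2 * x) with heq | hne
  · exact Or.inl heq
  right
  have hcx : c₀ ≤ 2 ^ H := by
    have := h.coeff_house g₀ J σ
    rwa [he, Complex.norm_of_nonneg hc₀] at this
  have hxH : x ≤ 2 ^ H := h.coeff_house g₁ J σ
  have hpos : 0 < 2 * x + c₀ := by
    refine lt_of_le_of_ne (by positivity) fun h0 => hne ?_
    linarith [norm_nonneg (σ (b g₁ J : K))]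
  have ht0 : t ≠ 0 := fun h0 => by
    rw [h0] at hσt
    simp only [map_zero] at hσt
    rcases mul_eq_zero.1 (Complex.ofReal_eq_zero.1 hσt.symm) with h1 | h1
    · exact hne (by linarith)
    · exact hpos.ne' h1
  have hth : HouseLe (2 * H + 3) t := fun τ => by
    simp only [ht, map_sub, map_mul, map_ofNat]
    refine (norm_sub_le _ _).trans ?_
    rw [norm_mul, norm_mul, norm_mul, Complex.norm_ofNat, pow_add, two_mul, pow_add]
    have h1 := mul_le_mul (h.coeff_house g₁ J τ) (h.pair.house (h.coeff_house g₁ J) τ)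
      (norm_nonneg _) (by positivity)
    have h2 := mul_le_mul (h.coeff_house g₀ J τ) (h.coeff_house g₀ J τ) (norm_nonneg _)
      (by positivity)
    have : (0 : ℝ) ≤ 2 ^ H * 2 ^ H := by positivity
    linarith
  have h1 := inv_two_pow_le h.degree ht0 hth σ
  rw [hσt, Complex.norm_real, Real.norm_eq_abs, abs_mul, abs_of_pos hpos] at h1
  have h2 : |2 * x - c₀| * (2 * x + c₀) ≤ |2 * x - c₀| * 2 ^ (H + 2) := by
    refine mul_le_mul_of_nonneg_left ?_ (abs_nonneg _)
    rw [pow_add]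
    nlinarith
  have h3 := h1.trans h2
  rw [← div_le_iff₀ (by positivity)] at h3
  refine le_trans (le_of_eq ?_) h3
  rw [show (2 * H + 3) * d + H + 2 = (2 * H + 3) * d + (H + 2) by ring, pow_add, mul_inv,
    div_eq_mul_inv]

/-- **The dichotomy.** -/
theorem sign_dichotomy (h : SignData d H M n₀ σ c G b) :
    (∀ k, signStart d H M ≤ k → 0 ≤ (σ (progSum G b n₀ M k : K)).re) ∨
      ∀ k₀, signStart d H M ≤ k₀ → ∃ k, k₀ ≤ k ∧ k ≤ k₀ + signWindow d H ∧
        (σ (progSum G b n₀ M k : K)).re < 0 := by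
  classical
  set G' := G.filter (Active b) with hG'
  rcases G'.eq_empty_or_nonempty with he | hne'
  · left
    intro k _
    rw [progSum, sum_eq_zero fun g hg => by
      rw [sum_eq_zero fun j hj => ?_, zero_mul]
      rw [show b g j = 0 from by_contra fun h0 => (Finset.eq_empty_iff_forall_notMem.1 he g)
        (mem_filter.2 ⟨hg, j, mem_range.1 hj, h0⟩), zero_mul]]
    simp
  obtain ⟨gm, hgm, hmax⟩ := G'.exists_max_image (fun g => ‖σ (g : K)‖) hne'
  set R := ‖σ (gm : K)‖ with hR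
  obtain ⟨hgmG, jm, hjm, hbm⟩ := mem_filter.1 hgm
  set Js := (range 4).filter (fun j => ∃ g ∈ G, ‖σ (g : K)‖ = R ∧ b g j ≠ 0) with hJs
  have hJne : Js.Nonempty := ⟨jm, mem_filter.2 ⟨mem_range.2 hjm, gm, hgmG, hR.symm, hbm⟩⟩
  obtain ⟨J, hJ, hJmax'⟩ := Js.exists_max_image (fun j => j) hJne
  obtain ⟨hJ4, gJ, hgJ, hgJR, hgJb⟩ := mem_filter.1 hJ
  rw [mem_range] at hJ4
  have hJmax : ∀ g ∈ G, ‖σ (g : K)‖ = R → ∀ j < 4, J < j → b g j = 0 := fun g hg hgR j hj hJj =>
    by_contra fun hb => (hJmax' j (mem_filter.2 ⟨mem_range.2 hj, g, hg, hgR, hb⟩)).not_gt hJj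
  set T := G.filter (fun g : 𝓞 K => ‖σ (g : K)‖ = R ∧ b g J ≠ 0) with hT
  have hRpos : 0 < R :=
    norm_pos_iff.2 ((map_ne_zero σ).2 (RingOfIntegers.coe_ne_zero_iff.2 (h.ne_zero gm hgmG)))
  have hRH : R ≤ 2 ^ H := h.root_house gm hgmG σ
  have hTc : ∀ g ∈ T, c g ∈ T := fun g hg => by
    obtain ⟨hgG, hgR, hgb⟩ := mem_filter.1 hg
    refine mem_filter.2 ⟨h.closed g hgG, by rw [h.pair.map_conj, Complex.norm_conj, hgR], ?_⟩
    rw [h.symm g hgG J]
    exact fun h0 => hgb (by rw [← h.pair.involutive (b g J), h0, map_zero])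
  set A : 𝓞 K → ℂ := fun g => σ (b g J : K) with hA
  set z : 𝓞 K → ℂ := circlePoint σ R with hz
  have hAH : ∀ g ∈ T, ‖A g‖ ≤ (2 : ℝ) ^ H := fun g _ => h.coeff_house g J σ
  have hz1 : ∀ g ∈ T, ‖z g‖ = 1 := fun g hg => norm_circlePoint hRpos (mem_filter.1 hg).2.1
  have hAc : ∀ g ∈ T, A (c g) = conj (A g) := fun g hg => by
    simp only [hA]
    rw [h.symm g (mem_filter.1 hg).1, h.pair.map_conj]
  have hzc : ∀ g, z (c g) = conj (z g) := fun g => by
    simp only [hz, circlePoint]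
    rw [map_div₀, h.pair.map_conj, Complex.conj_ofReal]
  have hreal : ∀ S : Finset (𝓞 K), S ⊆ T → (∀ g ∈ S, c g ∈ S) → ∀ k,
      (circleSum S A z k).im = 0 := fun S hS hSc k => by
    refine Complex.conj_eq_iff_im.1 ?_
    simp only [circleSum, map_sum, map_mul, map_pow]
    refine sum_nbij' c c hSc hSc (fun g _ => h.pair.involutive g)
      (fun g _ => h.pair.involutive g) fun g hg => ?_
    rw [hAc g (hS hg), hzc g]
  set δ : ℝ := ((2 : ℝ) ^ mainLoss d H)⁻¹ with hδ
  have hδ0 : 0 < δ := by positivity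
  have hroom : ∀ {k}, signStart d H M ≤ k →
      (signRoom d H M * logSize k ^ kappa 4 + 3 * logSize k + 3) * 2 ^ archGap d H ≤ k :=
    fun {k} hk => room_of_index (le_trans ((Nat.le_add_right _ _).trans (Nat.le_add_right _ _)) hk)
  have hk1 : ∀ {k}, signStart d H M ≤ k → 1 ≤ k := fun {k} hk => by
    have := Nat.two_pow_pos (mainLoss d H + H + 8)
    rw [signStart] at hk
    omega
  have herr : ∀ {k}, signStart d H M ≤ k → ∀ {q}, q + H + 5 + 3 * (M + 5) ≤
      signRoom d H M * logSize k ^ kappa 4 → (J ≠ 0 → q ≤ mainLoss d H) →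
      ‖σ (progSum G b n₀ M k : K) - ((R ^ k * (n₀ + M * k).choose J : ℝ) : ℂ) * circleSum T A z k‖ ≤
        R ^ k * (n₀ + M * k).choose J * (((2 : ℝ) ^ q)⁻¹ / 2) := fun {k} hk {q} hq hJq => by
    set s := signRoom d H M * logSize k ^ kappa 4 + 3 * logSize k with hs
    have hsk : s * 2 ^ archGap d H ≤ k :=
      (Nat.mul_le_mul_right _ (Nat.le_add_right _ 3)).trans (hroom hk)
    have hb := split_bound h (T := T) (filter_subset _ _) hRpos.le
      (fun g hg hb => hmax g (mem_filter.2 ⟨hg, hb⟩)) hgmG hR.symm (by omega : J ≤ 3) hJmax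
      (fun g hg h1 h2 => mem_filter.2 ⟨hg, h1, h2⟩) hsk (τ := ((2 : ℝ) ^ (q + H + 5))⁻¹)
      (by positivity) (by
        rw [div_le_iff₀ (by positivity), inv_mul_eq_div, le_div_iff₀ (by positivity), ← pow_add]
        exact pow_le_pow_right₀ one_le_two (by omega))
      (fun hJ0 => by
        have hn : 3 * 2 ^ (q + H + 5) ≤ n₀ + M * k - 2 := by
          have h1 : 3 * 2 ^ (q + H + 5) ≤ 2 ^ (mainLoss d H + H + 8) := by
            have h3 := Nat.pow_le_pow_right two_pos
              (show q + H + 5 + 3 ≤ mainLoss d H + H + 8 by have := hJq hJ0; omega)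
            rw [pow_add] at h3
            omega
          have h2 : k ≤ M * k := Nat.le_mul_of_pos_left k h.step
          have := h.start
          rw [signStart] at hk
          omega
        have hpos := Nat.two_pow_pos (q + H + 5)
        rw [← one_div, div_le_div_iff₀ (Nat.cast_pos.2 (by omega)) (by positivity), one_mul]
        exact_mod_cast hn)
      (hk1 hk)
    refine le_trans (le_of_eq ?_) (hb.trans_eq ?_)
    · congr 1
      congr 1
      simp only [circleSum, mul_sum, hA, hz, circlePoint]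
      refine sum_congr rfl fun g _ => ?_
      push_cast
      rw [div_pow]
      field_simp [Complex.ofReal_ne_zero.2 hRpos.ne']
    · rw [pow_add, pow_add]
      field_simp
      ring
  have hql : ∀ {k} (q : ℕ), q ≤ mainLoss d H → q + H + 5 + 3 * (M + 5) ≤
      signRoom d H M * logSize k ^ kappa 4 := fun {k} q hq => by
    refine le_trans ?_ (Nat.le_mul_of_pos_right _ (Nat.pow_pos (one_le_logSize k)))
    simp only [signRoom]
    omega
  have hΦ : ∀ k, 0 < R ^ k * ((n₀ + M * k).choose J : ℝ) := fun k => mul_pos (pow_pos hRpos k)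
    (Nat.cast_pos.2 (Nat.choose_pos (show J ≤ n₀ + M * k by have := h.start; omega)))
  have hdec : ∀ {k}, signStart d H M ≤ k →
      ((circleSum T A z k).re ≤ -δ → (σ (progSum G b n₀ M k : K)).re < 0) ∧
      (δ ≤ (circleSum T A z k).re → 0 ≤ (σ (progSum G b n₀ M k : K)).re) := fun {k} hk => by
    have he := (Complex.abs_re_le_norm _).trans
      (herr hk (hql _ le_rfl) fun _ => le_rfl)
    rw [Complex.sub_re, Complex.re_ofReal_mul, ← hδ, abs_le] at he
    have := mul_pos (hΦ k) hδ0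
    refine ⟨fun hm => ?_, fun hm => ?_⟩
    · have h1 := mul_le_mul_of_nonneg_left hm (hΦ k).le
      linarith
    · have h1 := mul_le_mul_of_nonneg_left hm (hΦ k).le
      linarith
  have hwin : ∀ {k₀ i}, signStart d H M ≤ k₀ → i ≤ signWindow d H →
      (circleSum T A z (k₀ + i)).re ≤ -δ → ∃ k, k₀ ≤ k ∧ k ≤ k₀ + signWindow d H ∧
        (σ (progSum G b n₀ M k : K)).re < 0 := fun {k₀ i} hk hi hm =>
    ⟨k₀ + i, Nat.le_add_right _ _, Nat.add_le_add_left hi _,
      (hdec (hk.trans (Nat.le_add_right _ _))).1 hm⟩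
  have hTcard : #T ≤ 4 := (card_filter_le _ _).trans h.card
  set L := 2 ^ (2 * H + 2 * (H * d) + unitLoss d H + 8) with hL
  have hLW : L ≤ signWindow d H := Nat.le_add_right _ _
  set η : ℝ := ((2 : ℝ) ^ unitLoss d H)⁻¹ with hη
  have hη0 : 0 < η := by positivity
  by_cases hfix : ∃ g ∈ T, c g = g
  swap
  · right
    push Not at hfix
    intro k₀ hk₀
    have hgJT : gJ ∈ T := mem_filter.2 ⟨hgJ, hgJR, hgJb⟩
    obtain ⟨i, hi, hm⟩ := exists_neg_of_no_constant (B := (2 : ℝ) ^ H) (by positivity) hη0 hTcard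
      hAH hz1 (fun g hg => one_lower h hRpos hRH (mem_filter.1 hg).1 (mem_filter.1 hg).2.1
        (hfix g hg))
      (fun g hg g' hg' hne => sep_lower h hRpos hRH (mem_filter.1 hg).1 (mem_filter.1 hg').1
        (mem_filter.1 hg').2.1 hne) hgJT (α := ((2 : ℝ) ^ (H * d))⁻¹) (by positivity)
      (coeff_lower h hgJb) (hreal T subset_rfl hTc) (L := L) (by
        simp only [hL, hη, Nat.cast_pow, Nat.cast_ofNat, inv_pow, ← pow_mul, ← mul_inv, ← pow_add]
        rw [← div_eq_mul_inv, lt_div_iff₀ (by positivity), show (128 : ℝ) = 2 ^ 7 by norm_num,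
          ← pow_add, ← pow_add]
        exact pow_lt_pow_right₀ one_lt_two (by omega)) k₀
    refine hwin hk₀ (hi.le.trans hLW) (hm.trans (neg_le_neg ?_))
    rw [hδ, mainLoss, inv_pow, ← pow_mul, show (16 : ℝ) = 2 ^ 4 by norm_num, ← pow_add,
      div_eq_mul_inv, ← mul_inv, ← pow_add]
    refine inv_anti₀ (by positivity) (pow_le_pow_right₀ one_le_two ?_)
    rw [show (2 * H + 3) * d = 2 * (H * d) + 3 * d by ring]
    omega
  obtain ⟨g₀, hg₀, hg₀c⟩ := hfix
  obtain ⟨hg₀G, hg₀R, hg₀b⟩ := mem_filter.1 hg₀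
  have hz₀ : z g₀ = 1 := by
    have h1 := h.pair.map_conj g₀
    rw [hg₀c, eq_comm, Complex.conj_eq_iff_im] at h1
    have h3 : σ (g₀ : K) = ((σ (g₀ : K)).re : ℂ) := Complex.ext (by simp) (by simp [h1])
    have h4 : (σ (g₀ : K)).re = R := by
      rw [← hg₀R, h3, Complex.norm_of_nonneg (h.positive g₀ hg₀G hg₀c).le, Complex.ofReal_re]
    simp only [hz, circlePoint]
    rw [h3, h4, div_self (Complex.ofReal_ne_zero.2 hRpos.ne')]
  set c₀ := (A g₀).re with hc₀
  have hAg₀ : A g₀ = (c₀ : ℂ) := by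
    have h1 := hAc g₀ hg₀
    rw [hg₀c, eq_comm, Complex.conj_eq_iff_im] at h1
    exact Complex.ext (by simp [hc₀]) (by simp [h1])
  have hc₀low : ((2 : ℝ) ^ (H * d))⁻¹ ≤ |c₀| := by
    have := coeff_lower h hg₀b
    rwa [show σ (b g₀ J : K) = (c₀ : ℂ) from hAg₀, Complex.norm_real] at this
  set T' := T.erase g₀ with hT'
  have hnfix : ∀ g ∈ T', c g ≠ g := fun g hg hgc => by
    obtain ⟨hne, hgT⟩ := mem_erase.1 hg
    obtain ⟨hgG, hgR, -⟩ := mem_filter.1 hgT
    refine h.independent g hgG g₀ hg₀G hne 2 two_pos ?_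
    refine RingOfIntegers.coe_injective (σ.injective ?_)
    have e : ∀ {g : 𝓞 K}, c g = g → ‖σ (g : K)‖ = R → σ ((g ^ 2 : 𝓞 K) : K) = ((R ^ 2 : ℝ) : ℂ) :=
      fun {g} hgc hgR => by
      simp only [sq, map_mul]
      nth_rw 2 [← hgc]
      rw [h.pair.map_conj, Complex.mul_conj', hgR]
      push_cast
      ring
    rw [e hgc hgR, e hg₀c hg₀R]
  have hmain : ∀ k, circleSum T A z k = (c₀ : ℂ) + circleSum T' A z k := fun k => by
    simp only [circleSum, hT']
    rw [← add_sum_erase T _ hg₀, hz₀, one_pow, mul_one, hAg₀]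
  rcases lt_or_ge c₀ 0 with hneg | hc0pos
  · right
    intro k₀ hk₀
    rw [abs_of_neg hneg] at hc₀low
    obtain ⟨i, hi, hm⟩ := exists_le_half (B := (2 : ℝ) ^ H) (by positivity) hη0
      (card_erase_le.trans hTcard) (fun g hg => hAH g (mem_erase.1 hg).2)
      (fun g hg => hz1 g (mem_erase.1 hg).2)
      (fun g hg => one_lower h hRpos hRH (mem_filter.1 (mem_erase.1 hg).2).1
        (mem_filter.1 (mem_erase.1 hg).2).2.1 (hnfix g hg)) (c := c₀) (L := L) (by
        refine lt_of_lt_of_le ?_ (mul_le_mul_of_nonneg_left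
          (mul_le_mul_of_nonneg_right hc₀low hη0.le) (Nat.cast_nonneg L))
        rw [hL, hη, Nat.cast_pow, Nat.cast_ofNat, ← mul_inv, ← pow_add,
          ← div_eq_mul_inv, lt_div_iff₀ (by positivity), show (16 : ℝ) = 2 ^ 4 by norm_num,
          ← pow_add, ← pow_add]
        exact pow_lt_pow_right₀ one_lt_two (by omega)) k₀
    refine hwin hk₀ (hi.le.trans hLW) ?_
    rw [hmain, Complex.add_re, Complex.ofReal_re]
    refine hm.trans ?_
    have h1 : δ ≤ ((2 : ℝ) ^ (H * d))⁻¹ / 2 := by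
      rw [hδ, mainLoss, div_eq_mul_inv, ← mul_inv, ← pow_succ]
      refine inv_anti₀ (by positivity) (pow_le_pow_right₀ one_le_two ?_)
      rw [show (2 * H + 3) * d = 2 * (H * d) + 3 * d by ring]
      omega
    linarith
  rw [abs_of_nonneg hc0pos] at hc₀low
  rcases T'.eq_empty_or_nonempty with he | ⟨g₁, hg₁⟩
  · left
    intro k hk
    refine (hdec hk).2 ?_
    rw [hmain, he]
    simp only [circleSum, sum_empty, add_zero, Complex.ofReal_re]
    refine le_trans ?_ hc₀low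
    rw [hδ, mainLoss]
    refine inv_anti₀ (by positivity) (pow_le_pow_right₀ one_le_two ?_)
    rw [show (2 * H + 3) * d = 2 * (H * d) + 3 * d by ring]
    omega
  obtain ⟨hg₁ne, hg₁T⟩ := mem_erase.1 hg₁
  obtain ⟨hg₁G, hg₁R, hg₁b⟩ := mem_filter.1 hg₁T
  have hg₁c := hnfix g₁ hg₁
  have hT'c : ∀ g ∈ T', c g ∈ T' := fun g hg => mem_erase.2 ⟨fun h0 => (mem_erase.1 hg).1 (by
    rw [← h.pair.involutive g, h0, hg₀c]), hTc g (mem_erase.1 hg).2⟩
  have hT'eq : T' = {g₁, c g₁} := by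
    refine subset_antisymm (fun g hg => by_contra fun hgn => ?_) (insert_subset_iff.2
      ⟨hg₁, singleton_subset_iff.2 (hT'c g₁ hg₁)⟩)
    simp only [mem_insert, mem_singleton, not_or] at hgn
    have h4 : ({g, c g, g₁, c g₁} : Finset (𝓞 K)) ⊆ T' := by
      simp [insert_subset_iff, hg, hT'c g hg, hg₁, hT'c g₁ hg₁]
    have hcg1 : c g ≠ g₁ := fun h0 => hgn.2 (by rw [← h0, h.pair.involutive])
    have hcg2 : c g ≠ c g₁ := fun h0 =>
      hgn.1 (by rw [← h.pair.involutive g, h0, h.pair.involutive])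
    have h5 := card_le_card h4
    rw [card_insert_of_notMem (by simp [(hnfix g hg).symm, hgn.1, hgn.2]),
      card_insert_of_notMem (by simp [hcg1, hcg2]),
      card_pair hg₁c.symm] at h5
    have := card_erase_of_mem hg₀
    rw [← hT'] at this
    omega
  have hJ0 : J = 0 := by
    rcases Nat.eq_zero_or_pos J with h0 | h0
    · exact h0
    · exact absurd hg₁b fun hb =>
        h.weight g₀ hg₀G hg₀c g₁ hg₁G hg₁c J h0 hJ4 hg₀b hb
  set a := ‖A g₁‖ with ha
  have hmain' : ∀ k, (circleSum T A z k).re = c₀ + 2 * (A g₁ * z g₁ ^ k).re := fun k => by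
    rw [hmain, hT'eq, circleSum, sum_pair hg₁c.symm, hAc g₁ hg₁T, hzc g₁, ← map_pow, ← map_mul,
      Complex.add_re, Complex.add_re, Complex.conj_re, Complex.ofReal_re]
    ring
  have hlow : ∀ k, c₀ - 2 * a ≤ (circleSum T A z k).re := fun k => by
    rw [hmain' k]
    have h1 := abs_le.1 (Complex.abs_re_le_norm (A g₁ * z g₁ ^ k))
    rw [norm_mul, norm_pow, hz1 g₁ hg₁T, one_pow, mul_one, ← ha] at h1
    linarith [h1.1]
  rcases gap_lower h (g₁ := g₁) (J := J) hc0pos hAg₀ with heq | hgap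
  · left
    intro k hk
    set q := quadLoss d H * logSize k ^ kappa 4 with hq
    have hm0 : 0 ≤ (circleSum T A z k).re := by
      have := hlow k
      simp only [ha, hA] at this
      linarith
    have hl1 : 1 ≤ logSize k ^ kappa 4 := Nat.one_le_pow _ _ (one_le_logSize k)
    have he := (Complex.abs_re_le_norm _).trans (herr hk (q := q) (by
      have h3 := Nat.le_mul_of_pos_right (mainLoss d H + H + 3 * (M + 5) + 5) hl1
      rw [signRoom, show mainLoss d H + quadLoss d H + H + 3 * (M + 5) + 5 =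
        quadLoss d H + (mainLoss d H + H + 3 * (M + 5) + 5) by ring, add_mul, ← hq]
      omega) fun h0 => absurd hJ0 h0)
    rw [Complex.sub_re, Complex.re_ofReal_mul, abs_le] at he
    have hlowq : ((2 : ℝ) ^ q)⁻¹ ≤ (circleSum T A z k).re := by
      have hsq : g₁ * c g₁ = g₀ ^ 2 := RingOfIntegers.coe_injective (σ.injective (by
        simp only [map_mul, map_pow, h.pair.map_conj, Complex.mul_conj', hg₁R]
        have h7 : σ (g₀ : K) = (R : ℂ) := by
          have := hz₀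
          simp only [hz, circlePoint] at this
          rw [div_eq_one_iff_eq (Complex.ofReal_ne_zero.2 hRpos.ne')] at this
          exact this
        rw [h7]))
      have hl := quad_lower (n := k) h.degree (h.coeff_house g₀ J) (h.coeff_house g₁ J)
        (h.coeff_house (c g₁) J) (h.root_house g₀ hg₀G) (h.root_house g₁ hg₁G) hg₁b
        (mem_filter.1 (hTc g₁ hg₁T)).2.2 (h.ne_zero g₀ hg₀G) (h.ne_zero g₁ hg₁G) hsq σ
        (hg₁R.trans hg₀R.symm) (h.independent g₀ hg₀G g₁ hg₁G hg₁ne.symm)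
        (le_trans ((Nat.le_add_left _ _).trans (Nat.le_add_right _ _)) hk)
      have heP : σ ((b g₀ J * g₀ ^ k + b g₁ J * g₁ ^ k + b (c g₁) J * c g₁ ^ k : 𝓞 K) : K) =
          ((R ^ k : ℝ) : ℂ) * circleSum T A z k := by
        have hzg : ∀ g : 𝓞 K, σ (g : K) ^ k = (R : ℂ) ^ k * z g ^ k := fun g => by
          simp only [hz, circlePoint]
          rw [div_pow, mul_div_cancel₀ _ (pow_ne_zero k (Complex.ofReal_ne_zero.2 hRpos.ne'))]
        rw [hmain, hT'eq, circleSum, sum_pair hg₁c.symm]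
        simp only [map_add, map_mul, map_pow, hzg, hA, ← hAg₀, hz₀]
        push_cast
        ring
      rw [heP, norm_mul, Complex.norm_real, Real.norm_eq_abs, abs_of_pos (pow_pos hRpos k),
        hg₀R, ← hq] at hl
      have h5 := le_of_mul_le_mul_left hl (pow_pos hRpos k)
      rwa [← Complex.abs_re_eq_norm.2 (hreal T subset_rfl hTc k), abs_of_nonneg hm0] at h5
    have h6 := mul_le_mul_of_nonneg_left hlowq (hΦ k).le
    have : 0 < R ^ k * ((n₀ + M * k).choose J : ℝ) * ((2 : ℝ) ^ q)⁻¹ :=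
      mul_pos (hΦ k) (by positivity)
    linarith
  rw [← show a = ‖σ (b g₁ J : K)‖ from rfl] at hgap
  set δ₁ : ℝ := ((2 : ℝ) ^ ((2 * H + 3) * d + H + 2))⁻¹ with hδ₁
  have hδδ : δ ≤ δ₁ / 2 := by
    rw [hδ, hδ₁, mainLoss, div_eq_mul_inv, ← mul_inv, ← pow_succ]
    exact inv_anti₀ (by positivity) (pow_le_pow_right₀ one_le_two (by omega))
  rcases le_or_gt (2 * a) c₀ with hbig | hsmall
  · left
    intro k hk
    refine (hdec hk).2 ?_
    rw [abs_of_nonpos (by linarith)] at hgap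
    have : 0 < δ₁ := by positivity
    linarith [hlow k]
  right
  intro k₀ hk₀
  rw [abs_of_pos (by linarith)] at hgap
  set P := 2 ^ ((2 * H + 3) * d + 2 * H + 6) with hP
  set Q := stepCount d H with hQ
  have hapos : 0 < a := by linarith
  obtain ⟨k, hk0, hk1', hclose⟩ := exists_near (w := z g₁) (t := -(conj (A g₁) / (a : ℂ)))
    (hz1 g₁ hg₁T) (by
      rw [norm_neg, norm_div, Complex.norm_conj, Complex.norm_of_nonneg hapos.le, ← ha,
        div_self hapos.ne'])
    (P := P) Nat.one_le_two_pow (η := ((2 : ℝ) ^ ((H * Q + 1) * d + H * Q + 1))⁻¹)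
    (by positivity) (fun q hq1 hqQ => by
      have hqQ' : q ≤ Q := hqQ
      refine le_trans (inv_anti₀ (by positivity) (pow_le_pow_right₀ one_le_two ?_))
        (power_lower h hRpos hRH hg₁G hg₁R hg₁c hq1)
      gcongr) k₀
  obtain ⟨i, rfl⟩ := Nat.exists_eq_add_of_le hk0
  refine hwin (i := i) hk₀ ?_ ?_
  · rw [div_inv_eq_mul, show (8 : ℝ) * 2 ^ ((H * Q + 1) * d + H * Q + 1) =
      ((8 * 2 ^ ((H * Q + 1) * d + H * Q + 1) : ℕ) : ℝ) by push_cast; ring,
      Nat.floor_natCast, show (2 * P + 1) ^ 2 = Q from rfl] at hk1'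
    rw [signWindow, ← hQ]
    have := Nat.two_pow_pos (2 * H + 2 * (H * d) + unitLoss d H + 8)
    omega
  · have hre : (A g₁ * -(conj (A g₁) / (a : ℂ))).re = -a := by
      rw [mul_neg, mul_div_assoc', Complex.mul_conj', ← ha, sq,
        mul_div_cancel_left₀ _ (Complex.ofReal_ne_zero.2 hapos.ne'), Complex.neg_re,
        Complex.ofReal_re]
    have h1 := (abs_le.1 ((Complex.abs_re_le_norm _).trans (le_of_eq
      (norm_mul (A g₁) (z g₁ ^ (k₀ + i) - -(conj (A g₁) / (a : ℂ))))))).2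
    rw [mul_sub, Complex.sub_re, hre, ← ha] at h1
    have h2 : a * ‖z g₁ ^ (k₀ + i) - -(conj (A g₁) / (a : ℂ))‖ ≤ δ₁ / 4 := by
      refine (mul_le_mul (hAH g₁ hg₁T) hclose (norm_nonneg _) (by positivity)).trans_eq ?_
      rw [hδ₁, hP, Nat.cast_pow, Nat.cast_ofNat,
        show (2 * H + 3) * d + 2 * H + 6 = ((2 * H + 3) * d + H + 2) + H + 4 by ring,
        pow_add, pow_add]
      field_simp
      ring
    rw [hmain']
    linarith

end FA.BakerExplicit.Positivity

end
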