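import Fermat.Agent.BakerExplicit.AlgebraicMain
import Fermat.Agent.BakerExplicit.Applications
import Mathlib.FieldTheory.IntermediateField.Adjoin.Basic
import Mathlib.NumberTheory.Pell
import Mathlib.NumberTheory.Real.Irrational

/-!
# Simultaneous Pell equations, effectively

If `x ^ 2 = a z ^ 2 + 1` and `y ^ 2 = b z ^ 2 + 1`, then `x + z √a = ε ^ i`, `y + z √b = η ^ k`
and `i log ε - k log η + log (√b / √a)` is nearly zero but not zero. The three numbers are
multiplicatively independent when `a b` is not a square, so Baker's theorem bounds `z`.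
-/

set_option autoImplicit false

noncomputable section

namespace FA.BakerExplicit.SimultaneousPell

open Finset NumberField Module Pell IntermediateField

variable {a b : ℕ}

/-- The real value `x + y √a` of a solution. -/
def realValue : Solution₁ (a : ℤ) →* ℝ where
  toFun s := (s.x : ℝ) + s.y * √(a : ℝ)
  map_one' := by simp
  map_mul' s t := by
    rw [Solution₁.x_mul, Solution₁.y_mul]
    push_cast
    linear_combination (-((s.y : ℝ) * t.y)) * Real.sq_sqrt (Nat.cast_nonneg (α := ℝ) a)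

theorem realValue_apply (s : Solution₁ (a : ℤ)) :
    realValue s = (s.x : ℝ) + s.y * √(a : ℝ) := rfl

theorem eq_zero_of_mul_sqrt_eq (ha : ¬IsSquare a) {Y : ℤ} {w : ℚ}
    (h : (Y : ℝ) * √(a : ℝ) = w) : Y = 0 :=
  by_contra fun hY => (irrational_sqrt_natCast_iff.2 ha).intCast_mul hY ⟨w, h.symm⟩

theorem not_isSquare_of_isFundamental {ε : Solution₁ (a : ℤ)} (hε : IsFundamental ε) :
    ¬IsSquare a :=
  fun h => hε.d_nonsquare (Int.isSquare_natCast_iff.2 h)

theorem zpow_eq_zero_of_y {ε : Solution₁ (a : ℤ)} (hε : IsFundamental ε) {k : ℤ}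
    (h : (ε ^ k).y = 0) : k = 0 := by
  rcases Solution₁.eq_one_or_neg_one_iff_y_eq_zero.2 h with h1 | h1
  · exact (hε.zpow_eq_one_iff k).1 h1
  · exact absurd (h1.trans (by rw [zpow_zero])) (hε.zpow_ne_neg_zpow (n' := 0))

/-- The three numbers are multiplicatively independent. -/
theorem independent {ε : Solution₁ (a : ℤ)} {η : Solution₁ (b : ℤ)} (hε : IsFundamental ε)
    (hη : IsFundamental η) (hab : ¬IsSquare (a * b)) {c : ℚ} (hc : c ≠ 0) {i k : ℤ}
    (h : realValue (ε ^ i) = c * realValue (η ^ k)) : i = 0 ∧ k = 0 := by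
  have ha := not_isSquare_of_isFundamental hε
  have hb := not_isSquare_of_isFundamental hη
  rw [realValue_apply, realValue_apply] at h
  set X := (ε ^ i).x
  set Y := (ε ^ i).y with hY
  set X' := (η ^ k).x
  set Y' := (η ^ k).y with hY'
  have hw : (Y : ℝ) * √(a : ℝ) - c * Y' * √(b : ℝ) = ((c * X' - X : ℚ) : ℝ) := by
    push_cast; linarith
  have hYY : Y * Y' = 0 := by
    refine eq_zero_of_mul_sqrt_eq hab
      (w := ((Y : ℚ) ^ 2 * a + c ^ 2 * (Y' : ℚ) ^ 2 * b - (c * X' - X) ^ 2) / (2 * c)) ?_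
    push_cast at hw ⊢
    rw [Real.sqrt_mul (Nat.cast_nonneg a),
      eq_div_iff (mul_ne_zero two_ne_zero (by exact_mod_cast hc))]
    linear_combination (-((Y : ℝ) * √(a : ℝ) - c * Y' * √(b : ℝ) + (c * X' - X))) * hw +
      ((Y : ℝ) ^ 2) * Real.sq_sqrt (Nat.cast_nonneg (α := ℝ) a) +
      ((c : ℝ) ^ 2 * (Y' : ℝ) ^ 2) * Real.sq_sqrt (Nat.cast_nonneg (α := ℝ) b)
  have h0 : Y = 0 ∧ Y' = 0 := by
    rcases mul_eq_zero.1 hYY with h1 | h1
    · refine ⟨h1, eq_zero_of_mul_sqrt_eq hb (w := -((c * X' - X) / c)) ?_⟩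
      rw [h1, Int.cast_zero, zero_mul, zero_sub] at hw
      push_cast at hw ⊢
      rw [← neg_div, eq_div_iff (by exact_mod_cast hc), ← hw]
      ring
    · refine ⟨eq_zero_of_mul_sqrt_eq ha (w := c * X' - X) ?_, h1⟩
      rw [h1, Int.cast_zero, mul_zero, zero_mul, sub_zero] at hw
      exact hw
  exact ⟨zpow_eq_zero_of_y hε h0.1, zpow_eq_zero_of_y hη h0.2⟩

theorem realValue_facts {ε : Solution₁ (a : ℤ)} (hε : IsFundamental ε) :
    2 ≤ realValue ε ∧ realValue ε ≤ 2 * (ε.x : ℝ) := by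
  rw [realValue_apply]
  have h1 : (2 : ℝ) ≤ ε.x := by exact_mod_cast hε.1
  have h2 : (0 : ℝ) ≤ ε.y := by exact_mod_cast hε.2.1.le
  have h3 := Real.sq_sqrt (Nat.cast_nonneg (α := ℝ) a)
  have h4 := Real.sqrt_nonneg (a : ℝ)
  have h5 : (ε.x : ℝ) ^ 2 - a * (ε.y : ℝ) ^ 2 = 1 := by exact_mod_cast ε.prop
  constructor <;> nlinarith [mul_nonneg h2 h4, sq_nonneg ((ε.x : ℝ) - ε.y * √(a : ℝ))]

theorem exponent_facts {ε : Solution₁ (a : ℤ)} (hε : IsFundamental ε) {h : ℕ} (ha : a ≤ 2 ^ h)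
    {x z : ℕ} (hz : 0 < z) (hx : x ^ 2 = a * z ^ 2 + 1) :
    ∃ i : ℕ, realValue ε ^ i = (x : ℝ) + z * √(a : ℝ) ∧
      i ≤ 2 ^ (h + 4 + Nat.log 2 (Nat.log 2 z)) := by
  have hxZ : (x : ℤ) ^ 2 - (a : ℤ) * (z : ℤ) ^ 2 = 1 := by
    have : (x : ℤ) ^ 2 = (a : ℤ) * (z : ℤ) ^ 2 + 1 := by exact_mod_cast hx
    linarith
  have hx0 : 0 < x := Nat.pos_of_ne_zero fun e => by simp [e] at hx
  obtain ⟨i, hi⟩ := hε.eq_pow_of_nonneg (a := Solution₁.mk (x : ℤ) z hxZ)
    (by rw [Solution₁.x_mk]; exact_mod_cast hx0) (by rw [Solution₁.y_mk]; positivity)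
  have hval : realValue ε ^ i = (x : ℝ) + z * √(a : ℝ) := by
    rw [← map_pow, ← hi, realValue_apply, Solution₁.x_mk, Solution₁.y_mk]
    norm_num
  refine ⟨i, hval, ?_⟩
  have hx1 : x ≤ 2 ^ (h + 1) * z := by
    refine (Nat.pow_le_pow_iff_left two_ne_zero).1 ?_
    rw [hx, mul_pow, ← pow_mul]
    calc a * z ^ 2 + 1 ≤ 2 ^ h * z ^ 2 + 1 * z ^ 2 :=
          Nat.add_le_add (Nat.mul_le_mul_right _ ha) (by simpa using Nat.one_le_pow _ _ hz)
      _ ≤ (2 ^ h + 2 ^ h) * z ^ 2 := by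
          rw [← add_mul]; exact Nat.mul_le_mul_right _ (Nat.add_le_add_left Nat.one_le_two_pow _)
      _ ≤ _ := Nat.mul_le_mul_right _ (by
          rw [← two_mul, ← pow_succ']; exact Nat.pow_le_pow_right two_pos (by omega))
  have hxz : (z : ℝ) * √(a : ℝ) ≤ x := by
    have h1 : (x : ℝ) ^ 2 = a * (z : ℝ) ^ 2 + 1 := by exact_mod_cast hx
    refine le_of_pow_le_pow_left₀ two_ne_zero (Nat.cast_nonneg _) ?_
    rw [mul_pow, Real.sq_sqrt (Nat.cast_nonneg a)]
    linarith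
  have h2 : 2 ^ i ≤ 2 ^ (h + 2 + (Nat.log 2 z + 1)) := by
    have h3 : (2 : ℝ) ^ i ≤ ((2 * x : ℕ) : ℝ) := by
      push_cast
      exact ((pow_le_pow_left₀ (by norm_num) (realValue_facts hε).1 i).trans_eq hval).trans
        (by linarith)
    refine le_trans (Nat.cast_le.1 (by exact_mod_cast h3 : ((2 ^ i : ℕ) : ℝ) ≤ (2 * x : ℕ))) ?_
    rw [pow_add 2 (h + 2), pow_succ' 2 (h + 1), mul_assoc]
    exact Nat.mul_le_mul_left _ (hx1.trans
      (Nat.mul_le_mul_left _ (Nat.lt_pow_succ_log_self one_lt_two z).le))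
  refine ((Nat.pow_le_pow_iff_right one_lt_two).1 h2).trans ?_
  set X := Nat.log 2 z
  have h3 := (Nat.lt_pow_succ_log_self one_lt_two X).le.trans
    (Nat.pow_le_pow_right two_pos (show (Nat.log 2 X).succ ≤ h + 3 + Nat.log 2 X by omega))
  have h4 := (Nat.lt_two_pow_self (n := h + 3)).le.trans
    (Nat.pow_le_pow_right two_pos (Nat.le_add_right _ (Nat.log 2 X)))
  rw [show h + 4 + Nat.log 2 X = h + 3 + Nat.log 2 X + 1 by ring, pow_succ]
  omega

theorem abs_log_le_two_mul {q : ℝ} (h : |q - 1| ≤ 1 / 2) : |Real.log q| ≤ 2 * |q - 1| := by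
  have hq : 1 / 2 ≤ q := by linarith [(abs_le.1 h).1]
  have h1 := Real.log_le_sub_one_of_pos (show 0 < q by linarith)
  have h2 := Real.one_sub_inv_le_log_of_pos (show 0 < q by linarith)
  have h3 : -(2 * |q - 1|) ≤ 1 - q⁻¹ := by
    rw [show 1 - q⁻¹ = (q - 1) / q by field_simp, le_div_iff₀ (by linarith)]
    nlinarith [neg_abs_le (q - 1), abs_nonneg (q - 1)]
  rw [abs_le]
  constructor <;> linarith [le_abs_self (q - 1), abs_nonneg (q - 1)]

/-- The bound for the logarithm, to base `2`, of `z`. -/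
def pellBound (h : ℕ) : ℕ :=
  2 * (h + 2) + 2 * (2 * kappa 3) ^ (2 * kappa 3) * ((2 ^ 56 * (2 * h + 5)) ^ kappa 3) ^ 2

set_option maxHeartbeats 1000000 in
/-- **Baker's theorem for a solution.** -/
theorem z_le_of_solution {ε : Solution₁ (a : ℤ)} {η : Solution₁ (b : ℤ)} (hε : IsFundamental ε)
    (hη : IsFundamental η) (hab : ¬IsSquare (a * b)) {h : ℕ} (hεh : ε.x ≤ 2 ^ h)
    (hηh : η.x ≤ 2 ^ h) (hah : a ≤ 2 ^ h) (hbh : b ≤ 2 ^ h) {x y z : ℕ} (hz : 2 ^ (h + 1) ≤ z)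
    (hx : x ^ 2 = a * z ^ 2 + 1) (hy : y ^ 2 = b * z ^ 2 + 1) :
    z ≤ 2 ^ (h + 1 + baseAlg 3 4 (h + 1) (h + 4 + Nat.log 2 (Nat.log 2 z)) ^ kappa 3) := by
  classical
  have hz0 : 0 < z := lt_of_lt_of_le (Nat.two_pow_pos _) hz
  have ha0 : 0 < a := by exact_mod_cast hε.d_pos
  have hb0 : 0 < b := by exact_mod_cast hη.d_pos
  obtain ⟨i, hi, him⟩ := exponent_facts hε hah hz0 hx
  obtain ⟨k, hk, hkm⟩ := exponent_facts hη hbh hz0 hy
  set r := realValue ε
  set s := realValue η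
  obtain ⟨hr2, hrx⟩ := realValue_facts hε
  obtain ⟨hs2, hsx⟩ := realValue_facts hη
  have hA1 : 1 ≤ √(a : ℝ) := Real.one_le_sqrt.2 (by exact_mod_cast ha0)
  have hB1 : 1 ≤ √(b : ℝ) := Real.one_le_sqrt.2 (by exact_mod_cast hb0)
  have hsA := Real.sq_sqrt (Nat.cast_nonneg (α := ℝ) a)
  have hsB := Real.sq_sqrt (Nat.cast_nonneg (α := ℝ) b)
  set q := √(b : ℝ) / √(a : ℝ) with hq
  have hq0 : 0 < q := by positivity
  -- the form is small but is not zero
  set Q := r ^ i * q / s ^ k with hQ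
  have hQ0 : 0 < Q := by positivity
  have hnear : |Q - 1| ≤ (2 : ℝ) ^ h / z ∧ Q ≠ 1 := by
    have hx' : (x : ℝ) ^ 2 = a * (z : ℝ) ^ 2 + 1 := by exact_mod_cast hx
    have hy' : (y : ℝ) ^ 2 = b * (z : ℝ) ^ 2 + 1 := by exact_mod_cast hy
    have hzR : (1 : ℝ) ≤ z := by exact_mod_cast hz0
    have ha1 : (1 : ℝ) ≤ a := by exact_mod_cast ha0
    have hxz : (z : ℝ) ≤ x := by
      nlinarith [Nat.cast_nonneg (α := ℝ) x, sq_nonneg ((x : ℝ) - z),
        mul_le_mul_of_nonneg_right ha1 (sq_nonneg (z : ℝ))]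
    have hy1 : (1 : ℝ) ≤ y := by
      exact_mod_cast Nat.one_le_iff_ne_zero.2 fun e => by simp [e] at hy
    set S := (x : ℝ) * √(b : ℝ) + y * √(a : ℝ) with hS
    set G := ((y : ℝ) + z * √(b : ℝ)) * √(a : ℝ) with hG
    have hSz : (z : ℝ) ≤ S := by
      have h6 : (x : ℝ) * 1 ≤ x * √(b : ℝ) := mul_le_mul_of_nonneg_left hB1 (Nat.cast_nonneg _)
      have : (0 : ℝ) ≤ y * √(a : ℝ) := by positivity
      linarith
    have hG1 : 1 ≤ G := one_le_mul_of_one_le_of_one_le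
      (le_add_of_le_of_nonneg hy1 (by positivity)) hA1
    have hQeq : Q - 1 = ((b : ℝ) - a) / S / G := by
      have hsk : s ^ k = (y : ℝ) + z * √(b : ℝ) := hk
      rw [hQ, hi, hsk, hq, hS, hG]
      have e1 : (y : ℝ) + z * √(b : ℝ) ≠ 0 := by positivity
      have e2 : √(a : ℝ) ≠ 0 := by positivity
      have e3 : (x : ℝ) * √(b : ℝ) + y * √(a : ℝ) ≠ 0 := by
        rw [← hS]; linarith
      field_simp
      linear_combination (b : ℝ) * hx' - (a : ℝ) * hy' + (x : ℝ) ^ 2 * hsB - (y : ℝ) ^ 2 * hsA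
    refine ⟨?_, fun e => ?_⟩
    · rw [hQeq, abs_div, abs_div, abs_of_pos (show 0 < S by linarith),
        abs_of_pos (show 0 < G by linarith)]
      refine (div_le_self (by positivity) hG1).trans ?_
      refine div_le_div₀ (by positivity) ?_ (by linarith) hSz
      have h7 : (a : ℝ) ≤ (2 : ℝ) ^ h := by exact_mod_cast hah
      have h8 : (b : ℝ) ≤ (2 : ℝ) ^ h := by exact_mod_cast hbh
      rw [abs_sub_le_iff]
      constructor <;> linarith [Nat.cast_nonneg (α := ℝ) a, Nat.cast_nonneg (α := ℝ) b]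
    · rw [e, sub_self, eq_comm, div_eq_zero_iff, div_eq_zero_iff] at hQeq
      have hne : (b : ℝ) - a ≠ 0 := sub_ne_zero.2 (by
        exact_mod_cast fun e : b = a => hab (e ▸ ⟨b, rfl⟩))
      rcases hQeq with (h9 | h9) | h9
      · exact hne h9
      · linarith
      · linarith
  -- the field
  set F : IntermediateField ℚ ℂ := ℚ⟮((√(a : ℝ) : ℝ) : ℂ)⟯ ⊔ ℚ⟮((√(b : ℝ) : ℝ) : ℂ)⟯
  have hint : ∀ c : ℕ, IsIntegral ℚ ((√(c : ℝ) : ℝ) : ℂ) ∧
      finrank ℚ ℚ⟮((√(c : ℝ) : ℝ) : ℂ)⟯ ≤ 2 := fun c => by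
    have h1 : Polynomial.aeval ((√(c : ℝ) : ℝ) : ℂ)
        (Polynomial.X ^ 2 - Polynomial.C (c : ℚ)) = 0 := by
      rw [map_sub, map_pow, Polynomial.aeval_X, Polynomial.aeval_C, map_natCast,
        ← Complex.ofReal_pow, Real.sq_sqrt (Nat.cast_nonneg c), Complex.ofReal_natCast, sub_self]
    have h2 : (Polynomial.X ^ 2 - Polynomial.C (c : ℚ)).Monic :=
      Polynomial.monic_X_pow_sub_C _ two_ne_zero
    refine ⟨⟨_, h2, by rwa [← Polynomial.aeval_def]⟩, ?_⟩
    rw [adjoin.finrank ⟨_, h2, by rwa [← Polynomial.aeval_def]⟩]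
    exact (Polynomial.natDegree_le_natDegree (minpoly.min ℚ _ h2 h1)).trans_eq
      Polynomial.natDegree_X_pow_sub_C
  have := adjoin.finiteDimensional (hint a).1
  have := adjoin.finiteDimensional (hint b).1
  have hdeg : finrank ℚ F ≤ 4 :=
    (finrank_sup_le _ _).trans (Nat.mul_le_mul (hint a).2 (hint b).2)
  have : FiniteDimensional ℚ F := IntermediateField.finiteDimensional_sup _ _
  have : NumberField F := {}
  let ψ : F →+* ℂ := F.val.toRingHom
  let sA : F := ⟨_, le_sup_left (b := ℚ⟮((√(b : ℝ) : ℝ) : ℂ)⟯)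
    (mem_adjoin_simple_self ℚ ((√(a : ℝ) : ℝ) : ℂ))⟩
  let sB : F := ⟨_, le_sup_right (a := ℚ⟮((√(a : ℝ) : ℝ) : ℂ)⟯)
    (mem_adjoin_simple_self ℚ ((√(b : ℝ) : ℝ) : ℂ))⟩
  have hψA : ψ sA = ((√(a : ℝ) : ℝ) : ℂ) := rfl
  have hψB : ψ sB = ((√(b : ℝ) : ℝ) : ℂ) := rfl
  have hA2 : sA ^ 2 = (a : F) := ψ.injective (by
    rw [map_pow, hψA, map_natCast, ← Complex.ofReal_pow, hsA, Complex.ofReal_natCast])
  have hB2 : sB ^ 2 = (b : F) := ψ.injective (by
    rw [map_pow, hψB, map_natCast, ← Complex.ofReal_pow, hsB, Complex.ofReal_natCast])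
  have hnorm : ∀ {u : F} {c : ℕ}, u ^ 2 = (c : F) → ∀ σ : F →+* ℂ, ‖σ u‖ = √(c : ℝ) :=
    fun {u c} hu σ => by
      rw [← Complex.norm_natCast, ← map_natCast σ c, ← hu, map_pow, norm_pow,
        Real.sqrt_sq (norm_nonneg _)]
  let α : Fin 3 → F :=
    ![(ε.x : F) + (ε.y : F) * sA, (η.x : F) + (η.y : F) * sB, sB / sA]
  let l : Fin 3 → ℂ := ![(Real.log r : ℂ), (Real.log s : ℂ), (Real.log q : ℂ)]
  have hψα : ψ (α 0) = (r : ℂ) ∧ ψ (α 1) = (s : ℂ) ∧ ψ (α 2) = (q : ℂ) := by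
    refine ⟨?_, ?_, ?_⟩ <;> simp [α, hψA, hψB, r, s, q, realValue_apply]
  obtain ⟨hψ0, hψ1, hψ2⟩ := hψα
  have hεx : (ε.x : ℝ) ≤ (2 : ℝ) ^ h := by exact_mod_cast hεh
  have hηx : (η.x : ℝ) ≤ (2 : ℝ) ^ h := by exact_mod_cast hηh
  have hsqrt : ∀ {c : ℕ}, c ≤ 2 ^ h → √(c : ℝ) ≤ (2 : ℝ) ^ h := fun {c} hc => by
    rw [Real.sqrt_le_left (by positivity)]
    exact (show (c : ℝ) ≤ (2 : ℝ) ^ h by exact_mod_cast hc).trans
      (le_self_pow₀ (one_le_pow₀ one_le_two) two_ne_zero)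
  have hlog : ∀ {u : ℝ}, 1 ≤ u → u ≤ (2 : ℝ) ^ (h + 1) → |Real.log u| ≤ ((h + 1 : ℕ) : ℝ) :=
    fun {u} hu1 hu2 => by
      rw [abs_of_nonneg (Real.log_nonneg hu1)]
      refine (Real.log_le_log (by linarith) hu2).trans ?_
      rw [Real.log_pow]
      exact mul_le_of_le_one_right (Nat.cast_nonneg _) (Real.log_two_lt_d9.le.trans (by norm_num))
  have hind : Function.Injective fun u : Fin 3 → ℕ => ∏ j, α j ^ u j := by
    intro u v huv
    have h1 := congrArg ψ huv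
    simp only [Fin.prod_univ_three, map_mul, map_pow, hψ0, hψ1, hψ2] at h1
    have h2 : r ^ u 0 * s ^ u 1 * q ^ u 2 = r ^ v 0 * s ^ v 1 * q ^ v 2 := by exact_mod_cast h1
    have hq2 : q ^ 2 = (b : ℝ) / a := by rw [hq, div_pow, hsA, hsB]
    set R : ℚ := (b : ℚ) / a with hR
    have hR0 : R ≠ 0 := by positivity
    have hRq : (R : ℝ) = q ^ 2 := by rw [hq2, hR]; push_cast; rfl
    have h3 : realValue (ε ^ (2 * (u 0 : ℤ) - 2 * (v 0 : ℤ))) =
        ((R ^ ((v 2 : ℤ) - (u 2 : ℤ)) : ℚ) : ℝ) *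
          realValue (η ^ (2 * (v 1 : ℤ) - 2 * (u 1 : ℤ))) := by
      rw [map_zpow, map_zpow, Rat.cast_zpow, hRq,
        zpow_sub₀ (show r ≠ 0 by linarith), zpow_sub₀ (show s ≠ 0 by linarith),
        zpow_sub₀ (pow_ne_zero 2 hq0.ne')]
      simp only [zpow_mul, zpow_natCast, zpow_ofNat]
      rw [div_mul_div_comm, div_eq_div_iff (by positivity) (by positivity)]
      simp only [← pow_mul]
      have h4 := congrArg (· ^ 2) h2
      simp only [mul_pow, ← pow_mul] at h4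
      simp only [mul_comm 2]
      linear_combination h4
    obtain ⟨e0, e1⟩ := independent hε hη hab (zpow_ne_zero _ hR0) h3
    have e2 : (v 2 : ℤ) - (u 2 : ℤ) = 0 := by
      rw [e0, e1, zpow_zero, zpow_zero, map_one, map_one, mul_one, eq_comm] at h3
      refine (zpow_eq_one_iff_right₀ (show 0 ≤ R by positivity) ?_).1 (by exact_mod_cast h3)
      rw [hR, ne_eq, div_eq_one_iff_eq (Nat.cast_ne_zero.2 ha0.ne')]
      exact_mod_cast fun e : b = a => hab (e ▸ ⟨b, rfl⟩)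
    funext j
    fin_cases j <;> simp only [Fin.zero_eta, Fin.mk_one, Fin.reduceFinMk] <;> omega
  have hintA : IsIntegral ℤ sA :=
    IsIntegral.of_pow two_pos (hA2 ▸ isIntegral_algebraMap (x := (a : ℤ)))
  have hintB : IsIntegral ℤ sB :=
    IsIntegral.of_pow two_pos (hB2 ▸ isIntegral_algebraMap (x := (b : ℤ)))
  have hcastint : ∀ c : ℤ, IsIntegral ℤ ((c : F)) := fun c => by
    simpa using isIntegral_algebraMap (R := ℤ) (A := F) (x := c)
  have hDint : ∀ j, IsIntegral ℤ ((a : F) * α j) := fun j => by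
    have hnat : IsIntegral ℤ (a : F) := by simpa using hcastint a
    fin_cases j
    · exact hnat.mul ((hcastint _).add ((hcastint _).mul hintA))
    · exact hnat.mul ((hcastint _).add ((hcastint _).mul hintB))
    · have : (a : F) * (sB / sA) = sA * sB := by
        rw [← hA2]
        have : sA ≠ 0 := fun e =>
          Nat.cast_ne_zero.2 ha0.ne' (hA2.symm.trans (by simp [e]))
        field_simp
      show IsIntegral ℤ ((a : F) * (sB / sA))
      rw [this]
      exact hintA.mul hintB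
  have hhouse : ∀ j, house (α j) ≤ (2 : ℝ) ^ (h + 1) := fun j =>
    Algebraic.house_le_of_forall (by positivity) fun σ => by
      fin_cases j
      · show ‖σ ((ε.x : F) + (ε.y : F) * sA)‖ ≤ _
        rw [map_add, map_mul, map_intCast, map_intCast]
        refine (norm_add_le _ _).trans ?_
        rw [norm_mul, Complex.norm_intCast, Complex.norm_intCast, hnorm hA2,
          abs_of_pos (show (0 : ℝ) < ε.x by exact_mod_cast hε.x_pos),
          abs_of_pos (show (0 : ℝ) < ε.y by exact_mod_cast hε.2.1), pow_succ]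
        exact le_trans hrx (by linarith)
      · show ‖σ ((η.x : F) + (η.y : F) * sB)‖ ≤ _
        rw [map_add, map_mul, map_intCast, map_intCast]
        refine (norm_add_le _ _).trans ?_
        rw [norm_mul, Complex.norm_intCast, Complex.norm_intCast, hnorm hB2,
          abs_of_pos (show (0 : ℝ) < η.x by exact_mod_cast hη.x_pos),
          abs_of_pos (show (0 : ℝ) < η.y by exact_mod_cast hη.2.1), pow_succ]
        exact le_trans hsx (by linarith)
      · show ‖σ (sB / sA)‖ ≤ _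
        rw [map_div₀, norm_div, hnorm hA2, hnorm hB2, pow_succ]
        refine (div_le_self (Real.sqrt_nonneg _) hA1).trans ((hsqrt hbh).trans ?_)
        linarith [pow_pos (show (0 : ℝ) < 2 by norm_num) h]
  have hexp : ∀ j, Complex.exp (l j) = ψ (α j) := fun j => by
    fin_cases j
    · show Complex.exp (Real.log r : ℂ) = ψ (α 0)
      rw [hψ0, ← Complex.ofReal_exp, Real.exp_log (by linarith)]
    · show Complex.exp (Real.log s : ℂ) = ψ (α 1)
      rw [hψ1, ← Complex.ofReal_exp, Real.exp_log (by linarith)]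
    · show Complex.exp (Real.log q : ℂ) = ψ (α 2)
      rw [hψ2, ← Complex.ofReal_exp, Real.exp_log hq0]
  have hl : ∀ j, ‖l j‖ ≤ ((h + 1 : ℕ) : ℝ) := fun j => by
    fin_cases j
    · show ‖(Real.log r : ℂ)‖ ≤ _
      rw [Complex.norm_real, Real.norm_eq_abs]
      exact hlog (by linarith) (hrx.trans (by rw [pow_succ]; linarith))
    · show ‖(Real.log s : ℂ)‖ ≤ _
      rw [Complex.norm_real, Real.norm_eq_abs]
      exact hlog (by linarith) (hsx.trans (by rw [pow_succ]; linarith))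
    · show ‖(Real.log q : ℂ)‖ ≤ _
      rw [Complex.norm_real, Real.norm_eq_abs, hq, Real.log_div (by positivity) (by positivity)]
      have h5 := hlog hA1 ((hsqrt hah).trans (pow_le_pow_right₀ one_le_two (by omega)))
      have h6 := hlog hB1 ((hsqrt hbh).trans (pow_le_pow_right₀ one_le_two (by omega)))
      rw [abs_of_nonneg (Real.log_nonneg hA1)] at h5
      rw [abs_of_nonneg (Real.log_nonneg hB1)] at h6
      rw [abs_sub_le_iff]
      constructor <;> linarith [Real.log_nonneg hA1, Real.log_nonneg hB1]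
  let c : Fin 3 → ℤ := ![(i : ℤ), -(k : ℤ), 1]
  have hc0 : c ≠ 0 := fun e => by simpa [c] using congrFun e 2
  have hcm : ∀ j, (c j).natAbs ≤ 2 ^ (h + 4 + Nat.log 2 (Nat.log 2 z)) := fun j => by
    fin_cases j
    · simpa [c] using him
    · simpa [c] using hkm
    · simpa [c] using Nat.one_le_two_pow
  have hbaker := Algebraic.baker_algebraic_bound (d := 4) hdeg ψ ha0 hDint
    (h := h + 1) (hah.trans (Nat.pow_le_pow_right two_pos (by omega))) hhouse hexp hl hind hc0 hcm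
  have hsum : ‖∑ j, (c j : ℂ) * l j‖ = |Real.log Q| := by
    rw [hQ, Real.log_div (by positivity) (by positivity), Real.log_mul (by positivity) hq0.ne',
      Real.log_pow, Real.log_pow, ← Real.norm_eq_abs, ← Complex.norm_real, Fin.sum_univ_three]
    congr 1
    simp [c, l]
    ring
  rw [hsum] at hbaker
  have hsmall : |Q - 1| ≤ 1 / 2 := hnear.1.trans (by
    rw [div_le_div_iff₀ (Nat.cast_pos.2 hz0) two_pos, one_mul, ← pow_succ]
    exact_mod_cast hz)
  have hfin := hbaker.trans ((abs_log_le_two_mul hsmall).trans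
    (mul_le_mul_of_nonneg_left hnear.1 two_pos.le))
  rw [← mul_div_assoc, ← pow_succ', div_le_div_iff₀ (by positivity) (Nat.cast_pos.2 hz0),
    one_mul, ← pow_add] at hfin
  exact_mod_cast hfin

/-- **Simultaneous Pell equations, effectively.** -/
theorem z_lt_pellBound {ε : Solution₁ (a : ℤ)} {η : Solution₁ (b : ℤ)}
    (hε : IsFundamental ε) (hη : IsFundamental η) (hab : ¬IsSquare (a * b)) {h : ℕ}
    (hεh : ε.x ≤ 2 ^ h) (hηh : η.x ≤ 2 ^ h) (hah : a ≤ 2 ^ h) (hbh : b ≤ 2 ^ h) {x y z : ℕ}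
    (hx : x ^ 2 = a * z ^ 2 + 1) (hy : y ^ 2 = b * z ^ 2 + 1) :
    z < 2 ^ (pellBound h + 1) := by
  rcases lt_or_ge z (2 ^ (h + 1)) with hz | hz
  · refine hz.trans_le (Nat.pow_le_pow_right two_pos ?_)
    rw [pellBound]
    omega
  · have h1 := z_le_of_solution hε hη hab hεh hηh hah hbh hz hx hy
    set X := Nat.log 2 z
    set l := Nat.log 2 X + 1 with hl
    have hb : baseAlg 3 4 (h + 1) (h + 4 + Nat.log 2 X) ≤ 2 ^ 56 * (2 * h + 5) * l := by
      rw [baseAlg, show (2 : ℕ) ^ (4 * 3 ^ 2 + 18) * 4 = 2 ^ 56 by norm_num, mul_assoc]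
      exact Nat.mul_le_mul_left _ (by rw [hl]; nlinarith)
    have h2 := Nat.pow_le_pow_left hb (kappa 3)
    rw [mul_pow] at h2
    have h3 : X ≤ h + 1 + baseAlg 3 4 (h + 1) (h + 4 + Nat.log 2 X) ^ kappa 3 :=
      (Nat.pow_le_pow_iff_right one_lt_two).1
        ((Nat.pow_log_le_self 2 (show z ≠ 0 by have := Nat.two_pow_pos (h + 1); omega)).trans h1)
    exact lt_of_lt_of_le (Nat.lt_pow_succ_log_self one_lt_two z)
      (Nat.pow_le_pow_right two_pos (Nat.succ_le_succ (le_of_le_add_mul_log_pow (u := h + 2)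
        (D := (2 ^ 56 * (2 * h + 5)) ^ kappa 3) (κ := kappa 3) (by simp only [kappa]; omega)
        (show X ≤ _ by rw [← hl]; omega))))

/-- **Finiteness.** -/
theorem solutions_finite (ha : ¬IsSquare a) (hb : ¬IsSquare b)
    (hab : ¬IsSquare (a * b)) :
    {t : ℕ × ℕ × ℕ | t.1 ^ 2 = a * t.2.2 ^ 2 + 1 ∧ t.2.1 ^ 2 = b * t.2.2 ^ 2 + 1}.Finite := by
  have hpos : ∀ {c : ℕ}, ¬IsSquare c → (0 : ℤ) < c := fun {c} hc =>
    Nat.cast_pos.2 (Nat.pos_of_ne_zero fun e => hc (e ▸ IsSquare.zero))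
  obtain ⟨ε, hε⟩ := IsFundamental.exists_of_not_isSquare (hpos ha)
    fun h => ha (Int.isSquare_natCast_iff.1 h)
  obtain ⟨η, hη⟩ := IsFundamental.exists_of_not_isSquare (hpos hb)
    fun h => hb (Int.isSquare_natCast_iff.1 h)
  set h := a + b + ε.x.natAbs + η.x.natAbs
  have hle : ∀ {c : ℕ}, c ≤ h → c ≤ 2 ^ h := fun hc => hc.trans Nat.lt_two_pow_self.le
  have hle' : ∀ {c : ℤ}, c.natAbs ≤ h → c ≤ 2 ^ h := fun {c} hc =>
    Int.le_natAbs.trans (by exact_mod_cast hle hc)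
  set B := 2 ^ (pellBound h + 1)
  refine ((Set.finite_Iic (a * B ^ 2 + 1)).prod
    ((Set.finite_Iic (b * B ^ 2 + 1)).prod (Set.finite_Iic B))).subset fun t ht => ?_
  have hz : t.2.2 ≤ B := (z_lt_pellBound hε hη hab (hle' (by omega))
    (hle' (by omega)) (hle (by omega)) (hle (by omega)) ht.1 ht.2).le
  refine ⟨Set.mem_Iic.2 ?_, Set.mem_Iic.2 ?_, Set.mem_Iic.2 hz⟩
  · exact (Nat.le_self_pow two_ne_zero _).trans (ht.1.trans_le (by gcongr))
  · exact (Nat.le_self_pow two_ne_zero _).trans (ht.2.trans_le (by gcongr))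

end FA.BakerExplicit.SimultaneousPell

end
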