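import Mathlib.Algebra.Order.Ring.Abs
import Mathlib.Algebra.Order.Ring.Int
import Mathlib.Data.Nat.Choose.Sum
import Mathlib.Tactic.LinearCombination
import Mathlib.Tactic.Linarith
import Mathlib.Tactic.Ring

/-!
# The zeros of a ternary recurrence with a repeated root

Such a root is an integer, and a zero gives an equality between an exponential and a linear
expression, so the zeros are periodic, with every even period, from an elementary index on.
-/

set_option autoImplicit false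

noncomputable section

namespace FA.BakerExplicit.TernaryRecurrence

theorem pow_succ_ge {X : ℕ} : ∀ n, 1 ≤ n → X ^ (n - 1) * (X + n) ≤ (X + 1) ^ n := by
  intro n hn
  induction n, hn using Nat.le_induction with
  | base => simp
  | succ n hn ih =>
    rw [Nat.add_sub_cancel, pow_succ (X + 1)]
    refine le_trans ?_ (Nat.mul_le_mul_right _ ih)
    rw [show X ^ n = X ^ (n - 1) * X by rw [← pow_succ, Nat.sub_add_cancel hn], mul_assoc,
      mul_assoc]
    refine Nat.mul_le_mul_left _ ?_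
    calc X * (X + (n + 1)) ≤ X * (X + (n + 1)) + n := Nat.le_add_right _ _
      _ = (X + n) * (X + 1) := by ring

theorem pow_succ_ge_two {X : ℕ} : ∀ n, 2 ≤ n →
    X ^ (n - 2) * (2 * X ^ 2 + 2 * n * X + n * (n - 1)) ≤ 2 * (X + 1) ^ n := by
  intro n hn
  induction n, hn using Nat.le_induction with
  | base => simp; ring_nf; omega
  | succ n hn ih =>
    obtain ⟨r, rfl⟩ : ∃ r, n = r + 2 := ⟨n - 2, by omega⟩
    simp only [show r + 2 + 1 - 2 = r + 1 by omega, show r + 2 + 1 - 1 = r + 2 by omega,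
      Nat.add_sub_cancel, show r + 2 - 1 = r + 1 by omega] at ih ⊢
    rw [pow_succ (X + 1) (r + 2), ← mul_assoc 2]
    refine le_trans ?_ (Nat.mul_le_mul_right _ ih)
    rw [pow_succ X r, mul_assoc (X ^ r) X, mul_assoc (X ^ r) _ (X + 1)]
    refine Nat.mul_le_mul_left _ ?_
    calc X * (2 * X ^ 2 + 2 * (r + 2 + 1) * X + (r + 2 + 1) * (r + 2))
        ≤ X * (2 * X ^ 2 + 2 * (r + 2 + 1) * X + (r + 2 + 1) * (r + 2)) +
          (r + 2) * (r + 1) := Nat.le_add_right _ _
      _ = (2 * X ^ 2 + 2 * (r + 2) * X + (r + 2) * (r + 1)) * (X + 1) := by ring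

/-- An exponential is not a small multiple of another one times a linear expression. -/
theorem linear_exp_ne {K n X Y c L : ℕ} (hL : 1 ≤ L) (hLn : L ≤ (n + 1) * K) (hc : 1 ≤ c)
    (hcK : c ≤ K) (hXK : X ≤ K) (hYK : Y ≤ K) (hX : 1 ≤ X) (hXY : X ≠ Y)
    (hn : 8 * (K + 1) ^ 3 ≤ n) : L * X ^ (n - 1) ≠ c * Y ^ n := fun h => by
  have hn2 : 2 ≤ n := by
    have := Nat.one_le_pow 3 (K + 1) (Nat.succ_pos _); omega
  rcases lt_or_gt_of_ne hXY with hlt | hgt
  · have h1 : 2 * (X + 1) ^ n ≤ 2 * (L * X ^ (n - 1)) := by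
      rw [h]
      exact Nat.mul_le_mul_left _
        ((Nat.pow_le_pow_left hlt n).trans (Nat.le_mul_of_pos_left _ hc))
    have h2 := (pow_succ_ge_two (X := X) n hn2).trans h1
    rw [show X ^ (n - 1) = X ^ (n - 2) * X by rw [← pow_succ]; congr 1; omega,
      show 2 * (L * (X ^ (n - 2) * X)) = X ^ (n - 2) * (2 * L * X) by ring] at h2
    have h3 := Nat.le_of_mul_le_mul_left h2 (Nat.pow_pos hX)
    have h4 : 2 * L * X ≤ 2 * ((n + 1) * K) * K :=
      Nat.mul_le_mul (Nat.mul_le_mul_left _ hLn) hXK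
    have h5 : 4 * (K + 1) ^ 2 ≤ n - 1 := by
      have : (K + 1) ^ 2 ≤ (K + 1) ^ 3 := Nat.pow_le_pow_right (Nat.succ_pos _) (by norm_num)
      omega
    have h6 := Nat.mul_le_mul_left n h5
    nlinarith [h3, h4, h6, hn2]
  · rcases Nat.eq_zero_or_pos Y with rfl | hY
    · rw [zero_pow (by omega), mul_zero] at h
      exact (Nat.mul_pos hL (Nat.pow_pos hX)).ne' h
    have h1 : (Y + 1) ^ (n - 1) ≤ L * X ^ (n - 1) :=
      (Nat.pow_le_pow_left hgt _).trans (Nat.le_mul_of_pos_left _ hL)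
    have h2 := (pow_succ_ge (X := Y) (n - 1) (by omega)).trans h1
    rw [h, show c * Y ^ n = Y ^ (n - 1 - 1) * (c * Y ^ 2) by
      rw [mul_left_comm, ← pow_add]; congr 2; omega] at h2
    have h3 := Nat.le_of_mul_le_mul_left h2 (Nat.pow_pos hY)
    have h4 : c * Y ^ 2 ≤ K * K ^ 2 := Nat.mul_le_mul hcK (Nat.pow_le_pow_left hYK 2)
    have h5 : K * K ^ 2 ≤ (K + 1) ^ 3 := by
      rw [← pow_succ']
      exact Nat.pow_le_pow_left (Nat.le_succ K) 3
    omega

/-- **A double and a simple root.** -/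
theorem linear_exp_periodic {K N : ℕ} (hN : Even N) {p q A B C : ℤ} (hp : p.natAbs ≤ K)
    (hq : q.natAbs ≤ K) (hA : A.natAbs ≤ K) (hB : B.natAbs ≤ K) (hC : C.natAbs ≤ K) {f : ℕ → ℤ}
    (hf : ∀ n, 2 ≤ n → f n = (A * n + B) * p ^ (n - 1) + C * q ^ n) {n : ℕ}
    (hn : 8 * (K + 1) ^ 3 ≤ n) : (f n = 0 ↔ f (n + N) = 0) := by
  have hK3 : 2 * K + 2 ≤ 8 * (K + 1) ^ 3 := by
    have := Nat.le_self_pow (show 3 ≠ 0 by norm_num) (K + 1); omega
  have hlin : (A = 0 ∧ B = 0) ∨ ∀ j, n ≤ j → A * j + B ≠ 0 := by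
    by_cases hA0 : A = 0
    · by_cases hB0 : B = 0
      · exact Or.inl ⟨hA0, hB0⟩
      · exact Or.inr fun j _ => by simp [hA0, hB0]
    · refine Or.inr fun j hj h0 => ?_
      have h1 : ((A * j).natAbs) = B.natAbs := by
        rw [show A * j = -B by linear_combination h0, Int.natAbs_neg]
      rw [Int.natAbs_mul, Int.natAbs_natCast] at h1
      have := Nat.le_mul_of_pos_left j (Int.natAbs_pos.2 hA0)
      omega
  rw [hf n (by omega), hf (n + N) (by omega)]
  rcases hlin with ⟨rfl, rfl⟩ | hlin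
  · simp [show n ≠ 0 by omega]
  by_cases hp0 : p = 0
  · simp [hp0, zero_pow (show n - 1 ≠ 0 by omega), zero_pow (show n + N - 1 ≠ 0 by omega),
      show n ≠ 0 by omega]
  by_cases hc0 : C = 0 ∨ q = 0
  · have key : ∀ j, n ≤ j → (A * j + B) * p ^ (j - 1) + C * q ^ j ≠ 0 := fun j hj => by
      rcases hc0 with h | h <;>
        simpa [h, zero_pow (show j ≠ 0 by omega)] using
          mul_ne_zero (hlin j hj) (pow_ne_zero (j - 1) hp0)
    exact iff_of_false (key n le_rfl) (key _ (Nat.le_add_right _ _))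
  push Not at hc0
  by_cases hpq : p.natAbs = q.natAbs
  · have hp1 : 1 ≤ p.natAbs := Int.natAbs_pos.2 hp0
    by_cases hA0 : A = 0
    · have hsq : q ^ N = p ^ N := by
        obtain ⟨r, rfl⟩ := hN
        rw [← two_mul, pow_mul, pow_mul, ← Int.natAbs_sq q, ← Int.natAbs_sq p, hpq]
      rw [hA0, pow_add q, hsq, show n + N - 1 = n - 1 + N by omega, pow_add p,
        show (0 * ((n + N : ℕ) : ℤ) + B) * (p ^ (n - 1) * p ^ N) + C * (q ^ n * p ^ N) =
          ((0 * (n : ℤ) + B) * p ^ (n - 1) + C * q ^ n) * p ^ N by ring,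
        mul_eq_zero, or_iff_left (pow_ne_zero N hp0)]
    · have key : ∀ j, n ≤ j → (A * j + B) * p ^ (j - 1) + C * q ^ j ≠ 0 := fun j hj h0 => by
        have h1 : ((A * j + B) * p ^ (j - 1)).natAbs = (C * q ^ j).natAbs := by
          rw [show (A * j + B) * p ^ (j - 1) = -(C * q ^ j) by linear_combination h0,
            Int.natAbs_neg]
        rw [Int.natAbs_mul, Int.natAbs_mul, Int.natAbs_pow, Int.natAbs_pow, hpq,
          show q.natAbs ^ j = q.natAbs * q.natAbs ^ (j - 1) by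
            rw [← pow_succ']; congr 1; omega, ← mul_assoc] at h1
        have h2 := Nat.eq_of_mul_eq_mul_right (Nat.pow_pos (hpq ▸ hp1)) h1
        have h3 : C.natAbs * q.natAbs ≤ K * K := Nat.mul_le_mul hC hq
        have h4 : j ≤ (A * j).natAbs := by
          rw [Int.natAbs_mul, Int.natAbs_natCast]
          exact Nat.le_mul_of_pos_left _ (Int.natAbs_pos.2 hA0)
        have h5 : K * K + K < 8 * (K + 1) ^ 3 := by nlinarith
        have h6 : (A * j).natAbs ≤ (A * j + B).natAbs + B.natAbs := by omega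
        omega
      exact iff_of_false (key n le_rfl) (key _ (Nat.le_add_right _ _))
  · have key : ∀ j, n ≤ j → (A * j + B) * p ^ (j - 1) + C * q ^ j ≠ 0 := fun j hj h0 => by
      refine linear_exp_ne (K := K) (n := j) (X := p.natAbs) (Y := q.natAbs) (c := C.natAbs)
        (L := (A * j + B).natAbs) (Int.natAbs_pos.2 (hlin j hj)) ?_ (Int.natAbs_pos.2 hc0.1) hC hp
        hq (Int.natAbs_pos.2 hp0) hpq (hn.trans hj) ?_
      · refine (Int.natAbs_add_le _ _).trans ?_
        rw [Int.natAbs_mul, Int.natAbs_natCast]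
        calc A.natAbs * j + B.natAbs ≤ K * j + K :=
              Nat.add_le_add (Nat.mul_le_mul_right _ hA) hB
          _ = _ := by ring
      · rw [← Int.natAbs_pow, ← Int.natAbs_pow, ← Int.natAbs_mul, ← Int.natAbs_mul,
          show (A * j + B) * p ^ (j - 1) = -(C * q ^ j) by linear_combination h0, Int.natAbs_neg]
    exact iff_of_false (key n le_rfl) (key _ (Nat.le_add_right _ _))

/-- **A triple root.** -/
theorem quadratic_periodic {K N : ℕ} {p a b c : ℤ} (ha : a.natAbs ≤ K) (hb : b.natAbs ≤ K)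
    (hc : c.natAbs ≤ K) {f : ℕ → ℤ}
    (hf : ∀ n, 3 ≤ n → 2 * f n = p ^ (n - 2) * (a * (n : ℤ) ^ 2 + b * n + c)) {n : ℕ}
    (hn : 8 * (K + 1) ^ 3 ≤ n) : (f n = 0 ↔ f (n + N) = 0) := by
  have hK3 : 3 * K + 3 ≤ 8 * (K + 1) ^ 3 := by
    have := Nat.le_self_pow (show 3 ≠ 0 by norm_num) (K + 1); omega
  have hz : ∀ j, n ≤ j → (f j = 0 ↔ p = 0 ∨ (a = 0 ∧ b = 0 ∧ c = 0)) := fun j hj => by
    rw [← mul_eq_zero_iff_left (two_ne_zero : (2 : ℤ) ≠ 0), hf j (by omega), mul_eq_zero,
      pow_eq_zero_iff (by omega)]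
    refine or_congr_right ⟨fun h0 => ?_, fun h => by simp [h.1, h.2.1, h.2.2]⟩
    have hjZ : (0 : ℤ) ≤ (j : ℤ) := Int.natCast_nonneg j
    have ha0 : a = 0 := by
      by_contra ha0
      have h1 : ((j : ℤ) * (a * j + b)).natAbs = c.natAbs := by
        rw [show (j : ℤ) * (a * j + b) = -c by linear_combination h0, Int.natAbs_neg]
      rw [Int.natAbs_mul, Int.natAbs_natCast] at h1
      have h2 : j ≤ (a * j).natAbs := by
        rw [Int.natAbs_mul, Int.natAbs_natCast]
        exact Nat.le_mul_of_pos_left _ (Int.natAbs_pos.2 ha0)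
      have h3 : 1 ≤ (a * j + b).natAbs := by omega
      have := Nat.le_mul_of_pos_right j h3
      omega
    subst ha0
    have hb0 : b = 0 := by
      by_contra hb0
      have h1 : (b * j).natAbs = c.natAbs := by
        rw [show b * (j : ℤ) = -c by linear_combination h0, Int.natAbs_neg]
      rw [Int.natAbs_mul, Int.natAbs_natCast] at h1
      have := Nat.le_mul_of_pos_left j (Int.natAbs_pos.2 hb0)
      omega
    subst hb0
    exact ⟨rfl, rfl, by linear_combination h0⟩
  rw [hz n le_rfl, hz _ (Nat.le_add_right _ _)]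

end FA.BakerExplicit.TernaryRecurrence

end
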