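import Fermat.Agent.BakerExplicit.TernaryTerms
import Fermat.Agent.BakerExplicit.TernaryInteger
import Mathlib.RingTheory.Polynomial.RationalRoot

/-!
# The zeros of an integer recurrence of order three

From an explicit index on they are periodic with a fixed period. Three different roots give three
exponential terms in a field of degree at most `27`; a repeated root is an integer.
-/

set_option autoImplicit false

noncomputable section

namespace FA.BakerExplicit.TernaryRecurrence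

open Polynomial NumberField Module GeneratedField

/-- The period of the zeros of a ternary recurrence. -/
def ternaryPeriod : ℕ := rootPeriod 27

/-- The index from which the zeros of a ternary recurrence with data at most `2 ^ k` are
periodic. -/
def ternaryBound (k : ℕ) : ℕ :=
  termsBound 27 (discExp 3 3 (k + 3)) (4 * k + 12) + 8 * (2 ^ (30 * k + 100) + 1) ^ 3

theorem ternaryPeriod_pos : 0 < ternaryPeriod := rootPeriod_pos _

theorem even_rootPeriod {d : ℕ} (hd : 1 ≤ d) : Even (rootPeriod d) :=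
  even_iff_two_dvd.2 (Nat.dvd_factorial two_pos (by omega))

variable {P Q R : ℤ} {u : ℕ → ℤ}

/-- The three roots with multiplicity. -/
theorem exists_roots (P Q R : ℤ) : ∃ α β γ : ℂ, α + β + γ = P ∧
    α * β + β * γ + γ * α = -Q ∧ α * β * γ = R := by
  obtain ⟨α, hα⟩ := IsAlgClosed.exists_root
    (X ^ 3 - C (P : ℂ) * X ^ 2 - C (Q : ℂ) * X - C (R : ℂ)) (by
      have e : (X ^ 3 - C (P : ℂ) * X ^ 2 - C (Q : ℂ) * X - C (R : ℂ)).degree = 3 := by
        compute_degree!
      rw [e]; decide)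
  obtain ⟨s, hs⟩ := IsAlgClosed.exists_pow_nat_eq
    (((P : ℂ) - α) ^ 2 - 4 * (α ^ 2 - P * α - Q)) two_pos
  simp only [IsRoot, eval_sub, eval_pow, eval_mul, eval_X, eval_C] at hα
  refine ⟨α, ((P : ℂ) - α + s) / 2, ((P : ℂ) - α - s) / 2, by ring, ?_, ?_⟩
  · linear_combination -(1 / 4 : ℂ) * hs
  · linear_combination -(α / 4) * hs + hα

/-- A value at a root of the difference equation, in any ring. -/
theorem three_powers {S : Type*} [CommRing S] {a b c : S} (h1 : a + b + c = (P : S))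
    (h2 : a * b + b * c + c * a = -(Q : S)) (h3 : a * b * c = (R : S))
    (hu : ∀ n, u (n + 3) = P * u (n + 2) + Q * u (n + 1) + R * u n) (n : ℕ) :
    (a - b) * (b - c) * (c - a) * (u n : S) =
      -(b - c) * ((u 2 : S) - (b + c) * u 1 + b * c * u 0) * a ^ n +
      -(c - a) * ((u 2 : S) - (c + a) * u 1 + c * a * u 0) * b ^ n +
      -(a - b) * ((u 2 : S) - (a + b) * u 1 + a * b * u 0) * c ^ n := by
  induction n using Nat.strong_induction_on with
  | _ n ih =>
    rcases n with _ | _ | _ | m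
    · ring
    · ring
    · ring
    · have e0 := ih m (by omega)
      have e1 := ih (m + 1) (by omega)
      have e2 := ih (m + 1 + 1) (by omega)
      rw [show m + 1 + 1 + 1 = m + 3 by ring, hu m, show m + 2 = m + 1 + 1 by ring]
      push_cast
      rw [← h1, ← h3, show (Q : S) = -(a * b + b * c + c * a) by rw [h2, neg_neg]]
      linear_combination (a + b + c) * e2 - (a * b + b * c + c * a) * e1 + (a * b * c) * e0

theorem natAbs_add_two_pow {x y : ℤ} {i j : ℕ} (hx : x.natAbs ≤ 2 ^ i) (hy : y.natAbs ≤ 2 ^ j) :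
    (x + y).natAbs ≤ 2 ^ (i + j + 1) := by
  refine (Int.natAbs_add_le x y).trans ((Nat.add_le_add hx hy).trans ?_)
  have h1 : 2 ^ i ≤ 2 ^ (i + j) := Nat.pow_le_pow_right two_pos (Nat.le_add_right _ _)
  have h2 : 2 ^ j ≤ 2 ^ (i + j) := Nat.pow_le_pow_right two_pos (Nat.le_add_left _ _)
  rw [pow_succ]
  omega

theorem natAbs_mul_two_pow {x y : ℤ} {i j : ℕ} (hx : x.natAbs ≤ 2 ^ i) (hy : y.natAbs ≤ 2 ^ j) :
    (x * y).natAbs ≤ 2 ^ (i + j) := by
  rw [Int.natAbs_mul, pow_add]
  exact Nat.mul_le_mul hx hy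

theorem natAbs_sub_two_pow {x y : ℤ} {i j : ℕ} (hx : x.natAbs ≤ 2 ^ i) (hy : y.natAbs ≤ 2 ^ j) :
    (x - y).natAbs ≤ 2 ^ (i + j + 1) := by
  rw [sub_eq_add_neg]
  exact natAbs_add_two_pow hx (by rwa [Int.natAbs_neg])

/-- **A repeated root.** -/
theorem repeated_periodic {k : ℕ} {p q : ℤ} (h1 : 2 * p + q = P) (h2 : p * p + 2 * p * q = -Q)
    (h3 : p * p * q = R) (hp : p.natAbs ≤ 2 ^ (k + 3)) (hq : q.natAbs ≤ 2 ^ (k + 3))
    (hu : ∀ n, u (n + 3) = P * u (n + 2) + Q * u (n + 1) + R * u n)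
    (h0 : ∀ i < 3, (u i).natAbs ≤ 2 ^ k) {N n : ℕ} (hN : Even N)
    (hn : 8 * (2 ^ (30 * k + 100) + 1) ^ 3 ≤ n) : (u n = 0 ↔ u (n + N) = 0) := by
  have u0 := h0 0 (by omega)
  have u1 := h0 1 (by omega)
  have u2 := h0 2 (by omega)
  have t2 : (2 : ℤ).natAbs ≤ 2 ^ 1 := le_rfl
  have hE := natAbs_add_two_pow (natAbs_sub_two_pow u2
    (natAbs_mul_two_pow (natAbs_mul_two_pow t2 hp) u1))
    (natAbs_mul_two_pow (natAbs_mul_two_pow hp hp) u0)
  set E := u 2 - 2 * p * u 1 + p * p * u 0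
  rw [show Q = -(p * p + 2 * p * q) by rw [h2, neg_neg], ← h1, ← h3] at hu
  have mono : ∀ {z : ℤ} {i : ℕ}, z.natAbs ≤ 2 ^ i → i ≤ 30 * k + 100 →
      z.natAbs ≤ 2 ^ (30 * k + 100) := fun hz hi => hz.trans (Nat.pow_le_pow_right two_pos hi)
  by_cases hpq : p = q
  · subst hpq
    have key : ∀ m, 2 * u (m + 2) = p ^ m * (E * ((m + 2 : ℕ) : ℤ) ^ 2 +
        (2 * (u 1 - p * u 0) * p - E) * ((m + 2 : ℕ) : ℤ) + 2 * u 0 * (p * p)) := fun m => by
      induction m using Nat.strong_induction_on with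
      | _ m ih =>
        rcases m with _ | _ | _ | r
        · push_cast; simp only [E]; ring
        · rw [show 0 + 1 + 2 = 0 + 3 by rfl, hu 0]; push_cast; simp only [E]; ring
        · rw [show 0 + 1 + 1 + 2 = 1 + 3 by rfl, hu 1, show 1 + 2 = 0 + 3 by rfl, hu 0]
          push_cast; simp only [E]; ring
        · have e0 := ih r (by omega)
          have e1 := ih (r + 1) (by omega)
          have e2 := ih (r + 1 + 1) (by omega)
          rw [show r + 1 + 1 + 1 + 2 = (r + 2) + 3 by omega, hu (r + 2),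
            show r + 2 + 2 = r + 1 + 1 + 2 by omega, show r + 2 + 1 = r + 1 + 2 by omega]
          push_cast at e0 e1 e2 ⊢
          linear_combination (2 * p + p) * e2 - (p * p + 2 * p * p) * e1 + (p * p * p) * e0
    refine quadratic_periodic (K := 2 ^ (30 * k + 100)) (p := p) (mono hE (by omega))
      (mono (natAbs_sub_two_pow (natAbs_mul_two_pow (natAbs_mul_two_pow t2
        (natAbs_sub_two_pow u1 (natAbs_mul_two_pow hp u0))) hp) hE) (by omega))
      (mono (natAbs_mul_two_pow (natAbs_mul_two_pow t2 u0) (natAbs_mul_two_pow hp hp))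
        (by omega)) (fun j hj => ?_) hn
    obtain ⟨m, rfl⟩ : ∃ m, j = m + 2 := ⟨j - 2, by omega⟩
    rw [Nat.add_sub_cancel]
    exact key m
  · set w := (p - q) * (p - q) with hw
    have hw0 : w ≠ 0 := mul_ne_zero (sub_ne_zero.2 hpq) (sub_ne_zero.2 hpq)
    set B := w * u 0 - E with hB
    set A := w * u 1 - B * p - E * q with hA
    have key : ∀ m, w * u (m + 1) = (A * ((m + 1 : ℕ) : ℤ) + B * p) * p ^ m +
        E * q ^ (m + 1) := fun m => by
      induction m using Nat.strong_induction_on with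
      | _ m ih =>
        rcases m with _ | _ | _ | r
        · push_cast; simp only [hA]; ring
        · push_cast; simp only [hA, hB, hw, E]; ring
        · rw [show 0 + 1 + 1 + 1 = 0 + 3 by rfl, hu 0]; push_cast; simp only [hA, hB, hw, E]; ring
        · have e0 := ih r (by omega)
          have e1 := ih (r + 1) (by omega)
          have e2 := ih (r + 1 + 1) (by omega)
          rw [show r + 1 + 1 + 1 + 1 = (r + 1) + 3 by omega, hu (r + 1),
            show r + 1 + 2 = r + 1 + 1 + 1 by omega]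
          push_cast at e0 e1 e2 ⊢
          linear_combination (2 * p + q) * e2 - (p * p + 2 * p * q) * e1 + (p * p * q) * e0
    have bw : w.natAbs ≤ _ := natAbs_mul_two_pow (natAbs_sub_two_pow hp hq)
      (natAbs_sub_two_pow hp hq)
    have bB : B.natAbs ≤ _ := natAbs_sub_two_pow (natAbs_mul_two_pow bw u0) hE
    have bA : A.natAbs ≤ _ := natAbs_sub_two_pow
      (natAbs_sub_two_pow (natAbs_mul_two_pow bw u1) (natAbs_mul_two_pow bB hp))
      (natAbs_mul_two_pow hE hq)
    have hz := linear_exp_periodic (K := 2 ^ (30 * k + 100)) hN (p := p) (q := q) (A := A)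
      (B := B * p) (C := E) (mono hp (by omega)) (mono hq (by omega)) (mono bA (by omega))
      (mono (natAbs_mul_two_pow bB hp) (by omega)) (mono hE (by omega))
      (f := fun j => w * u j) (fun j hj => ?_) hn
    · simpa [hw0] using hz
    obtain ⟨m, rfl⟩ : ∃ m, j = m + 1 := ⟨j - 1, by omega⟩
    rw [Nat.add_sub_cancel]
    exact key m

/-- The characteristic polynomial. -/
theorem charPoly_facts {k : ℕ} (hP : P.natAbs ≤ 2 ^ k) (hQ : Q.natAbs ≤ 2 ^ k)
    (hR : R.natAbs ≤ 2 ^ k) :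
    (X ^ 3 - C P * X ^ 2 - C Q * X - C R : ℤ[X]).Monic ∧
      (X ^ 3 - C P * X ^ 2 - C Q * X - C R : ℤ[X]).natDegree ≤ 3 ∧
      ∀ i, ((X ^ 3 - C P * X ^ 2 - C Q * X - C R : ℤ[X]).coeff i).natAbs ≤ 2 ^ k := by
  have hd : (X ^ 3 - C P * X ^ 2 - C Q * X - C R : ℤ[X]).natDegree ≤ 3 := by compute_degree
  refine ⟨by monicity!, hd, fun i => ?_⟩
  rcases le_or_gt i 3 with hi | hi
  · simp only [coeff_sub, coeff_X_pow, coeff_C_mul, coeff_X, coeff_C]
    interval_cases i
    · simpa using hR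
    · simpa using hQ
    · simpa using hP
    · simp [Nat.one_le_two_pow]
  · rw [coeff_eq_zero_of_natDegree_lt (hd.trans_lt hi)]
    simp

/-- **Three different roots.** -/
theorem distinct_periodic {k : ℕ} {α β γ : ℂ} (h1 : α + β + γ = P)
    (h2 : α * β + β * γ + γ * α = -Q) (h3 : α * β * γ = R) (hne : α ≠ β ∧ β ≠ γ ∧ γ ≠ α)
    (hP : P.natAbs ≤ 2 ^ k) (hQ : Q.natAbs ≤ 2 ^ k) (hR : R.natAbs ≤ 2 ^ k)
    (hu : ∀ n, u (n + 3) = P * u (n + 2) + Q * u (n + 1) + R * u n)
    (h0 : ∀ i < 3, (u i).natAbs ≤ 2 ^ k) {n : ℕ}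
    (hn : termsBound 27 (discExp 3 3 (k + 3)) (4 * k + 12) ≤ n) :
    (u n = 0 ↔ u (n + ternaryPeriod) = 0) := by
  obtain ⟨hfm, hfd, hfk⟩ := charPoly_facts hP hQ hR
  set r : Fin 3 → ℂ := ![α, β, γ] with hr
  have hroot : ∀ i, aeval (r i) (X ^ 3 - C P * X ^ 2 - C Q * X - C R : ℤ[X]) = 0 := fun i => by
    simp only [map_sub, map_pow, map_mul, aeval_X, eq_intCast, map_intCast]
    fin_cases i
    · simp [hr]; linear_combination α ^ 2 * h1 - α * h2 + h3
    · simp [hr]; linear_combination β ^ 2 * h1 - β * h2 + h3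
    · simp [hr]; linear_combination γ ^ 2 * h1 - γ * h2 + h3
  obtain ⟨L, hNF, z, hz, -, hdeg, hdisc⟩ := exists_field (d := 3) (q := 3) (s := k + 3)
    (by norm_num) r fun i => BoundedRoot.of_polynomial hfm hfd hfk (hroot i)
  set φ : 𝓞 L →+* ℂ := (algebraMap L ℂ).comp (algebraMap (𝓞 L) L) with hφ
  have hφinj : Function.Injective φ :=
    (algebraMap L ℂ).injective.comp RingOfIntegers.coe_injective
  have hφz : ∀ i, φ (z i) = r i := hz
  have e1 : z 0 + z 1 + z 2 = (P : 𝓞 L) := hφinj (by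
    simp only [map_add, map_intCast, hφz]; simpa [hr] using h1)
  have e2 : z 0 * z 1 + z 1 * z 2 + z 2 * z 0 = -(Q : 𝓞 L) := hφinj (by
    simp only [map_add, map_mul, map_neg, map_intCast, hφz]; simpa [hr] using h2)
  have e3 : z 0 * z 1 * z 2 = (R : 𝓞 L) := hφinj (by
    simp only [map_mul, map_intCast, hφz]; simpa [hr] using h3)
  have hzh : ∀ i, HouseLe (k + 3) (z i) := fun i σ => by
    refine (CoefficientBounds.root_norm_le hfm hfk (z := σ (z i : L)) ?_).trans ?_
    · have h : aeval (z i : L) (X ^ 3 - C P * X ^ 2 - C Q * X - C R : ℤ[X]) = 0 := by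
        refine (algebraMap L ℂ).injective ?_
        rw [map_zero, ← aeval_algebraMap_apply, show algebraMap L ℂ (z i : L) = r i from hz i]
        exact hroot i
      rw [show σ (z i : L) = σ.toIntAlgHom (z i : L) from rfl, aeval_algHom_apply, h, map_zero]
    · have h : (X ^ 3 - C P * X ^ 2 - C Q * X - C R : ℤ[X]).natDegree * 2 ^ k + 1 ≤
          2 ^ (k + 3) := by
        have := Nat.mul_le_mul_right (2 ^ k) hfd
        have := Nat.one_le_two_pow (n := k)
        rw [pow_add]
        omega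
      exact_mod_cast h
  have hint : ∀ i < 3, HouseLe k ((u i : 𝓞 L)) := fun i hi σ => by
    simp only [map_intCast, Complex.norm_intCast]
    rw [← Int.cast_abs, ← Int.natCast_natAbs, Int.cast_natCast]
    exact_mod_cast h0 i hi
  have hcoef : ∀ {x y : 𝓞 L}, HouseLe (k + 3) x → HouseLe (k + 3) y →
      HouseLe (4 * k + 12) (-(x - y) *
        ((u 2 : 𝓞 L) - (x + y) * (u 1 : 𝓞 L) + x * y * (u 0 : 𝓞 L))) := by
    intro x y hx hy σ
    simp only [map_mul, map_neg, map_sub, map_add, norm_mul, norm_neg]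
    set T : ℝ := (2 : ℝ) ^ k with hT
    have hT1 : 1 ≤ T := one_le_pow₀ one_le_two
    have hx' : ‖σ (x : L)‖ ≤ 8 * T := (hx σ).trans_eq (by rw [pow_add]; ring)
    have hy' : ‖σ (y : L)‖ ≤ 8 * T := (hy σ).trans_eq (by rw [pow_add]; ring)
    have hd : ‖σ (x : L) - σ (y : L)‖ ≤ 16 * T := (norm_sub_le _ _).trans (by linarith)
    have hsum : ‖σ (x : L) + σ (y : L)‖ ≤ 16 * T := (norm_add_le _ _).trans (by linarith)
    have k2 : 1 * T ≤ T * T * T := by nlinarith
    have hE : ‖σ (((u 2 : 𝓞 L) : L)) - (σ (x : L) + σ (y : L)) * σ (((u 1 : 𝓞 L) : L)) +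
        σ (x : L) * σ (y : L) * σ (((u 0 : 𝓞 L) : L))‖ ≤ 128 * (T * T * T) := by
      refine (norm_add_le _ _).trans ?_
      have c1 : ‖σ (((u 2 : 𝓞 L) : L)) - (σ (x : L) + σ (y : L)) * σ (((u 1 : 𝓞 L) : L))‖ ≤
          T + 16 * T * T := by
        refine (norm_sub_le _ _).trans (add_le_add (hint 2 (by omega) σ) ?_)
        rw [norm_mul]
        exact mul_le_mul hsum (hint 1 (by omega) σ) (norm_nonneg _) (by positivity)
      have c2 : ‖σ (x : L) * σ (y : L) * σ (((u 0 : 𝓞 L) : L))‖ ≤ 8 * T * (8 * T) * T := by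
        rw [norm_mul, norm_mul]
        exact mul_le_mul (mul_le_mul hx' hy' (norm_nonneg _) (by positivity))
          (hint 0 (by omega) σ) (norm_nonneg _) (by positivity)
      nlinarith
    refine (mul_le_mul hd hE (norm_nonneg _) (by positivity)).trans ?_
    rw [show 4 * k + 12 = k + k + k + k + 12 by ring, pow_add, pow_add, pow_add, pow_add, ← hT]
    have : 0 ≤ T * (T * T * T) := by positivity
    nlinarith
  have hV : (z 0 - z 1) * (z 1 - z 2) * (z 2 - z 0) ≠ 0 := by
    refine fun h => (show (α - β) * (β - γ) * (γ - α) ≠ 0 from mul_ne_zero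
      (mul_ne_zero (sub_ne_zero.2 hne.1) (sub_ne_zero.2 hne.2.1)) (sub_ne_zero.2 hne.2.2)) ?_
    have := congrArg φ h
    simp only [map_mul, map_sub, map_zero, hφz] at this
    simpa [hr] using this
  have key := three_powers e1 e2 e3 hu
  have hper := three_terms (d := 27) (e := discExp 3 3 (k + 3)) (h := 4 * k + 12)
    (hdeg.trans (by norm_num)) hdisc (hcoef (hzh 1) (hzh 2)) (hcoef (hzh 2) (hzh 0))
    (hcoef (hzh 0) (hzh 1)) ((hzh 0).mono (by omega)) ((hzh 1).mono (by omega))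
    ((hzh 2).mono (by omega)) hn
  have hiff : ∀ j, u j = 0 ↔ (z 0 - z 1) * (z 1 - z 2) * (z 2 - z 0) * (u j : 𝓞 L) = 0 :=
    fun j => by rw [mul_eq_zero, or_iff_right hV, Int.cast_eq_zero]
  rw [hiff, hiff, key, key]
  exact hper

/-- A repeated root is an integer. -/
theorem double_root_integer {α γ : ℂ} (h1 : α + α + γ = P) (h2 : α * α + α * γ + γ * α = -Q)
    (h3 : α * α * γ = R) : ∃ p : ℤ, α = p := by
  have hrat : ∃ x : ℚ, α = x := by
    by_cases hD : P ^ 2 + 3 * Q = 0
    · refine ⟨(P : ℚ) / 3, ?_⟩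
      push_cast
      have hD' : (P : ℂ) ^ 2 + 3 * Q = 0 := by exact_mod_cast congrArg (Int.cast (R := ℂ)) hD
      have h : (3 * α - P) ^ 2 = 0 := by linear_combination (6 * α) * h1 - 3 * h2 + hD'
      have h' := (pow_eq_zero_iff two_ne_zero).1 h
      linear_combination (1 / 3 : ℂ) * h'
    · refine ⟨-(9 * R + P * Q : ℚ) / (6 * Q + 2 * P ^ 2), ?_⟩
      have h6 : (6 * Q + 2 * P ^ 2 : ℂ) ≠ 0 := by
        have : (6 * Q + 2 * P ^ 2 : ℤ) ≠ 0 := by omega
        exact_mod_cast this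
      push_cast
      rw [eq_div_iff h6]
      linear_combination ((P : ℂ) + 6 * α) * h2 - (2 * P * α + 3 * α ^ 2) * h1 - 9 * h3
  obtain ⟨x, rfl⟩ := hrat
  have hint : IsIntegral ℤ (x : ℂ) := by
    refine ⟨X ^ 3 - C P * X ^ 2 - C Q * X - C R, by monicity!, ?_⟩
    rw [← aeval_def]
    simp only [map_sub, map_pow, map_mul, aeval_X, eq_intCast, map_intCast]
    linear_combination (x : ℂ) ^ 2 * h1 - (x : ℂ) * h2 + h3
  rw [show (x : ℂ) = algebraMap ℚ ℂ x from (eq_ratCast _ x).symm,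
    isIntegral_algebraMap_iff (algebraMap ℚ ℂ).injective] at hint
  obtain ⟨p, hp⟩ := IsIntegrallyClosed.isIntegral_iff.1 hint
  exact ⟨p, by rw [← hp, eq_intCast, Rat.cast_intCast]⟩

/-- **The zeros are periodic from `ternaryBound k` on.** -/
theorem ternary_periodic {k : ℕ} (hP : P.natAbs ≤ 2 ^ k) (hQ : Q.natAbs ≤ 2 ^ k)
    (hR : R.natAbs ≤ 2 ^ k) (hu : ∀ n, u (n + 3) = P * u (n + 2) + Q * u (n + 1) + R * u n)
    (h0 : ∀ i < 3, (u i).natAbs ≤ 2 ^ k) {n : ℕ} (hn : ternaryBound k ≤ n) :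
    (u n = 0 ↔ u (n + ternaryPeriod) = 0) := by
  have hn1 : termsBound 27 (discExp 3 3 (k + 3)) (4 * k + 12) ≤ n :=
    (Nat.le_add_right _ _).trans hn
  have hn2 : 8 * (2 ^ (30 * k + 100) + 1) ^ 3 ≤ n := (Nat.le_add_left _ _).trans hn
  obtain ⟨α, β, γ, e1, e2, e3⟩ := exists_roots P Q R
  have hrep : ∀ {α γ : ℂ}, α + α + γ = P → α * α + α * γ + γ * α = -Q → α * α * γ = R →
      (u n = 0 ↔ u (n + ternaryPeriod) = 0) := by
    intro α γ h1 h2 h3
    obtain ⟨p, rfl⟩ := double_root_integer h1 h2 h3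
    obtain ⟨q, rfl⟩ : ∃ q : ℤ, γ = q := ⟨P - 2 * p, by push_cast; linear_combination h1⟩
    obtain ⟨hfm, hfd, hfk⟩ := charPoly_facts hP hQ hR
    have hb : ∀ x : ℤ, aeval (x : ℂ) (X ^ 3 - C P * X ^ 2 - C Q * X - C R : ℤ[X]) = 0 →
        x.natAbs ≤ 2 ^ (k + 3) := fun x hx => by
      have h := CoefficientBounds.root_norm_le hfm hfk hx
      rw [Complex.norm_intCast, ← Int.cast_abs, ← Int.natCast_natAbs, Int.cast_natCast] at h
      have h' : x.natAbs ≤ (X ^ 3 - C P * X ^ 2 - C Q * X - C R : ℤ[X]).natDegree * 2 ^ k + 1 := by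
        exact_mod_cast h
      have := Nat.mul_le_mul_right (2 ^ k) hfd
      have := Nat.one_le_two_pow (n := k)
      rw [pow_add]
      omega
    have i1 : 2 * p + q = P := by
      have h : ((2 * p + q : ℤ) : ℂ) = P := by push_cast; linear_combination h1
      exact_mod_cast h
    have i2 : p * p + 2 * p * q = -Q := by
      have h : ((p * p + 2 * p * q : ℤ) : ℂ) = ((-Q : ℤ) : ℂ) := by
        push_cast; linear_combination h2
      exact_mod_cast h
    have i3 : p * p * q = R := by exact_mod_cast h3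
    refine repeated_periodic i1 i2 i3 (hb p ?_) (hb q ?_) hu h0
      (even_rootPeriod (by norm_num)) hn2 <;>
    simp only [map_sub, map_pow, map_mul, aeval_X, eq_intCast, map_intCast]
    · linear_combination (p : ℂ) ^ 2 * h1 - (p : ℂ) * h2 + h3
    · linear_combination (q : ℂ) ^ 2 * h1 - (q : ℂ) * h2 + h3
  by_cases h12 : α = β
  · subst h12; exact hrep e1 (by linear_combination e2) e3
  by_cases h23 : β = γ
  · subst h23
    exact hrep (α := β) (γ := α) (by linear_combination e1) (by linear_combination e2)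
      (by linear_combination e3)
  by_cases h31 : γ = α
  · subst h31
    exact hrep (α := γ) (γ := β) (by linear_combination e1) (by linear_combination e2)
      (by linear_combination e3)
  exact distinct_periodic e1 e2 e3 ⟨h12, h23, h31⟩ hP hQ hR hu h0 hn1

end FA.BakerExplicit.TernaryRecurrence

end
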