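import Fermat.Agent.BakerExplicit.BinaryRecurrence
import Mathlib.RingTheory.RootsOfUnity.Minpoly

/-!
# The zeros of three exponential terms

In a field of degree at most `d` the roots of unity have order dividing `(2 d)!`. From an explicit
index on, the zeros of `a x ^ n + b y ^ n + c z ^ n` are periodic with this period: the `S`-unit
equation and the bound for a power with bounded numerator and denominator.
-/

set_option autoImplicit false

noncomputable section

namespace FA.BakerExplicit.TernaryRecurrence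

open NumberField Module EffectiveSUnits

/-- The period of the zeros. -/
def rootPeriod (d : ℕ) : ℕ := Nat.factorial (2 * d)

/-- The index from which the zeros are periodic. -/
def termsBound (d e h : ℕ) : ℕ := 2 ^ ((sUnitBound d e (h * d) + h + 3) * d) + 1

theorem rootPeriod_pos (d : ℕ) : 0 < rootPeriod d := Nat.factorial_pos _

variable {K : Type*} [Field K] [NumberField K] {d e h : ℕ}

/-- The degree of a field is at least the totient of the order of a root of unity in it. -/
theorem totient_le_degree {m : ℕ} (hm : 0 < m) {z : K} (hz : IsPrimitiveRoot z m) :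
    Nat.totient m ≤ finrank ℚ K := by
  refine (IsPrimitiveRoot.totient_le_degree_minpoly hz).trans ?_
  have hint : IsIntegral ℤ z := hz.isIntegral hm
  have h1 := minpoly.natDegree_le (A := ℚ) z
  rw [minpoly.isIntegrallyClosed_eq_field_fractions' ℚ hint,
    (minpoly.monic hint).natDegree_map] at h1
  exact h1

/-- **The order of a root of unity.** -/
theorem pow_period_eq_one (hd : finrank ℚ K ≤ d) {γ : K} {i : ℕ} (hi : 0 < i) (h : γ ^ i = 1) :
    γ ^ rootPeriod d = 1 := by
  set m := orderOf γ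
  have hm : 0 < m := (isOfFinOrder_iff_pow_eq_one.2 ⟨i, hi, h⟩).orderOf_pos
  refine orderOf_dvd_iff_pow_eq_one.1 ((Nat.dvd_iff_prime_pow_dvd_dvd _ _).2 fun p j hp hpj => ?_)
  refine Nat.dvd_factorial (Nat.pow_pos hp.pos) ?_
  have hf := (totient_le_degree hm (IsPrimitiveRoot.orderOf γ)).trans hd
  have hd0 : 1 ≤ d := le_trans finrank_pos hd
  rcases j with _ | j
  · simp only [pow_zero]; omega
  · have h1 : Nat.totient (p ^ (j + 1)) ≤ d :=
      (Nat.le_of_dvd (Nat.totient_pos.2 hm) (Nat.totient_dvd_of_dvd hpj)).trans hf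
    rw [Nat.totient_prime_pow_succ hp] at h1
    have h2 : p ≤ 2 * (p - 1) := by have := hp.two_le; omega
    calc p ^ (j + 1) = p ^ j * p := pow_succ p j
      _ ≤ p ^ j * (2 * (p - 1)) := Nat.mul_le_mul_left _ h2
      _ = 2 * (p ^ j * (p - 1)) := by ring
      _ ≤ 2 * d := Nat.mul_le_mul_left _ h1

theorem ratio_pow_ne (hd : finrank ℚ K ≤ d) {x y : 𝓞 K} (hy : y ≠ 0)
    (hxy : x ^ rootPeriod d ≠ y ^ rootPeriod d) (i : ℕ) (hi : 0 < i) :
    ((x : K) / y) ^ i ≠ 1 := fun h => hxy <| by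
  have h1 := pow_period_eq_one hd hi h
  rw [div_pow, div_eq_one_iff_eq (pow_ne_zero _ (RingOfIntegers.coe_ne_zero_iff.2 hy))] at h1
  exact RingOfIntegers.coe_injective (by rw [map_pow, map_pow]; exact h1)

/-- All conjugates at most `2 ^ T`. -/
def HouseLe (T : ℕ) (z : 𝓞 K) : Prop := ∀ σ : K →+* ℂ, ‖σ (z : K)‖ ≤ (2 : ℝ) ^ T

omit [NumberField K] in
theorem HouseLe.mono {T T' : ℕ} {z : 𝓞 K} (hz : HouseLe T z) (h : T ≤ T') : HouseLe T' z :=
  fun σ => (hz σ).trans (pow_le_pow_right₀ one_le_two h)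

omit [NumberField K] in
theorem HouseLe.mul {T T' : ℕ} {z w : 𝓞 K} (hz : HouseLe T z) (hw : HouseLe T' w) :
    HouseLe (T + T') (z * w) := fun σ => by
  simp only [map_mul, norm_mul]
  rw [pow_add]
  exact mul_le_mul (hz σ) (hw σ) (norm_nonneg _) (by positivity)

theorem HouseLe.neg {T : ℕ} {z : 𝓞 K} (hz : HouseLe T z) : HouseLe T (-z) := fun σ => by
  simp only [map_neg, norm_neg]
  exact hz σ

/-- **A proportion of powers bounds the exponent.** -/
theorem lt_of_proportion (hd : finrank ℚ K ≤ d) {T : ℕ} {x y A B : 𝓞 K} (hx : x ≠ 0) (hy : y ≠ 0)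
    (hxy : x ^ rootPeriod d ≠ y ^ rootPeriod d) (hB : B ≠ 0) (hA : HouseLe T A)
    (hB' : HouseLe T B) {n : ℕ} (h : B * x ^ n = A * y ^ n) : n < 2 ^ ((T + 2) * d) := by
  have hyK : (y : K) ≠ 0 := RingOfIntegers.coe_ne_zero_iff.2 hy
  refine PowerRatio.power_ratio_bound hd (div_ne_zero (RingOfIntegers.coe_ne_zero_iff.2 hx) hyK)
    (ratio_pow_ne hd hy hxy) hB hA hB' ?_
  have h1 := congrArg (fun z : 𝓞 K => (z : K)) h
  simp only [map_mul, map_pow] at h1
  rw [div_pow, mul_div_assoc', div_eq_iff (pow_ne_zero n hyK)]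
  exact h1

theorem bound_le {T : ℕ} (hT : T ≤ sUnitBound d e (h * d) + h + 1) :
    2 ^ ((T + 2) * d) < termsBound d e h :=
  Nat.lt_succ_of_le (Nat.pow_le_pow_right two_pos (Nat.mul_le_mul_right d (by omega)))

/-- The zero at `n` is a zero at `n + rootPeriod d`. -/
def Periodic (d : ℕ) (f : ℕ → 𝓞 K) (n : ℕ) : Prop := f n = 0 ↔ f (n + rootPeriod d) = 0

omit [NumberField K] in
theorem periodic_of_forall_ne {f : ℕ → 𝓞 K} {n : ℕ} (h : ∀ j, n ≤ j → f j ≠ 0) :
    Periodic d f n :=
  iff_of_false (h n le_rfl) (h _ (Nat.le_add_right _ _))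

omit [NumberField K] in
theorem periodic_congr {f f' : ℕ → 𝓞 K} {n : ℕ} (h : ∀ j, n ≤ j → f j = f' j) :
    Periodic d f' n → Periodic d f n := fun hf => by
  rwa [Periodic, h n le_rfl, h _ (Nat.le_add_right _ _)]

/-- **Two terms.** -/
theorem two_terms (hd : finrank ℚ K ≤ d) {a b x y : 𝓞 K} (ha : HouseLe h a) (hb : HouseLe h b)
    {n : ℕ} (hn : termsBound d e h ≤ n) :
    Periodic d (fun j => a * x ^ j + b * y ^ j) n := by
  have hpos : ∀ j, n ≤ j → 0 < j := fun j hj => by
    have : 1 ≤ termsBound d e h := Nat.le_add_left _ _; omega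
  by_cases hyz : b = 0 ∨ y = 0
  · by_cases hxz : a = 0 ∨ x = 0
    · exact periodic_congr (f' := fun _ => 0) (fun j hj => by
        have := hpos j hj
        rcases hyz with h1 | h1 <;> rcases hxz with h2 | h2 <;>
          simp [h1, h2, zero_pow this.ne']) Iff.rfl
    · push Not at hxz
      refine periodic_of_forall_ne fun j hj => ?_
      have := hpos j hj
      rcases hyz with h1 | h1 <;>
        simpa [h1, zero_pow this.ne'] using mul_ne_zero hxz.1 (pow_ne_zero j hxz.2)
  push Not at hyz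
  by_cases hxz : a = 0 ∨ x = 0
  · refine periodic_of_forall_ne fun j hj => ?_
    have := hpos j hj
    rcases hxz with h1 | h1 <;>
      simpa [h1, zero_pow this.ne'] using mul_ne_zero hyz.1 (pow_ne_zero j hyz.2)
  push Not at hxz
  by_cases hxy : x ^ rootPeriod d = y ^ rootPeriod d
  · unfold Periodic
    simp only [pow_add, ← hxy, ← mul_assoc, ← add_mul, mul_eq_zero,
      pow_ne_zero (rootPeriod d) hxz.2, or_false]
  · refine periodic_of_forall_ne fun j hj h0 => ?_
    have := lt_of_proportion hd hxz.2 hyz.2 hxy hxz.1 hb.neg ha (n := j)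
      (by linear_combination h0)
    have := bound_le (d := d) (e := e) (h := h) (T := h) (by omega)
    omega

/-- **Three terms, two of them with a ratio a root of unity.** -/
theorem three_terms_pair (hd : finrank ℚ K ≤ d) {a b c x y z : 𝓞 K} (ha : HouseLe h a)
    (hb : HouseLe h b) (hc : HouseLe h c) (hx : x ≠ 0) (hc0 : c ≠ 0) (hz : z ≠ 0)
    (hxy : x ^ rootPeriod d = y ^ rootPeriod d) {n : ℕ} (hn : termsBound d e h ≤ n) :
    Periodic d (fun j => a * x ^ j + b * y ^ j + c * z ^ j) n := by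
  by_cases hxz : x ^ rootPeriod d = z ^ rootPeriod d
  · unfold Periodic
    simp only [pow_add, ← hxy, ← hxz, ← mul_assoc, ← add_mul, mul_eq_zero,
      pow_ne_zero (rootPeriod d) hx, or_false]
  refine periodic_of_forall_ne fun j hj h0 => ?_
  have hxK : (x : K) ≠ 0 := RingOfIntegers.coe_ne_zero_iff.2 hx
  have hζ1 : ((y : K) / x) ^ rootPeriod d = 1 := by
    rw [div_pow, div_eq_one_iff_eq (pow_ne_zero _ hxK), ← map_pow, ← map_pow, hxy]
  obtain ⟨ζ, hζ⟩ : ∃ ζ : 𝓞 K, (ζ : K) = (y : K) / x :=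
    ⟨⟨(y : K) / x, IsIntegral.of_pow (x := (y : K) / x) (rootPeriod_pos d)
      (hζ1 ▸ isIntegral_one)⟩, rfl⟩
  have hy : y = ζ * x := RingOfIntegers.coe_injective (by
    simp only [map_mul, hζ, div_mul_cancel₀ _ hxK])
  have hA : HouseLe (h + 1) (a + b * ζ ^ j) := fun σ => by
    simp only [map_add, map_mul, map_pow]
    refine (norm_add_le _ _).trans ?_
    have h1 : ‖σ (ζ : K)‖ = 1 := by
      refine Complex.norm_eq_one_of_pow_eq_one ?_ (rootPeriod_pos d).ne'
      rw [← map_pow, hζ, hζ1, map_one]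
    rw [norm_mul, norm_pow, h1, one_pow, mul_one, pow_succ _ h, mul_two]
    exact add_le_add (ha σ) (hb σ)
  have := lt_of_proportion hd hz hx (Ne.symm hxz) hc0 (hA.neg) (hc.mono (Nat.le_succ h))
    (n := j) (by simp only [hy] at h0; linear_combination h0)
  have := bound_le (d := d) (e := e) (h := h) (T := h + 1) (by omega)
  omega

/-- **Three terms without such a ratio.** -/
theorem three_terms_free (hd : finrank ℚ K ≤ d) (he : (discr K).natAbs ≤ 2 ^ e)
    {a b c x y z : 𝓞 K} (ha : HouseLe h a) (hb : HouseLe h b) (hc : HouseLe h c)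
    (hxh : HouseLe h x) (hyh : HouseLe h y) (hzh : HouseLe h z) (ha0 : a ≠ 0) (hb0 : b ≠ 0)
    (hc0 : c ≠ 0) (hx : x ≠ 0) (hy : y ≠ 0) (hz : z ≠ 0)
    (hxy : x ^ rootPeriod d ≠ y ^ rootPeriod d) {n : ℕ} (hn : termsBound d e h ≤ n) :
    a * x ^ n + b * y ^ n + c * z ^ n ≠ 0 := fun h0 => by
  have hsm : ∀ {p q : 𝓞 K}, p ≠ 0 → q ≠ 0 → HouseLe h p → HouseLe h q →
      Smooth (h * d) (Algebra.norm ℤ (p * q ^ n)).natAbs := fun hp hq hph hqh => by
    rw [map_mul, map_pow, Int.natAbs_mul, Int.natAbs_pow]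
    exact (BinaryRecurrence.smooth_norm_of_house hd hp hph).mul
      ((BinaryRecurrence.smooth_norm_of_house hd hq hqh).pow n)
  obtain ⟨μ, a', b', c', hμ, ea, eb, -, hbd⟩ := sUnit_equation_bound hd he
    (mul_ne_zero ha0 (pow_ne_zero n hx)) (mul_ne_zero hb0 (pow_ne_zero n hy))
    (mul_ne_zero hc0 (pow_ne_zero n hz)) h0 (hsm ha0 hx ha hxh) (hsm hb0 hy hb hyh)
    (hsm hc0 hz hc hzh)
  have hb' : b' ≠ 0 := fun h' => by
    refine mul_ne_zero hb0 (pow_ne_zero n hy) (RingOfIntegers.coe_eq_zero_iff.1 (eb.trans ?_))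
    simp [h']
  simp only [map_mul, map_pow] at ea eb
  have := lt_of_proportion hd hx hy hxy (mul_ne_zero ha0 hb')
    (hb.mul (T' := sUnitBound d e (h * d)) fun σ => (hbd σ).1) (ha.mul fun σ => (hbd σ).2.1)
    (n := n) (RingOfIntegers.coe_injective (by
      simp only [map_mul, map_pow]
      linear_combination (b' : K) * ea - (a' : K) * eb))
  have := bound_le (d := d) (e := e) (h := h) (T := h + sUnitBound d e (h * d)) (by omega)
  omega

/-- **The zeros of three terms are periodic from `termsBound` on.** -/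
theorem three_terms (hd : finrank ℚ K ≤ d) (he : (discr K).natAbs ≤ 2 ^ e)
    {a b c x y z : 𝓞 K} (ha : HouseLe h a) (hb : HouseLe h b) (hc : HouseLe h c)
    (hxh : HouseLe h x) (hyh : HouseLe h y) (hzh : HouseLe h z) {n : ℕ}
    (hn : termsBound d e h ≤ n) :
    Periodic d (fun j => a * x ^ j + b * y ^ j + c * z ^ j) n := by
  have hpos : ∀ j, n ≤ j → j ≠ 0 := fun j hj => by
    have : 1 ≤ termsBound d e h := Nat.le_add_left _ _; omega
  by_cases h1 : a * x = 0
  · refine periodic_congr (fun j hj => ?_) (two_terms hd hb hc (x := y) (y := z) hn)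
    rcases mul_eq_zero.1 h1 with h' | h' <;> simp [h', zero_pow (hpos j hj)]
  by_cases h2 : b * y = 0
  · refine periodic_congr (fun j hj => ?_) (two_terms hd ha hc (x := x) (y := z) hn)
    rcases mul_eq_zero.1 h2 with h' | h' <;> simp [h', zero_pow (hpos j hj)]
  by_cases h3 : c * z = 0
  · refine periodic_congr (fun j hj => ?_) (two_terms hd ha hb (x := x) (y := y) hn)
    rcases mul_eq_zero.1 h3 with h' | h' <;> simp [h', zero_pow (hpos j hj)]
  obtain ⟨ha0, hx⟩ := mul_ne_zero_iff.1 h1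
  obtain ⟨hb0, hy⟩ := mul_ne_zero_iff.1 h2
  obtain ⟨hc0, hz⟩ := mul_ne_zero_iff.1 h3
  by_cases hxy : x ^ rootPeriod d = y ^ rootPeriod d
  · exact three_terms_pair hd ha hb hc hx hc0 hz hxy hn
  · exact periodic_of_forall_ne fun j hj =>
      three_terms_free hd he ha hb hc hxh hyh hzh ha0 hb0 hc0 hx hy hz hxy (hn.trans hj)

end FA.BakerExplicit.TernaryRecurrence

end
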