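import Fermat.Agent.BakerExplicit.ThueForm
import Fermat.Agent.Thue.Equation
import Mathlib.FieldTheory.PrimitiveElement
import Mathlib.RingTheory.AdjoinRoot

/-!
# The effective Thue equation

For `β = x - θ y` of norm `m` write `β = γ ∏ u i ^ k i` with `γ` of bounded size; the `k i` are
`O (log |y|)`. Three conjugates of `β` give a unit equation, so a linear form in logarithms is
non-zero and at most `C / |y|`, and Baker's theorem bounds `y`.
-/

set_option autoImplicit false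

noncomputable section

namespace FA.BakerExplicit.EffectiveThue

open Finset NumberField NumberField.Units Module UnitExponents

section

variable {K : Type*} [Field K] [NumberField K]

theorem exists_small_conj {h : ℕ} {β : K} {M : ℤ} (hMh : M.natAbs ≤ 2 ^ h)
    (hnorm : Algebra.norm ℚ β = (M : ℚ)) : ∃ σ₁ : K →+* ℂ, ‖σ₁ β‖ ≤ (2 : ℝ) ^ h := by
  classical
  by_contra hno
  push Not at hno
  obtain ⟨σ⟩ : Nonempty (K →+* ℂ) := inferInstance
  have h1 : |(M : ℝ)| ≤ (2 : ℝ) ^ h := by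
    rw [← Int.cast_abs, ← Int.natCast_natAbs, Int.cast_natCast]
    exact_mod_cast hMh
  rw [← prod_norm_eq hnorm, ← mul_prod_erase univ _ (mem_univ σ)] at h1
  have h2 : (1 : ℝ) ≤ ∏ τ ∈ univ.erase σ, ‖τ β‖ := one_le_prod fun τ _ =>
    (one_le_pow₀ one_le_two).trans (hno τ).le
  have h3 : ‖σ β‖ ≤ ‖σ β‖ * ∏ τ ∈ univ.erase σ, ‖τ β‖ :=
    le_mul_of_one_le_right (norm_nonneg _) h2
  linarith [hno σ]

/-- **The effective Thue equation.** -/
theorem solutions_bound {n h : ℕ} (hfin : finrank ℚ K = n) (hn : 3 ≤ n) (hh : 1 ≤ h) {θ : 𝓞 K}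
    (hθ : Function.Injective fun σ : K →+* ℂ => σ (θ : K))
    (hθh : ∀ σ : K →+* ℂ, ‖σ (θ : K)‖ ≤ (2 : ℝ) ^ h) {u : Fin (rank K) → (𝓞 K)ˣ}
    (hu : IsMaxRank u) (huh : ∀ i (σ : K →+* ℂ), |Real.log ‖σ (u i : K)‖| ≤ h) {x y M : ℤ}
    (hM : M ≠ 0) (hMh : M.natAbs ≤ 2 ^ h)
    (hnorm : Algebra.norm ℚ ((x : K) - (θ : K) * y) = (M : ℚ)) :
    x.natAbs < 2 ^ thueBound n h ∧ y.natAbs < 2 ^ thueBound n h := by
  obtain ⟨σ₁, hmin⟩ := exists_small_conj hMh hnorm
  set Y := Nat.log 2 y.natAbs with hY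
  suffices hkey : Y + h + 2 ≤ thueBound n h by
    have hyY : y.natAbs < 2 ^ (Y + 1) := Nat.lt_pow_succ_log_self one_lt_two _
    refine ⟨?_, hyY.trans_le (Nat.pow_le_pow_right two_pos (by omega))⟩
    have h1 : |(x : ℝ)| ≤ (2 : ℝ) ^ h * (|(y : ℝ)| + 1) := by
      have h2 : (x : ℂ) = σ₁ ((x : K) - (θ : K) * y) + σ₁ (θ : K) * y := by
        rw [map_lin]; ring
      rw [← Complex.norm_intCast, h2]
      refine (norm_add_le _ _).trans ?_
      rw [norm_mul, Complex.norm_intCast, mul_add, mul_one, add_comm]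
      exact add_le_add (mul_le_mul_of_nonneg_right (hθh σ₁) (abs_nonneg _)) hmin
    rw [← Int.cast_abs, ← Int.cast_abs, ← Int.natCast_natAbs, ← Int.natCast_natAbs,
      Int.cast_natCast, Int.cast_natCast] at h1
    have h3 : x.natAbs ≤ 2 ^ h * (y.natAbs + 1) := by exact_mod_cast h1
    refine lt_of_le_of_lt (h3.trans (Nat.mul_le_mul_left _ (Nat.succ_le_of_lt hyY))) ?_
    rw [← pow_add]
    exact Nat.pow_lt_pow_right one_lt_two (by omega)
  rcases le_or_gt Y (2 * h + 4 + 2 * gapExp n h) with hs | hs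
  · exact add_le_thueBound_small hs
  have hy : 2 ^ (2 * h + 4 + 2 * gapExp n h) ≤ y.natAbs :=
    (Nat.pow_le_pow_right two_pos hs.le).trans (Nat.pow_log_le_self 2 fun e => by
      rw [hY, e, Nat.log_zero_right] at hs; omega)
  have hyR : (2 : ℝ) ^ (2 * h + 4 + 2 * gapExp n h) ≤ |(y : ℝ)| := by
    rw [← Int.cast_abs, ← Int.natCast_natAbs, Int.cast_natCast]
    exact_mod_cast hy
  have hy1 : (1 : ℝ) ≤ |(y : ℝ)| := le_trans (one_le_pow₀ one_le_two) hyR
  have hyY : |(y : ℝ)| ≤ (2 : ℝ) ^ (Y + 1) := by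
    rw [← Int.cast_abs, ← Int.natCast_natAbs, Int.cast_natCast]
    exact_mod_cast (Nat.lt_pow_succ_log_self one_lt_two y.natAbs).le
  set β : 𝓞 K := (x : 𝓞 K) - θ * (y : 𝓞 K) with hβ
  have hβc : (β : K) = (x : K) - (θ : K) * y := by simp [hβ]
  have hnorm' : Algebra.norm ℚ (β : K) = (M : ℚ) := hβc ▸ hnorm
  obtain ⟨k, γ, w, hγU, hw, hγ0, hγlog, hkm⟩ := exists_units_form hfin (by omega) hh hu huh hM hMh
    β hnorm' (fun σ => by
      rw [hβc]; exact abs_log_conj_le hfin (by omega) hθh hM hnorm hmin hy1 hyY σ)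
  obtain ⟨σ₂, σ₃, h21, h31, h23⟩ := exists_ne_ne (hn.trans_eq hfin.symm) σ₁
  have h12 : σ₁ (θ : K) ≠ σ₂ (θ : K) := fun e => h21 (hθ e).symm
  have h13 : σ₁ (θ : K) ≠ σ₃ (θ : K) := fun e => h31 (hθ e).symm
  have hne23 : σ₂ (θ : K) ≠ σ₃ (θ : K) := fun e => h23 (hθ e)
  have hβ0 : (x : K) - (θ : K) * y ≠ 0 := fun e => hM (by
    rw [e, Algebra.norm_zero] at hnorm; exact_mod_cast hnorm.symm)
  have h23' : ‖σ₂ (θ : K) - σ₃ (θ : K)‖ ≤ (2 : ℝ) ^ (h + 1) := by
    rw [pow_succ]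
    linarith [norm_sub_le (σ₂ (θ : K)) (σ₃ (θ : K)), hθh σ₂, hθh σ₃]
  obtain ⟨hP0, hΛ0, hΛ1, hΛ⟩ := log_small (x := x) (y := y) (conj_gap_complex hfin hθh h12)
    (conj_gap_complex hfin hθh h13) h23' hne23 (fun t ht => by
      simp only [Set.mem_insert_iff, Set.mem_singleton_iff] at ht
      rcases ht with rfl | rfl | rfl <;> rw [← map_lin] <;> exact (map_ne_zero _).2 hβ0)
    (by rw [← map_lin]; exact hmin) hyR
  have hlow := form_bound hfin (rank_add_one_le hfin) hn hh hθh huh hM hMh hγU hw hγ0 hγlog hkm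
    h12 h13 (by rw [hβc, map_lin, map_lin]) hP0 hΛ0 hΛ1
  set N := rank K + 1 + 1 + 1
  set B := baseAlg N (n ^ 3) (logSize n h) (coeffExp n h Y) ^ kappa N
  refine add_le_thueBound (N := N) (by omega)
    (by have := rank_add_one_le hfin; omega) ?_
  have hfinal := hlow.trans hΛ
  rw [div_le_div_iff₀ (by positivity) (by linarith), one_mul, ← pow_add, ← Int.cast_abs,
    ← Int.natCast_natAbs, Int.cast_natCast] at hfinal
  have hnat : y.natAbs ≤ 2 ^ (2 * h + 3 + 2 * gapExp n h + B) := by exact_mod_cast hfinal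
  have h11 := (Nat.pow_le_pow_iff_right one_lt_two).1
    ((Nat.pow_log_le_self 2 (fun e0 => by
      have := Nat.two_pow_pos (2 * h + 4 + 2 * gapExp n h)
      omega)).trans hnat)
  omega

open Polynomial

/-- A root of the irreducible `f` of full degree has distinct conjugates, and the norm of
`x - θ y` is the form of `f`. -/
theorem root_facts {f : ℤ[X]} (hf : f.Monic) (hirr : Irreducible f)
    (hfin : finrank ℚ K = f.natDegree) {θ : 𝓞 K} (hroot : aeval (θ : K) f = 0) :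
    (Function.Injective fun σ : K →+* ℂ => σ (θ : K)) ∧
      ∀ x y : ℤ, Algebra.norm ℚ ((x : K) - (θ : K) * y) = (FA.Thue.form f x y : ℚ) := by
  classical
  set g := f.map (Int.castRingHom ℚ) with hg
  have hgdeg : g.natDegree = f.natDegree := hf.natDegree_map _
  have hgirr : Irreducible g := hf.irreducible_iff_irreducible_map_fraction_map.1 hirr
  have hgroot : aeval (θ : K) g = 0 := by
    rw [hg, ← algebraMap_int_eq, aeval_map_algebraMap]; exact hroot
  have hmin : minpoly ℚ (θ : K) = g :=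
    (minpoly.eq_of_irreducible_of_monic hgirr hgroot (hf.map _)).symm
  have hinj : Function.Injective fun σ : K →+* ℂ => σ (θ : K) := by
    intro σ σ' he
    have hθ : IsIntegral ℚ (θ : K) := IsIntegral.of_finite ℚ _
    have htop : Algebra.adjoin ℚ {(θ : K)} = ⊤ := by
      rw [← IntermediateField.adjoin_simple_toSubalgebra_of_isAlgebraic hθ.isAlgebraic,
        (Field.primitive_element_iff_minpoly_natDegree_eq ℚ (θ : K)).2 (by rw [hmin, hgdeg, hfin]),
        IntermediateField.top_toSubalgebra]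
    have h1 : σ.toRatAlgHom = σ'.toRatAlgHom :=
      AlgHom.ext_of_adjoin_eq_top htop (by simpa using he)
    exact RingHom.ext fun z => DFunLike.congr_fun h1 z
  refine ⟨hinj, fun x y => ?_⟩
  rcases eq_or_ne y 0 with rfl | hy
  · rw [Int.cast_zero, mul_zero, sub_zero, ← map_intCast (algebraMap ℚ K) x,
      Algebra.norm_algebraMap, hfin, FA.Thue.form,
      sum_eq_single f.natDegree (fun i hi hne => ?_) (by simp)]
    · simp [hf.coeff_natDegree]
    · have := mem_range.1 hi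
      rw [zero_pow (by omega), mul_zero]
  apply (algebraMap ℚ ℂ).injective
  have hcard : Fintype.card (K →ₐ[ℚ] ℂ) = f.natDegree := by rw [AlgHom.card, hfin]
  have hprod : ∏ σ : K →ₐ[ℚ] ℂ, (Polynomial.X - Polynomial.C (σ (θ : K))) =
      f.map (Int.castRingHom ℂ) := by
    refine (Polynomial.eq_of_monic_of_dvd_of_natDegree_le (monic_prod_of_monic _ _ fun σ _ =>
      monic_X_sub_C _) (hf.map _) (Finset.prod_dvd_of_coprime (fun σ _ τ _ hne => ?_)
        fun σ _ => ?_) ?_).symm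
    · refine Polynomial.isCoprime_X_sub_C_of_isUnit_sub (sub_ne_zero.2 fun e => hne ?_).isUnit
      exact (RingHom.equivRatAlgHom K ℂ).symm.injective (hinj e)
    · rw [Polynomial.dvd_iff_isRoot, IsRoot.def, eval_map, ← algebraMap_int_eq, ← aeval_def,
        ← AlgHom.restrictScalars_apply ℤ σ, aeval_algHom_apply, hroot, map_zero]
    · rw [natDegree_prod_of_monic _ _ fun σ _ => monic_X_sub_C _, hf.natDegree_map]
      simp [hcard]
  rw [Algebra.norm_eq_prod_embeddings, eq_ratCast, Rat.cast_intCast,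
    FA.Thue.form_eq_mul (K := ℂ) f x y hy, ← hprod, eval_prod, ← hcard, ← Finset.card_univ,
    ← Finset.prod_const, ← Finset.prod_mul_distrib]
  refine Finset.prod_congr rfl fun σ _ => ?_
  have hyC : (y : ℂ) ≠ 0 := Int.cast_ne_zero.2 hy
  rw [eval_sub, eval_X, eval_C, map_sub, map_mul, map_intCast, map_intCast]
  field_simp

/-- **The bound for an equation.** -/
theorem equation_bound {f : ℤ[X]} (hf : f.Monic) (hirr : Irreducible f) (hn : 3 ≤ f.natDegree)
    (hfin : finrank ℚ K = f.natDegree) {θ : 𝓞 K} (hroot : aeval (θ : K) f = 0)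
    {u : Fin (rank K) → (𝓞 K)ˣ} (hu : IsMaxRank u) {h : ℕ} (hh : 1 ≤ h)
    (hθh : ∀ σ : K →+* ℂ, ‖σ (θ : K)‖ ≤ (2 : ℝ) ^ h)
    (huh : ∀ i (σ : K →+* ℂ), |Real.log ‖σ (u i : K)‖| ≤ h) {x y m : ℤ} (hm : m ≠ 0)
    (hmh : m.natAbs ≤ 2 ^ h) (heq : FA.Thue.form f x y = m) :
    x.natAbs < 2 ^ thueBound f.natDegree h ∧ y.natAbs < 2 ^ thueBound f.natDegree h := by
  obtain ⟨hinj, hnorm⟩ := root_facts hf hirr hfin hroot
  exact solutions_bound hfin hn hh hinj hθh hu huh hm hmh (by rw [hnorm, heq])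

end

open Polynomial

/-- **Thue's theorem with a bound from any system of units**, hence finiteness. -/
theorem equation_finite {f : ℤ[X]} (hf : f.Monic) (hirr : Irreducible f) (hn : 3 ≤ f.natDegree)
    {m : ℤ} (hm : m ≠ 0) : {p : ℤ × ℤ | FA.Thue.form f p.1 p.2 = m}.Finite := by
  classical
  set g := f.map (Int.castRingHom ℚ) with hg
  have : Fact (Irreducible g) := ⟨hf.irreducible_iff_irreducible_map_fraction_map.1 hirr⟩
  have hg0 : g ≠ 0 := (hf.map _).ne_zero
  have : FiniteDimensional ℚ (AdjoinRoot g) := (AdjoinRoot.powerBasis hg0).finite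
  have : NumberField (AdjoinRoot g) := {}
  have hfin : finrank ℚ (AdjoinRoot g) = f.natDegree := by
    rw [(AdjoinRoot.powerBasis hg0).finrank, AdjoinRoot.powerBasis_dim, hf.natDegree_map]
  have hroot : aeval (AdjoinRoot.root g) f = 0 := by
    rw [← aeval_map_algebraMap ℚ, algebraMap_int_eq, ← hg, aeval_def,
      Subsingleton.elim (algebraMap ℚ (AdjoinRoot g)) (AdjoinRoot.of g), AdjoinRoot.eval₂_root]
  let θ : 𝓞 (AdjoinRoot g) := ⟨AdjoinRoot.root g, f, hf, by rwa [← aeval_def]⟩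
  obtain ⟨A, hA⟩ : ∃ A : ℕ, ∀ (σ : AdjoinRoot g →+* ℂ), ‖σ (θ : AdjoinRoot g)‖ ≤ A :=
    ⟨⌈house (θ : AdjoinRoot g)⌉₊, fun σ =>
      (norm_embedding_le_house _ σ).trans (Nat.le_ceil _)⟩
  set u := fundSystem (AdjoinRoot g)
  obtain ⟨C, hC⟩ := Finite.exists_le fun p : Fin (rank (AdjoinRoot g)) × (AdjoinRoot g →+* ℂ) =>
    ⌈|Real.log ‖p.2 (u p.1 : AdjoinRoot g)‖|⌉₊
  set h := A + C + m.natAbs + 1
  have hbound := fun x y => equation_bound (x := x) (y := y) hf hirr hn hfin (θ := θ) hroot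
    (isMaxRank_fundSystem (K := AdjoinRoot g)) (h := h) (by omega)
    (fun σ => (hA σ).trans (by exact_mod_cast (show A ≤ h by omega).trans Nat.lt_two_pow_self.le))
    (fun i σ => (Nat.le_ceil _).trans (Nat.cast_le.2 ((hC (i, σ)).trans (by omega)))) hm
    ((show m.natAbs ≤ h by omega).trans Nat.lt_two_pow_self.le)
  set B : ℤ := 2 ^ thueBound f.natDegree h
  refine ((Set.finite_Icc (-B) B).prod (Set.finite_Icc (-B) B)).subset fun p hp => ?_
  obtain ⟨h1, h2⟩ := hbound p.1 p.2 hp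
  have hB : ∀ z : ℤ, z.natAbs < 2 ^ thueBound f.natDegree h → z ∈ Set.Icc (-B) B := fun z hz => by
    have h3 : (z.natAbs : ℤ) < B := by
      show (z.natAbs : ℤ) < (2 : ℤ) ^ thueBound f.natDegree h
      exact_mod_cast hz
    rw [Set.mem_Icc]
    omega
  exact ⟨hB _ h1, hB _ h2⟩

end FA.BakerExplicit.EffectiveThue

end
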