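import Fermat.Agent.BakerExplicit.ThueSizes
import Mathlib.NumberTheory.NumberField.Discriminant.Basic
import Mathlib.NumberTheory.NumberField.Units.Regulator

/-!
# A system of units bounded by the discriminant

Dirichlet's construction, made quantitative: Minkowski's theorem gives integers of norm at most
`B` whose sizes off one place decrease geometrically, and two of the first `(B + 1) ^ (n + 1) + 1`
have the same norm and the same residue modulo it, so their quotient is a unit.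
-/

set_option autoImplicit false

noncomputable section

namespace FA.BakerExplicit.UnitSystem

open Finset NumberField NumberField.Units NumberField.Units.dirichletUnitTheorem Module
  NumberField.mixedEmbedding

open scoped NNReal ENNReal

variable {K : Type*} [Field K] [NumberField K]

/-- The bound for the logarithms of the units. -/
def unitBound (n e : ℕ) : ℕ := n * ((2 ^ ((n + e + 1) * (n + 1)) + 1) * (n + e + 2))

theorem minkowskiBound_lt {n e : ℕ} (hn : finrank ℚ K ≤ n) (he : (discr K).natAbs ≤ 2 ^ e) :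
    minkowskiBound K ↑1 < (convexBodyLTFactor K : ℝ≥0∞) * ((2 ^ (n + e) + 1 : ℕ) : ℝ≥0) := by
  classical
  have h1 : minkowskiBound K ↑1 ≤ (2 : ℝ≥0∞) ^ (n + e) := by
    rw [minkowskiBound, volume_fundamentalDomain_fractionalIdealLatticeBasis, Units.val_one,
      FractionalIdeal.absNorm_one, Rat.cast_one, ENNReal.ofReal_one, one_mul,
      mixedEmbedding.finrank, volume_fundamentalDomain_latticeBasis, add_comm n e, pow_add]
    refine mul_le_mul' ?_ (pow_le_pow_right₀ one_le_two hn)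
    have h2 : NNReal.sqrt ‖discr K‖₊ ≤ (2 : ℝ≥0) ^ e := by
      rw [NNReal.sqrt_le_iff_le_sq]
      refine le_trans ?_ (le_self_pow (one_le_pow₀ one_le_two) two_ne_zero)
      rw [← NNReal.coe_le_coe, coe_nnnorm, Int.norm_eq_abs, ← Int.cast_abs, ← Int.natCast_natAbs,
        Int.cast_natCast]
      push_cast
      exact_mod_cast he
    have h4 : (NNReal.sqrt ‖discr K‖₊ : ℝ≥0∞) ≤ (2 : ℝ≥0∞) ^ e := by exact_mod_cast h2
    exact (mul_le_mul' (pow_le_one₀ (by positivity) (by simp)) h4).trans_eq (one_mul _)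
  have h3 : (2 : ℝ≥0∞) ^ (n + e) < ((2 ^ (n + e) + 1 : ℕ) : ℝ≥0) := by
    exact_mod_cast (Nat.lt_succ_self (2 ^ (n + e)))
  refine h1.trans_lt (h3.trans_le (le_mul_of_one_le_left' ?_))
  exact_mod_cast one_le_convexBodyLTFactor K

omit [NumberField K] in
theorem associated_of_dvd {x y : 𝓞 K} {a : ℕ} (hx : x ∣ (a : 𝓞 K)) (hy : y ∣ (a : 𝓞 K))
    (hxy : (a : 𝓞 K) ∣ x - y) : Associated x y := by
  refine associated_of_dvd_dvd ?_ ?_
  · exact (dvd_sub_right dvd_rfl).1 (hx.trans hxy)
  · exact (dvd_sub_left dvd_rfl).1 (hy.trans hxy)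

/-- **A unit small off one place, of bounded size.** -/
theorem exists_unit_bounded {n e : ℕ} (hn : finrank ℚ K = n) (he : (discr K).natAbs ≤ 2 ^ e)
    (w₁ : InfinitePlace K) : ∃ u : (𝓞 K)ˣ, (∀ w, w ≠ w₁ → Real.log (w (u : K)) < 0) ∧
      ∀ w : InfinitePlace K, |Real.log (w (u : K))| ≤ (unitBound n e : ℝ) := by
  classical
  set B := 2 ^ (n + e) + 1 with hB
  have hB1 : 1 ≤ B := Nat.le_add_left _ _
  have hBR : (1 : ℝ) ≤ B := by exact_mod_cast hB1
  have hn1 : 1 ≤ n := hn ▸ finrank_pos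
  have hstep : ∀ j : ℕ, ∃ x : 𝓞 K, x ≠ 0 ∧ (Algebra.norm ℤ x).natAbs ≤ B ∧
      ∀ w, w ≠ w₁ → w (x : K) < 1 / (2 * B : ℝ) ^ j ∧
        1 / (2 * B : ℝ) ^ j ≤ B * w (x : K) := fun j => by
    set f : InfinitePlace K → ℝ≥0 := fun _ => 1 / (2 * (B : ℝ≥0)) ^ j with hf
    have hf0 : ∀ w, w ≠ w₁ → f w ≠ 0 := fun w _ => by
      simp only [hf]
      exact one_div_ne_zero (pow_ne_zero _ (mul_ne_zero two_ne_zero
        (Nat.cast_ne_zero.2 (by omega))))
    obtain ⟨g, hgf, hg⟩ := adjust_f K (B : ℝ≥0) hf0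
    obtain ⟨x, hx0, hx⟩ := exists_ne_zero_mem_ringOfIntegers_lt K (f := g) (by
      rw [convexBodyLT_volume]
      refine (minkowskiBound_lt hn.le he).trans_le (le_of_eq ?_)
      rw [← hB]
      congr 1
      exact_mod_cast hg.symm)
    have hgR : ∏ w, (g w : ℝ) ^ w.mult = B := by exact_mod_cast hg
    have hnorm : ∏ w : InfinitePlace K, w (x : K) ^ w.mult = ((Algebra.norm ℤ x).natAbs : ℝ) := by
      rw [InfinitePlace.prod_eq_abs_norm, ← Algebra.coe_norm_int, Nat.cast_natAbs, Int.cast_abs]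
      push_cast
      rfl
    have hnB : (Algebra.norm ℤ x).natAbs ≤ B := by
      have h1 : ((Algebra.norm ℤ x).natAbs : ℝ) ≤ (B : ℝ) := by
        rw [← hnorm, ← hgR]
        exact prod_le_prod (fun w _ => by positivity) fun w _ =>
          pow_le_pow_left₀ (apply_nonneg _ _) (hx w).le _
      exact_mod_cast h1
    refine ⟨x, hx0, hnB, fun w hw => ?_⟩
    have hgw : (g w : ℝ) = 1 / (2 * B : ℝ) ^ j := by rw [hgf w hw]; simp [hf]
    have hwx := hx w
    rw [hgw] at hwx
    refine ⟨hwx, ?_⟩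
    have h1 : (1 : ℝ) ≤ w (x : K) ^ w.mult * ∏ v ∈ univ.erase w, (g v : ℝ) ^ v.mult := by
      refine le_trans ?_ (mul_le_mul_of_nonneg_left (prod_le_prod (fun v _ => by positivity)
        fun v _ => pow_le_pow_left₀ (apply_nonneg _ _) (hx v).le _) (by positivity))
      rw [mul_prod_erase univ (fun v : InfinitePlace K => v (x : K) ^ v.mult) (mem_univ w), hnorm]
      exact_mod_cast Int.natAbs_pos.2 (Algebra.norm_ne_zero_iff.2 hx0)
    have hgpos : (0 : ℝ) < g w := by rw [hgw]; positivity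
    have h2 : (g w : ℝ) ^ w.mult ≤ B * w (x : K) ^ w.mult := by
      rw [← hgR, ← mul_prod_erase univ _ (mem_univ w), mul_assoc,
        mul_comm (∏ v ∈ univ.erase w, (g v : ℝ) ^ v.mult)]
      exact le_mul_of_one_le_right (by positivity) h1
    rw [← hgw]
    by_contra hlt
    push Not at hlt
    have h3 : (B * w (x : K)) ^ w.mult < (g w : ℝ) ^ w.mult :=
      pow_lt_pow_left₀ hlt (by positivity) InfinitePlace.mult_ne_zero
    rw [mul_pow] at h3
    have h4 : (B : ℝ) ≤ (B : ℝ) ^ w.mult := le_self_pow₀ hBR InfinitePlace.mult_ne_zero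
    nlinarith [mul_le_mul_of_nonneg_right h4 (pow_nonneg (apply_nonneg w (x : K)) w.mult)]
  choose x hx0 hxB hxw using hstep
  set b := RingOfIntegers.basis K
  set N := (B + 1) ^ (n + 1) with hN
  let key : ℕ → ℕ × (Free.ChooseBasisIndex ℤ (𝓞 K) → ℕ) := fun j =>
    ((Algebra.norm ℤ (x j)).natAbs,
      fun i => (b.repr (x j) i % ((Algebra.norm ℤ (x j)).natAbs : ℤ)).toNat)
  have hkey : ∀ j ∈ range (N + 1), key j ∈
      range (B + 1) ×ˢ Fintype.piFinset (fun _ => range (B + 1)) := fun j _ => by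
    refine mem_product.2 ⟨mem_range.2 (by have := hxB j; simp only [key]; omega),
      Fintype.mem_piFinset.2 fun i => mem_range.2 ?_⟩
    simp only [key]
    have := hxB j
    have hpos : 0 < (Algebra.norm ℤ (x j)).natAbs :=
      Int.natAbs_pos.2 (Algebra.norm_ne_zero_iff.2 (hx0 j))
    have := Int.emod_lt_of_pos (b.repr (x j) i) (by omega : (0 : ℤ) < (Algebra.norm ℤ (x j)).natAbs)
    omega
  have hcard : (range (B + 1) ×ˢ Fintype.piFinset
      (fun _ : Free.ChooseBasisIndex ℤ (𝓞 K) => range (B + 1))).card < (range (N + 1)).card := by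
    rw [card_product, Fintype.card_piFinset, prod_const, card_univ, card_range, card_range,
      ← finrank_eq_card_chooseBasisIndex, RingOfIntegers.rank, hn, hN, pow_succ' _ n]
    omega
  obtain ⟨j, hj, k, hk, hjk, hkeq⟩ := exists_ne_map_eq_of_card_lt_of_maps_to hcard hkey
  wlog hlt : j < k generalizing j k
  · exact this k hk j hj hjk.symm hkeq.symm (lt_of_le_of_ne (not_lt.1 hlt) hjk.symm)
  simp only [key, Prod.mk.injEq] at hkeq
  obtain ⟨ha, hres⟩ := hkeq
  set a := (Algebra.norm ℤ (x j)).natAbs with hadef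
  have hdvd : (a : 𝓞 K) ∣ x k - x j := by
    refine ⟨∑ i, ((b.repr (x k) i - b.repr (x j) i) / (a : ℤ)) • b i, ?_⟩
    conv_lhs => rw [← b.sum_repr (x k), ← b.sum_repr (x j), ← sum_sub_distrib]
    rw [mul_sum]
    refine sum_congr rfl fun i _ => ?_
    have hd : (a : ℤ) ∣ b.repr (x k) i - b.repr (x j) i := by
      refine Int.ModEq.dvd ?_
      have h1 := congrFun hres i
      rw [← ha] at h1
      have hpos : (a : ℤ) ≠ 0 := by
        have := Int.natAbs_pos.2 (Algebra.norm_ne_zero_iff.2 (hx0 j))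
        omega
      have := Int.emod_nonneg (b.repr (x j) i) hpos
      have := Int.emod_nonneg (b.repr (x k) i) hpos
      show _ % _ = _ % _
      omega
    rw [← sub_smul, zsmul_eq_mul, zsmul_eq_mul, ← mul_assoc, ← Int.cast_natCast a, ← Int.cast_mul,
      Int.mul_ediv_cancel' hd]
  obtain ⟨u, hu⟩ := associated_of_dvd (x := x k) (y := x j) (a := a)
    (ha ▸ EffectiveThue.dvd_natAbs_norm (x k)) (EffectiveThue.dvd_natAbs_norm (x j)) hdvd
  refine ⟨u⁻¹, ?_⟩
  have hval : ∀ w : InfinitePlace K,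
      Real.log (w ((u⁻¹ : (𝓞 K)ˣ) : K)) = Real.log (w (x k : K)) - Real.log (w (x j : K)) :=
    fun w => by
    have h1 : (x j : K) * ((u⁻¹ : (𝓞 K)ˣ) : K) = (x k : K) := by
      rw [← map_mul, ← hu, mul_assoc, ← Units.val_mul, mul_inv_cancel, Units.val_one, mul_one]
    have hp : ∀ j, 0 < w (x j : K) := fun j =>
      InfinitePlace.pos_iff.2 (RingOfIntegers.coe_ne_zero_iff.2 (hx0 j))
    rw [← h1, map_mul, Real.log_mul (hp j).ne' (Units.pos_at_place _ _).ne']
    ring
  have hlogB : Real.log (2 * B : ℝ) ≤ ((n + e + 2 : ℕ) : ℝ) := by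
    refine (Real.log_le_log (by positivity) (show (2 * B : ℝ) ≤ (2 : ℝ) ^ (n + e + 2) by
      have h1 : 2 * B ≤ 2 ^ (n + e + 2) := by
        rw [hB, pow_succ _ (n + e + 1), pow_succ _ (n + e)]
        have := Nat.two_pow_pos (n + e)
        omega
      exact_mod_cast h1)).trans ?_
    rw [Real.log_pow]
    exact mul_le_of_le_one_right (Nat.cast_nonneg _) (Real.log_two_lt_d9.le.trans (by norm_num))
  have hjk1 : (j : ℝ) + 1 ≤ k := by exact_mod_cast hlt
  have hkN : (k : ℝ) ≤ N := by exact_mod_cast Nat.lt_succ_iff.1 (mem_range.1 hk)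
  have h2B : (1 : ℝ) ≤ 2 * B := by linarith
  set c := Real.log (2 * B : ℝ)
  have hc0 : 0 ≤ c := Real.log_nonneg h2B
  have hoff : ∀ w, w ≠ w₁ → Real.log (w ((u⁻¹ : (𝓞 K)ˣ) : K)) < 0 ∧
      -((N + 1 : ℕ) : ℝ) * c ≤ Real.log (w ((u⁻¹ : (𝓞 K)ˣ) : K)) := fun w hw => by
    have hp : ∀ j, 0 < w (x j : K) := fun j =>
      InfinitePlace.pos_iff.2 (RingOfIntegers.coe_ne_zero_iff.2 (hx0 j))
    have hb : ∀ i, Real.log (w (x i : K)) < -(i * c) ∧ -(i * c) - c < Real.log (w (x i : K)) :=
      fun i => by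
      obtain ⟨h1, h2⟩ := hxw i w hw
      have h3 := Real.log_lt_log (hp i) h1
      have h4 := Real.log_lt_log (by positivity)
        (h2.trans_lt (show (B : ℝ) * w (x i : K) < 2 * B * w (x i : K) by
          nlinarith [hp i]))
      rw [one_div, Real.log_inv, Real.log_pow] at h3 h4
      rw [Real.log_mul (show (2 * (B : ℝ)) ≠ 0 by positivity) (hp i).ne'] at h4
      exact ⟨h3, by linarith⟩
    have := (hb j).1; have := (hb j).2; have := (hb k).1; have := (hb k).2
    rw [hval]
    have hsep := mul_le_mul_of_nonneg_right hjk1 hc0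
    have hN' := mul_le_mul_of_nonneg_right hkN hc0
    have : 0 ≤ (j : ℝ) * c := by positivity
    push_cast
    constructor <;> linarith
  refine ⟨fun w hw => (hoff w hw).1, fun w => ?_⟩
  have hL : ((N + 1 : ℕ) : ℝ) * c ≤
      (((2 ^ ((n + e + 1) * (n + 1)) + 1) * (n + e + 2) : ℕ) : ℝ) := by
    rw [Nat.cast_mul]
    refine mul_le_mul (Nat.cast_le.2 (Nat.succ_le_succ ?_)) hlogB hc0 (Nat.cast_nonneg _)
    rw [hN, pow_mul]
    refine Nat.pow_le_pow_left ?_ _
    rw [hB, pow_succ]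
    have h1 : 2 ≤ 2 ^ (n + e) := Nat.le_self_pow (by omega) 2
    omega
  set L := (2 ^ ((n + e + 1) * (n + 1)) + 1) * (n + e + 2)
  have hUB : unitBound n e = n * L := rfl
  rw [hUB]
  have hLn : (L : ℝ) ≤ ((n * L : ℕ) : ℝ) := Nat.cast_le.2 (Nat.le_mul_of_pos_left _ hn1)
  by_cases hw : w = w₁
  · subst hw
    have hsum : ∑ v : InfinitePlace K, (v.mult : ℝ) * Real.log (v ((u⁻¹ : (𝓞 K)ˣ) : K)) = 0 :=
      sum_mult_mul_log (u⁻¹)
    rw [← add_sum_erase _ _ (mem_univ w)] at hsum
    have hothers : |∑ v ∈ univ.erase w, (v.mult : ℝ) * Real.log (v ((u⁻¹ : (𝓞 K)ˣ) : K))| ≤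
        ((n * L : ℕ) : ℝ) := by
      refine (abs_sum_le_sum_abs _ _).trans ?_
      refine (sum_le_sum (g := fun v : InfinitePlace K => (v.mult : ℝ) * (L : ℝ)) fun v hv => ?_
        ).trans ?_
      · rw [abs_mul, Nat.abs_cast]
        refine mul_le_mul_of_nonneg_left ?_ (Nat.cast_nonneg _)
        obtain ⟨h1, h2⟩ := hoff v (mem_erase.1 hv).1
        rw [abs_of_neg h1]
        linarith
      · refine (sum_le_sum_of_subset_of_nonneg (subset_univ _) fun v _ _ => by positivity).trans_eq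
          ?_
        rw [← sum_mul, ← Nat.cast_sum, InfinitePlace.sum_mult_eq, hn]
        simp only [L]
        push_cast
        ring
    have hm : (1 : ℝ) ≤ w.mult := by exact_mod_cast InfinitePlace.mult_pos
    refine le_trans (le_mul_of_one_le_left (abs_nonneg _) hm) ?_
    rw [← Nat.abs_cast w.mult, ← abs_mul, eq_neg_of_add_eq_zero_left hsum, abs_neg]
    exact hothers
  · obtain ⟨h1, h2⟩ := hoff w hw
    rw [abs_of_neg h1]
    linarith

/-- **A system of units of maximal rank bounded by the discriminant.** -/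
theorem exists_unit_system {n e : ℕ} (hn : finrank ℚ K = n) (he : (discr K).natAbs ≤ 2 ^ e) :
    ∃ u : Fin (rank K) → (𝓞 K)ˣ, IsMaxRank u ∧
      ∀ i (σ : K →+* ℂ), |Real.log ‖σ (u i : K)‖| ≤ (unitBound n e : ℝ) := by
  classical
  choose u hu1 hu2 using exists_unit_bounded hn he
  refine ⟨fun i => u (equivFinRank K i).1, ?_, fun i σ => by
    simpa [InfinitePlace.apply] using hu2 (equivFinRank K i).1 (InfinitePlace.mk σ)⟩
  let v : {w : InfinitePlace K // w ≠ w₀} → logSpace K := fun w =>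
    logEmbedding K (Additive.ofMul (u w.1))
  suffices h : LinearIndependent ℝ v from h.comp _ (equivFinRank K).injective
  refine Matrix.linearIndependent_rows_of_det_ne_zero (A := Matrix.of v) ?_
  rw [← Matrix.det_transpose]
  refine det_ne_zero_of_sum_col_lt_diag fun w => ?_
  simp only [Matrix.transpose_apply, Matrix.of_apply, Real.norm_eq_abs, v]
  rw [← sub_pos, sum_congr rfl (fun x hx => abs_of_neg ?_), sum_neg_distrib, sub_neg_eq_add,
    sum_erase_eq_sub (mem_univ _), ← add_comm_sub]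
  · refine add_pos_of_nonneg_of_pos (sub_nonneg.2 (le_abs_self _)) ?_
    rw [sum_logEmbedding_component]
    refine mul_pos_of_neg_of_neg ?_ (hu1 _ _ w.2.symm)
    rw [InfinitePlace.mult]; split_ifs <;> norm_num
  · rw [logEmbedding_component]
    refine mul_neg_of_pos_of_neg (Nat.cast_pos.2 InfinitePlace.mult_pos) (hu1 _ _ ?_)
    exact Subtype.coe_ne_coe.2 (ne_of_mem_erase hx)

end FA.BakerExplicit.UnitSystem

end
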