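import Fermat.Agent.BakerExplicit.Thue
import Fermat.Agent.BakerExplicit.UnitSystem
import Fermat.Agent.BakerExplicit.CoefficientBounds
import Mathlib.RingTheory.Polynomial.IntegralNormalization

/-!
# The Thue equation bounded by the coefficients (Baker, 1968)

The discriminant of the field is bounded by the coefficients, hence so are a system of units and
the solutions. A leading coefficient `a` is removed by `a ^ (n - 1) F (x, y) = G (a x, y)`.
-/

set_option autoImplicit false

noncomputable section

namespace FA.BakerExplicit.EffectiveThue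

open Finset NumberField NumberField.Units Module Polynomial

/-- The bound for the discriminant of the field of a monic polynomial. -/
def discExp (n k : ℕ) : ℕ := 2 * (n ^ 2 + (k + n) * n ^ 2)

/-- The size of the data of a monic polynomial. -/
def coeffSize (n k : ℕ) : ℕ := UnitSystem.unitBound n (discExp n k) + n + k + 1

/-- **The bound for the logarithm, to base `2`, of a solution, in the coefficients alone.** -/
def thueCoeffBound (n k : ℕ) : ℕ := thueBound n (coeffSize n (k * n))

/-- The monic case. -/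
theorem monic_bound {f : ℤ[X]} (hf : f.Monic) (hirr : Irreducible f) (hn : 3 ≤ f.natDegree)
    {k : ℕ} (hH : ∀ i, (f.coeff i).natAbs ≤ 2 ^ k) {x y m : ℤ} (hm : m ≠ 0)
    (hmh : m.natAbs ≤ 2 ^ k) (heq : FA.Thue.form f x y = m) :
    x.natAbs < 2 ^ thueBound f.natDegree (coeffSize f.natDegree k) ∧
      y.natAbs < 2 ^ thueBound f.natDegree (coeffSize f.natDegree k) := by
  classical
  set n := f.natDegree with hndef
  set g := f.map (Int.castRingHom ℚ) with hg
  have hgirr : Irreducible g := hf.irreducible_iff_irreducible_map_fraction_map.1 hirr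
  have : Fact (Irreducible g) := ⟨hgirr⟩
  have hg0 : g ≠ 0 := (hf.map _).ne_zero
  have : FiniteDimensional ℚ (AdjoinRoot g) := (AdjoinRoot.powerBasis hg0).finite
  have : NumberField (AdjoinRoot g) := {}
  have hfin : finrank ℚ (AdjoinRoot g) = n := by
    rw [(AdjoinRoot.powerBasis hg0).finrank, AdjoinRoot.powerBasis_dim, hf.natDegree_map]
  have hgroot : aeval (AdjoinRoot.root g) g = 0 := by
    rw [aeval_def, Subsingleton.elim (algebraMap ℚ (AdjoinRoot g)) (AdjoinRoot.of g),
      AdjoinRoot.eval₂_root]
  have hroot : aeval (AdjoinRoot.root g) f = 0 := by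
    rw [← aeval_map_algebraMap ℚ, algebraMap_int_eq]
    exact hgroot
  let θ : 𝓞 (AdjoinRoot g) := ⟨AdjoinRoot.root g, f, hf, by rwa [← aeval_def]⟩
  have hli : LinearIndependent ℚ fun i : Fin n => (θ : AdjoinRoot g) ^ (i : ℕ) := by
    have hmin : (minpoly ℚ (AdjoinRoot.root g)).natDegree = n := by
      rw [← minpoly.eq_of_irreducible_of_monic hgirr hgroot (hf.map _), hf.natDegree_map]
    show LinearIndependent ℚ fun i : Fin n => AdjoinRoot.root g ^ (i : ℕ)
    rw [← hmin]
    exact linearIndependent_pow (AdjoinRoot.root g)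
  have hroots : ∀ σ : AdjoinRoot g →+* ℂ, ‖σ (θ : AdjoinRoot g)‖ ≤ ((2 ^ (k + n) : ℕ) : ℝ) :=
    fun σ => by
    have h1 : aeval (σ (AdjoinRoot.root g)) f = 0 := by
      rw [show σ (AdjoinRoot.root g) = σ.toIntAlgHom (AdjoinRoot.root g) from rfl,
        aeval_algHom_apply, hroot, map_zero]
    refine (CoefficientBounds.root_norm_le hf hH h1).trans ?_
    have h2 : n * 2 ^ k + 1 ≤ 2 ^ (k + n) := by
      calc n * 2 ^ k + 1 ≤ n * 2 ^ k + 2 ^ k := Nat.add_le_add_left Nat.one_le_two_pow _
        _ = (n + 1) * 2 ^ k := by ring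
        _ ≤ 2 ^ n * 2 ^ k := Nat.mul_le_mul_right _ Nat.lt_two_pow_self
        _ = _ := by rw [← pow_add, add_comm]
    exact_mod_cast h2
  have hdisc : (discr (AdjoinRoot g)).natAbs ≤ 2 ^ discExp n k := by
    refine (CoefficientBounds.natAbs_discr_le hfin hli Nat.one_le_two_pow hroots).trans ?_
    refine le_trans (Nat.pow_le_pow_left (Nat.mul_le_mul (?_ : n ^ n ≤ 2 ^ (n ^ 2))
      (?_ : ((2 ^ (k + n)) ^ n) ^ n ≤ 2 ^ ((k + n) * n ^ 2))) 2)
      (le_of_eq (by rw [discExp, ← pow_add, ← pow_mul, mul_comm]))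
    · rw [sq, pow_mul]
      exact Nat.pow_le_pow_left Nat.lt_two_pow_self.le n
    · exact le_of_eq (by ring)
  obtain ⟨u, hu, huh⟩ := UnitSystem.exists_unit_system hfin hdisc
  set h := coeffSize n k with hh
  have hhe : h = UnitSystem.unitBound n (discExp n k) + n + k + 1 := rfl
  refine equation_bound hf hirr hn hfin (θ := θ) hroot hu (h := h) (by omega)
    (fun σ => (hroots σ).trans ?_) (fun i σ => (huh i σ).trans (Nat.cast_le.2 (by omega))) hm
    (hmh.trans (Nat.pow_le_pow_right two_pos (by omega))) heq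
  push_cast
  exact pow_le_pow_right₀ one_le_two (by omega)

theorem normalization_irreducible {f : ℤ[X]} (hirr : Irreducible f) (hn : f.natDegree ≠ 0) :
    Irreducible f.integralNormalization := by
  classical
  have hmon : f.integralNormalization.Monic := monic_integralNormalization hirr.ne_zero
  rw [hmon.irreducible_iff_irreducible_map_fraction_map (K := ℚ)]
  set g := f.map (algebraMap ℤ ℚ) with hg
  have hgirr : Irreducible g :=
    ((hirr.isPrimitive hn).irreducible_iff_irreducible_map_fraction_map).1 hirr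
  have : Fact (Irreducible g) := ⟨hgirr⟩
  have hinj : Function.Injective (algebraMap ℤ ℚ) := (algebraMap ℤ ℚ).injective_int
  have hdeg : g.natDegree = f.natDegree := natDegree_map_eq_of_injective hinj f
  have hgroot : aeval (AdjoinRoot.root g) g = 0 := by
    rw [aeval_def, Subsingleton.elim (algebraMap ℚ (AdjoinRoot g)) (AdjoinRoot.of g),
      AdjoinRoot.eval₂_root]
  have hroot : aeval (AdjoinRoot.root g) f = 0 := by
    rw [← aeval_map_algebraMap ℚ]
    exact hgroot
  set a : ℚ := algebraMap ℤ ℚ f.leadingCoeff with ha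
  have ha0 : a ≠ 0 := (map_ne_zero_iff _ hinj).2 (leadingCoeff_ne_zero.2 hirr.ne_zero)
  set η : AdjoinRoot g := algebraMap ℚ (AdjoinRoot g) a * AdjoinRoot.root g with hη
  set G := f.integralNormalization.map (algebraMap ℤ ℚ) with hG
  have hηG : aeval η G = 0 := by
    rw [hG, aeval_map_algebraMap, hη, ha, ← IsScalarTower.algebraMap_apply ℤ ℚ]
    refine integralNormalization_aeval_eq_zero hroot ?_
    intro z hz
    exact (map_eq_zero_iff _ (algebraMap ℤ (AdjoinRoot g)).injective_int).1 hz
  have : FiniteDimensional ℚ (AdjoinRoot g) := (AdjoinRoot.powerBasis hgirr.ne_zero).finite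
  have hint : IsIntegral ℚ η := IsIntegral.of_finite ℚ η
  set p := minpoly ℚ η with hp
  have hle : g.natDegree ≤ p.natDegree := by
    have h1 : aeval (AdjoinRoot.root g) (p.comp (C a * X)) = 0 := by
      rw [aeval_comp, aeval_mul, aeval_C, aeval_X, ← hη]
      exact minpoly.aeval ℚ η
    have h2 : (p.comp (C a * X)).natDegree = p.natDegree := by
      rw [natDegree_comp, natDegree_C_mul_X a ha0, mul_one]
    have hcomp : p.comp (C a * X) ≠ 0 := fun h0 => by
      rw [h0, natDegree_zero] at h2
      exact (minpoly.natDegree_pos hint).ne h2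
    rw [← h2]
    refine natDegree_le_of_dvd ?_ hcomp
    have h3 := minpoly.dvd ℚ _ h1
    rw [← minpoly.eq_of_irreducible hgirr hgroot] at h3
    exact (dvd_mul_right g _).trans h3
  have hGdeg : G.natDegree = f.natDegree := by
    rw [hG, hmon.natDegree_map, natDegree_integralNormalization]
  have heq : G = p := Polynomial.eq_of_monic_of_dvd_of_natDegree_le (minpoly.monic hint)
    (hmon.map _) (minpoly.dvd ℚ η hηG) (by omega)
  rw [heq]
  exact minpoly.irreducible hint

theorem form_eq_zero {f : ℤ[X]} (hirr : Irreducible f) (hn : 2 ≤ f.natDegree) {x y : ℤ}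
    (h : FA.Thue.form f x y = 0) : x = 0 ∧ y = 0 := by
  rcases eq_or_ne y 0 with rfl | hy
  · refine ⟨?_, rfl⟩
    rw [FA.Thue.form, sum_eq_single f.natDegree (fun i hi hne => ?_) (by simp)] at h
    · simp only [Nat.sub_self, pow_zero, mul_one, mul_eq_zero] at h
      exact eq_zero_of_pow_eq_zero (h.resolve_left (leadingCoeff_ne_zero.2 hirr.ne_zero))
    · have := mem_range.1 hi
      rw [zero_pow (by omega), mul_zero]
  exfalso
  have hinj : Function.Injective (Int.castRingHom ℚ) := (Int.castRingHom ℚ).injective_int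
  have hgirr : Irreducible (f.map (Int.castRingHom ℚ)) :=
    ((hirr.isPrimitive (by omega)).irreducible_iff_irreducible_map_fraction_map).1 hirr
  have h1 := FA.Thue.form_eq_mul (K := ℚ) f x y hy
  rw [h, Int.cast_zero, eq_comm, mul_eq_zero] at h1
  have h2 := h1.resolve_left (pow_ne_zero _ (Int.cast_ne_zero.2 hy))
  have h3 : (f.map (Int.castRingHom ℚ)).natDegree = 1 := natDegree_eq_of_degree_eq_some
    (by simpa using degree_eq_one_of_irreducible_of_root hgirr (show IsRoot _ _ from h2))
  rw [natDegree_map_eq_of_injective hinj] at h3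
  omega

/-- **Baker's theorem on the Thue equation, in the coefficients alone.** -/
theorem coefficient_bound {f : ℤ[X]} (hirr : Irreducible f) (hn : 3 ≤ f.natDegree) {k : ℕ}
    (hH : ∀ i, (f.coeff i).natAbs ≤ 2 ^ k) {x y m : ℤ} (hmh : m.natAbs ≤ 2 ^ k)
    (heq : FA.Thue.form f x y = m) :
    x.natAbs < 2 ^ thueCoeffBound f.natDegree k ∧
      y.natAbs < 2 ^ thueCoeffBound f.natDegree k := by
  classical
  rcases eq_or_ne m 0 with rfl | hm
  · obtain ⟨rfl, rfl⟩ := form_eq_zero hirr (by omega) heq
    simp
  set n := f.natDegree with hndef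
  set a := f.leadingCoeff with ha
  have ha0 : a ≠ 0 := leadingCoeff_ne_zero.2 hirr.ne_zero
  set g := f.integralNormalization with hg
  have hgdeg : g.natDegree = n := natDegree_integralNormalization
  have hgform : FA.Thue.form g (a * x) y = a ^ (n - 1) * m := by
    rw [← heq, FA.Thue.form, FA.Thue.form, hgdeg, ← hndef, mul_sum]
    refine sum_congr rfl fun i _ => ?_
    have h1 := integralNormalization_coeff_mul_leadingCoeff_pow (p := f) i (by omega)
    rw [← hg, ← ha, ← hndef] at h1
    linear_combination (x ^ i * y ^ (n - i)) * h1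
  have hk1 : k ≤ k * n := Nat.le_mul_of_pos_right _ (by omega)
  have hgH : ∀ i, (g.coeff i).natAbs ≤ 2 ^ (k * n) := fun i => by
    rcases eq_or_ne i n with rfl | hi
    · rw [hg, hndef, integralNormalization_coeff_natDegree hirr.ne_zero]
      exact Nat.one_le_two_pow
    rw [hg, integralNormalization_coeff_ne_natDegree hi, Int.natAbs_mul, Int.natAbs_pow]
    refine (Nat.mul_le_mul (hH i) (Nat.pow_le_pow_left (hH n) _)).trans ?_
    rw [← pow_mul, ← pow_add]
    refine Nat.pow_le_pow_right two_pos ?_
    calc k + k * (n - 1 - i) ≤ k + k * (n - 1) :=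
          Nat.add_le_add_left (Nat.mul_le_mul_left _ (Nat.sub_le _ _)) _
      _ = k * n := by
        rw [show k * n = k * (n - 1 + 1) by congr 1; omega, mul_add, mul_one, add_comm]
  have hmh' : (a ^ (n - 1) * m).natAbs ≤ 2 ^ (k * n) := by
    rw [Int.natAbs_mul, Int.natAbs_pow]
    refine (Nat.mul_le_mul (Nat.pow_le_pow_left (hH n) _) hmh).trans ?_
    rw [← pow_mul, ← pow_add]
    refine Nat.pow_le_pow_right two_pos (le_of_eq ?_)
    rw [show k * n = k * (n - 1 + 1) by congr 1; omega, mul_add, mul_one]
  obtain ⟨h1, h2⟩ := monic_bound (f := g) (monic_integralNormalization hirr.ne_zero)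
    (normalization_irreducible hirr (by omega)) (by omega) hgH
    (mul_ne_zero (pow_ne_zero _ ha0) hm) hmh' hgform
  rw [hgdeg] at h1 h2
  refine ⟨lt_of_le_of_lt ?_ h1, h2⟩
  rw [Int.natAbs_mul]
  exact Nat.le_mul_of_pos_left _ (Int.natAbs_pos.2 ha0)

end FA.BakerExplicit.EffectiveThue

end
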