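import Fermat.Agent.BakerExplicit.ThueSteps

/-!
# The linear form of the effective Thue equation

`(θ₁ - θ₃) β₂ / ((θ₁ - θ₂) β₃)` is a product of powers of the conjugate ratios of `γ` and of the
units; its logarithm is a linear form in logarithms once a multiple of `2 π i` is added, and no
independence is needed for Baker's theorem.
-/

set_option autoImplicit false

noncomputable section

namespace FA.BakerExplicit.EffectiveThue

open Finset NumberField NumberField.Units Module UnitExponents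

variable {K : Type*} [Field K] [NumberField K]

set_option maxHeartbeats 2000000 in
/-- **Baker's theorem applied.** -/
theorem form_bound {r n h Y : ℕ} (hfin : finrank ℚ K = n) (hrn : r + 1 ≤ n) (hn : 3 ≤ n)
    (hh : 1 ≤ h) {θ : 𝓞 K} (hθh : ∀ σ : K →+* ℂ, ‖σ (θ : K)‖ ≤ (2 : ℝ) ^ h)
    {u : Fin r → (𝓞 K)ˣ} (huh : ∀ i (σ : K →+* ℂ), |Real.log ‖σ (u i : K)‖| ≤ h)
    {k : Fin r → ℤ} {β : K} {γ w : 𝓞 K} {M : ℤ} (hM : M ≠ 0) (hMh : M.natAbs ≤ 2 ^ h)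
    (hγU : (γ : K) * ((unitPow u k : (𝓞 K)ˣ) : K) = β) (hw : (M.natAbs : 𝓞 K) = γ * w)
    (hγ0 : ∀ σ : K →+* ℂ, σ (γ : K) ≠ 0)
    (hγlog : ∀ σ : K →+* ℂ, |Real.log ‖σ (γ : K)‖| ≤ ((2 * (n * h) : ℕ) : ℝ))
    (hkm : ∀ i, (k i).natAbs ≤ 2 ^ (unitExp n h + 8 * n * h + Nat.log 2 Y + 1))
    {σ₁ σ₂ σ₃ : K →+* ℂ} (h12 : σ₁ (θ : K) ≠ σ₂ (θ : K)) (h13 : σ₁ (θ : K) ≠ σ₃ (θ : K)) {P : ℂ}
    (hP : P = (σ₁ (θ : K) - σ₃ (θ : K)) / (σ₁ (θ : K) - σ₂ (θ : K)) * (σ₂ β / σ₃ β))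
    (hP0 : P ≠ 0) (hΛ0 : Complex.log P ≠ 0) (hΛ1 : ‖Complex.log P‖ ≤ 1) :
    1 / (2 : ℝ) ^
        (baseAlg (r + 1 + 1 + 1) (n ^ 3) (logSize n h) (coeffExp n h Y) ^ kappa (r + 1 + 1 + 1)) ≤
      ‖Complex.log P‖ := by
  classical
  obtain ⟨F, hNF, τ₁, τ₂, τ₃, hdeg, hτ₁', hτ₂', hτ₃'⟩ := exists_field hfin σ₁ σ₂ σ₃
  let ψ : F →+* ℂ := F.val.toRingHom
  have hτ₁ : ∀ z, ψ (τ₁ z) = σ₁ z := hτ₁'
  have hτ₂ : ∀ z, ψ (τ₂ z) = σ₂ z := hτ₂'
  have hτ₃ : ∀ z, ψ (τ₃ z) = σ₃ z := hτ₃'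
  have hθint : ∀ τ : K →+* F, IsIntegral ℤ (τ (θ : K)) := fun τ =>
    map_isIntegral_int τ θ.isIntegral_coe
  set e₁ := gapExp n h with he₁
  have hdiff := fun (τ τ' : K →+* F) (ρ : F →+* ℂ) => (conj_gap hdeg hθh τ τ' ρ).1
  have hgap := fun (τ τ' : K →+* F) (ρ : F →+* ℂ) => (conj_gap hdeg hθh τ τ' ρ).2
  have hne12 : τ₁ (θ : K) ≠ τ₂ (θ : K) := fun e => h12 (by rw [← hτ₁, ← hτ₂, e])
  have hne13 : τ₁ (θ : K) ≠ τ₃ (θ : K) := fun e => h13 (by rw [← hτ₁, ← hτ₃, e])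
  -- the numbers
  set z₁₂ : 𝓞 F := ⟨_, (hθint τ₁).sub (hθint τ₂)⟩ with hz₁₂
  obtain ⟨w₁₂, hw₁₂⟩ := dvd_natAbs_norm z₁₂
  set N₁₂ := (Algebra.norm ℤ z₁₂).natAbs with hN₁₂
  have hN₁₂le : N₁₂ ≤ 2 ^ e₁ := by
    refine (norm_le_of_bounded (B := 2 ^ (h + 1)) hdeg Nat.one_le_two_pow fun ρ => ?_).trans_eq ?_
    · push_cast
      exact hdiff τ₁ τ₂ ρ
    · rw [← pow_mul, he₁, gapExp, mul_comm (h + 1)]
  set δ : F := (τ₁ (θ : K) - τ₃ (θ : K)) / (τ₁ (θ : K) - τ₂ (θ : K)) with hδ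
  set g : F := τ₂ (γ : K) / τ₃ (γ : K) with hg
  set q : Fin r → F := fun i => τ₂ (u i : K) / τ₃ (u i : K) with hq
  have hψδ : ψ δ = (σ₁ (θ : K) - σ₃ (θ : K)) / (σ₁ (θ : K) - σ₂ (θ : K)) := by
    rw [hδ, map_div₀, map_sub, map_sub, hτ₁, hτ₂, hτ₃]
  have hne12' : σ₁ (θ : K) - σ₂ (θ : K) ≠ 0 := sub_ne_zero.2 h12
  have hne13' : σ₁ (θ : K) - σ₃ (θ : K) ≠ 0 := sub_ne_zero.2 h13
  set Λ := Complex.log P with hΛ
  set mm := unitExp n h + 8 * n * h + Nat.log 2 Y + 1 with hmm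
  set U : (𝓞 K)ˣ := unitPow u k with hU
  -- the form
  set H := logSize n h with hH
  have hHe : H = e₁ + h + 8 * n * h + 5 := by rw [hH, logSize]
  have hnh : 3 ≤ n * h := le_trans hn (Nat.le_mul_of_pos_right _ hh)
  have hε : ∀ ρ : F →+* ℂ, 1 ≤ (2 : ℝ) ^ (e₁ + h + 1) * ‖ρ δ‖ ∧
      ‖ρ δ‖ ≤ (2 : ℝ) ^ (e₁ + h + 1) := fun ρ => by
    have g12 := hgap τ₁ τ₂ ρ hne12
    have g13 := hgap τ₁ τ₃ ρ hne13
    have d12 := hdiff τ₁ τ₂ ρ
    have d13 := hdiff τ₁ τ₃ ρ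
    have hpos : 0 < ‖ρ (τ₁ (θ : K) - τ₂ (θ : K))‖ :=
      norm_pos_iff.2 ((map_ne_zero ρ).2 (sub_ne_zero.2 hne12))
    rw [hδ, map_div₀, norm_div, add_assoc, pow_add]
    constructor
    · rw [← mul_div_assoc, le_div_iff₀ hpos, one_mul]
      refine d12.trans (le_trans (le_mul_of_one_le_left (by positivity) g13) (le_of_eq ?_))
      ring
    · rw [div_le_iff₀ hpos]
      refine d13.trans (le_trans (le_mul_of_one_le_left (by positivity) g12) (le_of_eq ?_))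
      ring
  have hratio : ∀ (v : 𝓞 K) (a : ℕ), (∀ σ : K →+* ℂ, σ (v : K) ≠ 0) →
      (∀ σ : K →+* ℂ, |Real.log ‖σ (v : K)‖| ≤ a) → ∀ ρ : F →+* ℂ,
        |Real.log ‖ρ (τ₂ (v : K) / τ₃ (v : K))‖| ≤ ((2 * a : ℕ) : ℝ) ∧
          ‖ρ (τ₂ (v : K) / τ₃ (v : K))‖ ≤ (2 : ℝ) ^ (4 * a) := fun v a hv0 hv ρ => by
    have h2 := hv (ρ.comp τ₂)
    have h3 := hv (ρ.comp τ₃)
    have n2 : ρ (τ₂ (v : K)) ≠ 0 := hv0 (ρ.comp τ₂)
    have n3 : ρ (τ₃ (v : K)) ≠ 0 := hv0 (ρ.comp τ₃)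
    simp only [RingHom.comp_apply] at h2 h3
    have h4 : |Real.log ‖ρ (τ₂ (v : K) / τ₃ (v : K))‖| ≤ ((2 * a : ℕ) : ℝ) := by
      rw [map_div₀, norm_div, Real.log_div (norm_ne_zero_iff.2 n2) (norm_ne_zero_iff.2 n3)]
      push_cast
      exact (abs_sub _ _).trans (by linarith)
    refine ⟨h4, (le_two_pow_of_abs_log_le ?_ h4).trans_eq (by ring_nf)⟩
    rw [map_div₀]
    exact norm_pos_iff.2 (div_ne_zero n2 n3)
  have hgρ := hratio γ _ hγ0 hγlog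
  have hqρ := fun i => hratio (u i : 𝓞 K) h (fun σ => map_unit_ne_zero σ (u i)) (huh i)
  let α : Fin (r + 1 + 1 + 1) → F := Fin.cons δ (Fin.cons g (Fin.cons 1 q))
  let l : Fin (r + 1 + 1 + 1) → ℂ := Fin.cons (Complex.log (ψ δ)) (Fin.cons (Complex.log (ψ g))
    (Fin.cons (2 * (Real.pi : ℂ) * Complex.I) fun i => Complex.log (ψ (q i))))
  have hψg0 : ψ g ≠ 0 := by
    rw [hg, map_div₀, hτ₂, hτ₃]; exact div_ne_zero (hγ0 σ₂) (hγ0 σ₃)
  have hψq0 : ∀ i, ψ (q i) ≠ 0 := fun i => by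
    simp only [hq, map_div₀, hτ₂, hτ₃]
    exact div_ne_zero (map_unit_ne_zero σ₂ _) (map_unit_ne_zero σ₃ _)
  have hexp : ∀ j, Complex.exp (l j) = ψ (α j) := by
    refine Fin.forall_fin_succ.2 ⟨?_, Fin.forall_fin_succ.2 ⟨?_, Fin.forall_fin_succ.2 ⟨?_, ?_⟩⟩⟩
    · simp only [l, α, Fin.cons_zero]
      exact Complex.exp_log (hψδ ▸ div_ne_zero hne13' hne12')
    · simp only [l, α, Fin.cons_succ, Fin.cons_zero]
      exact Complex.exp_log hψg0
    · simp only [l, α, Fin.cons_succ, Fin.cons_zero, map_one, Complex.exp_two_pi_mul_I]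
    · intro i
      simp only [l, α, Fin.cons_succ]
      exact Complex.exp_log (hψq0 i)
  have hlH : ∀ {z : ℂ} {a : ℕ}, |Real.log ‖z‖| ≤ a → a + 4 ≤ H → ‖Complex.log z‖ ≤ (H : ℝ) :=
    fun {z a} hz ha => (norm_log_le hz).trans (Nat.cast_le.2 ha)
  have hl : ∀ j, ‖l j‖ ≤ (H : ℝ) := by
    refine Fin.forall_fin_succ.2 ⟨?_, Fin.forall_fin_succ.2 ⟨?_, Fin.forall_fin_succ.2 ⟨?_, ?_⟩⟩⟩
    · simp only [l, Fin.cons_zero]
      exact hlH (abs_log_le_of_two_pow (hε ψ).1 (hε ψ).2) (by rw [hHe]; omega)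
    · simp only [l, Fin.cons_succ, Fin.cons_zero]
      exact hlH (hgρ ψ).1 (by rw [hHe, mul_assoc 8]; omega)
    · simp only [l, Fin.cons_succ, Fin.cons_zero]
      have h8 : (8 : ℝ) ≤ H := by
        rw [hHe, mul_assoc 8]; exact_mod_cast (by omega : 8 ≤ e₁ + h + 8 * (n * h) + 5)
      simp only [norm_mul, Complex.norm_I, Complex.norm_real, Complex.norm_ofNat, Real.norm_eq_abs,
        abs_of_pos Real.pi_pos]
      linarith [Real.pi_le_four]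
    · intro i
      simp only [l, Fin.cons_succ]
      refine hlH (hqρ i ψ).1 ?_
      have : h ≤ n * h := Nat.le_mul_of_pos_left _ (by omega)
      rw [hHe, mul_assoc 8]; omega
  have hhouse : ∀ j, house (α j) ≤ (2 : ℝ) ^ H := by
    have hpow : ∀ {t : ℝ} {a : ℕ}, t ≤ (2 : ℝ) ^ a → a ≤ H → t ≤ (2 : ℝ) ^ H := fun ht ha =>
      ht.trans (pow_le_pow_right₀ one_le_two ha)
    have hh' : h ≤ n * h := Nat.le_mul_of_pos_left _ (by omega)
    refine fun j => Algebraic.house_le_of_forall (by positivity) fun ρ => ?_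
    revert j
    refine Fin.forall_fin_succ.2 ⟨?_, Fin.forall_fin_succ.2 ⟨?_, Fin.forall_fin_succ.2 ⟨?_, ?_⟩⟩⟩
    · simp only [α, Fin.cons_zero]
      exact hpow (hε ρ).2 (by rw [hHe]; omega)
    · simp only [α, Fin.cons_succ, Fin.cons_zero]
      exact hpow (hgρ ρ).2 (by rw [hHe, mul_assoc 8]; omega)
    · simp only [α, Fin.cons_succ, Fin.cons_zero, map_one, norm_one]
      exact one_le_pow₀ one_le_two
    · intro i
      simp only [α, Fin.cons_succ]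
      exact hpow (hqρ i ρ).2 (by rw [hHe, mul_assoc 8]; omega)
  set D := M.natAbs * N₁₂ with hD
  have hD0 : 0 < D := by
    refine Nat.mul_pos (Int.natAbs_pos.2 hM) (Int.natAbs_pos.2 (Algebra.norm_ne_zero_iff.2 ?_))
    exact fun e => hne12 (sub_eq_zero.1 (congrArg Subtype.val e))
  have hintF : ∀ (τ : K →+* F) (v : 𝓞 K), IsIntegral ℤ (τ (v : K)) := fun τ v =>
    map_isIntegral_int τ v.isIntegral_coe
  have hnat : ∀ a : ℕ, IsIntegral ℤ ((a : F)) := fun a => by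
    simpa using isIntegral_algebraMap (R := ℤ) (A := F) (x := (a : ℤ))
  have hDint : ∀ j, IsIntegral ℤ ((D : F) * α j) := by
    refine Fin.forall_fin_succ.2 ⟨?_, Fin.forall_fin_succ.2 ⟨?_, Fin.forall_fin_succ.2 ⟨?_, ?_⟩⟩⟩
    · have h1 : (D : F) * δ = (M.natAbs : F) * ((τ₁ (θ : K) - τ₃ (θ : K)) * (w₁₂ : F)) := by
        have h2 : (N₁₂ : F) = (τ₁ (θ : K) - τ₂ (θ : K)) * (w₁₂ : F) := by
          have h4 := congrArg (algebraMap (𝓞 F) F) hw₁₂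
          simpa [hz₁₂] using h4
        have h3 : τ₁ (θ : K) - τ₂ (θ : K) ≠ 0 := sub_ne_zero.2 hne12
        rw [hD, Nat.cast_mul, h2, hδ]
        field_simp
      simp only [α, Fin.cons_zero]
      rw [h1]
      exact (hnat _).mul (((hθint τ₁).sub (hθint τ₃)).mul w₁₂.isIntegral_coe)
    · have h1 : (D : F) * g = (N₁₂ : F) * (τ₂ (γ : K) * τ₃ (w : K)) := by
        have h2 : (M.natAbs : F) = τ₃ (γ : K) * τ₃ (w : K) := by
          rw [← map_mul, ← map_mul, ← hw, map_natCast, map_natCast]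
        have h3 : τ₃ (γ : K) ≠ 0 := fun e => hγ0 σ₃ (by rw [← hτ₃, e, map_zero])
        rw [hD, Nat.cast_mul, h2, hg]
        field_simp
      simp only [α, Fin.cons_succ, Fin.cons_zero]
      rw [h1]
      exact (hnat _).mul ((hintF _ _).mul (hintF _ _))
    · simp only [α, Fin.cons_succ, Fin.cons_zero, mul_one]
      exact hnat D
    · intro i
      simp only [α, Fin.cons_succ, hq]
      rw [div_eq_mul_inv, ← map_inv₀, show ((u i : 𝓞 K) : K)⁻¹ = (((u i)⁻¹ : (𝓞 K)ˣ) : K) by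
        rw [← zpow_neg_one ((u i : 𝓞 K) : K), ← NumberField.Units.coe_zpow, zpow_neg_one]]
      exact (hnat _).mul ((hintF _ _).mul (hintF _ _))
  have hDH : D ≤ 2 ^ H := by
    refine (Nat.mul_le_mul hMh hN₁₂le).trans ?_
    rw [← pow_add]
    exact Nat.pow_le_pow_right two_pos (by rw [hHe]; omega)
  -- the multiple of `2 π i`
  set S := Complex.log (ψ δ) + Complex.log (ψ g) + ∑ i, (k i : ℂ) * Complex.log (ψ (q i))
    with hS
  have hexpS : Complex.exp S = P := by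
    rw [hS, Complex.exp_add, Complex.exp_add, Complex.exp_sum,
      Complex.exp_log (hψδ ▸ div_ne_zero hne13' hne12'), Complex.exp_log hψg0, hP, mul_assoc]
    congr 1
    simp only [Complex.exp_int_mul, Complex.exp_log (hψq0 _)]
    simp only [hq, hg, map_div₀, hτ₂, hτ₃, div_zpow, prod_div_distrib]
    rw [← map_unitPow, ← map_unitPow, ← hU, div_mul_div_comm, ← map_mul σ₂, ← map_mul σ₃, hγU]
  obtain ⟨e, he⟩ := Complex.exp_eq_exp_iff_exists_int.1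
    ((Complex.exp_log hP0).trans hexpS.symm)
  let b : Fin (r + 1 + 1 + 1) → ℤ := Fin.cons 1 (Fin.cons 1 (Fin.cons e k))
  have hsum : ∑ j, (b j : ℂ) * l j = Λ := by
    simp only [b, l, Fin.sum_univ_succ, Fin.cons_zero, Fin.cons_succ]
    rw [hΛ, he, hS]
    push_cast
    ring
  have hem : e.natAbs ≤ 2 ^ (mm + (n + H + 2)) := by
    have hterm : ∀ i, ‖(k i : ℂ) * Complex.log (ψ (q i))‖ ≤ ((2 ^ mm * H : ℕ) : ℝ) := fun i => by
      rw [norm_mul, Complex.norm_intCast, ← Int.cast_abs, ← Int.natCast_natAbs, Int.cast_natCast,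
        Nat.cast_mul]
      refine mul_le_mul (Nat.cast_le.2 (hkm i)) ?_ (norm_nonneg _) (Nat.cast_nonneg _)
      simpa [l] using hl i.succ.succ.succ
    have hSb : ‖S‖ ≤ ((2 * H + r * (2 ^ mm * H) : ℕ) : ℝ) := by
      have h1 : ‖Complex.log (ψ δ)‖ ≤ (H : ℝ) := by simpa [l] using hl 0
      have h2 : ‖Complex.log (ψ g)‖ ≤ (H : ℝ) := by simpa [l] using hl (Fin.succ 0)
      rw [hS]
      push_cast
      refine (norm_add_le _ _).trans (add_le_add ((norm_add_le _ _).trans (by linarith))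
        ((norm_sum_le _ _).trans ((sum_le_card_nsmul _ _ ((2 : ℝ) ^ mm * H) fun i _ => ?_).trans_eq
          (by simp))))
      simpa using hterm i
    have h3 : (e : ℂ) * (2 * (Real.pi : ℂ) * Complex.I) = Λ - S := by rw [hΛ, he]; ring
    have h4 : |(e : ℝ)| ≤ 1 + ((2 * H + r * (2 ^ mm * H) : ℕ) : ℝ) := by
      have h5 := congrArg (‖·‖) h3
      simp only [norm_mul, Complex.norm_intCast, Complex.norm_I, Complex.norm_real,
        Complex.norm_ofNat, Real.norm_eq_abs, abs_of_pos Real.pi_pos, mul_one] at h5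
      have h6 : |(e : ℝ)| ≤ |(e : ℝ)| * (2 * Real.pi) :=
        le_mul_of_one_le_right (abs_nonneg _) (by linarith [Real.two_le_pi])
      linarith [norm_sub_le Λ S]
    rw [← Int.cast_abs, ← Int.natCast_natAbs, Int.cast_natCast] at h4
    have h7 : e.natAbs ≤ 1 + (2 * H + r * (2 ^ mm * H)) := by exact_mod_cast h4
    refine h7.trans ?_
    have h8 : 1 ≤ 2 ^ mm * H := Nat.mul_pos (Nat.two_pow_pos _) (by rw [hHe]; omega)
    have h9 : 2 * H ≤ 2 * (2 ^ mm * H) :=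
      Nat.mul_le_mul_left _ (Nat.le_mul_of_pos_left _ (Nat.two_pow_pos _))
    calc 1 + (2 * H + r * (2 ^ mm * H)) ≤ (n + 2) * (2 ^ mm * H) := by
          have h10 : (r + 3) * (2 ^ mm * H) ≤ (n + 2) * (2 ^ mm * H) :=
            Nat.mul_le_mul_right _ (by omega)
          rw [add_mul r 3] at h10
          omega
      _ ≤ 2 ^ (n + 2) * (2 ^ mm * 2 ^ H) :=
          Nat.mul_le_mul Nat.lt_two_pow_self.le (Nat.mul_le_mul_left _ Nat.lt_two_pow_self.le)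
      _ = _ := by rw [← pow_add, ← pow_add]; ring_nf
  have hbm : ∀ j, (b j).natAbs ≤ 2 ^ coeffExp n h Y := by
    have hce : coeffExp n h Y = mm + (n + H + 2) := by rw [coeffExp]
    rw [hce]
    refine Fin.forall_fin_succ.2 ⟨?_, Fin.forall_fin_succ.2 ⟨?_, Fin.forall_fin_succ.2 ⟨?_, ?_⟩⟩⟩
    · simpa [b] using Nat.one_le_two_pow
    · simpa [b] using Nat.one_le_two_pow
    · simp only [b, Fin.cons_succ, Fin.cons_zero]
      exact hem
    · intro i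
      simpa [b] using (hkm i).trans (Nat.pow_le_pow_right two_pos (Nat.le_add_right _ _))
  have hbaker := Algebraic.baker_algebraic_general_bound (d := n ^ 3) hdeg ψ hD0 hDint hDH hhouse
    hexp hl hbm (by rw [hsum]; exact hΛ0)
  rw [hsum] at hbaker
  exact hbaker

end FA.BakerExplicit.EffectiveThue

end
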