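import Fermat.Agent.BakerExplicit.AlgebraicNumeric
import Fermat.Agent.BakerExplicit.Applications

/-!
# The bound for the effective Thue equation

`n` is the degree and `h` bounds the logarithms of the data.
-/

set_option autoImplicit false

namespace FA.BakerExplicit.EffectiveThue

/-- How small a difference of conjugates can be. -/
def gapExp (n h : ℕ) : ℕ := n ^ 3 * (h + 1)

/-- How long the exponents of a unit of given size can be. -/
def unitExp (n h : ℕ) : ℕ := 2 * n * (2 * (n * h) + 5)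

/-- The size of the numbers in the linear form. -/
def logSize (n h : ℕ) : ℕ := gapExp n h + h + 8 * n * h + 5

/-- The exponents in the linear form, `Y` being the logarithm of `|y|`. -/
def coeffExp (n h Y : ℕ) : ℕ :=
  unitExp n h + 8 * n * h + Nat.log 2 Y + 1 + (n + logSize n h + 2)

/-- The constant in front of `log Y`. -/
def formConst (n h : ℕ) : ℕ := 2 * logSize n h + n + 3 + unitExp n h + 8 * n * h

/-- The bound for the logarithm, to base `2`, of a solution. -/
def thueBound (n h : ℕ) : ℕ :=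
  h + 2 + 2 * (2 * h + 4 + 2 * gapExp n h) +
    2 * (2 * kappa (n + 2)) ^ (2 * kappa (n + 2)) *
      ((2 ^ (4 * (n + 2) ^ 2 + 18) * n ^ 3 * formConst n h) ^ kappa (n + 2)) ^ 2

theorem baseAlg_mono {N N' d H m : ℕ} (hN : N ≤ N') : baseAlg N d H m ≤ baseAlg N' d H m :=
  Nat.mul_le_mul_right _ (Nat.mul_le_mul_right _ (Nat.pow_le_pow_right two_pos (by gcongr)))

theorem kappa_mono {N N' : ℕ} (hN : N ≤ N') : kappa N ≤ kappa N' := by
  simp only [kappa]; gcongr

/-- The exponent bound for the units. -/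
theorem exponent_le_two_pow {n h Y : ℕ} (hn : 1 ≤ n) (hh : 1 ≤ h) :
    (n * (2 * h + 3 + Y) + 2 * (n * h)) * 2 ^ unitExp n h ≤
      2 ^ (unitExp n h + 8 * n * h + Nat.log 2 Y + 1) := by
  rw [show unitExp n h + 8 * n * h + Nat.log 2 Y + 1 =
    (8 * n * h + (Nat.log 2 Y + 1)) + unitExp n h by ring, pow_add _ (8 * n * h + _)]
  refine Nat.mul_le_mul_right _ ?_
  calc n * (2 * h + 3 + Y) + 2 * (n * h) ≤ 8 * n * h * (Y + 1) := by
        have h1 : n ≤ n * h := Nat.le_mul_of_pos_right _ hh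
        have h2 : n * Y ≤ n * h * Y := Nat.mul_le_mul_right _ h1
        nlinarith
    _ ≤ 2 ^ (8 * n * h) * 2 ^ (Nat.log 2 Y + 1) :=
        Nat.mul_le_mul Nat.lt_two_pow_self.le (Nat.lt_pow_succ_log_self one_lt_two Y)
    _ = _ := (pow_add _ _ _).symm

/-- From the lower bound for the form to the bound. -/
theorem add_le_thueBound {n h Y N : ℕ} (hn : 1 ≤ n) (hN : N ≤ n + 2)
    (hY : Y ≤ 2 * h + 4 + 2 * gapExp n h +
      baseAlg N (n ^ 3) (logSize n h) (coeffExp n h Y) ^ kappa N) :
    Y + h + 2 ≤ thueBound n h := by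
  set κ := kappa (n + 2)
  set D := (2 ^ (4 * (n + 2) ^ 2 + 18) * n ^ 3 * formConst n h) ^ κ with hD
  have hpos : 1 ≤ baseAlg (n + 2) (n ^ 3) (logSize n h) (coeffExp n h Y) :=
    Nat.mul_pos (Nat.mul_pos (Nat.two_pow_pos _) (pow_pos hn 3))
      (by simp only [logSize, coeffExp]; omega)
  have hb : baseAlg N (n ^ 3) (logSize n h) (coeffExp n h Y) ^ kappa N ≤
      D * (Nat.log 2 Y + 1) ^ κ := by
    refine ((Nat.pow_le_pow_left (baseAlg_mono hN) _).trans
      (Nat.pow_le_pow_right hpos (kappa_mono hN))).trans ?_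
    rw [hD, ← mul_pow]
    refine Nat.pow_le_pow_left ?_ _
    rw [baseAlg, mul_assoc (2 ^ (4 * (n + 2) ^ 2 + 18) * n ^ 3)]
    refine Nat.mul_le_mul_left _ ?_
    have h1 : formConst n h ≥ 1 := by simp only [formConst]; omega
    have h2 : Nat.log 2 Y ≤ formConst n h * Nat.log 2 Y := Nat.le_mul_of_pos_left _ h1
    rw [mul_add, mul_one]
    simp only [coeffExp, formConst] at h2 ⊢
    omega
  have h1 := le_of_le_add_mul_log_pow (X := Y) (u := 2 * h + 4 + 2 * gapExp n h) (D := D) (κ := κ)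
    (by simp only [κ, kappa]; omega) (by omega)
  rw [show thueBound n h = h + 2 + 2 * (2 * h + 4 + 2 * gapExp n h) +
    2 * (2 * κ) ^ (2 * κ) * D ^ 2 from rfl]
  omega

theorem add_le_thueBound_small {n h Y : ℕ} (hY : Y ≤ 2 * h + 4 + 2 * gapExp n h) :
    Y + h + 2 ≤ thueBound n h := by
  simp only [thueBound]; omega

end FA.BakerExplicit.EffectiveThue
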