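import Fermat.Agent.BakerExplicit.AlgebraicMain
import Mathlib.RingTheory.Ideal.Norm.AbsNorm
import Mathlib.Analysis.SpecialFunctions.Complex.LogBounds
import Mathlib.FieldTheory.IntermediateField.Adjoin.Basic

/-!
# Sizes for the effective Thue equation

An algebraic integer divides its norm and is not small at any place; the norm is bounded by the
conjugates; the logarithm of a number is bounded by that of its absolute value and `π`.
-/

set_option autoImplicit false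

noncomputable section

namespace FA.BakerExplicit.EffectiveThue

open NumberField Module

variable {K : Type*} [Field K] [NumberField K]

theorem dvd_natAbs_norm (z : 𝓞 K) : z ∣ ((Algebra.norm ℤ z).natAbs : 𝓞 K) := by
  rw [← Ideal.mem_span_singleton, ← Ideal.absNorm_span_singleton]
  exact Ideal.absNorm_mem _

theorem norm_le_of_bounded {z : 𝓞 K} {B N : ℕ} (hN : finrank ℚ K ≤ N) (hB : 1 ≤ B)
    (h : ∀ σ : K →+* ℂ, ‖σ (z : K)‖ ≤ B) : (Algebra.norm ℤ z).natAbs ≤ B ^ N := by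
  obtain ⟨σ⟩ : Nonempty (K →+* ℂ) := inferInstance
  have hH : house (z : K) ≤ B := Algebraic.house_le_of_forall (Nat.cast_nonneg B) h
  have h1 := norm_norm_le_norm_mul_house_pow (z : K) σ
  rw [← Algebra.coe_norm_int, Int.norm_cast_rat, Int.norm_eq_abs, ← Int.cast_abs,
    ← Int.natCast_natAbs, Int.cast_natCast] at h1
  have h2 := h1.trans (mul_le_mul (h σ) (pow_le_pow_left₀ (house_nonneg _) hH _)
    (pow_nonneg (house_nonneg _) _) (Nat.cast_nonneg _))
  rw [← pow_succ', Nat.sub_add_cancel finrank_pos] at h2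
  exact le_trans (by exact_mod_cast h2) (Nat.pow_le_pow_right hB hN)

/-- An algebraic integer is not small at any place. -/
theorem one_le_pow_mul_norm {z : 𝓞 K} (hz : z ≠ 0) {B : ℝ} {N : ℕ} (hN : finrank ℚ K ≤ N)
    (hB : 1 ≤ B) (h : ∀ σ : K →+* ℂ, ‖σ (z : K)‖ ≤ B) (ρ : K →+* ℂ) :
    1 ≤ B ^ N * ‖ρ (z : K)‖ := by
  refine (GelfondSchneider.one_le_norm_mul_house_pow hz ρ).trans ?_
  rw [mul_comm (B ^ N)]
  exact mul_le_mul_of_nonneg_left ((pow_le_pow_left₀ (house_nonneg _)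
    (Algebraic.house_le_of_forall (by linarith) h) _).trans (pow_le_pow_right₀ hB (by omega)))
    (norm_nonneg _)

theorem le_two_pow_of_abs_log_le {t : ℝ} (ht : 0 < t) {a : ℕ} (h : |Real.log t| ≤ a) :
    t ≤ (2 : ℝ) ^ (2 * a) :=
  (Real.exp_log ht).symm.trans_le ((Real.exp_le_exp.2 ((le_abs_self _).trans h)).trans
    (exp_natCast_le_two_pow a))

theorem abs_log_le_of_two_pow {t : ℝ} {a : ℕ} (h1 : 1 ≤ (2 : ℝ) ^ a * t)
    (h2 : t ≤ (2 : ℝ) ^ a) : |Real.log t| ≤ a := by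
  have ht : 0 < t := pos_of_mul_pos_right (lt_of_lt_of_le one_pos h1) (by positivity)
  have ha : Real.log ((2 : ℝ) ^ a) ≤ a := by
    rw [Real.log_pow]
    exact mul_le_of_le_one_right (Nat.cast_nonneg _) (Real.log_two_lt_d9.le.trans (by norm_num))
  have h3 := Real.log_le_log one_pos h1
  rw [Real.log_one, Real.log_mul (by positivity) ht.ne'] at h3
  rw [abs_le]
  exact ⟨by linarith, (Real.log_le_log ht h2).trans ha⟩

theorem norm_log_le {z : ℂ} {a : ℕ} (h : |Real.log ‖z‖| ≤ a) :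
    ‖Complex.log z‖ ≤ ((a + 4 : ℕ) : ℝ) := by
  refine (Complex.norm_le_abs_re_add_abs_im _).trans ?_
  rw [Complex.log_re, Complex.log_im, Nat.cast_add]
  push_cast
  linarith [Complex.abs_arg_le_pi z, Real.pi_le_four]

theorem finrank_fieldRange (σ : K →+* ℂ) :
    finrank ℚ σ.toRatAlgHom.fieldRange = finrank ℚ K :=
  (AlgEquiv.ofInjectiveField σ.toRatAlgHom).toLinearEquiv.finrank_eq.symm

theorem exists_ne_ne (hn : 3 ≤ finrank ℚ K) (σ₁ : K →+* ℂ) :
    ∃ σ₂ σ₃ : K →+* ℂ, σ₂ ≠ σ₁ ∧ σ₃ ≠ σ₁ ∧ σ₂ ≠ σ₃ := by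
  classical
  have h : 1 < (Finset.univ.erase σ₁).card := by
    rw [Finset.card_erase_of_mem (Finset.mem_univ _), Finset.card_univ, Embeddings.card]
    omega
  obtain ⟨σ₂, h2, σ₃, h3, h23⟩ := Finset.one_lt_card.1 h
  exact ⟨σ₂, σ₃, (Finset.mem_erase.1 h2).1, (Finset.mem_erase.1 h3).1, h23⟩

theorem prod_norm_eq {β : K} {M : ℤ} (h : Algebra.norm ℚ β = (M : ℚ)) :
    ∏ σ : K →+* ℂ, ‖σ β‖ = |(M : ℝ)| := by
  have h1 := Algebra.norm_eq_prod_embeddings ℚ ℂ β
  rw [h, eq_ratCast, Rat.cast_intCast] at h1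
  have h2 := congrArg (‖·‖) h1
  simp only [norm_prod, Complex.norm_intCast] at h2
  rw [h2]
  exact Fintype.prod_equiv (RingHom.equivRatAlgHom K ℂ) _ _ fun _ => rfl

end FA.BakerExplicit.EffectiveThue

end
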