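import Mathlib.NumberTheory.NumberField.Units.Regulator
import Mathlib.NumberTheory.NumberField.House
import Mathlib.Analysis.Complex.ExponentialBounds

/-!
# Exponents of units from their sizes, without the regulator

Rounding the multiples of an exponent vector gives as many different units of bounded size as
the vector is long, and there are boundedly many algebraic integers of bounded size.
-/

set_option autoImplicit false

noncomputable section

namespace FA.BakerExplicit.UnitExponents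

open Finset NumberField NumberField.Units Module

variable {K : Type*} [Field K] [NumberField K]

/-- The algebraic integers of bounded conjugates are boundedly many. -/
theorem card_le_of_bounded {B : ℕ} {s : Finset (𝓞 K)}
    (hs : ∀ x ∈ s, ∀ σ : K →+* ℂ, ‖σ (x : K)‖ ≤ B) :
    s.card ≤ (4 * B + 1) ^ (2 * finrank ℚ K) := by
  classical
  set box := Fintype.piFinset fun _ : (K →+* ℂ) × Bool =>
    Finset.Icc (-(2 * (B : ℤ))) (2 * (B : ℤ))
  refine le_trans (card_le_card_of_injOn (s := s) (t := box)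
    (fun (x : 𝓞 K) (e : (K →+* ℂ) × Bool) =>
      if e.2 then ⌊2 * (e.1 (x : K)).re⌋ else ⌊2 * (e.1 (x : K)).im⌋) ?_ ?_) (le_of_eq ?_)
  · intro x hx
    refine Finset.mem_coe.2 (Fintype.mem_piFinset.2 fun e => Finset.mem_Icc.2 ?_)
    have h1 := hs x hx e.1
    have hre := abs_le.1 ((Complex.abs_re_le_norm (e.1 (x : K))).trans h1)
    have him := abs_le.1 ((Complex.abs_im_le_norm (e.1 (x : K))).trans h1)
    dsimp only
    split_ifs
    · exact ⟨Int.le_floor.2 (by push_cast; linarith), Int.floor_le_iff.2 (by push_cast; linarith)⟩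
    · exact ⟨Int.le_floor.2 (by push_cast; linarith), Int.floor_le_iff.2 (by push_cast; linarith)⟩
  · intro x _ y _ hxy
    by_contra hne
    obtain ⟨σ, hσ⟩ := exists_conjugate_one_le_norm (sub_ne_zero.2 hne)
    have hre := congrFun hxy (σ, true)
    have him := congrFun hxy (σ, false)
    simp only [if_true, Bool.false_eq_true, if_false] at hre him
    have h1 : |(σ ((x - y : 𝓞 K) : K)).re| < 1 / 2 := by
      simp only [map_sub, Complex.sub_re, abs_lt]
      have := abs_lt.1 (Int.abs_sub_lt_one_of_floor_eq_floor hre)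
      constructor <;> linarith
    have h2 : |(σ ((x - y : 𝓞 K) : K)).im| < 1 / 2 := by
      simp only [map_sub, Complex.sub_im, abs_lt]
      have := abs_lt.1 (Int.abs_sub_lt_one_of_floor_eq_floor him)
      constructor <;> linarith
    linarith [Complex.norm_le_abs_re_add_abs_im (σ ((x - y : 𝓞 K) : K))]
  · rw [Fintype.card_piFinset, prod_const, card_univ, Fintype.card_prod, Fintype.card_bool,
      Embeddings.card, Int.card_Icc, mul_comm 2 (finrank ℚ K)]
    congr 1
    omega

/-- The unit with given exponents. -/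
def unitPow {r : ℕ} (u : Fin r → (𝓞 K)ˣ) (k : Fin r → ℤ) : (𝓞 K)ˣ := ∏ i, u i ^ k i

omit [NumberField K] in
theorem coe_unit_zpow (σ : K →+* ℂ) (v : (𝓞 K)ˣ) (k : ℤ) :
    σ ((v ^ k : (𝓞 K)ˣ) : K) = σ (v : K) ^ k := by
  rw [Units.coe_zpow, map_zpow₀]

omit [NumberField K] in
theorem map_unitPow {r : ℕ} (u : Fin r → (𝓞 K)ˣ) (k : Fin r → ℤ) (σ : K →+* ℂ) :
    σ ((unitPow u k : (𝓞 K)ˣ) : K) = ∏ i, σ (u i : K) ^ k i := by
  rw [unitPow, Units.coe_prod, map_prod, map_prod]
  exact prod_congr rfl fun i _ => coe_unit_zpow σ _ _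

omit [NumberField K] in
theorem map_unit_ne_zero (σ : K →+* ℂ) (v : (𝓞 K)ˣ) : σ (v : K) ≠ 0 :=
  (map_ne_zero σ).2 (Units.coe_ne_zero v)

omit [NumberField K] in
theorem log_norm_unitPow {r : ℕ} (u : Fin r → (𝓞 K)ˣ) (k : Fin r → ℤ) (σ : K →+* ℂ) :
    Real.log ‖σ ((unitPow u k : (𝓞 K)ˣ) : K)‖ = ∑ i, (k i : ℝ) * Real.log ‖σ (u i : K)‖ := by
  rw [map_unitPow, norm_prod, Real.log_prod fun i _ =>
    norm_ne_zero_iff.2 (zpow_ne_zero _ (map_unit_ne_zero σ _))]
  exact sum_congr rfl fun i _ => by rw [norm_zpow, Real.log_zpow]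

/-- **The exponents of a unit of bounded size are bounded.** -/
theorem exponent_le {r h : ℕ} {u : Fin r → (𝓞 K)ˣ} (hinj : Function.Injective (unitPow u))
    (hu : ∀ i (σ : K →+* ℂ), |Real.log ‖σ (u i : K)‖| ≤ h) {k : Fin r → ℤ} {X : ℕ} (hX : 1 ≤ X)
    (hk : ∀ σ : K →+* ℂ, |Real.log ‖σ ((unitPow u k : (𝓞 K)ˣ) : K)‖| ≤ X) (i : Fin r) :
    (k i).natAbs ≤ X * 2 ^ (2 * finrank ℚ K * (2 * (r * h) + 5)) := by
  classical
  obtain ⟨i₁, -, hmax⟩ := exists_max_image univ (fun i => (k i).natAbs) ⟨i, mem_univ i⟩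
  set K0 := (k i₁).natAbs with hK0
  refine (hmax i (mem_univ i)).trans ?_
  rcases Nat.eq_zero_or_pos K0 with h0 | h0
  · rw [h0]; exact Nat.zero_le _
  set q := K0 / X
  set v : ℕ → Fin r → ℤ := fun j i => k i * j / (K0 : ℤ) with hv
  set B := 2 ^ (2 * (1 + r * h)) with hB
  have hsmall : ∀ j ≤ q, ∀ σ : K →+* ℂ, ‖σ ((unitPow u (v j) : (𝓞 K)ˣ) : K)‖ ≤ B := by
    intro j hj σ
    have hKR : (0 : ℝ) < K0 := Nat.cast_pos.2 h0
    have hfrac : ∀ i, |(v j i : ℝ) - (j : ℝ) / K0 * k i| ≤ 1 := fun i => by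
      have h1 : ((k i * j / (K0 : ℤ) : ℤ) : ℤ) * K0 ≤ k i * j :=
        Int.ediv_mul_le _ (by omega)
      have h2 : k i * j < (k i * j / (K0 : ℤ) + 1) * K0 :=
        Int.lt_ediv_add_one_mul_self _ (by omega)
      have h1' : (v j i : ℝ) * K0 ≤ (k i : ℝ) * j := by simp only [hv]; exact_mod_cast h1
      have h2' : (k i : ℝ) * j < ((v j i : ℝ) + 1) * K0 := by simp only [hv]; exact_mod_cast h2
      rw [show (j : ℝ) / K0 * k i = (k i : ℝ) * j / K0 by ring, abs_sub_le_iff]
      refine ⟨?_, ?_⟩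
      · have := (le_div_iff₀ hKR).2 h1'
        linarith
      · have := (div_lt_iff₀ hKR).2 h2'
        linarith
    have hlog : |Real.log ‖σ ((unitPow u (v j) : (𝓞 K)ˣ) : K)‖| ≤ ((1 + r * h : ℕ) : ℝ) := by
      rw [log_norm_unitPow, show ∑ i, (v j i : ℝ) * Real.log ‖σ (u i : K)‖ =
        (j : ℝ) / K0 * Real.log ‖σ ((unitPow u k : (𝓞 K)ˣ) : K)‖ +
          ∑ i, ((v j i : ℝ) - (j : ℝ) / K0 * k i) * Real.log ‖σ (u i : K)‖ by
        rw [log_norm_unitPow, mul_sum, ← sum_add_distrib]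
        exact sum_congr rfl fun i _ => by ring]
      push_cast
      refine (abs_add_le _ _).trans (add_le_add ?_ ?_)
      · rw [abs_mul, abs_of_nonneg (by positivity), div_mul_eq_mul_div, div_le_one hKR]
        refine (mul_le_mul_of_nonneg_left (hk σ) (Nat.cast_nonneg _)).trans ?_
        exact_mod_cast (Nat.mul_le_mul_right X hj).trans (Nat.div_mul_le_self _ _)
      · refine (abs_sum_le_sum_abs _ _).trans ((sum_le_card_nsmul _ _ (h : ℝ)
          fun i _ => ?_).trans_eq (by simp))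
        rw [abs_mul]
        exact le_trans (mul_le_of_le_one_left (abs_nonneg _) (hfrac i)) (hu i σ)
    have hpos := norm_pos_iff.2 (map_unit_ne_zero σ (unitPow u (v j)))
    refine (Real.exp_log hpos).symm.trans_le ?_
    refine (Real.exp_le_exp.2 ((le_abs_self _).trans hlog)).trans ?_
    rw [← mul_one ((1 + r * h : ℕ) : ℝ), Real.exp_nat_mul, hB, Nat.cast_pow, Nat.cast_ofNat,
      pow_mul (2 : ℝ) 2]
    exact pow_le_pow_left₀ (Real.exp_pos _).le (by linarith [Real.exp_one_lt_d9]) _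
  set s := (range (q + 1)).image fun j => ((unitPow u (v j) : (𝓞 K)ˣ) : 𝓞 K)
  have hcard : q + 1 ≤ (4 * B + 1) ^ (2 * finrank ℚ K) := by
    refine le_trans (le_of_eq ?_) (card_le_of_bounded (s := s) fun x hx σ => ?_)
    · rw [card_image_of_injective _ fun a b hab => ?_, card_range]
      have h1 := congrFun (hinj (Units.val_injective hab)) i₁
      simp only [hv] at h1
      rcases Int.natAbs_eq (k i₁) with e | e <;> rw [e, ← hK0] at h1
      · rw [Int.mul_ediv_cancel_left _ (by omega), Int.mul_ediv_cancel_left _ (by omega)] at h1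
        exact_mod_cast h1
      · rw [neg_mul, ← mul_neg, neg_mul, ← mul_neg, Int.mul_ediv_cancel_left _ (by omega),
          Int.mul_ediv_cancel_left _ (by omega)] at h1
        exact_mod_cast neg_injective h1
    · obtain ⟨j, hj, rfl⟩ := mem_image.1 hx
      exact hsmall j (Nat.lt_succ_iff.1 (mem_range.1 hj)) σ
  calc K0 ≤ (q + 1) * X := (Nat.lt_mul_div_succ K0 hX).le.trans_eq (mul_comm _ _)
    _ ≤ (4 * B + 1) ^ (2 * finrank ℚ K) * X := Nat.mul_le_mul_right _ hcard
    _ ≤ (2 ^ (2 * (r * h) + 5)) ^ (2 * finrank ℚ K) * X := by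
        refine Nat.mul_le_mul_right _ (Nat.pow_le_pow_left ?_ _)
        rw [hB, show 2 * (r * h) + 5 = 2 * (1 + r * h) + 3 by ring, pow_add _ _ 3]
        have := Nat.two_pow_pos (2 * (1 + r * h))
        omega
    _ = _ := by rw [← pow_mul, mul_comm, mul_comm (2 * finrank ℚ K)]

theorem injective_unitPow {u : Fin (rank K) → (𝓞 K)ˣ} (hu : IsMaxRank u) :
    Function.Injective (unitPow u) := by
  intro k k' hkk
  have h1 : ∑ i, ((k i : ℝ) - k' i) • logEmbedding K (Additive.ofMul (u i)) = 0 := by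
    have h2 := congrArg (fun v => logEmbedding K (Additive.ofMul v)) hkk
    simp only [unitPow, ofMul_prod, ofMul_zpow, map_sum, map_zsmul] at h2
    simp only [sub_smul, sum_sub_distrib, Int.cast_smul_eq_zsmul, h2, sub_self]
  funext i
  have := Fintype.linearIndependent_iff.1 hu _ h1 i
  exact_mod_cast sub_eq_zero.1 this

/-- **An element is, up to the units, one of bounded size.** -/
theorem exists_decomposition {u : Fin (rank K) → (𝓞 K)ˣ} (hu : IsMaxRank u) {h : ℕ}
    (huh : ∀ i (σ : K →+* ℂ), |Real.log ‖σ (u i : K)‖| ≤ h) {β : K} {M : ℤ} (hM : M ≠ 0)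
    (hβ : Algebra.norm ℚ β = (M : ℚ)) :
    ∃ k : Fin (rank K) → ℤ, ∀ σ : K →+* ℂ,
      |Real.log ‖σ β‖ - Real.log |(M : ℝ)| / finrank ℚ K -
        Real.log ‖σ ((unitPow u k : (𝓞 K)ˣ) : K)‖| ≤ (rank K * h : ℕ) := by
  classical
  have hβ0 : β ≠ 0 := fun e => hM (by
    rw [e, Algebra.norm_zero] at hβ; exact_mod_cast hβ.symm)
  set c := Real.log |(M : ℝ)| / finrank ℚ K with hc
  set f : InfinitePlace K → ℝ := fun w => (w.mult : ℝ) * (Real.log (w β) - c) with hf
  set y : {w : InfinitePlace K // w ≠ dirichletUnitTheorem.w₀} → ℝ := fun w => f w.1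
  set x := (basisOfIsMaxRank hu).repr y
  set g : InfinitePlace K → ℝ := fun w => ∑ i, x i * ((w.mult : ℝ) * Real.log (w (u i : K)))
  have hne : ∀ w : {w : InfinitePlace K // w ≠ dirichletUnitTheorem.w₀}, f w.1 = g w.1 :=
      fun w => by
    have h1 := congrFun ((basisOfIsMaxRank hu).sum_repr y) w
    rw [Finset.sum_apply] at h1
    refine h1.symm.trans (sum_congr rfl fun i _ => ?_)
    rw [Pi.smul_apply, basisOfIsMaxRank_apply, smul_eq_mul]
    rfl
  have hfsum : ∑ w, f w = 0 := by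
    have h1 := congrArg Real.log (InfinitePlace.prod_eq_abs_norm β)
    rw [Real.log_prod fun w _ => pow_ne_zero _ (by simpa using hβ0), hβ] at h1
    simp only [Real.log_pow] at h1
    simp only [hf, mul_sub, sum_sub_distrib, h1, ← sum_mul, ← Nat.cast_sum,
      InfinitePlace.sum_mult_eq, hc]
    rw [mul_div_cancel₀ _ (Nat.cast_ne_zero.2 finrank_pos.ne')]
    push_cast
    ring
  have hgsum : ∑ w, g w = 0 := by
    simp only [g]
    rw [sum_comm]
    exact sum_eq_zero fun i _ => by rw [← mul_sum, sum_mult_mul_log, mul_zero]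
  have hall : ∀ w, f w = g w := fun w => by
    by_cases hw : w = dirichletUnitTheorem.w₀
    · subst hw
      rw [← add_sum_erase _ _ (mem_univ dirichletUnitTheorem.w₀)] at hfsum hgsum
      have h2 : ∑ w ∈ univ.erase dirichletUnitTheorem.w₀, f w =
          ∑ w ∈ univ.erase dirichletUnitTheorem.w₀, g w :=
        sum_congr rfl fun w hw => hne ⟨w, (mem_erase.1 hw).1⟩
      linarith
    · exact hne ⟨w, hw⟩
  refine ⟨fun i => ⌊x i⌋, fun σ => ?_⟩
  have h3 : Real.log ‖σ β‖ - c = ∑ i, x i * Real.log ‖σ (u i : K)‖ := by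
    have h4 := hall (InfinitePlace.mk σ)
    simp only [hf, g, InfinitePlace.apply] at h4
    refine mul_left_cancel₀ (Nat.cast_ne_zero.2 InfinitePlace.mult_ne_zero :
      ((InfinitePlace.mk σ).mult : ℝ) ≠ 0) (h4.trans ?_)
    rw [mul_sum]
    exact sum_congr rfl fun i _ => mul_left_comm _ _ _
  rw [h3, log_norm_unitPow, ← sum_sub_distrib]
  refine (abs_sum_le_sum_abs _ _).trans ((sum_le_card_nsmul _ _ (h : ℝ)
    fun i _ => ?_).trans_eq (by simp))
  rw [← sub_mul, abs_mul]
  exact le_trans (mul_le_of_le_one_left (abs_nonneg _) (by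
    rw [Int.self_sub_floor, abs_of_nonneg (Int.fract_nonneg _)]
    exact (Int.fract_lt_one _).le)) (huh i σ)

end FA.BakerExplicit.UnitExponents

end
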