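import Fermat.Agent.BakerExplicit.ThueSizes
import Fermat.Agent.BakerExplicit.ThueNumeric
import Fermat.Agent.BakerExplicit.UnitExponents

/-!
# The steps of the effective Thue equation before Baker's theorem

The sizes of the conjugates of `β = x - θ y`, the decomposition `β = γ ∏ u i ^ k i`, a field for
three conjugates, and the small non-zero logarithm of `(θ₁ - θ₃) β₂ / ((θ₁ - θ₂) β₃)`.
-/

set_option autoImplicit false

noncomputable section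

namespace FA.BakerExplicit.EffectiveThue

open Finset NumberField NumberField.Units Module UnitExponents

variable {K : Type*} [Field K] [NumberField K]

/-- The conjugates of `x - θ y`. -/
theorem map_lin (θ : 𝓞 K) (x y : ℤ) (σ : K →+* ℂ) :
    σ ((x : K) - (θ : K) * y) = (x : ℂ) - σ (θ : K) * y := by
  simp only [map_sub, map_mul, map_intCast]

theorem rank_add_one_le {n : ℕ} (hfin : finrank ℚ K = n) : rank K + 1 ≤ n := by
  have h1 := InfinitePlace.card_eq_nrRealPlaces_add_nrComplexPlaces (K := K)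
  have h2 := InfinitePlace.card_add_two_mul_card_eq_rank K
  have h3 : 0 < Fintype.card (InfinitePlace K) := Fintype.card_pos
  rw [hfin] at h2
  simp only [rank]
  omega

/-- The sizes of the conjugates of a solution. -/
theorem abs_log_conj_le {n h Y : ℕ} (hfin : finrank ℚ K = n) (hn : 1 ≤ n) {θ : 𝓞 K}
    (hθh : ∀ σ : K →+* ℂ, ‖σ (θ : K)‖ ≤ (2 : ℝ) ^ h) {x y M : ℤ} (hM : M ≠ 0)
    (hnorm : Algebra.norm ℚ ((x : K) - (θ : K) * y) = (M : ℚ)) {σ₁ : K →+* ℂ}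
    (hmin : ‖σ₁ ((x : K) - (θ : K) * y)‖ ≤ (2 : ℝ) ^ h) (hy1 : (1 : ℝ) ≤ |(y : ℝ)|)
    (hyY : |(y : ℝ)| ≤ (2 : ℝ) ^ (Y + 1)) (σ : K →+* ℂ) :
    |Real.log ‖σ ((x : K) - (θ : K) * y)‖| ≤ ((n * (2 * h + 3 + Y) : ℕ) : ℝ) := by
  classical
  set β : K := (x : K) - (θ : K) * y with hβ
  set a₀ := 2 * h + 3 + Y with ha₀
  have hlin : ∀ σ : K →+* ℂ, σ β = (x : ℂ) - σ (θ : K) * y := map_lin θ x y
  have hθy : ∀ σ : K →+* ℂ, ‖σ (θ : K) * y‖ ≤ (2 : ℝ) ^ h * |(y : ℝ)| := fun σ => by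
    rw [norm_mul, Complex.norm_intCast]
    exact mul_le_mul_of_nonneg_right (hθh σ) (abs_nonneg _)
  have hh2 : (2 : ℝ) ^ h ≤ (2 : ℝ) ^ h * |(y : ℝ)| := le_mul_of_one_le_right (by positivity) hy1
  have hxb : |(x : ℝ)| ≤ 2 * ((2 : ℝ) ^ h * |(y : ℝ)|) := by
    have h1 : (x : ℂ) = σ₁ β + σ₁ (θ : K) * y := by rw [hlin]; ring
    rw [← Complex.norm_intCast, h1]
    linarith [norm_add_le (σ₁ β) (σ₁ (θ : K) * y), hθy σ₁]
  have hup : ∀ σ : K →+* ℂ, ‖σ β‖ ≤ (2 : ℝ) ^ a₀ := fun σ => by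
    have h3 : (2 : ℝ) ^ h * |(y : ℝ)| * 4 ≤ (2 : ℝ) ^ a₀ := by
      refine (mul_le_mul_of_nonneg_right (mul_le_mul_of_nonneg_left hyY (by positivity))
        (by norm_num)).trans ?_
      rw [show (4 : ℝ) = 2 ^ 2 by norm_num, ← pow_add, ← pow_add]
      exact pow_le_pow_right₀ one_le_two (by omega)
    rw [hlin]
    refine (norm_sub_le _ _).trans ?_
    rw [Complex.norm_intCast]
    linarith [hθy σ, mul_nonneg (pow_pos (show (0 : ℝ) < 2 by norm_num) h).le (abs_nonneg (y : ℝ))]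
  have hM1 : (1 : ℝ) ≤ |(M : ℝ)| := by exact_mod_cast Int.one_le_abs hM
  refine abs_log_le_of_two_pow ?_ ((hup σ).trans
    (pow_le_pow_right₀ one_le_two (Nat.le_mul_of_pos_left _ (by omega))))
  refine (hM1.trans_eq (prod_norm_eq hnorm).symm).trans ?_
  rw [← mul_prod_erase univ _ (mem_univ σ), mul_comm]
  refine mul_le_mul_of_nonneg_right ?_ (norm_nonneg _)
  refine (prod_le_prod (fun τ _ => norm_nonneg _) fun τ _ => hup τ).trans ?_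
  rw [prod_const, card_erase_of_mem (mem_univ σ), card_univ, Embeddings.card, hfin, ← pow_mul,
    mul_comm a₀]
  exact pow_le_pow_right₀ one_le_two (Nat.mul_le_mul_right _ (Nat.sub_le _ _))

/-- **The decomposition**, with bounded exponents. -/
theorem exists_units_form {n h Y : ℕ} (hfin : finrank ℚ K = n) (hn : 1 ≤ n) (hh : 1 ≤ h)
    {u : Fin (rank K) → (𝓞 K)ˣ} (hu : IsMaxRank u)
    (huh : ∀ i (σ : K →+* ℂ), |Real.log ‖σ (u i : K)‖| ≤ h) {M : ℤ} (hM : M ≠ 0)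
    (hMh : M.natAbs ≤ 2 ^ h) (β : 𝓞 K) (hnorm : Algebra.norm ℚ (β : K) = (M : ℚ))
    (hlogβ : ∀ σ : K →+* ℂ,
      |Real.log ‖σ (β : K)‖| ≤ ((n * (2 * h + 3 + Y) : ℕ) : ℝ)) :
    ∃ (k : Fin (rank K) → ℤ) (γ w : 𝓞 K), (γ : K) * ((unitPow u k : (𝓞 K)ˣ) : K) = β ∧
      (M.natAbs : 𝓞 K) = γ * w ∧ (∀ σ : K →+* ℂ, σ (γ : K) ≠ 0) ∧
      (∀ σ : K →+* ℂ, |Real.log ‖σ (γ : K)‖| ≤ ((2 * (n * h) : ℕ) : ℝ)) ∧
      ∀ i, (k i).natAbs ≤ 2 ^ (unitExp n h + 8 * n * h + Nat.log 2 Y + 1) := by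
  obtain ⟨k, hk⟩ := exists_decomposition hu huh hM hnorm
  set c := Real.log |(M : ℝ)| / finrank ℚ K with hc
  set U : (𝓞 K)ˣ := unitPow u k with hU
  have hM1 : (1 : ℝ) ≤ |(M : ℝ)| := by exact_mod_cast Int.one_le_abs hM
  have hc0 : 0 ≤ c := div_nonneg (Real.log_nonneg hM1) (Nat.cast_nonneg _)
  have hch : c ≤ h := by
    refine (div_le_self (Real.log_nonneg hM1) (by exact_mod_cast finrank_pos)).trans ?_
    refine (Real.log_le_log (by linarith) (show |(M : ℝ)| ≤ (2 : ℝ) ^ h by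
      rw [← Int.cast_abs, ← Int.natCast_natAbs, Int.cast_natCast]
      exact_mod_cast hMh)).trans ?_
    rw [Real.log_pow]
    exact mul_le_of_le_one_right (Nat.cast_nonneg _) (Real.log_two_lt_d9.le.trans (by norm_num))
  have hrh : ((rank K * h : ℕ) : ℝ) + h ≤ ((2 * (n * h) : ℕ) : ℝ) := by
    have h1 : rank K * h + h ≤ 2 * (n * h) := by
      have := rank_add_one_le hfin
      nlinarith
    exact_mod_cast h1
  set X := n * (2 * h + 3 + Y) + 2 * (n * h) with hX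
  have hUlog : ∀ σ : K →+* ℂ, |Real.log ‖σ (U : K)‖| ≤ (X : ℕ) := fun σ => by
    have h1 := abs_le.1 (hlogβ σ)
    have h2 := abs_le.1 (hk σ)
    rw [abs_le, hX, Nat.cast_add]
    constructor <;> linarith
  have hX1 : 1 ≤ X := by
    have := Nat.mul_pos (show 0 < n by omega) hh
    omega
  have hβ0 : (β : K) ≠ 0 := fun e => hM (by
    rw [e, Algebra.norm_zero] at hnorm; exact_mod_cast hnorm.symm)
  set γ : 𝓞 K := β * ((U⁻¹ : (𝓞 K)ˣ) : 𝓞 K) with hγ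
  have hγU : (γ : K) * (U : K) = β := by
    rw [← map_mul, hγ, mul_assoc, ← Units.val_mul, inv_mul_cancel, Units.val_one, mul_one]
  have hγ0 : ∀ σ : K →+* ℂ, σ (γ : K) ≠ 0 := fun σ e => (map_ne_zero σ).2 hβ0 (by
    rw [← hγU, map_mul, e, zero_mul])
  obtain ⟨w, hw⟩ : γ ∣ (M.natAbs : 𝓞 K) := by
    have h1 : Algebra.norm ℤ β = M := by
      have h2 := Algebra.coe_norm_int β
      rw [hnorm] at h2
      exact_mod_cast h2
    rw [hγ, Units.mul_right_dvd, ← h1]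
    exact dvd_natAbs_norm β
  refine ⟨k, γ, w, hγU, hw, hγ0, fun σ => ?_, fun i => ?_⟩
  · have h1 : Real.log ‖σ (β : K)‖ = Real.log ‖σ (γ : K)‖ + Real.log ‖σ (U : K)‖ := by
      rw [← hγU, map_mul, norm_mul, Real.log_mul (norm_ne_zero_iff.2 (hγ0 σ))
        (norm_ne_zero_iff.2 (map_unit_ne_zero σ U))]
    have h2 := abs_le.1 (hk σ)
    rw [abs_le]
    constructor <;> linarith
  · refine ((exponent_le (injective_unitPow hu) huh hX1 hUlog i).trans ?_).trans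
      (exponent_le_two_pow hn hh)
    refine Nat.mul_le_mul_left _ (Nat.pow_le_pow_right two_pos ?_)
    rw [hfin, unitExp]
    have := rank_add_one_le hfin
    gcongr
    omega

/-- A field containing three conjugates of `K`. -/
theorem exists_field {n : ℕ} (hfin : finrank ℚ K = n) (σ₁ σ₂ σ₃ : K →+* ℂ) :
    ∃ (F : IntermediateField ℚ ℂ) (_ : NumberField F) (τ₁ τ₂ τ₃ : K →+* F),
      finrank ℚ F ≤ n ^ 3 ∧ (∀ z, (τ₁ z : ℂ) = σ₁ z) ∧ (∀ z, (τ₂ z : ℂ) = σ₂ z) ∧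
      ∀ z, (τ₃ z : ℂ) = σ₃ z := by
  let R : (K →+* ℂ) → IntermediateField ℚ ℂ := fun σ => σ.toRatAlgHom.fieldRange
  have hRfin : ∀ σ, FiniteDimensional ℚ (R σ) := fun σ => FiniteDimensional.of_finrank_pos
    (by rw [finrank_fieldRange]; exact finrank_pos)
  have := hRfin σ₁
  have := hRfin σ₂
  have := hRfin σ₃
  have : FiniteDimensional ℚ (R σ₁ ⊔ R σ₂ : IntermediateField ℚ ℂ) :=
    IntermediateField.finiteDimensional_sup _ _
  have : FiniteDimensional ℚ (R σ₁ ⊔ R σ₂ ⊔ R σ₃ : IntermediateField ℚ ℂ) :=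
    IntermediateField.finiteDimensional_sup _ _
  refine ⟨R σ₁ ⊔ R σ₂ ⊔ R σ₃, {}, σ₁.codRestrict _ fun z =>
      (le_sup_of_le_left le_sup_left : R σ₁ ≤ R σ₁ ⊔ R σ₂ ⊔ R σ₃) ⟨z, rfl⟩,
    σ₂.codRestrict _ fun z =>
      (le_sup_of_le_left le_sup_right : R σ₂ ≤ R σ₁ ⊔ R σ₂ ⊔ R σ₃) ⟨z, rfl⟩,
    σ₃.codRestrict _ fun z =>
      (le_sup_right : R σ₃ ≤ R σ₁ ⊔ R σ₂ ⊔ R σ₃) ⟨z, rfl⟩,
    ?_, fun _ => rfl, fun _ => rfl, fun _ => rfl⟩
  refine (IntermediateField.finrank_sup_le _ _).trans ((Nat.mul_le_mul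
    (IntermediateField.finrank_sup_le _ _) le_rfl).trans ?_)
  simp only [R, finrank_fieldRange, hfin]
  exact le_of_eq (by ring)

omit [NumberField K] in
/-- The differences of conjugates in a field. -/
theorem conj_gap {n h : ℕ} {F : Type*} [Field F] [NumberField F] (hdeg : finrank ℚ F ≤ n ^ 3)
    {θ : 𝓞 K} (hθh : ∀ σ : K →+* ℂ, ‖σ (θ : K)‖ ≤ (2 : ℝ) ^ h) (τ τ' : K →+* F)
    (ρ : F →+* ℂ) : ‖ρ (τ (θ : K) - τ' (θ : K))‖ ≤ (2 : ℝ) ^ (h + 1) ∧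
      (τ (θ : K) ≠ τ' (θ : K) →
        1 ≤ (2 : ℝ) ^ gapExp n h * ‖ρ (τ (θ : K) - τ' (θ : K))‖) := by
  have hdiff : ∀ ρ : F →+* ℂ, ‖ρ (τ (θ : K) - τ' (θ : K))‖ ≤ (2 : ℝ) ^ (h + 1) := fun ρ => by
    rw [map_sub, pow_succ]
    refine (norm_sub_le _ _).trans ?_
    have h1 : ‖ρ (τ (θ : K))‖ ≤ (2 : ℝ) ^ h := hθh (ρ.comp τ)
    have h2 : ‖ρ (τ' (θ : K))‖ ≤ (2 : ℝ) ^ h := hθh (ρ.comp τ')
    linarith
  refine ⟨hdiff ρ, fun hne => ?_⟩
  have hint : ∀ τ : K →+* F, IsIntegral ℤ (τ (θ : K)) := fun τ =>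
    map_isIntegral_int τ θ.isIntegral_coe
  have h1 := one_le_pow_mul_norm (K := F) (z := ⟨_, (hint τ).sub (hint τ')⟩)
    (fun e => hne (sub_eq_zero.1 (congrArg Subtype.val e))) hdeg (one_le_pow₀ one_le_two) hdiff ρ
  rwa [← pow_mul, mul_comm (h + 1)] at h1

/-- Conjugates of `θ` are not close. -/
theorem conj_gap_complex {n h : ℕ} (hfin : finrank ℚ K = n) {θ : 𝓞 K}
    (hθh : ∀ σ : K →+* ℂ, ‖σ (θ : K)‖ ≤ (2 : ℝ) ^ h) {σ σ' : K →+* ℂ}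
    (hne : σ (θ : K) ≠ σ' (θ : K)) :
    1 ≤ (2 : ℝ) ^ gapExp n h * ‖σ (θ : K) - σ' (θ : K)‖ := by
  obtain ⟨F, hNF, τ, τ', -, hdeg, hτ, hτ', -⟩ := exists_field hfin σ σ' σ'
  have h1 := (conj_gap hdeg hθh τ τ' F.val.toRingHom).2 fun e =>
    hne (by rw [← hτ, ← hτ', e])
  simpa [hτ, hτ'] using h1

/-- **The small logarithm.** -/
theorem log_small {t₁ t₂ t₃ : ℂ} {x y : ℤ} {h e : ℕ} (g12 : 1 ≤ (2 : ℝ) ^ e * ‖t₁ - t₂‖)
    (g13 : 1 ≤ (2 : ℝ) ^ e * ‖t₁ - t₃‖) (h23 : ‖t₂ - t₃‖ ≤ (2 : ℝ) ^ (h + 1)) (hne23 : t₂ ≠ t₃)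
    (hb : ∀ t ∈ ({t₁, t₂, t₃} : Set ℂ), (x : ℂ) - t * y ≠ 0)
    (hb1 : ‖(x : ℂ) - t₁ * y‖ ≤ (2 : ℝ) ^ h)
    (hy : (2 : ℝ) ^ (2 * h + 4 + 2 * e) ≤ |(y : ℝ)|) :
    let P := (t₁ - t₃) / (t₁ - t₂) * (((x : ℂ) - t₂ * y) / ((x : ℂ) - t₃ * y))
    P ≠ 0 ∧ Complex.log P ≠ 0 ∧ ‖Complex.log P‖ ≤ 1 ∧
      ‖Complex.log P‖ ≤ (2 : ℝ) ^ (2 * h + 3 + 2 * e) / |(y : ℝ)| := by
  intro P
  set b₁ := (x : ℂ) - t₁ * y with hb₁
  set b₂ := (x : ℂ) - t₂ * y with hb₂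
  set b₃ := (x : ℂ) - t₃ * y with hb₃
  have e1 : b₁ ≠ 0 := hb _ (by simp)
  have e2 : b₂ ≠ 0 := hb _ (by simp)
  have e3 : b₃ ≠ 0 := hb _ (by simp)
  have hne : ∀ {t : ℂ}, 1 ≤ (2 : ℝ) ^ e * ‖t₁ - t‖ → t₁ - t ≠ 0 := fun g h0 => by
    rw [h0, norm_zero, mul_zero] at g; exact absurd g (by norm_num)
  have hne12 := hne g12
  have hne13 := hne g13
  have hy1 : (1 : ℝ) ≤ |(y : ℝ)| := le_trans (one_le_pow₀ one_le_two) hy
  have hP1 : P - 1 = (t₂ - t₃) * b₁ / ((t₁ - t₂) * b₃) := by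
    show (t₁ - t₃) / (t₁ - t₂) * (b₂ / b₃) - 1 = _
    rw [div_mul_div_comm, div_sub_one (mul_ne_zero hne12 e3)]
    congr 1
    simp only [hb₁, hb₂, hb₃]
    ring
  have hPne : P ≠ 1 := fun h0 => by
    rw [h0, sub_self, eq_comm, div_eq_zero_iff] at hP1
    rcases hP1 with h1 | h1
    · exact mul_ne_zero (sub_ne_zero.2 hne23) e1 h1
    · exact mul_ne_zero hne12 e3 h1
  set Q := (2 : ℝ) ^ (2 * h + 2 + 2 * e) / |(y : ℝ)| with hQ
  have hQ2 : Q ≤ 1 / 2 := by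
    rw [hQ, div_le_div_iff₀ (by linarith) two_pos, one_mul, ← pow_succ]
    exact le_trans (pow_le_pow_right₀ one_le_two (by omega)) hy
  have hb3y : |(y : ℝ)| ≤ (2 : ℝ) ^ (e + 1) * ‖b₃‖ := by
    have h1 : b₃ - b₁ = (t₁ - t₃) * y := by rw [hb₁, hb₃]; ring
    have h2 := norm_sub_le b₃ b₁
    rw [h1, norm_mul, Complex.norm_intCast] at h2
    have h4 : |(y : ℝ)| ≤ (2 : ℝ) ^ e * (‖t₁ - t₃‖ * |(y : ℝ)|) := by
      rw [← mul_assoc]; exact le_mul_of_one_le_left (abs_nonneg _) g13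
    have h5 : (2 : ℝ) ^ e * (2 : ℝ) ^ h * 2 ≤ |(y : ℝ)| := by
      refine le_trans ?_ hy
      rw [← pow_add, ← pow_succ]
      exact pow_le_pow_right₀ one_le_two (by omega)
    have h6 := mul_le_mul_of_nonneg_left (h2.trans (add_le_add le_rfl hb1))
      (pow_pos (show (0 : ℝ) < 2 by norm_num) e).le
    rw [pow_succ]
    linarith
  have hPsmall : ‖P - 1‖ ≤ Q := by
    rw [hP1, norm_div, norm_mul, norm_mul, hQ,
      div_le_div_iff₀ (mul_pos (norm_pos_iff.2 hne12) (norm_pos_iff.2 e3)) (by linarith)]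
    calc ‖t₂ - t₃‖ * ‖b₁‖ * |(y : ℝ)|
        ≤ (2 : ℝ) ^ (h + 1) * (2 : ℝ) ^ h * ((2 : ℝ) ^ e * ‖t₁ - t₂‖ *
          ((2 : ℝ) ^ (e + 1) * ‖b₃‖)) :=
          mul_le_mul (mul_le_mul h23 hb1 (norm_nonneg _) (by positivity))
            (hb3y.trans (le_mul_of_one_le_left (by positivity) g12)) (abs_nonneg _) (by positivity)
      _ = _ := by simp only [pow_add, two_mul]; ring
  have hP0 : P ≠ 0 := mul_ne_zero (div_ne_zero hne13 hne12) (div_ne_zero e2 e3)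
  have hlog := Complex.norm_log_one_add_half_le_self (z := P - 1) (hPsmall.trans hQ2)
  rw [add_sub_cancel] at hlog
  refine ⟨hP0, fun h0 => hPne (by rw [← Complex.exp_log hP0, h0, Complex.exp_zero]),
    by linarith, ?_⟩
  rw [show (2 : ℝ) ^ (2 * h + 3 + 2 * e) / |(y : ℝ)| = 2 * Q by rw [hQ]; ring]
  linarith [norm_nonneg (P - 1)]

end FA.BakerExplicit.EffectiveThue

end
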