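import Fermat.Agent.BakerExplicit.ThueSteps
import Fermat.Agent.BakerExplicit.ThueNumeric
import Fermat.Agent.BakerExplicit.UnitSystem

/-!
# Unit equations in number fields, effectively

For algebraic integers `a + b + c = 0` of bounded norm every number is a bounded one times a unit
of the system. Where `a / b` is smallest, `-c / b` is near `1`, so a linear form in logarithms with
exponents `O (log ‖a / b‖)` is exponentially small, and Baker's theorem bounds it.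
-/

set_option autoImplicit false

noncomputable section

namespace FA.BakerExplicit.EffectiveUnits

open Finset NumberField NumberField.Units Module UnitExponents EffectiveThue

/-- The size of a number of norm at most `2 ^ h` reduced by the units. -/
def reducedSize (d H h : ℕ) : ℕ := (d + 1) * H + h

/-- The size of the numbers in the linear form. -/
def formLog (d H h : ℕ) : ℕ := 4 * reducedSize d H h + 8

/-- The constant part of the exponents in the linear form. -/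
def formExp (d H h : ℕ) : ℕ :=
  2 * d + h + 2 * reducedSize d H h + 3 + 2 * d * (2 * (d * H) + 5) + formLog d H h

/-- The bound for `|log ‖a / b‖|`, the logarithms of the units being at most `H`. -/
def ratioBound (d H h : ℕ) : ℕ :=
  2 * 3 + 2 * (2 * kappa (d + 2)) ^ (2 * kappa (d + 2)) *
    ((2 ^ (4 * (d + 2) ^ 2 + 18) * d * (2 * (formLog d H h + formExp d H h + 2))) ^
      kappa (d + 2)) ^ 2

/-- **The bound for the logarithm, to base `2`, of the ratio of two terms.** -/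
def unitEquationBound (d e h : ℕ) : ℕ := 2 * ratioBound d (UnitSystem.unitBound d e) h

/-- The inequality solved. -/
theorem le_ratioBound {d H h T N : ℕ} (hd : 1 ≤ d) (hN : N ≤ d + 2)
    (hT : T ≤ 3 + baseAlg N d (formLog d H h)
      (formExp d H h + Nat.log 2 (T + 1) + 1) ^ kappa N) : T ≤ ratioBound d H h := by
  set κ := kappa (d + 2) with hκ
  set D := (2 ^ (4 * (d + 2) ^ 2 + 18) * d * (2 * (formLog d H h + formExp d H h + 2))) ^ κ with hD
  have hpos : 1 ≤ baseAlg (d + 2) d (formLog d H h) (formExp d H h + Nat.log 2 (T + 1) + 1) :=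
    Nat.mul_pos (Nat.mul_pos (Nat.two_pow_pos _) hd) (by omega)
  have hlog : Nat.log 2 (T + 1) ≤ Nat.log 2 T + 1 := by
    rcases Nat.eq_zero_or_pos T with rfl | hT0
    · simp
    · rw [← Nat.log_mul_base one_lt_two hT0.ne']
      exact Nat.log_mono_right (by omega)
  have hb : baseAlg N d (formLog d H h) (formExp d H h + Nat.log 2 (T + 1) + 1) ^ kappa N ≤
      D * (Nat.log 2 T + 1) ^ κ := by
    refine ((Nat.pow_le_pow_left (baseAlg_mono hN) _).trans
      (Nat.pow_le_pow_right hpos (kappa_mono hN))).trans ?_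
    rw [hD, ← mul_pow]
    refine Nat.pow_le_pow_left ?_ _
    rw [baseAlg, mul_assoc (2 ^ (4 * (d + 2) ^ 2 + 18) * d)]
    refine Nat.mul_le_mul_left _ ?_
    nlinarith [Nat.zero_le (Nat.log 2 T)]
  have h1 := le_of_le_add_mul_log_pow (X := T) (u := 3) (D := D) (κ := κ)
    (by simp only [hκ, kappa]; omega) (hT.trans (Nat.add_le_add_left hb _))
  exact h1

variable {K : Type*} [Field K] [NumberField K]

/-- A number of bounded norm is a bounded one times a unit of the system. -/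
theorem exists_reduced {d H h : ℕ} (hd : finrank ℚ K ≤ d) {u : Fin (rank K) → (𝓞 K)ˣ}
    (hu : IsMaxRank u) (huh : ∀ i (σ : K →+* ℂ), |Real.log ‖σ (u i : K)‖| ≤ H) {a : 𝓞 K}
    (ha : a ≠ 0) (hah : (Algebra.norm ℤ a).natAbs ≤ 2 ^ h) :
    ∃ (k : Fin (rank K) → ℤ) (γ w : 𝓞 K), (γ : K) * ((unitPow u k : (𝓞 K)ˣ) : K) = a ∧
      ((Algebra.norm ℤ a).natAbs : 𝓞 K) = γ * w ∧ γ ≠ 0 ∧
      ∀ σ : K →+* ℂ, |Real.log ‖σ (γ : K)‖| ≤ (reducedSize d H h : ℕ) := by
  set M := Algebra.norm ℤ a with hM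
  have hM0 : M ≠ 0 := Algebra.norm_ne_zero_iff.2 ha
  have hnorm : Algebra.norm ℚ (a : K) = (M : ℚ) := (Algebra.coe_norm_int a).symm
  obtain ⟨k, hk⟩ := exists_decomposition hu huh hM0 hnorm
  set c := Real.log |(M : ℝ)| / finrank ℚ K with hc
  set U : (𝓞 K)ˣ := unitPow u k with hU
  have hM1 : (1 : ℝ) ≤ |(M : ℝ)| := by exact_mod_cast Int.one_le_abs hM0
  have hc0 : 0 ≤ c := div_nonneg (Real.log_nonneg hM1) (Nat.cast_nonneg _)
  have hch : c ≤ h := by
    refine (div_le_self (Real.log_nonneg hM1) (by exact_mod_cast finrank_pos)).trans ?_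
    refine (Real.log_le_log (by linarith) (show |(M : ℝ)| ≤ (2 : ℝ) ^ h by
      rw [← Int.cast_abs, ← Int.natCast_natAbs, Int.cast_natCast]
      exact_mod_cast hah)).trans ?_
    rw [Real.log_pow]
    exact mul_le_of_le_one_right (Nat.cast_nonneg _) (Real.log_two_lt_d9.le.trans (by norm_num))
  set γ : 𝓞 K := a * ((U⁻¹ : (𝓞 K)ˣ) : 𝓞 K) with hγ
  have hγU : (γ : K) * (U : K) = a := by
    rw [← map_mul, hγ, mul_assoc, ← Units.val_mul, inv_mul_cancel, Units.val_one, mul_one]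
  have hγ0 : γ ≠ 0 := mul_ne_zero ha (Units.ne_zero _)
  obtain ⟨w, hw⟩ : γ ∣ (M.natAbs : 𝓞 K) := by
    rw [hγ, Units.mul_right_dvd]
    exact dvd_natAbs_norm a
  refine ⟨k, γ, w, hγU, hw, hγ0, fun σ => ?_⟩
  have hr : rank K * H + h ≤ reducedSize d H h := by
    have : rank K * H ≤ (d + 1) * H := Nat.mul_le_mul_right _ (by
      have := rank_add_one_le (K := K) rfl
      omega)
    rw [reducedSize]
    omega
  have hr' : ((rank K * H : ℕ) : ℝ) + h ≤ (reducedSize d H h : ℕ) := by exact_mod_cast hr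
  have h1 : Real.log ‖σ (a : K)‖ = Real.log ‖σ (γ : K)‖ + Real.log ‖σ (U : K)‖ := by
    rw [← hγU, map_mul, norm_mul, Real.log_mul
      (norm_ne_zero_iff.2 ((map_ne_zero σ).2 (RingOfIntegers.coe_ne_zero_iff.2 hγ0)))
      (norm_ne_zero_iff.2 (map_unit_ne_zero σ U))]
  have h2 := abs_le.1 (hk σ)
  rw [abs_le]
  constructor <;> linarith

/-- The logarithms of a ratio of bounded norms are bounded from below by the others. -/
theorem abs_log_ratio_le {d h X : ℕ} (hd : finrank ℚ K ≤ d) {b c : 𝓞 K} (hb : b ≠ 0)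
    (hc : c ≠ 0) (hbh : (Algebra.norm ℤ b).natAbs ≤ 2 ^ h)
    (hle : ∀ σ : K →+* ℂ, Real.log ‖σ (c : K) / σ (b : K)‖ ≤ (X : ℕ)) (σ : K →+* ℂ) :
    |Real.log ‖σ (c : K) / σ (b : K)‖| ≤ ((d * X + h : ℕ) : ℝ) := by
  classical
  have hd1 : 1 ≤ d := le_trans finrank_pos hd
  have hne : ∀ {z : 𝓞 K}, z ≠ 0 → ∀ τ : K →+* ℂ, ‖τ (z : K)‖ ≠ 0 := fun hz τ =>
    norm_ne_zero_iff.2 ((map_ne_zero τ).2 (RingOfIntegers.coe_ne_zero_iff.2 hz))
  have hsum : ∀ z : 𝓞 K, z ≠ 0 → ∑ τ : K →+* ℂ, Real.log ‖τ (z : K)‖ =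
      Real.log ((Algebra.norm ℤ z).natAbs : ℝ) := fun z hz => by
    rw [← Real.log_prod fun τ _ => hne hz τ,
      prod_norm_eq (M := Algebra.norm ℤ z) (Algebra.coe_norm_int z).symm, Nat.cast_natAbs,
      Int.cast_abs]
  have h1 : ∑ τ : K →+* ℂ, Real.log ‖τ (c : K) / τ (b : K)‖ ≥ -(h : ℝ) := by
    simp only [norm_div]
    simp only [Real.log_div (hne hc _) (hne hb _), sum_sub_distrib, hsum c hc, hsum b hb]
    have e1 : (0 : ℝ) ≤ Real.log ((Algebra.norm ℤ c).natAbs : ℝ) := Real.log_natCast_nonneg _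
    have e2 : Real.log ((Algebra.norm ℤ b).natAbs : ℝ) ≤ h := by
      refine (Real.log_le_log (by exact_mod_cast Int.natAbs_pos.2 (Algebra.norm_ne_zero_iff.2 hb))
        (show ((Algebra.norm ℤ b).natAbs : ℝ) ≤ (2 : ℝ) ^ h by exact_mod_cast hbh)).trans ?_
      rw [Real.log_pow]
      exact mul_le_of_le_one_right (Nat.cast_nonneg _) (Real.log_two_lt_d9.le.trans (by norm_num))
    linarith
  rw [← add_sum_erase _ _ (mem_univ σ)] at h1
  have h2 := sum_le_card_nsmul (univ.erase σ)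
    (fun τ : K →+* ℂ => Real.log ‖τ (c : K) / τ (b : K)‖) (X : ℝ) fun τ _ => hle τ
  rw [card_erase_of_mem (mem_univ _), card_univ, Embeddings.card, nsmul_eq_mul] at h2
  have h3 : ((finrank ℚ K - 1 : ℕ) : ℝ) * X ≤ ((d * X : ℕ) : ℝ) := by
    rw [← Nat.cast_mul]
    exact Nat.cast_le.2 (Nat.mul_le_mul_right _ (by omega))
  have h4 : (X : ℝ) ≤ ((d * X : ℕ) : ℝ) := Nat.cast_le.2 (Nat.le_mul_of_pos_left _ hd1)
  rw [abs_le, Nat.cast_add]
  have := hle σ
  constructor <;> linarith [(Nat.cast_nonneg h : (0 : ℝ) ≤ h)]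

set_option maxHeartbeats 1000000 in
/-- **Baker's theorem applied**: a number near `1` which is a bounded one times a bounded product
of the units. -/
theorem form_bound {d r H A C : ℕ} {ψ : K →+* ℂ} (hd : finrank ℚ K ≤ d)
    (hA : 4 * A + 8 ≤ C) (hHA : H ≤ A) (hrd : r + 2 ≤ d + 2) {u : Fin r → (𝓞 K)ˣ}
    (huh : ∀ i (σ : K →+* ℂ), |Real.log ‖σ (u i : K)‖| ≤ H) {m : Fin r → ℤ} {E : ℕ}
    (hm : ∀ i, (m i).natAbs ≤ 2 ^ E) {g : K} {D : ℕ} (hD0 : 0 < D) (hDC : D ≤ 2 ^ C)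
    (hint : IsIntegral ℤ ((D : K) * g)) (hg0 : g ≠ 0)
    (hg : ∀ σ : K →+* ℂ, |Real.log ‖σ g‖| ≤ ((2 * A : ℕ) : ℝ)) {P : ℂ}
    (hP : P = ψ g * ∏ i, ψ (u i : K) ^ m i) (hΛ0 : Complex.log P ≠ 0)
    (hΛ1 : ‖Complex.log P‖ ≤ 1) :
    1 / (2 : ℝ) ^ (baseAlg (r + 2) d C (E + (d + C + 2)) ^ kappa (r + 2)) ≤ ‖Complex.log P‖ := by
  classical
  have hne : ∀ σ : K →+* ℂ, σ g ≠ 0 := fun σ => (map_ne_zero σ).2 hg0
  let α : Fin (r + 1 + 1) → K := Fin.cons g (Fin.cons 1 fun i => (u i : K))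
  let l : Fin (r + 1 + 1) → ℂ := Fin.cons (Complex.log (ψ g))
    (Fin.cons (2 * (Real.pi : ℂ) * Complex.I) fun i => Complex.log (ψ (u i : K)))
  have hψu : ∀ i, ψ (u i : K) ≠ 0 := fun i => map_unit_ne_zero ψ (u i)
  have hexp : ∀ j, Complex.exp (l j) = ψ (α j) := by
    refine Fin.forall_fin_succ.2 ⟨?_, Fin.forall_fin_succ.2 ⟨?_, ?_⟩⟩
    · simp only [l, α, Fin.cons_zero]
      exact Complex.exp_log (hne ψ)
    · simp only [l, α, Fin.cons_succ, Fin.cons_zero, map_one, Complex.exp_two_pi_mul_I]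
    · intro i
      simp only [l, α, Fin.cons_succ]
      exact Complex.exp_log (hψu i)
  have hl : ∀ j, ‖l j‖ ≤ (C : ℝ) := by
    refine Fin.forall_fin_succ.2 ⟨?_, Fin.forall_fin_succ.2 ⟨?_, ?_⟩⟩
    · simp only [l, Fin.cons_zero]
      exact (norm_log_le (hg ψ)).trans (Nat.cast_le.2 (by omega))
    · simp only [l, Fin.cons_succ, Fin.cons_zero]
      have h8 : (8 : ℝ) ≤ C := by exact_mod_cast (by omega : 8 ≤ C)
      simp only [norm_mul, Complex.norm_I, Complex.norm_real, Complex.norm_ofNat, Real.norm_eq_abs,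
        abs_of_pos Real.pi_pos]
      linarith [Real.pi_le_four]
    · intro i
      simp only [l, Fin.cons_succ]
      exact (norm_log_le (huh i ψ)).trans (Nat.cast_le.2 (by omega))
  have hhouse : ∀ j, house (α j) ≤ (2 : ℝ) ^ C := by
    have hpow : ∀ {z : ℂ} {a : ℕ}, z ≠ 0 → |Real.log ‖z‖| ≤ a → 2 * a ≤ C → ‖z‖ ≤ (2 : ℝ) ^ C :=
      fun hz h ha => (le_two_pow_of_abs_log_le (norm_pos_iff.2 hz) h).trans
        (pow_le_pow_right₀ one_le_two ha)
    refine fun j => Algebraic.house_le_of_forall (by positivity) fun ρ => ?_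
    revert j
    refine Fin.forall_fin_succ.2 ⟨?_, Fin.forall_fin_succ.2 ⟨?_, ?_⟩⟩
    · simp only [α, Fin.cons_zero]
      exact hpow (hne ρ) (hg ρ) (by omega)
    · simp only [α, Fin.cons_succ, Fin.cons_zero, map_one, norm_one]
      exact one_le_pow₀ one_le_two
    · intro i
      simp only [α, Fin.cons_succ]
      exact hpow (map_unit_ne_zero ρ (u i)) (huh i ρ) (by omega)
  have hDint : ∀ j, IsIntegral ℤ ((D : K) * α j) := by
    have hnat : IsIntegral ℤ (D : K) := by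
      simpa using isIntegral_algebraMap (R := ℤ) (A := K) (x := (D : ℤ))
    refine Fin.forall_fin_succ.2 ⟨?_, Fin.forall_fin_succ.2 ⟨?_, ?_⟩⟩
    · simpa only [α, Fin.cons_zero] using hint
    · simpa only [α, Fin.cons_succ, Fin.cons_zero, mul_one] using hnat
    · intro i
      simp only [α, Fin.cons_succ]
      exact hnat.mul (RingOfIntegers.isIntegral_coe _)
  set S := Complex.log (ψ g) + ∑ i, (m i : ℂ) * Complex.log (ψ (u i : K)) with hS
  have hexpS : Complex.exp S = P := by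
    rw [hS, Complex.exp_add, Complex.exp_sum, Complex.exp_log (hne ψ), hP]
    congr 1
    exact prod_congr rfl fun i _ => by rw [Complex.exp_int_mul, Complex.exp_log (hψu i)]
  have hP0 : P ≠ 0 := hexpS ▸ Complex.exp_ne_zero _
  obtain ⟨e, he⟩ := Complex.exp_eq_exp_iff_exists_int.1 ((Complex.exp_log hP0).trans hexpS.symm)
  let b : Fin (r + 1 + 1) → ℤ := Fin.cons 1 (Fin.cons e m)
  have hsum : ∑ j, (b j : ℂ) * l j = Complex.log P := by
    simp only [b, l, Fin.sum_univ_succ, Fin.cons_zero, Fin.cons_succ]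
    rw [he, hS]
    push_cast
    ring
  have hem : e.natAbs ≤ 2 ^ (E + (d + C + 2)) := by
    have hterm : ∀ i, ‖(m i : ℂ) * Complex.log (ψ (u i : K))‖ ≤ ((2 ^ E * C : ℕ) : ℝ) := fun i => by
      rw [norm_mul, Complex.norm_intCast, ← Int.cast_abs, ← Int.natCast_natAbs, Int.cast_natCast,
        Nat.cast_mul]
      refine mul_le_mul (Nat.cast_le.2 (hm i)) ?_ (norm_nonneg _) (Nat.cast_nonneg _)
      simpa [l] using hl i.succ.succ
    have hSb : ‖S‖ ≤ ((C + r * (2 ^ E * C) : ℕ) : ℝ) := by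
      have h1 : ‖Complex.log (ψ g)‖ ≤ (C : ℝ) := by simpa [l] using hl 0
      rw [hS]
      push_cast
      refine (norm_add_le _ _).trans (add_le_add h1
        ((norm_sum_le _ _).trans ((sum_le_card_nsmul _ _ ((2 : ℝ) ^ E * C) fun i _ => ?_).trans_eq
          (by simp))))
      simpa using hterm i
    have h3 : (e : ℂ) * (2 * (Real.pi : ℂ) * Complex.I) = Complex.log P - S := by rw [he]; ring
    have h4 : |(e : ℝ)| ≤ 1 + ((C + r * (2 ^ E * C) : ℕ) : ℝ) := by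
      have h5 := congrArg (‖·‖) h3
      simp only [norm_mul, Complex.norm_intCast, Complex.norm_I, Complex.norm_real,
        Complex.norm_ofNat, Real.norm_eq_abs, abs_of_pos Real.pi_pos, mul_one] at h5
      have h6 : |(e : ℝ)| ≤ |(e : ℝ)| * (2 * Real.pi) :=
        le_mul_of_one_le_right (abs_nonneg _) (by linarith [Real.two_le_pi])
      linarith [norm_sub_le (Complex.log P) S]
    rw [← Int.cast_abs, ← Int.natCast_natAbs, Int.cast_natCast] at h4
    have h7 : e.natAbs ≤ 1 + (C + r * (2 ^ E * C)) := by exact_mod_cast h4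
    refine h7.trans ?_
    have h8 : C ≤ 2 ^ E * C := Nat.le_mul_of_pos_left _ (Nat.two_pow_pos _)
    calc 1 + (C + r * (2 ^ E * C)) ≤ (d + 2) * (2 ^ E * C) := by
          have h10 : (r + 2) * (2 ^ E * C) ≤ (d + 2) * (2 ^ E * C) := Nat.mul_le_mul_right _ hrd
          rw [add_mul r 2] at h10
          omega
      _ ≤ 2 ^ (d + 2) * (2 ^ E * 2 ^ C) :=
          Nat.mul_le_mul Nat.lt_two_pow_self.le (Nat.mul_le_mul_left _ Nat.lt_two_pow_self.le)
      _ = _ := by rw [← pow_add, ← pow_add]; ring_nf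
  have hbm : ∀ j, (b j).natAbs ≤ 2 ^ (E + (d + C + 2)) := by
    refine Fin.forall_fin_succ.2 ⟨?_, Fin.forall_fin_succ.2 ⟨?_, ?_⟩⟩
    · simpa [b] using Nat.one_le_two_pow
    · simp only [b, Fin.cons_succ, Fin.cons_zero]
      exact hem
    · intro i
      simpa [b] using (hm i).trans (Nat.pow_le_pow_right two_pos (Nat.le_add_right _ _))
  have hbaker := Algebraic.baker_algebraic_general_bound (d := d) hd ψ hD0 hDint hDC hhouse
    hexp hl hbm (by rw [hsum]; exact hΛ0)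
  rw [hsum] at hbaker
  exact hbaker

/-- The place where `a / b` is smallest. -/
theorem key_bound {d H h T : ℕ} (hd : finrank ℚ K ≤ d) {u : Fin (rank K) → (𝓞 K)ˣ}
    (hu : IsMaxRank u) (huh : ∀ i (σ : K →+* ℂ), |Real.log ‖σ (u i : K)‖| ≤ H) {a b c : 𝓞 K}
    (ha : a ≠ 0) (hb : b ≠ 0) (hc : c ≠ 0) (habc : a + b + c = 0)
    (hbh : (Algebra.norm ℤ b).natAbs ≤ 2 ^ h) (hch : (Algebra.norm ℤ c).natAbs ≤ 2 ^ h)
    (hT : ∀ σ : K →+* ℂ, |Real.log ‖σ (a : K) / σ (b : K)‖| ≤ (T : ℝ)) {ψ : K →+* ℂ}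
    (hψ : Real.log ‖ψ (a : K) / ψ (b : K)‖ ≤ 1 - (T : ℝ)) : T ≤ ratioBound d H h := by
  classical
  have hd1 : 1 ≤ d := le_trans finrank_pos hd
  rcases lt_or_ge T 3 with hT3 | hT3
  · rw [ratioBound]; omega
  have hne : ∀ {z : 𝓞 K}, z ≠ 0 → ∀ σ : K →+* ℂ, σ (z : K) ≠ 0 := fun hz σ =>
    (map_ne_zero σ).2 (RingOfIntegers.coe_ne_zero_iff.2 hz)
  have habc' : (a : K) + b + c = 0 := by exact_mod_cast congrArg (fun z : 𝓞 K => (z : K)) habc
  have hsplit : ∀ σ : K →+* ℂ, σ (c : K) / σ (b : K) = -(1 + σ (a : K) / σ (b : K)) := fun σ => by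
    have e := congrArg σ habc'
    simp only [map_add, map_zero] at e
    have := hne hb σ
    field_simp
    linear_combination e
  -- the logarithms of `c / b`
  have hcb := abs_log_ratio_le (X := T + 1) hd hb hc hbh fun σ => by
    have hpos : 0 < ‖σ (a : K) / σ (b : K)‖ := norm_pos_iff.2 (div_ne_zero (hne ha σ) (hne hb σ))
    have h1 : ‖σ (a : K) / σ (b : K)‖ ≤ Real.exp T := by
      rw [← Real.exp_log hpos]
      exact Real.exp_le_exp.2 ((le_abs_self _).trans (hT σ))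
    have h2 : ‖σ (c : K) / σ (b : K)‖ ≤ Real.exp ((T + 1 : ℕ) : ℝ) := by
      rw [hsplit, norm_neg, Nat.cast_add, Nat.cast_one, Real.exp_add]
      refine (norm_add_le _ _).trans ?_
      rw [norm_one]
      have : (1 : ℝ) ≤ Real.exp T := Real.one_le_exp (Nat.cast_nonneg _)
      have := Real.add_one_le_exp (1 : ℝ)
      nlinarith [Real.exp_pos (T : ℝ)]
    rw [Real.log_le_iff_le_exp (norm_pos_iff.2 (div_ne_zero (hne hc σ) (hne hb σ)))]
    exact h2
  -- the reduced numbers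
  obtain ⟨k₂, γ₂, w₂, hγU₂, hw₂, hγ₂, hlog₂⟩ := exists_reduced hd hu huh hb hbh
  obtain ⟨k₃, γ₃, w₃, hγU₃, hw₃, hγ₃, hlog₃⟩ := exists_reduced hd hu huh hc hch
  set A := reducedSize d H h with hA
  set g : K := -(γ₃ : K) / (γ₂ : K) with hg
  set m : Fin (rank K) → ℤ := fun i => k₃ i - k₂ i with hm
  have hU : ∀ σ : K →+* ℂ, σ ((unitPow u m : (𝓞 K)ˣ) : K) =
      σ ((unitPow u k₃ : (𝓞 K)ˣ) : K) / σ ((unitPow u k₂ : (𝓞 K)ˣ) : K) := fun σ => by
    simp only [map_unitPow, hm, zpow_sub₀ (map_unit_ne_zero σ _), prod_div_distrib]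
  have hratio : ∀ σ : K →+* ℂ, σ g * σ ((unitPow u m : (𝓞 K)ˣ) : K) =
      -(σ (c : K) / σ (b : K)) := fun σ => by
    rw [hU, hg, map_div₀, map_neg, ← hγU₂, ← hγU₃, map_mul, map_mul]
    have := hne hγ₂ σ
    have := map_unit_ne_zero σ (unitPow u k₂)
    field_simp
  have hg0 : g ≠ 0 := div_ne_zero (neg_ne_zero.2 (RingOfIntegers.coe_ne_zero_iff.2 hγ₃))
    (RingOfIntegers.coe_ne_zero_iff.2 hγ₂)
  have hglog : ∀ σ : K →+* ℂ, |Real.log ‖σ g‖| ≤ ((2 * A : ℕ) : ℝ) := fun σ => by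
    rw [hg, map_div₀, map_neg, norm_div, norm_neg,
      Real.log_div (norm_ne_zero_iff.2 (hne hγ₃ σ)) (norm_ne_zero_iff.2 (hne hγ₂ σ))]
    push_cast
    exact (abs_sub _ _).trans (by linarith [hlog₂ σ, hlog₃ σ])
  -- the exponents
  set E₀ := 2 * d * (2 * (d * H) + 5) with hE₀
  set L := Nat.log 2 (T + 1) + 1 with hL
  set E := (d + h + 2 * A + 1) + L + E₀ with hE
  have hrd : rank K ≤ d := by
    have := rank_add_one_le (K := K) rfl
    omega
  have hmE : ∀ i, (m i).natAbs ≤ 2 ^ E := fun i => by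
    have hX : ∀ σ : K →+* ℂ, |Real.log ‖σ ((unitPow u m : (𝓞 K)ˣ) : K)‖| ≤
        ((d * (T + 1) + h + 2 * A + 1 : ℕ) : ℝ) := fun σ => by
      have h1 := congrArg (fun z => Real.log ‖z‖) (hratio σ)
      simp only [norm_mul, norm_neg] at h1
      rw [Real.log_mul (norm_ne_zero_iff.2 ((map_ne_zero σ).2 hg0))
        (norm_ne_zero_iff.2 (map_unit_ne_zero σ _))] at h1
      have h2 := abs_le.1 (hglog σ)
      have h3 := abs_le.1 (hcb σ)
      rw [abs_le, Nat.cast_add _ 1, Nat.cast_add _ (2 * A)]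
      push_cast at h1 h2 h3 ⊢
      constructor <;> linarith
    refine (exponent_le (injective_unitPow hu) huh (X := d * (T + 1) + h + 2 * A + 1) (by omega)
      hX i).trans ?_
    rw [hE, pow_add _ _ E₀]
    refine Nat.mul_le_mul ?_ (Nat.pow_le_pow_right two_pos ?_)
    · rw [pow_add]
      calc d * (T + 1) + h + 2 * A + 1 ≤ (d + h + 2 * A + 1) * (T + 1) := by nlinarith
        _ ≤ _ := Nat.mul_le_mul Nat.lt_two_pow_self.le (Nat.lt_pow_succ_log_self one_lt_two _).le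
    · rw [hE₀]
      gcongr
  -- the small logarithm
  set P := -(ψ (c : K) / ψ (b : K)) with hP
  have hP1 : P = 1 + ψ (a : K) / ψ (b : K) := by rw [hP, hsplit, neg_neg]
  have hsmall : ‖ψ (a : K) / ψ (b : K)‖ ≤ 1 / (2 : ℝ) ^ (T - 1) := by
    rw [← Real.exp_log (norm_pos_iff.2 (div_ne_zero (hne ha ψ) (hne hb ψ)))]
    refine (Real.exp_le_exp.2 hψ).trans ?_
    rw [show (1 : ℝ) - T = -((T - 1 : ℕ) : ℝ) by rw [Nat.cast_sub (by omega)]; push_cast; ring,
      Real.exp_neg, one_div, ← Real.rpow_natCast]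
    refine inv_anti₀ (by positivity) ?_
    rw [Real.rpow_natCast, ← Real.exp_one_pow]
    exact pow_le_pow_left₀ two_pos.le Real.exp_one_gt_two.le _
  have h4 : (4 : ℝ) ≤ (2 : ℝ) ^ (T - 1) := by
    rw [show (4 : ℝ) = 2 ^ 2 by norm_num]
    exact pow_le_pow_right₀ one_le_two (by omega)
  have hhalf : ‖ψ (a : K) / ψ (b : K)‖ ≤ 1 / 2 :=
    hsmall.trans (one_div_le_one_div_of_le two_pos (by linarith))
  have hlog := Complex.norm_log_one_add_half_le_self hhalf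
  rw [← hP1] at hlog
  have hΛ : ‖Complex.log P‖ ≤ 1 / (2 : ℝ) ^ (T - 2) := by
    refine hlog.trans (le_trans (mul_le_mul_of_nonneg_left hsmall (by norm_num)) ?_)
    rw [show T - 1 = T - 2 + 1 by omega, pow_succ]
    have : (0 : ℝ) < 2 ^ (T - 2) := by positivity
    field_simp
    norm_num
  have hΛ0 : Complex.log P ≠ 0 := fun h0 => by
    have hP0 : P ≠ 0 := neg_ne_zero.2 (div_ne_zero (hne hc ψ) (hne hb ψ))
    have h1 : P = 1 := by rw [← Complex.exp_log hP0, h0, Complex.exp_zero]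
    rw [hP1, add_eq_left, div_eq_zero_iff] at h1
    exact h1.elim (hne ha ψ) (hne hb ψ)
  have hw : IsIntegral ℤ (((Algebra.norm ℤ b).natAbs : K) * g) := by
    have e : ((Algebra.norm ℤ b).natAbs : K) = (γ₂ : K) * (w₂ : K) := by
      rw [← map_mul, ← hw₂, map_natCast]
    rw [e, hg, show (γ₂ : K) * (w₂ : K) * (-(γ₃ : K) / (γ₂ : K)) = -(γ₃ : K) * (w₂ : K) by
      have := RingOfIntegers.coe_ne_zero_iff.2 hγ₂; field_simp]
    exact γ₃.isIntegral_coe.neg.mul w₂.isIntegral_coe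
  have hlow := form_bound (ψ := ψ) (A := A) (C := formLog d H h) (r := rank K) hd (by rw [formLog])
    (by rw [hA, reducedSize]; nlinarith) (by omega) huh hmE
    (Int.natAbs_pos.2 (Algebra.norm_ne_zero_iff.2 hb))
    (hbh.trans (Nat.pow_le_pow_right two_pos (by rw [formLog, ← hA, hA, reducedSize]; omega)))
    hw hg0 hglog (P := P) (by rw [hP, ← hratio, map_unitPow]) hΛ0
    (hΛ.trans (div_le_one_of_le₀ (one_le_pow₀ one_le_two) (by positivity)))
  have h5 := hlow.trans hΛ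
  rw [div_le_div_iff₀ (by positivity) (by positivity), one_mul, one_mul] at h5
  have h6 := (pow_le_pow_iff_right₀ (one_lt_two (α := ℝ))).1 h5
  have hEC : E + (d + formLog d H h + 2) = formExp d H h + Nat.log 2 (T + 1) + 1 := by
    rw [hE, hL, hE₀, formExp, ← hA]; omega
  rw [hEC] at h6
  exact le_ratioBound (N := rank K + 2) hd1 (by omega) (by omega)

/-- **The ratio of two terms, any system of units.** -/
theorem ratio_bound {d H h : ℕ} (hd : finrank ℚ K ≤ d) {u : Fin (rank K) → (𝓞 K)ˣ}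
    (hu : IsMaxRank u) (huh : ∀ i (σ : K →+* ℂ), |Real.log ‖σ (u i : K)‖| ≤ H) {a b c : 𝓞 K}
    (ha : a ≠ 0) (hb : b ≠ 0) (hc : c ≠ 0) (habc : a + b + c = 0)
    (hah : (Algebra.norm ℤ a).natAbs ≤ 2 ^ h) (hbh : (Algebra.norm ℤ b).natAbs ≤ 2 ^ h)
    (hch : (Algebra.norm ℤ c).natAbs ≤ 2 ^ h) (σ : K →+* ℂ) :
    |Real.log ‖σ (a : K) / σ (b : K)‖| ≤ (ratioBound d H h : ℕ) := by
  classical
  obtain ⟨ψ, -, hmax⟩ := exists_max_image univ
    (fun τ : K →+* ℂ => |Real.log ‖τ (a : K) / τ (b : K)‖|) ⟨σ, mem_univ σ⟩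
  set T := ⌈|Real.log ‖ψ (a : K) / ψ (b : K)‖|⌉₊ with hT
  have hle : ∀ τ : K →+* ℂ, |Real.log ‖τ (a : K) / τ (b : K)‖| ≤ (T : ℝ) := fun τ =>
    (hmax τ (mem_univ τ)).trans (Nat.le_ceil _)
  have hlt : (T : ℝ) < |Real.log ‖ψ (a : K) / ψ (b : K)‖| + 1 := Nat.ceil_lt_add_one (abs_nonneg _)
  refine (hle σ).trans (Nat.cast_le.2 ?_)
  have hinv : ∀ τ : K →+* ℂ, Real.log ‖τ (b : K) / τ (a : K)‖ =
      -Real.log ‖τ (a : K) / τ (b : K)‖ := fun τ => by
    rw [← Real.log_inv, ← norm_inv, inv_div]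
  rcases le_or_gt (Real.log ‖ψ (a : K) / ψ (b : K)‖) 0 with hs | hs
  · exact key_bound hd hu huh ha hb hc habc hbh hch hle
      (ψ := ψ) (by rw [abs_of_nonpos hs] at hlt; linarith)
  · exact key_bound hd hu huh hb ha hc (by rw [← habc]; ring) hah hch
      (fun τ => by rw [hinv, abs_neg]; exact hle τ)
      (ψ := ψ) (by rw [abs_of_pos hs] at hlt; rw [hinv]; linarith)

/-- **The effective unit equation.** -/
theorem equation_ratio_le {d e h : ℕ} (hd : finrank ℚ K ≤ d) (he : (discr K).natAbs ≤ 2 ^ e)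
    {a b c : 𝓞 K} (ha : a ≠ 0) (hb : b ≠ 0) (hc : c ≠ 0) (habc : a + b + c = 0)
    (hah : (Algebra.norm ℤ a).natAbs ≤ 2 ^ h) (hbh : (Algebra.norm ℤ b).natAbs ≤ 2 ^ h)
    (hch : (Algebra.norm ℤ c).natAbs ≤ 2 ^ h) (σ : K →+* ℂ) :
    ‖σ (a : K)‖ ≤ (2 : ℝ) ^ unitEquationBound d e h * ‖σ (b : K)‖ := by
  obtain ⟨u, hu, huh⟩ := UnitSystem.exists_unit_system (K := K) rfl he
  have hmono : UnitSystem.unitBound (finrank ℚ K) e ≤ UnitSystem.unitBound d e := by
    simp only [UnitSystem.unitBound]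
    gcongr
    · norm_num
  have h1 := ratio_bound hd hu (fun i τ => (huh i τ).trans (Nat.cast_le.2 hmono)) ha hb hc habc
    hah hbh hch σ
  have hb' : σ (b : K) ≠ 0 := (map_ne_zero σ).2 (RingOfIntegers.coe_ne_zero_iff.2 hb)
  have ha' : σ (a : K) ≠ 0 := (map_ne_zero σ).2 (RingOfIntegers.coe_ne_zero_iff.2 ha)
  have h2 := le_two_pow_of_abs_log_le (norm_pos_iff.2 (div_ne_zero ha' hb')) h1
  rw [norm_div, div_le_iff₀ (norm_pos_iff.2 hb')] at h2
  exact h2

/-- The bound for the solutions in units. -/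
def unitSolutionBound (d e h : ℕ) : ℕ := unitEquationBound d e (d * h) + h + h * d

/-- **`α x + β y = γ` in units.** -/
theorem unit_solution_le {d e h : ℕ} (hd : finrank ℚ K ≤ d) (he : (discr K).natAbs ≤ 2 ^ e)
    {α β γ : 𝓞 K} (hα : α ≠ 0) (hβ : β ≠ 0) (hγ : γ ≠ 0)
    (hαh : ∀ σ : K →+* ℂ, ‖σ (α : K)‖ ≤ (2 : ℝ) ^ h)
    (hβh : ∀ σ : K →+* ℂ, ‖σ (β : K)‖ ≤ (2 : ℝ) ^ h)
    (hγh : ∀ σ : K →+* ℂ, ‖σ (γ : K)‖ ≤ (2 : ℝ) ^ h) {x y : (𝓞 K)ˣ}
    (hxy : α * x + β * y = γ) (σ : K →+* ℂ) :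
    ‖σ (x : K)‖ ≤ (2 : ℝ) ^ unitSolutionBound d e h ∧
      ‖σ (y : K)‖ ≤ (2 : ℝ) ^ unitSolutionBound d e h := by
  suffices key : ∀ {α β : 𝓞 K} {x y : (𝓞 K)ˣ}, α ≠ 0 → β ≠ 0 →
      (∀ σ : K →+* ℂ, ‖σ (α : K)‖ ≤ (2 : ℝ) ^ h) → (∀ σ : K →+* ℂ, ‖σ (β : K)‖ ≤ (2 : ℝ) ^ h) →
      α * x + β * y = γ → ‖σ (x : K)‖ ≤ (2 : ℝ) ^ unitSolutionBound d e h from
    ⟨key hα hβ hαh hβh hxy, key hβ hα hβh hαh (by rw [add_comm]; exact hxy)⟩
  intro α β x y hα hβ hαh hβh hxy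
  have hnorm : ∀ {z : 𝓞 K}, (∀ τ : K →+* ℂ, ‖τ (z : K)‖ ≤ (2 : ℝ) ^ h) →
      (Algebra.norm ℤ z).natAbs ≤ 2 ^ (d * h) := fun {z} hz => by
    rw [mul_comm, pow_mul]
    exact norm_le_of_bounded hd Nat.one_le_two_pow fun τ => by push_cast; exact hz τ
  have hunit : ∀ (z : 𝓞 K) (v : (𝓞 K)ˣ), (Algebra.norm ℤ (z * (v : 𝓞 K))).natAbs =
      (Algebra.norm ℤ z).natAbs := fun z v => by
    rw [map_mul, Int.natAbs_mul,
      Int.isUnit_iff_natAbs_eq.1 ((v.isUnit).map (Algebra.norm ℤ)), mul_one]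
  have h1 := equation_ratio_le hd he (a := α * x) (b := -γ) (c := β * y)
    (mul_ne_zero hα x.ne_zero) (neg_ne_zero.2 hγ) (mul_ne_zero hβ y.ne_zero)
    (by linear_combination hxy) (by rw [hunit]; exact hnorm hαh)
    (hnorm fun τ => by simpa using hγh τ)
    (by rw [hunit]; exact hnorm hβh) σ
  simp only [map_mul, map_neg, norm_mul, norm_neg] at h1
  have h2 := one_le_pow_mul_norm hα hd (one_le_pow₀ one_le_two) hαh σ
  rw [← pow_mul] at h2
  calc ‖σ (x : K)‖ ≤ (2 : ℝ) ^ (h * d) * (‖σ (α : K)‖ * ‖σ (x : K)‖) := by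
        rw [← mul_assoc]; exact le_mul_of_one_le_left (norm_nonneg _) h2
    _ ≤ (2 : ℝ) ^ (h * d) * ((2 : ℝ) ^ unitEquationBound d e (d * h) * (2 : ℝ) ^ h) := by
        refine mul_le_mul_of_nonneg_left (h1.trans ?_) (by positivity)
        exact mul_le_mul_of_nonneg_left (hγh σ) (by positivity)
    _ = _ := by rw [unitSolutionBound, ← pow_add, ← pow_add]; ring_nf

end FA.BakerExplicit.EffectiveUnits

end
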